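import Mathlib
import Fermat.Agent.Lib.RiemannNonspecial

/-!
# TRACK 8 (S17), shared lemma (helper6): the SHARP form of Riemann's theorem

`RR_Hyp K F` (Riemann's theorem with an unspecified bound) + the generic non-special divisor of
degree `g` (`RR_nonspecial_finset`) give, WITHOUT duality:

* `S17RS_riemann_eq` : `deg D ≥ 2 g ⇒ dim L(D) = deg D + 1 − g`.

(The classical bound is `2 g − 1`; `2 g` is what the cheap argument gives, and it is enough.)
The consequences (no base points, avoidance of finitely many hyperplanes, exact orders at finitely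
many places) are in `S17/RRAvoid.lean`; this file stays byte-stable.
-/

set_option autoImplicit false

open AlgebraicCurve

namespace Fermat.Agent.S17

open Fermat.Agent.Lib

variable {K F : Type*} [Field K] [Field F] [Algebra K F]

/-- **sharp Riemann**: `dim L(D) = deg D + 1 − g` for `deg D ≥ 2 g`. -/
theorem S17RS_riemann_eq [Infinite K] (h : RR_Hyp K F) (D : Divisor K F)
    (hD : 2 * (RR_genus K F : ℤ) ≤ D.degree) :
    (Module.finrank K (riemannRochSpace D) : ℤ) = D.degree + 1 - RR_genus K F := by
  classical
  obtain ⟨S, hcard, -, hfr⟩ := RR_nonspecial_finset h ∅ (RR_genus K F) le_rfl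
  set A₀ : Divisor K F := ∑ P ∈ S, Finsupp.single P (1 : ℤ) with hA₀
  have hdegA : A₀.degree = RR_genus K F := by
    have := RR_degree_add_sum_single h 0 S
    rw [zero_add, map_zero, zero_add, hcard] at this
    exact this
  have hdeg := h.deg_one
  have hP := h.principal
  have v₀ := h.nonempty.some
  apply le_antisymm _ (RR_riemann_ineq h D)
  have h1 := RR_riemann_ineq h (D - A₀)
  rw [map_sub, hdegA] at h1
  have hpos : 0 < Module.finrank K (riemannRochSpace (D - A₀)) := by
    have : (0 : ℤ) < Module.finrank K (riemannRochSpace (D - A₀)) := by linarith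
    exact_mod_cast this
  obtain ⟨z, hz0, hz⟩ := RR_exists_ne_zero_of_finrank_pos hpos
  have hle : A₀ ≤ D + RR_div hP z := by
    have := (RR_mem_iff_div hP hz0).1 hz
    rw [Finsupp.le_def] at this ⊢
    intro v
    have := this v
    simp only [Finsupp.add_apply, Finsupp.sub_apply, Finsupp.zero_apply] at this ⊢
    linarith
  have h2 := RR_defect_mono hdeg hP v₀ hle
  rw [RR_finrank_add_div hP D hz0, map_add, RR_div_degree, add_zero, hdegA, hfr] at h2
  push_cast at h2
  linarith

end Fermat.Agent.S17
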