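import Mathlib
import Fermat.Agent.S17.RRSharp

/-!
# TRACK 8 (S17), shared lemmas (helper6): consequences of the sharp Riemann theorem

`h : RR_Hyp K F`, `K` infinite, `g = RR_genus K F`.

* `S17RS_mem_iff_ord` : for `f ≠ 0`: `f ∈ L(D) ↔ ∀ v, − D v ≤ ord_v f`;
* `S17RS_finrank_sub_single` : `deg D ≥ 2 g + 1 ⇒ dim L(D − R) + 1 = dim L(D)`;
* `S17RS_not_le_sub_single` : `deg D ≥ 2 g + 1 ⇒ ¬ L(D) ≤ L(D − R)` (no base points);
* `S17RS_two_le_finrank` : `deg D ≥ 2 g + 1 ⇒ 2 ≤ dim L(D)`;
* `S17RS_avoid_subspaces` : (linear algebra) a subspace `V` contains a vector outside finitely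
  many subspaces none of which contains `V`;
* `S17RS_exists_avoid` : `deg D ≥ 2 g + 1`, `T` a finite set of places, `s` a finite set of
  subspaces not containing `L(D)`: there is `f ∈ L(D)` outside all `L(D − R)`, `R ∈ T`, and
  outside all `W ∈ s`;
* `S17RS_ord_eq_of_not_mem` : `f ∈ L(D) \ L(D − R) ⇒ ord_R f = − D R`;
* `S17RS_exists_ord_eq` : `deg D ≥ 2 g + 1`, `T` finite: there is `f ∈ L(D)`, `f ≠ 0`, with
  `ord_R f = − D R` EXACTLY for all `R ∈ T`;
* `S17RS_exists_pole_order` : for `n ≥ 2 g + 1` there is `f ≠ 0` with `ord_O f = − n` and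
  `ord_v f ≥ 0` for `v ≠ O`.
-/

set_option autoImplicit false

open AlgebraicCurve WithZero

namespace Fermat.Agent.S17

open Fermat.Agent.Lib

variable {K F : Type*} [Field K] [Field F] [Algebra K F]

/-- membership in `L(D)` in terms of orders. -/
theorem S17RS_mem_iff_ord {D : Divisor K F} {f : F} (hf : f ≠ 0) :
    f ∈ riemannRochSpace D ↔ ∀ v : Place K F, - D v ≤ v.ord f := by
  constructor
  · intro h v
    have := h v
    rw [v.adicValuation_le_exp_iff] at this
    exact this.resolve_left hf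
  · intro h v
    rw [v.adicValuation_le_exp_iff]
    exact Or.inr (h v)

theorem S17RS_degree_sub_single (h : RR_Hyp K F) (D : Divisor K F) (R : Place K F) :
    (D - Finsupp.single R 1).degree = D.degree - 1 := by
  rw [map_sub, Divisor.degree_single, h.deg_one]
  simp

theorem S17RS_sub_single_le (D : Divisor K F) (R : Place K F) :
    D - Finsupp.single R 1 ≤ D := by
  have := RR_single_nonneg (K := K) R 1
  rw [Nat.cast_one] at this
  exact sub_le_self D this

/-- `deg D ≥ 2 g + 1 ⇒ dim L(D − R) + 1 = dim L(D)`. -/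
theorem S17RS_finrank_sub_single [Infinite K] (h : RR_Hyp K F) (D : Divisor K F)
    (hD : 2 * (RR_genus K F : ℤ) + 1 ≤ D.degree) (R : Place K F) :
    Module.finrank K (riemannRochSpace (D - Finsupp.single R 1)) + 1 =
      Module.finrank K (riemannRochSpace D) := by
  have h1 := S17RS_riemann_eq h D (by linarith)
  have h2 := S17RS_riemann_eq h (D - Finsupp.single R 1)
    (by rw [S17RS_degree_sub_single h]; linarith)
  rw [S17RS_degree_sub_single h] at h2
  have : ((Module.finrank K (riemannRochSpace (D - Finsupp.single R 1)) + 1 : ℕ) : ℤ) =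
      (Module.finrank K (riemannRochSpace D) : ℕ) := by
    push_cast
    linarith
  exact_mod_cast this

/-- no base points: `deg D ≥ 2 g + 1 ⇒ ¬ L(D) ≤ L(D − R)`. -/
theorem S17RS_not_le_sub_single [Infinite K] (h : RR_Hyp K F) (D : Divisor K F)
    (hD : 2 * (RR_genus K F : ℤ) + 1 ≤ D.degree) (R : Place K F) :
    ¬ riemannRochSpace D ≤ riemannRochSpace (D - Finsupp.single R 1) := by
  intro hle
  have hfin := RR_finite h (D - Finsupp.single R 1)
  have := Submodule.finrank_mono hle
  have := S17RS_finrank_sub_single h D hD R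
  omega

/-- `deg D ≥ 2 g + 1 ⇒ dim L(D) ≥ 2` (indeed `≥ g + 2`). -/
theorem S17RS_two_le_finrank [Infinite K] (h : RR_Hyp K F) (D : Divisor K F)
    (hD : 2 * (RR_genus K F : ℤ) + 1 ≤ D.degree) :
    2 ≤ Module.finrank K (riemannRochSpace D) := by
  have h1 := S17RS_riemann_eq h D (by linarith)
  have : (2 : ℤ) ≤ Module.finrank K (riemannRochSpace D) := by
    have : (0 : ℤ) ≤ RR_genus K F := Int.natCast_nonneg _
    linarith
  exact_mod_cast this

/-- `deg D ≥ 2 g + 1 ⇒ L(D)` is not contained in a line. -/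
theorem S17RS_not_le_span [Infinite K] (h : RR_Hyp K F) (D : Divisor K F)
    (hD : 2 * (RR_genus K F : ℤ) + 1 ≤ D.degree) (f₀ : F) :
    ¬ riemannRochSpace D ≤ Submodule.span K {f₀} := by
  intro hle
  have h1 := Submodule.finrank_mono hle
  have h2 := S17RS_two_le_finrank h D hD
  have h3 : Module.finrank K (Submodule.span K ({f₀} : Set F)) ≤ 1 := by
    have := finrank_span_le_card (R := K) ({f₀} : Set F)
    simpa using this
  omega

/-- linear algebra: over an infinite field, a subspace `V` contains a vector outside finitely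
many subspaces none of which contains `V`. -/
theorem S17RS_avoid_subspaces {k E : Type*} [Field k] [Infinite k] [AddCommGroup E] [Module k E]
    (V : Submodule k E) (s : Finset (Submodule k E)) (hs : ∀ W ∈ s, ¬ V ≤ W) :
    ∃ f ∈ V, ∀ W ∈ s, f ∉ W := by
  classical
  set s' : Finset (Submodule k V) := s.image (fun W => W.comap V.subtype) with hs'
  have htop : (⊤ : Submodule k V) ∉ s' := by
    intro hmem
    rw [hs', Finset.mem_image] at hmem
    obtain ⟨W, hW, hWtop⟩ := hmem
    apply hs W hW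
    intro x hx
    have : (⟨x, hx⟩ : V) ∈ W.comap V.subtype := by rw [hWtop]; trivial
    exact this
  have hne := Subspace.biUnion_ne_univ_of_top_notMem htop
  obtain ⟨x, hx⟩ : ∃ x : V, x ∉ ⋃ p ∈ s', (p : Set V) := by
    by_contra hcon
    exact hne (Set.eq_univ_of_forall fun x => by_contra fun hx => hcon ⟨x, hx⟩)
  refine ⟨x, x.2, fun W hW hxW => hx ?_⟩
  rw [Set.mem_iUnion₂]
  exact ⟨W.comap V.subtype, Finset.mem_image_of_mem _ hW, hxW⟩

/-- **avoidance**: for `deg D ≥ 2 g + 1` there is `f ∈ L(D)` outside `L(D − R)` for all `R` in a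
finite set `T` and outside finitely many further subspaces not containing `L(D)`. -/
theorem S17RS_exists_avoid [Infinite K] (h : RR_Hyp K F) (D : Divisor K F)
    (hD : 2 * (RR_genus K F : ℤ) + 1 ≤ D.degree) (T : Finset (Place K F))
    (s : Finset (Submodule K F)) (hs : ∀ W ∈ s, ¬ riemannRochSpace D ≤ W) :
    ∃ f ∈ riemannRochSpace D,
      (∀ R ∈ T, f ∉ riemannRochSpace (D - Finsupp.single R 1)) ∧ ∀ W ∈ s, f ∉ W := by
  classical
  obtain ⟨f, hf, hav⟩ := S17RS_avoid_subspaces (riemannRochSpace D)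
    (T.image (fun R => riemannRochSpace (D - Finsupp.single R 1)) ∪ s) (by
      intro W hW
      rw [Finset.mem_union, Finset.mem_image] at hW
      rcases hW with ⟨R, -, rfl⟩ | hW
      · exact S17RS_not_le_sub_single h D hD R
      · exact hs W hW)
  refine ⟨f, hf, fun R hR => ?_, fun W hW => ?_⟩
  · exact hav _ (Finset.mem_union_left _ (Finset.mem_image_of_mem _ hR))
  · exact hav _ (Finset.mem_union_right _ hW)

/-- `f ∈ L(D) \ L(D − R) ⇒ ord_R f = − D R`. -/
theorem S17RS_ord_eq_of_not_mem {D : Divisor K F} {R : Place K F} {f : F}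
    (hf : f ∈ riemannRochSpace D) (hf' : f ∉ riemannRochSpace (D - Finsupp.single R 1)) :
    R.ord f = - D R := by
  classical
  have hf0 : f ≠ 0 := by
    rintro rfl
    exact hf' (Submodule.zero_mem _)
  have hD : D = (D - Finsupp.single R 1) + Finsupp.single R 1 := by abel
  have hval := RR_val_eq_of_mem_of_not_mem R (D - Finsupp.single R 1) (hD ▸ hf) hf'
  rw [R.adicValuation_eq_exp_neg_ord hf0, exp_inj] at hval
  rw [Finsupp.sub_apply, Finsupp.single_apply, if_pos rfl] at hval
  linarith

/-- for `f ∈ L(D)`, `f ≠ 0`: `f ∈ L(D − R) ↔ ord_R f ≠ − D R`. -/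
theorem S17RS_mem_sub_single_iff {D : Divisor K F} {R : Place K F} {f : F}
    (hf : f ∈ riemannRochSpace D) (hf0 : f ≠ 0) :
    f ∈ riemannRochSpace (D - Finsupp.single R 1) ↔ R.ord f ≠ - D R := by
  classical
  constructor
  · intro hmem
    have := (S17RS_mem_iff_ord hf0).1 hmem R
    rw [Finsupp.sub_apply, Finsupp.single_apply, if_pos rfl] at this
    intro heq
    rw [heq] at this
    linarith
  · intro hne
    by_contra hcon
    exact hne (S17RS_ord_eq_of_not_mem hf hcon)

/-- **exact orders at finitely many places**: for `deg D ≥ 2 g + 1` and a finite set `T` of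
places there is `f ∈ L(D)`, `f ≠ 0`, with `ord_R f = − D R` for all `R ∈ T`. -/
theorem S17RS_exists_ord_eq [Infinite K] (h : RR_Hyp K F) (D : Divisor K F)
    (hD : 2 * (RR_genus K F : ℤ) + 1 ≤ D.degree) (T : Finset (Place K F)) :
    ∃ f : F, f ≠ 0 ∧ f ∈ riemannRochSpace D ∧ ∀ R ∈ T, R.ord f = - D R := by
  classical
  obtain ⟨f, hf, hav, -⟩ := S17RS_exists_avoid h D hD (insert h.nonempty.some T) ∅
    (fun W hW => absurd hW (Finset.notMem_empty W))
  refine ⟨f, ?_, hf, fun R hR => ?_⟩
  · rintro rfl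
    exact hav _ (Finset.mem_insert_self _ _) (Submodule.zero_mem _)
  · exact S17RS_ord_eq_of_not_mem hf (hav R (Finset.mem_insert_of_mem hR))

/-- every `n ≥ 2 g + 1` is a pole order at `O`: there is `f ≠ 0` with `ord_O f = − n` and no
other pole. -/
theorem S17RS_exists_pole_order [Infinite K] (h : RR_Hyp K F) (O : Place K F) (n : ℕ)
    (hn : 2 * RR_genus K F + 1 ≤ n) :
    ∃ f : F, f ≠ 0 ∧ O.ord f = -(n : ℤ) ∧ ∀ v : Place K F, v ≠ O → 0 ≤ v.ord f := by
  classical
  have hdeg : Divisor.degree (Finsupp.single O (n : ℤ) : Divisor K F) = n := by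
    rw [Divisor.degree_single, h.deg_one]
    simp
  obtain ⟨f, hf0, hf, hord⟩ := S17RS_exists_ord_eq h (Finsupp.single O (n : ℤ))
    (by rw [hdeg]; exact_mod_cast hn) {O}
  refine ⟨f, hf0, ?_, fun v hv => ?_⟩
  · have := hord O (Finset.mem_singleton_self O)
    rwa [Finsupp.single_apply, if_pos rfl] at this
  · have := (S17RS_mem_iff_ord hf0).1 hf v
    rwa [Finsupp.single_apply, if_neg (Ne.symm hv), neg_zero] at this

end Fermat.Agent.S17
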