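import Mathlib
import Fermat.Agent.S17.RRAvoid
import Fermat.Agent.Lib.FFBranch

/-!
# TRACK 8 (S17), heights package BERT (helper6): generic members of `|D|` are reduced

`K` algebraically closed of characteristic `0`, `h : RR_Hyp K F`, `g = RR_genus K F`.

* `S17BE_pencil` (no hypothesis on the degree): `f₀, f₁ ∈ L(D)`, `f₀ ≠ 0`, `f₁ ∉ K f₀`, and
  `ord_v f₁ = − D v` at all `v ∈ S ∪ supp D ∪ {v | ord_v f₀ ≠ − D v}`.  Then for ALL BUT FINITELY
  MANY `c ∈ K` the function `f = f₀ − c f₁` satisfies `S17BE_Good D S f`: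
  `f ≠ 0`, `f ∈ L(D)`, `ord_v f ≤ 1 − D v` for all `v` (the effective divisor `div f + D` is
  reduced), `ord_v f = − D v` for `v ∈ S` and for `v ∈ supp D` (it avoids `S ∪ supp D`).
* `S17BE_exists_pencil` : for `deg D ≥ 2 g + 1` and every `f₀ ∈ L(D)`, `f₀ ≠ 0`, there is `f₁`
  with the hypotheses of `S17BE_pencil`.
* `S17BE_general` : for `deg D ≥ 2 g + 1` there is `f` with `S17BE_Good D S f`.
* `S17BE_bertini` : `O ≠ Q`, `n ≥ 2 g + 2`: there is `f ≠ 0` with `ord_O f = − n`, `ord_Q f = 1`,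
  `0 ≤ ord_v f ≤ 1` for `v ≠ O`, `ord_v f = 0` for `v ∈ S ∖ {O, Q}`.
* `S17BE_bertini'` : the version without `Q`, `n ≥ 2 g + 1`.
-/

set_option autoImplicit false

open AlgebraicCurve IntermediateField

namespace Fermat.Agent.S17

open Fermat.Agent.Lib Fermat.Agent.S24

variable {K F : Type*} [Field K] [Field F] [Algebra K F]

/-- `f` is a nonzero member of `L(D)` whose effective divisor `div f + D` is reduced and disjoint
from `S` and from the support of `D`. -/
def S17BE_Good (D : Divisor K F) (S : Finset (Place K F)) (f : F) : Prop :=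
  f ≠ 0 ∧ f ∈ riemannRochSpace D ∧ (∀ v : Place K F, v.ord f ≤ 1 - D v) ∧
    (∀ v ∈ S, v.ord f = - D v) ∧ ∀ v : Place K F, D v ≠ 0 → v.ord f = - D v

/-- at a place, a function takes at most one value. -/
theorem S17BE_value_unique (v : Place K F) {t : F} {c c' : K}
    (hc : 0 < v.ord (t - algebraMap K F c)) (hc' : 0 < v.ord (t - algebraMap K F c')) :
    c = c' := by
  by_contra hne
  have h1 : t - algebraMap K F c ≠ 0 := by
    intro h0
    rw [h0, Place.ord_zero] at hc
    exact lt_irrefl _ hc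
  have h2 : t - algebraMap K F c' ≠ 0 := by
    intro h0
    rw [h0, Place.ord_zero] at hc'
    exact lt_irrefl _ hc'
  have h3 : (t - algebraMap K F c) + -(t - algebraMap K F c') = algebraMap K F (c' - c) := by
    rw [map_sub]
    ring
  have h4 : algebraMap K F (c' - c) ≠ 0 := by
    rw [Ne, map_eq_zero, sub_eq_zero]
    exact fun h => hne h.symm
  have h5 := S24_ord_add v h1 (neg_ne_zero.2 h2) (by rw [h3]; exact h4)
  have h6 : v.ord (-(t - algebraMap K F c')) = v.ord (t - algebraMap K F c') := by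
    rw [Place.ord, Place.ord, Valuation.map_neg]
  rw [h3, BL_ord_algebraMap, h6] at h5
  have := lt_min hc hc'
  linarith

/-- **BERT, pencil form**: in the pencil `f₀ − c f₁` all but finitely many members are good. -/
theorem S17BE_pencil [IsAlgClosed K] [CharZero K] (h : RR_Hyp K F) (D : Divisor K F)
    (S : Finset (Place K F)) {f₀ f₁ : F} (hf₀ : f₀ ∈ riemannRochSpace D) (hf₀0 : f₀ ≠ 0)
    (hf₁ : f₁ ∈ riemannRochSpace D)
    (hav : ∀ v : Place K F, (v ∈ S ∨ D v ≠ 0 ∨ v.ord f₀ ≠ - D v) → v.ord f₁ = - D v)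
    (hind : f₁ ∉ Submodule.span K {f₀}) :
    {c : K | ¬ S17BE_Good D S (f₀ - c • f₁)}.Finite := by
  classical
  have hf₁0 : f₁ ≠ 0 := by
    rintro rfl
    exact hind (Submodule.zero_mem _)
  set t : F := f₀ / f₁ with ht
  -- `t` is not a constant
  have htr : Transcendental K t := by
    intro halg
    obtain ⟨a, ha⟩ := BL_mem_range_of_isIntegral halg.isIntegral
    have ha0 : a ≠ 0 := by
      rintro rfl
      rw [map_zero] at ha
      have : f₀ / f₁ = 0 := ha.symm
      rw [div_eq_zero_iff] at this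
      exact this.elim hf₀0 hf₁0
    apply hind
    rw [Submodule.mem_span_singleton]
    refine ⟨a⁻¹, ?_⟩
    have : f₀ = algebraMap K F a * f₁ := by
      rw [ha, ht]
      field_simp
    rw [this, Algebra.smul_def, ← mul_assoc, ← map_mul, inv_mul_cancel₀ ha0, map_one, one_mul]
  obtain ⟨x, -, hfin, -⟩ := h.exists_x
  have : FiniteDimensional K⟮t⟯ F := BL_finite_of_transcendental hfin htr
  have hB := FFS_finite_branch htr
  set B : Finset (Place K F) := hB.toFinset with hBdef
  set T : Finset (Place K F) := B ∪ S ∪ D.support with hT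
  have hbad : {c : K | ∃ v ∈ T, 0 < v.ord (t - algebraMap K F c)}.Finite := by
    have : {c : K | ∃ v ∈ T, 0 < v.ord (t - algebraMap K F c)} =
        ⋃ v ∈ (T : Set (Place K F)), {c : K | 0 < v.ord (t - algebraMap K F c)} := by
      ext c
      simp only [Set.mem_iUnion, Finset.mem_coe, exists_prop]
      rfl
    rw [this]
    refine Set.Finite.biUnion T.finite_toSet fun v _ => Set.Subsingleton.finite ?_
    intro c hc c' hc'
    exact S17BE_value_unique v hc hc'
  refine hbad.subset ?_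
  intro c hc
  by_contra hcon
  apply hc
  have hcon' : ∀ v ∈ T, v.ord (t - algebraMap K F c) ≤ 0 := by
    intro v hv
    by_contra hlt
    exact hcon ⟨v, hv, not_le.1 hlt⟩
  have hfeq : f₀ - c • f₁ = f₁ * (t - algebraMap K F c) := by
    rw [ht, Algebra.smul_def]
    field_simp
  have htc := FFS_sub_ne_zero htr c
  have hf0 : f₀ - c • f₁ ≠ 0 := by
    rw [hfeq]
    exact mul_ne_zero hf₁0 htc
  have hfmem : f₀ - c • f₁ ∈ riemannRochSpace D :=
    Submodule.sub_mem _ hf₀ (Submodule.smul_mem _ c hf₁)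
  have hge := (S17RS_mem_iff_ord hf0).1 hfmem
  -- the order of `f` at a place where `f₁` is a generator
  have hordB : ∀ v : Place K F, v.ord f₁ = - D v →
      v.ord (f₀ - c • f₁) = - D v + v.ord (t - algebraMap K F c) := by
    intro v hv
    rw [hfeq, Place.ord_mul _ hf₁0 htc, hv]
  have hTeq : ∀ v ∈ T, v.ord f₁ = - D v → v.ord (f₀ - c • f₁) = - D v := by
    intro v hvT hv
    have h1 := hordB v hv
    have h2 := hcon' v hvT
    have h3 := hge v
    linarith
  refine ⟨hf0, hfmem, fun v => ?_, fun v hv => ?_, fun v hv => ?_⟩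
  · by_cases hv : v.ord f₁ = - D v
    · by_cases hvT : v ∈ T
      · have := hTeq v hvT hv
        linarith
      · have hvB : v ∉ B := fun hvB =>
          hvT (Finset.mem_union_left _ (Finset.mem_union_left _ hvB))
        rw [hBdef, Set.Finite.mem_toFinset] at hvB
        have h2 : ¬ 2 ≤ v.ord (t - algebraMap K F c) := fun h2 => hvB ⟨c, h2⟩
        have h1 := hordB v hv
        rw [not_le] at h2
        linarith [Int.lt_iff_add_one_le.1 h2]
    · -- `f₁` vanishes at `v` (relative to `D`), hence `f₀` does not, hence `f` does not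
      have h0 : v.ord f₀ = - D v := by
        by_contra hne
        exact hv (hav v (Or.inr (Or.inr hne)))
      have hnot : f₀ - c • f₁ ∉ riemannRochSpace (D - Finsupp.single v 1) := by
        intro hmem
        have h1 : f₁ ∈ riemannRochSpace (D - Finsupp.single v 1) :=
          (S17RS_mem_sub_single_iff hf₁ hf₁0).2 hv
        have h2 : f₀ ∈ riemannRochSpace (D - Finsupp.single v 1) := by
          have := Submodule.add_mem _ hmem (Submodule.smul_mem _ c h1)
          rwa [sub_add_cancel] at this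
        exact (S17RS_mem_sub_single_iff hf₀ hf₀0).1 h2 h0
      have := S17RS_ord_eq_of_not_mem hfmem hnot
      linarith
  · exact hTeq v (Finset.mem_union_left _ (Finset.mem_union_right _ hv)) (hav v (Or.inl hv))
  · exact hTeq v (Finset.mem_union_right _ (Finsupp.mem_support_iff.2 hv))
      (hav v (Or.inr (Or.inl hv)))

/-- the set of places where `f₀ ∈ L(D)` is not a generator of `L(D)` is finite. -/
theorem S17BE_finite_zeros (h : RR_Hyp K F) (D : Divisor K F) (f₀ : F) :
    {v : Place K F | v.ord f₀ ≠ - D v}.Finite := by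
  classical
  refine ((RR_div h.principal f₀).support ∪ D.support).finite_toSet.subset ?_
  intro v hv
  by_contra hcon
  rw [Finset.mem_coe, Finset.mem_union, not_or, Finsupp.notMem_support_iff,
    Finsupp.notMem_support_iff, RR_div_apply] at hcon
  apply hv
  rw [hcon.1, hcon.2, neg_zero]

/-- for `deg D ≥ 2 g + 1` every nonzero `f₀ ∈ L(D)` is the first member of a pencil as in
`S17BE_pencil`. -/
theorem S17BE_exists_pencil [Infinite K] (h : RR_Hyp K F) (D : Divisor K F)
    (hD : 2 * (RR_genus K F : ℤ) + 1 ≤ D.degree) (S : Finset (Place K F)) (f₀ : F) :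
    ∃ f₁ ∈ riemannRochSpace D,
      (∀ v : Place K F, (v ∈ S ∨ D v ≠ 0 ∨ v.ord f₀ ≠ - D v) → v.ord f₁ = - D v) ∧
      f₁ ∉ Submodule.span K {f₀} := by
  classical
  obtain ⟨f₁, hf₁, hav, hs⟩ := S17RS_exists_avoid h D hD
    (S ∪ D.support ∪ (S17BE_finite_zeros h D f₀).toFinset) {Submodule.span K {f₀}} (by
      intro W hW
      rw [Finset.mem_singleton] at hW
      subst hW
      exact S17RS_not_le_span h D hD f₀)
  refine ⟨f₁, hf₁, fun v hv => ?_, hs _ (Finset.mem_singleton_self _)⟩
  apply S17RS_ord_eq_of_not_mem hf₁ (hav v ?_)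
  rcases hv with hv | hv | hv
  · exact Finset.mem_union_left _ (Finset.mem_union_left _ hv)
  · exact Finset.mem_union_left _ (Finset.mem_union_right _ (Finsupp.mem_support_iff.2 hv))
  · exact Finset.mem_union_right _ ((Set.Finite.mem_toFinset _).2 hv)

/-- **BERT, general form**: for `deg D ≥ 2 g + 1` a generic member of `|D|` is reduced and
avoids `S ∪ supp D`. -/
theorem S17BE_general [IsAlgClosed K] [CharZero K] (h : RR_Hyp K F) (D : Divisor K F)
    (hD : 2 * (RR_genus K F : ℤ) + 1 ≤ D.degree) (S : Finset (Place K F)) :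
    ∃ f : F, S17BE_Good D S f := by
  classical
  obtain ⟨f₀, hf₀0, hf₀, -⟩ := S17RS_exists_ord_eq h D hD ∅
  obtain ⟨f₁, hf₁, hav, hind⟩ := S17BE_exists_pencil h D hD S f₀
  have hfin := S17BE_pencil h D S hf₀ hf₀0 hf₁ hav hind
  obtain ⟨c, hc⟩ := hfin.infinite_compl.nonempty
  exact ⟨f₀ - c • f₁, not_not.1 hc⟩

/-- **BERT**: `O ≠ Q`, `n ≥ 2 g + 2`: there is `f` with a pole of exact order `n` at `O`, no other
pole, only simple zeros, a zero at `Q` and no zero in `S ∖ {Q}`. -/
theorem S17BE_bertini [IsAlgClosed K] [CharZero K] (h : RR_Hyp K F) (O Q : Place K F)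
    (hQ : Q ≠ O) (S : Finset (Place K F)) (n : ℕ) (hn : 2 * RR_genus K F + 2 ≤ n) :
    ∃ f : F, f ≠ 0 ∧ O.ord f = -(n : ℤ) ∧ Q.ord f = 1 ∧
      (∀ v : Place K F, v ≠ O → 0 ≤ v.ord f ∧ v.ord f ≤ 1) ∧
      ∀ v ∈ S, v ≠ Q → v ≠ O → v.ord f = 0 := by
  classical
  set D : Divisor K F := Finsupp.single O (n : ℤ) - Finsupp.single Q 1 with hDdef
  have hDO : D O = n := by
    rw [hDdef, Finsupp.sub_apply, Finsupp.single_apply, if_pos rfl, Finsupp.single_apply,
      if_neg hQ, sub_zero]
  have hDQ : D Q = -1 := by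
    rw [hDdef, Finsupp.sub_apply, Finsupp.single_apply, if_neg (Ne.symm hQ),
      Finsupp.single_apply, if_pos rfl, zero_sub]
  have hDv : ∀ v : Place K F, v ≠ O → v ≠ Q → D v = 0 := by
    intro v hvO hvQ
    rw [hDdef, Finsupp.sub_apply, Finsupp.single_apply, if_neg (Ne.symm hvO),
      Finsupp.single_apply, if_neg (Ne.symm hvQ), sub_zero]
  have hdeg : Divisor.degree D = (n : ℤ) - 1 := by
    rw [hDdef, map_sub, Divisor.degree_single, Divisor.degree_single, h.deg_one, h.deg_one]
    simp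
  obtain ⟨f, hf0, hfmem, hle, hS, hsupp⟩ := S17BE_general h D
    (by rw [hdeg]; have : ((2 * RR_genus K F + 2 : ℕ) : ℤ) ≤ n := by exact_mod_cast hn
        push_cast at this; linarith) S
  have hge := (S17RS_mem_iff_ord hf0).1 hfmem
  have hn0 : (n : ℤ) ≠ 0 := by
    have : 0 < n := by omega
    exact_mod_cast this.ne'
  refine ⟨f, hf0, ?_, ?_, fun v hvO => ?_, fun v hv hvQ hvO => ?_⟩
  · rw [hsupp O (by rw [hDO]; exact hn0), hDO]
  · rw [hsupp Q (by rw [hDQ]; norm_num), hDQ, neg_neg]
  · by_cases hvQ : v = Q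
    · subst hvQ
      rw [hsupp v (by rw [hDQ]; norm_num), hDQ, neg_neg]
      exact ⟨zero_le_one, le_rfl⟩
    · have h1 := hge v
      have h2 := hle v
      rw [hDv v hvO hvQ] at h1 h2
      exact ⟨by linarith, by linarith⟩
  · rw [hS v hv, hDv v hvO hvQ, neg_zero]

/-- **BERT without `Q`**: `n ≥ 2 g + 1`: there is `f` with a pole of exact order `n` at `O`, no
other pole, only simple zeros and no zero in `S`. -/
theorem S17BE_bertini' [IsAlgClosed K] [CharZero K] (h : RR_Hyp K F) (O : Place K F)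
    (S : Finset (Place K F)) (n : ℕ) (hn : 2 * RR_genus K F + 1 ≤ n) :
    ∃ f : F, f ≠ 0 ∧ O.ord f = -(n : ℤ) ∧
      (∀ v : Place K F, v ≠ O → 0 ≤ v.ord f ∧ v.ord f ≤ 1) ∧
      ∀ v ∈ S, v ≠ O → v.ord f = 0 := by
  classical
  set D : Divisor K F := Finsupp.single O (n : ℤ) with hDdef
  have hDO : D O = n := by
    rw [hDdef, Finsupp.single_apply, if_pos rfl]
  have hDv : ∀ v : Place K F, v ≠ O → D v = 0 := by
    intro v hvO
    rw [hDdef, Finsupp.single_apply, if_neg (Ne.symm hvO)]
  have hdeg : Divisor.degree D = (n : ℤ) := by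
    rw [hDdef, Divisor.degree_single, h.deg_one]
    simp
  obtain ⟨f, hf0, hfmem, hle, hS, hsupp⟩ := S17BE_general h D
    (by rw [hdeg]; exact_mod_cast hn) S
  have hge := (S17RS_mem_iff_ord hf0).1 hfmem
  have hn0 : (n : ℤ) ≠ 0 := by
    have : 0 < n := by omega
    exact_mod_cast this.ne'
  refine ⟨f, hf0, ?_, fun v hvO => ?_, fun v hv hvO => ?_⟩
  · rw [hsupp O (by rw [hDO]; exact hn0), hDO]
  · have h1 := hge v
    have h2 := hle v
    rw [hDv v hvO] at h1 h2
    exact ⟨by linarith, by linarith⟩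
  · rw [hS v hv, hDv v hvO, neg_zero]

end Fermat.Agent.S17
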