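import Mathlib
import Fermat.Agent.Lib.RiemannNonspecial

/-!
# TRACK 8 "MW" (S17), pillar DIV, package P8 MOVE (helper21)

ABSTRACT: `F / K` a function field with `RR_Hyp K F` (all places of degree one, principal
divisors, Riemann's inequality), `K` infinite.  Nothing modular.

* `S17MV_weak_approx` : prescribed orders at finitely many places.
* `S17MV_move`        : **moving lemma**: every class of `Pic⁰` has a representative whose support
                        avoids a given finite set of places.
* `S17MV_cls h P Q`   : the class of `P - Q`.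
* `S17MV_div_of_cofinite` : if `[P - Q] ∈ n · Pic⁰` for all places `P` outside a finite set, then
                        `Pic⁰` is `n`-divisible.
* `S17MV_div_of_cofinite'` : the same with the hypothesis at the level of divisors
                        (`P - Q = n E + div f`).
-/

set_option autoImplicit false

open AlgebraicCurve IntermediateField WithZero

namespace Fermat.Agent.S17

open Fermat.Agent.Lib

variable {K F : Type*} [Field K] [Field F] [Algebra K F]

/-- **weak approximation** for the orders at finitely many places. -/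
theorem S17MV_weak_approx [Infinite K] (h : RR_Hyp K F) (T : Finset (Place K F))
    (a : Place K F → ℤ) : ∃ f : F, f ≠ 0 ∧ ∀ P ∈ T, P.ord f = a P := by
  classical
  rcases T.eq_empty_or_nonempty with rfl | ⟨P₁, hP₁⟩
  · exact ⟨1, one_ne_zero, fun P hP => absurd hP (Finset.notMem_empty P)⟩
  have hinf := RR_infinite_places h
  obtain ⟨P₀, hP₀⟩ := Infinite.exists_notMem_finset T
  obtain ⟨c, hc⟩ := RR_riemann_eq h
  set A₀ : Divisor K F := - ∑ P ∈ T, Finsupp.single P (a P) with hA₀
  set m : ℤ := c + 1 - A₀.degree with hm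
  set A : Divisor K F := A₀ + Finsupp.single P₀ m with hA
  have hAdeg : A.degree = c + 1 := by
    rw [hA, map_add, Divisor.degree_single, h.deg_one, hm]
    push_cast
    ring
  have hAP : ∀ P ∈ T, A P = - a P := by
    intro P hP
    have hne : P₀ ≠ P := fun e => hP₀ (e ▸ hP)
    rw [hA, Finsupp.add_apply, Finsupp.single_apply, if_neg hne, add_zero, hA₀,
      Finsupp.neg_apply, Finsupp.finsetSum_apply]
    rw [Finset.sum_eq_single P]
    · rw [Finsupp.single_apply, if_pos rfl]
    · intro Q _ hQP
      rw [Finsupp.single_apply, if_neg hQP]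
    · intro hP'
      exact absurd hP hP'
  have hsub : ∀ P : Place K F, (A - Finsupp.single P 1).degree = c := by
    intro P
    rw [map_sub, hAdeg, Divisor.degree_single, h.deg_one]
    push_cast
    ring
  have hlt : ∀ P ∈ T, ¬ riemannRochSpace A ≤ riemannRochSpace (A - Finsupp.single P 1) := by
    intro P _ hle
    have h1 := hc A (by rw [hAdeg]; linarith)
    have h2 := hc (A - Finsupp.single P 1) (by rw [hsub])
    have := RR_finite h (A - Finsupp.single P 1)
    have h3 := Submodule.finrank_mono hle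
    rw [hAdeg] at h1
    rw [hsub] at h2
    have h3' : (Module.finrank K (riemannRochSpace A) : ℤ) ≤
        Module.finrank K (riemannRochSpace (A - Finsupp.single P 1)) := by exact_mod_cast h3
    linarith
  set V : Submodule K F := riemannRochSpace A with hV
  let p : Place K F → Submodule K V :=
    fun P => (riemannRochSpace (A - Finsupp.single P 1)).comap V.subtype
  have hs : (⊤ : Submodule K V) ∉ T.image p := by
    intro htop
    obtain ⟨P, hP, hPe⟩ := Finset.mem_image.1 htop
    apply hlt P hP
    intro x hx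
    have hmem : (⟨x, hx⟩ : V) ∈ p P := by
      rw [hPe]
      exact Submodule.mem_top
    exact hmem
  have hne := Subspace.biUnion_ne_univ_of_top_notMem hs
  obtain ⟨x, hx⟩ : ∃ x : V, x ∉ ⋃ q ∈ T.image p, (q : Set V) := by
    by_contra hcon
    push Not at hcon
    exact hne (Set.eq_univ_of_forall hcon)
  have hxP : ∀ P ∈ T, (x : F) ∉ riemannRochSpace (A - Finsupp.single P 1) := by
    intro P hP hmem
    apply hx
    simp only [Set.mem_iUnion, Finset.mem_image, SetLike.mem_coe, exists_prop]
    exact ⟨p P, ⟨P, hP, rfl⟩, hmem⟩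
  have hx0 : (x : F) ≠ 0 := by
    intro h0
    apply hxP P₁ hP₁
    rw [h0]
    exact Submodule.zero_mem _
  refine ⟨x, hx0, fun P hP => ?_⟩
  have hmem : (x : F) ∈ riemannRochSpace ((A - Finsupp.single P 1) + Finsupp.single P 1) := by
    rw [sub_add_cancel]
    exact x.2
  have hval := RR_val_eq_of_mem_of_not_mem P (A - Finsupp.single P 1) hmem (hxP P hP)
  rw [P.adicValuation_eq_exp_neg_ord hx0, exp_inj, Finsupp.sub_apply, Finsupp.single_apply,
    if_pos rfl, hAP P hP] at hval
  linarith

/-- the divisor of a function has trivial class. -/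
theorem S17MV_mk_div (h : RR_Hyp K F) (f : F) (hf : f ≠ 0)
    (hd : RR_div h.principal f ∈ Divisor.degZero (K := K) (F := F)) :
    Pic0.mk ⟨RR_div h.principal f, hd⟩ = 0 := by
  show ((⟨RR_div h.principal f, hd⟩ : Divisor.degZero (K := K) (F := F)) : Pic0 K F) = 0
  rw [QuotientAddGroup.eq_zero_iff, AddSubgroup.mem_addSubgroupOf, Divisor.mem_principal]
  exact ⟨f, hf, fun v => RR_div_apply h.principal f v⟩

/-- **moving lemma**: every class of `Pic⁰` has a representative whose support avoids a given
finite set of places. -/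
theorem S17MV_move [Infinite K] (h : RR_Hyp K F) (T : Finset (Place K F)) (x : Pic0 K F) :
    ∃ D : Divisor.degZero (K := K) (F := F), Pic0.mk D = x ∧
      ∀ P ∈ T, (D : Divisor K F) P = 0 := by
  obtain ⟨D₀, rfl⟩ := Pic0.mk_surjective x
  obtain ⟨f, hf0, hf⟩ := S17MV_weak_approx h T (fun P => - (D₀ : Divisor K F) P)
  have hd : RR_div h.principal f ∈ Divisor.degZero (K := K) (F := F) := by
    rw [Divisor.mem_degZero, RR_div_degree]
  refine ⟨D₀ + ⟨RR_div h.principal f, hd⟩, ?_, fun P hP => ?_⟩
  · rw [Pic0.mk_add, S17MV_mk_div h f hf0 hd, add_zero]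
  · show ((D₀ : Divisor K F) + RR_div h.principal f) P = 0
    rw [Finsupp.add_apply, RR_div_apply, hf P hP]
    ring

/-- `P - Q` has degree `0`. -/
theorem S17MV_sub_mem (h : RR_Hyp K F) (P Q : Place K F) :
    (Finsupp.single P (1 : ℤ) - Finsupp.single Q (1 : ℤ) : Divisor K F) ∈
      Divisor.degZero (K := K) (F := F) := by
  rw [Divisor.mem_degZero, map_sub, Divisor.degree_single, Divisor.degree_single, h.deg_one,
    h.deg_one]
  simp

/-- the class of `P - Q`. -/
noncomputable def S17MV_cls (h : RR_Hyp K F) (P Q : Place K F) : Pic0 K F :=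
  Pic0.mk ⟨Finsupp.single P (1 : ℤ) - Finsupp.single Q (1 : ℤ), S17MV_sub_mem h P Q⟩

/-- `D ↦ D - deg(D) Q`, as a homomorphism to the divisors of degree `0`. -/
noncomputable def S17MV_proj (h : RR_Hyp K F) (Q : Place K F) :
    Divisor K F →+ Divisor.degZero (K := K) (F := F) :=
  AddMonoidHom.mk' (fun D => ⟨D - D.degree • Finsupp.single Q (1 : ℤ), by
    rw [Divisor.mem_degZero, map_sub, map_zsmul, Divisor.degree_single, h.deg_one]
    simp⟩) (by
    intro D E
    apply Subtype.ext
    show (D + E) - (D + E).degree • Finsupp.single Q (1 : ℤ) =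
      (D - D.degree • Finsupp.single Q (1 : ℤ)) + (E - E.degree • Finsupp.single Q (1 : ℤ))
    rw [map_add, add_smul]
    abel)

theorem S17MV_proj_coe (h : RR_Hyp K F) (Q : Place K F) (D : Divisor K F) :
    ((S17MV_proj h Q D : Divisor.degZero (K := K) (F := F)) : Divisor K F) =
      D - D.degree • Finsupp.single Q (1 : ℤ) := rfl

theorem S17MV_proj_of_degZero (h : RR_Hyp K F) (Q : Place K F)
    (D : Divisor.degZero (K := K) (F := F)) : S17MV_proj h Q (D : Divisor K F) = D := by
  apply Subtype.ext
  rw [S17MV_proj_coe, Divisor.mem_degZero.1 D.2, zero_smul, sub_zero]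

theorem S17MV_mk_proj_single (h : RR_Hyp K F) (P Q : Place K F) :
    Pic0.mk (S17MV_proj h Q (Finsupp.single P (1 : ℤ))) = S17MV_cls h P Q := by
  unfold S17MV_cls
  congr 1
  apply Subtype.ext
  rw [S17MV_proj_coe, Divisor.degree_single, h.deg_one]
  simp

/-- `D ↦ [D - deg(D) Q]`. -/
noncomputable def S17MV_psi (h : RR_Hyp K F) (Q : Place K F) : Divisor K F →+ Pic0 K F :=
  (QuotientAddGroup.mk' _).comp (S17MV_proj h Q)

theorem S17MV_psi_apply (h : RR_Hyp K F) (Q : Place K F) (D : Divisor K F) :
    S17MV_psi h Q D = Pic0.mk (S17MV_proj h Q D) := rfl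

/-- **P8 MOVE, final form**: if `[P - Q] ∈ n · Pic⁰` for all places `P` outside a finite set,
then `Pic⁰` is `n`-divisible. -/
theorem S17MV_div_of_cofinite [Infinite K] (h : RR_Hyp K F) (n : ℕ) (Q : Place K F)
    (T : Set (Place K F)) (hT : T.Finite)
    (hC : ∀ P : Place K F, P ∉ T → ∃ y : Pic0 K F, n • y = S17MV_cls h P Q) :
    ∀ x : Pic0 K F, ∃ y : Pic0 K F, n • y = x := by
  classical
  intro x
  obtain ⟨D, rfl, hD⟩ := S17MV_move h hT.toFinset x
  set R : AddSubgroup (Pic0 K F) := (nsmulAddMonoidHom (α := Pic0 K F) n).range with hR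
  suffices hmem : Pic0.mk D ∈ R by
    obtain ⟨y, hy⟩ := hmem
    exact ⟨y, hy⟩
  have h1 : Pic0.mk D = S17MV_psi h Q (D : Divisor K F) := by
    rw [S17MV_psi_apply, S17MV_proj_of_degZero]
  rw [h1, ← Finsupp.sum_single (D : Divisor K F), Finsupp.sum, map_sum]
  refine AddSubgroup.sum_mem _ (fun P hP => ?_)
  have hPT : P ∉ T := by
    intro hPT
    have := hD P (hT.mem_toFinset.2 hPT)
    exact (Finsupp.mem_support_iff.1 hP) this
  obtain ⟨y, hy⟩ := hC P hPT
  have h2 : Finsupp.single P ((D : Divisor K F) P) =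
      ((D : Divisor K F) P) • Finsupp.single P (1 : ℤ) := by
    rw [Finsupp.smul_single, smul_eq_mul, mul_one]
  rw [h2, map_zsmul]
  refine AddSubgroup.zsmul_mem _ ?_ _
  rw [S17MV_psi_apply, S17MV_mk_proj_single]
  exact ⟨y, hy⟩

/-- **P8 MOVE**, hypothesis at the level of divisors: if for every place `P` outside a finite set
there are a divisor `E` and a function `f ≠ 0` with `P - Q = n E + div f`, then `Pic⁰` is
`n`-divisible. -/
theorem S17MV_div_of_cofinite' [Infinite K] (h : RR_Hyp K F) (n : ℕ) (hn : n ≠ 0)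
    (Q : Place K F) (T : Set (Place K F)) (hT : T.Finite)
    (hC : ∀ P : Place K F, P ∉ T → ∃ (E : Divisor K F) (f : F), f ≠ 0 ∧
      ∀ v : Place K F, (Finsupp.single P (1 : ℤ) - Finsupp.single Q (1 : ℤ) : Divisor K F) v =
        (n : ℤ) * E v + v.ord f) :
    ∀ x : Pic0 K F, ∃ y : Pic0 K F, n • y = x := by
  refine S17MV_div_of_cofinite h n Q T hT (fun P hP => ?_)
  obtain ⟨E, f, hf0, hE⟩ := hC P hP
  have hd : RR_div h.principal f ∈ Divisor.degZero (K := K) (F := F) := by
    rw [Divisor.mem_degZero, RR_div_degree]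
  have heq : (Finsupp.single P (1 : ℤ) - Finsupp.single Q (1 : ℤ) : Divisor K F) =
      n • E + RR_div h.principal f := by
    ext v
    rw [hE v, Finsupp.add_apply, Finsupp.smul_apply, RR_div_apply]
    simp
  have hEdeg : E ∈ Divisor.degZero (K := K) (F := F) := by
    rw [Divisor.mem_degZero]
    have h1 := congrArg Divisor.degree heq
    rw [Divisor.mem_degZero.1 (S17MV_sub_mem h P Q), map_add, RR_div_degree, add_zero,
      map_nsmul, nsmul_eq_mul] at h1
    have hn0 : (n : ℤ) ≠ 0 := by exact_mod_cast hn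
    rcases mul_eq_zero.1 h1.symm with h2 | h2
    · exact absurd h2 hn0
    · exact h2
  refine ⟨Pic0.mk ⟨E, hEdeg⟩, ?_⟩
  have h3 : n • Pic0.mk ⟨E, hEdeg⟩ + Pic0.mk ⟨RR_div h.principal f, hd⟩ = S17MV_cls h P Q := by
    unfold S17MV_cls
    have : n • Pic0.mk ⟨E, hEdeg⟩ =
        Pic0.mk (n • (⟨E, hEdeg⟩ : Divisor.degZero (K := K) (F := F))) := rfl
    rw [this, ← Pic0.mk_add]
    congr 1
    apply Subtype.ext
    exact heq.symm
  rw [S17MV_mk_div h f hf0 hd, add_zero] at h3
  exact h3

end Fermat.Agent.S17
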