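import Mathlib
import Fermat.Agent.Lib.RiemannNonspecial
import Fermat.Agent.Lib.DiffExpand

/-!
# TRACK 8 (S17), heights, package NG part (c) (helper3): the evaluation map separates places

`F / K` a function field with `RR_Hyp`, `K` infinite, `g = RR_genus K F`, `O` a place,
`B` a divisor supported at `O` (`∀ P ≠ O, B P = 0`, e.g. `B = k • single O 1`) of degree
`≥ 2g + 2`, `e : ι → F` a spanning family of `L(B)`.  For a place `P ≠ O` put
`ev P := fun j => FD_c0 P (e j)` (the values of the `e j` at `P`).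

* `S17NGS_sharp`       : `deg D ≥ 2g → dim L(D) = deg D + 1 - g` (no duality);
* `S17NGS_exists_exact`: `deg D ≥ 2g + 1 → ∃ f ∈ L(D), val_P f = exp (D P)` exactly;
* `S17NGS_c0_sum`      : the value of `∑ b_j e_j` at `P` is `∑ b_j ev P j`;
* `S17NGS_ev_ne_zero`  : `ev P ≠ 0`;
* `S17NGS_exists_sep`, `S17NGS_separates` : `P ≠ Q → ev Q` is not a multiple of `ev P`;
* `S17NGS_exists_unif`, `S17NGS_immersion` : `∃ j, ord_P (e j - e j (P)) = 1`;
* `S17NGS_smul_single_*` : the hypotheses on `B` for `B = k • single O 1`.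
-/

set_option autoImplicit false

open AlgebraicCurve WithZero

namespace Fermat.Agent.S17

open Fermat.Agent.Lib

variable {K F : Type*} [Field K] [Field F] [Algebra K F]

/-- **sharp Riemann**: `dim L(D) = deg D + 1 - g` for `deg D ≥ 2g` (from the existence of a
non-special divisor of degree `g`; no duality). -/
theorem S17NGS_sharp [Infinite K] (h : RR_Hyp K F) (D : Divisor K F)
    (hD : 2 * (RR_genus K F : ℤ) ≤ D.degree) :
    (Module.finrank K (riemannRochSpace D) : ℤ) = D.degree + 1 - RR_genus K F := by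
  classical
  apply le_antisymm _ (RR_riemann_ineq h D)
  obtain ⟨Q, -, -, hQ⟩ := RR_nonspecial h ∅
  set E : Divisor K F := ∑ i, Finsupp.single (Q i) (1 : ℤ) with hE
  have hEdeg : E.degree = RR_genus K F := by
    simp [hE, Divisor.degree_single, h.deg_one]
  have h1 := RR_riemann_ineq h (D - E)
  rw [map_sub, hEdeg] at h1
  have hpos : 0 < Module.finrank K (riemannRochSpace (D - E)) := by
    have : (0 : ℤ) < Module.finrank K (riemannRochSpace (D - E)) := by linarith
    exact_mod_cast this
  obtain ⟨z, hz0, hz⟩ := RR_exists_ne_zero_of_finrank_pos hpos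
  have hle : E ≤ D + RR_div h.principal z := by
    have := (RR_mem_iff_div h.principal hz0).1 hz
    rw [Finsupp.le_def] at this ⊢
    intro v
    have := this v
    simp only [Finsupp.add_apply, Finsupp.sub_apply, Finsupp.zero_apply] at this ⊢
    linarith
  have h2 := RR_defect_mono h.deg_one h.principal h.nonempty.some hle
  rw [RR_finrank_add_div h.principal D hz0, map_add, RR_div_degree, add_zero, hEdeg, hQ] at h2
  push_cast at h2
  linarith

/-- for `deg D ≥ 2g + 1` and any place `P` there is `f ∈ L(D)` with `val_P f = exp (D P)`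
exactly. -/
theorem S17NGS_exists_exact [Infinite K] (h : RR_Hyp K F) (D : Divisor K F) (P : Place K F)
    (hD : 2 * (RR_genus K F : ℤ) + 1 ≤ D.degree) :
    ∃ f : F, f ∈ riemannRochSpace D ∧ P.adicValuation f = exp (D P) := by
  have hdeg' : (D - Finsupp.single P 1).degree = D.degree - 1 := by
    rw [map_sub, Divisor.degree_single, h.deg_one]; simp
  have h1 := S17NGS_sharp h D (by linarith)
  have h2 := S17NGS_sharp h (D - Finsupp.single P 1) (by rw [hdeg']; linarith)
  rw [hdeg'] at h2
  have hlt : Module.finrank K (riemannRochSpace (D - Finsupp.single P 1)) <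
      Module.finrank K (riemannRochSpace D) := by
    have : (Module.finrank K (riemannRochSpace (D - Finsupp.single P 1)) : ℤ) <
        Module.finrank K (riemannRochSpace D) := by linarith
    exact_mod_cast this
  have hne : ¬ riemannRochSpace D ≤ riemannRochSpace (D - Finsupp.single P 1) := by
    intro hle
    have := RR_finite h (D - Finsupp.single P 1)
    exact absurd (Submodule.finrank_mono hle) (not_le.2 hlt)
  obtain ⟨f, hf, hf'⟩ := SetLike.not_le_iff_exists.1 hne
  refine ⟨f, hf, ?_⟩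
  have := RR_val_eq_of_mem_of_not_mem P (D - Finsupp.single P 1) (by rwa [sub_add_cancel]) hf'
  rw [this, Finsupp.sub_apply, Finsupp.single_eq_same]
  congr 1
  ring

section ev

variable {O : Place K F} {B : Divisor K F} {ι : Type*} {e : ι → F}

/-- functions of `L(B)`, `B` supported at `O`, are regular at `P ≠ O`. -/
theorem S17NGS_val_le_one (hB : ∀ P : Place K F, P ≠ O → B P = 0) {P : Place K F} (hP : P ≠ O)
    {f : F} (hf : f ∈ riemannRochSpace B) : P.adicValuation f ≤ 1 := by
  have := hf P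
  rwa [hB P hP, exp_zero] at this

/-- the value of `∑ b_j e_j` at `P ≠ O`. -/
theorem S17NGS_c0_sum [Fintype ι] (h : RR_Hyp K F) (hB : ∀ P : Place K F, P ≠ O → B P = 0)
    (he : ∀ j, e j ∈ riemannRochSpace B)
    {P : Place K F} (hP : P ≠ O) (b : ι → K) :
    FD_c0 P (∑ j, b j • e j) = ∑ j, b j * FD_c0 P (e j) := by
  classical
  have key : ∀ s : Finset ι, P.adicValuation (∑ j ∈ s, b j • e j) ≤ 1 ∧
      FD_c0 P (∑ j ∈ s, b j • e j) = ∑ j ∈ s, b j * FD_c0 P (e j) := by
    intro s
    induction s using Finset.induction_on with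
    | empty =>
      refine ⟨by simp, ?_⟩
      rw [Finset.sum_empty, Finset.sum_empty]
      exact FD_c0_unique P (by simp)
    | insert a s ha ih =>
      rw [Finset.sum_insert ha, Finset.sum_insert ha]
      have h1 : P.adicValuation (b a • e a) ≤ 1 := by
        rw [Algebra.smul_def, map_mul]
        exact mul_le_one' (P.adicValuation_algebraMap_le_one _) (S17NGS_val_le_one hB hP (he a))
      refine ⟨(Valuation.map_add _ _ _).trans (max_le h1 ih.1), ?_⟩
      rw [(FD_c0_add P (h.deg_one P) h1 ih.1).1, ih.2,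
        (FD_c0_smul P (h.deg_one P) (b a) (S17NGS_val_le_one hB hP (he a))).1]
  exact (key Finset.univ).2

/-- every element of the span is a combination. -/
theorem S17NGS_exists_coeff [Fintype ι]
    (hspan : Submodule.span K (Set.range e) = riemannRochSpace B)
    {f : F} (hf : f ∈ riemannRochSpace B) : ∃ b : ι → K, f = ∑ j, b j • e j := by
  rw [← hspan] at hf
  obtain ⟨b, hb⟩ := (Submodule.mem_span_range_iff_exists_fun K).1 hf
  exact ⟨b, hb.symm⟩

theorem S17NGS_mem (hspan : Submodule.span K (Set.range e) = riemannRochSpace B)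
    (j : ι) : e j ∈ riemannRochSpace B := by
  rw [← hspan]
  exact Submodule.subset_span ⟨j, rfl⟩

/-- the constant `1` lies in `L(B)` for `B ≥ 0`. -/
theorem S17NGS_one_mem (hB0 : 0 ≤ B) : (1 : F) ∈ riemannRochSpace B := by
  intro v
  rw [map_one, ← exp_zero, exp_le_exp]
  exact Finsupp.le_def.1 hB0 v

/-- `ev P ≠ 0`: the constant function `1` is a combination of the `e j`. -/
theorem S17NGS_ev_ne_zero [Fintype ι] (h : RR_Hyp K F)
    (hB : ∀ P : Place K F, P ≠ O → B P = 0) (hB0 : 0 ≤ B)
    (hspan : Submodule.span K (Set.range e) = riemannRochSpace B)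
    {P : Place K F} (hP : P ≠ O) : (fun j => FD_c0 P (e j)) ≠ 0 := by
  intro h0
  obtain ⟨b, hb⟩ := S17NGS_exists_coeff hspan (S17NGS_one_mem hB0)
  have h2 := S17NGS_c0_sum h hB (S17NGS_mem hspan) hP b
  rw [← hb] at h2
  have h3 : FD_c0 P (1 : F) = 1 := FD_c0_unique P (by simp)
  rw [h3] at h2
  have h4 : ∀ j, FD_c0 P (e j) = 0 := fun j => congrFun h0 j
  simp only [h4, mul_zero, Finset.sum_const_zero] at h2
  exact one_ne_zero h2

/-- **NG (c), separating function**: for places `P ≠ Q` different from `O` there is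
`f ∈ L(B)` (`B` supported at `O`, `deg B ≥ 2g + 2`) with `f(P) = 0`, `f(Q) ≠ 0`. -/
theorem S17NGS_exists_sep [Infinite K] (h : RR_Hyp K F)
    (hB : ∀ P : Place K F, P ≠ O → B P = 0)
    (hk : 2 * (RR_genus K F : ℤ) + 2 ≤ B.degree)
    {P Q : Place K F} (hP : P ≠ O) (hQ : Q ≠ O) (hPQ : P ≠ Q) :
    ∃ f : F, f ∈ riemannRochSpace B ∧ P.adicValuation f < 1 ∧ Q.adicValuation f = 1 := by
  classical
  set D : Divisor K F := B - Finsupp.single P 1 with hD
  have hDdeg : D.degree = B.degree - 1 := by
    rw [hD, map_sub, Divisor.degree_single, h.deg_one]; simp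
  obtain ⟨f, hf, hfQ⟩ := S17NGS_exists_exact h D Q (by rw [hDdeg]; linarith)
  have hDQ : D Q = 0 := by
    rw [hD, Finsupp.sub_apply, hB Q hQ, Finsupp.single_apply, if_neg hPQ, sub_zero]
  have hDP : D P = -1 := by
    rw [hD, Finsupp.sub_apply, hB P hP, Finsupp.single_eq_same, zero_sub]
  rw [hDQ, exp_zero] at hfQ
  refine ⟨f, RR_mono ?_ hf, ?_, hfQ⟩
  · rw [hD, sub_le_self_iff]
    exact RR_single_nonneg P 1
  · have := hf P
    rw [hDP] at this
    exact (FD_val_lt_one_iff P).2 this

/-- **NG (c), separation**: for places `P ≠ Q` different from `O`, the vector `ev Q` is not a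
multiple of `ev P`. -/
theorem S17NGS_separates [Fintype ι] [Infinite K] (h : RR_Hyp K F)
    (hB : ∀ P : Place K F, P ≠ O → B P = 0)
    (hk : 2 * (RR_genus K F : ℤ) + 2 ≤ B.degree)
    (hspan : Submodule.span K (Set.range e) = riemannRochSpace B)
    {P Q : Place K F} (hP : P ≠ O) (hQ : Q ≠ O) (hPQ : P ≠ Q) (c : K) :
    (fun j => FD_c0 Q (e j)) ≠ c • (fun j => FD_c0 P (e j)) := by
  classical
  intro hprop
  obtain ⟨f, hfk, hfP, hfQ⟩ := S17NGS_exists_sep h hB hk hP hQ hPQ
  obtain ⟨b, hb⟩ := S17NGS_exists_coeff hspan hfk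
  have h1 := S17NGS_c0_sum h hB (S17NGS_mem hspan) hP b
  have h2 := S17NGS_c0_sum h hB (S17NGS_mem hspan) hQ b
  rw [← hb] at h1 h2
  have h3 : FD_c0 P f = 0 := (FD_c0_eq_zero_iff P (h.deg_one P) hfP.le).2 hfP
  have h4 : FD_c0 Q f ≠ 0 := by
    intro h0
    have := (FD_c0_eq_zero_iff Q (h.deg_one Q) hfQ.le).1 h0
    rw [hfQ] at this
    exact lt_irrefl _ this
  apply h4
  rw [h2]
  have h5 : ∀ j, FD_c0 Q (e j) = c * FD_c0 P (e j) := fun j => congrFun hprop j
  simp only [h5]
  rw [h3] at h1
  calc ∑ j, b j * (c * FD_c0 P (e j)) = c * ∑ j, b j * FD_c0 P (e j) := by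
        rw [Finset.mul_sum]; exact Finset.sum_congr rfl fun j _ => by ring
    _ = 0 := by rw [← h1, mul_zero]

/-- **NG (c), uniformizer**: for `P ≠ O` there is `f ∈ L(B)` with `ord_P f = 1`. -/
theorem S17NGS_exists_unif [Infinite K] (h : RR_Hyp K F)
    (hB : ∀ P : Place K F, P ≠ O → B P = 0)
    (hk : 2 * (RR_genus K F : ℤ) + 2 ≤ B.degree)
    {P : Place K F} (hP : P ≠ O) :
    ∃ f : F, f ∈ riemannRochSpace B ∧ P.adicValuation f = exp (-1 : ℤ) := by
  classical
  set D : Divisor K F := B - Finsupp.single P 1 with hD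
  have hDdeg : D.degree = B.degree - 1 := by
    rw [hD, map_sub, Divisor.degree_single, h.deg_one]; simp
  obtain ⟨f, hf, hfP⟩ := S17NGS_exists_exact h D P (by rw [hDdeg]; linarith)
  have hDP : D P = -1 := by
    rw [hD, Finsupp.sub_apply, hB P hP, Finsupp.single_eq_same, zero_sub]
  rw [hDP] at hfP
  refine ⟨f, RR_mono ?_ hf, hfP⟩
  rw [hD, sub_le_self_iff]
  exact RR_single_nonneg P 1

/-- **NG (c), immersion**: at every place `P ≠ O` some `e j - e j (P)` is a uniformizer. -/
theorem S17NGS_immersion [Fintype ι] [Infinite K] (h : RR_Hyp K F)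
    (hB : ∀ P : Place K F, P ≠ O → B P = 0)
    (hk : 2 * (RR_genus K F : ℤ) + 2 ≤ B.degree)
    (hspan : Submodule.span K (Set.range e) = riemannRochSpace B)
    {P : Place K F} (hP : P ≠ O) :
    ∃ j, P.ord (e j - algebraMap K F (FD_c0 P (e j))) = 1 := by
  classical
  obtain ⟨f, hfk, hfP⟩ := S17NGS_exists_unif h hB hk hP
  have hfP1 : P.adicValuation f < 1 := (FD_val_lt_one_iff P).2 hfP.le
  obtain ⟨b, hb⟩ := S17NGS_exists_coeff hspan hfk
  have h1 := S17NGS_c0_sum h hB (S17NGS_mem hspan) hP b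
  rw [← hb, (FD_c0_eq_zero_iff P (h.deg_one P) hfP1.le).2 hfP1] at h1
  -- `f = ∑ b_j (e_j - e_j(P))`
  have h2 : f = ∑ j, b j • (e j - algebraMap K F (FD_c0 P (e j))) := by
    have h3 : ∑ j, b j • algebraMap K F (FD_c0 P (e j)) = 0 := by
      have : ∑ j, b j • algebraMap K F (FD_c0 P (e j)) =
          algebraMap K F (∑ j, b j * FD_c0 P (e j)) := by
        rw [map_sum]
        exact Finset.sum_congr rfl fun j _ => by rw [Algebra.smul_def, map_mul]
      rw [this, ← h1, map_zero]
    simp only [smul_sub, Finset.sum_sub_distrib, h3, sub_zero]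
    exact hb
  by_contra hcon
  have hall : ∀ j, P.adicValuation (e j - algebraMap K F (FD_c0 P (e j))) ≤ exp (-2 : ℤ) := by
    intro j
    have hlt := FD_c0_spec P (h.deg_one P) (S17NGS_val_le_one hB hP (S17NGS_mem hspan j))
    by_cases h0 : e j - algebraMap K F (FD_c0 P (e j)) = 0
    · rw [h0, map_zero]; exact zero_le
    · rw [P.adicValuation_eq_exp_neg_ord h0, exp_le_exp]
      rw [P.adicValuation_eq_exp_neg_ord h0, ← exp_zero, exp_lt_exp] at hlt
      have hne : P.ord (e j - algebraMap K F (FD_c0 P (e j))) ≠ 1 := fun h1 => hcon ⟨j, h1⟩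
      omega
  have hf2 : P.adicValuation f ≤ exp (-2 : ℤ) := by
    rw [h2]
    apply Valuation.map_sum_le
    intro j _
    rw [Algebra.smul_def, map_mul]
    exact (mul_le_of_le_one_left' (P.adicValuation_algebraMap_le_one _)).trans (hall j)
  rw [hfP, exp_le_exp] at hf2
  omega

/-! ### the instance `B = k O` in the two usual spellings -/

theorem S17NGS_single_apply_of_ne (k : ℤ) {P : Place K F} (hP : P ≠ O) :
    (Finsupp.single O k : Divisor K F) P = 0 := by
  classical
  rw [Finsupp.single_apply, if_neg (Ne.symm hP)]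

theorem S17NGS_smul_single_apply_of_ne (k : ℕ) {P : Place K F} (hP : P ≠ O) :
    (k • (Finsupp.single O (1 : ℤ) : Divisor K F)) P = 0 := by
  classical
  rw [Finsupp.smul_apply, Finsupp.single_apply, if_neg (Ne.symm hP), smul_zero]

theorem S17NGS_smul_single_degree (h : RR_Hyp K F) (k : ℕ) :
    Divisor.degree (k • (Finsupp.single O (1 : ℤ) : Divisor K F)) = k := by
  rw [map_nsmul, Divisor.degree_single, h.deg_one]; simp

theorem S17NGS_smul_single_nonneg (k : ℕ) :
    0 ≤ k • (Finsupp.single O (1 : ℤ) : Divisor K F) :=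
  nsmul_nonneg (RR_single_nonneg O 1) k

end ev

end Fermat.Agent.S17
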