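import Mathlib
import Fermat.Agent.S17.RRAvoid
import Fermat.Agent.S17.NGSep
import Fermat.Agent.S17.Move

/-!
# TRACK 8 (S17), heights, concrete side: C3 PRINC and general position GP (helper6)

Setting (as in `S17/NGSep.lean`): `h : RR_Hyp K F`, a place `O`, a divisor `B` supported at `O`
(`B = k·O`), a family `e : ι → F` spanning `L(B)`; `φ_c := ∑ j, c j • e j`;
`ev P := fun j => FD_c0 P (e j)` for `P ≠ O`.

* `S17PC_exists_minor` : (linear algebra) a `d × ι` matrix which is surjective as a linear map has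
  a nonzero `d × d` minor;
* `S17PC_princ` : **(C3)** `Z ≥ 0`, `Z − B` principal ⇒ `∃ c, φ_c ≠ 0 ∧ ∀ v, Z v = ord_v φ_c + B v`;
* `S17PC_isPrincipal_of_psi` : `S17MV_psi h O Z = 0`, `deg Z = deg B` ⇒ `Z − B` principal;
* `S17PC_psi_eq_zero` : conversely `S17MV_psi h O (div φ + B) = 0`;
* `S17PC_zero_divisor` : for `φ_c ≠ 0`, `Z(c) := div φ_c + B` is effective of degree `deg B`;
* `S17PC_dot_eq_zero_iff` : for `P ≠ O`, `φ_c ≠ 0`:  `∑ j, c j * ev P j = 0 ↔ 0 < ord_P φ_c`;
* `S17PC_exists_delta` : `D` a finite set of places, `O ∉ D`, `Q ∈ D`, `2 g + |D| ≤ deg B`: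
  there is `f ∈ L(B)` with `f(Q) ≠ 0` and `f(P) = 0` for `P ∈ D ∖ {Q}`;
* `S17PC_ev_surjective` : **(GP)** for `d` distinct places `P i ≠ O`, `2 g + d ≤ deg B`, the map
  `c ↦ (∑ j, c j * ev (P i) j)_i` is onto `K^d`;
* `S17PC_indep` : **(GP)** … hence some `d × d` minor of the matrix `ev (P i) j` is nonzero
  (this is `S17H_W (fun i => ev (P i)) ≠ 0` of `S17/HtDefs.lean`).
-/

set_option autoImplicit false

open AlgebraicCurve WithZero

namespace Fermat.Agent.S17

open Fermat.Agent.Lib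

/-- a `d × ι` matrix which is surjective as a linear map has a nonzero `d × d` minor. -/
theorem S17PC_exists_minor {K : Type*} [Field K] {ι : Type*} [Fintype ι] {d : ℕ}
    (A : Fin d → ι → K)
    (hsurj : ∀ a : Fin d → K, ∃ c : ι → K, ∀ i, ∑ j, c j * A i j = a i) :
    ∃ f : Fin d → ι, Matrix.det (Matrix.of fun i j => A i (f j)) ≠ 0 := by
  classical
  set col : ι → (Fin d → K) := fun j i => A i j with hcol
  have hspan : Submodule.span K (Set.range col) = ⊤ := by
    rw [eq_top_iff]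
    intro a _
    obtain ⟨c, hc⟩ := hsurj a
    have : a = ∑ j, c j • col j := by
      funext i
      rw [Finset.sum_apply, ← hc i]
      rfl
    rw [this]
    exact Submodule.sum_mem _ fun j _ =>
      Submodule.smul_mem _ _ (Submodule.subset_span ⟨j, rfl⟩)
  have hfr : Module.finrank K (Submodule.span K (Set.range col)) = d := by
    rw [hspan, finrank_top, Module.finrank_fin_fun]
  obtain ⟨g, hg, -, hli⟩ := Submodule.exists_fun_fin_finrank_span_eq K (Set.range col)
  choose f' hf' using hg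
  refine ⟨fun j => f' (Fin.cast hfr.symm j), ?_⟩
  have hunit : IsUnit (Matrix.of fun i j => A i (f' (Fin.cast hfr.symm j))) := by
    rw [← Matrix.linearIndependent_cols_iff_isUnit]
    have : (Matrix.of fun i j => A i (f' (Fin.cast hfr.symm j))).col =
        g ∘ (Fin.cast hfr.symm) := by
      funext j
      rw [Function.comp_apply, ← hf']
      rfl
    rw [this]
    exact hli.comp _ (Fin.cast_injective _)
  exact ((Matrix.isUnit_iff_isUnit_det _).1 hunit).ne_zero

variable {K F : Type*} [Field K] [Field F] [Algebra K F]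
variable {O : Place K F} {B : Divisor K F} {ι : Type*} {e : ι → F}

/-- **(C3) PRINC**: an effective divisor `Z` linearly equivalent to `B` is the divisor of zeros of
a section `φ_c = ∑ c_j e_j`. -/
theorem S17PC_princ [Fintype ι] (hspan : Submodule.span K (Set.range e) = riemannRochSpace B)
    (Z : Divisor K F) (hZ : 0 ≤ Z) (hprin : Divisor.IsPrincipal (Z - B)) :
    ∃ c : ι → K, (∑ j, c j • e j) ≠ 0 ∧ ∀ v : Place K F, Z v = v.ord (∑ j, c j • e j) + B v := by
  obtain ⟨f, hf0, hf⟩ := hprin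
  have hfB : f ∈ riemannRochSpace B := by
    rw [S17RS_mem_iff_ord hf0]
    intro v
    have h1 := hf v
    have h2 := Finsupp.le_def.1 hZ v
    rw [Finsupp.sub_apply] at h1
    rw [Finsupp.zero_apply] at h2
    linarith
  obtain ⟨c, hc⟩ := S17NGS_exists_coeff hspan hfB
  refine ⟨c, hc ▸ hf0, fun v => ?_⟩
  have h1 := hf v
  rw [Finsupp.sub_apply] at h1
  rw [← hc]
  linarith

/-- a divisor supported at `O` is `deg B · O`. -/
theorem S17PC_eq_degree_smul (h : RR_Hyp K F) (hB : ∀ P : Place K F, P ≠ O → B P = 0) :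
    B = B.degree • Finsupp.single O (1 : ℤ) := by
  classical
  have hBO : B = Finsupp.single O (B O) := by
    ext v
    by_cases hv : v = O
    · subst hv; rw [Finsupp.single_eq_same]
    · rw [hB v hv, Finsupp.single_apply, if_neg (Ne.symm hv)]
  have hdeg : B.degree = B O := by
    conv_lhs => rw [hBO]
    rw [Divisor.degree_single, h.deg_one]
    simp
  rw [hdeg, Finsupp.smul_single, smul_eq_mul, mul_one]
  exact hBO

/-- `[Z − deg Z · O] = 0` in `Pic⁰` and `deg Z = deg B` ⇒ `Z − B` is principal. -/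
theorem S17PC_isPrincipal_of_psi (h : RR_Hyp K F) (hB : ∀ P : Place K F, P ≠ O → B P = 0)
    (Z : Divisor K F) (hdeg : Z.degree = B.degree) (hcl : S17MV_psi h O Z = 0) :
    Divisor.IsPrincipal (Z - B) := by
  rw [S17MV_psi_apply, Pic0.mk, QuotientAddGroup.eq_zero_iff, AddSubgroup.mem_addSubgroupOf,
    S17MV_proj_coe, hdeg, ← S17PC_eq_degree_smul h hB] at hcl
  exact hcl

/-- `Z − B` principal ⇒ `[Z − deg Z · O] = 0` in `Pic⁰`. -/
theorem S17PC_psi_eq_zero (h : RR_Hyp K F) (hB : ∀ P : Place K F, P ≠ O → B P = 0)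
    (Z : Divisor K F) (hprin : Divisor.IsPrincipal (Z - B)) : S17MV_psi h O Z = 0 := by
  have hdeg : Z.degree = B.degree := by
    obtain ⟨f, hf0, hf⟩ := hprin
    have h1 : Z - B = RR_div h.principal f := by
      ext v
      rw [hf v, RR_div_apply]
    have h2 := RR_div_degree h.principal f
    rw [← h1, map_sub] at h2
    linarith
  rw [S17MV_psi_apply, Pic0.mk, QuotientAddGroup.eq_zero_iff, AddSubgroup.mem_addSubgroupOf,
    S17MV_proj_coe, hdeg, ← S17PC_eq_degree_smul h hB]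
  exact hprin

/-- the divisor of zeros `Z(c) = div φ + B` of a nonzero `φ ∈ L(B)`: effective, of degree
`deg B`, linearly equivalent to `B`. -/
theorem S17PC_zero_divisor (h : RR_Hyp K F) {φ : F} (hφ : φ ∈ riemannRochSpace B) (hφ0 : φ ≠ 0) :
    ∃ Z : Divisor K F, 0 ≤ Z ∧ Z.degree = B.degree ∧ Divisor.IsPrincipal (Z - B) ∧
      ∀ v : Place K F, Z v = v.ord φ + B v := by
  refine ⟨RR_div h.principal φ + B, ?_, ?_, ⟨φ, hφ0, fun v => ?_⟩, fun v => ?_⟩
  · rw [add_comm]
    exact (RR_mem_iff_div h.principal hφ0).1 hφ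
  · rw [map_add, RR_div_degree, zero_add]
  · rw [add_sub_cancel_right, RR_div_apply]
  · rw [Finsupp.add_apply, RR_div_apply]

/-- for `P ≠ O` and `φ_c ≠ 0`: `⟨c, ev P⟩ = 0` iff `φ_c` vanishes at `P`. -/
theorem S17PC_dot_eq_zero_iff [Fintype ι] (h : RR_Hyp K F)
    (hB : ∀ P : Place K F, P ≠ O → B P = 0) (he : ∀ j, e j ∈ riemannRochSpace B)
    {P : Place K F} (hP : P ≠ O) (c : ι → K) (hc : (∑ j, c j • e j) ≠ 0) :
    ∑ j, c j * FD_c0 P (e j) = 0 ↔ 0 < P.ord (∑ j, c j • e j) := by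
  have hmem : (∑ j, c j • e j) ∈ riemannRochSpace B :=
    Submodule.sum_mem _ fun j _ => Submodule.smul_mem _ _ (he j)
  have hle := S17NGS_val_le_one hB hP hmem
  rw [← S17NGS_c0_sum h hB he hP c, FD_c0_eq_zero_iff P (h.deg_one P) hle,
    P.adicValuation_eq_exp_neg_ord hc, ← exp_zero, exp_lt_exp]
  omega

/-- the value at `P ≠ O` of a function of `L(B)` with `ord_P f = 0` is nonzero, and it is zero if
`ord_P f > 0`. -/
theorem S17PC_c0_ne_zero_iff (h : RR_Hyp K F) (hB : ∀ P : Place K F, P ≠ O → B P = 0)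
    {P : Place K F} (hP : P ≠ O) {f : F} (hf : f ∈ riemannRochSpace B) (hf0 : f ≠ 0) :
    FD_c0 P f ≠ 0 ↔ P.ord f = 0 := by
  have hle := S17NGS_val_le_one hB hP hf
  have hge : 0 ≤ P.ord f := by
    have := (S17RS_mem_iff_ord hf0).1 hf P
    rwa [hB P hP, neg_zero] at this
  rw [Ne, FD_c0_eq_zero_iff P (h.deg_one P) hle, P.adicValuation_eq_exp_neg_ord hf0, ← exp_zero,
    exp_lt_exp]
  omega

/-- **delta functions**: `D` a finite set of places, `O ∉ D`, `Q ∈ D`, `2 g + |D| ≤ deg B`: there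
is `f ∈ L(B)` with `f(Q) ≠ 0` and `f(P) = 0` for all `P ∈ D`, `P ≠ Q`. -/
theorem S17PC_exists_delta [Infinite K] (h : RR_Hyp K F)
    (hB : ∀ P : Place K F, P ≠ O → B P = 0) (D : Finset (Place K F)) (hO : O ∉ D)
    (hdeg : 2 * (RR_genus K F : ℤ) + D.card ≤ B.degree) {Q : Place K F} (hQ : Q ∈ D) :
    ∃ f : F, f ∈ riemannRochSpace B ∧ FD_c0 Q f ≠ 0 ∧ ∀ P ∈ D, P ≠ Q → FD_c0 P f = 0 := by
  classical
  set E : Divisor K F := ∑ P ∈ D.erase Q, Finsupp.single P (1 : ℤ) with hE
  have hEdeg : (B - E).degree = B.degree - (D.card - 1 : ℕ) := by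
    have := RR_degree_add_sum_single h 0 (D.erase Q)
    rw [zero_add, map_zero, zero_add, Finset.card_erase_of_mem hQ] at this
    rw [map_sub, hE, this]
  have hcard : 1 ≤ D.card := Finset.card_pos.2 ⟨Q, hQ⟩
  have hE0 : 0 ≤ E := Finset.sum_nonneg fun P _ => by
    have := RR_single_nonneg (K := K) P 1
    rwa [Nat.cast_one] at this
  have hEapp : ∀ v : Place K F, E v = if v ∈ D.erase Q then 1 else 0 := by
    intro v
    rw [hE, Finsupp.finsetSum_apply]
    simp only [Finsupp.single_apply]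
    rw [Finset.sum_ite_eq']
  have hQO : Q ≠ O := fun hQO => hO (hQO ▸ hQ)
  have hnot := S17RS_not_le_sub_single h (B - E) (by
    rw [hEdeg]; push_cast [hcard]; linarith) Q
  obtain ⟨f, hf, hf'⟩ := SetLike.not_le_iff_exists.1 hnot
  have hford : Q.ord f = -(B - E) Q := S17RS_ord_eq_of_not_mem hf hf'
  have hf0 : f ≠ 0 := by
    rintro rfl
    exact hf' (Submodule.zero_mem _)
  have hfB : f ∈ riemannRochSpace B := RR_mono (sub_le_self B hE0) hf
  refine ⟨f, hfB, ?_, fun P hP hPQ => ?_⟩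
  · rw [S17PC_c0_ne_zero_iff h hB hQO hfB hf0, hford, Finsupp.sub_apply, hB Q hQO, hEapp,
      if_neg (Finset.notMem_erase Q D)]
    norm_num
  · have hPO : P ≠ O := fun hPO => hO (hPO ▸ hP)
    have hle := S17NGS_val_le_one hB hPO hfB
    rw [FD_c0_eq_zero_iff P (h.deg_one P) hle, P.adicValuation_eq_exp_neg_ord hf0, ← exp_zero,
      exp_lt_exp]
    have := (S17RS_mem_iff_ord hf0).1 hf P
    rw [Finsupp.sub_apply, hB P hPO, hEapp, if_pos (Finset.mem_erase.2 ⟨hPQ, hP⟩)] at this
    linarith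

/-- **(GP), surjectivity of the evaluation**: for `d` distinct places `P i ≠ O` with
`2 g + d ≤ deg B` the map `c ↦ (∑ j, c j * ev (P i) j)_i` is onto `K^d`. -/
theorem S17PC_ev_surjective [Fintype ι] [Infinite K] (h : RR_Hyp K F)
    (hB : ∀ P : Place K F, P ≠ O → B P = 0)
    (hspan : Submodule.span K (Set.range e) = riemannRochSpace B) {d : ℕ}
    (P : Fin d → Place K F) (hinj : Function.Injective P) (hO : ∀ i, P i ≠ O)
    (hdeg : 2 * (RR_genus K F : ℤ) + d ≤ B.degree) (a : Fin d → K) :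
    ∃ c : ι → K, ∀ i, ∑ j, c j * FD_c0 (P i) (e j) = a i := by
  classical
  set D : Finset (Place K F) := Finset.univ.image P with hD
  have hcard : D.card = d := by
    rw [hD, Finset.card_image_of_injective _ hinj, Finset.card_univ, Fintype.card_fin]
  have hOD : O ∉ D := by
    intro hmem
    rw [hD, Finset.mem_image] at hmem
    obtain ⟨i, -, hi⟩ := hmem
    exact hO i hi
  have hmemD : ∀ i, P i ∈ D := fun i => Finset.mem_image_of_mem P (Finset.mem_univ i)
  have hex : ∀ i : Fin d, ∃ b : ι → K, (∑ j, b j * FD_c0 (P i) (e j)) ≠ 0 ∧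
      ∀ i', i' ≠ i → ∑ j, b j * FD_c0 (P i') (e j) = 0 := by
    intro i
    obtain ⟨f, hf, hfi, hfo⟩ := S17PC_exists_delta h hB D hOD (by rw [hcard]; exact hdeg)
      (hmemD i)
    obtain ⟨b, hb⟩ := S17NGS_exists_coeff hspan hf
    refine ⟨b, ?_, fun i' hi' => ?_⟩
    · rw [← S17NGS_c0_sum h hB (S17NGS_mem hspan) (hO i) b, ← hb]
      exact hfi
    · rw [← S17NGS_c0_sum h hB (S17NGS_mem hspan) (hO i') b, ← hb]
      exact hfo (P i') (hmemD i') (fun heq => hi' (hinj heq))
  choose b hb1 hb2 using hex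
  refine ⟨fun j => ∑ i, (a i / (∑ j', b i j' * FD_c0 (P i) (e j'))) * b i j, fun i₀ => ?_⟩
  have hswap : ∑ j, (∑ i, (a i / (∑ j', b i j' * FD_c0 (P i) (e j'))) * b i j) *
        FD_c0 (P i₀) (e j) =
      ∑ i, (a i / (∑ j', b i j' * FD_c0 (P i) (e j'))) *
        ∑ j, b i j * FD_c0 (P i₀) (e j) := by
    simp only [Finset.sum_mul, Finset.mul_sum]
    rw [Finset.sum_comm]
    exact Finset.sum_congr rfl fun i _ => Finset.sum_congr rfl fun j _ => by ring
  rw [hswap, Finset.sum_eq_single i₀]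
  · exact div_mul_cancel₀ _ (hb1 i₀)
  · intro i _ hi
    rw [hb2 i i₀ (Ne.symm hi), mul_zero]
  · intro hi
    exact absurd (Finset.mem_univ i₀) hi

/-- **(GP), general position**: for `d` distinct places `P i ≠ O` with `2 g + d ≤ deg B` some
`d × d` minor of the matrix `(ev (P i) j)` is nonzero.  (With `S17H_W` of `S17/HtDefs.lean`:
`S17H_W (fun i j => FD_c0 (P i) (e j)) ≠ 0`.) -/
theorem S17PC_indep [Fintype ι] [Infinite K] (h : RR_Hyp K F)
    (hB : ∀ P : Place K F, P ≠ O → B P = 0)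
    (hspan : Submodule.span K (Set.range e) = riemannRochSpace B) {d : ℕ}
    (P : Fin d → Place K F) (hinj : Function.Injective P) (hO : ∀ i, P i ≠ O)
    (hdeg : 2 * (RR_genus K F : ℤ) + d ≤ B.degree) :
    ∃ f : Fin d → ι, Matrix.det (Matrix.of fun i j => FD_c0 (P i) (e (f j))) ≠ 0 :=
  S17PC_exists_minor (fun i j => FD_c0 (P i) (e j))
    (fun a => S17PC_ev_surjective h hB hspan P hinj hO hdeg a)

/-- **enumeration of an effective divisor**: an effective divisor of degree `k` is a sum of `k`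
places. -/
theorem S17PC_exists_enum (h : RR_Hyp K F) : ∀ (k : ℕ) (Z : Divisor K F), 0 ≤ Z →
    Divisor.degree Z = k → ∃ P : Fin k → Place K F, (∑ i, Finsupp.single (P i) (1 : ℤ)) = Z := by
  classical
  intro k
  induction k with
  | zero =>
    intro Z hZ hdeg
    refine ⟨Fin.elim0, ?_⟩
    rw [Finset.univ_eq_empty, Finset.sum_empty]
    by_contra hne
    obtain ⟨v, hv⟩ : ∃ v, Z v ≠ 0 := by
      by_contra hcon
      apply hne
      ext v
      by_contra hv
      exact hcon ⟨v, fun h0 => hv (by rw [h0]; rfl)⟩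
    have hvpos : 0 < Z v := lt_of_le_of_ne (Finsupp.le_def.1 hZ v) (Ne.symm hv)
    have hle : Finsupp.single v (1 : ℤ) ≤ Z := by
      rw [Finsupp.le_def]
      intro w
      rw [Finsupp.single_apply]
      split_ifs with hw
      · subst hw; exact hvpos
      · exact Finsupp.le_def.1 hZ w
    have h1 : 0 ≤ Divisor.degree (Z - Finsupp.single v (1 : ℤ)) := by
      have h0 : (0 : Divisor K F) ≤ Z - Finsupp.single v (1 : ℤ) := sub_nonneg.2 hle
      have := RR_finrank_le_degree_add_one h (Z - Finsupp.single v 1)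
      by_contra hneg
      rw [not_le] at hneg
      have hbot := RR_eq_bot_of_degree_neg h.deg_one h.principal hneg
      have hone : (1 : F) ∈ riemannRochSpace (Z - Finsupp.single v (1 : ℤ)) :=
        S17NGS_one_mem h0
      rw [hbot, Submodule.mem_bot] at hone
      exact one_ne_zero hone
    rw [map_sub, Divisor.degree_single, h.deg_one, hdeg] at h1
    norm_num at h1
  | succ k ih =>
    intro Z hZ hdeg
    obtain ⟨v, hv⟩ : ∃ v, Z v ≠ 0 := by
      by_contra hcon
      have hZ0 : Z = 0 := by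
        ext v
        by_contra hv
        exact hcon ⟨v, fun h0 => hv (by rw [h0]; rfl)⟩
      rw [hZ0, map_zero] at hdeg
      have : (0 : ℤ) < ((k + 1 : ℕ) : ℤ) := by exact_mod_cast Nat.succ_pos k
      rw [← hdeg] at this
      exact lt_irrefl _ this
    have hvpos : 0 < Z v := lt_of_le_of_ne (Finsupp.le_def.1 hZ v) (Ne.symm hv)
    have hle : Finsupp.single v (1 : ℤ) ≤ Z := by
      rw [Finsupp.le_def]
      intro w
      rw [Finsupp.single_apply]
      split_ifs with hw
      · subst hw; exact hvpos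
      · exact Finsupp.le_def.1 hZ w
    obtain ⟨P', hP'⟩ := ih (Z - Finsupp.single v (1 : ℤ)) (sub_nonneg.2 hle) (by
      rw [map_sub, Divisor.degree_single, h.deg_one, hdeg]
      push_cast
      ring)
    refine ⟨Fin.cons v P', ?_⟩
    rw [Fin.sum_univ_succ]
    simp only [Fin.cons_zero, Fin.cons_succ]
    rw [hP']
    abel

/-- **(C3) PRINC, cycle form**: `k` places `P i` with `[∑ P i − k·O] = 0` in `Pic⁰` are the zero
cycle of a section: `∑ i, single (P i) 1 = div φ_c + B` with `c ≠ 0`. -/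
theorem S17PC_princ_cyc [Fintype ι] (h : RR_Hyp K F)
    (hB : ∀ P : Place K F, P ≠ O → B P = 0)
    (hspan : Submodule.span K (Set.range e) = riemannRochSpace B) {k : ℕ}
    (hk : Divisor.degree B = k) (P : Fin k → Place K F)
    (hcl : S17MV_psi h O (∑ i, Finsupp.single (P i) (1 : ℤ)) = 0) :
    ∃ c : ι → K, c ≠ 0 ∧ (∑ j, c j • e j) ≠ 0 ∧
      ∀ v : Place K F, (∑ i, Finsupp.single (P i) (1 : ℤ) : Divisor K F) v =
        v.ord (∑ j, c j • e j) + B v := by
  classical
  have hdeg : Divisor.degree (∑ i, Finsupp.single (P i) (1 : ℤ) : Divisor K F) = B.degree := by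
    rw [map_sum, hk]
    simp [Divisor.degree_single, h.deg_one]
  have hZ : (0 : Divisor K F) ≤ ∑ i, Finsupp.single (P i) (1 : ℤ) :=
    Finset.sum_nonneg fun i _ => by
      have := RR_single_nonneg (K := K) (P i) 1
      rwa [Nat.cast_one] at this
  obtain ⟨c, hc0, hc⟩ := S17PC_princ hspan _ hZ (S17PC_isPrincipal_of_psi h hB _ hdeg hcl)
  refine ⟨c, ?_, hc0, hc⟩
  rintro rfl
  apply hc0
  simp

/-- **zero cycle of a section**: for `φ_c ≠ 0` there are `k = deg B` places `P i` with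
`∑ i, single (P i) 1 = div φ_c + B`, and `[∑ P i − k·O] = 0` in `Pic⁰`. -/
theorem S17PC_zeros_cyc [Fintype ι] (h : RR_Hyp K F)
    (hB : ∀ P : Place K F, P ≠ O → B P = 0) (he : ∀ j, e j ∈ riemannRochSpace B) {k : ℕ}
    (hk : Divisor.degree B = k) (c : ι → K) (hc : (∑ j, c j • e j) ≠ 0) :
    ∃ P : Fin k → Place K F,
      (∀ v : Place K F, (∑ i, Finsupp.single (P i) (1 : ℤ) : Divisor K F) v =
        v.ord (∑ j, c j • e j) + B v) ∧
      S17MV_psi h O (∑ i, Finsupp.single (P i) (1 : ℤ)) = 0 := by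
  have hmem : (∑ j, c j • e j) ∈ riemannRochSpace B :=
    Submodule.sum_mem _ fun j _ => Submodule.smul_mem _ _ (he j)
  obtain ⟨Z, hZ0, hZdeg, hZprin, hZv⟩ := S17PC_zero_divisor h hmem hc
  obtain ⟨P, hP⟩ := S17PC_exists_enum h k Z hZ0 (hZdeg.trans hk)
  refine ⟨P, fun v => by rw [hP]; exact hZv v, ?_⟩
  rw [hP]
  exact S17PC_psi_eq_zero h hB Z hZprin

end Fermat.Agent.S17
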