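import Mathlib
import Fermat.Agent.S17.Bert
import Fermat.Agent.S17.Princ

/-!
# TRACK 8 (S17), heights: BERT in coordinates (helper6), for (NCZ) of DECC-curve

Setting: `K` algebraically closed of characteristic `0`, `h : RR_Hyp K F`, a place `O`,
`e : ι → F` spanning `L(k·O)` (`B = single O k`), `φ_X := ∑ j, X j • e j`.

* `S17BC_injective_of_le_one` : a list `P` of places whose cycle `∑ i, single (P i) 1` has all
  multiplicities `≤ 1` is injective;
* `S17BC_off` : for `Q ≠ O`, `S` finite, `k ≥ 2 g + 2`: there are `X` and an INJECTIVE list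
  `P : Fin k → Place` with `∑ i, single (P i) 1 = div φ_X + k·O`, `Q ∈ range P`, `P i ≠ O`,
  `P i ∉ S` for `P i ≠ Q`, and `⟨X, ev (P i)⟩ = 0` for all `i`;
* `S17BC_at` : the same for `Q = O`: `O ∈ range P`, `P i ∉ S` for `P i ≠ O`, `X r = 0` (`e r` the
  basis vector of exact pole order `k`), `⟨X, ev (P i)⟩ = 0` for `P i ≠ O`.
-/

set_option autoImplicit false

open AlgebraicCurve WithZero

namespace Fermat.Agent.S17

open Fermat.Agent.Lib

variable {K F : Type*} [Field K] [Field F] [Algebra K F]

open Classical in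
/-- the multiplicity of `v` in the cycle of a list. -/
theorem S17BC_cyc_apply {k : ℕ} (P : Fin k → Place K F) (v : Place K F) :
    (∑ i, Finsupp.single (P i) (1 : ℤ) : Divisor K F) v =
      ((Finset.univ.filter fun i => P i = v).card : ℤ) := by
  classical
  rw [Finsupp.finsetSum_apply]
  simp only [Finsupp.single_apply]
  rw [Finset.sum_boole]

/-- a list whose cycle is reduced is injective. -/
theorem S17BC_injective_of_le_one {k : ℕ} (P : Fin k → Place K F)
    (hle : ∀ v : Place K F, (∑ i, Finsupp.single (P i) (1 : ℤ) : Divisor K F) v ≤ 1) :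
    Function.Injective P := by
  classical
  intro i i' hii'
  by_contra hne
  have h1 := hle (P i)
  rw [S17BC_cyc_apply] at h1
  have h2 : ({i, i'} : Finset (Fin k)) ⊆ Finset.univ.filter fun j => P j = P i := by
    intro j hj
    rw [Finset.mem_insert, Finset.mem_singleton] at hj
    rw [Finset.mem_filter]
    rcases hj with rfl | rfl
    · exact ⟨Finset.mem_univ _, rfl⟩
    · exact ⟨Finset.mem_univ _, hii'.symm⟩
  have h3 := Finset.card_le_card h2
  rw [Finset.card_pair hne] at h3
  have : (2 : ℤ) ≤ ((Finset.univ.filter fun j => P j = P i).card : ℤ) := by exact_mod_cast h3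
  linarith

/-- a place of positive multiplicity in the cycle of a list occurs in the list. -/
theorem S17BC_mem_range_of_pos {k : ℕ} (P : Fin k → Place K F) {v : Place K F}
    (hpos : 0 < (∑ i, Finsupp.single (P i) (1 : ℤ) : Divisor K F) v) : ∃ i, P i = v := by
  classical
  rw [S17BC_cyc_apply] at hpos
  have : 0 < (Finset.univ.filter fun i => P i = v).card := by exact_mod_cast hpos
  obtain ⟨i, hi⟩ := Finset.card_pos.1 this
  exact ⟨i, (Finset.mem_filter.1 hi).2⟩

/-- every member of a list has positive multiplicity in its cycle. -/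
theorem S17BC_pos_of_mem {k : ℕ} (P : Fin k → Place K F) (i : Fin k) :
    0 < (∑ i, Finsupp.single (P i) (1 : ℤ) : Divisor K F) (P i) := by
  classical
  rw [S17BC_cyc_apply]
  have : 0 < (Finset.univ.filter fun j => P j = P i).card :=
    Finset.card_pos.2 ⟨i, Finset.mem_filter.2 ⟨Finset.mem_univ _, rfl⟩⟩
  exact_mod_cast this

variable {ι : Type*} {e : ι → F}

/-- **BERT in coordinates, `Q ≠ O`.** -/
theorem S17BC_off [IsAlgClosed K] [CharZero K] [Fintype ι] (h : RR_Hyp K F) (O : Place K F)
    (k : ℕ) (hk : 2 * RR_genus K F + 2 ≤ k)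
    (hspan : Submodule.span K (Set.range e) = riemannRochSpace (Finsupp.single O (k : ℤ)))
    (Q : Place K F) (hQ : Q ≠ O) (S : Finset (Place K F)) :
    ∃ (X : ι → K) (P : Fin k → Place K F), (∑ j, X j • e j) ≠ 0 ∧ Function.Injective P ∧
      (∃ i, P i = Q) ∧ (∀ i, P i ≠ O) ∧ (∀ i, P i ≠ Q → P i ∉ S) ∧
      (∀ v : Place K F, (∑ i, Finsupp.single (P i) (1 : ℤ) : Divisor K F) v =
        v.ord (∑ j, X j • e j) + (Finsupp.single O (k : ℤ) : Divisor K F) v) ∧
      ∀ i, ∑ j, X j * FD_c0 (P i) (e j) = 0 := by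
  classical
  obtain ⟨f, hf0, hfO, hfQ, hf01, hfS⟩ := S17BE_bertini h O Q hQ S k hk
  have hB : ∀ P : Place K F, P ≠ O → (Finsupp.single O (k : ℤ) : Divisor K F) P = 0 :=
    fun P hP => by rw [Finsupp.single_apply, if_neg (Ne.symm hP)]
  have hBO : (Finsupp.single O (k : ℤ) : Divisor K F) O = k := by
    rw [Finsupp.single_apply, if_pos rfl]
  have hdegB : Divisor.degree (Finsupp.single O (k : ℤ) : Divisor K F) = k := by
    rw [Divisor.degree_single, h.deg_one]; simp
  have hfmem : f ∈ riemannRochSpace (Finsupp.single O (k : ℤ)) := by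
    rw [S17RS_mem_iff_ord hf0]
    intro v
    by_cases hv : v = O
    · subst hv; rw [hBO, hfO]
    · rw [hB v hv, neg_zero]; exact (hf01 v hv).1
  obtain ⟨X, hX⟩ := S17NGS_exists_coeff hspan hfmem
  have hX0 : (∑ j, X j • e j) ≠ 0 := hX ▸ hf0
  obtain ⟨P, hP, -⟩ := S17PC_zeros_cyc h hB (S17NGS_mem hspan) hdegB X hX0
  rw [← hX] at hP
  have hPO : ∀ i, P i ≠ O := by
    intro i hi
    have := S17BC_pos_of_mem P i
    rw [hP, hi, hfO, hBO] at this
    linarith
  refine ⟨X, P, hX0, ?_, ?_, hPO, ?_, fun v => by rw [← hX]; exact hP v, fun i => ?_⟩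
  · apply S17BC_injective_of_le_one
    intro v
    rw [hP]
    by_cases hv : v = O
    · subst hv; rw [hfO, hBO]; linarith
    · rw [hB v hv, add_zero]; exact (hf01 v hv).2
  · apply S17BC_mem_range_of_pos
    rw [hP, hfQ, hB Q hQ]
    norm_num
  · intro i hiQ hiS
    have := S17BC_pos_of_mem P i
    rw [hP, hfS (P i) hiS hiQ (hPO i), hB _ (hPO i)] at this
    linarith
  · rw [S17PC_dot_eq_zero_iff h hB (S17NGS_mem hspan) (hPO i) X hX0, ← hX]
    have := S17BC_pos_of_mem P i
    rw [hP, hB _ (hPO i), add_zero] at this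
    exact this

/-- **BERT in coordinates, `Q = O`.** -/
theorem S17BC_at [IsAlgClosed K] [CharZero K] [Fintype ι] (h : RR_Hyp K F) (O : Place K F)
    (k : ℕ) (hk : 2 * RR_genus K F + 2 ≤ k)
    (hspan : Submodule.span K (Set.range e) = riemannRochSpace (Finsupp.single O (k : ℤ)))
    (r : ι) (hlt : ∀ j, j ≠ r → O.adicValuation (e j) < exp (k : ℤ))
    (S : Finset (Place K F)) :
    ∃ (X : ι → K) (P : Fin k → Place K F), (∑ j, X j • e j) ≠ 0 ∧ Function.Injective P ∧
      (∃ i, P i = O) ∧ X r = 0 ∧ (∀ i, P i ≠ O → P i ∉ S) ∧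
      (∀ v : Place K F, (∑ i, Finsupp.single (P i) (1 : ℤ) : Divisor K F) v =
        v.ord (∑ j, X j • e j) + (Finsupp.single O (k : ℤ) : Divisor K F) v) ∧
      ∀ i, P i ≠ O → ∑ j, X j * FD_c0 (P i) (e j) = 0 := by
  classical
  obtain ⟨f, hf0, hfO, hf01, hfS⟩ := S17BE_bertini' h O S (k - 1) (by omega)
  have hk1 : ((k - 1 : ℕ) : ℤ) = (k : ℤ) - 1 := by
    have : 1 ≤ k := by omega
    push_cast [this]
    ring
  rw [hk1] at hfO
  have hB : ∀ P : Place K F, P ≠ O → (Finsupp.single O (k : ℤ) : Divisor K F) P = 0 :=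
    fun P hP => by rw [Finsupp.single_apply, if_neg (Ne.symm hP)]
  have hBO : (Finsupp.single O (k : ℤ) : Divisor K F) O = k := by
    rw [Finsupp.single_apply, if_pos rfl]
  have hdegB : Divisor.degree (Finsupp.single O (k : ℤ) : Divisor K F) = k := by
    rw [Divisor.degree_single, h.deg_one]; simp
  have hfmem : f ∈ riemannRochSpace (Finsupp.single O (k : ℤ)) := by
    rw [S17RS_mem_iff_ord hf0]
    intro v
    by_cases hv : v = O
    · subst hv; rw [hBO, hfO]; linarith
    · rw [hB v hv, neg_zero]; exact (hf01 v hv).1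
  obtain ⟨X, hX⟩ := S17NGS_exists_coeff hspan hfmem
  have hX0 : (∑ j, X j • e j) ≠ 0 := hX ▸ hf0
  obtain ⟨P, hP, -⟩ := S17PC_zeros_cyc h hB (S17NGS_mem hspan) hdegB X hX0
  rw [← hX] at hP
  refine ⟨X, P, hX0, ?_, ?_, ?_, ?_, fun v => by rw [← hX]; exact hP v, fun i hi => ?_⟩
  · apply S17BC_injective_of_le_one
    intro v
    rw [hP]
    by_cases hv : v = O
    · subst hv; rw [hfO, hBO]; linarith
    · rw [hB v hv, add_zero]; exact (hf01 v hv).2
  · apply S17BC_mem_range_of_pos
    rw [hP, hfO, hBO]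
    linarith
  · -- `X r = 0`: otherwise every element of `L(kO)` has pole order `< k` at `O`
    by_contra hXr
    have hrest : O.adicValuation (∑ j ∈ Finset.univ.erase r, X j • e j) < exp (k : ℤ) := by
      refine Valuation.map_sum_lt _ (by simp) fun j hj => ?_
      rw [Algebra.smul_def, map_mul]
      exact lt_of_le_of_lt (mul_le_of_le_one_left' (O.adicValuation_algebraMap_le_one _))
        (hlt j (Finset.ne_of_mem_erase hj))
    have hval : O.adicValuation f < exp (k : ℤ) := by
      rw [O.adicValuation_eq_exp_neg_ord hf0, exp_lt_exp, hfO]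
      linarith
    have hsplit : X r • e r = f - ∑ j ∈ Finset.univ.erase r, X j • e j := by
      rw [hX, ← Finset.add_sum_erase Finset.univ _ (Finset.mem_univ r)]
      ring
    have hr : O.adicValuation (X r • e r) < exp (k : ℤ) := by
      rw [hsplit]
      exact lt_of_le_of_lt (Valuation.map_sub _ _ _) (max_lt hval hrest)
    have hc1 : O.adicValuation (algebraMap K F (X r)) = 1 := by
      rw [O.adicValuation_eq_exp_neg_ord (by simpa using hXr), S24.BL_ord_algebraMap, neg_zero,
        exp_zero]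
    rw [Algebra.smul_def, map_mul, hc1, one_mul] at hr
    have hall : ∀ j, O.adicValuation (e j) < exp (k : ℤ) := by
      intro j
      by_cases hj : j = r
      · subst hj; exact hr
      · exact hlt j hj
    obtain ⟨u, hu0, huO, hu⟩ := S17RS_exists_pole_order h O k (by omega)
    have humem : u ∈ riemannRochSpace (Finsupp.single O (k : ℤ)) := by
      rw [S17RS_mem_iff_ord hu0]
      intro v
      by_cases hv : v = O
      · subst hv; rw [hBO, huO]
      · rw [hB v hv, neg_zero]; exact hu v hv
    obtain ⟨Y, hY⟩ := S17NGS_exists_coeff hspan humem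
    have hulT : O.adicValuation u < exp (k : ℤ) := by
      rw [hY]
      refine Valuation.map_sum_lt _ (by simp) fun j _ => ?_
      rw [Algebra.smul_def, map_mul]
      exact lt_of_le_of_lt (mul_le_of_le_one_left' (O.adicValuation_algebraMap_le_one _))
        (hall j)
    rw [O.adicValuation_eq_exp_neg_ord hu0, huO, neg_neg] at hulT
    exact lt_irrefl _ hulT
  · intro i hiO hiS
    have := S17BC_pos_of_mem P i
    rw [hP, hfS (P i) hiS hiO, hB _ hiO] at this
    linarith
  · rw [S17PC_dot_eq_zero_iff h hB (S17NGS_mem hspan) hi X hX0, ← hX]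
    have := S17BC_pos_of_mem P i
    rw [hP, hB _ hi, add_zero] at this
    exact this

end Fermat.Agent.S17
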