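import Fermat.Agent.S17.CertM

/-!
# TRACK 8 (S17), package CERT2: bihomogeneous height machine in BLOCK FORM

Variables `ι₁ ⊕ ι₂`; `p γ` bihomogeneous of bidegree `(N₁, N₂)`; `I` a homogeneous ideal in the
second set of variables.  If for all `c ≠ 0`, `x ∈ V(I) ∖ 0` some `p γ (c, x) ≠ 0`, then

  `| h( (p γ (c i, x))_{γ, i} ) - (N₁ * h( (c i j)_{i, j} ) + N₂ * h(x)) | ≤ C`

for all families `c : ν → ι₁ → K` (not all zero) and `x ∈ V(I)(K) ∖ 0`  (`S17C_block`).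
`S17C_bihom` is the case of one `c`.
-/

namespace Fermat.Agent.S17

open MvPolynomial

universe u v

/-- weighted homogeneity is transported by `rename` -/
theorem S17C_isWH_rename {R σ τ M : Type*} [CommSemiring R] [AddCommMonoid M] (f : σ → τ)
    (w : τ → M) (φ : MvPolynomial σ R) (m : M) (h : IsWeightedHomogeneous (w ∘ f) φ m) :
    IsWeightedHomogeneous w (rename f φ) m := by
  intro d' hd'
  obtain ⟨d, rfl, hd⟩ := coeff_rename_ne_zero f φ d' hd'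
  rw [← h hd]
  exact Finsupp.linearCombination_mapDomain (R := ℕ) (v' := w) f d

/-- an ideal spanned by weighted homogeneous elements is stable under weighted homogeneous
components -/
theorem S17C_hI_of_span_weighted {R σ M : Type*} [CommRing R] [AddCommMonoid M] (w : σ → M)
    (S : Set (MvPolynomial σ R)) (hS : ∀ f ∈ S, ∃ m, IsWeightedHomogeneous w f m) :
    ∀ f ∈ Ideal.span S, ∀ d, weightedHomogeneousComponent w d f ∈ Ideal.span S := by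
  classical
  letI := weightedGradedAlgebra R w
  have h : (Ideal.span S).IsHomogeneous (weightedHomogeneousSubmodule R w) :=
    Ideal.homogeneous_span _ _ fun f hf => by
      obtain ⟨m, hm⟩ := hS f hf
      exact ⟨m, (mem_weightedHomogeneousSubmodule R w m f).2 hm⟩
  intro f hf d
  exact weightedHomogeneousComponent_mem_of_mem R w h hf d

/-- invariance of the height under bijective reindexing -/
theorem S17C_h_comp_bij {K : Type v} [Field K] (H : S17C_HtAPI.{u} K) {ι ι' : Type u}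
    [Finite ι] [Finite ι'] (f : ι → ι') (hf : Function.Bijective f) (x : ι' → K) :
    H.h (x ∘ f) = H.h x := by
  refine le_antisymm (H.comp_le f x) ?_
  have h1 : x = (x ∘ f) ∘ Function.surjInv hf.2 := by
    funext i
    simp only [Function.comp_apply, Function.surjInv_eq hf.2 i]
  conv_lhs => rw [h1]
  exact H.comp_le _ _

/-! ### Bihomogeneous polynomials on `ι₁ ⊕ ι₂` -/

/-- the block map of `ι₁ ⊕ ι₂` (blocks indexed by `ULift Bool`: `false` = left, `true` = right) -/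
def S17C_b2 (ι₁ ι₂ : Type u) : ι₁ ⊕ ι₂ → ULift.{u} Bool :=
  Sum.elim (fun _ => ⟨false⟩) (fun _ => ⟨true⟩)

/-- the bidegree as a function on `ULift Bool` -/
def S17C_N2 (N₁ N₂ : ℕ) : ULift.{u} Bool → ℕ := fun a => cond a.down N₂ N₁

/-- `f` is bihomogeneous of bidegree `(N₁, N₂)`: every monomial has degree `N₁` in the left
variables and `N₂` in the right variables. -/
def S17C_IsBihom {R : Type*} [CommSemiring R] {ι₁ ι₂ : Type*} [Fintype ι₁] [Fintype ι₂]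
    (f : MvPolynomial (ι₁ ⊕ ι₂) R) (N₁ N₂ : ℕ) : Prop :=
  ∀ d, coeff d f ≠ 0 → ∑ i, d (Sum.inl i) = N₁ ∧ ∑ i, d (Sum.inr i) = N₂

theorem S17C_sum_block_false {ι₁ ι₂ : Type u} [Fintype ι₁] [Fintype ι₂] {M : Type*}
    [AddCommMonoid M] (F : ι₁ ⊕ ι₂ → M) :
    ∑ s : {s : ι₁ ⊕ ι₂ // S17C_b2 ι₁ ι₂ s = ⟨false⟩}, F s.1 = ∑ i, F (Sum.inl i) := by
  classical
  refine (Fintype.sum_bijective (fun i : ι₁ => (⟨Sum.inl i, rfl⟩ :
    {s : ι₁ ⊕ ι₂ // S17C_b2 ι₁ ι₂ s = ⟨false⟩})) ⟨?_, ?_⟩ _ _ (fun _ => rfl)).symm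
  · intro i j h
    exact Sum.inl_injective (congrArg Subtype.val h)
  · rintro ⟨s | s, hs⟩
    · exact ⟨s, rfl⟩
    · simp [S17C_b2] at hs

theorem S17C_sum_block_true {ι₁ ι₂ : Type u} [Fintype ι₁] [Fintype ι₂] {M : Type*}
    [AddCommMonoid M] (F : ι₁ ⊕ ι₂ → M) :
    ∑ s : {s : ι₁ ⊕ ι₂ // S17C_b2 ι₁ ι₂ s = ⟨true⟩}, F s.1 = ∑ i, F (Sum.inr i) := by
  classical
  refine (Fintype.sum_bijective (fun i : ι₂ => (⟨Sum.inr i, rfl⟩ :
    {s : ι₁ ⊕ ι₂ // S17C_b2 ι₁ ι₂ s = ⟨true⟩})) ⟨?_, ?_⟩ _ _ (fun _ => rfl)).symm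
  · intro i j h
    exact Sum.inr_injective (congrArg Subtype.val h)
  · rintro ⟨s | s, hs⟩
    · simp [S17C_b2] at hs
    · exact ⟨s, rfl⟩

theorem S17C_isBihom_iff {R : Type*} [CommSemiring R] {ι₁ ι₂ : Type u} [Fintype ι₁]
    [Fintype ι₂] (f : MvPolynomial (ι₁ ⊕ ι₂) R) (N₁ N₂ : ℕ) :
    S17C_IsBihom f N₁ N₂ ↔
      IsWeightedHomogeneous (S17C_bw (S17C_b2 ι₁ ι₂)) f (S17C_N2 N₁ N₂) := by
  rw [S17C_isMulti_iff]
  constructor
  · intro h d hd a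
    obtain ⟨h1, h2⟩ := h d hd
    rcases a with ⟨_ | _⟩
    · rw [S17C_sum_block_false (fun s => d s)]; exact h1
    · rw [S17C_sum_block_true (fun s => d s)]; exact h2
  · intro h d hd
    refine ⟨?_, ?_⟩
    · rw [← S17C_sum_block_false (fun s => d s)]; exact h d hd ⟨false⟩
    · rw [← S17C_sum_block_true (fun s => d s)]; exact h d hd ⟨true⟩

/-! ### Extension of a homogeneous ideal in the right variables -/

/-- the ideal of `K[τ ⊕ ι₂]` generated by the homogeneous elements of `I ⊆ K[ι₂]` -/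
noncomputable def S17C_extI {K : Type*} [CommRing K] {ι₂ : Type*} (τ : Type*)
    (I : Ideal (MvPolynomial ι₂ K)) : Ideal (MvPolynomial (τ ⊕ ι₂) K) :=
  Ideal.span {g | ∃ f ∈ I, (∃ n, f.IsHomogeneous n) ∧ g = rename Sum.inr f}

theorem S17C_weight_const {σ M : Type*} [AddCommMonoid M] (c : M) (d : σ →₀ ℕ) :
    Finsupp.weight (fun _ : σ => c) d = Finsupp.weight (1 : σ → ℕ) d • c := by
  simp only [Finsupp.weight_apply, Finsupp.sum, Pi.one_apply, smul_eq_mul, mul_one,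
    Finset.sum_smul]

theorem S17C_extI_hI {K : Type*} [CommRing K] {ι₂ τ : Type u} (I : Ideal (MvPolynomial ι₂ K)) :
    ∀ f ∈ S17C_extI τ I, ∀ d,
      weightedHomogeneousComponent (S17C_bw (S17C_b2 τ ι₂)) d f ∈ S17C_extI τ I := by
  apply S17C_hI_of_span_weighted
  rintro g ⟨f, -, ⟨n, hn⟩, rfl⟩
  refine ⟨n • Pi.single ⟨true⟩ 1, ?_⟩
  apply S17C_isWH_rename
  intro d hd
  have h1 : S17C_bw (S17C_b2 τ ι₂) ∘ Sum.inr = fun _ : ι₂ => Pi.single ⟨true⟩ 1 := rfl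
  rw [h1, S17C_weight_const, hn hd]

theorem S17C_extI_zero {K A : Type*} [CommRing K] [CommRing A] [Algebra K A] {ι₂ τ : Type*}
    (I : Ideal (MvPolynomial ι₂ K)) (x' : τ ⊕ ι₂ → A)
    (hx : ∀ f ∈ I, aeval (x' ∘ Sum.inr) f = 0) : ∀ g ∈ S17C_extI τ I, aeval x' g = 0 := by
  intro g hg
  have : S17C_extI τ I ≤ RingHom.ker (aeval x' : MvPolynomial (τ ⊕ ι₂) K →ₐ[K] A).toRingHom := by
    apply Ideal.span_le.2
    rintro g ⟨f, hf, -, rfl⟩
    show aeval x' (rename Sum.inr f) = 0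
    rw [aeval_rename]
    exact hx f hf
  exact this hg

theorem S17C_extI_zero' {K A : Type*} [CommRing K] [CommRing A] [Algebra K A] {ι₂ τ : Type*}
    (I : Ideal (MvPolynomial ι₂ K)) (hI : ∀ f ∈ I, ∀ d, homogeneousComponent d f ∈ I)
    (x' : τ ⊕ ι₂ → A) (hx : ∀ g ∈ S17C_extI τ I, aeval x' g = 0) :
    ∀ f ∈ I, aeval (x' ∘ Sum.inr) f = 0 := by
  intro f hf
  rw [← sum_homogeneousComponent f, map_sum]
  refine Finset.sum_eq_zero fun d _ => ?_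
  rw [← aeval_rename]
  exact hx _ (Ideal.subset_span ⟨_, hI f hf d, ⟨d, homogeneousComponent_isHomogeneous d f⟩, rfl⟩)

/-! ### The block form -/

theorem S17C_sum_ulift_bool {M : Type*} [AddCommMonoid M] (F : ULift.{u} Bool → M) :
    ∑ a, F a = F ⟨false⟩ + F ⟨true⟩ := by
  rw [← Equiv.sum_comp Equiv.ulift.symm F, Fintype.sum_bool, add_comm]
  rfl

/-- the embedding of the variables `ι₁ ⊕ ι₂` as the `i`-th copy in `(ν × ι₁) ⊕ ι₂` -/
def S17C_phi {ν ι₁ ι₂ : Type*} (i : ν) : ι₁ ⊕ ι₂ → (ν × ι₁) ⊕ ι₂ := Sum.map (Prod.mk i) id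

theorem S17C_phi_comp {A ν ι₁ ι₂ : Type*} (i : ν) (c : ι₁ → A) (x : ι₂ → A)
    (x' : (ν × ι₁) ⊕ ι₂ → A) (h1 : ∀ j, x' (Sum.inl (i, j)) = c j)
    (h2 : ∀ j, x' (Sum.inr j) = x j) : x' ∘ S17C_phi i = Sum.elim c x := by
  funext s
  cases s with
  | inl j => exact h1 j
  | inr j => exact h2 j

section block

variable {K : Type v} [Field K] (H : S17C_HtAPI.{u} K)

/-- **CERT2, block form.**  `p γ` bihomogeneous of bidegree `(N₁, N₂)` on `ι₁ ⊕ ι₂`, `I` a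
homogeneous ideal in the right variables; no common zero of the `p γ` at `(c, x)` with `c ≠ 0`,
`x ∈ V(I) ∖ 0` (points over an algebraically closed `Ω ⊇ K`).  Then for every finite family
`c : ν → ι₁ → K`, not all zero, and `x ∈ V(I)(K) ∖ 0`:
`| h((p γ (c i, x))_{(γ, i)}) - (N₁ * h((c i j)_{(i, j)}) + N₂ * h(x)) | ≤ C`. -/
theorem S17C_block {Ω : Type*} [Field Ω] [Algebra K Ω] [IsAlgClosed Ω]
    {ι₁ ι₂ Γ ν : Type u} [Fintype ι₁] [Fintype ι₂] [Fintype Γ] [Fintype ν]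
    (N₁ N₂ : ℕ) (p : Γ → MvPolynomial (ι₁ ⊕ ι₂) K) (hp : ∀ γ, S17C_IsBihom (p γ) N₁ N₂)
    (I : Ideal (MvPolynomial ι₂ K)) (hI : ∀ f ∈ I, ∀ d, homogeneousComponent d f ∈ I)
    (hne : ∀ (c : ι₁ → Ω) (x : ι₂ → Ω), c ≠ 0 → x ≠ 0 → (∀ f ∈ I, aeval x f = 0) →
      ∃ γ, aeval (Sum.elim c x) (p γ) ≠ 0) :
    ∃ C : ℝ, ∀ (c : ν → ι₁ → K) (x : ι₂ → K), (∃ i, c i ≠ 0) → x ≠ 0 →
      (∀ f ∈ I, eval x f = 0) →
      |H.h (fun a : Γ × ν => eval (Sum.elim (c a.2) x) (p a.1)) -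
        (N₁ * H.h (fun a : ν × ι₁ => c a.1 a.2) + N₂ * H.h x)| ≤ C := by
  classical
  have hb : ∀ i : ν, S17C_bw (S17C_b2 (ν × ι₁) ι₂) ∘ S17C_phi i = S17C_bw (S17C_b2 ι₁ ι₂) := by
    intro i
    funext s
    cases s <;> rfl
  have hp' : ∀ a : Γ × ν, IsWeightedHomogeneous (S17C_bw (S17C_b2 (ν × ι₁) ι₂))
      (rename (S17C_phi a.2) (p a.1)) (S17C_N2 N₁ N₂) := by
    intro a
    apply S17C_isWH_rename
    rw [hb]
    exact (S17C_isBihom_iff _ _ _).1 (hp a.1)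
  obtain ⟨C, hC⟩ := S17C_machine H (Ω := Ω) (S17C_b2 (ν × ι₁) ι₂) (S17C_N2 N₁ N₂)
    (fun a : Γ × ν => rename (S17C_phi a.2) (p a.1)) hp' (S17C_extI (ν × ι₁) I)
    (S17C_extI_hI I)
    (by
      intro x' hx' hxI
      obtain ⟨s₁, hs₁, hx₁⟩ := hx' ⟨false⟩
      obtain ⟨s₂, hs₂, hx₂⟩ := hx' ⟨true⟩
      rcases s₁ with ⟨i, j₁⟩ | s₁
      swap
      · simp [S17C_b2] at hs₁
      rcases s₂ with s₂ | j₂
      · simp [S17C_b2] at hs₂
      have hc : (fun j => x' (Sum.inl (i, j))) ≠ 0 := fun h => hx₁ (congrFun h j₁)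
      have hx : x' ∘ Sum.inr ≠ 0 := fun h => hx₂ (congrFun h j₂)
      obtain ⟨γ, hγ⟩ := hne _ _ hc hx (S17C_extI_zero' I hI x' hxI)
      refine ⟨(γ, i), ?_⟩
      rw [aeval_rename, S17C_phi_comp i (fun j => x' (Sum.inl (i, j))) (x' ∘ Sum.inr) x'
        (fun _ => rfl) (fun _ => rfl)]
      exact hγ)
  refine ⟨C, fun c x hc hx hxI => ?_⟩
  obtain ⟨x', hx'⟩ : ∃ x' : (ν × ι₁) ⊕ ι₂ → K, x' = Sum.elim (fun a : ν × ι₁ => c a.1 a.2) x :=
    ⟨_, rfl⟩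
  have hblocks : ∀ a, ∃ s, S17C_b2 (ν × ι₁) ι₂ s = a ∧ x' s ≠ 0 := by
    rintro ⟨_ | _⟩
    · obtain ⟨i, hi⟩ := hc
      obtain ⟨j, hj⟩ := Function.ne_iff.1 hi
      exact ⟨Sum.inl (i, j), rfl, by rw [hx']; exact hj⟩
    · obtain ⟨j, hj⟩ := Function.ne_iff.1 hx
      exact ⟨Sum.inr j, rfl, by rw [hx']; exact hj⟩
  have hV : ∀ g ∈ S17C_extI (ν × ι₁) I, eval x' g = 0 := by
    intro g hg
    have := S17C_extI_zero (A := K) I x' (fun f hf => by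
      have h1 : x' ∘ Sum.inr = x := by rw [hx']; rfl
      rw [h1]
      have := hxI f hf
      rwa [← aeval_eq_eval] at this) g hg
    rwa [aeval_eq_eval] at this
  have hmain := hC x' hblocks hV
  have h1 : (fun a : Γ × ν => eval x' (rename (S17C_phi a.2) (p a.1))) =
      fun a : Γ × ν => eval (Sum.elim (c a.2) x) (p a.1) := by
    funext a
    rw [eval_rename, S17C_phi_comp a.2 (c a.2) x x' (fun j => by rw [hx']; rfl)
      (fun j => by rw [hx']; rfl)]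
  have h2 : H.h (fun s : {s : (ν × ι₁) ⊕ ι₂ // S17C_b2 (ν × ι₁) ι₂ s = ⟨false⟩} => x' s.1) =
      H.h (fun a : ν × ι₁ => c a.1 a.2) := by
    have := S17C_h_comp_bij H (fun a : ν × ι₁ => (⟨Sum.inl a, rfl⟩ :
      {s : (ν × ι₁) ⊕ ι₂ // S17C_b2 (ν × ι₁) ι₂ s = ⟨false⟩})) ⟨fun a a' h =>
        Sum.inl_injective (congrArg Subtype.val h), by
          rintro ⟨s | s, hs⟩
          · exact ⟨s, rfl⟩
          · simp [S17C_b2] at hs⟩ (fun s => x' s.1)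
    rw [← this]
    congr 1
    funext a
    rw [hx']
    rfl
  have h3 : H.h (fun s : {s : (ν × ι₁) ⊕ ι₂ // S17C_b2 (ν × ι₁) ι₂ s = ⟨true⟩} => x' s.1) =
      H.h x := by
    have := S17C_h_comp_bij H (fun j : ι₂ => (⟨Sum.inr j, rfl⟩ :
      {s : (ν × ι₁) ⊕ ι₂ // S17C_b2 (ν × ι₁) ι₂ s = ⟨true⟩})) ⟨fun a a' h =>
        Sum.inr_injective (congrArg Subtype.val h), by
          rintro ⟨s | s, hs⟩
          · simp [S17C_b2] at hs
          · exact ⟨s, rfl⟩⟩ (fun s => x' s.1)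
    rw [← this]
    congr 1
    funext a
    rw [hx']
    rfl
  rw [h1, S17C_sum_ulift_bool, h2, h3] at hmain
  exact hmain

/-- **Bihomogeneous height machine** (one `c`): `| h(p(c, x)) - (N₁ h(c) + N₂ h(x)) | ≤ C` for
`c ≠ 0`, `x ∈ V(I)(K) ∖ 0`. -/
theorem S17C_bihom {Ω : Type*} [Field Ω] [Algebra K Ω] [IsAlgClosed Ω]
    {ι₁ ι₂ Γ : Type u} [Fintype ι₁] [Fintype ι₂] [Fintype Γ]
    (N₁ N₂ : ℕ) (p : Γ → MvPolynomial (ι₁ ⊕ ι₂) K) (hp : ∀ γ, S17C_IsBihom (p γ) N₁ N₂)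
    (I : Ideal (MvPolynomial ι₂ K)) (hI : ∀ f ∈ I, ∀ d, homogeneousComponent d f ∈ I)
    (hne : ∀ (c : ι₁ → Ω) (x : ι₂ → Ω), c ≠ 0 → x ≠ 0 → (∀ f ∈ I, aeval x f = 0) →
      ∃ γ, aeval (Sum.elim c x) (p γ) ≠ 0) :
    ∃ C : ℝ, ∀ (c : ι₁ → K) (x : ι₂ → K), c ≠ 0 → x ≠ 0 → (∀ f ∈ I, eval x f = 0) →
      |H.h (fun γ : Γ => eval (Sum.elim c x) (p γ)) - (N₁ * H.h c + N₂ * H.h x)| ≤ C := by
  obtain ⟨C, hC⟩ := S17C_block H (Ω := Ω) (ν := PUnit.{u + 1}) N₁ N₂ p hp I hI hne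
  refine ⟨C, fun c x hc hx hxI => ?_⟩
  have h := hC (fun _ => c) x ⟨PUnit.unit, hc⟩ hx hxI
  have h1 : H.h (fun a : Γ × PUnit.{u + 1} => eval (Sum.elim c x) (p a.1)) =
      H.h (fun γ : Γ => eval (Sum.elim c x) (p γ)) :=
    S17C_h_comp_bij H (fun a : Γ × PUnit.{u + 1} => a.1)
      ⟨fun a a' h => Prod.ext h rfl, fun γ => ⟨(γ, PUnit.unit), rfl⟩⟩
      (fun γ : Γ => eval (Sum.elim c x) (p γ))
  have h2 : H.h (fun a : PUnit.{u + 1} × ι₁ => c a.2) = H.h c :=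
    S17C_h_comp_bij H (fun a : PUnit.{u + 1} × ι₁ => a.2)
      ⟨fun a a' h => Prod.ext rfl h, fun j => ⟨(PUnit.unit, j), rfl⟩⟩ c
  rw [h1, h2] at h
  exact h

end block

end Fermat.Agent.S17
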