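import Fermat.Agent.S17.AbsGM
import Fermat.Agent.S17.CertB

/-!
# TRACK 8 (S17), heights pillar: common definitions (helper7)

`Ω` a field (in the application `AlgebraicClosure ℚ`), `ι` a finite index type (coordinates of the
embedding `e : C → ℙ^r`, `ι = Fin (r+1)`).  All heights are `S17AH_h` (helper8) and
`S17AG_hpoly` (helper1).  Vectors of minors are indexed by ALL index pairs / index functions
(repeated entries, signs and zeros do not change a projective height).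

* `S17H_dot c x`      `⟨c, x⟩ = ∑ j, c j * x j`
* `S17H_wedge x y`    the `2 × 2` minors `x i * y j - x j * y i`, indexed by `ι × ι`
* `S17H_w x y`        `h (x ∧ y)`
* `S17H_lam x y`      the chordal height `λ(x,y) = h x + h y - h (x ∧ y)`
* `S17H_W x`          the `d × d` minors of the matrix with rows `x i` (`i : Fin d`), indexed by
                      `Fin d → ι`  (Plücker vector of `span (x i)`, i.e. of `L(kO − D)^⊥`)
* `S17H_hat T x`      the vector `(T̂ x) j = ∑ i, (T (i,j) - T (j,i)) * x i`, so that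
                      `⟨T̂ x, y⟩ = ∑ (i,j), T (i,j) * (x ∧ y) (i,j)`
* `S17H_hatPoly x`    the same with `T (i,j)` the variables `X (i,j)` of `MvPolynomial (ι × ι) Ω`
* `S17H_skew x y`     the linear form `T ↦ ⟨T̂ x, y⟩` in `MvPolynomial (ι × ι) Ω`
-/

set_option autoImplicit false

open MvPolynomial

namespace Fermat.Agent.S17

variable {Ω : Type} [Field Ω] {ι : Type}

/-- `⟨c, x⟩ = ∑ j, c j * x j`. -/
def S17H_dot [Fintype ι] (c x : ι → Ω) : Ω := ∑ j, c j * x j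

/-- the `2 × 2` minors of the matrix with rows `x`, `y` (all ordered index pairs). -/
def S17H_wedge (x y : ι → Ω) : ι × ι → Ω := fun p => x p.1 * y p.2 - x p.2 * y p.1

/-- the `d × d` minors of the matrix with rows `x i` (all index functions `Fin d → ι`). -/
def S17H_W {d : ℕ} (x : Fin d → ι → Ω) : (Fin d → ι) → Ω :=
  fun f => Matrix.det (Matrix.of fun i j => x i (f j))

/-- `(T̂ x) j = ∑ i, (T (i,j) - T (j,i)) * x i`. -/
def S17H_hat [Fintype ι] (T : ι × ι → Ω) (x : ι → Ω) : ι → Ω :=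
  fun j => ∑ i, (T (i, j) - T (j, i)) * x i

/-- `T̂ x` with `T` the matrix of variables. -/
noncomputable def S17H_hatPoly [Fintype ι] (x : ι → Ω) : ι → MvPolynomial (ι × ι) Ω :=
  fun j => ∑ i, (X (i, j) - X (j, i)) * C (x i)

/-- the linear form `T ↦ ⟨T̂ x, y⟩ = ∑ p, T p * (x ∧ y) p`. -/
noncomputable def S17H_skew [Fintype ι] (x y : ι → Ω) : MvPolynomial (ι × ι) Ω :=
  ∑ p : ι × ι, C (S17H_wedge x y p) * X p

theorem S17H_wedge_self (x : ι → Ω) : S17H_wedge x x = 0 := by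
  funext p; simp [S17H_wedge, mul_comm]

theorem S17H_wedge_swap (x y : ι → Ω) : S17H_wedge y x = -S17H_wedge x y := by
  funext p; simp only [S17H_wedge, Pi.neg_apply]; ring

theorem S17H_dot_hat [Fintype ι] (T : ι × ι → Ω) (x y : ι → Ω) :
    S17H_dot (S17H_hat T x) y = ∑ p : ι × ι, T p * S17H_wedge x y p := by
  classical
  simp only [S17H_dot, S17H_hat, S17H_wedge, Finset.sum_mul, Fintype.sum_prod_type]
  have h1 : ∑ j, ∑ i, (T (i, j) - T (j, i)) * x i * y j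
      = ∑ j, ∑ i, T (i, j) * (x i * y j) - ∑ j, ∑ i, T (j, i) * (x i * y j) := by
    rw [← Finset.sum_sub_distrib]
    refine Finset.sum_congr rfl fun j _ => ?_
    rw [← Finset.sum_sub_distrib]
    exact Finset.sum_congr rfl fun i _ => by ring
  have h2 : ∑ i, ∑ j, T (i, j) * (x i * y j - x j * y i)
      = ∑ i, ∑ j, T (i, j) * (x i * y j) - ∑ i, ∑ j, T (i, j) * (x j * y i) := by
    rw [← Finset.sum_sub_distrib]
    refine Finset.sum_congr rfl fun i _ => ?_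
    rw [← Finset.sum_sub_distrib]
    exact Finset.sum_congr rfl fun j _ => by ring
  rw [h1, h2, Finset.sum_comm]

theorem S17H_eval_skew [Fintype ι] (T : ι × ι → Ω) (x y : ι → Ω) :
    eval T (S17H_skew x y) = S17H_dot (S17H_hat T x) y := by
  rw [S17H_dot_hat, S17H_skew, map_sum]
  exact Finset.sum_congr rfl fun p _ => by simp [mul_comm]

section height

variable [CharZero Ω]

/-- `w(x,y) = h (x ∧ y)`. -/
noncomputable def S17H_w (x y : ι → Ω) : ℝ := S17AH_h (S17H_wedge x y)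

/-- the chordal height `λ(x,y) = h x + h y − h (x ∧ y)`. -/
noncomputable def S17H_lam (x y : ι → Ω) : ℝ := S17AH_h x + S17AH_h y - S17H_w x y

theorem S17H_w_comm [Algebra.IsAlgebraic ℚ Ω] [Finite ι] (x y : ι → Ω) :
    S17H_w x y = S17H_w y x := by
  unfold S17H_w
  rw [S17H_wedge_swap x y]
  have h := S17AH_h_smul (S17H_wedge x y) (c := (-1 : Ω)) (by norm_num)
  rw [← h]
  congr 1
  funext p
  simp

theorem S17H_lam_comm [Algebra.IsAlgebraic ℚ Ω] [Finite ι] (x y : ι → Ω) :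
    S17H_lam x y = S17H_lam y x := by
  unfold S17H_lam
  rw [S17H_w_comm x y]
  ring

end height

/-! ## The abstract curve data and the exact statements of the abstract height packages

`I`     homogeneous ideal of the curve `e(C) ⊂ ℙ^r`, `V(I) = {ev P} ∪ {ev O}` (cone, with `0`);
`chow`  the Chow form `𝒞(c, X)`, bihomogeneous of bidegree `(k, k)`;
`psi γ` the `T`-coefficients of `Ψ̃(c, x, T)`, bihomogeneous of bidegree `(k-1, k-1)` in `(c, x)`,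
        attached to the `T`-monomials `mon γ` (pairwise distinct, degree `k`).
-/

/-- the zero set of `I` in `Ω^ι` (the affine cone over the curve). -/
def S17H_V (I : Ideal (MvPolynomial ι Ω)) : Set (ι → Ω) := {x | ∀ f ∈ I, eval x f = 0}

/-- `v` is a zero cycle of `c`:  `𝒞(c, X) = κ · ∏ i, ⟨X, v i⟩` with `κ ≠ 0`. -/
def S17H_Fact [Fintype ι] {k : ℕ} (chow : MvPolynomial (ι ⊕ ι) Ω) (c : ι → Ω)
    (v : Fin k → ι → Ω) : Prop :=
  ∃ κ : Ω, κ ≠ 0 ∧ ∀ X : ι → Ω, eval (Sum.elim c X) chow = κ * ∏ i, S17H_dot X (v i)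

/-- `Ψ(c, x, ·)` as a polynomial in the variables `T`. -/
noncomputable def S17H_psiT [Fintype ι] {Γ : Type} [Fintype Γ]
    (psi : Γ → MvPolynomial (ι ⊕ ι) Ω) (mon : Γ → (ι × ι →₀ ℕ)) (c x : ι → Ω) :
    MvPolynomial (ι × ι) Ω :=
  ∑ γ, C (eval (Sum.elim c x) (psi γ)) * monomial (mon γ) 1

/-- **(H1)** `⟨c, x⟩ = 0`, `⟨X, x⟩ = 0`, `x ≠ 0` on the curve ⇒ `𝒞(c, X) = 0`. -/
def S17H_H1 [Fintype ι] (I : Ideal (MvPolynomial ι Ω)) (chow : MvPolynomial (ι ⊕ ι) Ω) : Prop :=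
  ∀ c x X : ι → Ω, x ∈ S17H_V I → x ≠ 0 → S17H_dot c x = 0 → S17H_dot X x = 0 →
    eval (Sum.elim c X) chow = 0

/-- **(H2)** `𝒞(c, T̂ x) = ⟨c, x⟩ · Ψ̃(c, x, T)` for `x` on the curve. -/
def S17H_H2 [Fintype ι] {Γ : Type} [Fintype Γ] (I : Ideal (MvPolynomial ι Ω))
    (chow : MvPolynomial (ι ⊕ ι) Ω) (psi : Γ → MvPolynomial (ι ⊕ ι) Ω)
    (mon : Γ → (ι × ι →₀ ℕ)) : Prop :=
  ∀ (c x : ι → Ω) (T : ι × ι → Ω), x ∈ S17H_V I →
    eval (Sum.elim c (S17H_hat T x)) chow = S17H_dot c x * eval T (S17H_psiT psi mon c x)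

/-- **(NCZ)** no common zero of the `psi γ` on `(Ω^ι ∖ 0) × (V(I) ∖ 0)`. -/
def S17H_NCZ [Fintype ι] {Γ : Type} (I : Ideal (MvPolynomial ι Ω))
    (psi : Γ → MvPolynomial (ι ⊕ ι) Ω) : Prop :=
  ∀ c x : ι → Ω, c ≠ 0 → x ≠ 0 → x ∈ S17H_V I → ∃ γ, eval (Sum.elim c x) (psi γ) ≠ 0

/-- the dual-number point `x + ε x'`. -/
def S17H_dual (x x' : ι → Ω) : ι → DualNumber Ω :=
  fun j => TrivSqZeroExt.inl (x j) + TrivSqZeroExt.inr (x' j)

/-- `x'` is a tangent vector of `V(I)` at `x`: the dual-number point `x + ε x'` lies on `V(I)`. -/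
def S17H_Tan (I : Ideal (MvPolynomial ι Ω)) (x x' : ι → Ω) : Prop :=
  ∀ f ∈ I, aeval (S17H_dual x x') f = 0

/-- the abstract curve data used by all abstract height packages. -/
structure S17H_Curve (Ω : Type) [Field Ω] (ι : Type) [Fintype ι] (k : ℕ) where
  /-- the homogeneous ideal of the curve -/
  I : Ideal (MvPolynomial ι Ω)
  I_hom : ∀ f ∈ I, ∀ d, homogeneousComponent d f ∈ I
  I_rad : I.IsRadical
  /-- the Chow form -/
  chow : MvPolynomial (ι ⊕ ι) Ω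
  chow_bihom : S17C_IsBihom chow k k
  chow_ne : ∀ c : ι → Ω, c ≠ 0 → ∃ X : ι → Ω, eval (Sum.elim c X) chow ≠ 0
  h1 : S17H_H1 I chow
  /-- index set of the `T`-coefficients of `Ψ̃` -/
  Γ : Type
  instΓ : Fintype Γ
  /-- the `T`-coefficients of `Ψ̃` -/
  psi : Γ → MvPolynomial (ι ⊕ ι) Ω
  /-- the `T`-monomials -/
  mon : Γ → (ι × ι →₀ ℕ)
  mon_inj : Function.Injective mon
  psi_bihom : ∀ γ, S17C_IsBihom (psi γ) (k - 1) (k - 1)
  h2 : letI := instΓ; S17H_H2 I chow psi mon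
  ncz : S17H_NCZ I psi

section statements

variable [CharZero Ω] [Fintype ι] {k : ℕ}

/-- **(A)**  `|Σ_i h(v_i) − k·h(c)| ≤ C` for every zero cycle `v` of `c ≠ 0`. -/
def S17H_StmtA (X : S17H_Curve Ω ι k) : Prop :=
  ∃ C : ℝ, ∀ (c : ι → Ω) (v : Fin k → ι → Ω), c ≠ 0 → (∀ i, v i ≠ 0) → S17H_Fact X.chow c v →
    |∑ i, S17AH_h (v i) - k * S17AH_h c| ≤ C

/-- **(DEC)**  `|Σ_i h(x ∧ v_i) − (k−1)(h(c) + h(x))| ≤ C` for `x` on the curve, `⟨c,x⟩ ≠ 0`. -/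
def S17H_StmtDEC (X : S17H_Curve Ω ι k) : Prop :=
  ∃ C : ℝ, ∀ (c x : ι → Ω) (v : Fin k → ι → Ω), x ∈ S17H_V X.I → S17H_dot c x ≠ 0 →
    S17H_Fact X.chow c v →
    |∑ i, S17H_w x (v i) - ((k : ℝ) - 1) * (S17AH_h c + S17AH_h x)| ≤ C

/-- **(DEC), λ-form**  `|Σ_i λ(x, v_i) − (h(c) + h(x))| ≤ C`. -/
def S17H_StmtDEClam (X : S17H_Curve Ω ι k) : Prop :=
  ∃ C : ℝ, ∀ (c x : ι → Ω) (v : Fin k → ι → Ω), x ∈ S17H_V X.I → S17H_dot c x ≠ 0 →
    (∀ i, v i ≠ 0) → S17H_Fact X.chow c v →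
    |∑ i, S17H_lam x (v i) - (S17AH_h c + S17AH_h x)| ≤ C

/-- **(UABS)** the abstract (U-step), for `d` points `x i`, a further point `y` and a finite
family `M J` (`J : ν`) of vectors orthogonal to all `x i`:
`h(⟨M_J, y⟩_J) + (d−1)·h(y) + Σ_i h(x_i) ≤ h(M) + Σ_i h(x_i ∧ y) + C`. -/
def S17H_StmtU (X : S17H_Curve Ω ι k) (d : ℕ) (ν : Type) [Fintype ν] : Prop :=
  ∃ C : ℝ, ∀ (x : Fin d → ι → Ω) (y : ι → Ω) (M : ν → ι → Ω),
    (∀ i, x i ∈ S17H_V X.I) → y ∈ S17H_V X.I →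
    (∀ i j, i ≠ j → S17H_wedge (x i) (x j) ≠ 0) → (∀ i, S17H_wedge (x i) y ≠ 0) →
    (∀ J i, S17H_dot (M J) (x i) = 0) → (∃ J, S17H_dot (M J) y ≠ 0) →
    S17AH_h (fun J => S17H_dot (M J) y) + ((d : ℝ) - 1) * S17AH_h y + ∑ i, S17AH_h (x i)
      ≤ S17AH_h (fun a : ν × ι => M a.1 a.2) + ∑ i, S17H_w (x i) y + C

/-- **(U)** the wedge bound:  `Σ_{i<j} λ(x_i, x_j) ≤ Σ_i h(x_i) − h(W(x)) + C` for `d` points of
the curve in general position (`W(x) ≠ 0`). -/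
def S17H_StmtUU (X : S17H_Curve Ω ι k) (d : ℕ) : Prop :=
  ∃ C : ℝ, ∀ (x : Fin d → ι → Ω), (∀ i, x i ∈ S17H_V X.I) → S17H_W x ≠ 0 →
    ∑ i, ∑ j, (if i < j then S17H_lam (x i) (x j) else 0)
      ≤ ∑ i, S17AH_h (x i) - S17AH_h (S17H_W x) + C

/-- **(DEC′)** at a simple point `v i₀` of the zero cycle, with tangent vector `x'`:
`Σ_{j ≠ i₀} h(v i₀ ∧ v j) + h(v i₀ ∧ x') ≤ (k−1)(h(c) + h(v i₀)) + C`.
[`⟨c,x'⟩ · Ψ̃(c, x, T) = κ · ⟨T̂ x', x⟩ · ∏_{j ≠ i₀} ⟨T̂ x, v j⟩` for `x = v i₀`: (H2) holds modulo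
`I` (Nullstellensatz, `I` radical), evaluate at the dual-number point `x + ε x'`; then GM and the
trivial bound `h(Ψ̃(c,x,·)) ≤ (k−1)(h c + h x) + C`.] -/
def S17H_StmtDEC' (X : S17H_Curve Ω ι k) : Prop :=
  ∃ C : ℝ, ∀ (c : ι → Ω) (v : Fin k → ι → Ω) (i₀ : Fin k) (x' : ι → Ω),
    S17H_Fact X.chow c v → S17H_Tan X.I (v i₀) x' → S17H_wedge (v i₀) x' ≠ 0 →
    (∀ j, j ≠ i₀ → S17H_wedge (v i₀) (v j) ≠ 0) →
    ∑ j ∈ Finset.univ.erase i₀, S17H_w (v i₀) (v j) + S17H_w (v i₀) x'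
      ≤ ((k : ℝ) - 1) * (S17AH_h c + S17AH_h (v i₀)) + C

/-- **(TAN)** `(2k + 2g − 2)·h(c) ≤ Σ_i h(v i ∧ v' i) + C` for a reduced zero cycle `v` of `c`
with the tangent vectors `v' i` singled out by the relation `TanC`
(concretely: `TanC x x' ↔ ∃ Q ∉ B, ∃ a ≠ 0, x = a • ev Q ∧ x' = a • D_t (ev) Q`). -/
def S17H_StmtTAN (X : S17H_Curve Ω ι k) (g : ℕ) (TanC : (ι → Ω) → (ι → Ω) → Prop) : Prop :=
  ∃ C : ℝ, ∀ (c : ι → Ω) (v v' : Fin k → ι → Ω), S17H_Fact X.chow c v →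
    (∀ i, TanC (v i) (v' i)) → (∀ i j, i ≠ j → S17H_wedge (v i) (v j) ≠ 0) →
    (2 * (k : ℝ) + 2 * g - 2) * S17AH_h c ≤ ∑ i, S17H_w (v i) (v' i) + C

/-- **(DISC)** `(k + g − 1)·h(c) ≤ Σ_{i<j} λ(v i, v j) + C` for a reduced zero cycle `v` of `c`
all of whose points carry a `TanC`-tangent vector. -/
def S17H_StmtDISC (X : S17H_Curve Ω ι k) (g : ℕ) (TanC : (ι → Ω) → (ι → Ω) → Prop) : Prop :=
  ∃ C : ℝ, ∀ (c : ι → Ω) (v v' : Fin k → ι → Ω), S17H_Fact X.chow c v →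
    (∀ i, TanC (v i) (v' i)) → (∀ i j, i ≠ j → S17H_wedge (v i) (v j) ≠ 0) →
    ((k : ℝ) + g - 1) * S17AH_h c
      ≤ ∑ i, ∑ j, (if i < j then S17H_lam (v i) (v j) else 0) + C

/-- the compatibility required of `TanC`: its vectors are tangent vectors, not proportional to
the point. -/
def S17H_TanOK (X : S17H_Curve Ω ι k) (TanC : (ι → Ω) → (ι → Ω) → Prop) : Prop :=
  ∀ x x', TanC x x' → S17H_Tan X.I x x' ∧ S17H_wedge x x' ≠ 0

end statements

end Fermat.Agent.S17
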