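import Mathlib
import Fermat.Agent.S17.HtDefs

/-!
# TRACK 8 (S17), heights, package DECC-curve (helper19): generic algebra

Variables `c j = X (inl j)` (`j : ι`) and `T p = X (inr p)` (`p : ι × ι`).  For a commutative
`Ω`-algebra `B` and `ε : ι → B`:

* `S17DC_TX B ε j`  : `(T̂ ε) j = ∑ i, (T (i,j) - T (j,i)) * ε i`;
* `S17DC_G chow B ε` : `G(c, ε, T) = 𝒞(c, T̂ ε)`;
* `S17DC_ell B ε`    : `⟨c, ε⟩ = ∑ j, ε j * c j`;
* naturality in `B`, evaluation over `Ω`, the substitution `c j₀ ↦ c j₀ - ℓ` and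
  `ℓ ∣ G - G[c j₀ ↦ c j₀ - ℓ]`.
-/

set_option autoImplicit false

namespace Fermat.Agent.S17

open MvPolynomial

/-! ### Pure algebra -/

/-- two evaluations of a polynomial differ by an element of the ideal spanned by the
differences of the arguments. -/
theorem S17DC_aeval_sub_mem {A B σ : Type*} [CommRing A] [CommRing B] [Algebra A B]
    (x y : σ → B) (p : MvPolynomial σ A) :
    aeval x p - aeval y p ∈ Ideal.span (Set.range fun i => x i - y i) := by
  set J : Ideal B := Ideal.span (Set.range fun i => x i - y i) with hJ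
  rw [← Ideal.Quotient.eq, ← Ideal.Quotient.algebraMap_eq]
  have h : ((IsScalarTower.toAlgHom A B (B ⧸ J)).comp (aeval x) : MvPolynomial σ A →ₐ[A] B ⧸ J) =
      (IsScalarTower.toAlgHom A B (B ⧸ J)).comp (aeval y) := by
    apply MvPolynomial.algHom_ext
    intro i
    simp only [AlgHom.comp_apply, aeval_X, IsScalarTower.coe_toAlgHom',
      Ideal.Quotient.algebraMap_eq]
    rw [Ideal.Quotient.eq]
    exact Ideal.subset_span ⟨i, rfl⟩
  exact congrArg (fun f => f p) h

/-- the substitution `X i₀ ↦ X i₀ - ℓ`. -/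
noncomputable def S17DC_subst {A σ : Type*} [CommRing A] [DecidableEq σ] (i₀ : σ)
    (ℓ : MvPolynomial σ A) : MvPolynomial σ A →ₐ[A] MvPolynomial σ A :=
  bind₁ fun i => if i = i₀ then X i₀ - ℓ else X i

/-- `ℓ ∣ G - G[X i₀ ↦ X i₀ - ℓ]`. -/
theorem S17DC_dvd_sub_subst {A σ : Type*} [CommRing A] [DecidableEq σ] (i₀ : σ)
    (ℓ G : MvPolynomial σ A) : ℓ ∣ G - S17DC_subst i₀ ℓ G := by
  have h := S17DC_aeval_sub_mem (A := A) (B := MvPolynomial σ A) (fun i => X i)
    (fun i => if i = i₀ then X i₀ - ℓ else X i) G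
  have hG : aeval (fun i => (X i : MvPolynomial σ A)) G = G := by
    simp
  rw [hG] at h
  have hle : Ideal.span (Set.range fun i : σ =>
      (X i : MvPolynomial σ A) - (if i = i₀ then X i₀ - ℓ else X i)) ≤ Ideal.span {ℓ} := by
    rw [Ideal.span_le]
    rintro _ ⟨i, rfl⟩
    by_cases hi : i = i₀
    · subst hi
      simp only [if_true, sub_sub_cancel]
      exact Ideal.subset_span rfl
    · simp only [if_neg hi, sub_self]
      exact Ideal.zero_mem _
  exact Ideal.mem_span_singleton.1 (hle h)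

theorem S17DC_map_subst {A A' σ : Type*} [CommRing A] [CommRing A'] [DecidableEq σ]
    (φ : A →+* A') (i₀ : σ) (ℓ G : MvPolynomial σ A) :
    map φ (S17DC_subst i₀ ℓ G) = S17DC_subst i₀ (map φ ℓ) (map φ G) := by
  rw [S17DC_subst, S17DC_subst, map_bind₁]
  congr 2
  funext i
  by_cases hi : i = i₀
  · simp [hi]
  · simp [hi]

theorem S17DC_eval_subst {A σ : Type*} [CommRing A] [DecidableEq σ]
    (i₀ : σ) (ℓ G : MvPolynomial σ A) (x : σ → A) :
    eval x (S17DC_subst i₀ ℓ G) = eval (Function.update x i₀ (x i₀ - eval x ℓ)) G := by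
  rw [S17DC_subst, ← aeval_eq_eval, ← aeval_eq_eval, aeval_bind₁]
  congr 2
  funext i
  by_cases hi : i = i₀
  · subst hi
    simp [aeval_eq_eval]
  · simp [hi, aeval_eq_eval]

/-- weighted scaling: if every monomial of `p` has `w`-weight `n`, then
`p (b ^ w s * y s) = b ^ n * p (y)`. -/
theorem S17DC_aeval_scale {R A σ : Type*} [CommSemiring R] [CommSemiring A] [Algebra R A]
    [Fintype σ] (p : MvPolynomial σ R) (w : σ → ℕ) (n : ℕ)
    (hp : ∀ d, coeff d p ≠ 0 → ∑ s, w s * d s = n) (y : σ → A) (b : A) :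
    aeval (fun s => b ^ w s * y s) p = b ^ n * aeval y p := by
  classical
  conv_lhs => rw [p.as_sum]
  conv_rhs => rw [p.as_sum]
  rw [map_sum, map_sum, Finset.mul_sum]
  refine Finset.sum_congr rfl fun d hd => ?_
  have hd' : coeff d p ≠ 0 := by simpa using hd
  rw [aeval_monomial, aeval_monomial, Finsupp.prod_fintype _ _ (fun _ => pow_zero _),
    Finsupp.prod_fintype _ _ (fun _ => pow_zero _)]
  have : ∏ s, (b ^ w s * y s) ^ d s = b ^ n * ∏ s, y s ^ d s := by
    simp_rw [mul_pow, ← pow_mul]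
    rw [Finset.prod_mul_distrib, Finset.prod_pow_eq_pow_sum, hp d hd']
  rw [this]
  ring

/-- scaling of a homogeneous polynomial. -/
theorem S17DC_aeval_hom_scale {R A σ : Type*} [CommSemiring R] [CommSemiring A] [Algebra R A]
    [Fintype σ] (p : MvPolynomial σ R) (n : ℕ) (hp : p.IsHomogeneous n) (y : σ → A) (b : A) :
    aeval (fun s => b * y s) p = b ^ n * aeval y p := by
  have h := S17DC_aeval_scale p (fun _ => 1) n (fun d hd => by
    have := hp hd
    rw [← this]
    simp [Finsupp.weight_apply, Finsupp.sum_fintype]) y b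
  simpa using h

/-- scaling of a bihomogeneous polynomial in the right block of variables. -/
theorem S17DC_aeval_bihom_scale {R A ι₁ ι₂ : Type*} [CommSemiring R] [CommSemiring A]
    [Algebra R A] [Fintype ι₁] [Fintype ι₂] (p : MvPolynomial (ι₁ ⊕ ι₂) R) (N₁ N₂ : ℕ)
    (hp : S17C_IsBihom p N₁ N₂) (g : ι₁ → A) (f : ι₂ → A) (b : A) :
    aeval (Sum.elim g fun i => b * f i) p = b ^ N₂ * aeval (Sum.elim g f) p := by
  have h := S17DC_aeval_scale p (Sum.elim (fun _ => 0) (fun _ => 1)) N₂ (fun d hd => by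
    rw [Fintype.sum_sum_type]
    simpa using (hp d hd).2) (Sum.elim g f) b
  rw [← h]
  congr 2
  funext s
  cases s <;> simp

/-- scaling of a bihomogeneous polynomial in the left block of variables. -/
theorem S17DC_aeval_bihom_scale_left {R A ι₁ ι₂ : Type*} [CommSemiring R] [CommSemiring A]
    [Algebra R A] [Fintype ι₁] [Fintype ι₂] (p : MvPolynomial (ι₁ ⊕ ι₂) R) (N₁ N₂ : ℕ)
    (hp : S17C_IsBihom p N₁ N₂) (g : ι₁ → A) (f : ι₂ → A) (b : A) :
    aeval (Sum.elim (fun i => b * g i) f) p = b ^ N₁ * aeval (Sum.elim g f) p := by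
  have h := S17DC_aeval_scale p (Sum.elim (fun _ => 1) (fun _ => 0)) N₁ (fun d hd => by
    rw [Fintype.sum_sum_type]
    simpa using (hp d hd).1) (Sum.elim g f) b
  rw [← h]
  congr 2
  funext s
  cases s <;> simp

/-! ### The generic polynomials -/

section Gen

variable {Ω : Type} [Field Ω] {ι : Type} [Fintype ι]
variable (chow : MvPolynomial (ι ⊕ ι) Ω)
variable (B : Type*) [CommRing B] [Algebra Ω B]

/-- `(T̂ ε) j = ∑ i, (T (i,j) - T (j,i)) * ε i` as a polynomial in `(c, T)` over `B`. -/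
noncomputable def S17DC_TX (ε : ι → B) (j : ι) : MvPolynomial (ι ⊕ ι × ι) B :=
  ∑ i, (X (Sum.inr (i, j)) - X (Sum.inr (j, i))) * C (ε i)

/-- `G(c, ε, T) = 𝒞(c, T̂ ε)` as a polynomial in `(c, T)` over `B`. -/
noncomputable def S17DC_G (ε : ι → B) : MvPolynomial (ι ⊕ ι × ι) B :=
  aeval (Sum.elim (fun j => X (Sum.inl j)) (S17DC_TX B ε)) chow

/-- the linear form `⟨c, ε⟩ = ∑ ε_j c_j`. -/
noncomputable def S17DC_ell (ε : ι → B) : MvPolynomial (ι ⊕ ι × ι) B :=
  ∑ j, C (ε j) * X (Sum.inl j)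

variable {B} {B' : Type*} [CommRing B'] [Algebra Ω B']

theorem S17DC_map_TX (φ : B →ₐ[Ω] B') (ε : ι → B) (j : ι) :
    map (φ : B →+* B') (S17DC_TX B ε j) = S17DC_TX B' (fun j => φ (ε j)) j := by
  simp only [S17DC_TX, map_sum, map_mul, map_sub, map_X, map_C]
  rfl

theorem S17DC_map_G (φ : B →ₐ[Ω] B') (ε : ι → B) :
    map (φ : B →+* B') (S17DC_G chow B ε) = S17DC_G chow B' (fun j => φ (ε j)) := by
  have h : ((mapAlgHom φ : MvPolynomial (ι ⊕ ι × ι) B →ₐ[Ω] MvPolynomial (ι ⊕ ι × ι) B').comp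
      (aeval (Sum.elim (fun j => X (Sum.inl j)) (S17DC_TX B ε)))) =
      aeval (Sum.elim (fun j => X (Sum.inl j)) (S17DC_TX B' (fun j => φ (ε j)))) := by
    apply MvPolynomial.algHom_ext
    rintro (j | i)
    · simp
    · simp only [AlgHom.comp_apply, aeval_X, Sum.elim_inr]
      exact S17DC_map_TX φ ε i
  exact congrArg (fun f => f chow) h

theorem S17DC_map_ell (φ : B →ₐ[Ω] B') (ε : ι → B) :
    map (φ : B →+* B') (S17DC_ell B ε) = S17DC_ell B' (fun j => φ (ε j)) := by
  simp only [S17DC_ell, map_sum, map_mul, map_X, map_C]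
  rfl

/-- numerical evaluation of `T̂ x`. -/
theorem S17DC_eval_TX (x c : ι → Ω) (T : ι × ι → Ω) (j : ι) :
    eval (Sum.elim c T) (S17DC_TX Ω x j) = S17H_hat T x j := by
  simp [S17DC_TX, S17H_hat]

/-- numerical evaluation of `G` over `Ω`. -/
theorem S17DC_eval_G (x c : ι → Ω) (T : ι × ι → Ω) :
    eval (Sum.elim c T) (S17DC_G chow Ω x) = eval (Sum.elim c (S17H_hat T x)) chow := by
  have h : ((aeval (Sum.elim c T) : MvPolynomial (ι ⊕ ι × ι) Ω →ₐ[Ω] Ω).comp
      (aeval (Sum.elim (fun j => X (Sum.inl j)) (S17DC_TX Ω x)))) =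
      aeval (Sum.elim c (S17H_hat T x)) := by
    apply MvPolynomial.algHom_ext
    rintro (j | i)
    · simp
    · simp only [AlgHom.comp_apply, aeval_X, Sum.elim_inr, aeval_eq_eval]
      exact S17DC_eval_TX x c T i
  have := congrArg (fun f => f chow) h
  simp only [AlgHom.comp_apply, aeval_eq_eval] at this
  exact this

theorem S17DC_eval_ell (x c : ι → Ω) (T : ι × ι → Ω) :
    eval (Sum.elim c T) (S17DC_ell (ι := ι) Ω x) = S17H_dot c x := by
  simp [S17DC_ell, S17H_dot, mul_comm]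

theorem S17DC_TX_scale (ε : ι → B) (b : B) (j : ι) :
    S17DC_TX B (fun i => b * ε i) j = C b * S17DC_TX B ε j := by
  simp only [S17DC_TX, Finset.mul_sum, map_mul]
  exact Finset.sum_congr rfl fun i _ => by ring

/-- `G(c, b ε, T) = b ^ k · G(c, ε, T)`. -/
theorem S17DC_G_scale {k : ℕ} (hchow : S17C_IsBihom chow k k) (ε : ι → B) (b : B) :
    S17DC_G chow B (fun i => b * ε i) = C (b ^ k) * S17DC_G chow B ε := by
  have h := S17DC_aeval_bihom_scale (A := MvPolynomial (ι ⊕ ι × ι) B) chow k k hchow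
    (fun j => X (Sum.inl j)) (S17DC_TX B ε) (C b)
  rw [S17DC_G, S17DC_G, map_pow, ← h]
  congr 2
  funext s
  cases s with
  | inl j => rfl
  | inr j => exact S17DC_TX_scale ε b j

theorem S17DC_ell_scale (ε : ι → B) (b : B) :
    S17DC_ell (ι := ι) B (fun i => b * ε i) = C b * S17DC_ell B ε := by
  simp only [S17DC_ell, Finset.mul_sum, map_mul]
  exact Finset.sum_congr rfl fun i _ => by ring

/-- the substitution `c j ↦ c j - b ℓ` kills `ℓ` if `ε j * b = 1`. -/
theorem S17DC_subst_ell [DecidableEq ι] (ε : ι → B) (b : B) (j : ι) (hb : ε j * b = 1) :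
    S17DC_subst (Sum.inl j) (C b * S17DC_ell B ε) (S17DC_ell (ι := ι) B ε) = 0 := by
  have h1 : ∀ i : ι, S17DC_subst (Sum.inl j) (C b * S17DC_ell B ε)
      (C (ε i) * X (Sum.inl i) : MvPolynomial (ι ⊕ ι × ι) B) =
      C (ε i) * X (Sum.inl i) - if i = j then C (ε i) * (C b * S17DC_ell B ε) else 0 := by
    intro i
    rw [S17DC_subst, map_mul, bind₁_C_right, bind₁_X_right]
    by_cases hi : i = j
    · subst hi
      rw [if_pos rfl, if_pos rfl]
      ring
    · have : (Sum.inl i : ι ⊕ ι × ι) ≠ Sum.inl j := fun h => hi (Sum.inl_injective h)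
      rw [if_neg this, if_neg hi, sub_zero]
  have h2 : S17DC_subst (Sum.inl j) (C b * S17DC_ell B ε) (S17DC_ell (ι := ι) B ε) =
      ∑ i, (C (ε i) * X (Sum.inl i) -
        if i = j then C (ε i) * (C b * S17DC_ell (ι := ι) B ε) else 0) := by
    conv_lhs => rw [S17DC_ell, map_sum]
    exact Finset.sum_congr rfl fun i _ => h1 i
  rw [h2, Finset.sum_sub_distrib, Finset.sum_ite_eq' Finset.univ j, if_pos (Finset.mem_univ j),
    ← mul_assoc, ← map_mul, hb, map_one, one_mul]
  exact sub_self _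

/-- `⟨T̂ x, x⟩ = 0`. -/
theorem S17DC_dot_hat_self (T : ι × ι → Ω) (x : ι → Ω) : S17H_dot (S17H_hat T x) x = 0 := by
  rw [S17H_dot_hat, S17H_wedge_self]
  simp

end Gen

end Fermat.Agent.S17
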