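import Mathlib
import Fermat.Agent.Lib.RiemannThm
import Fermat.Agent.Lib.RiemannNonspecial
import Fermat.Agent.S17.RRSharp

/-!
# TRACK 8 (S17), heights package NG, parts (a) + (b) (helper5), prefix `S17NG_`

`F / K` a function field all of whose places have degree one, `O` a place, `g` a number (the genus),
`k ≥ 4 g + 2`, `e : ι → F` a family spanning `L(k O)`.

* `S17NG_Exact O m u` : `u` has a pole of exact order `m` at `O` and no other pole;
* `S17NG_M K e n` : the span of the monomials of degree `n` in the `e j` (image of the homogeneous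
  polynomials of degree `n` under `aeval e`);
* `S17NG_ach` : every `m ∈ [2 g + 1, n k]` is the pole order of an element of `S17NG_M K e n`;
* `S17NG_le_M` : `L(m O) ≤ S17NG_M K e n` for `m ≤ n k`;
* `S17NG_span` : **(b) normal generation**: every `f ∈ L(n k O)`, `n ≥ 1`, is `aeval e p` with `p`
  homogeneous of degree `n`.

* `S17NG_exists_exact` : **(a)** under `RR_Hyp K F`, every `m ≥ 2 g + 1` (`g = RR_genus K F`) is
  the exact pole order at `O` of a function without other poles (sharp Riemann, helper6);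
* `S17NG_main` : **(b)** under `RR_Hyp K F`, `k ≥ 4 g + 2`, `L(k O) ≤ span (range e)`.
-/

set_option autoImplicit false

open AlgebraicCurve WithZero MvPolynomial

namespace Fermat.Agent.S17

open Fermat.Agent.Lib

variable {K F : Type*} [Field K] [Field F] [Algebra K F]

/-- `u` has a pole of exact order `m` at `O` and no other pole. -/
def S17NG_Exact (O : Place K F) (m : ℕ) (u : F) : Prop :=
  O.adicValuation u = exp (m : ℤ) ∧ ∀ v : Place K F, v ≠ O → v.adicValuation u ≤ 1

section Exact

variable {O : Place K F}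

theorem S17NG_exact_mem {m : ℕ} {u : F} (h : S17NG_Exact O m u) :
    u ∈ riemannRochSpace (Finsupp.single O (m : ℤ)) := by
  classical
  intro v
  by_cases hv : v = O
  · subst hv
    rw [Finsupp.single_eq_same, h.1]
  · rw [Finsupp.single_eq_of_ne hv, exp_zero]
    exact h.2 v hv

theorem S17NG_exact_mem_of_le {m m' : ℕ} {u : F} (h : S17NG_Exact O m u) (hm : m ≤ m') :
    u ∈ riemannRochSpace (Finsupp.single O (m' : ℤ)) := by
  refine RR_mono ?_ (S17NG_exact_mem h)
  rw [Finsupp.single_le_single]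
  exact_mod_cast hm

theorem S17NG_exact_not_mem {m : ℕ} {u : F} (h : S17NG_Exact O (m + 1) u) :
    u ∉ riemannRochSpace (Finsupp.single O (m : ℤ)) := by
  classical
  intro hu
  have h1 := hu O
  rw [Finsupp.single_eq_same, h.1, exp_le_exp] at h1
  push_cast at h1
  omega

theorem S17NG_exact_one : S17NG_Exact O 0 (1 : F) := by
  refine ⟨by simp, fun v _ => ?_⟩
  rw [map_one]

theorem S17NG_exact_mul {a b : ℕ} {u v : F} (hu : S17NG_Exact O a u) (hv : S17NG_Exact O b v) :
    S17NG_Exact O (a + b) (u * v) := by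
  refine ⟨?_, fun w hw => ?_⟩
  · rw [map_mul, hu.1, hv.1, ← exp_add]
    push_cast
    rfl
  · rw [map_mul]
    exact mul_le_one' (hu.2 w hw) (hv.2 w hw)

theorem S17NG_exact_ne_zero {m : ℕ} {u : F} (h : S17NG_Exact O m u) : u ≠ 0 := by
  rintro rfl
  have := h.1
  rw [map_zero] at this
  exact exp_ne_zero this.symm

/-- an element of `L(m O) ∖ L((m-1) O)` has exact pole order `m`. -/
theorem S17NG_exact_of_mem_of_not_mem {m : ℕ} {u : F}
    (hu : u ∈ riemannRochSpace (Finsupp.single O ((m + 1 : ℕ) : ℤ)))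
    (hu' : u ∉ riemannRochSpace (Finsupp.single O (m : ℤ))) : S17NG_Exact O (m + 1) u := by
  classical
  have hD : Finsupp.single O ((m + 1 : ℕ) : ℤ) =
      (Finsupp.single O (m : ℤ) + Finsupp.single O 1 : Divisor K F) := by
    rw [← Finsupp.single_add]
    push_cast
    rfl
  rw [hD] at hu
  have h1 := RR_val_eq_of_mem_of_not_mem O _ hu hu'
  rw [Finsupp.single_eq_same] at h1
  refine ⟨by rw [h1]; push_cast; rfl, fun v hv => ?_⟩
  have h2 := hu v
  rw [Finsupp.add_apply, Finsupp.single_eq_of_ne hv,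
    Finsupp.single_eq_of_ne hv, add_zero, exp_zero] at h2
  exact h2

end Exact

section Mono

variable (K) {ι : Type*} (e : ι → F)

/-- the span of the monomials of degree `n` in the `e j`. -/
noncomputable def S17NG_M (n : ℕ) : Submodule K F :=
  (homogeneousSubmodule ι K n).map (aeval e : MvPolynomial ι K →ₐ[K] F).toLinearMap

theorem S17NG_mem_M {n : ℕ} {f : F} :
    f ∈ S17NG_M K e n ↔ ∃ p : MvPolynomial ι K, p.IsHomogeneous n ∧ aeval e p = f := by
  rw [S17NG_M, Submodule.mem_map]
  constructor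
  · rintro ⟨p, hp, rfl⟩
    exact ⟨p, (mem_homogeneousSubmodule n p).1 hp, rfl⟩
  · rintro ⟨p, hp, rfl⟩
    exact ⟨p, (mem_homogeneousSubmodule n p).2 hp, rfl⟩

theorem S17NG_M_mul {a b : ℕ} {u v : F} (hu : u ∈ S17NG_M K e a) (hv : v ∈ S17NG_M K e b) :
    u * v ∈ S17NG_M K e (a + b) := by
  rw [S17NG_mem_M] at hu hv ⊢
  obtain ⟨p, hp, rfl⟩ := hu
  obtain ⟨q, hq, rfl⟩ := hv
  exact ⟨p * q, hp.mul hq, map_mul _ _ _⟩

theorem S17NG_e_mem_M (j : ι) : e j ∈ S17NG_M K e 1 := by
  rw [S17NG_mem_M]
  exact ⟨X j, isHomogeneous_X K j, aeval_X e j⟩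

theorem S17NG_span_le_M : Submodule.span K (Set.range e) ≤ S17NG_M K e 1 := by
  rw [Submodule.span_le]
  rintro _ ⟨j, rfl⟩
  exact S17NG_e_mem_M K e j

/-- if `1` is a linear combination of the `e j`, the spaces `M n` increase. -/
theorem S17NG_M_le_add (h1 : (1 : F) ∈ S17NG_M K e 1) (a : ℕ) : ∀ b : ℕ,
    S17NG_M K e a ≤ S17NG_M K e (a + b)
  | 0 => le_rfl
  | b + 1 => by
    intro u hu
    have h2 := S17NG_M_mul K e (S17NG_M_le_add h1 a b hu) h1
    rwa [mul_one, add_assoc] at h2

theorem S17NG_M_mono (h1 : (1 : F) ∈ S17NG_M K e 1) {a b : ℕ} (hab : a ≤ b) :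
    S17NG_M K e a ≤ S17NG_M K e b := by
  obtain ⟨c, rfl⟩ := Nat.exists_eq_add_of_le hab
  exact S17NG_M_le_add K e h1 a c

end Mono

section Main

variable {ι : Type*} (e : ι → F) (O : Place K F) (g k : ℕ)


/-- the constants lie in `L(k O)`. -/
theorem S17NG_one_mem (m : ℕ) : (1 : F) ∈ riemannRochSpace (Finsupp.single O (m : ℤ)) :=
  S17NG_exact_mem_of_le (S17NG_exact_one (O := O)) (Nat.zero_le m)

variable (hk : 4 * g + 2 ≤ k)
  (hpole : ∀ m : ℕ, 2 * g + 1 ≤ m → ∃ u : F, S17NG_Exact O m u)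
  (he : riemannRochSpace (Finsupp.single O (k : ℤ)) ≤ Submodule.span K (Set.range e))

include he in
theorem S17NG_Lk_le_M : riemannRochSpace (Finsupp.single O (k : ℤ)) ≤ S17NG_M K e 1 :=
  he.trans (S17NG_span_le_M K e)

include he in
theorem S17NG_one_mem_M : (1 : F) ∈ S17NG_M K e 1 :=
  S17NG_Lk_le_M e O k he (S17NG_one_mem O k)

include hk hpole he in
/-- every `m ∈ [2 g + 1, n k]` is the pole order of an element of `M n`. -/
theorem S17NG_ach : ∀ n : ℕ, 1 ≤ n → ∀ m : ℕ, 2 * g + 1 ≤ m → m ≤ n * k →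
    ∃ u ∈ S17NG_M K e n, S17NG_Exact O m u := by
  have h1 := S17NG_one_mem_M e O k he
  have hL := S17NG_Lk_le_M e O k he
  -- pole orders in `[2 g + 1, k]` are achieved in `M 1`
  have hbase : ∀ m : ℕ, 2 * g + 1 ≤ m → m ≤ k → ∃ u ∈ S17NG_M K e 1, S17NG_Exact O m u := by
    intro m hm hmk
    obtain ⟨u, hu⟩ := hpole m hm
    exact ⟨u, hL (S17NG_exact_mem_of_le hu hmk), hu⟩
  intro n hn
  induction n, hn using Nat.le_induction with
  | base =>
    intro m hm hmk
    rw [one_mul] at hmk
    exact hbase m hm hmk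
  | succ n hn ih =>
    intro m hm hmk
    by_cases h2 : m ≤ n * k
    · obtain ⟨u, hu, hex⟩ := ih m hm h2
      exact ⟨u, S17NG_M_mono K e h1 (Nat.le_succ n) hu, hex⟩
    · rw [not_le] at h2
      have hnk : k ≤ n * k := Nat.le_mul_of_pos_left k hn
      rw [Nat.succ_mul] at hmk
      by_cases h3 : 2 * g + 1 ≤ m - k
      · obtain ⟨u, hu, hex⟩ := ih (m - k) h3 (by omega)
        obtain ⟨v, hv, hex'⟩ := hbase k (by omega) le_rfl
        refine ⟨u * v, S17NG_M_mul K e hu hv, ?_⟩
        have := S17NG_exact_mul hex hex'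
        rwa [Nat.sub_add_cancel (by omega)] at this
      · rw [not_le] at h3
        obtain ⟨u, hu, hex⟩ := ih (2 * g + 1) le_rfl (by omega)
        obtain ⟨v, hv, hex'⟩ := hbase (m - (2 * g + 1)) (by omega) (by omega)
        refine ⟨u * v, S17NG_M_mul K e hu hv, ?_⟩
        have := S17NG_exact_mul hex hex'
        rwa [Nat.add_sub_cancel' (by omega)] at this

include hk hpole he in
/-- `L(m O) ≤ M n` for `m ≤ n k`. -/
theorem S17NG_le_M (hdeg : ∀ v : Place K F, v.deg = 1) (n : ℕ) (hn : 1 ≤ n) : ∀ m : ℕ, m ≤ n * k →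
    riemannRochSpace (Finsupp.single O (m : ℤ)) ≤ S17NG_M K e n := by
  classical
  have h1 := S17NG_one_mem_M e O k he
  have hL := S17NG_Lk_le_M e O k he
  have hsmall : ∀ m : ℕ, m ≤ k → riemannRochSpace (Finsupp.single O (m : ℤ)) ≤ S17NG_M K e n := by
    intro m hm
    refine le_trans (RR_mono ?_) (hL.trans (S17NG_M_mono K e h1 hn))
    rw [Finsupp.single_le_single]
    exact_mod_cast hm
  intro m
  induction m with
  | zero => intro _; exact hsmall 0 (Nat.zero_le k)
  | succ m ih =>
    intro hm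
    by_cases h2 : m + 1 ≤ k
    · exact hsmall (m + 1) h2
    · rw [not_le] at h2
      obtain ⟨u, hu, hex⟩ := S17NG_ach e O g k hk hpole he n hn (m + 1) (by omega) hm
      intro f hf
      have hD : Finsupp.single O ((m + 1 : ℕ) : ℤ) =
          (Finsupp.single O (m : ℤ) + Finsupp.single O 1 : Divisor K F) := by
        rw [← Finsupp.single_add]
        push_cast
        rfl
      have hu1 := S17NG_exact_mem hex
      rw [hD] at hf hu1
      obtain ⟨c, hc⟩ := RR_exists_sub_mem O (hdeg O) _ hu1 (S17NG_exact_not_mem hex) hf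
      have h3 := ih (by omega) hc
      have h4 : f = (f - c • u) + c • u := by abel
      rw [h4]
      exact Submodule.add_mem _ h3 (Submodule.smul_mem _ c hu)

include hk hpole he in
/-- **NG (b), normal generation**: for `n ≥ 1` every `f ∈ L(n k O)` is a homogeneous polynomial
of degree `n` in the `e j`. -/
theorem S17NG_span (hdeg : ∀ v : Place K F, v.deg = 1) (n : ℕ) (hn : 1 ≤ n) (f : F)
    (hf : f ∈ riemannRochSpace (Finsupp.single O ((n * k : ℕ) : ℤ))) :
    ∃ p : MvPolynomial ι K, p.IsHomogeneous n ∧ aeval e p = f :=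
  (S17NG_mem_M K e).1 (S17NG_le_M e O g k hk hpole he hdeg n hn (n * k) le_rfl hf)

end Main

section RR

variable [Infinite K] (h : RR_Hyp K F) (O : Place K F)

omit [Infinite K] in
include h in
/-- `deg (m O) = m`. -/
theorem S17NG_degree_single (m : ℕ) :
    Divisor.degree (Finsupp.single O (m : ℤ) : Divisor K F) = m := by
  rw [Divisor.degree_single, h.deg_one O, Nat.cast_one, mul_one]

include h in
/-- **NG (a)**: every `m ≥ 2 g + 1` is the exact pole order at `O` of a function with no other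
pole. -/
theorem S17NG_exists_exact (m : ℕ) (hm : 2 * RR_genus K F + 1 ≤ m) :
    ∃ u : F, S17NG_Exact O m u := by
  classical
  obtain ⟨m, rfl⟩ : ∃ m', m = m' + 1 := ⟨m - 1, by omega⟩
  have h1 := S17RS_riemann_eq h (Finsupp.single O ((m + 1 : ℕ) : ℤ))
    (by rw [S17NG_degree_single h O]; exact_mod_cast (by omega : 2 * RR_genus K F ≤ m + 1))
  have h2 := S17RS_riemann_eq h (Finsupp.single O (m : ℤ))
    (by rw [S17NG_degree_single h O]; exact_mod_cast (by omega : 2 * RR_genus K F ≤ m))
  rw [S17NG_degree_single h O] at h1 h2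
  have hlt : Module.finrank K (riemannRochSpace (Finsupp.single O (m : ℤ) : Divisor K F)) <
      Module.finrank K (riemannRochSpace (Finsupp.single O ((m + 1 : ℕ) : ℤ) : Divisor K F)) := by
    have : (Module.finrank K (riemannRochSpace (Finsupp.single O (m : ℤ) : Divisor K F)) : ℤ) <
        Module.finrank K
          (riemannRochSpace (Finsupp.single O ((m + 1 : ℕ) : ℤ) : Divisor K F)) := by
      rw [h1, h2]
      push_cast
      omega
    exact_mod_cast this
  have hne : ¬ riemannRochSpace (Finsupp.single O ((m + 1 : ℕ) : ℤ) : Divisor K F) ≤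
      riemannRochSpace (Finsupp.single O (m : ℤ)) := by
    intro hle
    have := RR_finite h (Finsupp.single O (m : ℤ) : Divisor K F)
    have := Submodule.finrank_mono hle
    omega
  obtain ⟨u, hu, hu'⟩ := SetLike.not_le_iff_exists.1 hne
  exact ⟨u, S17NG_exact_of_mem_of_not_mem hu hu'⟩

include h in
/-- **NG (b), normal generation** (final form): `k ≥ 4 g + 2`, `e` spans `L(k O)`; then for
`n ≥ 1` every `f ∈ L(n k O)` is a homogeneous polynomial of degree `n` in the `e j`. -/
theorem S17NG_main {ι : Type*} (e : ι → F) (k : ℕ) (hk : 4 * RR_genus K F + 2 ≤ k)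
    (he : riemannRochSpace (Finsupp.single O (k : ℤ)) ≤ Submodule.span K (Set.range e))
    (n : ℕ) (hn : 1 ≤ n) (f : F)
    (hf : f ∈ riemannRochSpace (Finsupp.single O ((n * k : ℕ) : ℤ))) :
    ∃ p : MvPolynomial ι K, p.IsHomogeneous n ∧ aeval e p = f :=
  S17NG_span e O (RR_genus K F) k hk (fun m hm => S17NG_exists_exact h O m hm) he h.deg_one n hn
    f hf

include h in
/-- the same with the divisor written `(n * k) • single O 1` (shape of the package note). -/
theorem S17NG_main' {ι : Type*} (e : ι → F) (k : ℕ) (hk : 4 * RR_genus K F + 2 ≤ k)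
    (he : riemannRochSpace (k • (Finsupp.single O (1 : ℤ) : Divisor K F)) ≤
      Submodule.span K (Set.range e))
    (n : ℕ) (hn : 1 ≤ n) (f : F)
    (hf : f ∈ riemannRochSpace ((n * k) • (Finsupp.single O (1 : ℤ) : Divisor K F))) :
    ∃ p : MvPolynomial ι K, p.IsHomogeneous n ∧ aeval e p = f := by
  have hs : ∀ m : ℕ, m • (Finsupp.single O (1 : ℤ) : Divisor K F) = Finsupp.single O (m : ℤ) := by
    intro m
    rw [Finsupp.smul_single, nsmul_eq_mul, mul_one]
  rw [hs] at he hf
  exact S17NG_main h O e k hk he n hn f hf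

end RR

end Fermat.Agent.S17
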