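import Mathlib
import Fermat.Agent.S17.DeccGen
import Fermat.Agent.S17.NormGen
import Fermat.Agent.Lib.DiffExpand

/-!
# TRACK 8 (S17), heights, package DECC-curve (helper19): division on the curve

`F / Ω` a function field with `RR_Hyp`, `O` a place, `e : ι → F` spanning `L(k O)`, `e j₀ = 1`.
`chow` vanishes at `(c, X)` whenever `c` and `X` are orthogonal to a point `ev P` (`P ≠ O`).

* `S17DC_evP`        : evaluation `O_P →ₐ[Ω] Ω` at a place of degree one;
* `S17DC_eq_zero_of_zeros` : a function vanishing at all places `≠ O` is zero;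
* `S17DC_subst_G_eq_zero`  : `G(c, e, T)[c j₀ ↦ c j₀ - ⟨c, e⟩] = 0` in `F[c, T]`;
* `S17DC_exists_q`   : `G(c, e, T) = ⟨c, e⟩ · q` in `F[c, T]`.
-/

set_option autoImplicit false
set_option linter.style.haveILetI false

open AlgebraicCurve WithZero MvPolynomial

namespace Fermat.Agent.S17

open Fermat.Agent.Lib Fermat.Agent.S24

variable {Ω : Type} [Field Ω] {F : Type*} [Field F] [Algebra Ω F]

/-! ### Evaluation at a place -/

/-- evaluation at a place of degree one, as an algebra homomorphism `O_P → Ω`. -/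
noncomputable def S17DC_evP (P : Place Ω F) (hdeg : P.deg = 1) : P.toValuationSubring →ₐ[Ω] Ω where
  toRingHom := (PowerSeries.constantCoeff (R := Ω)).comp (FD_expHom P hdeg).toRingHom
  commutes' c := by
    show PowerSeries.constantCoeff (FD_expHom P hdeg (algebraMap Ω P.toValuationSubring c)) = _
    rw [FD_expHom_apply, FD_constantCoeff]
    exact FD_c0_unique P (by simp)

theorem S17DC_evP_apply (P : Place Ω F) (hdeg : P.deg = 1) (a : P.toValuationSubring) :
    S17DC_evP P hdeg a = FD_c0 P (a : F) := by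
  show PowerSeries.constantCoeff (FD_expHom P hdeg a) = _
  rw [FD_expHom_apply, FD_constantCoeff]

theorem S17DC_evP_eq_zero_iff (P : Place Ω F) (hdeg : P.deg = 1) (a : P.toValuationSubring) :
    S17DC_evP P hdeg a = 0 ↔ P.adicValuation (a : F) < 1 := by
  rw [S17DC_evP_apply]
  exact FD_c0_eq_zero_iff P hdeg (P.adicValuation_le_one_of_mem a.2)

/-- the inclusion `O_P → F` as an algebra homomorphism. -/
noncomputable def S17DC_incl (P : Place Ω F) : P.toValuationSubring →ₐ[Ω] F :=
  IsScalarTower.toAlgHom Ω P.toValuationSubring F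

theorem S17DC_incl_apply (P : Place Ω F) (a : P.toValuationSubring) :
    S17DC_incl P a = (a : F) := rfl

theorem S17DC_incl_injective (P : Place Ω F) : Function.Injective (S17DC_incl P) :=
  fun _ _ h => Subtype.ext h

/-! ### A function with zeros at all places `≠ O` is zero -/

theorem S17DC_zeros_finite (hP : HasPrincipalDivisors Ω F) {f : F} (hf : f ≠ 0) :
    {P : Place Ω F | P.adicValuation f < 1}.Finite := by
  classical
  refine (RR_div hP f).support.finite_toSet.subset fun P hPf => ?_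
  rw [Finset.mem_coe, Finsupp.mem_support_iff, RR_div_apply]
  have h1 : P.adicValuation f < 1 := hPf
  rw [P.adicValuation_eq_exp_neg_ord hf, ← exp_zero, exp_lt_exp] at h1
  omega

theorem S17DC_eq_zero_of_zeros [Infinite Ω] (h : RR_Hyp Ω F) (O : Place Ω F) {f : F}
    (hf : ∀ P : Place Ω F, P ≠ O → P.adicValuation f < 1) : f = 0 := by
  classical
  by_contra hf0
  have hfin := S17DC_zeros_finite h.principal hf0
  have hinf := RR_infinite_places h
  have : (Set.univ : Set (Place Ω F)).Finite := by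
    refine (hfin.union (Set.finite_singleton O)).subset fun P _ => ?_
    by_cases hPO : P = O
    · exact Or.inr hPO
    · exact Or.inl (hf P hPO)
  exact Set.infinite_univ this

/-! ### The vanishing lemma -/

section Vanish

variable {ι : Type} [Fintype ι] [DecidableEq ι]

/-- over `Ω`: if `chow` vanishes at all `(c, X)` orthogonal to `x` and `x j₀ = 1`, then
`G(c, x, T)[c j₀ ↦ c j₀ - ⟨c, x⟩] = 0`. -/
theorem S17DC_subst_G_num [Infinite Ω] (chow : MvPolynomial (ι ⊕ ι) Ω) (x : ι → Ω) (j₀ : ι)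
    (hx0 : x j₀ = 1)
    (hx : ∀ c X : ι → Ω, S17H_dot c x = 0 → S17H_dot X x = 0 → eval (Sum.elim c X) chow = 0) :
    S17DC_subst (Sum.inl j₀) (S17DC_ell Ω x) (S17DC_G chow Ω x) = 0 := by
  apply MvPolynomial.funext
  intro y
  rw [S17DC_eval_subst, map_zero]
  have hy : y = Sum.elim (fun j => y (Sum.inl j)) (fun p => y (Sum.inr p)) := by
    funext s
    cases s <;> rfl
  set c : ι → Ω := fun j => y (Sum.inl j) with hc
  set T : ι × ι → Ω := fun p => y (Sum.inr p) with hT
  have hell : eval y (S17DC_ell Ω x) = S17H_dot c x := by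
    rw [hy]
    exact S17DC_eval_ell x c T
  have hupd : Function.update y (Sum.inl j₀) (y (Sum.inl j₀) - eval y (S17DC_ell Ω x)) =
      Sum.elim (Function.update c j₀ (c j₀ - S17H_dot c x)) T := by
    funext s
    rcases s with j | p
    · by_cases hj : j = j₀
      · subst hj
        simp [hell, hc]
      · have : (Sum.inl j : ι ⊕ ι × ι) ≠ Sum.inl j₀ := fun h => hj (Sum.inl_injective h)
        simp [Function.update_of_ne this, Function.update_of_ne hj, hc]
    · simp [hT]
  rw [hupd, S17DC_eval_G]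
  apply hx
  · -- `⟨c', x⟩ = 0`
    set a : Ω := S17H_dot c x with ha
    have h1 : S17H_dot (Function.update c j₀ (c j₀ - a)) x = a - a * x j₀ := by
      have e1 : S17H_dot (Function.update c j₀ (c j₀ - a)) x =
          (c j₀ - a) * x j₀ + ∑ j ∈ Finset.univ.erase j₀, c j * x j := by
        unfold S17H_dot
        rw [← Finset.add_sum_erase _ _ (Finset.mem_univ j₀), Function.update_self]
        congr 1
        refine Finset.sum_congr rfl fun j hj => ?_
        rw [Function.update_of_ne (Finset.ne_of_mem_erase hj)]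
      have e2 : a = c j₀ * x j₀ + ∑ j ∈ Finset.univ.erase j₀, c j * x j := by
        rw [ha]
        unfold S17H_dot
        rw [← Finset.add_sum_erase _ _ (Finset.mem_univ j₀)]
      rw [e1]
      linear_combination (-1 : Ω) * e2
    rw [h1, hx0]
    ring
  · exact S17DC_dot_hat_self T x

variable [Infinite Ω] (h : RR_Hyp Ω F) (O : Place Ω F) (e : ι → F)
  (he : ∀ P : Place Ω F, P ≠ O → ∀ j, P.adicValuation (e j) ≤ 1)
  (j₀ : ι) (he0 : e j₀ = 1) (chow : MvPolynomial (ι ⊕ ι) Ω)
  (hh1 : ∀ P : Place Ω F, P ≠ O → ∀ c X : ι → Ω,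
    S17H_dot c (fun j => FD_c0 P (e j)) = 0 → S17H_dot X (fun j => FD_c0 P (e j)) = 0 →
      eval (Sum.elim c X) chow = 0)

/-- lift of a family of functions regular at `P` to `O_P`. -/
noncomputable def S17DC_lift (P : Place Ω F) (ε : ι → F) (hε : ∀ j, P.adicValuation (ε j) ≤ 1) :
    ι → P.toValuationSubring :=
  fun j => ⟨ε j, (BL_adicValuation_le_one_iff P (ε j)).1 (hε j)⟩

include h he he0 hh1 in
/-- `G(c, e, T)[c j₀ ↦ c j₀ - ⟨c, e⟩] = 0` in `F[c, T]`. -/
theorem S17DC_subst_G_eq_zero :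
    S17DC_subst (Sum.inl j₀) (S17DC_ell F e) (S17DC_G chow F e) = 0 := by
  ext m
  rw [coeff_zero]
  apply S17DC_eq_zero_of_zeros h O
  intro P hPO
  have hdeg := h.deg_one P
  set εP := S17DC_lift P e (he P hPO) with hεP
  set Y := S17DC_subst (Sum.inl j₀) (S17DC_ell P.toValuationSubring εP)
    (S17DC_G chow P.toValuationSubring εP) with hY
  have h1 : map (S17DC_incl P : P.toValuationSubring →+* F) Y =
      S17DC_subst (Sum.inl j₀) (S17DC_ell F e) (S17DC_G chow F e) := by
    rw [hY, S17DC_map_subst, S17DC_map_ell, S17DC_map_G]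
    rfl
  have h2 : map (S17DC_evP P hdeg : P.toValuationSubring →+* Ω) Y = 0 := by
    rw [hY, S17DC_map_subst, S17DC_map_ell, S17DC_map_G]
    have hx : (fun j => S17DC_evP P hdeg (εP j)) = fun j => FD_c0 P (e j) := by
      funext j
      rw [S17DC_evP_apply]
      rfl
    rw [hx]
    apply S17DC_subst_G_num chow _ j₀ _ (hh1 P hPO)
    show FD_c0 P (e j₀) = 1
    rw [he0]
    exact FD_c0_unique P (by simp)
  rw [← h1, coeff_map]
  have h3 : S17DC_evP P hdeg (coeff m Y) = 0 := by
    have := coeff_map (S17DC_evP P hdeg : P.toValuationSubring →+* Ω) Y m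
    rw [h2, coeff_zero] at this
    exact this.symm
  exact (S17DC_evP_eq_zero_iff P hdeg _).1 h3

include h he he0 hh1 in
/-- **division**: `G(c, e, T) = ⟨c, e⟩ · q` in `F[c, T]`. -/
theorem S17DC_exists_q : ∃ q : MvPolynomial (ι ⊕ ι × ι) F,
    S17DC_G chow F e = S17DC_ell F e * q := by
  obtain ⟨q, hq⟩ := S17DC_dvd_sub_subst (Sum.inl j₀) (S17DC_ell F e) (S17DC_G chow F e)
  rw [S17DC_subst_G_eq_zero h O e he j₀ he0 chow hh1, sub_zero] at hq
  exact ⟨q, hq⟩

end Vanish

/-! ### Charts -/

section Chart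

variable {ι : Type} [Fintype ι] [DecidableEq ι]

theorem S17DC_ell_ne_zero (e : ι → F) (j : ι) (hj : e j ≠ 0) : S17DC_ell (ι := ι) F e ≠ 0 := by
  classical
  intro h0
  have h1 : coeff (Finsupp.single (Sum.inl j : ι ⊕ ι × ι) 1) (S17DC_ell (ι := ι) F e) = e j := by
    rw [S17DC_ell, coeff_sum]
    rw [Finset.sum_eq_single j]
    · rw [coeff_C_mul, coeff_X, if_pos rfl, mul_one]
    · intro i _ hij
      rw [coeff_C_mul, coeff_X]
      have : ¬ Finsupp.single (Sum.inl i : ι ⊕ ι × ι) 1 = Finsupp.single (Sum.inl j) 1 := by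
        intro h
        have := (Finsupp.single_left_inj (by norm_num : (1 : ℕ) ≠ 0)).1 h
        exact hij (Sum.inl_injective this)
      rw [if_neg this, mul_zero]
    · intro hj'
      exact absurd (Finset.mem_univ j) hj'
  rw [h0, coeff_zero] at h1
  exact hj h1.symm

/-- **chart lemma**: if `G(c, e, T) = ⟨c, e⟩ · q` over `F` and all `e i / e j` are regular at
`P`, then the same division holds over `O_P` for the family `e / e j`, with quotient
`q_P = q / (e j) ^ (k - 1)`. -/
theorem S17DC_chart {k : ℕ} (hk : 1 ≤ k) (chow : MvPolynomial (ι ⊕ ι) Ω)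
    (hchow : S17C_IsBihom chow k k) (e : ι → F) (q : MvPolynomial (ι ⊕ ι × ι) F)
    (hq : S17DC_G chow F e = S17DC_ell F e * q) (P : Place Ω F) (j : ι) (hj : e j ≠ 0)
    (hε : ∀ i, P.adicValuation ((e j)⁻¹ * e i) ≤ 1) :
    ∃ qP : MvPolynomial (ι ⊕ ι × ι) P.toValuationSubring,
      S17DC_G chow P.toValuationSubring (S17DC_lift P (fun i => (e j)⁻¹ * e i) hε) =
        S17DC_ell P.toValuationSubring (S17DC_lift P (fun i => (e j)⁻¹ * e i) hε) * qP ∧
      q = C ((e j) ^ (k - 1)) *
        MvPolynomial.map (S17DC_incl P : P.toValuationSubring →+* F) qP := by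
  set u := e j with hu
  set εP := S17DC_lift P (fun i => u⁻¹ * e i) hε with hεP
  have hincl : (fun i => S17DC_incl P (εP i)) = fun i => u⁻¹ * e i := rfl
  have hεj : εP j = 1 := by
    apply Subtype.ext
    show u⁻¹ * e j = 1
    rw [← hu, inv_mul_cancel₀ hj]
  obtain ⟨qP, hqP⟩ := S17DC_dvd_sub_subst (Sum.inl j) (S17DC_ell P.toValuationSubring εP)
    (S17DC_G chow P.toValuationSubring εP)
  set φ : P.toValuationSubring →+* F := (S17DC_incl P : P.toValuationSubring →+* F) with hφ
  have hφinj : Function.Injective φ := S17DC_incl_injective P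
  have hmapG : MvPolynomial.map φ
      (S17DC_G chow P.toValuationSubring εP) = C (u⁻¹ ^ k) * S17DC_G chow F e := by
    rw [hφ, S17DC_map_G, hincl, S17DC_G_scale chow hchow]
  have hmapell : MvPolynomial.map φ
      (S17DC_ell P.toValuationSubring εP) = C u⁻¹ * S17DC_ell F e := by
    rw [hφ, S17DC_map_ell, hincl, S17DC_ell_scale]
  have hzero : S17DC_subst (Sum.inl j) (S17DC_ell P.toValuationSubring εP)
      (S17DC_G chow P.toValuationSubring εP) = 0 := by
    apply MvPolynomial.map_injective φ hφinj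
    rw [S17DC_map_subst, hmapG, hmapell, map_zero, hq]
    have h1 := S17DC_subst_ell (B := F) e u⁻¹ j (by rw [← hu, mul_inv_cancel₀ hj])
    rw [map_mul, map_mul, h1, zero_mul, mul_zero]
  rw [hzero, sub_zero] at hqP
  refine ⟨qP, hqP, ?_⟩
  have h2 := congrArg (MvPolynomial.map φ) hqP
  rw [map_mul, hmapG, hmapell, hq] at h2
  -- `C (u⁻¹ ^ k) * (ℓ * q) = C u⁻¹ * ℓ * map qP`
  have hℓ := S17DC_ell_ne_zero e j hj
  have hC : (C u⁻¹ : MvPolynomial (ι ⊕ ι × ι) F) ≠ 0 := by
    rw [Ne, C_eq_zero]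
    exact inv_ne_zero hj
  have h3 : (C u⁻¹ * S17DC_ell F e) * (C (u⁻¹ ^ (k - 1)) * q) =
      (C u⁻¹ * S17DC_ell F e) * MvPolynomial.map φ qP := by
    rw [← h2]
    have : (C (u⁻¹ ^ k) : MvPolynomial (ι ⊕ ι × ι) F) = C u⁻¹ * C (u⁻¹ ^ (k - 1)) := by
      rw [← map_mul, ← pow_succ', Nat.sub_add_cancel hk]
    rw [this]
    ring
  have h4 := mul_left_cancel₀ (mul_ne_zero hC hℓ) h3
  rw [← h4, ← mul_assoc, ← map_mul, ← mul_pow, mul_inv_cancel₀ hj, one_pow, map_one, one_mul]

end Chart

end Fermat.Agent.S17
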