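import Mathlib
import Fermat.Agent.S17.DeccDiv

/-!
# TRACK 8 (S17), heights, package DECC-curve (helper19): the polynomials `psi`

* `S17DC_G_wh`, `S17DC_ell_wh`, `S17DC_q_wh` : homogeneity in the variables `c`;
* `S17DC_coeff_mem` : the coefficients of the quotient `q` lie in `L((k-1) k O)`;
-/

set_option autoImplicit false
set_option linter.style.haveILetI false

open AlgebraicCurve WithZero MvPolynomial

namespace Fermat.Agent.S17

open Fermat.Agent.Lib Fermat.Agent.S24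

variable {Ω : Type} [Field Ω] {ι : Type} [Fintype ι]

/-! ### Homogeneity in `c` -/

/-- the weight counting the degree in the variables `c`. -/
def S17DC_wc (ι : Type) : ι ⊕ ι × ι → ℕ := Sum.elim (fun _ => 1) (fun _ => 0)

section WH

variable (chow : MvPolynomial (ι ⊕ ι) Ω) (B : Type*) [CommRing B] [Algebra Ω B]

theorem S17DC_TX_wh (ε : ι → B) (j : ι) :
    IsWeightedHomogeneous (S17DC_wc ι) (S17DC_TX B ε j) 0 := by
  unfold S17DC_TX
  refine IsWeightedHomogeneous.sum _ _ _ fun i _ => ?_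
  have h1 : IsWeightedHomogeneous (S17DC_wc ι)
      (X (Sum.inr (i, j)) - X (Sum.inr (j, i)) : MvPolynomial (ι ⊕ ι × ι) B) 0 :=
    (isWeightedHomogeneous_X B (S17DC_wc ι) (Sum.inr (i, j))).sub
      (isWeightedHomogeneous_X B (S17DC_wc ι) (Sum.inr (j, i)))
  have h2 := h1.mul (isWeightedHomogeneous_C (S17DC_wc ι) (ε i))
  simpa using h2

theorem S17DC_ell_wh (ε : ι → B) :
    IsWeightedHomogeneous (S17DC_wc ι) (S17DC_ell (ι := ι) B ε) 1 := by
  unfold S17DC_ell
  refine IsWeightedHomogeneous.sum _ _ _ fun i _ => ?_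
  have h2 := (isWeightedHomogeneous_C (S17DC_wc ι) (ε i)).mul
    (isWeightedHomogeneous_X B (S17DC_wc ι) (Sum.inl i))
  simpa [S17DC_wc] using h2

theorem S17DC_G_wh {k : ℕ} (hchow : S17C_IsBihom chow k k) (ε : ι → B) :
    IsWeightedHomogeneous (S17DC_wc ι) (S17DC_G chow B ε) k := by
  classical
  unfold S17DC_G
  conv => arg 2; rw [chow.as_sum, map_sum]
  refine IsWeightedHomogeneous.sum _ _ _ fun d hd => ?_
  have hd' : coeff d chow ≠ 0 := by simpa using hd
  rw [aeval_monomial, Finsupp.prod_fintype _ _ (fun _ => pow_zero _)]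
  have h1 : IsWeightedHomogeneous (S17DC_wc ι)
      (∏ s, (Sum.elim (fun j => (X (Sum.inl j) : MvPolynomial (ι ⊕ ι × ι) B))
        (S17DC_TX B ε) s) ^ d s) (∑ s : ι ⊕ ι, d s • Sum.elim (fun _ => 1) (fun _ => 0) s) := by
    refine IsWeightedHomogeneous.prod _ _ _ fun s _ => ?_
    refine IsWeightedHomogeneous.pow ?_ _
    cases s with
    | inl j => exact isWeightedHomogeneous_X B (S17DC_wc ι) (Sum.inl j)
    | inr j => exact S17DC_TX_wh B ε j
  have h2 : (∑ s : ι ⊕ ι, d s • Sum.elim (fun _ => (1 : ℕ)) (fun _ => 0) s) = k := by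
    rw [Fintype.sum_sum_type]
    simpa using (hchow d hd').1
  rw [h2] at h1
  have h3 := (isWeightedHomogeneous_C (S17DC_wc ι)
    (algebraMap Ω B (coeff d chow))).mul h1
  rw [zero_add] at h3
  exact h3

end WH

/-- the quotient of `G` by `ℓ` is homogeneous of degree `k - 1` in `c`. -/
theorem S17DC_q_wh {F : Type*} [Field F] [Algebra Ω F] [DecidableEq ι]
    (chow : MvPolynomial (ι ⊕ ι) Ω) {k : ℕ} (hk : 1 ≤ k)
    (hchow : S17C_IsBihom chow k k) (e : ι → F) (q : MvPolynomial (ι ⊕ ι × ι) F)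
    (hq : S17DC_G chow F e = S17DC_ell F e * q) (hℓ : S17DC_ell (ι := ι) F e ≠ 0) :
    IsWeightedHomogeneous (S17DC_wc ι) q (k - 1) := by
  classical
  have hG := S17DC_G_wh chow F hchow e
  have hl := S17DC_ell_wh (ι := ι) F e
  have h1 : weightedHomogeneousComponent (S17DC_wc ι) (k - 1 + 1) (q * S17DC_ell F e) =
      weightedHomogeneousComponent (S17DC_wc ι) (k - 1) q * S17DC_ell F e :=
    S17C_whc_mul (S17DC_wc ι) q (S17DC_ell F e) hl (k - 1)
  have h0 : q * S17DC_ell F e = S17DC_G chow F e := by rw [hq, mul_comm]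
  have h3 : weightedHomogeneousComponent (S17DC_wc ι) k (S17DC_G chow F e) =
      S17DC_G chow F e := weightedHomogeneousComponent_eq_self hG
  rw [Nat.sub_add_cancel hk, h0, h3] at h1
  have h4 : S17DC_ell F e * q =
      S17DC_ell F e * weightedHomogeneousComponent (S17DC_wc ι) (k - 1) q := by
    rw [← hq, h1, mul_comm]
  have h2 := mul_left_cancel₀ hℓ h4
  rw [h2]
  exact weightedHomogeneousComponent_isWeightedHomogeneous _ _

theorem S17DC_sum_inl_of_wh {R : Type*} [CommSemiring R] {p : MvPolynomial (ι ⊕ ι × ι) R}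
    {n : ℕ} (hp : IsWeightedHomogeneous (S17DC_wc ι) p n) {m : ι ⊕ ι × ι →₀ ℕ}
    (hm : coeff m p ≠ 0) : ∑ j, m (Sum.inl j) = n := by
  have := hp hm
  rw [← this, Finsupp.weight_apply, Finsupp.sum_fintype _ _ (fun _ => by simp),
    Fintype.sum_sum_type]
  simp [S17DC_wc]

/-! ### Bihomogeneous polynomials -/


theorem S17DC_bihom_rename_inl (d : ι →₀ ℕ) {n : ℕ} (hd : ∑ j, d j = n) (a : Ω) :
    S17C_IsBihom (rename (Sum.inl : ι → ι ⊕ ι) (monomial d a)) n 0 := by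
  classical
  intro d' hd'
  rw [rename_monomial, coeff_monomial] at hd'
  have h1 : Finsupp.mapDomain Sum.inl d = d' := by
    by_contra hne
    exact hd' (if_neg hne)
  subst h1
  refine ⟨?_, ?_⟩
  · rw [← hd]
    exact Finset.sum_congr rfl fun j _ => Finsupp.mapDomain_apply Sum.inl_injective d j
  · refine Finset.sum_eq_zero fun j _ => ?_
    exact Finsupp.mapDomain_of_notMem_range d _ (by simp)

theorem S17DC_bihom_rename_inr (p : MvPolynomial ι Ω) {n : ℕ} (hp : p.IsHomogeneous n) :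
    S17C_IsBihom (rename (Sum.inr : ι → ι ⊕ ι) p) 0 n := by
  classical
  intro d' hd'
  obtain ⟨d, rfl, hd⟩ := coeff_rename_ne_zero Sum.inr p d' hd'
  refine ⟨?_, ?_⟩
  · refine Finset.sum_eq_zero fun j _ => ?_
    exact Finsupp.mapDomain_of_notMem_range d _ (by simp)
  · have := hp hd
    rw [← this, Finsupp.weight_apply, Finsupp.sum_fintype _ _ (fun _ => by simp)]
    refine Finset.sum_congr rfl fun j _ => ?_
    rw [Finsupp.mapDomain_apply Sum.inr_injective d j]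
    simp

theorem S17DC_bihom_mul {p q : MvPolynomial (ι ⊕ ι) Ω} {a b a' b' : ℕ}
    (hp : S17C_IsBihom p a b) (hq : S17C_IsBihom q a' b') :
    S17C_IsBihom (p * q) (a + a') (b + b') := by
  classical
  rw [S17C_isBihom_iff] at hp hq ⊢
  have := hp.mul hq
  convert this using 1
  funext x
  rcases x with ⟨_ | _⟩ <;> rfl

theorem S17DC_bihom_sum {α : Type*} (s : Finset α) (p : α → MvPolynomial (ι ⊕ ι) Ω) {a b : ℕ}
    (hp : ∀ i ∈ s, S17C_IsBihom (p i) a b) : S17C_IsBihom (∑ i ∈ s, p i) a b := by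
  classical
  rw [S17C_isBihom_iff]
  exact IsWeightedHomogeneous.sum _ _ _ fun i hi => (S17C_isBihom_iff _ _ _).1 (hp i hi)


/-! ### Regrouping -/


section Regroup

variable [DecidableEq ι]

/-- the `c`-part of an exponent. -/
noncomputable def S17DC_cpart (m : ι ⊕ ι × ι →₀ ℕ) : ι →₀ ℕ :=
  (Finsupp.sumFinsuppEquivProdFinsupp m).1

/-- the `T`-part of an exponent. -/
noncomputable def S17DC_tpart (m : ι ⊕ ι × ι →₀ ℕ) : ι × ι →₀ ℕ :=
  (Finsupp.sumFinsuppEquivProdFinsupp m).2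

theorem S17DC_cpart_apply (m : ι ⊕ ι × ι →₀ ℕ) (j : ι) : S17DC_cpart m j = m (Sum.inl j) :=
  Finsupp.fst_sumFinsuppEquivProdFinsupp m j

theorem S17DC_tpart_apply (m : ι ⊕ ι × ι →₀ ℕ) (p : ι × ι) : S17DC_tpart m p = m (Sum.inr p) :=
  Finsupp.snd_sumFinsuppEquivProdFinsupp m p

variable (s : Finset (ι ⊕ ι × ι →₀ ℕ)) (Pm : (ι ⊕ ι × ι →₀ ℕ) → MvPolynomial ι Ω)

/-- `Ψ̃` as a polynomial in `(c, T)` with coefficients in `Ω[x]`. -/
noncomputable def S17DC_Qt : MvPolynomial (ι ⊕ ι × ι) (MvPolynomial ι Ω) :=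
  ∑ m ∈ s, monomial m (Pm m)

/-- the set of `T`-monomials. -/
noncomputable def S17DC_Gam : Finset (ι × ι →₀ ℕ) := s.image S17DC_tpart

/-- the coefficient of `T ^ γ` in `Ψ̃`, a polynomial in `(c, x)`. -/
noncomputable def S17DC_psi (γ : ι × ι →₀ ℕ) : MvPolynomial (ι ⊕ ι) Ω :=
  ∑ m ∈ s.filter (fun m => S17DC_tpart m = γ),
    rename Sum.inl (monomial (S17DC_cpart m) (1 : Ω)) * rename Sum.inr (Pm m)

theorem S17DC_eval_Qt (c x : ι → Ω) (T : ι × ι → Ω) :
    eval (Sum.elim c T) (map (eval x) (S17DC_Qt s Pm)) =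
      ∑ m ∈ s, (∏ j, c j ^ S17DC_cpart m j) * eval x (Pm m) * ∏ p, T p ^ S17DC_tpart m p := by
  rw [S17DC_Qt, map_sum, map_sum]
  refine Finset.sum_congr rfl fun m _ => ?_
  rw [map_monomial, eval_monomial, Finsupp.prod_fintype _ _ (fun _ => pow_zero _),
    Fintype.prod_sum_type]
  simp only [Sum.elim_inl, Sum.elim_inr, S17DC_cpart_apply, S17DC_tpart_apply]
  ring

theorem S17DC_eval_psi (c x : ι → Ω) (γ : ι × ι →₀ ℕ) :
    eval (Sum.elim c x) (S17DC_psi s Pm γ) =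
      ∑ m ∈ s.filter (fun m => S17DC_tpart m = γ),
        (∏ j, c j ^ S17DC_cpart m j) * eval x (Pm m) := by
  rw [S17DC_psi, map_sum]
  refine Finset.sum_congr rfl fun m _ => ?_
  rw [map_mul, eval_rename, eval_rename, eval_monomial,
    Finsupp.prod_fintype _ _ (fun _ => pow_zero _)]
  simp [Function.comp_def]

theorem S17DC_eval_psiT (c x : ι → Ω) (T : ι × ι → Ω) :
    eval T (S17H_psiT (fun γ : ↥(S17DC_Gam s) => S17DC_psi s Pm γ)
      (fun γ => (γ : ι × ι →₀ ℕ)) c x) =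
      eval (Sum.elim c T) (map (eval x) (S17DC_Qt s Pm)) := by
  rw [S17DC_eval_Qt, S17H_psiT, map_sum]
  have h1 : ∀ γ : ↥(S17DC_Gam s), eval T (C (eval (Sum.elim c x) (S17DC_psi s Pm γ)) *
      monomial (γ : ι × ι →₀ ℕ) 1) =
      ∑ m ∈ s.filter (fun m => S17DC_tpart m = (γ : ι × ι →₀ ℕ)),
        (∏ j, c j ^ S17DC_cpart m j) * eval x (Pm m) * ∏ p, T p ^ S17DC_tpart m p := by
    intro γ
    rw [map_mul, eval_C, eval_monomial, S17DC_eval_psi, one_mul, Finset.sum_mul,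
      Finsupp.prod_fintype _ _ (fun _ => pow_zero _)]
    refine Finset.sum_congr rfl fun m hm => ?_
    rw [(Finset.mem_filter.1 hm).2]
  simp_rw [h1]
  rw [Finset.sum_coe_sort (S17DC_Gam s) (fun γ =>
    ∑ m ∈ s.filter (fun m => S17DC_tpart m = γ),
      (∏ j, c j ^ S17DC_cpart m j) * eval x (Pm m) * ∏ p, T p ^ S17DC_tpart m p)]
  exact Finset.sum_fiberwise_of_maps_to (fun m hm => Finset.mem_image_of_mem _ hm) _

/-- bihomogeneity of `psi`. -/
theorem S17DC_psi_bihom {n₁ n₂ : ℕ} (hc : ∀ m ∈ s, ∑ j, m (Sum.inl j) = n₁)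
    (hP : ∀ m, (Pm m).IsHomogeneous n₂) (γ : ι × ι →₀ ℕ) :
    S17C_IsBihom (S17DC_psi s Pm γ) n₁ n₂ := by
  unfold S17DC_psi
  refine S17DC_bihom_sum _ _ fun m hm => ?_
  have h1 : S17C_IsBihom (rename (Sum.inl : ι → ι ⊕ ι) (monomial (S17DC_cpart m) (1 : Ω))) n₁ 0 :=
    S17DC_bihom_rename_inl _ (by
      rw [← hc m (Finset.mem_filter.1 hm).1]
      exact Finset.sum_congr rfl fun j _ => S17DC_cpart_apply m j) 1
  have h2 := S17DC_bihom_mul h1 (S17DC_bihom_rename_inr (Pm m) (hP m))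
  simpa using h2

theorem S17DC_coeff_Qt (hP0 : ∀ m, m ∉ s → Pm m = 0) (m : ι ⊕ ι × ι →₀ ℕ) :
    coeff m (S17DC_Qt s Pm) = Pm m := by
  rw [S17DC_Qt, coeff_sum]
  simp_rw [coeff_monomial]
  rw [Finset.sum_ite_eq' s m]
  split_ifs with hm
  · rfl
  · exact (hP0 m hm).symm

end Regroup


end Fermat.Agent.S17
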