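import Mathlib
import Fermat.Agent.S17.DeccPsi

/-!
# TRACK 8 (S17), heights, package DECC-curve (helper19): existence of `Ψ̃`

`S17DC_exists_psi` : for the curve embedded by a basis `e` of `L(k O)` (`e j₀ = 1`, `e r` of exact
pole order `k`, the other `e j` of smaller pole order) and a bihomogeneous form `chow` of
bidegree `(k, k)` vanishing at `(c, X)` whenever `c` and `X` are orthogonal to a common point
`ev P`, `P ≠ O`, there are bihomogeneous forms `psi γ` of bidegree `(k-1, k-1)`, indexed by a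
finite set of `T`-monomials, with

  `𝒞(c, T̂ x) = ⟨c, x⟩ · ∑ γ, psi γ (c, x) · T ^ γ`

at every point `x = ev P` (`P ≠ O`) and at `x = ε_r` (the point `O`).
-/

set_option autoImplicit false
set_option linter.style.haveILetI false
set_option linter.unusedSectionVars false

open AlgebraicCurve WithZero MvPolynomial

namespace Fermat.Agent.S17

open Fermat.Agent.Lib Fermat.Agent.S24

variable {Ω : Type} [Field Ω] {ι : Type} [Fintype ι] [DecidableEq ι]
variable {F : Type*} [Field F] [Algebra Ω F]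

/-- **point lemma**: the identity `G = ℓ · Ψ̃` evaluated at the point of the chart `(P, j)`. -/
theorem S17DC_point {k : ℕ} (hk : 1 ≤ k) (chow : MvPolynomial (ι ⊕ ι) Ω)
    (hchow : S17C_IsBihom chow k k) (e : ι → F) (q : MvPolynomial (ι ⊕ ι × ι) F)
    (hq : S17DC_G chow F e = S17DC_ell F e * q)
    (Pm : (ι ⊕ ι × ι →₀ ℕ) → MvPolynomial ι Ω) (hPm : ∀ m, (Pm m).IsHomogeneous (k - 1))
    (hPq : ∀ m, aeval e (Pm m) = coeff m q) (hP0 : ∀ m, m ∉ q.support → Pm m = 0)
    (P : Place Ω F) (hdeg : P.deg = 1) (j : ι) (hj : e j ≠ 0)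
    (hε : ∀ i, P.adicValuation ((e j)⁻¹ * e i) ≤ 1) (c : ι → Ω) (T : ι × ι → Ω) :
    eval (Sum.elim c (S17H_hat T (fun i => FD_c0 P ((e j)⁻¹ * e i)))) chow =
      S17H_dot c (fun i => FD_c0 P ((e j)⁻¹ * e i)) *
        eval (Sum.elim c T)
          (MvPolynomial.map (eval (fun i => FD_c0 P ((e j)⁻¹ * e i))) (S17DC_Qt q.support Pm)) := by
  obtain ⟨qP, hG, hqq⟩ := S17DC_chart hk chow hchow e q hq P j hj hε
  set u := e j with hu
  set εP := S17DC_lift P (fun i => u⁻¹ * e i) hε with hεP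
  set x : ι → Ω := fun i => FD_c0 P (u⁻¹ * e i) with hx
  have hxε : (fun i => S17DC_evP P hdeg (εP i)) = x := by
    funext i
    rw [S17DC_evP_apply]
    rfl
  set φ : P.toValuationSubring →+* F := (S17DC_incl P : P.toValuationSubring →+* F) with hφ
  have hφinj : Function.Injective φ := S17DC_incl_injective P
  -- `qP = Q̃(εP)`
  have hQ : qP = MvPolynomial.map
      ((aeval εP : MvPolynomial ι Ω →ₐ[Ω] P.toValuationSubring) : MvPolynomial ι Ω →+* _)
      (S17DC_Qt q.support Pm) := by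
    apply MvPolynomial.map_injective φ hφinj
    ext m
    rw [coeff_map, coeff_map, coeff_map, S17DC_coeff_Qt _ _ hP0]
    have h1 : coeff m q = u ^ (k - 1) * φ (coeff m qP) := by
      rw [hqq, coeff_C_mul, coeff_map]
    have h2 : φ (aeval εP (Pm m)) = (u⁻¹) ^ (k - 1) * coeff m q := by
      have h3 : φ (aeval εP (Pm m)) = aeval (fun i => S17DC_incl P (εP i)) (Pm m) :=
        comp_aeval_apply εP (S17DC_incl P) (Pm m)
      rw [h3, ← hPq m]
      exact S17DC_aeval_hom_scale (Pm m) (k - 1) (hPm m) e u⁻¹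
    show φ (coeff m qP) = φ (aeval εP (Pm m))
    rw [h2, h1, ← mul_assoc, ← mul_pow, inv_mul_cancel₀ hj, one_pow, one_mul]
  -- apply the evaluation at `P`
  have h4 := congrArg (MvPolynomial.map (S17DC_evP P hdeg : P.toValuationSubring →+* Ω)) hG
  rw [map_mul, S17DC_map_G, S17DC_map_ell, hxε] at h4
  have h5 : MvPolynomial.map (S17DC_evP P hdeg : P.toValuationSubring →+* Ω) qP =
      MvPolynomial.map (eval x) (S17DC_Qt q.support Pm) := by
    have hcomp : (S17DC_evP P hdeg : P.toValuationSubring →+* Ω).comp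
        ((aeval εP : MvPolynomial ι Ω →ₐ[Ω] P.toValuationSubring) : MvPolynomial ι Ω →+* _) =
        eval x := by
      apply MvPolynomial.ringHom_ext
      · intro a
        show S17DC_evP P hdeg (aeval εP (C a)) = eval x (C a)
        rw [comp_aeval_apply εP (S17DC_evP P hdeg) (C a), hxε, aeval_eq_eval]
      · intro i
        show S17DC_evP P hdeg (aeval εP (X i)) = eval x (X i)
        rw [comp_aeval_apply εP (S17DC_evP P hdeg) (X i), hxε, aeval_eq_eval]
    rw [hQ, MvPolynomial.map_map, hcomp]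
  rw [h5] at h4
  have h6 := congrArg (eval (Sum.elim c T)) h4
  rw [map_mul, S17DC_eval_G, S17DC_eval_ell] at h6
  exact h6

section Main

variable [Infinite Ω] (h : RR_Hyp Ω F) (O : Place Ω F) (k : ℕ)
  (hk : 4 * RR_genus Ω F + 2 ≤ k) (e : ι → F)
  (hspan : Submodule.span Ω (Set.range e) = riemannRochSpace (Finsupp.single O (k : ℤ)))
  (j₀ r : ι) (he0 : e j₀ = 1) (her : O.adicValuation (e r) = exp (k : ℤ))
  (chow : MvPolynomial (ι ⊕ ι) Ω) (hchow : S17C_IsBihom chow k k)
  (hh1 : ∀ P : Place Ω F, P ≠ O → ∀ c X : ι → Ω,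
    S17H_dot c (fun j => FD_c0 P (e j)) = 0 → S17H_dot X (fun j => FD_c0 P (e j)) = 0 →
      eval (Sum.elim c X) chow = 0)

include hspan in
theorem S17DC_e_mem (j : ι) : e j ∈ riemannRochSpace (Finsupp.single O (k : ℤ)) := by
  rw [← hspan]
  exact Submodule.subset_span ⟨j, rfl⟩

include hspan in
theorem S17DC_e_reg {P : Place Ω F} (hP : P ≠ O) (j : ι) : P.adicValuation (e j) ≤ 1 := by
  classical
  have := S17DC_e_mem O k e hspan j P
  rwa [Finsupp.single_eq_of_ne hP, exp_zero] at this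

include hspan in
theorem S17DC_e_le (j : ι) : O.adicValuation (e j) ≤ exp (k : ℤ) := by
  classical
  have := S17DC_e_mem O k e hspan j O
  rwa [Finsupp.single_eq_same] at this

include her in
theorem S17DC_er_ne : e r ≠ 0 := by
  intro h0
  rw [h0, map_zero] at her
  exact exp_ne_zero her.symm

include hspan her in
theorem S17DC_chartO (i : ι) : O.adicValuation ((e r)⁻¹ * e i) ≤ 1 := by
  rw [map_mul, map_inv₀, her, inv_mul_le_iff₀ exp_pos, mul_one]
  exact S17DC_e_le O k e hspan i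

include hspan he0 in
theorem S17DC_chartP {P : Place Ω F} (hP : P ≠ O) (i : ι) :
    P.adicValuation ((e j₀)⁻¹ * e i) ≤ 1 := by
  rw [he0, inv_one, one_mul]
  exact S17DC_e_reg O k e hspan hP i

include h hk hspan he0 her hchow hh1 in
/-- the coefficients of the quotient lie in `L((k-1) k O)`. -/
theorem S17DC_coeff_mem (q : MvPolynomial (ι ⊕ ι × ι) F)
    (hq : S17DC_G chow F e = S17DC_ell F e * q) (m : ι ⊕ ι × ι →₀ ℕ) :
    coeff m q ∈ riemannRochSpace (Finsupp.single O (((k - 1) * k : ℕ) : ℤ)) := by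
  classical
  have hk1 : 1 ≤ k := by omega
  intro v
  by_cases hv : v = O
  · subst hv
    rw [Finsupp.single_eq_same]
    obtain ⟨qP, -, hqq⟩ := S17DC_chart hk1 chow hchow e q hq v r (S17DC_er_ne v k e r her)
      (S17DC_chartO v k e hspan r her)
    rw [hqq, coeff_C_mul, coeff_map, map_mul, map_pow, her]
    have h1 : v.adicValuation ((S17DC_incl v) (coeff m qP)) ≤ 1 :=
      v.adicValuation_le_one_of_mem (coeff m qP).2
    calc exp (k : ℤ) ^ (k - 1) * v.adicValuation ((S17DC_incl v) (coeff m qP))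
        ≤ exp (k : ℤ) ^ (k - 1) * 1 := by gcongr
      _ = exp ((((k - 1) * k : ℕ) : ℤ)) := by
        rw [mul_one, ← exp_nsmul]
        congr 1
  · rw [Finsupp.single_eq_of_ne hv, exp_zero]
    have hj0 : e j₀ ≠ 0 := by rw [he0]; exact one_ne_zero
    obtain ⟨qP, -, hqq⟩ := S17DC_chart hk1 chow hchow e q hq v j₀ hj0
      (S17DC_chartP O k e hspan j₀ he0 hv)
    rw [hqq, coeff_C_mul, coeff_map, he0, one_pow, one_mul]
    exact v.adicValuation_le_one_of_mem (coeff m qP).2

include h hk hspan he0 her hchow hh1 in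
/-- **existence of `Ψ̃`** (DECC-curve, first half). -/
theorem S17DC_exists_psi (hlt : ∀ j, j ≠ r → O.adicValuation (e j) < exp (k : ℤ)) :
    ∃ (S : Finset (ι × ι →₀ ℕ)) (psi : ↥S → MvPolynomial (ι ⊕ ι) Ω),
      (∀ γ, S17C_IsBihom (psi γ) (k - 1) (k - 1)) ∧
      (∀ P : Place Ω F, P ≠ O → ∀ (c : ι → Ω) (T : ι × ι → Ω),
        eval (Sum.elim c (S17H_hat T (fun j => FD_c0 P (e j)))) chow =
          S17H_dot c (fun j => FD_c0 P (e j)) *
            eval T (S17H_psiT psi (fun γ => (γ : ι × ι →₀ ℕ)) c (fun j => FD_c0 P (e j)))) ∧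
      (∀ (c : ι → Ω) (T : ι × ι → Ω),
        eval (Sum.elim c (S17H_hat T (Pi.single r 1))) chow =
          S17H_dot c (Pi.single r 1) *
            eval T (S17H_psiT psi (fun γ => (γ : ι × ι →₀ ℕ)) c (Pi.single r 1))) := by
  classical
  have hk1 : 1 ≤ k := by omega
  have hk2 : 1 ≤ k - 1 := by omega
  have hereg : ∀ P : Place Ω F, P ≠ O → ∀ j, P.adicValuation (e j) ≤ 1 :=
    fun P hP j => S17DC_e_reg O k e hspan hP j
  obtain ⟨q, hq⟩ := S17DC_exists_q h O e hereg j₀ he0 chow hh1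
  have hj0 : e j₀ ≠ 0 := by rw [he0]; exact one_ne_zero
  have hℓ := S17DC_ell_ne_zero (ι := ι) e j₀ hj0
  have hqwh := S17DC_q_wh chow hk1 hchow e q hq hℓ
  -- the lifts
  have hlift : ∀ m : ι ⊕ ι × ι →₀ ℕ, ∃ p : MvPolynomial ι Ω,
      p.IsHomogeneous (k - 1) ∧ aeval e p = coeff m q ∧ (m ∉ q.support → p = 0) := by
    intro m
    by_cases hm : m ∈ q.support
    · obtain ⟨p, hp1, hp2⟩ := S17NG_main h O e k hk (le_of_eq hspan.symm) (k - 1) hk2 (coeff m q)
        (S17DC_coeff_mem h O k hk e hspan j₀ r he0 her chow hchow hh1 q hq m)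
      exact ⟨p, hp1, hp2, fun h' => absurd hm h'⟩
    · refine ⟨0, isHomogeneous_zero _ _ _, ?_, fun _ => rfl⟩
      rw [map_zero]
      exact (notMem_support_iff.1 hm).symm
  choose Pm hPm hPq hP0 using hlift
  refine ⟨S17DC_Gam q.support, fun γ => S17DC_psi q.support Pm γ, ?_, ?_, ?_⟩
  · intro γ
    exact S17DC_psi_bihom q.support Pm
      (fun m hm => S17DC_sum_inl_of_wh hqwh (mem_support_iff.1 hm)) hPm γ
  · intro P hP c T
    have hpt := S17DC_point hk1 chow hchow e q hq Pm hPm hPq hP0 P (h.deg_one P) j₀ hj0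
      (S17DC_chartP O k e hspan j₀ he0 hP) c T
    have hx : (fun i => FD_c0 P ((e j₀)⁻¹ * e i)) = fun j => FD_c0 P (e j) := by
      funext i
      rw [he0, inv_one, one_mul]
    rw [hx] at hpt
    rw [hpt, S17DC_eval_psiT]
  · intro c T
    have hr := S17DC_er_ne O k e r her
    have hpt := S17DC_point hk1 chow hchow e q hq Pm hPm hPq hP0 O (h.deg_one O) r hr
      (S17DC_chartO O k e hspan r her) c T
    have hx : (fun i => FD_c0 O ((e r)⁻¹ * e i)) = Pi.single r 1 := by
      funext i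
      by_cases hi : i = r
      · subst hi
        rw [inv_mul_cancel₀ hr, Pi.single_eq_same]
        exact FD_c0_unique O (by simp)
      · rw [Pi.single_eq_of_ne hi]
        have h1 : O.adicValuation ((e r)⁻¹ * e i) < 1 := by
          rw [map_mul, map_inv₀, her, inv_mul_lt_iff₀ exp_pos, mul_one]
          exact hlt i hi
        exact (FD_c0_eq_zero_iff O (h.deg_one O) h1.le).2 h1
    rw [hx] at hpt
    rw [hpt, S17DC_eval_psiT]

end Main

end Fermat.Agent.S17
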