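import Fermat.Agent.S17.NGZero
import Fermat.Agent.S17.NGSep
import Fermat.Agent.S17.HtDefs

/-!
# TRACK 8 (S17), heights: the evaluation vectors `ev P` including the point `O` (helper24)

`F / K` a function field with `RR_Hyp`, `O` a place, `e : ι → F` a basis of `L(kO)` with
`e i0 = 1`, `e il` of exact pole order `k` at `O`, all other `e j` of pole order `≤ k - 1`.

* `S17NGL_ev O e il P` : `ε_il` for `P = O`, `(e j (P))_j` for `P ≠ O`;
* `S17NGL_last_mem`    : `ε_il ∈ V(I)` (`I = S17NGZ_I e` the ideal of homogeneous relations);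
* `S17NGL_ev_mem`      : `ev P ∈ S17H_V I` for ALL places `P`   (field `ev_mem` of `S17H_Model`);
* `S17NGL_ev_inj`      : `P ≠ Q → ev P ∧ ev Q ≠ 0`               (field `ev_inj`);
* `S17NGL_ev_O_il`, `S17NGL_ev_O_ne`, `S17NGL_ev_i0`             (fields `ev_O_il`, `ev_O_ne`, `ev_i0`);
* `S17NGL_i0_ne_il`, `S17NGL_ev_ne_zero`.
-/

set_option autoImplicit false

open AlgebraicCurve MvPolynomial WithZero

namespace Fermat.Agent.S17

open Fermat.Agent.Lib

variable {K : Type} {F : Type*} [Field K] [Field F] [Algebra K F] {ι : Type}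

open Classical in
/-- the evaluation vector of a place, with `ev O = ε_il`. -/
noncomputable def S17NGL_ev (O : Place K F) (e : ι → F) (il : ι) (P : Place K F) : ι → K :=
  if P = O then (fun j => if j = il then 1 else 0) else S17NGZ_ev P e

theorem S17NGL_ev_O_il (O : Place K F) (e : ι → F) (il : ι) : S17NGL_ev O e il O il = 1 := by
  simp [S17NGL_ev]

theorem S17NGL_ev_O_ne (O : Place K F) (e : ι → F) (il : ι) (j : ι) (hj : j ≠ il) :
    S17NGL_ev O e il O j = 0 := by
  simp [S17NGL_ev, hj]

theorem S17NGL_ev_of_ne (O : Place K F) (e : ι → F) (il : ι) {P : Place K F} (hP : P ≠ O) :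
    S17NGL_ev O e il P = S17NGZ_ev P e := by
  simp [S17NGL_ev, hP]

theorem S17NGL_c0_one (P : Place K F) : FD_c0 P (1 : F) = 1 :=
  FD_c0_unique P (by rw [map_one, sub_self, map_zero]; exact zero_lt_one)

theorem S17NGL_ev_i0 (O : Place K F) (e : ι → F) (il i0 : ι) (he0 : e i0 = 1)
    {P : Place K F} (hP : P ≠ O) : S17NGL_ev O e il P i0 = 1 := by
  rw [S17NGL_ev_of_ne O e il hP, S17NGZ_ev, he0, S17NGL_c0_one]

/-- a relation of the `e j · s` is a relation of the `e j · a` for every `a ∈ F`. -/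
theorem S17NGL_aeval_scale (e : ι → F) (a : F) (f : MvPolynomial ι K)
    (hf : f ∈ S17NGZ_I (K := K) e) : aeval (fun j => e j * a) f = 0 := by
  have h1 : S17NGZ_phi (K := K) e f = 0 := hf
  have h2 := DFunLike.congr_fun (MvPolynomial.comp_aeval (R := K)
    (f := fun j => Polynomial.C (e j) * Polynomial.X)
    ((Polynomial.aeval a : Polynomial F →ₐ[F] F).restrictScalars K)) f
  rw [AlgHom.comp_apply] at h2
  have h3 : (aeval (fun j => Polynomial.C (e j) * Polynomial.X) : MvPolynomial ι K →ₐ[K] _) f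
      = 0 := h1
  rw [h3, map_zero] at h2
  have h4 : (fun j => e j * a) = fun i =>
      ((Polynomial.aeval a : Polynomial F →ₐ[F] F).restrictScalars K)
        (Polynomial.C (e i) * Polynomial.X) := by
    funext j
    simp
  rw [h4]
  exact h2.symm

variable (h : RR_Hyp K F) (O : Place K F) (k : ℕ) (e : ι → F) (i0 il : ι)
  (he0 : e i0 = 1)
  (hel : O.adicValuation (e il) = exp (k : ℤ))
  (helow : ∀ j, j ≠ il → O.adicValuation (e j) ≤ exp ((k : ℤ) - 1))
  (hk : 1 ≤ k)

include he0 hel hk in
theorem S17NGL_i0_ne_il : i0 ≠ il := by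
  intro h0
  rw [← h0, he0, map_one, ← exp_zero, exp_inj] at hel
  omega

include h hel helow in
/-- **the point `O`**: `ε_il ∈ V(I)`. -/
theorem S17NGL_last_mem [DecidableEq ι] :
    ∀ f ∈ S17NGZ_I (K := K) e, eval (fun j => if j = il then (1 : K) else 0) f = 0 := by
  intro f hf
  have hil0 : e il ≠ 0 := by
    intro h0
    rw [h0, map_zero] at hel
    exact exp_ne_zero hel.symm
  have hreg : ∀ j, O.adicValuation (e j * (e il)⁻¹) ≤ 1 := by
    intro j
    rw [map_mul, map_inv₀, hel]
    have h1 : O.adicValuation (e j) ≤ exp (k : ℤ) := by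
      by_cases hj : j = il
      · rw [hj, hel]
      · refine (helow j hj).trans ?_
        rw [exp_le_exp]
        omega
    calc O.adicValuation (e j) * (exp (k : ℤ))⁻¹ ≤ exp (k : ℤ) * (exp (k : ℤ))⁻¹ :=
          mul_le_mul' h1 le_rfl
      _ = 1 := mul_inv_cancel₀ exp_ne_zero
  have hev : S17NGZ_ev O (fun j => e j * (e il)⁻¹) = fun j => if j = il then (1 : K) else 0 := by
    funext j
    unfold S17NGZ_ev
    beta_reduce
    by_cases hj : j = il
    · rw [if_pos hj, hj, mul_inv_cancel₀ hil0, S17NGL_c0_one]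
    · rw [if_neg hj]
      apply FD_c0_unique
      rw [map_zero, sub_zero, map_mul, map_inv₀, hel]
      calc O.adicValuation (e j) * (exp (k : ℤ))⁻¹
          ≤ exp ((k : ℤ) - 1) * (exp (k : ℤ))⁻¹ := mul_le_mul' (helow j hj) le_rfl
        _ = exp (-1 : ℤ) := by
            rw [← exp_neg, ← exp_add]
            congr 1
            ring
        _ < 1 := by
            rw [← exp_zero, exp_lt_exp]
            omega
  have h1 := (S17NGZ_c0_aeval (fun j => e j * (e il)⁻¹) O (h.deg_one O) hreg f).2
  rw [S17NGL_aeval_scale e _ f hf, hev] at h1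
  rw [← h1]
  exact FD_c0_unique O (by rw [map_zero, sub_zero, map_zero]; exact zero_lt_one)

include h hel helow in
/-- field `ev_mem` of the model: `ev P ∈ V(I)` for all places `P`. -/
theorem S17NGL_ev_mem
    (hereg : ∀ j, ∀ P : Place K F, P ≠ O → P.adicValuation (e j) ≤ 1) (P : Place K F) :
    S17NGL_ev O e il P ∈ S17H_V (S17NGZ_I (K := K) e) := by
  classical
  by_cases hP : P = O
  · intro f hf
    have := S17NGL_last_mem h O k e il hel helow f hf
    rw [hP]
    simpa [S17NGL_ev] using this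
  · rw [S17NGL_ev_of_ne O e il hP]
    exact S17NGZ_ev_mem O e h hereg P hP

include he0 in
/-- `ev P ≠ 0`. -/
theorem S17NGL_ev_ne_zero (P : Place K F) : S17NGL_ev O e il P ≠ 0 := by
  intro h0
  by_cases hP : P = O
  · have := congrFun h0 il
    rw [hP, S17NGL_ev_O_il] at this
    exact one_ne_zero this
  · have := congrFun h0 i0
    rw [S17NGL_ev_i0 O e il i0 he0 hP] at this
    exact one_ne_zero this

include h he0 hel hk in
/-- field `ev_inj` of the model: distinct places have non-proportional evaluation vectors. -/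
theorem S17NGL_ev_inj [Fintype ι] [Infinite K] (B : Divisor K F)
    (hB : ∀ P : Place K F, P ≠ O → B P = 0)
    (hdeg : 2 * (RR_genus K F : ℤ) + 2 ≤ B.degree)
    (hspan : Submodule.span K (Set.range e) = riemannRochSpace B)
    (P Q : Place K F) (hPQ : P ≠ Q) :
    S17H_wedge (S17NGL_ev O e il P) (S17NGL_ev O e il Q) ≠ 0 := by
  classical
  have hne := S17NGL_i0_ne_il O k e i0 il he0 hel hk
  intro hw
  by_cases hP : P = O
  · have hQ : Q ≠ O := fun hQ => hPQ (hP.trans hQ.symm)
    have h1 := congrFun hw (il, i0)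
    simp only [S17H_wedge, Pi.zero_apply] at h1
    rw [hP, S17NGL_ev_O_il, S17NGL_ev_O_ne O e il i0 hne, S17NGL_ev_i0 O e il i0 he0 hQ] at h1
    simp at h1
  · by_cases hQ : Q = O
    · have h1 := congrFun hw (i0, il)
      simp only [S17H_wedge, Pi.zero_apply] at h1
      rw [hQ, S17NGL_ev_O_il, S17NGL_ev_O_ne O e il i0 hne, S17NGL_ev_i0 O e il i0 he0 hP] at h1
      simp at h1
    · refine S17NGS_separates h hB hdeg hspan hP hQ hPQ 1 ?_
      funext j
      have h1 := congrFun hw (j, i0)
      simp only [S17H_wedge, Pi.zero_apply] at h1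
      rw [S17NGL_ev_i0 O e il i0 he0 hQ, S17NGL_ev_i0 O e il i0 he0 hP,
        S17NGL_ev_of_ne O e il hP, S17NGL_ev_of_ne O e il hQ] at h1
      simp only [S17NGZ_ev, mul_one, one_mul] at h1
      simp only [Pi.smul_apply, smul_eq_mul, one_mul]
      exact (sub_eq_zero.1 h1).symm

end Fermat.Agent.S17
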