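import Fermat.Agent.S17.DeccNcz
import Fermat.Agent.S17.DeccMain
import Fermat.Agent.S17.BertCoord
import Fermat.Agent.S17.NGLast
import Fermat.Agent.S17.NormGen

/-!
# TRACK 8 (S17), heights pillar, package DECC part 2 (helper19): (NCZ) and (H2) for the curve

Setting: `h : RR_Hyp Ω F`, a place `O`, `e : ι → F` a basis of `L(k·O)` (`4 g + 2 ≤ k`),
`e i0 = 1`, `e il` of exact pole order `k`, `ev := S17NGL_ev O e il` (`ev O = ε_il`),
`I := S17NGZ_I e`.

* `S17DN_dot_ev`, `S17DN_dot_evO` : `⟨X, ev P⟩` is the value of `φ_X = ∑ X_j e_j` at `P ≠ O`,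
  resp. `X il` at `O`;
* `S17DN_hV`     : every `x ≠ 0` of `V(I)` is `a • ev P`;
* `S17DN_bert`   : hypothesis `hbert` of `S17DN_ncz` (from `S17BC_off` / `S17BC_at`);
* `S17DN_ncz_curve` : (NCZ) for the curve;
* `S17DN_h2_curve`  : (H2) on `V(I)` for the curve;
* `S17DN_curve_psi` : DECC for the curve, complete: from the Chow form (bihomogeneous, (H1) at the
  points, zero cycles) the family `psi` (indexed by a finite set `S` of `T`-monomials) with
  `psi_bihom`, `h2`, `ncz` of `S17H_Curve` (`mon γ = ↑γ`, `mon_inj = Subtype.val_injective`).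
-/

set_option autoImplicit false
set_option linter.unusedSectionVars false
set_option linter.unusedVariables false
set_option linter.style.haveILetI false

open MvPolynomial AlgebraicCurve WithZero

namespace Fermat.Agent.S17

open Fermat.Agent.Lib

section curve

variable {Ω : Type} [Field Ω] {F : Type} [Field F] [Algebra Ω F] {ι : Type} [Fintype ι]

variable (h : RR_Hyp Ω F) (O : Place Ω F) (k : ℕ) (e : ι → F) (i0 il : ι)
  (hspan : Submodule.span Ω (Set.range e) = riemannRochSpace (Finsupp.single O (k : ℤ)))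
  (hli : LinearIndependent Ω e)
  (he0 : e i0 = 1)
  (hel : O.adicValuation (e il) = exp (k : ℤ))
  (helow : ∀ j, j ≠ il → O.adicValuation (e j) ≤ exp ((k : ℤ) - 1))

theorem S17DN_single_ne {P : Place Ω F} (hP : P ≠ O) :
    (Finsupp.single O (k : ℤ) : Divisor Ω F) P = 0 := by
  classical
  rw [Finsupp.single_apply, if_neg (Ne.symm hP)]

include h hspan in
/-- `⟨X, ev P⟩ = φ_X(P)` for `P ≠ O`. -/
theorem S17DN_dot_ev {P : Place Ω F} (hP : P ≠ O) (X : ι → Ω) :
    S17H_dot X (S17NGL_ev O e il P) = FD_c0 P (∑ j, X j • e j) := by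
  rw [S17NGL_ev_of_ne O e il hP,
    S17NGS_c0_sum h (fun P hP => S17DN_single_ne O k hP) (fun j => S17NGS_mem hspan j) hP X]
  rfl

/-- `⟨X, ev O⟩ = X il`. -/
theorem S17DN_dot_evO (X : ι → Ω) : S17H_dot X (S17NGL_ev O e il O) = X il := by
  classical
  unfold S17H_dot
  rw [Finset.sum_eq_single il]
  · rw [S17NGL_ev_O_il, mul_one]
  · intro j _ hj
    rw [S17NGL_ev_O_ne O e il j hj, mul_zero]
  · intro hh
    exact absurd (Finset.mem_univ il) hh

include hli in
theorem S17DN_phi_ne_zero {X : ι → Ω} (hX : X ≠ 0) : (∑ j, X j • e j) ≠ 0 := by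
  intro h0
  apply hX
  funext j
  exact Fintype.linearIndependent_iff.1 hli X h0 j

include hspan in
theorem S17DN_phi_reg {P : Place Ω F} (hP : P ≠ O) (X : ι → Ω) :
    P.adicValuation (∑ j, X j • e j) ≤ 1 := by
  have hmem : (∑ j, X j • e j) ∈ riemannRochSpace (Finsupp.single O (k : ℤ)) :=
    Submodule.sum_mem _ fun j _ => Submodule.smul_mem _ _ (S17NGS_mem hspan j)
  exact S17NGS_val_le_one (fun P hP => S17DN_single_ne O k hP) hP hmem

include helow in
theorem S17DN_hlt (j : ι) (hj : j ≠ il) : O.adicValuation (e j) < exp (k : ℤ) :=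
  lt_of_le_of_lt (helow j hj) (exp_lt_exp.2 (by omega))

include helow in
/-- `X il = 0 ⇒ ord_O φ_X > −k`. -/
theorem S17DN_val_O_lt {X : ι → Ω} (hX : X il = 0) :
    O.adicValuation (∑ j, X j • e j) < exp (k : ℤ) := by
  classical
  refine Valuation.map_sum_lt _ (by simp) fun j _ => ?_
  rw [Algebra.smul_def, map_mul]
  by_cases hj : j = il
  · rw [hj, hX, map_zero, map_zero, zero_mul]
    exact exp_pos
  · calc O.adicValuation (algebraMap Ω F (X j)) * O.adicValuation (e j)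
        ≤ 1 * O.adicValuation (e j) :=
          mul_le_mul_left (O.adicValuation_algebraMap_le_one _) _
      _ = O.adicValuation (e j) := one_mul _
      _ < exp (k : ℤ) := S17DN_hlt O k e il helow j hj

include h hspan he0 hel helow in
/-- every `x ≠ 0` of `V(I)` is a multiple of some `ev P`. -/
theorem S17DN_hV [Infinite Ω] (hk : 4 * RR_genus Ω F + 2 ≤ k) (x : ι → Ω)
    (hxI : x ∈ S17H_V (S17NGZ_I (K := Ω) e)) (hx : x ≠ 0) :
    ∃ (w : Place Ω F) (a : Ω), a ≠ 0 ∧ x = a • S17NGL_ev O e il w := by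
  classical
  have hB1 : (Finsupp.single O (((1 * k : ℕ)) : ℤ) : Divisor Ω F) = Finsupp.single O (k : ℤ) := by
    rw [one_mul]
  rcases S17NGZ_main_L h O k (by omega) e i0 il he0
    (fun n => (Finsupp.single O (((n * k : ℕ)) : ℤ) : Divisor Ω F))
    (fun n P hP => by rw [Finsupp.single_apply, if_neg (Ne.symm hP)])
    (fun n => by rw [Finsupp.single_eq_same])
    (fun j => by rw [hB1]; exact S17NGS_mem hspan j)
    hel helow
    (fun n hn f hf => S17NG_main h O e k hk (le_of_eq hspan.symm) n hn f hf) x hx hxI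
    with ⟨P, hP, c, hc, hxP⟩ | ⟨h1, h2⟩
  · refine ⟨P, c, hc, ?_⟩
    rw [hxP, S17NGL_ev_of_ne O e il hP]
  · refine ⟨O, x il, h1, ?_⟩
    funext j
    by_cases hj : j = il
    · rw [hj, Pi.smul_apply, S17NGL_ev_O_il, smul_eq_mul, mul_one]
    · rw [h2 j hj, Pi.smul_apply, S17NGL_ev_O_ne O e il j hj, smul_zero]

include h hspan hli helow in
/-- hypothesis `hbert` of `S17DN_ncz` for the curve. -/
theorem S17DN_bert [IsAlgClosed Ω] [CharZero Ω] (hk : 2 * RR_genus Ω F + 2 ≤ k)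
    (Q : Place Ω F) (c : ι → Ω) (hc : c ≠ 0) :
    ∃ (X₀ : ι → Ω) (s : Fin k → Place Ω F), Function.Injective s ∧ (∃ i₀, s i₀ = Q) ∧
      (∀ w, S17H_dot X₀ (S17NGL_ev O e il w) = 0 ↔ ∃ i, s i = w) ∧
      ∀ i, s i ≠ Q → S17H_dot c (S17NGL_ev O e il (s i)) ≠ 0 := by
  classical
  have hφc := S17DN_phi_ne_zero e hli hc
  have hfin : {P : Place Ω F | P.adicValuation (∑ j, c j • e j) < 1}.Finite :=
    S17DC_zeros_finite h.principal hφc
  have hSmem : ∀ P, P ≠ O → P ∉ hfin.toFinset → S17H_dot c (S17NGL_ev O e il P) ≠ 0 := by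
    intro P hP hPS h0
    apply hPS
    rw [Set.Finite.mem_toFinset]
    rw [S17DN_dot_ev h O k e il hspan hP c] at h0
    exact (FD_c0_eq_zero_iff P (h.deg_one P) (S17DN_phi_reg O k e hspan hP c)).1 h0
  have key : ∃ (X : ι → Ω) (P : Fin k → Place Ω F), (∑ j, X j • e j) ≠ 0 ∧
      Function.Injective P ∧ (∃ i, P i = Q) ∧ (∀ i, P i ≠ Q → P i ≠ O ∧ P i ∉ hfin.toFinset) ∧
      (∀ v : Place Ω F, (∑ i, Finsupp.single (P i) (1 : ℤ) : Divisor Ω F) v =
        v.ord (∑ j, X j • e j) + (Finsupp.single O (k : ℤ) : Divisor Ω F) v) ∧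
      ∀ i, S17H_dot X (S17NGL_ev O e il (P i)) = 0 := by
    by_cases hQ : Q = O
    · obtain ⟨X, P, hX0, hinj, hex, hXr, hS', hcyc, hdot⟩ :=
        S17BC_at h O k hk hspan il (S17DN_hlt O k e il helow) hfin.toFinset
      refine ⟨X, P, hX0, hinj, ?_, fun i hi => ?_, hcyc, fun i => ?_⟩
      · rw [hQ]; exact hex
      · rw [hQ] at hi
        exact ⟨hi, hS' i hi⟩
      · by_cases hi : P i = O
        · rw [hi, S17DN_dot_evO, hXr]
        · rw [S17NGL_ev_of_ne O e il hi]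
          exact hdot i hi
    · obtain ⟨X, P, hX0, hinj, hex, hPO, hS', hcyc, hdot⟩ :=
        S17BC_off h O k hk hspan Q hQ hfin.toFinset
      refine ⟨X, P, hX0, hinj, hex, fun i hi => ⟨hPO i, hS' i hi⟩, hcyc, fun i => ?_⟩
      rw [S17NGL_ev_of_ne O e il (hPO i)]
      exact hdot i
  obtain ⟨X, P, hX0, hinj, hex, hoff, hcyc, hdot⟩ := key
  refine ⟨X, P, hinj, hex, fun w => ⟨fun hw => ?_, ?_⟩,
    fun i hi => hSmem _ (hoff i hi).1 (hoff i hi).2⟩
  · apply S17BC_mem_range_of_pos P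
    rw [hcyc w]
    by_cases hwO : w = O
    · rw [hwO] at hw ⊢
      rw [S17DN_dot_evO] at hw
      have h1 := S17DN_val_O_lt O k e il helow hw
      rw [O.adicValuation_eq_exp_neg_ord hX0, exp_lt_exp] at h1
      rw [Finsupp.single_eq_same]
      omega
    · rw [S17DN_single_ne O k hwO, add_zero]
      rw [S17DN_dot_ev h O k e il hspan hwO X] at hw
      have h1 := (FD_c0_eq_zero_iff w (h.deg_one w) (S17DN_phi_reg O k e hspan hwO X)).1 hw
      rw [w.adicValuation_eq_exp_neg_ord hX0, ← exp_zero, exp_lt_exp] at h1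
      omega
  · rintro ⟨i, rfl⟩
    exact hdot i

include h hspan hli he0 hel helow in
/-- **(NCZ) for the curve.** -/
theorem S17DN_ncz_curve [IsAlgClosed Ω] [CharZero Ω] [Algebra.IsAlgebraic ℚ Ω]
    (hk : 4 * RR_genus Ω F + 2 ≤ k)
    (chow : MvPolynomial (ι ⊕ ι) Ω) (hchow : S17C_IsBihom chow k k)
    {Γ : Type} [Fintype Γ] (psi : Γ → MvPolynomial (ι ⊕ ι) Ω) (mon : Γ → (ι × ι →₀ ℕ))
    (hpsi : ∀ γ, S17C_IsBihom (psi γ) (k - 1) (k - 1))
    (h1 : ∀ (P : Place Ω F) (c X : ι → Ω), S17H_dot c (S17NGL_ev O e il P) = 0 →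
      S17H_dot X (S17NGL_ev O e il P) = 0 → eval (Sum.elim c X) chow = 0)
    (h2 : ∀ (P : Place Ω F) (c : ι → Ω) (T : ι × ι → Ω),
      eval (Sum.elim c (S17H_hat T (S17NGL_ev O e il P))) chow =
        S17H_dot c (S17NGL_ev O e il P) * eval T (S17H_psiT psi mon c (S17NGL_ev O e il P)))
    (hfact : ∀ c : ι → Ω, c ≠ 0 → ∃ v : Fin k → Place Ω F,
      S17H_Fact chow c (fun i => S17NGL_ev O e il (v i)) ∧
      ∀ i, S17H_dot c (S17NGL_ev O e il (v i)) = 0) :
    S17H_NCZ (S17NGZ_I (K := Ω) e) psi := by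
  classical
  have : Infinite Ω := IsAlgClosed.instInfinite
  have hdeg : 2 * (RR_genus Ω F : ℤ) + 2 ≤
      Divisor.degree (Finsupp.single O (k : ℤ) : Divisor Ω F) := by
    rw [Divisor.degree_single, h.deg_one]
    simp only [Nat.cast_one, mul_one]
    omega
  exact S17DN_ncz (S17NGL_ev O e il) _ chow hchow psi mon hpsi
    (fun x hxI hx => S17DN_hV h O k e i0 il hspan he0 hel helow hk x hxI hx)
    (S17NGL_ev_ne_zero O e i0 il he0)
    (fun w w' hww' => S17NGL_ev_inj h O k e i0 il he0 hel (by omega)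
      (Finsupp.single O (k : ℤ)) (fun P hP => S17DN_single_ne O k hP) hdeg hspan w w' hww')
    h1 h2 hfact
    (fun Q c hc => S17DN_bert h O k e il hspan hli helow (by omega) Q c hc)

include h hspan he0 hel helow in
/-- **(H2) on `V(I)` for the curve.** -/
theorem S17DN_h2_curve [CharZero Ω] [Algebra.IsAlgebraic ℚ Ω]
    (hk : 4 * RR_genus Ω F + 2 ≤ k)
    (chow : MvPolynomial (ι ⊕ ι) Ω) (hchow : S17C_IsBihom chow k k)
    {Γ : Type} [Fintype Γ] (psi : Γ → MvPolynomial (ι ⊕ ι) Ω) (mon : Γ → (ι × ι →₀ ℕ))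
    (hpsi : ∀ γ, S17C_IsBihom (psi γ) (k - 1) (k - 1))
    (h2 : ∀ (P : Place Ω F) (c : ι → Ω) (T : ι × ι → Ω),
      eval (Sum.elim c (S17H_hat T (S17NGL_ev O e il P))) chow =
        S17H_dot c (S17NGL_ev O e il P) * eval T (S17H_psiT psi mon c (S17NGL_ev O e il P))) :
    S17H_H2 (S17NGZ_I (K := Ω) e) chow psi mon :=
  S17DN_h2 (by omega) (S17NGL_ev O e il) _ chow hchow psi mon hpsi
    (fun x hxI hx => S17DN_hV h O k e i0 il hspan he0 hel helow hk x hxI hx) h2

theorem S17DN_evO_single [DecidableEq ι] : S17NGL_ev O e il O = Pi.single il 1 := by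
  funext j
  by_cases hj : j = il
  · rw [hj, S17NGL_ev_O_il, Pi.single_eq_same]
  · rw [S17NGL_ev_O_ne O e il j hj, Pi.single_eq_of_ne hj]

include h hspan hli he0 hel helow in
/-- **DECC for the curve, complete**: `Ψ̃` with (bihom), (H2) on `V(I)` and (NCZ). -/
theorem S17DN_curve_psi [IsAlgClosed Ω] [CharZero Ω] [Algebra.IsAlgebraic ℚ Ω] [DecidableEq ι]
    (hk : 4 * RR_genus Ω F + 2 ≤ k)
    (chow : MvPolynomial (ι ⊕ ι) Ω) (hchow : S17C_IsBihom chow k k)
    (h1 : ∀ (P : Place Ω F) (c X : ι → Ω), S17H_dot c (S17NGL_ev O e il P) = 0 →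
      S17H_dot X (S17NGL_ev O e il P) = 0 → eval (Sum.elim c X) chow = 0)
    (hfact : ∀ c : ι → Ω, c ≠ 0 → ∃ v : Fin k → Place Ω F,
      S17H_Fact chow c (fun i => S17NGL_ev O e il (v i)) ∧
      ∀ i, S17H_dot c (S17NGL_ev O e il (v i)) = 0) :
    ∃ (S : Finset (ι × ι →₀ ℕ)) (psi : ↥S → MvPolynomial (ι ⊕ ι) Ω),
      (∀ γ, S17C_IsBihom (psi γ) (k - 1) (k - 1)) ∧
      S17H_H2 (S17NGZ_I (K := Ω) e) chow psi (fun γ => (γ : ι × ι →₀ ℕ)) ∧
      S17H_NCZ (S17NGZ_I (K := Ω) e) psi := by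
  have : Infinite Ω := IsAlgClosed.instInfinite
  obtain ⟨S, psi, hpsi, hP, hO⟩ := S17DC_exists_psi h O k hk e hspan i0 il he0 hel chow hchow
    (fun P hP c X hc hX => h1 P c X (by rw [S17NGL_ev_of_ne O e il hP]; exact hc)
      (by rw [S17NGL_ev_of_ne O e il hP]; exact hX))
    (S17DN_hlt O k e il helow)
  have h2 : ∀ (P : Place Ω F) (c : ι → Ω) (T : ι × ι → Ω),
      eval (Sum.elim c (S17H_hat T (S17NGL_ev O e il P))) chow =
        S17H_dot c (S17NGL_ev O e il P) *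
          eval T (S17H_psiT psi (fun γ => (γ : ι × ι →₀ ℕ)) c (S17NGL_ev O e il P)) := by
    intro P c T
    by_cases hPO : P = O
    · rw [hPO, S17DN_evO_single O e il]
      exact hO c T
    · rw [S17NGL_ev_of_ne O e il hPO]
      exact hP P hPO c T
  exact ⟨S, psi, hpsi,
    S17DN_h2_curve h O k e i0 il hspan he0 hel helow hk chow hchow psi _ hpsi h2,
    S17DN_ncz_curve h O k e i0 il hspan hli he0 hel helow hk chow hchow psi _ hpsi h1 h2 hfact⟩

end curve

end Fermat.Agent.S17
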