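import Fermat.Agent.S17.CurveInst
import Fermat.Agent.S17.DeccNczCurve

/-!
# TRACK 8 (S17), heights pillar, package CURVE-INST, part 2 (helper7): `X`, unconditional

`S17CV_ncz`  : the NCZ input `S17CV_NczStmt` of `S17CV_exists`, from helper19's
               `S17DN_ncz_curve` and the zero cycles of CHOW (`S17CF_fact_dot` for `S17CC_data`);
`S17CV_main` : `∃ X : S17H_Curve Ω ι k, X.I = S17NGZ_I e ∧ X.chow = S17CV_chow …`
               without open hypotheses.
-/

set_option autoImplicit false
set_option linter.unusedSectionVars false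
set_option linter.unusedVariables false

open AlgebraicCurve WithZero MvPolynomial

namespace Fermat.Agent.S17

open Fermat.Agent.Lib

section curve

variable {Ω : Type} [Field Ω] [CharZero Ω] [IsAlgClosed Ω] {F : Type} [Field F] [Algebra Ω F]
  {ι : Type} [Fintype ι] [DecidableEq ι]

variable (h : RR_Hyp Ω F) (O : Place Ω F) (k : ℕ) (e : ι → F) (i0 il : ι)
  (he0 : e i0 = 1)
  (hereg : ∀ j, ∀ P : Place Ω F, P ≠ O → P.adicValuation (e j) ≤ 1)
  (hel : O.adicValuation (e il) = exp (k : ℤ))
  (helow : ∀ j, j ≠ il → O.adicValuation (e j) ≤ exp ((k : ℤ) - 1))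
  (hk : 1 ≤ k)
  (hli : LinearIndependent Ω e)

/-- `none ↦ O`, `some P ↦ P`. -/
def S17CV_pt : Option {P : Place Ω F // P ≠ O} → Place Ω F
  | none => O
  | some P => P.1

/-- the points of the completed curve in the spelling of CHOW and in the spelling of the model. -/
theorem S17CV_evO_eq (w : Option {P : Place Ω F // P ≠ O}) :
    S17CF_evO (S17CC_data h O k e i0 il he0 hereg hel helow hk hli) w =
      S17NGL_ev O e il (S17CV_pt O w) := by
  cases w with
  | none => exact (S17DN_evO_single O e il).symm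
  | some P => exact (S17NGL_ev_of_ne O e il P.2).symm

include hereg hli in
/-- **(M1')** the points of `Z c` are zeros of `c`. -/
theorem S17CV_M1' (c : ι → Ω) (hc : c ≠ 0) (P : {P : Place Ω F // P ≠ O})
    (hP : P ∈ S17CC_Z h O e c) : ∑ j, c j * S17NGZ_ev P.1 e j = 0 := by
  classical
  have hφ := S17CC_phi_ne_zero e hli c hc
  have h1 : 0 < (S17CC_Z h O e c).count P := Multiset.count_pos.2 hP
  rw [S17CC_Z1] at h1
  have h3 : 0 < P.1.ord (S17CC_phi e c) := by omega
  have h2 := (S17NF_val_lt_one_iff P.1 hφ).mpr h3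
  have h4 := (FD_c0_eq_zero_iff P.1 (h.deg_one P.1) (S17CC_phi_reg O e hereg c P.2)).mpr h2
  rw [S17CC_c0_phi h O e hereg P.2 c] at h4
  exact h4

/-- the zero cycles of the Chow form, as lists of places. -/
theorem S17CV_hfact (c : ι → Ω) (hc : c ≠ 0) :
    ∃ v : Fin k → Place Ω F,
      S17H_Fact (S17CV_chow h O k e i0 il he0 hereg hel helow hk hli) c
        (fun i => S17NGL_ev O e il (v i)) ∧
      ∀ i, S17H_dot c (S17NGL_ev O e il (v i)) = 0 := by
  obtain ⟨w, -, hF, hdot⟩ := S17CF_fact_dot
    (S17CC_data h O k e i0 il he0 hereg hel helow hk hli) rfl rfl hk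
    (S17CC_data_M1 h O k e i0 il he0 hereg hel helow hk hli)
    (fun c hc P hP => S17CV_M1' h O e hereg hli c hc P hP)
    (S17CC_data_M2 h O k e i0 il he0 hereg hel helow hk hli) c hc
  refine ⟨fun i => S17CV_pt O (w i), ?_, fun i => ?_⟩
  · have hfun : (fun i => S17NGL_ev O e il (S17CV_pt O (w i))) =
        fun i => S17CF_evO (S17CC_data h O k e i0 il he0 hereg hel helow hk hli) (w i) :=
      funext fun i => (S17CV_evO_eq h O k e i0 il he0 hereg hel helow hk hli (w i)).symm
    have hF' : S17H_Fact (S17CC_data h O k e i0 il he0 hereg hel helow hk hli).chowForm c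
        (fun i => S17NGL_ev O e il (S17CV_pt O (w i))) := by
      rw [hfun]
      exact hF
    exact hF'
  · rw [← S17CV_evO_eq h O k e i0 il he0 hereg hel helow hk hli (w i)]
    exact hdot i

variable [Algebra.IsAlgebraic ℚ Ω] (hk4 : 4 * RR_genus Ω F + 2 ≤ k)
  (hspan : Submodule.span Ω (Set.range e) = riemannRochSpace (Finsupp.single O (k : ℤ)))

include hk4 hspan in
/-- **(NCZ)** in the shape consumed by `S17CV_exists`. -/
theorem S17CV_ncz :
    S17CV_NczStmt O k e il (S17CV_chow h O k e i0 il he0 hereg hel helow hk hli) := by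
  intro S psi hpsi hP hO
  obtain ⟨hbi, -, h3, h4⟩ := S17CV_chow_spec h O k e i0 il he0 hereg hel helow hk hli
  have h1 : ∀ (P : Place Ω F) (c X : ι → Ω), S17H_dot c (S17NGL_ev O e il P) = 0 →
      S17H_dot X (S17NGL_ev O e il P) = 0 →
      eval (Sum.elim c X) (S17CV_chow h O k e i0 il he0 hereg hel helow hk hli) = 0 := by
    intro P c X hc hX
    by_cases hPO : P = O
    · subst hPO
      rw [S17DN_evO_single P e il] at hc hX
      exact h4 c X 1 one_ne_zero (by rwa [one_smul]) (by rwa [one_smul])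
    · rw [S17NGL_ev_of_ne O e il hPO] at hc hX
      exact h3 c X 1 P hPO one_ne_zero (by rwa [one_smul]) (by rwa [one_smul])
  have h2 : ∀ (P : Place Ω F) (c : ι → Ω) (T : ι × ι → Ω),
      eval (Sum.elim c (S17H_hat T (S17NGL_ev O e il P)))
          (S17CV_chow h O k e i0 il he0 hereg hel helow hk hli) =
        S17H_dot c (S17NGL_ev O e il P) *
          eval T (S17H_psiT psi (fun γ => (γ : ι × ι →₀ ℕ)) c (S17NGL_ev O e il P)) := by
    intro P c T
    by_cases hPO : P = O
    · rw [hPO, S17DN_evO_single O e il]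
      exact hO c T
    · rw [S17NGL_ev_of_ne O e il hPO]
      exact hP P hPO c T
  exact S17DN_ncz_curve h O k e i0 il hspan hli he0 hel helow hk4 _ hbi psi _ hpsi h1 h2
    (S17CV_hfact h O k e i0 il he0 hereg hel helow hk hli)

include hk4 hspan in
/-- **CURVE-INST, final**: the abstract curve data of the embedded curve. -/
theorem S17CV_main :
    ∃ X : S17H_Curve Ω ι k, X.I = S17NGZ_I (K := Ω) e ∧
      X.chow = S17CV_chow h O k e i0 il he0 hereg hel helow hk hli :=
  S17CV_exists h O k e i0 il he0 hereg hel helow hk hli hk4 hspan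
    (S17CV_ncz h O k e i0 il he0 hereg hel helow hk hli hk4 hspan)

end curve

end Fermat.Agent.S17
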