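import Fermat.Prelude.Def_ModularCurve_ArithmeticGalois
import Mathlib.Algebra.Ring.Action.Submonoid
import Mathlib.GroupTheory.Descent

/-!
# TRACK 8 "MW" (S17): top-level interface (helper17, captain)

`S17 = AddGroup.FG (J₀(N)(ℚ̄)^{G_ℚ})`.  This file fixes the EXACT statements of the three pillars and
proves the final assembly from them.  Every package of the track proves one
of the `Prop`s below (or a sub-statement listed in `NOTES/items/16_iface.md`).

* `S17_DIV N`     (PILLAR 1)  `Pic⁰(F_N)` is divisible.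
* `S17_WMW N`     (PILLAR 2)  `J(ℚ)/2J(ℚ)` is finite.
* `S17_Height N`  (PILLAR 3)  a nonnegative Northcott function on `J(ℚ)` with the parallelogram law
                              up to `O(1)`.
* `S17_of`        the assembly: `S17_WMW N → S17_Height N → AddGroup.FG (J(ℚ))`.
* `S17_Height2 N` (PILLAR 3, second form)  a Northcott `h` and a quasi-quadratic `q` with
                              `h ≤ q + C`; `S17_Height2.toHeight`.
-/

set_option autoImplicit false

open ModularCurve AlgebraicCurve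

namespace Fermat.Agent.S17

/-- `G_ℚ = Gal(ℚ̄/ℚ)`. -/
abbrev S17_GQ : Type := (AlgebraicClosure ℚ) ≃ₐ[ℚ] (AlgebraicClosure ℚ)

/-- `J(ℚ) := J₀(N)(ℚ̄)^{G_ℚ}`, exactly the subgroup of the frozen statement. -/
noncomputable abbrev S17_JQ (N : ℕ) [NeZero N] : AddSubgroup (JZero N) :=
  FixedPoints.addSubgroup S17_GQ (JZero N)

/-- **PILLAR 1 (DIV)**: `J₀(N)(ℚ̄) = Pic⁰(F_N)` is divisible. -/
def S17_DIV (N : ℕ) [NeZero N] : Prop :=
  ∀ n : ℕ, n ≠ 0 → ∀ x : JZero N, ∃ y : JZero N, n • y = x

/-- the part of (DIV) used by the chain: `2`-divisibility. -/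
def S17_DIV2 (N : ℕ) [NeZero N] : Prop :=
  ∀ x : JZero N, ∃ y : JZero N, 2 • y = x

theorem S17_DIV.div2 {N : ℕ} [NeZero N] (h : S17_DIV N) : S17_DIV2 N :=
  h 2 (by norm_num)

/-- **PILLAR 2 (WMW)**: `J(ℚ)/2J(ℚ)` is finite. -/
def S17_WMW (N : ℕ) [NeZero N] : Prop :=
  (nsmulAddMonoidHom (α := ↥(S17_JQ N)) 2).range.FiniteIndex

/-- **PILLAR 3 (HT)**: a nonnegative Northcott function on `J(ℚ)` satisfying the parallelogram
law up to a constant. -/
structure S17_Height (N : ℕ) [NeZero N] where
  /-- the height -/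
  q : ↥(S17_JQ N) → ℝ
  nonneg : ∀ x, 0 ≤ q x
  C : ℝ
  par : ∀ x y, |q (x + y) + q (x - y) - 2 * (q x + q y)| ≤ C
  northcott : Northcott q

/-- **ASSEMBLY**: (WMW) + (HT) ⇒ S17. -/
theorem S17_of (N : ℕ) [NeZero N] (hW : S17_WMW N) (H : S17_Height N) :
    AddGroup.FG ↥(S17_JQ N) := by
  have := H.northcott
  exact AddCommGroup.fg_of_descent' (h := H.q) (C := H.C) hW H.nonneg H.par

/-- **PILLAR 3, second form**: a Northcott function `h` (e.g. a projective height of a
finite-to-one map to `ℙⁿ(ℚ)`) and a function `q` with the parallelogram law up to `O(1)` which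
dominates `h`:  `h x ≤ A * q x + B`, `A > 0`.  (No upper bound for `q` is needed.) -/
structure S17_Height2 (N : ℕ) [NeZero N] where
  h : ↥(S17_JQ N) → ℝ
  q : ↥(S17_JQ N) → ℝ
  northcott : Northcott h
  C : ℝ
  par : ∀ x y, |q (x + y) + q (x - y) - 2 * (q x + q y)| ≤ C
  A : ℝ
  B : ℝ
  hA : 0 < A
  dom : ∀ x, h x ≤ A * q x + B
  hpos : ∀ x, 0 ≤ h x

/-- the second form gives the first: replace `q` by `q + B/A`. -/
noncomputable def S17_Height2.toHeight {N : ℕ} [NeZero N] (H : S17_Height2 N) : S17_Height N where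
  q := fun x => H.q x + H.B / H.A
  nonneg := by
    intro x
    have h1 := H.dom x
    have h2 := H.hpos x
    have hA := H.hA
    have : 0 ≤ H.A * (H.q x + H.B / H.A) := by
      have : H.A * (H.q x + H.B / H.A) = H.A * H.q x + H.B := by
        field_simp
      rw [this]; linarith
    exact nonneg_of_mul_nonneg_right this hA
  C := H.C + 2 * |H.B / H.A|
  par := by
    intro x y
    have h1 := H.par x y
    have e : (H.q (x + y) + H.B / H.A) + (H.q (x - y) + H.B / H.A)
        - 2 * ((H.q x + H.B / H.A) + (H.q y + H.B / H.A))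
        = (H.q (x + y) + H.q (x - y) - 2 * (H.q x + H.q y)) + (-(2 * (H.B / H.A))) := by ring
    rw [e]
    calc |(H.q (x + y) + H.q (x - y) - 2 * (H.q x + H.q y)) + (-(2 * (H.B / H.A)))|
        ≤ |H.q (x + y) + H.q (x - y) - 2 * (H.q x + H.q y)| + |-(2 * (H.B / H.A))| :=
          abs_add_le _ _
      _ ≤ H.C + 2 * |H.B / H.A| := by
          rw [abs_neg, abs_mul, abs_two]
          linarith
  northcott := by
    refine ⟨fun b => ?_⟩
    have hN := H.northcott
    refine (hN.finite_le (H.A * b)).subset ?_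
    intro x hx
    have hx' : H.q x + H.B / H.A ≤ b := hx
    have h1 := H.dom x
    have hA := H.hA
    show H.h x ≤ H.A * b
    have : H.A * (H.q x + H.B / H.A) ≤ H.A * b := mul_le_mul_of_nonneg_left hx' hA.le
    have e : H.A * (H.q x + H.B / H.A) = H.A * H.q x + H.B := by field_simp
    rw [e] at this
    linarith

/-- S17 from (WMW) and the second form of (HT). -/
theorem S17_of' (N : ℕ) [NeZero N] (hW : S17_WMW N) (H : S17_Height2 N) :
    AddGroup.FG ↥(S17_JQ N) :=
  S17_of N hW H.toHeight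

end Fermat.Agent.S17
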