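import Mathlib
import Fermat.Agent.S17.Iface
import Fermat.Agent.GalRep.KMFinal
import Fermat.Agent.GalRep.Fin
import Fermat.Agent.Lib.RiemannCharZero

/-!
# TRACK 8 "MW" (S17), pillar WMW, package STAB (helper21)

`J = JZero N = Pic⁰(F)`, `F = modularFunctionFieldBar N`, `G = Gal(ℚ̄/ℚ)`.

* `S17ST_tors_finite`   : `J[n]` is finite for every `n > 0` (KAPPA: `J[n] ↪ Hom(Γ₀(N), ℤ/n)`).
* `S17ST_tors2_finite`  : `J[2]` is finite.
* `S17ST_exists_single_zero` : (abstract, `RR_Hyp`) every place is the only zero of some function.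
* `S17ST_place_stab`    : the stabiliser of a place of `F` is open.
* `S17ST_divisor_stab`  : the stabiliser of a divisor of `F` is open.
* `S17ST_open_stab`     : the stabiliser of a point of `J` is open.
* `S17ST_finset_stab`   : a finite set of points of `J` is fixed pointwise by the Galois group of a
                          finite NORMAL extension of `ℚ`.
* `S17ST_tors_stab`, `S17ST_tors2_stab` : `J[n]`, `J[2]` are fixed pointwise by the Galois group of
                          a finite normal extension `K'` of `ℚ`.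
-/

set_option autoImplicit false
set_option linter.style.haveILetI false

open ModularCurve AlgebraicCurve CongruenceSubgroup IntermediateField
open scoped MatrixGroups

namespace Fermat.Agent.S17

open Fermat.Agent.GalRep Fermat.Agent.Lib

/-! ### (b) open stabilisers -/

section Abstract

variable {K F : Type*} [Field K] [Field F] [Algebra K F]

/-- every place is the only zero of some function (Riemann's inequality). -/
theorem S17ST_exists_single_zero (h : RR_Hyp K F) (P : Place K F) :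
    ∃ f : F, f ≠ 0 ∧ 0 < P.ord f ∧ ∀ v : Place K F, v ≠ P → v.ord f ≤ 0 := by
  classical
  have hdeg := h.deg_one
  have hP := h.principal
  set g : ℕ := RR_genus K F with hg
  set D : Divisor K F := Finsupp.single P ((g + 1 : ℕ) : ℤ) with hD
  have hD0 : (0 : Divisor K F) ≤ D := RR_single_nonneg P (g + 1)
  have hDdeg : D.degree = (g : ℤ) + 1 := by
    rw [hD, Divisor.degree_single, hdeg P]
    push_cast
    ring
  have h1 := RR_riemann_ineq h D
  rw [hDdeg] at h1
  have h2 : (2 : ℤ) ≤ Module.finrank K (riemannRochSpace D) := by linarith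
  have h0 : Module.finrank K (riemannRochSpace (0 : Divisor K F)) = 1 :=
    RR_finrank_zero hdeg hP P
  have hle : riemannRochSpace (0 : Divisor K F) ≤ riemannRochSpace D := RR_mono hD0
  obtain ⟨h₀, hmem, hnot⟩ : ∃ h₀ : F, h₀ ∈ riemannRochSpace D ∧
      h₀ ∉ riemannRochSpace (0 : Divisor K F) := by
    by_contra hcon
    push Not at hcon
    have heq : riemannRochSpace D = riemannRochSpace (0 : Divisor K F) :=
      le_antisymm (fun x hx => hcon x hx) hle
    rw [heq, h0] at h2
    norm_num at h2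
  have hne : h₀ ≠ 0 := fun h0' => hnot (h0' ▸ Submodule.zero_mem _)
  rw [mem_riemannRochSpace_iff] at hmem hnot
  have hv : ∀ v : Place K F, v ≠ P → 0 ≤ v.ord h₀ := by
    intro v hvP
    rcases hmem v with h' | h'
    · exact absurd h' hne
    · rw [hD, Finsupp.single_apply, if_neg (fun e => hvP e.symm)] at h'
      simpa using h'
  have hPneg : P.ord h₀ < 0 := by
    by_contra hcon
    push Not at hcon
    apply hnot
    intro v
    right
    by_cases hvP : v = P
    · subst hvP
      simpa using hcon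
    · simpa using hv v hvP
  refine ⟨h₀⁻¹, inv_ne_zero hne, ?_, fun v hvP => ?_⟩
  · rw [Place.ord_inv]
    linarith
  · rw [Place.ord_inv]
    have := hv v hvP
    linarith

end Abstract

/-- Riemann's theorem for `F = ℚ̄(X₀(N))`. -/
theorem S17ST_hRR (N : ℕ) [NeZero N] :
    RR_Hyp (AlgebraicClosure ℚ) ↥(modularFunctionFieldBar N) := by
  have := Fermat.Agent.S24.finiteDimensional_jB N
  exact RR_hyp_of_charZero (Fermat.Agent.S24.transcendental_jB N)

/-- the stabiliser of a place of `F` is open. -/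
theorem S17ST_place_stab (N : ℕ) [NeZero N]
    (P : Place (AlgebraicClosure ℚ) ↥(modularFunctionFieldBar N)) :
    ∃ L : IntermediateField ℚ (AlgebraicClosure ℚ), FiniteDimensional ℚ L ∧
      ∀ σ : S17_GQ, (∀ a ∈ L, σ a = a) →
        arithmeticGalois (modularFunctionFieldFull N) σ • P = P := by
  obtain ⟨f, hf0, hfP, hfv⟩ := S17ST_exists_single_zero (S17ST_hRR N) P
  obtain ⟨L, hL, hLσ⟩ := GRF_exists_level N f
  refine ⟨L, hL, fun σ hσ => ?_⟩
  by_contra hne
  have h1 := hfv _ hne
  have h2 := SemilinearAut.ord_smul (arithmeticGalois (modularFunctionFieldFull N) σ) P f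
  have h3 : arithmeticGalois (modularFunctionFieldFull N) σ • f = f := hLσ σ hσ
  rw [h3] at h2
  rw [h2] at h1
  linarith

/-- the stabiliser of a divisor of `F` is open. -/
theorem S17ST_divisor_stab (N : ℕ) [NeZero N]
    (D : Divisor (AlgebraicClosure ℚ) ↥(modularFunctionFieldBar N)) :
    ∃ L : IntermediateField ℚ (AlgebraicClosure ℚ), FiniteDimensional ℚ L ∧
      ∀ σ : S17_GQ, (∀ a ∈ L, σ a = a) →
        arithmeticGalois (modularFunctionFieldFull N) σ • D = D := by
  induction D using Finsupp.induction_linear with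
  | zero => exact ⟨⊥, inferInstance, fun σ _ => smul_zero _⟩
  | add D E hD hE =>
      obtain ⟨L₁, h1, h1'⟩ := hD
      obtain ⟨L₂, h2, h2'⟩ := hE
      refine ⟨L₁ ⊔ L₂, IntermediateField.finiteDimensional_sup L₁ L₂, fun σ hσ => ?_⟩
      rw [smul_add, h1' σ (fun c hc => hσ c ((le_sup_left : L₁ ≤ L₁ ⊔ L₂) hc)),
        h2' σ (fun c hc => hσ c ((le_sup_right : L₂ ≤ L₁ ⊔ L₂) hc))]
  | single P n =>
      obtain ⟨L, hL, hLσ⟩ := S17ST_place_stab N P
      refine ⟨L, hL, fun σ hσ => ?_⟩
      rw [SemilinearAut.smul_single, hLσ σ hσ]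

/-- **STAB (b)**: the stabiliser of a point of `J₀(N)` is open. -/
theorem S17ST_open_stab (N : ℕ) [NeZero N] (y : JZero N) :
    ∃ L : IntermediateField ℚ (AlgebraicClosure ℚ), FiniteDimensional ℚ L ∧
      ∀ σ : S17_GQ, (∀ a ∈ L, σ a = a) → σ • y = y := by
  obtain ⟨D, rfl⟩ := Pic0.mk_surjective y
  obtain ⟨L, hL, hLσ⟩ := S17ST_divisor_stab N (D : Divisor _ _)
  refine ⟨L, hL, fun σ hσ => ?_⟩
  rw [galois_smul_pic0_def, SemilinearAut.pic0_smul_mk]
  congr 1
  apply Subtype.ext
  rw [SemilinearAut.coe_degZeroSMulHom]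
  exact hLσ σ hσ

/-- a finite set of points of `J₀(N)` is fixed pointwise by the Galois group of a finite normal
extension of `ℚ`. -/
theorem S17ST_finset_stab (N : ℕ) [NeZero N] (T : Set (JZero N)) (hT : T.Finite) :
    ∃ K' : IntermediateField ℚ (AlgebraicClosure ℚ), FiniteDimensional ℚ K' ∧ Normal ℚ K' ∧
      ∀ σ : S17_GQ, (∀ a ∈ K', σ a = a) → ∀ z ∈ T, σ • z = z := by
  suffices h : ∃ L : IntermediateField ℚ (AlgebraicClosure ℚ), FiniteDimensional ℚ L ∧
      ∀ σ : S17_GQ, (∀ a ∈ L, σ a = a) → ∀ z ∈ T, σ • z = z by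
    obtain ⟨L, hL, hLσ⟩ := h
    haveI : IsAlgClosure ℚ (AlgebraicClosure ℚ) := ⟨inferInstance, AlgebraicClosure.isAlgebraic ℚ⟩
    haveI : Normal ℚ (AlgebraicClosure ℚ) := IsAlgClosure.normal ℚ (AlgebraicClosure ℚ)
    refine ⟨normalClosure ℚ L (AlgebraicClosure ℚ),
      normalClosure.is_finiteDimensional ℚ L (AlgebraicClosure ℚ),
      normalClosure.normal ℚ L (AlgebraicClosure ℚ), fun σ hσ z hz => hLσ σ (fun a ha => ?_) z hz⟩
    exact hσ a (IntermediateField.le_normalClosure L ha)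
  induction T, hT using Set.Finite.induction_on with
  | empty => exact ⟨⊥, inferInstance, fun σ _ z hz => absurd hz (Set.notMem_empty z)⟩
  | @insert y T _ _ ih =>
      obtain ⟨L₁, h1, h1'⟩ := ih
      obtain ⟨L₂, h2, h2'⟩ := S17ST_open_stab N y
      refine ⟨L₁ ⊔ L₂, IntermediateField.finiteDimensional_sup L₁ L₂, fun σ hσ z hz => ?_⟩
      rcases Set.mem_insert_iff.1 hz with rfl | hz
      · exact h2' σ (fun c hc => hσ c ((le_sup_right : L₂ ≤ L₁ ⊔ L₂) hc))
      · exact h1' σ (fun c hc => hσ c ((le_sup_left : L₁ ≤ L₁ ⊔ L₂) hc)) z hz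

/-! ### (a) finiteness of `J[n]` -/

section Tors

variable {K F : Type*} [Field K] [Field F] [Algebra K F]

/-- a class killed by `n` has a Kummer generator: `n D = div f`. -/
theorem S17ST_exists_gen (n : ℕ) (D : Divisor.degZero (K := K) (F := F))
    (h : n • Pic0.mk D = 0) :
    ∃ f : F, f ≠ 0 ∧ ∀ v : Place K F, (n : ℤ) * (D : Divisor K F) v = v.ord f := by
  have h1 : ((n • D : Divisor.degZero (K := K) (F := F)) : Pic0 K F) = 0 := h
  rw [QuotientAddGroup.eq_zero_iff, AddSubgroup.mem_addSubgroupOf, Divisor.mem_principal] at h1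
  obtain ⟨f, hf0, hf⟩ := h1
  refine ⟨f, hf0, fun v => ?_⟩
  rw [← hf v]
  simp

/-- a divisor of degree `0` which is the divisor of a function has trivial class. -/
theorem S17ST_mk_eq_zero (D : Divisor.degZero (K := K) (F := F)) (g : F) (hg : g ≠ 0)
    (h : ∀ v : Place K F, (D : Divisor K F) v = v.ord g) : Pic0.mk D = 0 := by
  show ((D : Divisor.degZero (K := K) (F := F)) : Pic0 K F) = 0
  rw [QuotientAddGroup.eq_zero_iff, AddSubgroup.mem_addSubgroupOf, Divisor.mem_principal]
  exact ⟨g, hg, h⟩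

theorem S17ST_ord_pow (v : Place K F) (f : F) (n : ℕ) : v.ord (f ^ n) = n * v.ord f := by
  rw [← zpow_natCast, Place.ord_zpow]

end Tors

open Fermat.Agent.S24 in
/-- the key injectivity: two classes killed by `n` whose Kummer generators have the same Kummer
character are equal. -/
theorem S17ST_eq_of_char (N n : ℕ) [NeZero N] (hn : 0 < n)
    (D D' : Divisor.degZero (K := AlgebraicClosure ℚ) (F := ↥(modularFunctionFieldBar N)))
    (f f' : ↥(modularFunctionFieldBar N)) (hf0 : f ≠ 0) (hf0' : f' ≠ 0)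
    (hf : ∀ v : Place (AlgebraicClosure ℚ) ↥(modularFunctionFieldBar N),
      (n : ℤ) * (D : Divisor _ _) v = v.ord f)
    (hf' : ∀ v : Place (AlgebraicClosure ℚ) ↥(modularFunctionFieldBar N),
      (n : ℤ) * (D' : Divisor _ _) v = v.ord f')
    (χ : Additive (Gamma0 N) →+ ZMod n) (hχ : GR_KChar N n f χ) (hχ' : GR_KChar N n f' χ) :
    Pic0.mk D = Pic0.mk D' := by
  have κ := KMF_kappa_final N
  -- the character of `f' ^ k`
  have hpow : ∀ k : ℕ, GR_KChar N n (f' ^ k) (k • χ) := by
    intro k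
    induction k with
    | zero =>
        rw [pow_zero, zero_smul]
        exact κ.triv n hn 1 ⟨1, 1, one_ne_zero, one_ne_zero, by simp⟩
    | succ k ih =>
        rw [pow_succ, succ_nsmul]
        exact κ.mul n _ _ _ _ ih hχ'
  have hnχ : χ + (n - 1) • χ = 0 := by
    have : χ + (n - 1) • χ = n • χ := by
      rw [add_comm, ← succ_nsmul, Nat.sub_add_cancel hn]
    rw [this]
    ext γ
    simp
  have hh := κ.mul n f (f' ^ (n - 1)) χ ((n - 1) • χ) hχ (hpow (n - 1))
  rw [hnχ] at hh
  have hpow0 : f' ^ (n - 1) ≠ 0 := pow_ne_zero _ hf0'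
  have hord : ∀ v : Place (AlgebraicClosure ℚ) ↥(modularFunctionFieldBar N),
      v.ord (f * f' ^ (n - 1)) =
        (n : ℤ) * ((D : Divisor _ _) v + ((n - 1 : ℕ) : ℤ) * (D' : Divisor _ _) v) := by
    intro v
    rw [v.ord_mul hf0 hpow0, S17ST_ord_pow, ← hf v, ← hf' v]
    ring
  have hK : KM_IsKum (AlgebraicClosure ℚ) ↥(modularFunctionFieldBar N) n (f * f' ^ (n - 1)) :=
    ⟨mul_ne_zero hf0 hpow0, fun v => ⟨_, hord v⟩⟩
  obtain ⟨c, g, hc, hg, e⟩ := κ.inj n hn _ hK hh
  have hordg : ∀ v : Place (AlgebraicClosure ℚ) ↥(modularFunctionFieldBar N),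
      ((D + (n - 1) • D' : Divisor.degZero (K := AlgebraicClosure ℚ)
        (F := ↥(modularFunctionFieldBar N))) : Divisor _ _) v = v.ord g := by
    intro v
    have h1 := hord v
    rw [e, v.ord_mul ((map_ne_zero _).mpr hc) (pow_ne_zero _ hg), (S24_isVal_ord v).const c hc,
      zero_add, S17ST_ord_pow] at h1
    have hn0 : (n : ℤ) ≠ 0 := by exact_mod_cast hn.ne'
    have h2 := mul_left_cancel₀ hn0 h1
    rw [h2]
    simp
  have hz := S17ST_mk_eq_zero _ g hg hordg
  have hz' : n • Pic0.mk D' = 0 := by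
    have : n • Pic0.mk D' = Pic0.mk (n • D') := rfl
    rw [this]
    refine S17ST_mk_eq_zero _ f' hf0' (fun v => ?_)
    rw [← hf' v]
    simp
  have hsum : Pic0.mk D + (n - 1) • Pic0.mk D' = 0 := hz
  have h3 : n • Pic0.mk D' = (n - 1) • Pic0.mk D' + Pic0.mk D' := by
    rw [← succ_nsmul, Nat.sub_add_cancel hn]
  rw [h3] at hz'
  have : Pic0.mk D - Pic0.mk D' = 0 := by
    have := congrArg₂ (· - ·) hsum hz'
    simp only [sub_zero] at this
    rw [← this]
    abel
  exact sub_eq_zero.1 this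

/-- **STAB (a)**: `J₀(N)[n]` is finite. -/
theorem S17ST_tors_finite (N n : ℕ) [NeZero N] (hn : 0 < n) :
    {z : JZero N | n • z = 0}.Finite := by
  classical
  have κ := KMF_kappa_final N
  haveI := KMF_finite_char N n hn
  have hex : ∀ z : {z : JZero N | n • z = 0},
      ∃ χ : Additive (Gamma0 N) →+ ZMod n,
        ∃ (D : Divisor.degZero (K := AlgebraicClosure ℚ) (F := ↥(modularFunctionFieldBar N)))
          (f : ↥(modularFunctionFieldBar N)), Pic0.mk D = (z : JZero N) ∧ f ≠ 0 ∧
          (∀ v : Place (AlgebraicClosure ℚ) ↥(modularFunctionFieldBar N),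
            (n : ℤ) * (D : Divisor _ _) v = v.ord f) ∧ GR_KChar N n f χ := by
    rintro ⟨z, hz⟩
    obtain ⟨D, rfl⟩ := Pic0.mk_surjective z
    obtain ⟨f, hf0, hf⟩ := S17ST_exists_gen n D hz
    obtain ⟨χ, -, hχ⟩ := κ.ex n hn f ⟨hf0, fun v => ⟨_, (hf v).symm⟩⟩
    exact ⟨χ, D, f, rfl, hf0, hf, hχ⟩
  choose φ hφ using hex
  have hinj : Function.Injective φ := by
    intro z z' hzz
    obtain ⟨D, f, hD, hf0, hf, hχ⟩ := hφ z
    obtain ⟨D', f', hD', hf0', hf', hχ'⟩ := hφ z'
    rw [← hzz] at hχ'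
    apply Subtype.ext
    rw [← hD, ← hD']
    exact S17ST_eq_of_char N n hn D D' f f' hf0 hf0' hf hf' (φ z) hχ hχ'
  have : Finite {z : JZero N | n • z = 0} := Finite.of_injective φ hinj
  exact Set.toFinite _

/-- **STAB (a)**: `J₀(N)[2]` is finite. -/
theorem S17ST_tors2_finite (N : ℕ) [NeZero N] : {z : JZero N | 2 • z = 0}.Finite :=
  S17ST_tors_finite N 2 (by norm_num)

/-- **STAB (c)**: `J₀(N)[n]` is fixed pointwise by the Galois group of a finite normal extension
of `ℚ`. -/
theorem S17ST_tors_stab (N n : ℕ) [NeZero N] (hn : 0 < n) :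
    ∃ K' : IntermediateField ℚ (AlgebraicClosure ℚ), FiniteDimensional ℚ K' ∧ Normal ℚ K' ∧
      ∀ σ : S17_GQ, (∀ a ∈ K', σ a = a) → ∀ z : JZero N, n • z = 0 → σ • z = z :=
  S17ST_finset_stab N _ (S17ST_tors_finite N n hn)

/-- **STAB (c)** for `n = 2`. -/
theorem S17ST_tors2_stab (N : ℕ) [NeZero N] :
    ∃ K' : IntermediateField ℚ (AlgebraicClosure ℚ), FiniteDimensional ℚ K' ∧ Normal ℚ K' ∧
      ∀ σ : S17_GQ, (∀ a ∈ K', σ a = a) → ∀ z : JZero N, 2 • z = 0 → σ • z = z :=
  S17ST_tors_stab N 2 (by norm_num)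

end Fermat.Agent.S17
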