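import Mathlib
import Fermat.Agent.S17.Iface
import Fermat.Agent.S17.Stab
import Fermat.Agent.Lib.CuspEmb
import Fermat.Agent.Lib.DiffExpand

/-!
# TRACK 8 "MW" (S17), pillar HEIGHTS, package EMB (helper20): the rational cusp `O = ∞`

`F = modularFunctionFieldBar N ⊂ ℚ̄((q))`, `G = Gal(ℚ̄/ℚ)` acting on the `q`-expansion coefficients.

* `S17EM_O N`        : the cusp `∞`, i.e. the place of `F` attached to the `q`-adic order;
* `S17EM_ord_O`      : `ord_O f` is the order of the `q`-expansion of `f`;
* `S17EM_smul_O`     : `σ • O = O` for all `σ ∈ G`;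
-/

set_option autoImplicit false
set_option linter.style.haveILetI false
set_option linter.unusedVariables false
set_option linter.unusedSectionVars false

open ModularCurve AlgebraicCurve HahnSeries

namespace Fermat.Agent.S17

open Fermat.Agent.GalRep Fermat.Agent.Lib Fermat.Agent.S24

noncomputable section

local notation "ℚbar" => AlgebraicClosure ℚ

variable (N : ℕ) [NeZero N]

/-- the `q`-adic order on `F`. -/
def S17EM_w (f : ↥(modularFunctionFieldBar N)) : ℤ :=
  CU_w (modularFunctionFieldBar N).val f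

theorem S17EM_w_def (f : ↥(modularFunctionFieldBar N)) :
    S17EM_w N f = (f : LaurentSeries ℚbar).order := rfl

theorem S17EM_w_isVal : IsVal (K := ℚbar) (S17EM_w N) :=
  CU_w_isVal (modularFunctionFieldBar N).val

/-- the `q`-expansion of `j` has order `-1`. -/
theorem S17EM_order_jB : S17EM_w N (jB N) = -1 := by
  rw [S17EM_w_def]
  have hcoe : ((jB N : ↥(modularFunctionFieldBar N)) : LaurentSeries ℚbar) =
      coeffEmb ℚbar (qExpand ℚ 1 jq) := rfl
  rw [hcoe, qExpand_one_apply]
  have h1 : (coeffEmb ℚbar jq).coeff (-1) = 1 := by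
    rw [coeffEmb_coeff, coeff_jq_neg_one, map_one]
  have hne : coeffEmb ℚbar jq ≠ 0 := by
    intro h0
    rw [h0] at h1
    simp at h1
  apply le_antisymm
  · exact HahnSeries.order_le_of_coeff_ne_zero (by rw [h1]; exact one_ne_zero)
  · by_contra hlt
    push Not at hlt
    have h2 : (coeffEmb ℚbar jq).coeff (coeffEmb ℚbar jq).order ≠ 0 :=
      mt HahnSeries.coeff_order_eq_zero.mp hne
    apply h2
    rw [coeffEmb_coeff, coeff_jq_of_lt hlt, map_zero]

theorem S17EM_jB_ne_zero : jB N ≠ 0 := by
  intro h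
  have h1 := S17EM_order_jB N
  rw [h, S17EM_w_def] at h1
  simp at h1

/-- the cusp `∞` of `X₀(N)`: the place of the `q`-adic order. -/
def S17EM_O : Place ℚbar ↥(modularFunctionFieldBar N) :=
  (S17EM_w_isVal N).place (jB N)⁻¹ (inv_ne_zero (S17EM_jB_ne_zero N))
    (by rw [(S17EM_w_isVal N).inv (S17EM_jB_ne_zero N), S17EM_order_jB]; norm_num)

/-- `ord_O` is the order of the `q`-expansion. -/
theorem S17EM_ord_O {f : ↥(modularFunctionFieldBar N)} (hf : f ≠ 0) :
    (S17EM_O N).ord f = (f : LaurentSeries ℚbar).order := by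
  obtain ⟨m, hm, _, hmf⟩ := (S17EM_w_isVal N).exists_mul_ord (jB N)⁻¹
    (inv_ne_zero (S17EM_jB_ne_zero N))
    (by rw [(S17EM_w_isVal N).inv (S17EM_jB_ne_zero N), S17EM_order_jB]; norm_num)
  have h1 := hmf (jB N)⁻¹ (inv_ne_zero (S17EM_jB_ne_zero N))
  have h1' : S17EM_w N (jB N)⁻¹ = 1 := by
    rw [(S17EM_w_isVal N).inv (S17EM_jB_ne_zero N), S17EM_order_jB, neg_neg]
  have hm1 : m = 1 := by
    have hdvd : m ∣ 1 := ⟨_, h1'.symm.trans h1⟩
    exact Int.eq_one_of_dvd_one hm.le hdvd
  have h2 := hmf f hf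
  rw [hm1, one_mul] at h2
  rw [← S17EM_w_def, h2]
  rfl

/-- membership in the valuation ring of `O`. -/
theorem S17EM_mem_O_iff {f : ↥(modularFunctionFieldBar N)} :
    f ∈ (S17EM_O N).toValuationSubring ↔ f = 0 ∨ 0 ≤ (f : LaurentSeries ℚbar).order :=
  Iff.rfl

/-! ### Galois invariance of `O` -/

/-- an injective coefficient map preserves the order. -/
theorem S17EM_order_coeffMap {R S : Type*} [Field R] [Field S] (φ : R →+* S)
    (x : LaurentSeries R) : (coeffMap φ x).order = x.order := by
  by_cases hx : x = 0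
  · rw [hx, map_zero, HahnSeries.order_zero, HahnSeries.order_zero]
  have hne : coeffMap φ x ≠ 0 := by
    intro h0
    apply hx
    have := (coeffMap φ).injective (h0.trans (map_zero (coeffMap φ)).symm)
    exact this
  apply le_antisymm
  · apply HahnSeries.order_le_of_coeff_ne_zero
    rw [coeffMap_coeff]
    intro h0
    exact (mt HahnSeries.coeff_order_eq_zero.mp hx) ((map_eq_zero φ).mp h0)
  · apply HahnSeries.order_le_of_coeff_ne_zero
    intro h0
    apply mt HahnSeries.coeff_order_eq_zero.mp hne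
    rw [coeffMap_coeff, h0, map_zero]

/-- the Galois action preserves the `q`-adic order. -/
theorem S17EM_w_smul (σ : S17_GQ) (f : ↥(modularFunctionFieldBar N)) :
    S17EM_w N (arithmeticGalois (modularFunctionFieldFull N) σ • f) = S17EM_w N f := by
  rw [S17EM_w_def, S17EM_w_def, coe_arithmeticGalois_smul, S17EM_order_coeffMap]

theorem S17EM_gal_ne_zero (σ : S17_GQ) {f : ↥(modularFunctionFieldBar N)} (hf : f ≠ 0) :
    arithmeticGalois (modularFunctionFieldFull N) σ • f ≠ 0 := by
  intro h0
  apply hf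
  have := congrArg (fun x => (arithmeticGalois (modularFunctionFieldFull N) σ)⁻¹ • x) h0
  simpa using this

/-- **the cusp `∞` is rational**: `σ • O = O`. -/
theorem S17EM_smul_O (σ : S17_GQ) :
    arithmeticGalois (modularFunctionFieldFull N) σ • S17EM_O N = S17EM_O N := by
  apply Place.ext
  rw [SemilinearAut.smul_toValuationSubring]
  ext f
  rw [ValuationSubring.mem_pointwise_smul_iff_inv_smul_mem, S17EM_mem_O_iff, S17EM_mem_O_iff,
    ← map_inv, ← S17EM_w_def, S17EM_w_smul, S17EM_w_def]
  constructor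
  · rintro (h | h)
    · left
      by_contra hf
      exact S17EM_gal_ne_zero N σ⁻¹ hf h
    · right; exact h
  · rintro (h | h)
    · left; rw [h, smul_zero]
    · right; exact h

/-- `ord_O (σ • f) = ord_O f`. -/
theorem S17EM_ord_O_smul (σ : S17_GQ) (f : ↥(modularFunctionFieldBar N)) :
    (S17EM_O N).ord (arithmeticGalois (modularFunctionFieldFull N) σ • f) = (S17EM_O N).ord f := by
  have h := SemilinearAut.ord_smul (arithmeticGalois (modularFunctionFieldFull N) σ)
    (S17EM_O N) f
  rwa [S17EM_smul_O] at h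

/-! ### `L(kO)` is Galois stable -/

/-- the divisor `k·O`. -/
def S17EM_D (k : ℕ) : Divisor ℚbar ↥(modularFunctionFieldBar N) :=
  Finsupp.single (S17EM_O N) (k : ℤ)

theorem S17EM_D_eq (k : ℕ) :
    S17EM_D N k = k • (Finsupp.single (S17EM_O N) (1 : ℤ)) := by
  rw [S17EM_D, Finsupp.smul_single, nsmul_eq_mul, mul_one]

theorem S17EM_D_apply_smul (k : ℕ) (σ : S17_GQ)
    (v : Place ℚbar ↥(modularFunctionFieldBar N)) :
    S17EM_D N k (arithmeticGalois (modularFunctionFieldFull N) σ • v) = S17EM_D N k v := by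
  classical
  unfold S17EM_D
  rw [Finsupp.single_apply, Finsupp.single_apply]
  by_cases h : S17EM_O N = v
  · rw [if_pos h, if_pos]
    rw [← h, S17EM_smul_O]
  · rw [if_neg h, if_neg]
    intro h'
    apply h
    have h2 := congrArg (fun w => (arithmeticGalois (modularFunctionFieldFull N) σ)⁻¹ • w) h'
    simp only [inv_smul_smul] at h2
    rw [← h2, ← map_inv, S17EM_smul_O]

/-- `L(kO)` is stable under the Galois action. -/
theorem S17EM_smul_mem (k : ℕ) (σ : S17_GQ) {f : ↥(modularFunctionFieldBar N)}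
    (hf : f ∈ riemannRochSpace (S17EM_D N k)) :
    arithmeticGalois (modularFunctionFieldFull N) σ • f ∈ riemannRochSpace (S17EM_D N k) := by
  rw [mem_riemannRochSpace_iff] at hf ⊢
  intro v
  rcases hf ((arithmeticGalois (modularFunctionFieldFull N) σ)⁻¹ • v) with h | h
  · left; rw [h, smul_zero]
  · right
    have h1 := SemilinearAut.ord_smul (arithmeticGalois (modularFunctionFieldFull N) σ)
      ((arithmeticGalois (modularFunctionFieldFull N) σ)⁻¹ • v) f
    rw [smul_inv_smul] at h1
    rw [h1]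
    have h2 := S17EM_D_apply_smul N k σ⁻¹ v
    rw [map_inv] at h2
    rw [← h2]
    exact h

/-! ### finite orbits and rational elements -/

/-- the Galois orbit of an element of `F` is finite. -/
theorem S17EM_orbit_finite (f : ↥(modularFunctionFieldBar N)) :
    (Set.range fun σ : S17_GQ => arithmeticGalois (modularFunctionFieldFull N) σ • f).Finite := by
  classical
  obtain ⟨L, hL, hLσ⟩ := GRF_exists_level N f
  haveI := hL
  -- the orbit map factors through the restriction to `L`
  let res : S17_GQ → (↥L →ₐ[ℚ] ℚbar) := fun σ => (σ : ℚbar →ₐ[ℚ] ℚbar).comp L.val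
  let pick : (↥L →ₐ[ℚ] ℚbar) → ↥(modularFunctionFieldBar N) := fun φ =>
    if h : ∃ σ : S17_GQ, res σ = φ then
      arithmeticGalois (modularFunctionFieldFull N) h.choose • f else 0
  haveI : Finite (↥L →ₐ[ℚ] ℚbar) := Finite.of_fintype _
  refine (Set.finite_range pick).subset ?_
  rintro _ ⟨σ, rfl⟩
  refine ⟨res σ, ?_⟩
  have hex : ∃ τ : S17_GQ, res τ = res σ := ⟨σ, rfl⟩
  simp only [pick, dif_pos hex]
  have hτ : res hex.choose = res σ := hex.choose_spec
  -- `σ⁻¹ τ` fixes `L`
  have hfix : ∀ x ∈ L, (σ⁻¹ * hex.choose) x = x := by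
    intro x hx
    have h1 := congrArg (fun φ : ↥L →ₐ[ℚ] ℚbar => φ ⟨x, hx⟩) hτ
    have h2 : hex.choose x = σ x := h1
    rw [AlgEquiv.mul_apply, h2]
    exact σ.symm_apply_apply x
  have h3 := hLσ _ hfix
  have h4 : arithmeticGalois (modularFunctionFieldFull N) (σ⁻¹ * hex.choose) • f = f := h3
  rw [map_mul, mul_smul] at h4
  have h5 := congrArg (fun x => arithmeticGalois (modularFunctionFieldFull N) σ • x) h4
  simp only [map_inv, smul_inv_smul] at h5
  exact h5

/-- the coefficients of `σ • f`. -/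
theorem S17EM_coeff_smul (σ : S17_GQ) (f : ↥(modularFunctionFieldBar N)) (m : ℤ) :
    ((arithmeticGalois (modularFunctionFieldFull N) σ • f : ↥(modularFunctionFieldBar N)) :
      LaurentSeries ℚbar).coeff m = σ ((f : LaurentSeries ℚbar).coeff m) := by
  rw [coe_arithmeticGalois_smul, coeffMap_coeff]
  rfl

/-- the order of a series whose coefficients vanish below `n` and whose `n`-th coefficient is
nonzero. -/
theorem S17EM_order_eq {x : LaurentSeries ℚbar} {n : ℤ} (h0 : ∀ m < n, x.coeff m = 0)
    (hn : x.coeff n ≠ 0) : x.order = n := by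
  have hx : x ≠ 0 := by
    rintro rfl
    simp at hn
  apply le_antisymm
  · exact HahnSeries.order_le_of_coeff_ne_zero hn
  · by_contra hlt
    push Not at hlt
    exact (mt HahnSeries.coeff_order_eq_zero.mp hx) (h0 _ hlt)

/-- coefficients of a constant multiple. -/
theorem S17EM_coeff_const_mul (a : ℚbar) (f : ↥(modularFunctionFieldBar N)) (m : ℤ) :
    ((algebraMap ℚbar ↥(modularFunctionFieldBar N) a * f : ↥(modularFunctionFieldBar N)) :
      LaurentSeries ℚbar).coeff m = a * (f : LaurentSeries ℚbar).coeff m := by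
  have h1 : ((algebraMap ℚbar ↥(modularFunctionFieldBar N) a * f :
      ↥(modularFunctionFieldBar N)) : LaurentSeries ℚbar) =
      algebraMap ℚbar (LaurentSeries ℚbar) a * (f : LaurentSeries ℚbar) := rfl
  rw [h1, CU_algebraMap_eq_C, HahnSeries.C_mul_eq_smul, HahnSeries.coeff_smul]
  rfl

/-- the Galois action on a constant multiple. -/
theorem S17EM_smul_const_mul (σ : S17_GQ) (a : ℚbar) (f : ↥(modularFunctionFieldBar N)) :
    arithmeticGalois (modularFunctionFieldFull N) σ •
      (algebraMap ℚbar ↥(modularFunctionFieldBar N) a * f) =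
      algebraMap ℚbar ↥(modularFunctionFieldBar N) (σ a) *
        (arithmeticGalois (modularFunctionFieldFull N) σ • f) := by
  rw [smul_mul', SemilinearAut.smul_algebraMap]
  rfl

theorem S17EM_const_mul_mem (k : ℕ) (a : ℚbar) {f : ↥(modularFunctionFieldBar N)}
    (hf : f ∈ riemannRochSpace (S17EM_D N k)) :
    algebraMap ℚbar ↥(modularFunctionFieldBar N) a * f ∈ riemannRochSpace (S17EM_D N k) := by
  have := Submodule.smul_mem _ a hf
  rwa [Algebra.smul_def] at this

/-- an injective additive map permuting a finite set fixes its sum. -/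
theorem S17EM_sum_invariant {M : Type*} [AddCommMonoid M] (g : M →+ M)
    (hg : Function.Injective g) (S : Finset M) (hS : ∀ h ∈ S, g h ∈ S) :
    g (∑ h ∈ S, h) = ∑ h ∈ S, h := by
  classical
  have himg : S.image g = S := by
    apply Finset.eq_of_subset_of_card_le
    · intro x hx
      obtain ⟨h, hh, rfl⟩ := Finset.mem_image.mp hx
      exact hS h hh
    · rw [Finset.card_image_of_injective S hg]
  rw [map_sum]
  conv_rhs => rw [← himg]
  rw [Finset.sum_image (fun x _ y _ hxy => hg hxy)]

set_option maxHeartbeats 1000000 in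
/-- **rational elements**: for every nonzero `f ∈ L(kO)` there is a Galois invariant
`e ∈ L(kO)` with the same order at `O`, with leading coefficient `1`. -/
theorem S17EM_exists_rational (k : ℕ) {f : ↥(modularFunctionFieldBar N)}
    (hf : f ∈ riemannRochSpace (S17EM_D N k)) (hf0 : f ≠ 0) :
    ∃ e : ↥(modularFunctionFieldBar N), e ∈ riemannRochSpace (S17EM_D N k) ∧ e ≠ 0 ∧
      (∀ σ : S17_GQ, arithmeticGalois (modularFunctionFieldFull N) σ • e = e) ∧
      (S17EM_O N).ord e = (S17EM_O N).ord f ∧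
      (e : LaurentSeries ℚbar).coeff ((S17EM_O N).ord f) = 1 := by
  classical
  set n : ℤ := (f : LaurentSeries ℚbar).order with hn
  have hordf : (S17EM_O N).ord f = n := S17EM_ord_O N hf0
  have hfx : (f : LaurentSeries ℚbar) ≠ 0 := fun h => hf0 (Subtype.ext h)
  set c : ℚbar := (f : LaurentSeries ℚbar).coeff n with hc
  have hc0 : c ≠ 0 := mt HahnSeries.coeff_order_eq_zero.mp hfx
  -- normalise
  set f' : ↥(modularFunctionFieldBar N) :=
    algebraMap ℚbar ↥(modularFunctionFieldBar N) c⁻¹ * f with hf'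
  have hf'mem : f' ∈ riemannRochSpace (S17EM_D N k) := S17EM_const_mul_mem N k _ hf
  have hf'coeff : ∀ m, (f' : LaurentSeries ℚbar).coeff m =
      c⁻¹ * (f : LaurentSeries ℚbar).coeff m := fun m => S17EM_coeff_const_mul N _ f m
  have hf'n : (f' : LaurentSeries ℚbar).coeff n = 1 := by
    rw [hf'coeff, ← hc, inv_mul_cancel₀ hc0]
  have hf'lt : ∀ m < n, (f' : LaurentSeries ℚbar).coeff m = 0 := by
    intro m hm
    rw [hf'coeff, HahnSeries.coeff_eq_zero_of_lt_order hm, mul_zero]
  -- the orbit
  have hfin := S17EM_orbit_finite N f'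
  set S : Finset ↥(modularFunctionFieldBar N) := hfin.toFinset with hS
  have hSmem : ∀ h, h ∈ S ↔ ∃ σ : S17_GQ,
      arithmeticGalois (modularFunctionFieldFull N) σ • f' = h := by
    intro h
    rw [hS, Set.Finite.mem_toFinset]
    rfl
  have hf'S : f' ∈ S := (hSmem f').mpr ⟨1, by rw [map_one, one_smul]⟩
  set e : ↥(modularFunctionFieldBar N) := ∑ h ∈ S, h with he
  have hecoe : ∀ m, (e : LaurentSeries ℚbar).coeff m =
      ∑ h ∈ S, (h : LaurentSeries ℚbar).coeff m := by
    intro m
    have h1 : ((e : ↥(modularFunctionFieldBar N)) : LaurentSeries ℚbar) =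
        ∑ h ∈ S, (h : LaurentSeries ℚbar) := by
      rw [he]
      exact map_sum (modularFunctionFieldBar N).val _ _
    rw [h1]
    exact map_sum (HahnSeries.coeff.addMonoidHom m) _ _
  have hSn : ∀ h ∈ S, (h : LaurentSeries ℚbar).coeff n = 1 := by
    intro h hh
    obtain ⟨σ, rfl⟩ := (hSmem h).mp hh
    rw [S17EM_coeff_smul, hf'n, map_one]
  have hSlt : ∀ h ∈ S, ∀ m < n, (h : LaurentSeries ℚbar).coeff m = 0 := by
    intro h hh m hm
    obtain ⟨σ, rfl⟩ := (hSmem h).mp hh
    rw [S17EM_coeff_smul, hf'lt m hm, map_zero]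
  have hen : (e : LaurentSeries ℚbar).coeff n = (S.card : ℚbar) := by
    rw [hecoe, Finset.sum_congr rfl hSn, Finset.sum_const, nsmul_eq_mul, mul_one]
  have helt : ∀ m < n, (e : LaurentSeries ℚbar).coeff m = 0 := by
    intro m hm
    rw [hecoe]
    exact Finset.sum_eq_zero (fun h hh => hSlt h hh m hm)
  have hcard : (S.card : ℚbar) ≠ 0 := by
    rw [Nat.cast_ne_zero]
    exact Finset.card_ne_zero.mpr ⟨f', hf'S⟩
  have heord : (e : LaurentSeries ℚbar).order = n :=
    S17EM_order_eq (fun m hm => helt m hm) (by rw [hen]; exact hcard)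
  have he0 : e ≠ 0 := by
    intro h0
    rw [h0] at hen
    apply hcard
    rw [← hen]
    rfl
  have hemem : e ∈ riemannRochSpace (S17EM_D N k) := by
    rw [he]
    refine Submodule.sum_mem _ (fun h hh => ?_)
    obtain ⟨σ, rfl⟩ := (hSmem h).mp hh
    exact S17EM_smul_mem N k σ hf'mem
  have heinv : ∀ σ : S17_GQ, arithmeticGalois (modularFunctionFieldFull N) σ • e = e := by
    intro σ
    exact S17EM_sum_invariant
      ((arithmeticRingAut (modularFunctionFieldFull N) σ).toAddEquiv.toAddMonoidHom)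
      (arithmeticRingAut (modularFunctionFieldFull N) σ).injective S (fun h hh => by
        obtain ⟨τ, rfl⟩ := (hSmem h).mp hh
        exact (hSmem _).mpr ⟨σ * τ, by rw [map_mul, mul_smul]; rfl⟩)
  -- rescale to leading coefficient `1`
  have hne : algebraMap ℚbar ↥(modularFunctionFieldBar N) ((S.card : ℚbar)⁻¹) * e ≠ 0 :=
    mul_ne_zero ((map_ne_zero _).mpr (inv_ne_zero hcard)) he0
  have hσc : ∀ σ : S17_GQ, σ ((S.card : ℚbar)⁻¹) = (S.card : ℚbar)⁻¹ := by
    intro σ
    rw [map_inv₀, map_natCast]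
  refine ⟨algebraMap ℚbar ↥(modularFunctionFieldBar N) ((S.card : ℚbar)⁻¹) * e,
    S17EM_const_mul_mem N k _ hemem, hne, ?_, ?_, ?_⟩
  · intro σ
    rw [S17EM_smul_const_mul, heinv σ, hσc σ]
  · rw [hordf, S17EM_ord_O N hne]
    refine S17EM_order_eq ?_ ?_
    · intro m hm
      rw [S17EM_coeff_const_mul, helt m hm, mul_zero]
    · rw [S17EM_coeff_const_mul, hen, inv_mul_cancel₀ hcard]
      exact one_ne_zero
  · rw [hordf, S17EM_coeff_const_mul, hen, inv_mul_cancel₀ hcard]

end

end Fermat.Agent.S17
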