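import Mathlib
import Fermat.Agent.S17.Emb

/-!
# TRACK 8 "MW" (S17), pillar HEIGHTS, package EMB part 2 (helper20)

* `S17EM_val_smul`   : `(σ • P).adicValuation (σ • f) = P.adicValuation f`;
* `S17EM_c0_smul`    : `FD_c0 (σ • P) (σ • f) = σ (FD_c0 P f)` for `f` regular at `P`
                       (Galois equivariance of the evaluation of functions at places);
* `S17EM_c0_rational`: `FD_c0 (σ • P) e = σ (FD_c0 P e)` for a rational function `e`.
-/

set_option autoImplicit false
set_option linter.style.haveILetI false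
set_option linter.unusedVariables false
set_option linter.unusedSectionVars false

open ModularCurve AlgebraicCurve HahnSeries

namespace Fermat.Agent.S17

open Fermat.Agent.GalRep Fermat.Agent.Lib Fermat.Agent.S24

noncomputable section

local notation "ℚbar" => AlgebraicClosure ℚ

variable (N : ℕ) [NeZero N]

/-! ### equivariance of the evaluation -/

theorem S17EM_val_smul (σ : S17_GQ) (P : Place ℚbar ↥(modularFunctionFieldBar N))
    (f : ↥(modularFunctionFieldBar N)) :
    (arithmeticGalois (modularFunctionFieldFull N) σ • P).adicValuation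
      (arithmeticGalois (modularFunctionFieldFull N) σ • f) = P.adicValuation f := by
  rcases eq_or_ne f 0 with rfl | hf
  · simp
  · rw [Place.adicValuation_eq_exp_neg_ord _ (S17EM_gal_ne_zero N σ hf),
      P.adicValuation_eq_exp_neg_ord hf, SemilinearAut.ord_smul]

/-- **equivariance of the evaluation**: `(σ f)(σ P) = σ (f(P))` for `f` regular at `P`. -/
theorem S17EM_c0_smul (σ : S17_GQ) (P : Place ℚbar ↥(modularFunctionFieldBar N))
    {f : ↥(modularFunctionFieldBar N)} (hf : P.adicValuation f ≤ 1) :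
    FD_c0 (arithmeticGalois (modularFunctionFieldFull N) σ • P)
      (arithmeticGalois (modularFunctionFieldFull N) σ • f) = σ (FD_c0 P f) := by
  have hdeg := (S17ST_hRR N).deg_one
  have h1 := FD_c0_spec P (hdeg P) hf
  apply FD_c0_unique
  have h2 : arithmeticGalois (modularFunctionFieldFull N) σ • f -
      algebraMap ℚbar ↥(modularFunctionFieldBar N) (σ (FD_c0 P f)) =
      arithmeticGalois (modularFunctionFieldFull N) σ •
        (f - algebraMap ℚbar ↥(modularFunctionFieldBar N) (FD_c0 P f)) := by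
    rw [smul_sub, SemilinearAut.smul_algebraMap]
    rfl
  rw [h2, S17EM_val_smul]
  exact h1

/-- evaluation of a rational function at a conjugate place. -/
theorem S17EM_c0_rational (σ : S17_GQ) (P : Place ℚbar ↥(modularFunctionFieldBar N))
    {e : ↥(modularFunctionFieldBar N)}
    (he : arithmeticGalois (modularFunctionFieldFull N) σ • e = e)
    (hreg : P.adicValuation e ≤ 1) :
    FD_c0 (arithmeticGalois (modularFunctionFieldFull N) σ • P) e = σ (FD_c0 P e) := by
  have h := S17EM_c0_smul N σ P hreg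
  rwa [he] at h

/-! ### orders of the elements of `L(kO)` -/

theorem S17EM_one_mem (k : ℕ) :
    (1 : ↥(modularFunctionFieldBar N)) ∈ riemannRochSpace (S17EM_D N k) := by
  classical
  rw [mem_riemannRochSpace_iff]
  intro v
  right
  rw [Place.ord_one, S17EM_D, Finsupp.single_apply]
  split_ifs
  · simp
  · simp

/-- the order at `O` of a nonzero element of `L(kO)` is at least `-k`. -/
theorem S17EM_ord_ge (k : ℕ) {f : ↥(modularFunctionFieldBar N)}
    (hf : f ∈ riemannRochSpace (S17EM_D N k)) (hf0 : f ≠ 0) :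
    -(k : ℤ) ≤ (S17EM_O N).ord f := by
  rw [mem_riemannRochSpace_iff] at hf
  rcases hf (S17EM_O N) with h | h
  · exact absurd h hf0
  · rwa [S17EM_D, Finsupp.single_eq_same] at h

/-- the order at `O` of a nonzero element of `L(kO)` is at most `0`. -/
theorem S17EM_ord_le (k : ℕ) {f : ↥(modularFunctionFieldBar N)}
    (hf : f ∈ riemannRochSpace (S17EM_D N k)) (hf0 : f ≠ 0) :
    (S17EM_O N).ord f ≤ 0 := by
  classical
  by_contra hpos
  push Not at hpos
  have hRR := S17ST_hRR N
  have hbot := RR_eq_bot_of_degree_neg hRR.deg_one hRR.principal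
    (D := Finsupp.single (S17EM_O N) (-1 : ℤ)) (by
      rw [Divisor.degree_single, hRR.deg_one]; norm_num)
  have hmem : f ∈ riemannRochSpace (Finsupp.single (S17EM_O N) (-1 : ℤ)) := by
    rw [mem_riemannRochSpace_iff] at hf ⊢
    intro v
    right
    by_cases hv : S17EM_O N = v
    · subst hv
      rw [Finsupp.single_eq_same]
      omega
    · rw [Finsupp.single_apply, if_neg hv, neg_zero]
      rcases hf v with h | h
      · exact absurd h hf0
      · rwa [S17EM_D, Finsupp.single_apply, if_neg hv, neg_zero] at h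
  rw [hbot, Submodule.mem_bot] at hmem
  exact hf0 hmem

/-- the set of orders at `O` of the nonzero elements of `L(kO)`. -/
def S17EM_Ords (k : ℕ) : Set ℤ :=
  {n | ∃ f : ↥(modularFunctionFieldBar N), f ∈ riemannRochSpace (S17EM_D N k) ∧ f ≠ 0 ∧
    (S17EM_O N).ord f = n}

theorem S17EM_zero_mem_Ords (k : ℕ) : (0 : ℤ) ∈ S17EM_Ords N k :=
  ⟨1, S17EM_one_mem N k, one_ne_zero, Place.ord_one _⟩

theorem S17EM_Ords_subset (k : ℕ) : S17EM_Ords N k ⊆ Set.Icc (-(k : ℤ)) 0 := by
  rintro n ⟨f, hf, hf0, rfl⟩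
  exact ⟨S17EM_ord_ge N k hf hf0, S17EM_ord_le N k hf hf0⟩

theorem S17EM_Ords_finite (k : ℕ) : (S17EM_Ords N k).Finite :=
  (Set.finite_Icc _ _).subset (S17EM_Ords_subset N k)

/-! ### the rational element of a given order -/

open Classical in
/-- the chosen rational element of `L(kO)` of order `n` at `O` with leading coefficient `1`
(`1` for `n = 0`, `0` if `n` is not an order). -/
def S17EM_b (k : ℕ) (n : ℤ) : ↥(modularFunctionFieldBar N) :=
  if n = 0 then 1 else
    if h : n ∈ S17EM_Ords N k then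
      (S17EM_exists_rational N k h.choose_spec.1 h.choose_spec.2.1).choose
    else 0

theorem S17EM_b_zero (k : ℕ) : S17EM_b N k 0 = 1 := by
  rw [S17EM_b, if_pos rfl]

theorem S17EM_coe_one :
    ((1 : ↥(modularFunctionFieldBar N)) : LaurentSeries ℚbar) = 1 := rfl

theorem S17EM_b_spec (k : ℕ) {n : ℤ} (hn : n ∈ S17EM_Ords N k) :
    S17EM_b N k n ∈ riemannRochSpace (S17EM_D N k) ∧ S17EM_b N k n ≠ 0 ∧
      (∀ σ : S17_GQ, arithmeticGalois (modularFunctionFieldFull N) σ • S17EM_b N k n =
        S17EM_b N k n) ∧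
      (S17EM_O N).ord (S17EM_b N k n) = n ∧
      (S17EM_b N k n : LaurentSeries ℚbar).coeff n = 1 := by
  by_cases h0 : n = 0
  · subst h0
    rw [S17EM_b_zero]
    refine ⟨S17EM_one_mem N k, one_ne_zero, fun σ => smul_one _, Place.ord_one _, ?_⟩
    rw [S17EM_coe_one]
    simp
  · rw [S17EM_b, if_neg h0, dif_pos hn]
    have h := (S17EM_exists_rational N k hn.choose_spec.1 hn.choose_spec.2.1).choose_spec
    have hord : (S17EM_O N).ord hn.choose = n := hn.choose_spec.2.2
    obtain ⟨h1, h2, h3, h4, h5⟩ := h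
    exact ⟨h1, h2, h3, h4.trans hord,
      (congrArg (fun m : ℤ => HahnSeries.coeff _ m) hord).symm.trans h5⟩

/-- the coefficients of `b n` below `n` vanish. -/
theorem S17EM_b_coeff_lt (k : ℕ) {n : ℤ} (hn : n ∈ S17EM_Ords N k) {m : ℤ} (hm : m < n) :
    (S17EM_b N k n : LaurentSeries ℚbar).coeff m = 0 := by
  obtain ⟨_, h0, _, hord, _⟩ := S17EM_b_spec N k hn
  rw [S17EM_ord_O N h0] at hord
  exact HahnSeries.coeff_eq_zero_of_lt_order (by rw [hord]; exact hm)

/-! ### the `b n` span `L(kO)` -/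

theorem S17EM_coeff_sub (f g : ↥(modularFunctionFieldBar N)) (m : ℤ) :
    ((f - g : ↥(modularFunctionFieldBar N)) : LaurentSeries ℚbar).coeff m =
      (f : LaurentSeries ℚbar).coeff m - (g : LaurentSeries ℚbar).coeff m := by
  have h1 : ((f - g : ↥(modularFunctionFieldBar N)) : LaurentSeries ℚbar) =
      (f : LaurentSeries ℚbar) - (g : LaurentSeries ℚbar) := rfl
  rw [h1, HahnSeries.coeff_sub]

theorem S17EM_lt_order {x : LaurentSeries ℚbar} (hx : x ≠ 0) {n : ℤ}
    (h : ∀ m ≤ n, x.coeff m = 0) : n < x.order := by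
  by_contra hle
  push Not at hle
  exact (mt HahnSeries.coeff_order_eq_zero.mp hx) (h _ hle)

/-- every element of `L(kO)` is a combination of the `b n`. -/
theorem S17EM_mem_span (k : ℕ) : ∀ (m : ℕ) (f : ↥(modularFunctionFieldBar N)),
    f ∈ riemannRochSpace (S17EM_D N k) → f ≠ 0 → 0 < (S17EM_O N).ord f + m →
    f ∈ Submodule.span ℚbar (S17EM_b N k '' S17EM_Ords N k) := by
  intro m
  induction m with
  | zero =>
    intro f hf hf0 hpos
    have := S17EM_ord_le N k hf hf0
    simp only [Nat.cast_zero, add_zero] at hpos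
    omega
  | succ m ih =>
    intro f hf hf0 hpos
    set n : ℤ := (S17EM_O N).ord f with hn
    have hnO : n ∈ S17EM_Ords N k := ⟨f, hf, hf0, rfl⟩
    obtain ⟨hbmem, hb0, _, hbord, hbcoeff⟩ := S17EM_b_spec N k hnO
    have hfx : (f : LaurentSeries ℚbar) ≠ 0 := fun h => hf0 (Subtype.ext h)
    have hford : (f : LaurentSeries ℚbar).order = n := (S17EM_ord_O N hf0).symm
    set c : ℚbar := (f : LaurentSeries ℚbar).coeff n with hc
    set f' : ↥(modularFunctionFieldBar N) :=
      f - algebraMap ℚbar ↥(modularFunctionFieldBar N) c * S17EM_b N k n with hf'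
    have hf'mem : f' ∈ riemannRochSpace (S17EM_D N k) :=
      Submodule.sub_mem _ hf (S17EM_const_mul_mem N k c hbmem)
    have hbspan : algebraMap ℚbar ↥(modularFunctionFieldBar N) c * S17EM_b N k n ∈
        Submodule.span ℚbar (S17EM_b N k '' S17EM_Ords N k) := by
      rw [← Algebra.smul_def]
      exact Submodule.smul_mem _ _ (Submodule.subset_span ⟨n, hnO, rfl⟩)
    have hfeq : f = f' + algebraMap ℚbar ↥(modularFunctionFieldBar N) c * S17EM_b N k n := by
      rw [hf']; ring
    by_cases hf'0 : f' = 0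
    · rw [hfeq, hf'0, zero_add]
      exact hbspan
    · have hcoeff : ∀ m' ≤ n, (f' : LaurentSeries ℚbar).coeff m' = 0 := by
        intro m' hm'
        rw [hf', S17EM_coeff_sub, S17EM_coeff_const_mul]
        rcases lt_or_eq_of_le hm' with hlt | heq
        · rw [HahnSeries.coeff_eq_zero_of_lt_order (by rw [hford]; exact hlt),
            S17EM_b_coeff_lt N k hnO hlt, mul_zero, sub_zero]
        · rw [heq, hbcoeff, mul_one, sub_self]
      have hf'x : (f' : LaurentSeries ℚbar) ≠ 0 := fun h => hf'0 (Subtype.ext h)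
      have hlt := S17EM_lt_order hf'x hcoeff
      rw [← S17EM_ord_O N hf'0] at hlt
      have hpos' : 0 < (S17EM_O N).ord f' + m := by
        push_cast at hpos
        omega
      rw [hfeq]
      exact Submodule.add_mem _ (ih f' hf'mem hf'0 hpos') hbspan

theorem S17EM_span_eq (k : ℕ) :
    Submodule.span ℚbar (S17EM_b N k '' S17EM_Ords N k) = riemannRochSpace (S17EM_D N k) := by
  apply le_antisymm
  · rw [Submodule.span_le]
    rintro _ ⟨n, hn, rfl⟩
    exact (S17EM_b_spec N k hn).1
  · intro f hf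
    by_cases hf0 : f = 0
    · rw [hf0]; exact Submodule.zero_mem _
    · refine S17EM_mem_span N k (k + 1) f hf hf0 ?_
      have := S17EM_ord_ge N k hf hf0
      push_cast
      omega

/-! ### the rational basis, ordered by increasing pole order -/

/-- the finite set of orders. -/
def S17EM_Ordsf (k : ℕ) : Finset ℤ := (S17EM_Ords_finite N k).toFinset

theorem S17EM_mem_Ordsf (k : ℕ) {n : ℤ} : n ∈ S17EM_Ordsf N k ↔ n ∈ S17EM_Ords N k := by
  rw [S17EM_Ordsf, Set.Finite.mem_toFinset]

/-- the number of basis elements minus one. -/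
def S17EM_r (k : ℕ) : ℕ := (S17EM_Ordsf N k).card - 1

theorem S17EM_card (k : ℕ) : (S17EM_Ordsf N k).card = S17EM_r N k + 1 := by
  have h : 0 < (S17EM_Ordsf N k).card :=
    Finset.card_pos.mpr ⟨0, (S17EM_mem_Ordsf N k).mpr (S17EM_zero_mem_Ords N k)⟩
  rw [S17EM_r]
  omega

/-- the orders, increasing. -/
def S17EM_emb (k : ℕ) : Fin (S17EM_r N k + 1) ↪o ℤ :=
  (S17EM_Ordsf N k).orderEmbOfFin (S17EM_card N k)

theorem S17EM_emb_mem (k : ℕ) (j : Fin (S17EM_r N k + 1)) :
    S17EM_emb N k j ∈ S17EM_Ords N k :=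
  (S17EM_mem_Ordsf N k).mp (Finset.orderEmbOfFin_mem _ _ j)

theorem S17EM_exists_emb (k : ℕ) {n : ℤ} (hn : n ∈ S17EM_Ords N k) :
    ∃ j, S17EM_emb N k j = n := by
  have h : n ∈ Set.range (S17EM_emb N k) := by
    rw [S17EM_emb, Finset.range_orderEmbOfFin]
    exact (S17EM_mem_Ordsf N k).mpr hn
  exact h

/-- **the rational basis of `L(kO)`**, ordered by increasing pole order at `O`. -/
def S17EM_e (k : ℕ) (j : Fin (S17EM_r N k + 1)) : ↥(modularFunctionFieldBar N) :=
  S17EM_b N k (S17EM_emb N k (Fin.rev j))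

theorem S17EM_e_mem (k : ℕ) (j : Fin (S17EM_r N k + 1)) :
    S17EM_e N k j ∈ riemannRochSpace (S17EM_D N k) :=
  (S17EM_b_spec N k (S17EM_emb_mem N k _)).1

theorem S17EM_e_ne_zero (k : ℕ) (j : Fin (S17EM_r N k + 1)) : S17EM_e N k j ≠ 0 :=
  (S17EM_b_spec N k (S17EM_emb_mem N k _)).2.1

/-- the basis consists of rational functions. -/
theorem S17EM_e_rational (k : ℕ) (σ : S17_GQ) (j : Fin (S17EM_r N k + 1)) :
    arithmeticGalois (modularFunctionFieldFull N) σ • S17EM_e N k j = S17EM_e N k j :=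
  (S17EM_b_spec N k (S17EM_emb_mem N k _)).2.2.1 σ

theorem S17EM_e_ord (k : ℕ) (j : Fin (S17EM_r N k + 1)) :
    (S17EM_O N).ord (S17EM_e N k j) = S17EM_emb N k (Fin.rev j) :=
  (S17EM_b_spec N k (S17EM_emb_mem N k _)).2.2.2.1

theorem S17EM_e_coeff (k : ℕ) (j : Fin (S17EM_r N k + 1)) :
    (S17EM_e N k j : LaurentSeries ℚbar).coeff (S17EM_emb N k (Fin.rev j)) = 1 :=
  (S17EM_b_spec N k (S17EM_emb_mem N k _)).2.2.2.2

theorem S17EM_e_coeff_lt (k : ℕ) (j : Fin (S17EM_r N k + 1)) {m : ℤ}
    (hm : m < S17EM_emb N k (Fin.rev j)) : (S17EM_e N k j : LaurentSeries ℚbar).coeff m = 0 :=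
  S17EM_b_coeff_lt N k (S17EM_emb_mem N k _) hm

/-- the pole orders at `O` are strictly increasing. -/
theorem S17EM_e_strictAnti (k : ℕ) :
    StrictAnti fun j : Fin (S17EM_r N k + 1) => (S17EM_O N).ord (S17EM_e N k j) := by
  intro i j hij
  show (S17EM_O N).ord (S17EM_e N k j) < (S17EM_O N).ord (S17EM_e N k i)
  rw [S17EM_e_ord, S17EM_e_ord]
  exact (S17EM_emb N k).strictMono (Fin.rev_lt_rev.mpr hij)

/-- the first basis element is `1`. -/
theorem S17EM_e_zero (k : ℕ) : S17EM_e N k 0 = 1 := by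
  have h0 : S17EM_emb N k (Fin.rev 0) = 0 := by
    obtain ⟨j, hj⟩ := S17EM_exists_emb N k (S17EM_zero_mem_Ords N k)
    apply le_antisymm
    · exact (S17EM_Ords_subset N k (S17EM_emb_mem N k _)).2
    · rw [← hj]
      apply (S17EM_emb N k).monotone
      rw [Fin.rev_zero]
      exact Fin.le_last j
  rw [S17EM_e, h0, S17EM_b_zero]

/-- the last basis element has pole order `k`, if `k` is a pole order. -/
theorem S17EM_e_last (k : ℕ) (hk : -(k : ℤ) ∈ S17EM_Ords N k) :
    (S17EM_O N).ord (S17EM_e N k (Fin.last _)) = -(k : ℤ) := by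
  rw [S17EM_e_ord, Fin.rev_last]
  obtain ⟨j, hj⟩ := S17EM_exists_emb N k hk
  apply le_antisymm
  · rw [← hj]
    exact (S17EM_emb N k).monotone (Fin.zero_le j)
  · exact (S17EM_Ords_subset N k (S17EM_emb_mem N k _)).1

theorem S17EM_range_e (k : ℕ) :
    Set.range (S17EM_e N k) = S17EM_b N k '' S17EM_Ords N k := by
  ext x
  constructor
  · rintro ⟨j, rfl⟩
    exact ⟨_, S17EM_emb_mem N k _, rfl⟩
  · rintro ⟨n, hn, rfl⟩
    obtain ⟨j, hj⟩ := S17EM_exists_emb N k hn
    refine ⟨Fin.rev j, ?_⟩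
    rw [S17EM_e, Fin.rev_rev, hj]

/-- the basis spans `L(kO)`. -/
theorem S17EM_span_e (k : ℕ) :
    Submodule.span ℚbar (Set.range (S17EM_e N k)) = riemannRochSpace (S17EM_D N k) := by
  rw [S17EM_range_e, S17EM_span_eq]

/-! ### linear independence -/

theorem S17EM_coeff_sum_smul {ι : Type*} (s : Finset ι) (g : ι → ℚbar)
    (x : ι → ↥(modularFunctionFieldBar N)) (n : ℤ) :
    ((∑ j ∈ s, g j • x j : ↥(modularFunctionFieldBar N)) : LaurentSeries ℚbar).coeff n =
      ∑ j ∈ s, g j * (x j : LaurentSeries ℚbar).coeff n := by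
  have h1 : ((∑ j ∈ s, g j • x j : ↥(modularFunctionFieldBar N)) : LaurentSeries ℚbar) =
      ∑ j ∈ s, ((g j • x j : ↥(modularFunctionFieldBar N)) : LaurentSeries ℚbar) :=
    map_sum (modularFunctionFieldBar N).val _ _
  rw [h1]
  have h2 : (∑ j ∈ s, ((g j • x j : ↥(modularFunctionFieldBar N)) : LaurentSeries ℚbar)).coeff n =
      ∑ j ∈ s, ((g j • x j : ↥(modularFunctionFieldBar N)) : LaurentSeries ℚbar).coeff n :=
    map_sum (HahnSeries.coeff.addMonoidHom n) _ _
  rw [h2]
  refine Finset.sum_congr rfl (fun j _ => ?_)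
  rw [Algebra.smul_def, S17EM_coeff_const_mul]

/-- the basis is linearly independent. -/
theorem S17EM_e_linearIndependent (k : ℕ) : LinearIndependent ℚbar (S17EM_e N k) := by
  classical
  rw [Fintype.linearIndependent_iff]
  intro g hg
  by_contra hcon
  push Not at hcon
  set T : Finset (Fin (S17EM_r N k + 1)) := Finset.univ.filter (fun j => g j ≠ 0) with hT
  have hTne : T.Nonempty := by
    obtain ⟨j, hj⟩ := hcon
    exact ⟨j, by rw [hT, Finset.mem_filter]; exact ⟨Finset.mem_univ _, hj⟩⟩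
  set j₀ := T.max' hTne with hj₀
  have hj₀T : j₀ ∈ T := Finset.max'_mem T hTne
  have hgj₀ : g j₀ ≠ 0 := (Finset.mem_filter.mp hj₀T).2
  have hcoeff : ((∑ j, g j • S17EM_e N k j : ↥(modularFunctionFieldBar N)) :
      LaurentSeries ℚbar).coeff (S17EM_emb N k (Fin.rev j₀)) =
      ((0 : ↥(modularFunctionFieldBar N)) : LaurentSeries ℚbar).coeff
        (S17EM_emb N k (Fin.rev j₀)) := by rw [hg]
  rw [S17EM_coeff_sum_smul] at hcoeff
  rw [Finset.sum_eq_single j₀] at hcoeff
  · rw [S17EM_e_coeff, mul_one] at hcoeff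
    apply hgj₀
    rw [hcoeff]
    rfl
  · intro j _ hj
    rcases lt_or_gt_of_ne hj with hlt | hgt
    · rw [S17EM_e_coeff_lt N k j
        ((S17EM_emb N k).strictMono (Fin.rev_lt_rev.mpr hlt)), mul_zero]
    · have hgj : g j = 0 := by
        by_contra hne
        have hjT : j ∈ T := by rw [hT, Finset.mem_filter]; exact ⟨Finset.mem_univ _, hne⟩
        have := Finset.le_max' T j hjT
        exact absurd hgt (not_lt.mpr this)
      rw [hgj, zero_mul]
  · intro h
    exact absurd (Finset.mem_univ _) h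

/-- the number of basis elements is the dimension of `L(kO)`. -/
theorem S17EM_finrank (k : ℕ) :
    Module.finrank ℚbar (riemannRochSpace (S17EM_D N k)) = S17EM_r N k + 1 := by
  have h := finrank_span_eq_card (S17EM_e_linearIndependent N k)
  rw [S17EM_span_e, Fintype.card_fin] at h
  exact h

/-! ### summary -/

/-- **EMB**: for every `k` the space `L(kO)` has a basis `e_0 = 1, e_1, …, e_r` of rational
functions with strictly increasing pole orders at the rational cusp `O`; if `k` is a pole order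
at `O`, the last one has pole order `k`. -/
theorem S17EM_main (k : ℕ) :
    ∃ (r : ℕ) (e : Fin (r + 1) → ↥(modularFunctionFieldBar N)),
      Module.finrank ℚbar (riemannRochSpace (S17EM_D N k)) = r + 1 ∧
      (∀ j, e j ∈ riemannRochSpace (S17EM_D N k)) ∧
      LinearIndependent ℚbar e ∧
      Submodule.span ℚbar (Set.range e) = riemannRochSpace (S17EM_D N k) ∧
      e 0 = 1 ∧
      (∀ (σ : S17_GQ) (j), arithmeticGalois (modularFunctionFieldFull N) σ • e j = e j) ∧
      (StrictAnti fun j => (S17EM_O N).ord (e j)) ∧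
      (-(k : ℤ) ∈ S17EM_Ords N k → (S17EM_O N).ord (e (Fin.last r)) = -(k : ℤ)) ∧
      (∀ (σ : S17_GQ) (P : Place ℚbar ↥(modularFunctionFieldBar N)) (j),
        P.adicValuation (e j) ≤ 1 →
        FD_c0 (arithmeticGalois (modularFunctionFieldFull N) σ • P) (e j) =
          σ (FD_c0 P (e j))) :=
  ⟨S17EM_r N k, S17EM_e N k, S17EM_finrank N k, S17EM_e_mem N k,
    S17EM_e_linearIndependent N k, S17EM_span_e N k, S17EM_e_zero N k,
    fun σ j => S17EM_e_rational N k σ j, S17EM_e_strictAnti N k, S17EM_e_last N k,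
    fun σ P j hreg => S17EM_c0_rational N σ P (S17EM_e_rational N k σ j) hreg⟩

end

end Fermat.Agent.S17
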