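import Fermat.Agent.S17.AbsNorth

/-!
# TRACK 8 "MW" (S17), pillar HEIGHTS, package NORTH (helper17): Northcott for divisor heights

Abstract form (no curve): `Pl` a set of "places" with a point `O`, an operation
`act : (Ω ≃ₐ[ℚ] Ω) → Pl → Pl`, coordinates `ev : Pl → ι → Ω` which are
* normalised (`ev P i₀ = 1` for `P ≠ O`),
* equivariant (`ev (act σ P) = σ ∘ ev P` for `P ≠ O`),
* injective on `Pl ∖ {O}`.

For an effective divisor `E : Pl →₀ ℕ` put `deg E = Σ E(P)` and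
`H(E) = Σ_P E(P) · h(ev P)` (`h = S17AH_h`, the absolute logarithmic height).

* `S17NO_finite_div` : for every `d`, `B` the set of `act`-invariant effective divisors `E` with
  `E(O) = 0`, `deg E ≤ d`, `H(E) ≤ B` is FINITE.
* `S17NO_finite_cls` : hence for every map `cl` from divisors to a set `J` the set of
  `y = cl E` with `E` as above is finite.
* `S17NO_mu`, `S17NO_mu_le`, `S17NO_exists_of_mu_lt`, `S17NO_mu_nonneg`, `S17NO_finite_mu` :
  `μ(y) := inf {H(E) : E admissible, cl E = y}` and Northcott for `μ`.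
* `S17NO_northcott` : Northcott for `h(x) := μ(x) + μ(-x)` on a subgroup `A ≤ J` all of whose
  elements have an admissible divisor.
-/

set_option autoImplicit false
set_option linter.style.haveILetI false
set_option linter.unusedSectionVars false
set_option linter.unusedVariables false

namespace Fermat.Agent.S17

section

variable {Ω : Type*} [Field Ω] [CharZero Ω] [Algebra.IsAlgebraic ℚ Ω] [IsAlgClosed Ω]
variable {Pl : Type*} {ι : Type*} [Finite ι]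

/-- the degree of an effective divisor. -/
def S17NO_deg (E : Pl →₀ ℕ) : ℕ := E.sum fun _ n => n

/-- the height `H(E) = Σ_P E(P) · h(ev P)` of an effective divisor. -/
noncomputable def S17NO_H (ev : Pl → ι → Ω) (E : Pl →₀ ℕ) : ℝ :=
  E.sum fun P n => (n : ℝ) * S17AH_h (ev P)

theorem S17NO_H_nonneg (ev : Pl → ι → Ω) (E : Pl →₀ ℕ) : 0 ≤ S17NO_H ev E :=
  Finset.sum_nonneg fun P _ => mul_nonneg (Nat.cast_nonneg _) (S17AH_h_nonneg _)

theorem S17NO_H_zero (ev : Pl → ι → Ω) : S17NO_H ev (0 : Pl →₀ ℕ) = 0 := by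
  simp [S17NO_H]

theorem S17NO_deg_zero : S17NO_deg (0 : Pl →₀ ℕ) = 0 := by
  simp [S17NO_deg]

theorem S17NO_H_add (ev : Pl → ι → Ω) (E E' : Pl →₀ ℕ) :
    S17NO_H ev (E + E') = S17NO_H ev E + S17NO_H ev E' := by
  classical
  unfold S17NO_H
  rw [Finsupp.sum_add_index']
  · intro P; simp
  · intro P m n; push_cast; ring

theorem S17NO_deg_add (E E' : Pl →₀ ℕ) :
    S17NO_deg (E + E') = S17NO_deg E + S17NO_deg E' := by
  classical
  unfold S17NO_deg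
  rw [Finsupp.sum_add_index']
  · intro P; rfl
  · intro P m n; rfl

theorem S17NO_H_single (ev : Pl → ι → Ω) (P : Pl) (n : ℕ) :
    S17NO_H ev (Finsupp.single P n) = n * S17AH_h (ev P) := by
  unfold S17NO_H
  rw [Finsupp.sum_single_index]
  simp

theorem S17NO_deg_single (P : Pl) (n : ℕ) : S17NO_deg (Finsupp.single P n) = n := by
  unfold S17NO_deg
  rw [Finsupp.sum_single_index]
  rfl

/-- a point of the support has multiplicity at most the degree. -/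
theorem S17NO_apply_le_deg (E : Pl →₀ ℕ) (P : Pl) : E P ≤ S17NO_deg E := by
  classical
  by_cases hP : P ∈ E.support
  · exact Finset.single_le_sum (f := fun Q => E Q) (fun _ _ => Nat.zero_le _) hP
  · rw [Finsupp.notMem_support_iff.1 hP]
    exact Nat.zero_le _

/-- the support has at most `deg E` points. -/
theorem S17NO_card_support_le (E : Pl →₀ ℕ) : E.support.card ≤ S17NO_deg E := by
  classical
  unfold S17NO_deg Finsupp.sum
  calc E.support.card = ∑ _P ∈ E.support, 1 := by simp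
    _ ≤ ∑ P ∈ E.support, E P := Finset.sum_le_sum fun P hP =>
        Nat.one_le_iff_ne_zero.2 (Finsupp.mem_support_iff.1 hP)

/-- the height of a point of the support is at most `H(E)`. -/
theorem S17NO_h_le_H (ev : Pl → ι → Ω) (E : Pl →₀ ℕ) {P : Pl} (hP : P ∈ E.support) :
    S17AH_h (ev P) ≤ S17NO_H ev E := by
  classical
  have h1 : (E P : ℝ) * S17AH_h (ev P) ≤ S17NO_H ev E :=
    Finset.single_le_sum (f := fun Q => (E Q : ℝ) * S17AH_h (ev Q))
      (fun Q _ => mul_nonneg (Nat.cast_nonneg _) (S17AH_h_nonneg _)) hP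
  have h2 : (1 : ℝ) ≤ E P := by
    exact_mod_cast Nat.one_le_iff_ne_zero.2 (Finsupp.mem_support_iff.1 hP)
  calc S17AH_h (ev P) = 1 * S17AH_h (ev P) := (one_mul _).symm
    _ ≤ (E P : ℝ) * S17AH_h (ev P) := mul_le_mul_of_nonneg_right h2 (S17AH_h_nonneg _)
    _ ≤ _ := h1

/-- the admissible divisors: invariant, not containing `O`, of degree `≤ d`. -/
def S17NO_Adm (O : Pl) (act : (Ω ≃ₐ[ℚ] Ω) → Pl → Pl) (d : ℕ) (E : Pl →₀ ℕ) : Prop :=
  (∀ σ P, E (act σ P) = E P) ∧ E O = 0 ∧ S17NO_deg E ≤ d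

theorem S17NO_adm_zero (O : Pl) (act : (Ω ≃ₐ[ℚ] Ω) → Pl → Pl) (d : ℕ) :
    S17NO_Adm O act d (0 : Pl →₀ ℕ) :=
  ⟨fun _ _ => rfl, rfl, by rw [S17NO_deg_zero]; exact Nat.zero_le _⟩

/-- finitely many effective divisors supported in a finite set with bounded multiplicities. -/
theorem S17NO_finite_bdd (S : Set Pl) (hS : S.Finite) (d : ℕ) :
    {E : Pl →₀ ℕ | (∀ P, E P ≠ 0 → P ∈ S) ∧ ∀ P, E P ≤ d}.Finite := by
  classical
  haveI : Fintype ↥hS.toFinset := inferInstance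
  let g : (↥hS.toFinset → Fin (d + 1)) → (Pl →₀ ℕ) := fun φ =>
    Finsupp.onFinset hS.toFinset (fun P => if h : P ∈ hS.toFinset then ((φ ⟨P, h⟩ : Fin (d + 1)) : ℕ)
      else 0) (by
        intro P hP
        by_contra hPS
        exact hP (dif_neg hPS))
  refine (Set.finite_range g).subset ?_
  rintro E ⟨hsupp, hle⟩
  refine ⟨fun P => ⟨E P, Nat.lt_succ_of_le (hle P)⟩, ?_⟩
  ext P
  simp only [g, Finsupp.onFinset_apply]
  split_ifs with h
  · rfl
  · by_contra hne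
    exact h (hS.mem_toFinset.2 (hsupp P (Ne.symm hne)))

/-- **NORTH, divisor form**: finitely many invariant effective divisors of bounded degree and
bounded height. -/
theorem S17NO_finite_div (i₀ : ι) (O : Pl) (act : (Ω ≃ₐ[ℚ] Ω) → Pl → Pl) (ev : Pl → ι → Ω)
    (hev1 : ∀ P, P ≠ O → ev P i₀ = 1)
    (hevσ : ∀ σ P, P ≠ O → ev (act σ P) = fun j => σ (ev P j))
    (hinj : ∀ P Q, P ≠ O → Q ≠ O → ev P = ev Q → P = Q) (d : ℕ) (B : ℝ) :
    {E : Pl →₀ ℕ | S17NO_Adm O act d E ∧ S17NO_H ev E ≤ B}.Finite := by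
  classical
  have hV := S17AN_northcott_orbit (Ω := Ω) (ι := ι) d B i₀
  set V : Set (ι → Ω) := {x : ι → Ω | x i₀ = 1 ∧
      (∀ i, ∃ s : Finset Ω, s.card ≤ d ∧ ∀ σ : Ω ≃ₐ[ℚ] Ω, σ (x i) ∈ s) ∧
      S17AH_h x ≤ B} with hVdef
  set S : Set Pl := {P | P ≠ O ∧ ev P ∈ V} with hSdef
  have hS : S.Finite := by
    refine Set.Finite.of_finite_image (f := ev) (hV.subset ?_) ?_
    · rintro x ⟨P, hP, rfl⟩
      exact hP.2
    · intro P hP Q hQ hPQ
      exact hinj P Q hP.1 hQ.1 hPQ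
  refine (S17NO_finite_bdd S hS d).subset ?_
  rintro E ⟨⟨hinv, hO, hdeg⟩, hH⟩
  refine ⟨fun P hP => ?_, fun P => (S17NO_apply_le_deg E P).trans hdeg⟩
  have hPs : P ∈ E.support := Finsupp.mem_support_iff.2 hP
  have hPO : P ≠ O := by
    rintro rfl
    exact hP hO
  refine ⟨hPO, hev1 P hPO, fun i => ?_, (S17NO_h_le_H ev E hPs).trans hH⟩
  refine ⟨E.support.image fun Q => ev Q i,
    (Finset.card_image_le).trans ((S17NO_card_support_le E).trans hdeg), fun σ => ?_⟩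
  refine Finset.mem_image.2 ⟨act σ P, ?_, ?_⟩
  · rw [Finsupp.mem_support_iff, hinv]
    exact hP
  · rw [hevσ σ P hPO]

/-- **NORTH, class form**. -/
theorem S17NO_finite_cls {J : Type*} (cl : (Pl →₀ ℕ) → J)
    (i₀ : ι) (O : Pl) (act : (Ω ≃ₐ[ℚ] Ω) → Pl → Pl) (ev : Pl → ι → Ω)
    (hev1 : ∀ P, P ≠ O → ev P i₀ = 1)
    (hevσ : ∀ σ P, P ≠ O → ev (act σ P) = fun j => σ (ev P j))
    (hinj : ∀ P Q, P ≠ O → Q ≠ O → ev P = ev Q → P = Q) (d : ℕ) (B : ℝ) :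
    {y : J | ∃ E : Pl →₀ ℕ, S17NO_Adm O act d E ∧ cl E = y ∧ S17NO_H ev E ≤ B}.Finite := by
  refine ((S17NO_finite_div i₀ O act ev hev1 hevσ hinj d B).image cl).subset ?_
  rintro y ⟨E, hE, rfl, hH⟩
  exact ⟨E, ⟨hE, hH⟩, rfl⟩

/-! ### the function `μ` -/

/-- `μ(y) := inf {H(E) : E admissible, cl E = y}` (`0` if there is no such `E`). -/
noncomputable def S17NO_mu {J : Type*} (cl : (Pl →₀ ℕ) → J) (O : Pl)
    (act : (Ω ≃ₐ[ℚ] Ω) → Pl → Pl) (ev : Pl → ι → Ω) (d : ℕ) (y : J) : ℝ :=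
  sInf {r : ℝ | ∃ E : Pl →₀ ℕ, S17NO_Adm O act d E ∧ cl E = y ∧ S17NO_H ev E = r}

variable {J : Type*} (cl : (Pl →₀ ℕ) → J) (O : Pl) (act : (Ω ≃ₐ[ℚ] Ω) → Pl → Pl)
  (ev : Pl → ι → Ω) (d : ℕ)

theorem S17NO_mu_bddBelow (y : J) :
    BddBelow {r : ℝ | ∃ E : Pl →₀ ℕ, S17NO_Adm O act d E ∧ cl E = y ∧ S17NO_H ev E = r} :=
  ⟨0, by rintro r ⟨E, -, -, rfl⟩; exact S17NO_H_nonneg ev E⟩

theorem S17NO_mu_nonneg (y : J) : 0 ≤ S17NO_mu cl O act ev d y := by
  refine Real.sInf_nonneg ?_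
  rintro r ⟨E, -, -, rfl⟩
  exact S17NO_H_nonneg ev E

/-- `μ(cl E) ≤ H(E)` for admissible `E`. -/
theorem S17NO_mu_le {E : Pl →₀ ℕ} (hE : S17NO_Adm O act d E) :
    S17NO_mu cl O act ev d (cl E) ≤ S17NO_H ev E :=
  csInf_le (S17NO_mu_bddBelow cl O act ev d (cl E)) ⟨E, hE, rfl, rfl⟩

theorem S17NO_mu_le' {E : Pl →₀ ℕ} {y : J} (hE : S17NO_Adm O act d E) (hy : cl E = y) :
    S17NO_mu cl O act ev d y ≤ S17NO_H ev E := by
  subst hy
  exact S17NO_mu_le cl O act ev d hE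

/-- if `y` has an admissible divisor and `μ(y) < B` then it has one of height `< B`. -/
theorem S17NO_exists_of_mu_lt {y : J} (hy : ∃ E : Pl →₀ ℕ, S17NO_Adm O act d E ∧ cl E = y)
    {B : ℝ} (hB : S17NO_mu cl O act ev d y < B) :
    ∃ E : Pl →₀ ℕ, S17NO_Adm O act d E ∧ cl E = y ∧ S17NO_H ev E < B := by
  have hne : {r : ℝ | ∃ E : Pl →₀ ℕ, S17NO_Adm O act d E ∧ cl E = y ∧
      S17NO_H ev E = r}.Nonempty := by
    obtain ⟨E, hE, hEy⟩ := hy
    exact ⟨_, E, hE, hEy, rfl⟩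
  obtain ⟨r, ⟨E, hE, hEy, rfl⟩, hr⟩ := exists_lt_of_csInf_lt hne hB
  exact ⟨E, hE, hEy, hr⟩

/-- **Northcott for `μ`**. -/
theorem S17NO_finite_mu (i₀ : ι)
    (hev1 : ∀ P, P ≠ O → ev P i₀ = 1)
    (hevσ : ∀ σ P, P ≠ O → ev (act σ P) = fun j => σ (ev P j))
    (hinj : ∀ P Q, P ≠ O → Q ≠ O → ev P = ev Q → P = Q) (B : ℝ) :
    {y : J | (∃ E : Pl →₀ ℕ, S17NO_Adm O act d E ∧ cl E = y) ∧
      S17NO_mu cl O act ev d y ≤ B}.Finite := by
  refine (S17NO_finite_cls cl i₀ O act ev hev1 hevσ hinj d (B + 1)).subset ?_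
  rintro y ⟨hy, hμ⟩
  obtain ⟨E, hE, hEy, hH⟩ := S17NO_exists_of_mu_lt cl O act ev d hy
    (lt_of_le_of_lt hμ (lt_add_one B))
  exact ⟨E, hE, hEy, hH.le⟩

/-- the Northcott height `h(x) := μ(x) + μ(-x)`. -/
noncomputable def S17NO_h {J : Type*} [Neg J] (cl : (Pl →₀ ℕ) → J) (O : Pl)
    (act : (Ω ≃ₐ[ℚ] Ω) → Pl → Pl) (ev : Pl → ι → Ω) (d : ℕ) (y : J) : ℝ :=
  S17NO_mu cl O act ev d y + S17NO_mu cl O act ev d (-y)

theorem S17NO_h_nonneg {J : Type*} [Neg J] (cl : (Pl →₀ ℕ) → J) (y : J) :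
    0 ≤ S17NO_h cl O act ev d y :=
  add_nonneg (S17NO_mu_nonneg cl O act ev d y) (S17NO_mu_nonneg cl O act ev d (-y))

/-- **NORTH**: Northcott for `h = μ(x) + μ(-x)` restricted to a subgroup `A` all of whose
elements are classes of admissible divisors. -/
theorem S17NO_northcott {J : Type*} [AddGroup J] (cl : (Pl →₀ ℕ) → J) (A : AddSubgroup J)
    (hA : ∀ x ∈ A, ∃ E : Pl →₀ ℕ, S17NO_Adm O act d E ∧ cl E = x) (i₀ : ι)
    (hev1 : ∀ P, P ≠ O → ev P i₀ = 1)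
    (hevσ : ∀ σ P, P ≠ O → ev (act σ P) = fun j => σ (ev P j))
    (hinj : ∀ P Q, P ≠ O → Q ≠ O → ev P = ev Q → P = Q) :
    Northcott (fun x : ↥A => S17NO_h cl O act ev d (x : J)) := by
  refine ⟨fun B => ?_⟩
  have hfin := S17NO_finite_mu cl O act ev d i₀ hev1 hevσ hinj B
  refine Set.Finite.of_finite_image (f := fun x : ↥A => (x : J)) (hfin.subset ?_)
    (fun x _ y _ hxy => Subtype.ext hxy)
  rintro _ ⟨x, hx, rfl⟩
  refine ⟨hA x x.2, ?_⟩
  have h1 : S17NO_h cl O act ev d (x : J) ≤ B := hx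
  have h2 := S17NO_mu_nonneg cl O act ev d (-(x : J))
  unfold S17NO_h at h1
  linarith

end

end Fermat.Agent.S17
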