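import Mathlib
import Fermat.Agent.S17.Emb
import Fermat.Agent.S17.Move
import Fermat.Agent.S17.North

/-!
# TRACK 8 "MW" (S17), pillar HEIGHTS, package HT-INST (helper17): the concrete objects

`F = modularFunctionFieldBar N`, `Pl = Place ℚ̄ F`, `O = S17EM_O N` (cusp `∞`), `G = G_ℚ`.

* `S17HI_act σ P`      : the Galois action on places;
* `S17HI_div D`        : the divisor `Σ_{P ∈ D} P` of a finite set of places;
* `S17HI_Inv D`        : `D` is `G`-invariant;
* `S17HI_cls D`        : the class `[D − |D|·O] ∈ J`;  `S17HI_cls_mem` : it is `G`-fixed if `D` is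
                         `G`-invariant;  `S17HI_cls_union` : additive on disjoint unions;
* `S17HI_cl D`         : the same as an element of `J(ℚ) = S17_JQ N` (`0` if `D` is not invariant);
* `S17HI_clE E`        : the class `[E − deg(E)·O] ∈ J` of an effective divisor `E : Pl →₀ ℕ`;
* `S17HI_ofFinset D`   : the effective divisor of a finite set; `clE (ofFinset D) = cls D`.
-/

set_option autoImplicit false
set_option linter.style.haveILetI false
set_option linter.unusedSectionVars false
set_option linter.unusedVariables false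

open ModularCurve AlgebraicCurve

namespace Fermat.Agent.S17

open Fermat.Agent.Lib

noncomputable section

variable (N : ℕ) [NeZero N]

/-- the places of `F_N`. -/
abbrev S17HI_Pl : Type := Place (AlgebraicClosure ℚ) ↥(modularFunctionFieldBar N)

/-- decidable equality on places (classical), fixed once and for all for the concrete packages. -/
instance S17HI_decEq : DecidableEq (S17HI_Pl N) := Classical.decEq _

/-- the Galois action on places. -/
def S17HI_act (σ : S17_GQ) (P : S17HI_Pl N) : S17HI_Pl N :=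
  arithmeticGalois (modularFunctionFieldFull N) σ • P

theorem S17HI_act_O (σ : S17_GQ) : S17HI_act N σ (S17EM_O N) = S17EM_O N :=
  S17EM_smul_O N σ

theorem S17HI_act_injective (σ : S17_GQ) : Function.Injective (S17HI_act N σ) :=
  MulAction.injective (arithmeticGalois (modularFunctionFieldFull N) σ)

theorem S17HI_act_ne_O (σ : S17_GQ) {P : S17HI_Pl N} (hP : P ≠ S17EM_O N) :
    S17HI_act N σ P ≠ S17EM_O N := by
  intro h
  rw [← S17HI_act_O N σ] at h
  exact hP (S17HI_act_injective N σ h)

/-- the divisor `Σ_{P ∈ D} P`. -/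
def S17HI_div (D : Finset (S17HI_Pl N)) :
    Divisor (AlgebraicClosure ℚ) ↥(modularFunctionFieldBar N) :=
  ∑ P ∈ D, Finsupp.single P (1 : ℤ)

/-- `D` is Galois invariant. -/
def S17HI_Inv (D : Finset (S17HI_Pl N)) : Prop :=
  ∀ σ : S17_GQ, ∀ P ∈ D, S17HI_act N σ P ∈ D

theorem S17HI_inv_empty : S17HI_Inv N ∅ := fun _ _ h => absurd h (Finset.notMem_empty _)

theorem S17HI_inv_union {D E : Finset (S17HI_Pl N)} (hD : S17HI_Inv N D) (hE : S17HI_Inv N E) :
    S17HI_Inv N (D ∪ E) := by
  intro σ P hP
  rcases Finset.mem_union.1 hP with h | h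
  · exact Finset.mem_union_left _ (hD σ P h)
  · exact Finset.mem_union_right _ (hE σ P h)

/-- an invariant finite set is mapped ONTO itself. -/
theorem S17HI_image_eq {D : Finset (S17HI_Pl N)} (hD : S17HI_Inv N D) (σ : S17_GQ) :
    D.image (S17HI_act N σ) = D := by
  refine Finset.eq_of_subset_of_card_le ?_ ?_
  · intro Q hQ
    obtain ⟨P, hP, rfl⟩ := Finset.mem_image.1 hQ
    exact hD σ P hP
  · rw [Finset.card_image_of_injective _ (S17HI_act_injective N σ)]

theorem S17HI_act_mem_iff {D : Finset (S17HI_Pl N)} (hD : S17HI_Inv N D) (σ : S17_GQ)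
    (P : S17HI_Pl N) : S17HI_act N σ P ∈ D ↔ P ∈ D := by
  constructor
  · intro h
    rw [← S17HI_image_eq N hD σ] at h
    obtain ⟨Q, hQ, hQP⟩ := Finset.mem_image.1 h
    rw [← S17HI_act_injective N σ hQP]
    exact hQ
  · exact hD σ P

theorem S17HI_smul_div {D : Finset (S17HI_Pl N)} (hD : S17HI_Inv N D) (σ : S17_GQ) :
    arithmeticGalois (modularFunctionFieldFull N) σ • S17HI_div N D = S17HI_div N D := by
  unfold S17HI_div
  rw [Finset.smul_sum]
  conv_rhs => rw [← S17HI_image_eq N hD σ]
  rw [Finset.sum_image fun P _ Q _ h => S17HI_act_injective N σ h]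
  refine Finset.sum_congr rfl fun P _ => ?_
  rw [SemilinearAut.smul_single]
  rfl

theorem S17HI_div_union {D E : Finset (S17HI_Pl N)} (h : Disjoint D E) :
    S17HI_div N (D ∪ E) = S17HI_div N D + S17HI_div N E := by
  unfold S17HI_div
  exact Finset.sum_union h

theorem S17HI_div_degree (D : Finset (S17HI_Pl N)) :
    (S17HI_div N D).degree = D.card := by
  unfold S17HI_div
  rw [map_sum]
  simp [Divisor.degree_single, (S17ST_hRR N).deg_one]

/-- the class `[D − deg(D)·O]` of an arbitrary divisor. -/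
def S17HI_psi : Divisor (AlgebraicClosure ℚ) ↥(modularFunctionFieldBar N) →+ JZero N :=
  S17MV_psi (S17ST_hRR N) (S17EM_O N)

/-- `ψ` is Galois equivariant (`O` is rational). -/
theorem S17HI_psi_smul (σ : S17_GQ)
    (D : Divisor (AlgebraicClosure ℚ) ↥(modularFunctionFieldBar N)) :
    σ • S17HI_psi N D =
      S17HI_psi N (arithmeticGalois (modularFunctionFieldFull N) σ • D) := by
  unfold S17HI_psi
  rw [S17MV_psi_apply, S17MV_psi_apply, galois_smul_pic0_def, SemilinearAut.pic0_smul_mk]
  congr 1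
  apply Subtype.ext
  rw [SemilinearAut.coe_degZeroSMulHom, S17MV_proj_coe, S17MV_proj_coe, smul_sub,
    SemilinearAut.degree_smul]
  congr 1
  rw [smul_comm, SemilinearAut.smul_single, S17EM_smul_O]

/-- the class `[D − |D|·O] ∈ J`. -/
def S17HI_cls (D : Finset (S17HI_Pl N)) : JZero N := S17HI_psi N (S17HI_div N D)

theorem S17HI_cls_mem {D : Finset (S17HI_Pl N)} (hD : S17HI_Inv N D) :
    S17HI_cls N D ∈ S17_JQ N := by
  intro σ
  unfold S17HI_cls
  rw [S17HI_psi_smul, S17HI_smul_div N hD]

theorem S17HI_cls_union {D E : Finset (S17HI_Pl N)} (h : Disjoint D E) :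
    S17HI_cls N (D ∪ E) = S17HI_cls N D + S17HI_cls N E := by
  unfold S17HI_cls
  rw [S17HI_div_union N h, map_add]

theorem S17HI_cls_empty : S17HI_cls N ∅ = 0 := by
  unfold S17HI_cls S17HI_div
  simp

open Classical in
/-- the class `[D − |D|·O]` as an element of `J(ℚ)` (`0` if `D` is not invariant). -/
def S17HI_cl (D : Finset (S17HI_Pl N)) : ↥(S17_JQ N) :=
  if h : S17HI_Inv N D then ⟨S17HI_cls N D, S17HI_cls_mem N h⟩ else 0

theorem S17HI_cl_coe {D : Finset (S17HI_Pl N)} (hD : S17HI_Inv N D) :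
    ((S17HI_cl N D : ↥(S17_JQ N)) : JZero N) = S17HI_cls N D := by
  unfold S17HI_cl
  rw [dif_pos hD]

theorem S17HI_cl_union {D E : Finset (S17HI_Pl N)} (hD : S17HI_Inv N D) (hE : S17HI_Inv N E)
    (h : Disjoint D E) : S17HI_cl N (D ∪ E) = S17HI_cl N D + S17HI_cl N E := by
  apply Subtype.ext
  rw [AddSubgroup.coe_add, S17HI_cl_coe N hD, S17HI_cl_coe N hE,
    S17HI_cl_coe N (S17HI_inv_union N hD hE), S17HI_cls_union N h]

/-! ### effective divisors -/

/-- the integral divisor of an effective divisor. -/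
def S17HI_toDiv (E : S17HI_Pl N →₀ ℕ) :
    Divisor (AlgebraicClosure ℚ) ↥(modularFunctionFieldBar N) :=
  E.mapRange (Nat.cast : ℕ → ℤ) Nat.cast_zero

/-- the class `[E − deg(E)·O]` of an effective divisor. -/
def S17HI_clE (E : S17HI_Pl N →₀ ℕ) : JZero N := S17HI_psi N (S17HI_toDiv N E)

/-- the effective divisor of a finite set of places. -/
def S17HI_ofFinset (D : Finset (S17HI_Pl N)) : S17HI_Pl N →₀ ℕ :=
  ∑ P ∈ D, Finsupp.single P 1

theorem S17HI_ofFinset_apply (D : Finset (S17HI_Pl N)) (P : S17HI_Pl N) :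
    S17HI_ofFinset N D P = if P ∈ D then 1 else 0 := by
  unfold S17HI_ofFinset
  rw [Finsupp.finset_sum_apply]
  simp [Finsupp.single_apply]

theorem S17HI_toDiv_ofFinset (D : Finset (S17HI_Pl N)) :
    S17HI_toDiv N (S17HI_ofFinset N D) = S17HI_div N D := by
  ext P
  unfold S17HI_toDiv S17HI_div
  rw [Finsupp.mapRange_apply, S17HI_ofFinset_apply, Finsupp.finset_sum_apply]
  simp [Finsupp.single_apply]

theorem S17HI_clE_ofFinset (D : Finset (S17HI_Pl N)) :
    S17HI_clE N (S17HI_ofFinset N D) = S17HI_cls N D := by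
  unfold S17HI_clE S17HI_cls
  rw [S17HI_toDiv_ofFinset]

theorem S17HI_deg_ofFinset (D : Finset (S17HI_Pl N)) :
    S17NO_deg (S17HI_ofFinset N D) = D.card := by
  unfold S17HI_ofFinset
  induction D using Finset.induction_on with
  | empty => simp [S17NO_deg]
  | insert P D hP ih =>
    rw [Finset.sum_insert hP, S17NO_deg_add, ih, S17NO_deg_single, Finset.card_insert_of_notMem hP,
      add_comm]

/-- a finite invariant set not containing `O` gives an admissible effective divisor. -/
theorem S17HI_adm_ofFinset {D : Finset (S17HI_Pl N)} (hD : S17HI_Inv N D)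
    (hO : S17EM_O N ∉ D) {d : ℕ} (hd : D.card ≤ d) :
    S17NO_Adm (S17EM_O N) (S17HI_act N) d (S17HI_ofFinset N D) := by
  refine ⟨fun σ P => ?_, ?_, ?_⟩
  · rw [S17HI_ofFinset_apply, S17HI_ofFinset_apply]
    simp only [S17HI_act_mem_iff N hD σ P]
  · rw [S17HI_ofFinset_apply, if_neg hO]
  · rw [S17HI_deg_ofFinset]
    exact hd

end

end Fermat.Agent.S17
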