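import Mathlib
import Fermat.Agent.S17.Emb2
import Fermat.Agent.S17.NGSep
import Fermat.Agent.S17.HtInst
import Fermat.Agent.S17.NGLast
import Fermat.Agent.S17.NormGen

/-!
# TRACK 8 "MW" (S17), pillar HEIGHTS, package EMB part 3 (helper20)

The facts of EMB in the shapes of the fields of `S17H_Model` and of the hypotheses of
`S17NGZ_main_L`, for `ι = Fin (S17EM_r N k + 1)`, `e = S17EM_e N k`, `i0 = 0`, `il = Fin.last _`,
`g = RR_genus ℚ̄ F_N`:

* `S17EM_D_degree`    : `deg (kO) = k`;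
* `S17EM_neg_k_mem`   : `k` is a pole order at `O` if `2g + 1 ≤ k`;
* `S17EM_r_add_one`   : `r + 1 = k - g + 1` if `2g ≤ k`; `S17EM_card_iota` (`Fintype.card`);
* `S17EM_val_last`    : `val_O (e_last) = exp k` (`2g + 1 ≤ k`);
* `S17EM_val_low`     : `val_O (e_j) ≤ exp (k - 1)` for `j ≠ last` (`2g + 1 ≤ k`);
* `S17EM_val_off`     : `val_P (e_j) ≤ 1` for `P ≠ O`;
* `S17EM_c0_act`      : `FD_c0 (act σ P) (e_j) = σ (FD_c0 P (e_j))` for `P ≠ O`;
* `S17EM_ev`          : the coordinates `ev O = ε_last`, `ev P = (e_j (P))_j`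
  (`= S17NGL_ev O e last`, helper24), with the fields of `S17H_Model` in exact shape:
  `S17EM_ev_O_il`, `S17EM_ev_O_ne`, `S17EM_ev_i0`, `S17EM_ev_mem` (`2g + 1 ≤ k`),
  `S17EM_ev_act`, `S17EM_ev_inj` (`2g + 2 ≤ k`);
* `S17EM_normal`      : normal generation (`4g + 2 ≤ k`): every `f ∈ L(nkO)` is a homogeneous
  polynomial of degree `n` in the `e_j`;
* `S17EM_zero_set`    : `V(I) ∖ 0 = {c • ev P}` (`4g + 2 ≤ k`).
-/

set_option autoImplicit false
set_option linter.style.haveILetI false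
set_option linter.unusedVariables false
set_option linter.unusedSectionVars false

open ModularCurve AlgebraicCurve HahnSeries

namespace Fermat.Agent.S17

open Fermat.Agent.GalRep Fermat.Agent.Lib Fermat.Agent.S24

noncomputable section

local notation "ℚbar" => AlgebraicClosure ℚ

variable (N : ℕ) [NeZero N]

theorem S17EM_D_degree (k : ℕ) : (S17EM_D N k).degree = k := by
  rw [S17EM_D, Divisor.degree_single, (S17ST_hRR N).deg_one]
  simp

theorem S17EM_D_apply_O (k : ℕ) : S17EM_D N k (S17EM_O N) = k := by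
  rw [S17EM_D, Finsupp.single_eq_same]

theorem S17EM_D_apply_ne (k : ℕ) {P : Place ℚbar ↥(modularFunctionFieldBar N)}
    (hP : P ≠ S17EM_O N) : S17EM_D N k P = 0 := by
  classical
  rw [S17EM_D, Finsupp.single_apply, if_neg (Ne.symm hP)]

/-- `k` is a pole order at `O` as soon as `k ≥ 2g + 1`. -/
theorem S17EM_neg_k_mem (k : ℕ)
    (hk : 2 * RR_genus ℚbar ↥(modularFunctionFieldBar N) + 1 ≤ k) :
    -(k : ℤ) ∈ S17EM_Ords N k := by
  obtain ⟨f, hf, hval⟩ := S17NGS_exists_exact (S17ST_hRR N) (S17EM_D N k) (S17EM_O N)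
    (by rw [S17EM_D_degree]; exact_mod_cast hk)
  have hf0 : f ≠ 0 := by
    rintro rfl
    rw [map_zero] at hval
    exact WithZero.coe_ne_zero hval.symm
  refine ⟨f, hf, hf0, ?_⟩
  rw [Place.adicValuation_eq_exp_neg_ord _ hf0, S17EM_D_apply_O] at hval
  have := WithZero.exp_injective hval
  omega

/-- the number of basis elements, for `k ≥ 2g`. -/
theorem S17EM_r_add_one (k : ℕ)
    (hk : 2 * RR_genus ℚbar ↥(modularFunctionFieldBar N) ≤ k) :
    S17EM_r N k + 1 = k - RR_genus ℚbar ↥(modularFunctionFieldBar N) + 1 := by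
  have h := S17NGS_sharp (S17ST_hRR N) (S17EM_D N k)
    (by rw [S17EM_D_degree]; exact_mod_cast hk)
  rw [S17EM_finrank, S17EM_D_degree] at h
  push_cast at h
  omega

/-- the cardinality of the index set, in the shape of `S17H_Model.hcard`. -/
theorem S17EM_card_iota (k : ℕ)
    (hk : 2 * RR_genus ℚbar ↥(modularFunctionFieldBar N) ≤ k) :
    Fintype.card (Fin (S17EM_r N k + 1)) =
      k - RR_genus ℚbar ↥(modularFunctionFieldBar N) + 1 := by
  rw [Fintype.card_fin, S17EM_r_add_one N k hk]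

/-- the last basis element has a pole of exact order `k` at `O`. -/
theorem S17EM_val_last (k : ℕ)
    (hk : 2 * RR_genus ℚbar ↥(modularFunctionFieldBar N) + 1 ≤ k) :
    (S17EM_O N).adicValuation (S17EM_e N k (Fin.last _)) = WithZero.exp (k : ℤ) := by
  rw [Place.adicValuation_eq_exp_neg_ord _ (S17EM_e_ne_zero N k _),
    S17EM_e_last N k (S17EM_neg_k_mem N k hk), neg_neg]

/-- the other basis elements have a pole of order `< k` at `O`. -/
theorem S17EM_val_low (k : ℕ)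
    (hk : 2 * RR_genus ℚbar ↥(modularFunctionFieldBar N) + 1 ≤ k)
    (j : Fin (S17EM_r N k + 1)) (hj : j ≠ Fin.last _) :
    (S17EM_O N).adicValuation (S17EM_e N k j) ≤ WithZero.exp ((k : ℤ) - 1) := by
  rw [Place.adicValuation_eq_exp_neg_ord _ (S17EM_e_ne_zero N k _), WithZero.exp_le_exp]
  have h1 : (S17EM_O N).ord (S17EM_e N k (Fin.last _)) < (S17EM_O N).ord (S17EM_e N k j) :=
    S17EM_e_strictAnti N k (lt_of_le_of_ne (Fin.le_last j) hj)
  rw [S17EM_e_last N k (S17EM_neg_k_mem N k hk)] at h1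
  omega

/-- the basis elements are regular off `O`. -/
theorem S17EM_val_off (k : ℕ) (j : Fin (S17EM_r N k + 1))
    (P : Place ℚbar ↥(modularFunctionFieldBar N)) (hP : P ≠ S17EM_O N) :
    P.adicValuation (S17EM_e N k j) ≤ 1 := by
  have h := S17EM_e_mem N k j P
  rwa [S17EM_D_apply_ne N k hP, WithZero.exp_zero] at h

/-- all elements of `L(kO)` are regular off `O`. -/
theorem S17EM_val_off_of_mem (k : ℕ) {f : ↥(modularFunctionFieldBar N)}
    (hf : f ∈ riemannRochSpace (S17EM_D N k))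
    (P : Place ℚbar ↥(modularFunctionFieldBar N)) (hP : P ≠ S17EM_O N) :
    P.adicValuation f ≤ 1 := by
  have h := hf P
  rwa [S17EM_D_apply_ne N k hP, WithZero.exp_zero] at h

/-- membership in `L(kO)` in terms of valuations. -/
theorem S17EM_mem_iff (k : ℕ) (f : ↥(modularFunctionFieldBar N)) :
    f ∈ riemannRochSpace (S17EM_D N k) ↔
      (∀ P : Place ℚbar ↥(modularFunctionFieldBar N), P ≠ S17EM_O N → P.adicValuation f ≤ 1) ∧
        (S17EM_O N).adicValuation f ≤ WithZero.exp (k : ℤ) := by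
  constructor
  · intro hf
    refine ⟨fun P hP => S17EM_val_off_of_mem N k hf P hP, ?_⟩
    have h := hf (S17EM_O N)
    rwa [S17EM_D_apply_O] at h
  · rintro ⟨h1, h2⟩ P
    by_cases hP : P = S17EM_O N
    · rw [hP, S17EM_D_apply_O]; exact h2
    · rw [S17EM_D_apply_ne N k hP, WithZero.exp_zero]
      exact h1 P hP

/-- **Galois equivariance of the coordinates** (raw form). -/
theorem S17EM_c0_act (k : ℕ) (σ : S17_GQ) (P : Place ℚbar ↥(modularFunctionFieldBar N))
    (hP : P ≠ S17EM_O N) (j : Fin (S17EM_r N k + 1)) :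
    FD_c0 (S17HI_act N σ P) (S17EM_e N k j) = σ (FD_c0 P (S17EM_e N k j)) :=
  S17EM_c0_rational N σ P (S17EM_e_rational N k σ j) (S17EM_val_off N k j P hP)

/-- the value of the constant `1` at a place. -/
theorem S17EM_c0_one (P : Place ℚbar ↥(modularFunctionFieldBar N)) :
    FD_c0 P (1 : ↥(modularFunctionFieldBar N)) = 1 := by
  apply FD_c0_unique
  rw [map_one, sub_self, map_zero]
  exact zero_lt_one

/-! ### the coordinates -/

/-- the coordinates of a place: `ev O = ε_last`, `ev P = (e_j(P))_j` for `P ≠ O`. -/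
def S17EM_ev (k : ℕ) (P : Place ℚbar ↥(modularFunctionFieldBar N)) :
    Fin (S17EM_r N k + 1) → ℚbar :=
  S17NGL_ev (S17EM_O N) (S17EM_e N k) (Fin.last _) P

/-- the ideal of the homogeneous relations between the `e_j`. -/
def S17EM_I (k : ℕ) : Ideal (MvPolynomial (Fin (S17EM_r N k + 1)) ℚbar) :=
  S17NGZ_I (K := ℚbar) (S17EM_e N k)

theorem S17EM_ev_of_ne (k : ℕ) {P : Place ℚbar ↥(modularFunctionFieldBar N)}
    (hP : P ≠ S17EM_O N) : S17EM_ev N k P = fun j => FD_c0 P (S17EM_e N k j) :=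
  S17NGL_ev_of_ne _ _ _ hP

/-- field `ev_O_il`. -/
theorem S17EM_ev_O_il (k : ℕ) : S17EM_ev N k (S17EM_O N) (Fin.last _) = 1 :=
  S17NGL_ev_O_il _ _ _

/-- field `ev_O_ne`. -/
theorem S17EM_ev_O_ne (k : ℕ) (j : Fin (S17EM_r N k + 1)) (hj : j ≠ Fin.last _) :
    S17EM_ev N k (S17EM_O N) j = 0 :=
  S17NGL_ev_O_ne _ _ _ j hj

/-- field `ev_i0`. -/
theorem S17EM_ev_i0 (k : ℕ) (P : Place ℚbar ↥(modularFunctionFieldBar N))
    (hP : P ≠ S17EM_O N) : S17EM_ev N k P 0 = 1 :=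
  S17NGL_ev_i0 _ _ _ 0 (S17EM_e_zero N k) hP

/-- field `ev_mem` (`2g + 1 ≤ k`). -/
theorem S17EM_ev_mem (k : ℕ)
    (hk : 2 * RR_genus ℚbar ↥(modularFunctionFieldBar N) + 1 ≤ k)
    (P : Place ℚbar ↥(modularFunctionFieldBar N)) :
    S17EM_ev N k P ∈ S17H_V (S17EM_I N k) :=
  S17NGL_ev_mem (S17ST_hRR N) (S17EM_O N) k (S17EM_e N k) (Fin.last _)
    (S17EM_val_last N k hk) (S17EM_val_low N k hk) (S17EM_val_off N k) P

/-- field `ev_act`: **Galois equivariance of the coordinates**. -/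
theorem S17EM_ev_act (k : ℕ) (σ : S17_GQ) (P : Place ℚbar ↥(modularFunctionFieldBar N))
    (hP : P ≠ S17EM_O N) :
    S17EM_ev N k (S17HI_act N σ P) = fun j => σ (S17EM_ev N k P j) := by
  rw [S17EM_ev_of_ne N k (S17HI_act_ne_O N σ hP), S17EM_ev_of_ne N k hP]
  funext j
  exact S17EM_c0_act N k σ P hP j

/-- field `ev_inj` (`2g + 2 ≤ k`). -/
theorem S17EM_ev_inj (k : ℕ)
    (hk : 2 * RR_genus ℚbar ↥(modularFunctionFieldBar N) + 2 ≤ k)
    (P Q : Place ℚbar ↥(modularFunctionFieldBar N)) (hPQ : P ≠ Q) :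
    S17H_wedge (S17EM_ev N k P) (S17EM_ev N k Q) ≠ 0 :=
  S17NGL_ev_inj (S17ST_hRR N) (S17EM_O N) k (S17EM_e N k) 0 (Fin.last _) (S17EM_e_zero N k)
    (S17EM_val_last N k (by omega)) (by omega) (S17EM_D N k)
    (fun P hP => S17EM_D_apply_ne N k hP)
    (by rw [S17EM_D_degree]; exact_mod_cast hk) (S17EM_span_e N k) P Q hPQ

/-- the coordinates of a place are not all zero. -/
theorem S17EM_ev_ne_zero (k : ℕ) (P : Place ℚbar ↥(modularFunctionFieldBar N)) :
    S17EM_ev N k P ≠ 0 :=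
  S17NGL_ev_ne_zero (S17EM_O N) (S17EM_e N k) 0 (Fin.last _) (S17EM_e_zero N k) P

/-- the first and the last index are different (`k ≥ 2g + 1`). -/
theorem S17EM_zero_ne_last (k : ℕ)
    (hk : 2 * RR_genus ℚbar ↥(modularFunctionFieldBar N) + 1 ≤ k) :
    (0 : Fin (S17EM_r N k + 1)) ≠ Fin.last _ :=
  S17NGL_i0_ne_il (S17EM_O N) k (S17EM_e N k) 0 (Fin.last _) (S17EM_e_zero N k)
    (S17EM_val_last N k hk) (by omega)

/-! ### normal generation and the zero set of the relations -/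

/-- **normal generation** (`4g + 2 ≤ k`): every `f ∈ L(nkO)`, `n ≥ 1`, is a homogeneous
polynomial of degree `n` in the `e_j`. -/
theorem S17EM_normal (k : ℕ)
    (hk : 4 * RR_genus ℚbar ↥(modularFunctionFieldBar N) + 2 ≤ k)
    (n : ℕ) (hn : 1 ≤ n) (f : ↥(modularFunctionFieldBar N))
    (hf : f ∈ riemannRochSpace (S17EM_D N (n * k))) :
    ∃ p : MvPolynomial (Fin (S17EM_r N k + 1)) ℚbar,
      p.IsHomogeneous n ∧ MvPolynomial.aeval (S17EM_e N k) p = f :=
  S17NG_main (S17ST_hRR N) (S17EM_O N) (S17EM_e N k) k hk (S17EM_span_e N k).ge n hn f hf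

/-- **the zero set of the relations** (`4g + 2 ≤ k`): every `x ≠ 0` in `V(I)` is proportional
to the coordinate vector of a place. -/
theorem S17EM_zero_set (k : ℕ)
    (hk : 4 * RR_genus ℚbar ↥(modularFunctionFieldBar N) + 2 ≤ k)
    (x : Fin (S17EM_r N k + 1) → ℚbar) (hx : x ≠ 0) (hxI : x ∈ S17H_V (S17EM_I N k)) :
    ∃ (P : Place ℚbar ↥(modularFunctionFieldBar N)) (c : ℚbar),
      c ≠ 0 ∧ x = c • S17EM_ev N k P := by
  have hk1 : 2 * RR_genus ℚbar ↥(modularFunctionFieldBar N) + 1 ≤ k := by omega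
  rcases S17NGZ_main_L (S17ST_hRR N) (S17EM_O N) k (by omega) (S17EM_e N k) 0 (Fin.last _)
    (S17EM_e_zero N k) (fun n => S17EM_D N (n * k))
    (fun n P hP => S17EM_D_apply_ne N (n * k) hP)
    (fun n => S17EM_D_apply_O N (n * k))
    (fun j => by rw [one_mul]; exact S17EM_e_mem N k j)
    (S17EM_val_last N k hk1) (S17EM_val_low N k hk1)
    (fun n hn f hf => S17EM_normal N k hk n hn f hf) x hx hxI with ⟨P, hP, c, hc, hxP⟩ | ⟨h1, h2⟩
  · refine ⟨P, c, hc, ?_⟩
    rw [hxP, S17EM_ev_of_ne N k hP]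
    rfl
  · refine ⟨S17EM_O N, x (Fin.last _), h1, ?_⟩
    funext j
    by_cases hj : j = Fin.last _
    · rw [hj, Pi.smul_apply, S17EM_ev_O_il, smul_eq_mul, mul_one]
    · rw [h2 j hj, Pi.smul_apply, S17EM_ev_O_ne N k j hj, smul_zero]

end

end Fermat.Agent.S17
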