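import Mathlib
import Fermat.Agent.S17.Emb3

/-!
# TRACK 8 "MW" (S17), pillar HEIGHTS, package EMB part 4 (helper20)

The pole orders of the rational basis `e = S17EM_e N k` of `L(kO)`:

* `S17EM_neg_mem_Ords` : every `m` with `2g + 1 ≤ m ≤ k` is a pole order of `L(kO)`;
* `S17EM_exists_ord`   : for `2g + 1 ≤ m ≤ k` there is `j` with `ord_O (e j) = -m`;
* `S17EM_exists_val`   : the same with valuations, `val_O (e j) = exp m`;
* `S17EM_exists_pred`  : for `2g + 2 ≤ k` there is `j₁ ≠ last` with `ord_O (e j₁) = -(k - 1)`.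
-/

set_option autoImplicit false
set_option linter.style.haveILetI false
set_option linter.unusedVariables false
set_option linter.unusedSectionVars false

open ModularCurve AlgebraicCurve HahnSeries

namespace Fermat.Agent.S17

open Fermat.Agent.GalRep Fermat.Agent.Lib Fermat.Agent.S24

noncomputable section

local notation "ℚbar" => AlgebraicClosure ℚ

variable (N : ℕ) [NeZero N]

/-- `L(mO) ≤ L(kO)` for `m ≤ k`. -/
theorem S17EM_D_mono {m k : ℕ} (hmk : m ≤ k) :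
    riemannRochSpace (S17EM_D N m) ≤ riemannRochSpace (S17EM_D N k) := by
  intro f hf
  rw [S17EM_mem_iff] at hf ⊢
  refine ⟨hf.1, hf.2.trans ?_⟩
  rw [WithZero.exp_le_exp]
  exact_mod_cast hmk

/-- every `m` with `2g + 1 ≤ m ≤ k` is a pole order of `L(kO)`. -/
theorem S17EM_neg_mem_Ords (k m : ℕ)
    (hm : 2 * RR_genus ℚbar ↥(modularFunctionFieldBar N) + 1 ≤ m) (hmk : m ≤ k) :
    -(m : ℤ) ∈ S17EM_Ords N k := by
  obtain ⟨f, hf, hf0, hord⟩ := S17EM_neg_k_mem N m hm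
  exact ⟨f, S17EM_D_mono N hmk hf, hf0, hord⟩

/-- for `2g + 1 ≤ m ≤ k` some basis element has pole order exactly `m` at `O`. -/
theorem S17EM_exists_ord (k m : ℕ)
    (hm : 2 * RR_genus ℚbar ↥(modularFunctionFieldBar N) + 1 ≤ m) (hmk : m ≤ k) :
    ∃ j : Fin (S17EM_r N k + 1), (S17EM_O N).ord (S17EM_e N k j) = -(m : ℤ) := by
  obtain ⟨j, hj⟩ := S17EM_exists_emb N k (S17EM_neg_mem_Ords N k m hm hmk)
  refine ⟨Fin.rev j, ?_⟩
  rw [S17EM_e_ord, Fin.rev_rev, hj]

/-- the same with valuations. -/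
theorem S17EM_exists_val (k m : ℕ)
    (hm : 2 * RR_genus ℚbar ↥(modularFunctionFieldBar N) + 1 ≤ m) (hmk : m ≤ k) :
    ∃ j : Fin (S17EM_r N k + 1),
      (S17EM_O N).adicValuation (S17EM_e N k j) = WithZero.exp (m : ℤ) := by
  obtain ⟨j, hj⟩ := S17EM_exists_ord N k m hm hmk
  refine ⟨j, ?_⟩
  rw [Place.adicValuation_eq_exp_neg_ord _ (S17EM_e_ne_zero N k _), hj, neg_neg]

/-- for `k ≥ 2g + 2` some basis element `≠ e_last` has pole order exactly `k - 1` at `O`. -/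
theorem S17EM_exists_pred (k : ℕ)
    (hk : 2 * RR_genus ℚbar ↥(modularFunctionFieldBar N) + 2 ≤ k) :
    ∃ j₁ : Fin (S17EM_r N k + 1), j₁ ≠ Fin.last _ ∧
      (S17EM_O N).ord (S17EM_e N k j₁) = -((k : ℤ) - 1) := by
  obtain ⟨j, hj⟩ := S17EM_exists_ord N k (k - 1) (by omega) (by omega)
  refine ⟨j, ?_, ?_⟩
  · rintro rfl
    rw [S17EM_e_last N k (S17EM_neg_k_mem N k (by omega))] at hj
    have : ((k - 1 : ℕ) : ℤ) = (k : ℤ) - 1 := by
      rw [Nat.cast_sub (by omega)]; simp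
    omega
  · rw [hj, Nat.cast_sub (by omega)]
    simp

/-- the pole orders of the basis elements are exactly the elements of `S17EM_Ords`. -/
theorem S17EM_ord_mem_Ords (k : ℕ) (j : Fin (S17EM_r N k + 1)) :
    (S17EM_O N).ord (S17EM_e N k j) ∈ S17EM_Ords N k :=
  ⟨S17EM_e N k j, S17EM_e_mem N k j, S17EM_e_ne_zero N k j, rfl⟩

/-- every nonzero `f ∈ L(kO)` has the pole order of some basis element. -/
theorem S17EM_exists_ord_eq (k : ℕ) {f : ↥(modularFunctionFieldBar N)}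
    (hf : f ∈ riemannRochSpace (S17EM_D N k)) (hf0 : f ≠ 0) :
    ∃ j : Fin (S17EM_r N k + 1), (S17EM_O N).ord (S17EM_e N k j) = (S17EM_O N).ord f := by
  obtain ⟨j, hj⟩ := S17EM_exists_emb N k ⟨f, hf, hf0, rfl⟩
  refine ⟨Fin.rev j, ?_⟩
  rw [S17EM_e_ord, Fin.rev_rev, hj]

end

end Fermat.Agent.S17
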