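import Mathlib.Algebra.BigOperators.Group.Finset.Basic
import Mathlib.Algebra.BigOperators.Ring.Finset
import Mathlib.Algebra.Order.BigOperators.Group.Finset
import Mathlib.Algebra.Order.AbsoluteValue.Basic
import Mathlib.Data.Real.Basic
import Mathlib.Tactic.Linarith
import Mathlib.Tactic.Ring
import Mathlib.Tactic.Abel
import Mathlib.Tactic.FieldSimp

/-!
# TRACK 8 (S17), package PAIRF: the formal part of the height pairing (shape fixed by helper7)

Abstract setting (nothing about curves is used).  `Pt` is a type of points, `lam` the symmetric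
chordal function `λ`, `hk` the height `h_k` of a point, `k = 4·d1`, `Good` the generic divisors
(finite sets of points), `cl D = [D − |D|·O]` their classes in an abelian group `J` (additive on
disjoint unions of GOOD divisors; nothing is asked of `cl` on other finite sets).  Hypotheses:
`move` (every class has a good representative of any degree in `[d1, 3·d1]` avoiding a given finite
set) and `deca` (`= (DEC) + (A)`: for a good `Z` of degree `k` and class `0` and `Q ∉ Z`,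
`Λ(Q, Z) = H_k(Z)/k + h_k(Q) + O(1)`).

`S17PF_par`: for any choice `x ↦ (D x, D' x)` of disjoint good divisors of degree `2·d1` and classes
`x`, `−x`, the function `q x = β(D x, D' x)` satisfies the parallelogram law up to a constant.
Also `S17PF_wd2` (independence of the representatives) and `S17PF_par'` (the same for a function
`q` which is within `O(1)` of `β` on ALL such pairs).
-/

set_option autoImplicit false
set_option linter.unusedSectionVars false

open Finset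

namespace Fermat.Agent.S17

/-- the data and hypotheses of PAIRF (exact shape of helper7's note). -/
structure S17PF_Data (J : Type*) [AddCommGroup J] (Pt : Type*) [DecidableEq Pt] where
  lam : Pt → Pt → ℝ
  lam_symm : ∀ P Q, lam P Q = lam Q P
  hk : Pt → ℝ
  d1 : ℕ
  hd1 : 0 < d1
  Good : Finset Pt → Prop
  good_union : ∀ D E, Good D → Good E → Good (D ∪ E)
  cl : Finset Pt → J
  cl_union : ∀ D E, Good D → Good E → Disjoint D E → cl (D ∪ E) = cl D + cl E
  move : ∀ (x : J) (S : Finset Pt) (d : ℕ), d1 ≤ d → d ≤ 3 * d1 →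
    ∃ D, Good D ∧ D.card = d ∧ cl D = x ∧ Disjoint D S
  C0 : ℝ
  deca : ∀ Z, Good Z → Z.card = 4 * d1 → cl Z = 0 → ∀ Q, Q ∉ Z →
    |∑ R ∈ Z, lam Q R - (∑ R ∈ Z, hk R) / (4 * d1 : ℝ) - hk Q| ≤ C0

variable {J : Type*} [AddCommGroup J] {Pt : Type*} [DecidableEq Pt]

/-- `β(D, E) = Λ(D, E) − (|E|·H_k(D) + |D|·H_k(E)) / k`. -/
noncomputable def S17PF_Data.beta (A : S17PF_Data J Pt) (D E : Finset Pt) : ℝ :=
  (∑ P ∈ D, ∑ Q ∈ E, A.lam P Q)
    - ((E.card : ℝ) * (∑ P ∈ D, A.hk P) + (D.card : ℝ) * (∑ Q ∈ E, A.hk Q)) / (4 * A.d1 : ℝ)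

namespace S17PF_Data

variable (A : S17PF_Data J Pt)

/-- the uniform constant `M = 3·d1·|C0|`. -/
noncomputable def bd : ℝ := 3 * A.d1 * |A.C0|

theorem bd_nonneg : 0 ≤ A.bd := by
  unfold bd
  positivity

theorem beta_symm (D E : Finset Pt) : A.beta D E = A.beta E D := by
  unfold beta
  rw [Finset.sum_comm]
  have : ∑ y ∈ E, ∑ x ∈ D, A.lam x y = ∑ y ∈ E, ∑ x ∈ D, A.lam y x :=
    Finset.sum_congr rfl fun Q _ => Finset.sum_congr rfl fun P _ => A.lam_symm P Q
  rw [this]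
  ring

/-- Step 0: `β` is additive for disjoint unions in the first argument. -/
theorem beta_union_left {D D'' : Finset Pt} (h : Disjoint D D'') (E : Finset Pt) :
    A.beta (D ∪ D'') E = A.beta D E + A.beta D'' E := by
  unfold beta
  rw [Finset.sum_union h, Finset.sum_union h, Finset.card_union_of_disjoint h]
  push_cast
  ring

theorem beta_union_right (D : Finset Pt) {E E'' : Finset Pt} (h : Disjoint E E'') :
    A.beta D (E ∪ E'') = A.beta D E + A.beta D E'' := by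
  rw [A.beta_symm, A.beta_union_left h, A.beta_symm E, A.beta_symm E'']

/-- Step 1 (PRINC). -/
theorem princ {Z : Finset Pt} (hZ : A.Good Z) (hc : Z.card = 4 * A.d1) (hcl : A.cl Z = 0)
    {E : Finset Pt} (hE : Disjoint E Z) : |A.beta E Z| ≤ E.card * |A.C0| := by
  have hd0 : (A.d1 : ℝ) ≠ 0 := by
    have := A.hd1
    positivity
  have key : A.beta E Z =
      ∑ Q ∈ E, (∑ R ∈ Z, A.lam Q R - (∑ R ∈ Z, A.hk R) / (4 * A.d1 : ℝ) - A.hk Q) := by
    unfold beta
    rw [Finset.sum_sub_distrib, Finset.sum_sub_distrib, Finset.sum_const, hc, nsmul_eq_mul]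
    push_cast
    field_simp
    ring
  rw [key]
  calc |∑ Q ∈ E, (∑ R ∈ Z, A.lam Q R - (∑ R ∈ Z, A.hk R) / (4 * A.d1 : ℝ) - A.hk Q)|
      ≤ ∑ Q ∈ E, |∑ R ∈ Z, A.lam Q R - (∑ R ∈ Z, A.hk R) / (4 * A.d1 : ℝ) - A.hk Q| :=
        Finset.abs_sum_le_sum_abs _ _
    _ ≤ ∑ _Q ∈ E, |A.C0| := by
        refine Finset.sum_le_sum fun Q hQ => ?_
        exact (A.deca Z hZ hc hcl Q (fun hQZ => (Finset.disjoint_left.mp hE) hQ hQZ)).trans
          (le_abs_self _)
    _ = E.card * |A.C0| := by rw [Finset.sum_const, nsmul_eq_mul]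

theorem princ' {Z : Finset Pt} (hZ : A.Good Z) (hc : Z.card = 4 * A.d1) (hcl : A.cl Z = 0)
    {E : Finset Pt} (hE : Disjoint E Z) (hcE : E.card ≤ 3 * A.d1) : |A.beta E Z| ≤ A.bd := by
  refine (A.princ hZ hc hcl hE).trans ?_
  unfold bd
  have : (E.card : ℝ) ≤ 3 * A.d1 := by exact_mod_cast hcE
  exact mul_le_mul_of_nonneg_right this (abs_nonneg _)

/-- Step 2 (WD1). -/
theorem wd1 {D1 D2 E : Finset Pt} (h1 : A.Good D1) (h2 : A.Good D2) {a : ℕ}
    (ha1 : A.d1 ≤ a) (ha3 : a ≤ 3 * A.d1) (hc1 : D1.card = a) (hc2 : D2.card = a)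
    (hcl : A.cl D1 = A.cl D2) (hE1 : Disjoint D1 E) (hE2 : Disjoint D2 E)
    (hcE : E.card ≤ 3 * A.d1) :
    |A.beta D1 E - A.beta D2 E| ≤ 2 * A.bd := by
  obtain ⟨D'', hG, hc'', hcl'', hd''⟩ := A.move (-A.cl D1) (D1 ∪ D2 ∪ E) (4 * A.d1 - a)
    (by omega) (by omega)
  have hd := Finset.disjoint_union_right.mp hd''
  have hd' := Finset.disjoint_union_right.mp hd.1
  have d1'' : Disjoint D1 D'' := hd'.1.symm
  have d2'' : Disjoint D2 D'' := hd'.2.symm
  have dE'' : Disjoint E D'' := hd.2.symm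
  have hZ1 : A.Good (D1 ∪ D'') := A.good_union _ _ h1 hG
  have hZ2 : A.Good (D2 ∪ D'') := A.good_union _ _ h2 hG
  have hcZ1 : (D1 ∪ D'').card = 4 * A.d1 := by
    rw [Finset.card_union_of_disjoint d1'', hc1, hc'']; omega
  have hcZ2 : (D2 ∪ D'').card = 4 * A.d1 := by
    rw [Finset.card_union_of_disjoint d2'', hc2, hc'']; omega
  have hclZ1 : A.cl (D1 ∪ D'') = 0 := by rw [A.cl_union _ _ h1 hG d1'', hcl'', add_neg_cancel]
  have hclZ2 : A.cl (D2 ∪ D'') = 0 := by
    rw [A.cl_union _ _ h2 hG d2'', hcl'', ← hcl, add_neg_cancel]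
  have p1 := A.princ' hZ1 hcZ1 hclZ1 (Finset.disjoint_union_right.mpr ⟨hE1.symm, dE''⟩) hcE
  have p2 := A.princ' hZ2 hcZ2 hclZ2 (Finset.disjoint_union_right.mpr ⟨hE2.symm, dE''⟩) hcE
  rw [A.beta_symm, A.beta_union_left d1''] at p1
  rw [A.beta_symm, A.beta_union_left d2''] at p2
  rw [abs_le] at p1 p2 ⊢
  constructor <;> linarith [p1.1, p1.2, p2.1, p2.2]

/-- Step 3 (WD2): `β(D, E)` depends only on the degrees and the classes, up to `6M`. -/
theorem wd2 {D E D2 E2 : Finset Pt} {a b : ℕ}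
    (ha1 : A.d1 ≤ a) (ha3 : a ≤ 3 * A.d1) (hb1 : A.d1 ≤ b) (hb3 : b ≤ 3 * A.d1)
    (hD : A.Good D) (hE : A.Good E) (hD2 : A.Good D2) (hE2 : A.Good E2)
    (hcD : D.card = a) (hcD2 : D2.card = a) (hcE : E.card = b) (hcE2 : E2.card = b)
    (hclD : A.cl D = A.cl D2) (hclE : A.cl E = A.cl E2)
    (hdis : Disjoint D E) (hdis2 : Disjoint D2 E2) :
    |A.beta D E - A.beta D2 E2| ≤ 6 * A.bd := by
  obtain ⟨D3, hG3, hc3, hcl3, hd3⟩ := A.move (A.cl D) (D ∪ D2 ∪ E ∪ E2) a ha1 ha3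
  have hd := Finset.disjoint_union_right.mp hd3
  have hd' := Finset.disjoint_union_right.mp hd.1
  have hd'' := Finset.disjoint_union_right.mp hd'.1
  have d3E : Disjoint D3 E := hd'.2
  have d3E2 : Disjoint D3 E2 := hd.2
  have s1 := A.wd1 hD hG3 ha1 ha3 hcD hc3 hcl3.symm hdis d3E (by omega)
  have s2 := A.wd1 hE hE2 hb1 hb3 hcE hcE2 hclE d3E.symm d3E2.symm (by omega : D3.card ≤ _)
  have s3 := A.wd1 hG3 hD2 ha1 ha3 hc3 hcD2 (hcl3.trans hclD) d3E2 hdis2 (by omega)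
  rw [A.beta_symm E D3, A.beta_symm E2 D3] at s2
  rw [abs_le] at s1 s2 s3 ⊢
  constructor <;> linarith [s1.1, s1.2, s2.1, s2.2, s3.1, s3.2]

/-- representatives of degree `d1` of a pair of classes. -/
theorem exists_rep (x y : J) :
    ∃ D E : Finset Pt, A.Good D ∧ A.Good E ∧ D.card = A.d1 ∧ E.card = A.d1 ∧ A.cl D = x ∧
      A.cl E = y ∧ Disjoint D E := by
  have h3 : A.d1 ≤ 3 * A.d1 := by omega
  obtain ⟨D, hD, hcD, hclD, -⟩ := A.move x ∅ A.d1 le_rfl h3
  obtain ⟨E, hE, hcE, hclE, hdE⟩ := A.move y D A.d1 le_rfl h3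
  exact ⟨D, E, hD, hE, hcD, hcE, hclD, hclE, hdE.symm⟩

/-- Step 4: the pairing of two classes (with chosen representatives of degree `d1`). -/
noncomputable def b (x y : J) : ℝ :=
  A.beta (A.exists_rep x y).choose (A.exists_rep x y).choose_spec.choose

/-- every pair of disjoint good representatives of degree `d1` computes `b` up to `6M`. -/
theorem b_eq {x y : J} {D E : Finset Pt} (hD : A.Good D) (hE : A.Good E)
    (hcD : D.card = A.d1) (hcE : E.card = A.d1) (hclD : A.cl D = x) (hclE : A.cl E = y)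
    (hdis : Disjoint D E) : |A.beta D E - A.b x y| ≤ 6 * A.bd := by
  obtain ⟨hD', hE', hcD', hcE', hclD', hclE', hdis'⟩ := (A.exists_rep x y).choose_spec.choose_spec
  have h3 : A.d1 ≤ 3 * A.d1 := by omega
  exact A.wd2 le_rfl h3 le_rfl h3 hD hE hD' hE' hcD hcD' hcE hcE' (hclD.trans hclD'.symm)
    (hclE.trans hclE'.symm) hdis hdis'

theorem b_symm (x y : J) : |A.b x y - A.b y x| ≤ 25 * A.bd := by
  obtain ⟨hD', hE', hcD', hcE', hclD', hclE', hdis'⟩ := (A.exists_rep x y).choose_spec.choose_spec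
  have h := A.b_eq hE' hD' hcE' hcD' hclE' hclD' hdis'.symm
  rw [A.beta_symm] at h
  have h0 := A.bd_nonneg
  have e : A.beta (A.exists_rep x y).choose (A.exists_rep x y).choose_spec.choose = A.b x y := rfl
  rw [e] at h
  rw [abs_le] at h ⊢
  constructor <;> linarith [h.1, h.2]

/-- (4-TERM). -/
theorem b_four (x1 x2 x3 x4 y : J) (hx : x1 + x2 + x3 + x4 = 0) :
    |A.b x1 y + A.b x2 y + A.b x3 y + A.b x4 y| ≤ 25 * A.bd := by
  have h3 : A.d1 ≤ 3 * A.d1 := by omega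
  obtain ⟨E, hE, hcE, hclE, -⟩ := A.move y ∅ A.d1 le_rfl h3
  obtain ⟨D1, hD1, hc1, hcl1, hd1⟩ := A.move x1 E A.d1 le_rfl h3
  obtain ⟨D2, hD2, hc2, hcl2, hd2⟩ := A.move x2 (E ∪ D1) A.d1 le_rfl h3
  obtain ⟨D3, hD3, hc3, hcl3, hd3⟩ := A.move x3 (E ∪ D1 ∪ D2) A.d1 le_rfl h3
  obtain ⟨D4, hD4, hc4, hcl4, hd4⟩ := A.move x4 (E ∪ D1 ∪ D2 ∪ D3) A.d1 le_rfl h3
  have a2 := Finset.disjoint_union_right.mp hd2
  have a3 := Finset.disjoint_union_right.mp hd3
  have a3' := Finset.disjoint_union_right.mp a3.1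
  have a4 := Finset.disjoint_union_right.mp hd4
  have a4' := Finset.disjoint_union_right.mp a4.1
  have a4'' := Finset.disjoint_union_right.mp a4'.1
  -- pairwise disjointness
  have d12 : Disjoint D1 D2 := a2.2.symm
  have d13 : Disjoint D1 D3 := a3'.2.symm
  have d23 : Disjoint D2 D3 := a3.2.symm
  have d14 : Disjoint D1 D4 := a4''.2.symm
  have d24 : Disjoint D2 D4 := a4'.2.symm
  have d34 : Disjoint D3 D4 := a4.2.symm
  have d1E : Disjoint D1 E := hd1
  have d2E : Disjoint D2 E := a2.1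
  have d3E : Disjoint D3 E := a3'.1
  have d4E : Disjoint D4 E := a4''.1
  have d12_3 : Disjoint (D1 ∪ D2) D3 := Finset.disjoint_union_left.mpr ⟨d13, d23⟩
  have d123_4 : Disjoint (D1 ∪ D2 ∪ D3) D4 :=
    Finset.disjoint_union_left.mpr ⟨Finset.disjoint_union_left.mpr ⟨d14, d24⟩, d34⟩
  set Z := D1 ∪ D2 ∪ D3 ∪ D4 with hZdef
  have hZ : A.Good Z :=
    A.good_union _ _ (A.good_union _ _ (A.good_union _ _ hD1 hD2) hD3) hD4
  have hcZ : Z.card = 4 * A.d1 := by
    rw [hZdef, Finset.card_union_of_disjoint d123_4, Finset.card_union_of_disjoint d12_3,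
      Finset.card_union_of_disjoint d12, hc1, hc2, hc3, hc4]
    ring
  have hclZ : A.cl Z = 0 := by
    rw [hZdef, A.cl_union _ _ (A.good_union _ _ (A.good_union _ _ hD1 hD2) hD3) hD4 d123_4,
      A.cl_union _ _ (A.good_union _ _ hD1 hD2) hD3 d12_3, A.cl_union _ _ hD1 hD2 d12, hcl1, hcl2,
      hcl3, hcl4, hx]
  have dEZ : Disjoint E Z := by
    rw [hZdef]
    exact Finset.disjoint_union_right.mpr ⟨Finset.disjoint_union_right.mpr
      ⟨Finset.disjoint_union_right.mpr ⟨d1E.symm, d2E.symm⟩, d3E.symm⟩, d4E.symm⟩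
  have p := A.princ' hZ hcZ hclZ dEZ (by omega)
  rw [A.beta_symm, hZdef, A.beta_union_left d123_4, A.beta_union_left d12_3,
    A.beta_union_left d12] at p
  have e1 := A.b_eq hD1 hE hc1 hcE hcl1 hclE d1E
  have e2 := A.b_eq hD2 hE hc2 hcE hcl2 hclE d2E
  have e3 := A.b_eq hD3 hE hc3 hcE hcl3 hclE d3E
  have e4 := A.b_eq hD4 hE hc4 hcE hcl4 hclE d4E
  rw [abs_le] at p e1 e2 e3 e4 ⊢
  constructor <;> linarith [p.1, p.2, e1.1, e1.2, e2.1, e2.2, e3.1, e3.2, e4.1, e4.2]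

end S17PF_Data

/-- abstract bilinear algebra: a function with the 4-term relation in the first argument which is
symmetric up to `ε` gives a quasi-quadratic function `x ↦ b x (−x)`. -/
theorem S17PF_par_of_four (b : J → J → ℝ) (ε : ℝ)
    (hsym : ∀ x y, |b x y - b y x| ≤ ε)
    (hfour : ∀ x1 x2 x3 x4 y, x1 + x2 + x3 + x4 = 0 →
      |b x1 y + b x2 y + b x3 y + b x4 y| ≤ ε) :
    (∀ x, |b x 0| ≤ 5 / 4 * ε) ∧ (∀ x, |b 0 x| ≤ 1 / 4 * ε) ∧
    ∀ x y, |b (x + y) (-(x + y)) + b (x - y) (-(x - y)) - 2 * (b x (-x) + b y (-y))|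
      ≤ 40 * ε := by
  have hε : 0 ≤ ε := (abs_nonneg _).trans (hsym 0 0)
  have zero : ∀ y, |b 0 y| ≤ 1 / 4 * ε := by
    intro y
    have h := hfour 0 0 0 0 y (by simp)
    rw [abs_le] at h ⊢
    constructor <;> linarith [h.1, h.2]
  have neg : ∀ x y, |b (-x) y + b x y| ≤ 3 / 2 * ε := by
    intro x y
    have h := hfour x (-x) 0 0 y (by simp)
    have z := zero y
    rw [abs_le] at h z ⊢
    constructor <;> linarith [h.1, h.2, z.1, z.2]
  have add : ∀ x x' y, |b (x + x') y - b x y - b x' y| ≤ 11 / 4 * ε := by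
    intro x x' y
    have h := hfour x x' (-(x + x')) 0 y (by abel)
    have z := zero y
    have n := neg (x + x') y
    rw [abs_le] at h z n ⊢
    constructor <;> linarith [h.1, h.2, z.1, z.2, n.1, n.2]
  have zero2 : ∀ x, |b x 0| ≤ 5 / 4 * ε := by
    intro x
    have z := zero x
    have s := hsym x 0
    rw [abs_le] at z s ⊢
    constructor <;> linarith [z.1, z.2, s.1, s.2]
  have neg2 : ∀ x y, |b x (-y) + b x y| ≤ 7 / 2 * ε := by
    intro x y
    have n := neg y x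
    have s1 := hsym x (-y)
    have s2 := hsym x y
    rw [abs_le] at n s1 s2 ⊢
    constructor <;> linarith [n.1, n.2, s1.1, s1.2, s2.1, s2.2]
  have add2 : ∀ x y y', |b x (y + y') - b x y - b x y'| ≤ 23 / 4 * ε := by
    intro x y y'
    have a := add y y' x
    have s0 := hsym x (y + y')
    have s1 := hsym x y
    have s2 := hsym x y'
    rw [abs_le] at a s0 s1 s2 ⊢
    constructor <;> linarith [a.1, a.2, s0.1, s0.2, s1.1, s1.2, s2.1, s2.2]
  refine ⟨zero2, zero, fun x y => ?_⟩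
  have eu : -(x + y) = -x + -y := by abel
  have ev : -(x - y) = -x + y := by abel
  have exy : x - y = x + -y := by abel
  have t1 := add x y (-(x + y))
  have t1a := add2 x (-x) (-y)
  have t1b := add2 y (-x) (-y)
  have t2 := add x (-y) (-(x - y))
  have t2a := add2 x (-x) y
  have t2b := add2 (-y) (-x) y
  rw [← eu] at t1a t1b
  rw [← ev] at t2a t2b
  rw [← exy] at t2
  have n1 := neg2 x y
  have n2 := neg y (-x)
  have n3 := neg y y
  have n4 := neg2 y y
  rw [abs_le] at t1 t1a t1b t2 t2a t2b n1 n2 n3 n4 ⊢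
  constructor <;>
    linarith [t1.1, t1.2, t1a.1, t1a.2, t1b.1, t1b.2, t2.1, t2.2, t2a.1, t2a.2, t2b.1, t2b.2,
      n1.1, n1.2, n2.1, n2.2, n3.1, n3.2, n4.1, n4.2]

namespace S17PF_Data

variable (A : S17PF_Data J Pt)

/-- Step 5: for disjoint good divisors of degree `2·d1` and classes `x`, `−x`,
`β(D, D') = b(x, −x) + O(1)`. -/
theorem q_eq {x : J} {D D' : Finset Pt} (hD : A.Good D) (hD' : A.Good D')
    (hcD : D.card = 2 * A.d1) (hcD' : D'.card = 2 * A.d1) (hclD : A.cl D = x)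
    (hclD' : A.cl D' = -x) (hdis : Disjoint D D') :
    |A.beta D D' - A.b x (-x)| ≤ 75 * A.bd := by
  have h3 : A.d1 ≤ 3 * A.d1 := by omega
  have hd1 := A.hd1
  obtain ⟨Dx, hDx, hcx, hclx, -⟩ := A.move x ∅ A.d1 le_rfl h3
  obtain ⟨D0, hD0, hc0, hcl0, hd0⟩ := A.move 0 Dx A.d1 le_rfl h3
  obtain ⟨Dm, hDm, hcm, hclm, hdm⟩ := A.move (-x) (Dx ∪ D0) A.d1 le_rfl h3
  obtain ⟨D0', hD0', hc0', hcl0', hd0'⟩ := A.move 0 (Dx ∪ D0 ∪ Dm) A.d1 le_rfl h3
  have am := Finset.disjoint_union_right.mp hdm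
  have a0 := Finset.disjoint_union_right.mp hd0'
  have a0' := Finset.disjoint_union_right.mp a0.1
  have dx0 : Disjoint Dx D0 := hd0.symm
  have dxm : Disjoint Dx Dm := am.1.symm
  have d0m : Disjoint D0 Dm := am.2.symm
  have dx0' : Disjoint Dx D0' := a0'.1.symm
  have d00' : Disjoint D0 D0' := a0'.2.symm
  have dm0' : Disjoint Dm D0' := a0.2.symm
  have hU : A.Good (Dx ∪ D0) := A.good_union _ _ hDx hD0
  have hV : A.Good (Dm ∪ D0') := A.good_union _ _ hDm hD0'
  have hcU : (Dx ∪ D0).card = 2 * A.d1 := by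
    rw [Finset.card_union_of_disjoint dx0, hcx, hc0]; ring
  have hcV : (Dm ∪ D0').card = 2 * A.d1 := by
    rw [Finset.card_union_of_disjoint dm0', hcm, hc0']; ring
  have hclU : A.cl (Dx ∪ D0) = x := by rw [A.cl_union _ _ hDx hD0 dx0, hclx, hcl0, add_zero]
  have hclV : A.cl (Dm ∪ D0') = -x := by
    rw [A.cl_union _ _ hDm hD0' dm0', hclm, hcl0', add_zero]
  have dUV : Disjoint (Dx ∪ D0) (Dm ∪ D0') :=
    Finset.disjoint_union_left.mpr ⟨Finset.disjoint_union_right.mpr ⟨dxm, dx0'⟩,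
      Finset.disjoint_union_right.mpr ⟨d0m, d00'⟩⟩
  have w := A.wd2 (a := 2 * A.d1) (b := 2 * A.d1) (by omega) (by omega) (by omega) (by omega)
    hD hD' hU hV hcD hcU hcD' hcV (hclD.trans hclU.symm) (hclD'.trans hclV.symm) hdis dUV
  rw [A.beta_union_left dx0, A.beta_union_right _ dm0', A.beta_union_right _ dm0'] at w
  have e1 := A.b_eq hDx hDm hcx hcm hclx hclm dxm
  have e2 := A.b_eq hDx hD0' hcx hc0' hclx hcl0' dx0'
  have e3 := A.b_eq hD0 hDm hc0 hcm hcl0 hclm d0m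
  have e4 := A.b_eq hD0 hD0' hc0 hc0' hcl0 hcl0' d00'
  obtain ⟨z2, z1, -⟩ := S17PF_par_of_four A.b (25 * A.bd) A.b_symm A.b_four
  have f2 := z2 x
  have f3 := z1 (-x)
  have f4 := z1 0
  have h0 := A.bd_nonneg
  rw [abs_le] at w e1 e2 e3 e4 f2 f3 f4 ⊢
  constructor <;>
    linarith [w.1, w.2, e1.1, e1.2, e2.1, e2.2, e3.1, e3.2, e4.1, e4.2, f2.1, f2.2, f3.1, f3.2,
      f4.1, f4.2]

end S17PF_Data

/-- **PAIRF, general form**: a function `q` on `J` which on every class is within `c` of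
`β(D, D')` for SOME pair of disjoint good divisors of degree `2·d1` and classes `x`, `−x`,
satisfies the parallelogram law up to a constant. -/
theorem S17PF_par' (A : S17PF_Data J Pt) (q : J → ℝ) (c : ℝ)
    (hq : ∀ x, ∃ D D' : Finset Pt, A.Good D ∧ A.Good D' ∧ D.card = 2 * A.d1 ∧
      D'.card = 2 * A.d1 ∧ A.cl D = x ∧ A.cl D' = -x ∧ Disjoint D D' ∧
      |q x - A.beta D D'| ≤ c) :
    ∃ C : ℝ, ∀ x y : J, |q (x + y) + q (x - y) - 2 * (q x + q y)| ≤ C := by
  have hqb : ∀ x, |q x - A.b x (-x)| ≤ c + 75 * A.bd := by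
    intro x
    obtain ⟨D, D', hD, hD', hcD, hcD', hclD, hclD', hdis, hqx⟩ := hq x
    have h := A.q_eq hD hD' hcD hcD' hclD hclD' hdis
    rw [abs_le] at h hqx ⊢
    constructor <;> linarith [h.1, h.2, hqx.1, hqx.2]
  obtain ⟨-, -, hpar⟩ := S17PF_par_of_four A.b (25 * A.bd) A.b_symm A.b_four
  refine ⟨40 * (25 * A.bd) + 6 * (c + 75 * A.bd), fun x y => ?_⟩
  have p := hpar x y
  have q1 := hqb (x + y)
  have q2 := hqb (x - y)
  have q3 := hqb x
  have q4 := hqb y
  rw [abs_le] at p q1 q2 q3 q4 ⊢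
  constructor <;>
    linarith [p.1, p.2, q1.1, q1.2, q2.1, q2.2, q3.1, q3.2, q4.1, q4.2]

/-- **PAIRF** (exact shape of helper7's note): for any choice of disjoint good divisors `D x`,
`D' x` of degree `2·d1` and classes `x`, `−x`, the function `x ↦ β(D x, D' x)` satisfies the
parallelogram law up to a constant. -/
theorem S17PF_par (A : S17PF_Data J Pt) (D D' : J → Finset Pt)
    (hD : ∀ x, A.Good (D x) ∧ (D x).card = 2 * A.d1 ∧ A.cl (D x) = x)
    (hD' : ∀ x, A.Good (D' x) ∧ (D' x).card = 2 * A.d1 ∧ A.cl (D' x) = -x)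
    (hdisj : ∀ x, Disjoint (D x) (D' x)) :
    ∃ C : ℝ, ∀ x y : J,
      |A.beta (D (x + y)) (D' (x + y)) + A.beta (D (x - y)) (D' (x - y))
        - 2 * (A.beta (D x) (D' x) + A.beta (D y) (D' y))| ≤ C :=
  S17PF_par' A (fun x => A.beta (D x) (D' x)) 0 fun x =>
    ⟨D x, D' x, (hD x).1, (hD' x).1, (hD x).2.1, (hD' x).2.1, (hD x).2.2, (hD' x).2.2, hdisj x,
      by simp⟩

/-- independence of the representatives, in the form used by (POS): two admissible pairs for the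
same class give the same value of `β` up to `6M`. -/
theorem S17PF_wd (A : S17PF_Data J Pt) {x : J} {D D' E E' : Finset Pt}
    (hD : A.Good D) (hD' : A.Good D') (hE : A.Good E) (hE' : A.Good E')
    (hcD : D.card = 2 * A.d1) (hcD' : D'.card = 2 * A.d1)
    (hcE : E.card = 2 * A.d1) (hcE' : E'.card = 2 * A.d1)
    (hclD : A.cl D = x) (hclD' : A.cl D' = -x) (hclE : A.cl E = x) (hclE' : A.cl E' = -x)
    (hdis : Disjoint D D') (hdisE : Disjoint E E') :
    |A.beta D D' - A.beta E E'| ≤ 6 * A.bd := by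
  have hd1 := A.hd1
  exact A.wd2 (a := 2 * A.d1) (b := 2 * A.d1) (by omega) (by omega) (by omega) (by omega)
    hD hD' hE hE' hcD hcE hcD' hcE' (hclD.trans hclE.symm) (hclD'.trans hclE'.symm) hdis hdisE

end Fermat.Agent.S17
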