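import Mathlib

/-!
# TRACK 8 (S17), heights pillar: DISC, abstract form (helper5), prefix `S17DI_`

Pure bookkeeping with real numbers.  `Pt` = points, `hk P = h_k(P)`, `w P Q = h(ẽ(P) ∧ ẽ(Q))`,
`lam P Q = hk P + hk Q − w P Q`, `tau Q = h(ẽ(Q) ∧ D_t ẽ(Q))`, `Z = Z(c)` a reduced divisor of
degree `k`, `hc = h(c)`.

* `S17DI_H hk D = ∑_{P ∈ D} hk P`;
* `S17DI_Lam2 lam D = ∑_{P ∈ D} ∑_{Q ∈ D, Q ≠ P} lam P Q`  (`= 2 Λ(D)`, ordered pairs);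
* `S17DI_LamX lam D E = ∑_{P ∈ D} ∑_{Q ∈ E} lam P Q`  (`= Λ(D, E)`);
* `S17DI_Lam2_union` : `2Λ(D ∪ E) = 2Λ(D) + 2Λ(E) + 2Λ(D, E)` for disjoint `D`, `E`, `lam` symmetric;
* `S17DI_disc` : **(DISC)** from (DEC′), (TAN) and the lower half of (A):
  `2Λ(Z) ≥ (2k + 2g − 2)·hc − ((k − 1)·C₃ + C₂ + k·C₁)`;
* `S17DI_disc_H` : the same with `hc` replaced by `H(Z)/k` (upper half of (A)).
-/

set_option autoImplicit false
set_option linter.unusedSectionVars false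

open Finset

namespace Fermat.Agent.S17

variable {Pt : Type*} [DecidableEq Pt]

/-- `H(D) = ∑_{P ∈ D} h_k(P)`. -/
def S17DI_H (hk : Pt → ℝ) (D : Finset Pt) : ℝ := ∑ P ∈ D, hk P

/-- `2 Λ(D)`: the sum of `lam P Q` over the ordered pairs `P ≠ Q` of points of `D`. -/
def S17DI_Lam2 (lam : Pt → Pt → ℝ) (D : Finset Pt) : ℝ := ∑ P ∈ D, ∑ Q ∈ D.erase P, lam P Q

/-- `Λ(D, E) = ∑_{P ∈ D, Q ∈ E} lam P Q`. -/
def S17DI_LamX (lam : Pt → Pt → ℝ) (D E : Finset Pt) : ℝ := ∑ P ∈ D, ∑ Q ∈ E, lam P Q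

theorem S17DI_H_union (hk : Pt → ℝ) {D E : Finset Pt} (h : Disjoint D E) :
    S17DI_H hk (D ∪ E) = S17DI_H hk D + S17DI_H hk E :=
  sum_union h

theorem S17DI_LamX_symm (lam : Pt → Pt → ℝ) (hs : ∀ P Q, lam P Q = lam Q P) (D E : Finset Pt) :
    S17DI_LamX lam D E = S17DI_LamX lam E D := by
  unfold S17DI_LamX
  rw [sum_comm]
  exact sum_congr rfl fun Q _ => sum_congr rfl fun P _ => hs P Q

/-- `2Λ(D ∪ E) = 2Λ(D) + 2Λ(E) + 2Λ(D, E)`. -/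
theorem S17DI_Lam2_union (lam : Pt → Pt → ℝ) (hs : ∀ P Q, lam P Q = lam Q P) {D E : Finset Pt}
    (h : Disjoint D E) :
    S17DI_Lam2 lam (D ∪ E) = S17DI_Lam2 lam D + S17DI_Lam2 lam E + 2 * S17DI_LamX lam D E := by
  have h1 : ∀ P ∈ D, ∑ Q ∈ (D ∪ E).erase P, lam P Q =
      ∑ Q ∈ D.erase P, lam P Q + ∑ Q ∈ E, lam P Q := by
    intro P hP
    have hPE : P ∉ E := Finset.disjoint_left.1 h hP
    have e1 : (D ∪ E).erase P = D.erase P ∪ E := by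
      rw [Finset.erase_union_distrib, Finset.erase_eq_of_notMem hPE]
    rw [e1, sum_union]
    exact Finset.disjoint_of_subset_left (Finset.erase_subset _ _) h
  have h2 : ∀ P ∈ E, ∑ Q ∈ (D ∪ E).erase P, lam P Q =
      ∑ Q ∈ D, lam P Q + ∑ Q ∈ E.erase P, lam P Q := by
    intro P hP
    have hPD : P ∉ D := Finset.disjoint_right.1 h hP
    have e1 : (D ∪ E).erase P = D ∪ E.erase P := by
      rw [Finset.erase_union_distrib, Finset.erase_eq_of_notMem hPD]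
    rw [e1, sum_union]
    exact Finset.disjoint_of_subset_right (Finset.erase_subset _ _) h
  unfold S17DI_Lam2
  rw [sum_union h, sum_congr rfl h1, sum_congr rfl h2, sum_add_distrib, sum_add_distrib]
  have h3 : ∑ P ∈ E, ∑ Q ∈ D, lam P Q = S17DI_LamX lam D E := by
    rw [← S17DI_LamX_symm lam hs]
    rfl
  rw [h3]
  unfold S17DI_LamX
  ring

/-- `2Λ(D) = 2(|D| − 1)·H(D) − ∑_{P ≠ Q} w(P, Q)` for `lam = hk + hk − w`. -/
theorem S17DI_Lam2_eq (hk : Pt → ℝ) (w lam : Pt → Pt → ℝ)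
    (hlam : ∀ P Q, lam P Q = hk P + hk Q - w P Q) (D : Finset Pt) :
    S17DI_Lam2 lam D = 2 * ((D.card : ℝ) - 1) * S17DI_H hk D - S17DI_Lam2 w D := by
  unfold S17DI_Lam2 S17DI_H
  have h1 : ∀ P ∈ D, ∑ Q ∈ D.erase P, lam P Q =
      ((D.card : ℝ) - 1) * hk P + (∑ Q ∈ D, hk Q - hk P) - ∑ Q ∈ D.erase P, w P Q := by
    intro P hP
    simp only [hlam]
    rw [sum_sub_distrib, sum_add_distrib, sum_const, Finset.card_erase_of_mem hP, nsmul_eq_mul,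
      ← Finset.sum_erase_add D hk hP]
    have hc : 1 ≤ D.card := Finset.card_pos.2 ⟨P, hP⟩
    push_cast [Nat.cast_sub hc]
    ring
  rw [sum_congr rfl h1, sum_sub_distrib, sum_add_distrib, sum_sub_distrib, ← mul_sum, sum_const,
    nsmul_eq_mul]
  ring

/-- **(DISC), abstract**: from (DEC′) at every point of `Z`, (TAN) and the lower half of (A). -/
theorem S17DI_disc (hk tau : Pt → ℝ) (w lam : Pt → Pt → ℝ)
    (hlam : ∀ P Q, lam P Q = hk P + hk Q - w P Q) (Z : Finset Pt) (k : ℕ) (hZ : Z.card = k)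
    (hk1 : 1 ≤ k) (g : ℕ) (hc C₁ C₂ C₃ : ℝ)
    (hdec : ∀ Q ∈ Z, ∑ R ∈ Z.erase Q, w Q R ≤ ((k : ℝ) - 1) * (hc + hk Q) - tau Q + C₁)
    (htan : (2 * (k : ℝ) + 2 * g - 2) * hc - C₂ ≤ ∑ Q ∈ Z, tau Q)
    (hA : (k : ℝ) * hc - C₃ ≤ S17DI_H hk Z) :
    (2 * (k : ℝ) + 2 * g - 2) * hc - (((k : ℝ) - 1) * C₃ + C₂ + k * C₁) ≤ S17DI_Lam2 lam Z := by
  rw [S17DI_Lam2_eq hk w lam hlam Z, hZ]
  have h1 : S17DI_Lam2 w Z ≤
      ((k : ℝ) - 1) * (k * hc) + ((k : ℝ) - 1) * S17DI_H hk Z - ∑ Q ∈ Z, tau Q + k * C₁ := by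
    unfold S17DI_Lam2
    refine (sum_le_sum hdec).trans (le_of_eq ?_)
    rw [sum_add_distrib, sum_sub_distrib, ← mul_sum, sum_add_distrib, sum_const, sum_const, hZ,
      nsmul_eq_mul, nsmul_eq_mul]
    unfold S17DI_H
    ring
  have hk1' : (0 : ℝ) ≤ (k : ℝ) - 1 := by
    have : (1 : ℝ) ≤ k := by exact_mod_cast hk1
    linarith
  have h2 := mul_le_mul_of_nonneg_left hA hk1'
  nlinarith [h1, h2, htan]

/-- **(DISC), abstract, in terms of `H(Z)`**: with both halves of (A). -/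
theorem S17DI_disc_H (hk tau : Pt → ℝ) (w lam : Pt → Pt → ℝ)
    (hlam : ∀ P Q, lam P Q = hk P + hk Q - w P Q) (Z : Finset Pt) (k : ℕ) (hZ : Z.card = k)
    (hk1 : 1 ≤ k) (g : ℕ) (hc C₁ C₂ C₃ : ℝ)
    (hdec : ∀ Q ∈ Z, ∑ R ∈ Z.erase Q, w Q R ≤ ((k : ℝ) - 1) * (hc + hk Q) - tau Q + C₁)
    (htan : (2 * (k : ℝ) + 2 * g - 2) * hc - C₂ ≤ ∑ Q ∈ Z, tau Q)
    (hA : |S17DI_H hk Z - (k : ℝ) * hc| ≤ C₃) :
    (2 * (k : ℝ) + 2 * g - 2) / k * S17DI_H hk Z -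
        ((2 * (k : ℝ) + 2 * g - 2) / k * C₃ + ((k : ℝ) - 1) * C₃ + C₂ + k * C₁) ≤
      S17DI_Lam2 lam Z := by
  rw [abs_le] at hA
  have h1 := S17DI_disc hk tau w lam hlam Z k hZ hk1 g hc C₁ C₂ C₃ hdec htan (by linarith [hA.1])
  have hkpos : (0 : ℝ) < k := by exact_mod_cast hk1
  have hcoef : (0 : ℝ) ≤ (2 * (k : ℝ) + 2 * g - 2) / k := by
    apply div_nonneg _ hkpos.le
    have : (1 : ℝ) ≤ k := by exact_mod_cast hk1
    have : (0 : ℝ) ≤ g := Nat.cast_nonneg g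
    linarith
  -- `hc ≥ (H(Z) − C₃)/k`
  have h2 : (S17DI_H hk Z - C₃) / k ≤ hc := by
    rw [div_le_iff₀ hkpos]
    linarith [hA.2]
  have h3 := mul_le_mul_of_nonneg_left h2 hcoef
  have h4 : (2 * (k : ℝ) + 2 * g - 2) / k * ((S17DI_H hk Z - C₃) / k) * k =
      (2 * (k : ℝ) + 2 * g - 2) / k * (S17DI_H hk Z - C₃) := by
    field_simp
  have h5 : (2 * (k : ℝ) + 2 * g - 2) / k * hc * k = (2 * (k : ℝ) + 2 * g - 2) * hc := by
    field_simp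
  have h6 : (2 * (k : ℝ) + 2 * g - 2) / k * (S17DI_H hk Z - C₃) ≤
      (2 * (k : ℝ) + 2 * g - 2) * hc := by
    rw [← h4, ← h5]
    exact mul_le_mul_of_nonneg_right h3 hkpos.le
  linarith [h1, h6]

end Fermat.Agent.S17
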