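import Mathlib
import Fermat.Agent.S17.Disc
import Fermat.Agent.S17.PairF

/-!
# TRACK 8 (S17), heights pillar: (POS), abstract form (helper5), prefix `S17PO_`

Pure bookkeeping on a PAIRF datum `A : S17PF_Data J Pt` (`k = 4·d1`, `d = 2·d1`), `g ≤ d`.

Hypotheses (outputs of the packages DISC, U + MINK + A):
* `hdisc` : for `Z` good of degree `k` and class `0`:
            `(2k + 2g − 2)/k · H(Z) − C_D ≤ 2Λ(Z)`                         [`S17DI_disc_H`];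
* `hum`   : for `D` good of degree `d`:  there is `HE` (`= H(E_v)`, `E_v` admissible of class
            `−cl D`) with `μ(−cl D) ≤ HE` and
            `2Λ(D) ≤ 2·H(D) − 2(d − g + 1)/k · (H(D) + HE) + C_U`          [(U) + (M) + (A)].

Conclusion `S17PO_pos`: for every pair of disjoint good divisors `D`, `D'` of degree `d` and classes
`x`, `−x`:   `(d − g + 1)/k · (μ(x) + μ(−x)) − (C_D + 2 C_U)/2 ≤ β(D, D')`,
and `S17PO_dom`: `μ(x) + μ(−x) ≤ A' · β(D, D') + B'` with `A' = k/(d − g + 1) > 0`.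
-/

set_option autoImplicit false
set_option linter.unusedSectionVars false

open Finset

namespace Fermat.Agent.S17

variable {J : Type*} [AddCommGroup J] {Pt : Type*} [DecidableEq Pt]

/-- `β(D, D') = Λ(D, D') − (H(D) + H(D'))/2` for divisors of degree `2·d1`. -/
theorem S17PO_beta_eq (A : S17PF_Data J Pt) {D D' : Finset Pt} (hD : D.card = 2 * A.d1)
    (hD' : D'.card = 2 * A.d1) :
    A.beta D D' = S17DI_LamX A.lam D D' - (S17DI_H A.hk D + S17DI_H A.hk D') / 2 := by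
  have hd1 : (0 : ℝ) < A.d1 := by exact_mod_cast A.hd1
  unfold S17PF_Data.beta S17DI_LamX S17DI_H
  rw [hD, hD']
  push_cast
  field_simp
  ring

/-- **(POS), abstract.** -/
theorem S17PO_pos (A : S17PF_Data J Pt) (g : ℕ) (μ : J → ℝ) (C_D C_U : ℝ)
    (hdisc : ∀ Z, A.Good Z → Z.card = 4 * A.d1 → A.cl Z = 0 →
      (2 * ((4 * A.d1 : ℕ) : ℝ) + 2 * g - 2) / ((4 * A.d1 : ℕ) : ℝ) * S17DI_H A.hk Z - C_D ≤
        S17DI_Lam2 A.lam Z)
    (hum : ∀ D, A.Good D → D.card = 2 * A.d1 → ∃ HE : ℝ, μ (-A.cl D) ≤ HE ∧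
      S17DI_Lam2 A.lam D ≤ 2 * S17DI_H A.hk D -
        2 * (((2 * A.d1 : ℕ) : ℝ) - g + 1) / ((4 * A.d1 : ℕ) : ℝ) * (S17DI_H A.hk D + HE) + C_U)
    (hpos : 0 ≤ ((2 * A.d1 : ℕ) : ℝ) - g + 1)
    {x : J} {D D' : Finset Pt} (hD : A.Good D) (hD' : A.Good D') (hcD : D.card = 2 * A.d1)
    (hcD' : D'.card = 2 * A.d1) (hclD : A.cl D = x) (hclD' : A.cl D' = -x)
    (hdis : Disjoint D D') :
    (((2 * A.d1 : ℕ) : ℝ) - g + 1) / ((4 * A.d1 : ℕ) : ℝ) * (μ x + μ (-x)) - (C_D + 2 * C_U) / 2 ≤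
      A.beta D D' := by
  have hd1 : (0 : ℝ) < A.d1 := by exact_mod_cast A.hd1
  have hk : (0 : ℝ) < ((4 * A.d1 : ℕ) : ℝ) := by push_cast; linarith
  -- the three inputs
  have hZ := hdisc (D ∪ D') (A.good_union D D' hD hD')
    (by rw [Finset.card_union_of_disjoint hdis, hcD, hcD']; ring)
    (by rw [A.cl_union D D' hD hD' hdis, hclD, hclD', add_neg_cancel])
  obtain ⟨HE, hHE, hU⟩ := hum D hD hcD
  obtain ⟨HE', hHE', hU'⟩ := hum D' hD' hcD'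
  rw [hclD] at hHE
  rw [hclD', neg_neg] at hHE'
  rw [S17DI_Lam2_union A.lam A.lam_symm hdis, S17DI_H_union A.hk hdis] at hZ
  rw [S17PO_beta_eq A hcD hcD']
  set c : ℝ := (((2 * A.d1 : ℕ) : ℝ) - g + 1) / ((4 * A.d1 : ℕ) : ℝ) with hc
  have hc0 : 0 ≤ c := div_nonneg hpos hk.le
  -- the coefficient identity `(2k + 2g − 2)/k − 2 + 2c = 1`
  have hcoef : (2 * ((4 * A.d1 : ℕ) : ℝ) + 2 * g - 2) / ((4 * A.d1 : ℕ) : ℝ) = 3 - 2 * c := by
    rw [hc]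
    push_cast
    field_simp
    ring
  rw [hcoef] at hZ
  have e1 : 2 * (((2 * A.d1 : ℕ) : ℝ) - g + 1) / ((4 * A.d1 : ℕ) : ℝ) = 2 * c := by
    rw [hc]; ring
  rw [e1] at hU hU'
  have h1 : c * (μ x + μ (-x)) ≤ c * (HE' + HE) :=
    mul_le_mul_of_nonneg_left (by linarith) hc0
  nlinarith [hZ, hU, hU', h1]

/-- **(POS), abstract, in the form of `S17_Height2.dom`**: `h(x) := μ(x) + μ(−x)` is dominated by
`β(D, D')` for every admissible pair of class `x`. -/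
theorem S17PO_dom (A : S17PF_Data J Pt) (g : ℕ) (μ : J → ℝ) (C_D C_U : ℝ)
    (hdisc : ∀ Z, A.Good Z → Z.card = 4 * A.d1 → A.cl Z = 0 →
      (2 * ((4 * A.d1 : ℕ) : ℝ) + 2 * g - 2) / ((4 * A.d1 : ℕ) : ℝ) * S17DI_H A.hk Z - C_D ≤
        S17DI_Lam2 A.lam Z)
    (hum : ∀ D, A.Good D → D.card = 2 * A.d1 → ∃ HE : ℝ, μ (-A.cl D) ≤ HE ∧
      S17DI_Lam2 A.lam D ≤ 2 * S17DI_H A.hk D -
        2 * (((2 * A.d1 : ℕ) : ℝ) - g + 1) / ((4 * A.d1 : ℕ) : ℝ) * (S17DI_H A.hk D + HE) + C_U)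
    (hg : g ≤ 2 * A.d1) :
    ∃ A' B' : ℝ, 0 < A' ∧ ∀ (x : J) (D D' : Finset Pt), A.Good D → A.Good D' →
      D.card = 2 * A.d1 → D'.card = 2 * A.d1 → A.cl D = x → A.cl D' = -x → Disjoint D D' →
      μ x + μ (-x) ≤ A' * A.beta D D' + B' := by
  have hd1 : (0 : ℝ) < A.d1 := by exact_mod_cast A.hd1
  have hk : (0 : ℝ) < ((4 * A.d1 : ℕ) : ℝ) := by push_cast; linarith
  have hgR : (g : ℝ) ≤ ((2 * A.d1 : ℕ) : ℝ) := by exact_mod_cast hg
  have hpos : 0 < ((2 * A.d1 : ℕ) : ℝ) - g + 1 := by linarith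
  set c : ℝ := (((2 * A.d1 : ℕ) : ℝ) - g + 1) / ((4 * A.d1 : ℕ) : ℝ) with hc
  have hc0 : 0 < c := div_pos hpos hk
  refine ⟨1 / c, (1 / c) * ((C_D + 2 * C_U) / 2), by positivity, ?_⟩
  intro x D D' hD hD' hcD hcD' hclD hclD' hdis
  have h := S17PO_pos A g μ C_D C_U hdisc hum hpos.le hD hD' hcD hcD' hclD hclD' hdis
  rw [← hc] at h
  have h2 : c * (μ x + μ (-x)) ≤ A.beta D D' + (C_D + 2 * C_U) / 2 := by linarith
  have h3 : μ x + μ (-x) = (1 / c) * (c * (μ x + μ (-x))) := by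
    field_simp
  rw [h3, ← mul_add]
  exact mul_le_mul_of_nonneg_left h2 (by positivity)

end Fermat.Agent.S17
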