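import Fermat.Agent.S17.HtDefs
import Fermat.Agent.S17.North
import Fermat.Agent.S17.PairF
import Fermat.Agent.S17.Pos

/-!
# TRACK 8 (S17), heights pillar: the MODEL (helper7) — contract between the curve side and the
final assembly

`S17H_Model Ω J Pl ι k g d1` collects everything the final assembly of the heights pillar needs
from the concrete curve (`Pl = Place ℚ̄ F_N`, `J = J₀(N)(ℚ̄)`, `JQ = J(ℚ)`):

* the abstract curve data `X : S17H_Curve Ω ι k` (Chow form, `Ψ̃`, …);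
* the points `ev : Pl → ι → Ω` (`ev O = ε_il`), the Galois action `act`, classes `cl`;
* zero cycles of sections (`zeros`, `princ`), general position (`indep`);
* tangent vectors off a finite set `B` and (TAN);
* (MOVEH).

From a model and the abstract statements (A), (DEC), (DISC), (UU) the file `S17/HtFinal.lean`
derives a Northcott function `h` and a quasi-quadratic `q ≥ A⁻¹ (h − B)` on `JQ`.
The three glue statements `S17H_GlueDeca`, `S17H_GlueDisc`, `S17H_GlueHum` are proved in separate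
files.
-/

set_option autoImplicit false

open MvPolynomial

namespace Fermat.Agent.S17

/-- the reduced effective divisor attached to a finite set of places. -/
noncomputable def S17H_ind {Pl : Type} (D : Finset Pl) : Pl →₀ ℕ := ∑ P ∈ D, Finsupp.single P 1

/-- the effective divisor attached to a list of `k` places. -/
noncomputable def S17H_cyc {Pl : Type} {k : ℕ} (P : Fin k → Pl) : Pl →₀ ℕ :=
  ∑ i, Finsupp.single (P i) 1

/-- the concrete model. -/
structure S17H_Model (Ω : Type) [Field Ω] [CharZero Ω] (J : Type) [AddCommGroup J]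
    (Pl : Type) (ι : Type) [Fintype ι] (k g d1 : ℕ) where
  /-- the abstract curve data -/
  X : S17H_Curve Ω ι k
  /-- the rational points of the Jacobian -/
  JQ : AddSubgroup J
  /-- the base point -/
  O : Pl
  /-- the Galois action on places -/
  act : (Ω ≃ₐ[ℚ] Ω) → Pl → Pl
  /-- the coordinates of a place (`ev O = ε_il`) -/
  ev : Pl → ι → Ω
  i0 : ι
  il : ι
  /-- the class of `E − deg E · O` -/
  cl : (Pl →₀ ℕ) → J
  hk : k = 4 * d1
  hd1 : 2 * g + 1 ≤ d1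
  hcard : Fintype.card ι = k - g + 1
  ev_O_il : ev O il = 1
  ev_O_ne : ∀ j, j ≠ il → ev O j = 0
  ev_i0 : ∀ P, P ≠ O → ev P i0 = 1
  ev_mem : ∀ P, ev P ∈ S17H_V X.I
  ev_act : ∀ σ P, P ≠ O → ev (act σ P) = fun j => σ (ev P j)
  act_O : ∀ σ, act σ O = O
  act_inj : ∀ σ, Function.Injective (act σ)
  ev_inj : ∀ P Q, P ≠ Q → S17H_wedge (ev P) (ev Q) ≠ 0
  indep : ∀ (d : ℕ) (P : Fin d → Pl), d + 2 * g ≤ k → Function.Injective P →
    (∀ i, P i ≠ O) → S17H_W (fun i => ev (P i)) ≠ 0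
  cl_add : ∀ E E', cl (E + E') = cl E + cl E'
  cl_O : cl (Finsupp.single O 1) = 0
  cl_mem : ∀ E : Pl →₀ ℕ, (∀ σ P, E (act σ P) = E P) → cl E ∈ JQ
  /-- every section `c ≠ 0` has a zero cycle (with multiplicities, `O` included), which is
  principal, and Galois invariant if `c` is rational -/
  zeros : ∀ c : ι → Ω, c ≠ 0 → ∃ P : Fin k → Pl, S17H_Fact X.chow c (fun i => ev (P i)) ∧
    cl (S17H_cyc P) = 0 ∧
    ((∀ (σ : Ω ≃ₐ[ℚ] Ω) j, σ (c j) = c j) → ∀ σ Q, S17H_cyc P (act σ Q) = S17H_cyc P Q)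
  /-- every effective divisor of degree `k` and class `0` is the zero cycle of a section -/
  princ : ∀ P : Fin k → Pl, cl (S17H_cyc P) = 0 →
    ∃ c : ι → Ω, c ≠ 0 ∧ S17H_Fact X.chow c (fun i => ev (P i))
  /-- the bad set of (TAN) -/
  B : Finset Pl
  /-- tangent vectors -/
  tan : Pl → ι → Ω
  tan_ok : ∀ Q, Q ∉ B → S17H_Tan X.I (ev Q) (tan Q) ∧ S17H_wedge (ev Q) (tan Q) ≠ 0
  tanS : S17H_StmtTAN X g (fun x x' => ∃ Q, Q ∉ B ∧ x = ev Q ∧ x' = tan Q)
  /-- (MOVEH) -/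
  move : ∀ y ∈ JQ, ∀ (S : Finset Pl) (d : ℕ), d1 ≤ d → d ≤ 3 * d1 →
    ∃ D : Finset Pl, D.card = d ∧ (∀ σ P, act σ P ∈ D ↔ P ∈ D) ∧ Disjoint D S ∧
      Disjoint D B ∧ O ∉ D ∧ cl (S17H_ind D) = y

section glue

variable {Ω : Type} [Field Ω] [CharZero Ω] {J : Type} [AddCommGroup J] {Pl : Type}
  [DecidableEq Pl] {ι : Type} [Fintype ι] {k g d1 : ℕ}

/-- the relation `TanC` of a model. -/
def S17H_Model.TanC (M : S17H_Model Ω J Pl ι k g d1) : (ι → Ω) → (ι → Ω) → Prop :=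
  fun x x' => ∃ Q, Q ∉ M.B ∧ x = M.ev Q ∧ x' = M.tan Q

/-- "good" finite sets of places: Galois invariant, disjoint from `B`, not containing `O`. -/
def S17H_Model.Good (M : S17H_Model Ω J Pl ι k g d1) (D : Finset Pl) : Prop :=
  (∀ σ P, M.act σ P ∈ D ↔ P ∈ D) ∧ Disjoint D M.B ∧ M.O ∉ D

/-- `λ` on places. -/
noncomputable def S17H_Model.lam (M : S17H_Model Ω J Pl ι k g d1) (P Q : Pl) : ℝ :=
  S17H_lam (M.ev P) (M.ev Q)

/-- `h_k` on places. -/
noncomputable def S17H_Model.hk' (M : S17H_Model Ω J Pl ι k g d1) (P : Pl) : ℝ :=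
  S17AH_h (M.ev P)

/-- `μ` on `J`. -/
noncomputable def S17H_Model.mu (M : S17H_Model Ω J Pl ι k g d1) (y : J) : ℝ :=
  S17NO_mu M.cl M.O M.act M.ev (2 * d1) y

/-- **GLUE 1 (deca)** = (DEC, λ-form) + (A) on zero cycles. -/
def S17H_GlueDeca (M : S17H_Model Ω J Pl ι k g d1) : Prop :=
  ∃ C0 : ℝ, ∀ Z : Finset Pl, M.Good Z → Z.card = 4 * d1 → M.cl (S17H_ind Z) = 0 →
    ∀ Q, Q ∉ Z →
      |∑ R ∈ Z, M.lam Q R - (∑ R ∈ Z, M.hk' R) / (4 * d1 : ℝ) - M.hk' Q| ≤ C0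

/-- **GLUE 2 (hdisc)** = (DISC) + (A) on good zero cycles (hypothesis `hdisc` of `S17PO_dom`). -/
def S17H_GlueDisc (M : S17H_Model Ω J Pl ι k g d1) : Prop :=
  ∃ C_D : ℝ, ∀ Z : Finset Pl, M.Good Z → Z.card = 4 * d1 → M.cl (S17H_ind Z) = 0 →
    (2 * ((4 * d1 : ℕ) : ℝ) + 2 * g - 2) / ((4 * d1 : ℕ) : ℝ) * S17DI_H M.hk' Z - C_D ≤
      S17DI_Lam2 M.lam Z

/-- **GLUE 3 (hum)** = (UU) + (MINK) + (A) (hypothesis `hum` of `S17PO_dom`). -/
def S17H_GlueHum (M : S17H_Model Ω J Pl ι k g d1) : Prop :=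
  ∃ C_U : ℝ, ∀ D : Finset Pl, M.Good D → D.card = 2 * d1 →
    ∃ HE : ℝ, M.mu (-M.cl (S17H_ind D)) ≤ HE ∧
      S17DI_Lam2 M.lam D ≤ 2 * S17DI_H M.hk' D -
        2 * (((2 * d1 : ℕ) : ℝ) - g + 1) / ((4 * d1 : ℕ) : ℝ) * (S17DI_H M.hk' D + HE) + C_U

end glue

end Fermat.Agent.S17
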