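import Mathlib
import Fermat.Agent.S17.Model
import Fermat.Agent.S17.Move
import Fermat.Agent.S17.NGLast

/-!
# TRACK 8 (S17), heights, concrete package C2 DICT (helper14), prefix `S17DT_`

The dictionary between the zero cycle of a section `φ_c = ∑ c_j e_j ∈ L(kO)`, written as a list
`v : Fin k → Place` (the form used by `S17H_Fact` / `S17H_Model.zeros`), and the divisor
`div φ_c + k·O`.

## Combinatorics (Mathlib only)
* `S17DT_sum_single_multiset` : `∑_{a ∈ M} single a 1 = toFinsupp M`;
* `S17DT_exists_list_pad`     : a list of length `k` realising a multiset padded by a point;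
* `S17DT_prod_eq_of_cyc_eq`, `S17DT_sum_eq_of_cyc_eq` : products / sums over a list depend only
  on its cycle;  `S17DT_sum_eq_sum_of_cyc_eq_ind` : the case of the indicator of a finite set;
* `S17DT_fact_of_cyc_eq`      : `S17H_Fact` depends only on the cycle of the list.

## The curve (`RR_Hyp K F`, `O` a place, `φ ∈ L(kO)`, `φ ≠ 0`)
* `S17DT_pt O`    : `none ↦ O`, `some P ↦ P` (`Option {P // P ≠ O} → Place`);
* `S17DT_cyc_apply` : the cycle of `S17DT_pt O ∘ w` if `w` lists `Z.map some + (k − |Z|)·none`;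
* `S17DT_cyc_cast`  : `cyc v Q = ord_Q φ + (k·O) Q` (from (Z1), (Z2) of CHOW);
* `S17DT_toDiv_cyc` : `cyc v = div φ + k·O` as divisors;  `S17DT_psi_cyc` : its class is `0`;
* `S17DT_cyc_inv`   : the cycle is invariant under every bijection of the places which fixes `O`
  and preserves `ord φ`;
* `S17DT_zeros`     : the output of CHOW (FACT in `Option` form + (Z1) + (Z2)) gives the first two
  parts of the field `zeros` of `S17H_Model`.
-/

set_option autoImplicit false
set_option linter.unusedSectionVars false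
set_option linter.unusedVariables false

open Finset AlgebraicCurve

namespace Fermat.Agent.S17

open Fermat.Agent.Lib

/-! ## Combinatorics -/

section comb

variable {α : Type*}

/-- `∑_{a ∈ M} single a 1 = toFinsupp M`. -/
theorem S17DT_sum_single_multiset [DecidableEq α] (M : Multiset α) :
    (M.map fun a => Finsupp.single a (1 : ℕ)).sum = Multiset.toFinsupp M := by
  induction M using Multiset.induction_on with
  | empty => simp
  | cons a s ih =>
    rw [Multiset.map_cons, Multiset.sum_cons, ih, ← Multiset.singleton_add, map_add,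
      Multiset.toFinsupp_singleton]

/-- a list of length `k` realising a multiset `M` padded by `k - card M` copies of `a`. -/
theorem S17DT_exists_list_pad [DecidableEq α] (M : Multiset α) (a : α) (k : ℕ)
    (h : Multiset.card M ≤ k) :
    ∃ P : Fin k → α,
      (∑ i, Finsupp.single (P i) (1 : ℕ)) =
        Multiset.toFinsupp M + Finsupp.single a (k - Multiset.card M) ∧
      ∀ {R : Type*} [CommMonoid R] (ℓ : α → R),
        ∏ i, ℓ (P i) = ℓ a ^ (k - Multiset.card M) * (M.map ℓ).prod := by
  classical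
  obtain ⟨n, hn⟩ : ∃ n, n = k - Multiset.card M := ⟨_, rfl⟩
  obtain ⟨l, hl⟩ : ∃ l : List α, l = M.toList ++ List.replicate n a := ⟨_, rfl⟩
  have hlen : l.length = k := by
    rw [hl, List.length_append, Multiset.length_toList, List.length_replicate]
    omega
  subst hlen
  rw [← hn]
  refine ⟨fun i => l[i.1], ?_, ?_⟩
  · rw [Fin.sum_univ_fun_getElem l (fun b => Finsupp.single b (1 : ℕ)), hl, List.map_append,
      List.sum_append, List.map_replicate, List.sum_replicate, Finsupp.smul_single, smul_eq_mul,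
      mul_one]
    congr 1
    rw [← S17DT_sum_single_multiset M]
    conv_rhs => rw [← Multiset.coe_toList M]
    rw [Multiset.map_coe, Multiset.sum_coe]
  · intro R _ ℓ
    rw [Fin.prod_univ_fun_getElem l ℓ, hl, List.map_append, List.prod_append, List.map_replicate,
      List.prod_replicate, mul_comm]
    congr 1
    conv_rhs => rw [← Multiset.coe_toList M]
    rw [Multiset.map_coe, Multiset.prod_coe]

/-- the product over a list is the product over its cycle. -/
theorem S17DT_prod_eq_finsupp_prod {k : ℕ} (P : Fin k → α) {R : Type*} [CommMonoid R]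
    (ℓ : α → R) :
    ∏ i, ℓ (P i) = (∑ i, Finsupp.single (P i) (1 : ℕ)).prod fun b n => ℓ b ^ n := by
  classical
  have key : ∀ s : Finset (Fin k), ∏ i ∈ s, ℓ (P i) =
      (∑ i ∈ s, Finsupp.single (P i) (1 : ℕ)).prod fun b n => ℓ b ^ n := by
    intro s
    induction s using Finset.induction_on with
    | empty => simp
    | insert i s hi ih =>
      rw [Finset.prod_insert hi, Finset.sum_insert hi, ih,
        Finsupp.prod_add_index' (fun _ => pow_zero _) (fun _ _ _ => pow_add _ _ _)]
      congr 1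
      exact ((Finsupp.prod_single_index (h := fun b n => ℓ b ^ n)
        (pow_zero (ℓ (P i)))).trans (pow_one (ℓ (P i)))).symm
  exact key Finset.univ

/-- the product over a list depends only on its cycle. -/
theorem S17DT_prod_eq_of_cyc_eq {k k' : ℕ} (P : Fin k → α) (P' : Fin k' → α)
    (h : (∑ i, Finsupp.single (P i) (1 : ℕ)) = ∑ i, Finsupp.single (P' i) (1 : ℕ))
    {R : Type*} [CommMonoid R] (ℓ : α → R) :
    ∏ i, ℓ (P i) = ∏ i, ℓ (P' i) := by
  rw [S17DT_prod_eq_finsupp_prod, S17DT_prod_eq_finsupp_prod, h]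

/-- the sum over a list depends only on its cycle. -/
theorem S17DT_sum_eq_of_cyc_eq {k k' : ℕ} (P : Fin k → α) (P' : Fin k' → α)
    (h : (∑ i, Finsupp.single (P i) (1 : ℕ)) = ∑ i, Finsupp.single (P' i) (1 : ℕ))
    {R : Type*} [AddCommMonoid R] (f : α → R) :
    ∑ i, f (P i) = ∑ i, f (P' i) :=
  S17DT_prod_eq_of_cyc_eq (R := Multiplicative R) P P' h fun b => Multiplicative.ofAdd (f b)

/-- a sum over a finite set as a sum over `Fin`. -/
theorem S17DT_sum_finset_eq_sum_fin (Z : Finset α) {R : Type*} [AddCommMonoid R] (g : α → R) :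
    ∑ b ∈ Z, g b = ∑ i : Fin Z.card, g ((Z.equivFin.symm i : Z) : α) := by
  rw [← Finset.sum_coe_sort Z g]
  exact (Fintype.sum_equiv Z.equivFin.symm (fun i => g ((Z.equivFin.symm i : Z) : α))
    (fun b : Z => g (b : α)) fun i => rfl).symm

/-- the sum over a list whose cycle is the indicator of a finite set. -/
theorem S17DT_sum_eq_sum_of_cyc_eq_ind {k : ℕ} (P : Fin k → α) (Z : Finset α)
    (h : (∑ i, Finsupp.single (P i) (1 : ℕ)) = ∑ b ∈ Z, Finsupp.single b (1 : ℕ))
    {R : Type*} [AddCommMonoid R] (f : α → R) :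
    ∑ i, f (P i) = ∑ b ∈ Z, f b := by
  rw [S17DT_sum_finset_eq_sum_fin Z f]
  exact S17DT_sum_eq_of_cyc_eq P (fun i : Fin Z.card => ((Z.equivFin.symm i : Z) : α))
    (h.trans (S17DT_sum_finset_eq_sum_fin Z fun b => Finsupp.single b (1 : ℕ))) f

end comb

/-! ## `S17H_Fact` depends only on the cycle -/

section fact

variable {Ω : Type} [Field Ω] {ι : Type} [Fintype ι] {Pl : Type}

/-- **`S17H_Fact` depends only on the cycle of the list of points.** -/
theorem S17DT_fact_of_cyc_eq {k : ℕ} (chow : MvPolynomial (ι ⊕ ι) Ω) (c : ι → Ω)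
    (ev : Pl → ι → Ω) (P P' : Fin k → Pl) (h : S17H_cyc P = S17H_cyc P')
    (hF : S17H_Fact chow c (fun i => ev (P i))) :
    S17H_Fact chow c (fun i => ev (P' i)) := by
  obtain ⟨κ, hκ, hX⟩ := hF
  refine ⟨κ, hκ, fun X => ?_⟩
  rw [hX X]
  congr 1
  exact S17DT_prod_eq_of_cyc_eq P P' h fun Q => S17H_dot X (ev Q)

/-- `S17H_Fact` for a pointwise equal list of vectors. -/
theorem S17DT_fact_congr {k : ℕ} (chow : MvPolynomial (ι ⊕ ι) Ω) (c : ι → Ω)
    (v v' : Fin k → ι → Ω) (h : ∀ i, v i = v' i) (hF : S17H_Fact chow c v) :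
    S17H_Fact chow c v' := by
  have : v = v' := funext h
  rwa [← this]

end fact

/-! ## The curve -/

section curve

variable {K : Type} {F : Type} [Field K] [Field F] [Algebra K F]

/-- `none ↦ O`, `some P ↦ P`. -/
def S17DT_pt (O : Place K F) : Option {P : Place K F // P ≠ O} → Place K F
  | none => O
  | some P => P.1

@[simp] theorem S17DT_pt_none (O : Place K F) : S17DT_pt O none = O := rfl

@[simp] theorem S17DT_pt_some (O : Place K F) (P : {P : Place K F // P ≠ O}) :
    S17DT_pt O (some P) = P.1 := rfl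

theorem S17DT_pt_injective (O : Place K F) : Function.Injective (S17DT_pt O) := by
  intro a b hab
  cases a with
  | none =>
    cases b with
    | none => rfl
    | some Q => exact absurd hab.symm Q.2
  | some P =>
    cases b with
    | none => exact absurd hab P.2
    | some Q => exact congrArg some (Subtype.ext hab)

/-- `ev O = ε_il` in the spelling `Pi.single`. -/
theorem S17DT_ev_O {ι : Type} [DecidableEq ι] (O : Place K F) (e : ι → F) (il : ι) :
    S17NGL_ev O e il O = Pi.single il 1 := by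
  funext j
  by_cases hj : j = il
  · rw [hj, S17NGL_ev_O_il, Pi.single_eq_same]
  · rw [S17NGL_ev_O_ne O e il j hj, Pi.single_eq_of_ne hj]

theorem S17DT_ev_pt_none {ι : Type} [DecidableEq ι] (O : Place K F) (e : ι → F) (il : ι) :
    S17NGL_ev O e il (S17DT_pt O none) = Pi.single il 1 :=
  S17DT_ev_O O e il

theorem S17DT_ev_pt_some {ι : Type} (O : Place K F) (e : ι → F) (il : ι)
    (P : {P : Place K F // P ≠ O}) :
    S17NGL_ev O e il (S17DT_pt O (some P)) = S17NGZ_ev P.1 e :=
  S17NGL_ev_of_ne O e il P.2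

/-- the cast of the cycle of a list. -/
theorem S17DT_cyc_coe {k : ℕ} (P : Fin k → Place K F) (Q : Place K F) :
    ((S17H_cyc P Q : ℕ) : ℤ) = (∑ i, Finsupp.single (P i) (1 : ℤ)) Q := by
  classical
  unfold S17H_cyc
  rw [Finsupp.finsetSum_apply, Finsupp.finsetSum_apply, Nat.cast_sum]
  refine Finset.sum_congr rfl fun i _ => ?_
  rw [Finsupp.single_apply, Finsupp.single_apply]
  split_ifs <;> simp

/-- two lists with the same integral cycle have the same cycle. -/
theorem S17DT_cyc_eq_of_coe {k : ℕ} (P P' : Fin k → Place K F)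
    (h : ∀ Q, ((S17H_cyc P Q : ℕ) : ℤ) = ((S17H_cyc P' Q : ℕ) : ℤ)) :
    S17H_cyc P = S17H_cyc P' := by
  ext Q
  exact_mod_cast h Q

open Classical in
/-- the cycle of the list `S17DT_pt O ∘ w` if `w` lists `Z.map some + n·none`. -/
theorem S17DT_cyc_apply (O : Place K F) {k : ℕ} (Z : Multiset {P : Place K F // P ≠ O}) (n : ℕ)
    (w : Fin k → Option {P : Place K F // P ≠ O})
    (hw : (Finset.univ : Finset (Fin k)).val.map w = Z.map some + Multiset.replicate n none)
    (Q : Place K F) :
    S17H_cyc (fun i => S17DT_pt O (w i)) Q =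
      if hQ : Q = O then n else Z.count ⟨Q, hQ⟩ := by
  have h1 : S17H_cyc (fun i => S17DT_pt O (w i)) =
      Multiset.toFinsupp ((Z.map some + Multiset.replicate n none).map (S17DT_pt O)) := by
    rw [← hw, Multiset.map_map, ← S17DT_sum_single_multiset, Multiset.map_map]
    rfl
  rw [h1, Multiset.toFinsupp_apply, Multiset.map_add, Multiset.count_add, Multiset.map_map,
    Multiset.map_replicate]
  by_cases hQ : Q = O
  · rw [dif_pos hQ]
    have h2 : Multiset.count Q (Multiset.map (S17DT_pt O ∘ some) Z) = 0 := by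
      rw [Multiset.count_eq_zero, Multiset.mem_map]
      rintro ⟨P, -, hP⟩
      exact P.2 (hP.trans hQ)
    rw [h2, zero_add, S17DT_pt_none, hQ, Multiset.count_replicate_self]
  · rw [dif_neg hQ]
    have h2 : Multiset.count Q (Multiset.replicate n (S17DT_pt O none)) = 0 := by
      rw [Multiset.count_eq_zero]
      intro hmem
      exact hQ (Multiset.eq_of_mem_replicate hmem)
    rw [h2, add_zero]
    have h3 : Q = (S17DT_pt O ∘ some) ⟨Q, hQ⟩ := rfl
    conv_lhs => rw [h3]
    exact Multiset.count_map_eq_count' _ _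
      (fun a b hab => Option.some_injective _ (S17DT_pt_injective O hab)) _

variable (h : RR_Hyp K F) (O : Place K F) (k : ℕ)

include h in
open Classical in
/-- **the cycle of the zero list is `div φ + k·O`.**  `Z` is the multiset of zeros `≠ O` of `φ`
((Z1), (Z2) of CHOW), `w` lists `Z` padded by `none`. -/
theorem S17DT_cyc_cast {φ : F} (hφ : φ ≠ 0)
    (hmem : φ ∈ riemannRochSpace (k • Finsupp.single O (1 : ℤ)))
    (Z : Multiset {P : Place K F // P ≠ O})
    (hZ1 : ∀ P : {P : Place K F // P ≠ O}, Z.count P = (P.1.ord φ).toNat)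
    (hZ2 : (Multiset.card Z : ℤ) = -O.ord φ)
    (w : Fin k → Option {P : Place K F // P ≠ O})
    (hw : (Finset.univ : Finset (Fin k)).val.map w =
      Z.map some + Multiset.replicate (k - Multiset.card Z) none)
    (Q : Place K F) :
    ((S17H_cyc (fun i => S17DT_pt O (w i)) Q : ℕ) : ℤ) =
      Q.ord φ + (k • Finsupp.single O (1 : ℤ)) Q := by
  have hm := (mem_riemannRochSpace_iff.1 hmem) Q
  rw [or_iff_right hφ] at hm
  rw [S17DT_cyc_apply O Z _ w hw Q]
  by_cases hQ : Q = O
  · rw [dif_pos hQ]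
    rw [hQ] at hm ⊢
    rw [Finsupp.smul_apply, Finsupp.single_eq_same, nsmul_eq_mul, mul_one] at hm ⊢
    have hle : Multiset.card Z ≤ k := by
      have : (Multiset.card Z : ℤ) ≤ k := by rw [hZ2]; linarith
      exact_mod_cast this
    rw [Nat.cast_sub hle, hZ2]
    ring
  · rw [dif_neg hQ, hZ1]
    have h0 : (k • Finsupp.single O (1 : ℤ)) Q = 0 := by
      rw [Finsupp.smul_apply, Finsupp.single_apply, if_neg (Ne.symm hQ), smul_zero]
    rw [h0] at hm ⊢
    rw [add_zero]
    exact Int.toNat_of_nonneg (by linarith)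

include h in
/-- `cyc v = div φ + k·O` as divisors. -/
theorem S17DT_toDiv_cyc {φ : F} (hφ : φ ≠ 0)
    (v : Fin k → Place K F)
    (hv : ∀ Q, ((S17H_cyc v Q : ℕ) : ℤ) = Q.ord φ + (k • Finsupp.single O (1 : ℤ)) Q) :
    (S17H_cyc v).mapRange (Nat.cast : ℕ → ℤ) Nat.cast_zero =
      RR_div h.principal φ + k • Finsupp.single O (1 : ℤ) := by
  ext Q
  rw [Finsupp.mapRange_apply, hv Q, Finsupp.add_apply, RR_div_apply]

/-- the class of `O` is `0`. -/
theorem S17DT_psi_single : S17MV_psi h O (Finsupp.single O (1 : ℤ)) = 0 := by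
  rw [S17MV_psi_apply, S17MV_mk_proj_single]
  unfold S17MV_cls
  have : (⟨Finsupp.single O (1 : ℤ) - Finsupp.single O (1 : ℤ), S17MV_sub_mem h O O⟩ :
      Divisor.degZero (K := K) (F := F)) = 0 := Subtype.ext (sub_self _)
  rw [this]
  rfl

/-- the class of a principal divisor is `0`. -/
theorem S17DT_psi_div {φ : F} (hφ : φ ≠ 0) : S17MV_psi h O (RR_div h.principal φ) = 0 := by
  have hd : RR_div h.principal φ ∈ Divisor.degZero (K := K) (F := F) :=
    Divisor.mem_degZero.2 (RR_div_degree h.principal φ)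
  have h1 : S17MV_proj h O (RR_div h.principal φ) = ⟨RR_div h.principal φ, hd⟩ :=
    S17MV_proj_of_degZero h O ⟨RR_div h.principal φ, hd⟩
  rw [S17MV_psi_apply, h1]
  exact S17MV_mk_div h φ hφ hd

/-- **the class of the zero cycle is `0`.** -/
theorem S17DT_psi_cyc {φ : F} (hφ : φ ≠ 0)
    (v : Fin k → Place K F)
    (hv : ∀ Q, ((S17H_cyc v Q : ℕ) : ℤ) = Q.ord φ + (k • Finsupp.single O (1 : ℤ)) Q) :
    S17MV_psi h O ((S17H_cyc v).mapRange (Nat.cast : ℕ → ℤ) Nat.cast_zero) = 0 := by
  rw [S17DT_toDiv_cyc h O k hφ v hv, map_add, map_nsmul, S17DT_psi_div h O hφ,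
    S17DT_psi_single h O, smul_zero, add_zero]

omit h in
/-- **invariance of the zero cycle**: if `act` fixes `O`, is injective and preserves `ord φ`,
then the zero cycle is `act`-invariant. -/
theorem S17DT_cyc_inv {φ : F}
    (v : Fin k → Place K F)
    (hv : ∀ Q, ((S17H_cyc v Q : ℕ) : ℤ) = Q.ord φ + (k • Finsupp.single O (1 : ℤ)) Q)
    (act : Place K F → Place K F) (hO : act O = O) (hinj : Function.Injective act)
    (hord : ∀ Q, (act Q).ord φ = Q.ord φ) (Q : Place K F) :
    S17H_cyc v (act Q) = S17H_cyc v Q := by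
  classical
  have h1 := hv (act Q)
  have h2 := hv Q
  have h3 : (k • Finsupp.single O (1 : ℤ)) (act Q) = (k • Finsupp.single O (1 : ℤ)) Q := by
    rw [Finsupp.smul_apply, Finsupp.smul_apply, Finsupp.single_apply, Finsupp.single_apply]
    by_cases hQ : O = Q
    · rw [if_pos hQ, if_pos (by rw [← hQ, hO])]
    · rw [if_neg hQ, if_neg]
      intro hQ'
      exact hQ (hinj (hO.trans hQ'))
  rw [hord, h3, ← h2] at h1
  exact_mod_cast h1

include h in
open Classical in
/-- **C2 DICT**: the output of CHOW (the FACT in `Option` form, (Z1), (Z2)) gives the zero list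
`v : Fin k → Place` of `φ` with `S17H_Fact`, `cyc v = div φ + k·O` and class `0`. -/
theorem S17DT_zeros {ι : Type} [Fintype ι] (e : ι → F) (il : ι)
    (chow : MvPolynomial (ι ⊕ ι) K) (c : ι → K)
    {φ : F} (hφ : φ ≠ 0) (hmem : φ ∈ riemannRochSpace (k • Finsupp.single O (1 : ℤ)))
    (Z : Multiset {P : Place K F // P ≠ O})
    (hZ1 : ∀ P : {P : Place K F // P ≠ O}, Z.count P = (P.1.ord φ).toNat)
    (hZ2 : (Multiset.card Z : ℤ) = -O.ord φ)
    (w : Fin k → Option {P : Place K F // P ≠ O})
    (hw : (Finset.univ : Finset (Fin k)).val.map w =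
      Z.map some + Multiset.replicate (k - Multiset.card Z) none)
    (evO : Option {P : Place K F // P ≠ O} → ι → K)
    (hevO : ∀ o, evO o = S17NGL_ev O e il (S17DT_pt O o))
    (hF : S17H_Fact chow c (fun i => evO (w i))) :
    ∃ v : Fin k → Place K F,
      S17H_Fact chow c (fun i => S17NGL_ev O e il (v i)) ∧
      (∀ Q, ((S17H_cyc v Q : ℕ) : ℤ) = Q.ord φ + (k • Finsupp.single O (1 : ℤ)) Q) ∧
      S17MV_psi h O ((S17H_cyc v).mapRange (Nat.cast : ℕ → ℤ) Nat.cast_zero) = 0 := by
  have hv := S17DT_cyc_cast h O k hφ hmem Z hZ1 hZ2 w hw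
  exact ⟨fun i => S17DT_pt O (w i),
    S17DT_fact_congr chow c _ _ (fun i => hevO (w i)) hF, hv,
    S17DT_psi_cyc h O k hφ _ hv⟩

include h in
open Classical in
/-- **C2 DICT, final form**: the output of CHOW gives `S17H_Fact` for EVERY list `P` of `k`
places whose cycle is `div φ + k·O`  (the lists of `S17PC_zeros_cyc`, `S17PC_princ_cyc`). -/
theorem S17DT_fact {ι : Type} [Fintype ι] (e : ι → F) (il : ι)
    (chow : MvPolynomial (ι ⊕ ι) K) (c : ι → K)
    {φ : F} (hφ : φ ≠ 0) (hmem : φ ∈ riemannRochSpace (k • Finsupp.single O (1 : ℤ)))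
    (Z : Multiset {P : Place K F // P ≠ O})
    (hZ1 : ∀ P : {P : Place K F // P ≠ O}, Z.count P = (P.1.ord φ).toNat)
    (hZ2 : (Multiset.card Z : ℤ) = -O.ord φ)
    (w : Fin k → Option {P : Place K F // P ≠ O})
    (hw : (Finset.univ : Finset (Fin k)).val.map w =
      Z.map some + Multiset.replicate (k - Multiset.card Z) none)
    (evO : Option {P : Place K F // P ≠ O} → ι → K)
    (hevO : ∀ o, evO o = S17NGL_ev O e il (S17DT_pt O o))
    (hF : S17H_Fact chow c (fun i => evO (w i)))
    (P : Fin k → Place K F)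
    (hP : ∀ Q, (∑ i, Finsupp.single (P i) (1 : ℤ)) Q =
      Q.ord φ + (k • Finsupp.single O (1 : ℤ)) Q) :
    S17H_Fact chow c (fun i => S17NGL_ev O e il (P i)) := by
  obtain ⟨v, hvF, hv, -⟩ := S17DT_zeros h O k e il chow c hφ hmem Z hZ1 hZ2 w hw evO hevO hF
  refine S17DT_fact_of_cyc_eq chow c (S17NGL_ev O e il) v P ?_ hvF
  refine S17DT_cyc_eq_of_coe v P fun Q => ?_
  rw [hv Q, S17DT_cyc_coe P Q, hP Q]

end curve

end Fermat.Agent.S17
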