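import Fermat.Agent.S17.Model

/-!
# TRACK 8 (S17), heights pillar: GLUE 1 (deca) (helper13), prefix `S17G1_`

`S17G1_main (M) (hA : S17H_StmtA M.X) (hD : S17H_StmtDEClam M.X) : S17H_GlueDeca M`.

For a good `Z` of degree `k = 4·d1` and class `0`: enumerate `Z` as `P : Fin k → Pl`; `princ` gives
a section `c ≠ 0` with zero cycle `ev ∘ P`.  For `Q ∉ Z`: `⟨c, ev Q⟩ ≠ 0` — otherwise by (H1) the
hyperplane `(ev Q)^⊥` is contained in the union of the hyperplanes `(ev P_i)^⊥`, hence in one of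
them (`Ω` infinite), hence `ev P_i ∧ ev Q = 0`, hence `P_i = Q` (`ev_inj`).  Then (DEC, λ-form) and
(A) give the estimate with `C0 = C_DEC + |C_A| / k`.

* `S17G1_exists_perp`  : linear algebra (no hyperplane is a finite union of other hyperplanes);
* `S17G1_dot_ne_zero`  : `⟨c, x⟩ ≠ 0` for a point `x` of the curve not proportional to any point
  of the zero cycle of `c`;
* `S17G1_main`.
-/

set_option autoImplicit false
set_option linter.unusedSectionVars false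

open MvPolynomial

namespace Fermat.Agent.S17

section linalg

variable {Ω : Type} [Field Ω] {ι : Type} [Fintype ι]

/-- `X ↦ ⟨X, x⟩` as a linear form. -/
def S17G1_form (x : ι → Ω) : (ι → Ω) →ₗ[Ω] Ω where
  toFun X := S17H_dot X x
  map_add' X Y := by
    simp only [S17H_dot, Pi.add_apply, add_mul, Finset.sum_add_distrib]
  map_smul' a X := by
    simp only [S17H_dot, Pi.smul_apply, smul_eq_mul, RingHom.id_apply, Finset.mul_sum, mul_assoc]

@[simp]
theorem S17G1_form_apply (x X : ι → Ω) : S17G1_form x X = S17H_dot X x := rfl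

/-- if `x ∧ v ≠ 0` there is `X ⊥ x` with `⟨X, v⟩ ≠ 0`. -/
theorem S17G1_exists_perp_one [DecidableEq ι] {x v : ι → Ω} (h : S17H_wedge x v ≠ 0) :
    ∃ X : ι → Ω, S17H_dot X x = 0 ∧ S17H_dot X v ≠ 0 := by
  have : ∃ p : ι × ι, S17H_wedge x v p ≠ 0 := by
    by_contra hcon
    push Not at hcon
    exact h (funext hcon)
  obtain ⟨⟨a, b⟩, hab⟩ := this
  simp only [S17H_wedge] at hab
  have hne : a ≠ b := by
    rintro rfl
    exact hab (by ring)
  refine ⟨fun j => (if j = b then x a else 0) - (if j = a then x b else 0), ?_, ?_⟩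
  · simp only [S17H_dot, sub_mul, ite_mul, zero_mul, Finset.sum_sub_distrib,
      Finset.sum_ite_eq', Finset.mem_univ, if_true]
    ring
  · simp only [S17H_dot, sub_mul, ite_mul, zero_mul, Finset.sum_sub_distrib,
      Finset.sum_ite_eq', Finset.mem_univ, if_true]
    exact hab

/-- **no hyperplane is contained in a finite union of other hyperplanes**: if `x ∧ v i ≠ 0` for
all `i`, there is `X ⊥ x` with `⟨X, v i⟩ ≠ 0` for all `i`. -/
theorem S17G1_exists_perp [Infinite Ω] {κ : Type} [Finite κ] (x : ι → Ω) (v : κ → ι → Ω)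
    (h : ∀ i, S17H_wedge x (v i) ≠ 0) :
    ∃ X : ι → Ω, S17H_dot X x = 0 ∧ ∀ i, S17H_dot X (v i) ≠ 0 := by
  classical
  by_contra hcon
  push Not at hcon
  -- the hyperplane `H = x^⊥` and its subspaces `H ∩ (v i)^⊥`
  let H : Submodule Ω (ι → Ω) := LinearMap.ker (S17G1_form x)
  let p : κ → Submodule Ω ↥H := fun i => LinearMap.ker ((S17G1_form (v i)).comp H.subtype)
  have hcov : ⋃ i, (p i : Set ↥H) = Set.univ := by
    ext X
    simp only [Set.mem_iUnion, SetLike.mem_coe, Set.mem_univ, iff_true]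
    have hX : S17H_dot (X : ι → Ω) x = 0 := X.2
    obtain ⟨i, hi⟩ := hcon (X : ι → Ω) hX
    exact ⟨i, hi⟩
  obtain ⟨i, hi⟩ := Subspace.exists_eq_top_of_iUnion_eq_univ hcov
  obtain ⟨X, hX, hXv⟩ := S17G1_exists_perp_one (h i)
  have hmem : (⟨X, hX⟩ : ↥H) ∈ p i := by
    rw [hi]
    exact Submodule.mem_top
  exact hXv hmem

end linalg

section dot

variable {Ω : Type} [Field Ω] [CharZero Ω] {ι : Type} [Fintype ι] {k : ℕ}

/-- a point `x ≠ 0` of the curve which is not proportional to any point of the zero cycle of `c`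
does not lie on the hyperplane `c`. -/
theorem S17G1_dot_ne_zero (X : S17H_Curve Ω ι k) (c x : ι → Ω) (v : Fin k → ι → Ω)
    (hx : x ∈ S17H_V X.I) (hx0 : x ≠ 0) (hF : S17H_Fact X.chow c v)
    (hv : ∀ i, S17H_wedge x (v i) ≠ 0) : S17H_dot c x ≠ 0 := by
  intro hcx
  obtain ⟨κ, hκ, hchow⟩ := hF
  obtain ⟨Y, hY, hYv⟩ := S17G1_exists_perp x v hv
  have h0 : eval (Sum.elim c Y) X.chow = 0 := X.h1 c x Y hx hx0 hcx hY
  rw [hchow Y] at h0
  rcases mul_eq_zero.1 h0 with h | h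
  · exact hκ h
  · obtain ⟨i, -, hi⟩ := Finset.prod_eq_zero_iff.1 h
    exact hYv i hi

end dot

section main

variable {Ω : Type} [Field Ω] [CharZero Ω] {J : Type} [AddCommGroup J] {Pl : Type}
  [DecidableEq Pl] {ι : Type} [Fintype ι] {k g d1 : ℕ}

/-- `ev P ≠ 0` for every place. -/
theorem S17G1_ev_ne_zero (M : S17H_Model Ω J Pl ι k g d1) (P : Pl) : M.ev P ≠ 0 := by
  intro h
  by_cases hP : P = M.O
  · have := M.ev_O_il
    rw [← hP, h] at this
    exact zero_ne_one this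
  · have := M.ev_i0 P hP
    rw [h] at this
    exact zero_ne_one this

/-- the cycle of an enumeration of a finite set is its indicator. -/
theorem S17G1_cyc_enum {n : ℕ} (Z : Finset Pl) (e : Fin n ≃ ↥Z) :
    S17H_cyc (fun i => ((e i : ↥Z) : Pl)) = S17H_ind Z := by
  unfold S17H_cyc S17H_ind
  rw [← Finset.sum_coe_sort Z (fun P => Finsupp.single P 1)]
  exact Equiv.sum_comp e (fun P : ↥Z => Finsupp.single (P : Pl) (1 : ℕ))

/-- sums over an enumeration of a finite set. -/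
theorem S17G1_sum_enum {n : ℕ} (Z : Finset Pl) (e : Fin n ≃ ↥Z) (f : Pl → ℝ) :
    ∑ i, f ((e i : ↥Z) : Pl) = ∑ R ∈ Z, f R := by
  rw [← Finset.sum_coe_sort Z f]
  exact Equiv.sum_comp e (fun P : ↥Z => f (P : Pl))

/-- **GLUE 1 (deca)**. -/
theorem S17G1_main (M : S17H_Model Ω J Pl ι k g d1) (hA : S17H_StmtA M.X)
    (hD : S17H_StmtDEClam M.X) : S17H_GlueDeca M := by
  obtain ⟨CA, hCA⟩ := hA
  obtain ⟨CD, hCD⟩ := hD
  have hk := M.hk
  have hd1 : 1 ≤ d1 := le_trans (Nat.le_add_left 1 (2 * g)) M.hd1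
  have hkpos : (0 : ℝ) < (4 * d1 : ℝ) := by positivity
  refine ⟨CD + |CA| / (4 * d1 : ℝ), ?_⟩
  intro Z hZ hcard hcl Q hQ
  -- enumerate `Z`
  have hcardk : Z.card = k := by rw [hcard, hk]
  let e : Fin k ≃ ↥Z := (Finset.equivFinOfCardEq hcardk).symm
  let P : Fin k → Pl := fun i => ((e i : ↥Z) : Pl)
  have hPZ : ∀ i, P i ∈ Z := fun i => (e i).2
  have hcyc : S17H_cyc P = S17H_ind Z := S17G1_cyc_enum Z e
  obtain ⟨c, hc, hF⟩ := M.princ P (by rw [hcyc]; exact hcl)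
  have hv0 : ∀ i, M.ev (P i) ≠ 0 := fun i => S17G1_ev_ne_zero M (P i)
  have hwedge : ∀ i, S17H_wedge (M.ev Q) (M.ev (P i)) ≠ 0 := by
    intro i
    apply M.ev_inj
    rintro rfl
    exact hQ (hPZ i)
  have hdot : S17H_dot c (M.ev Q) ≠ 0 :=
    S17G1_dot_ne_zero M.X c (M.ev Q) (fun i => M.ev (P i)) (M.ev_mem Q)
      (S17G1_ev_ne_zero M Q) hF hwedge
  have h1 := hCD c (M.ev Q) (fun i => M.ev (P i)) (M.ev_mem Q) hdot hv0 hF
  have h2 := hCA c (fun i => M.ev (P i)) hc hv0 hF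
  -- rewrite the sums
  have e1 : ∑ i, S17H_lam (M.ev Q) (M.ev (P i)) = ∑ R ∈ Z, M.lam Q R :=
    S17G1_sum_enum Z e (fun R => M.lam Q R)
  have e2 : ∑ i, S17AH_h (M.ev (P i)) = ∑ R ∈ Z, M.hk' R :=
    S17G1_sum_enum Z e (fun R => M.hk' R)
  rw [e1] at h1
  rw [e2] at h2
  have hkR : (k : ℝ) = (4 * d1 : ℝ) := by
    rw [hk]
    push_cast
    ring
  rw [hkR] at h2
  -- `|Σ h / k − h c| ≤ |CA| / k`
  have h3 : |(∑ R ∈ Z, M.hk' R) / (4 * d1 : ℝ) - S17AH_h c| ≤ |CA| / (4 * d1 : ℝ) := by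
    have : (∑ R ∈ Z, M.hk' R) / (4 * d1 : ℝ) - S17AH_h c =
        (∑ R ∈ Z, M.hk' R - (4 * d1 : ℝ) * S17AH_h c) / (4 * d1 : ℝ) := by
      field_simp
    rw [this, abs_div, abs_of_pos hkpos]
    exact div_le_div_of_nonneg_right (h2.trans (le_abs_self CA)) hkpos.le
  have hsplit : ∑ R ∈ Z, M.lam Q R - (∑ R ∈ Z, M.hk' R) / (4 * d1 : ℝ) - M.hk' Q =
      (∑ R ∈ Z, M.lam Q R - (S17AH_h c + S17AH_h (M.ev Q))) -
        ((∑ R ∈ Z, M.hk' R) / (4 * d1 : ℝ) - S17AH_h c) := by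
    simp only [S17H_Model.hk']
    ring
  rw [hsplit]
  exact (abs_sub _ _).trans (add_le_add h1 h3)

end main

end Fermat.Agent.S17
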