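import Mathlib
import Fermat.Agent.S17.Dict
import Fermat.Agent.S17.GlueDeca

/-!
# TRACK 8 (S17), heights, package DICT-CONV (helper14), prefix `S17DT_`

**`S17H_Fact` determines the cycle**: if `𝒞(c, X) = κ ∏ ⟨X, ev (P i)⟩ = κ' ∏ ⟨X, ev (P' i)⟩` for two
lists of points and `ev` separates the points (`P ≠ P' → ev P ∧ ev P' ≠ 0`), then the two lists
have the same cycle (unique factorisation of products of linear forms over an infinite field).

* `S17DT_lin x`            : the linear form `X ↦ ⟨X, x⟩` as a polynomial;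
* `S17DT_uf`               : unique factorisation for multisets of points;
* `S17DT_cyc_eq_of_fact`   : two lists with `S17H_Fact` for the same `c` have the same cycle;
* `S17DT_conv`             : on the curve, `S17H_Fact chow c (ev ∘ Q)` ⇒ `cyc Q = div φ_c + k·O`;
* `S17DT_conv_ord_O`, `S17DT_conv_pos_iff`, `S17DT_conv_ord_one`, `S17DT_conv_il`,
  `S17DT_conv_main` : if moreover `Q i ≠ O` for all `i`: `ord_O φ_c = -k`, `c il ≠ 0`, the zeros of
  `φ_c` are exactly the `Q i`, and they are simple if `Q` is injective.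
-/

set_option autoImplicit false
set_option linter.unusedSectionVars false
set_option linter.unusedVariables false

open Finset AlgebraicCurve MvPolynomial

namespace Fermat.Agent.S17

open Fermat.Agent.Lib

/-! ## Unique factorisation of products of linear forms -/

section uf

variable {Ω : Type} [Field Ω] {ι : Type} [Fintype ι]

/-- the linear form `X ↦ ⟨X, x⟩` as a polynomial. -/
noncomputable def S17DT_lin (x : ι → Ω) : MvPolynomial ι Ω := ∑ j, C (x j) * X j

theorem S17DT_eval_lin (Y x : ι → Ω) : eval Y (S17DT_lin x) = S17H_dot Y x := by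
  unfold S17DT_lin S17H_dot
  rw [map_sum]
  refine Finset.sum_congr rfl fun j _ => ?_
  rw [map_mul, eval_C, eval_X, mul_comm]

theorem S17DT_lin_ne_zero [DecidableEq ι] {x : ι → Ω} (hx : x ≠ 0) : S17DT_lin x ≠ 0 := by
  intro h0
  apply hx
  funext j
  have h1 := congrArg (eval (Pi.single j (1 : Ω))) h0
  rw [S17DT_eval_lin, map_zero] at h1
  unfold S17H_dot at h1
  rw [Finset.sum_eq_single j (fun b _ hb => by rw [Pi.single_eq_of_ne hb, zero_mul])
    (fun hj => absurd (Finset.mem_univ j) hj), Pi.single_eq_same, one_mul] at h1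
  exact h1

variable {Pl : Type}

/-- the product of the linear forms of a multiset of points. -/
noncomputable def S17DT_linProd (ev : Pl → ι → Ω) (A : Multiset Pl) : MvPolynomial ι Ω :=
  (A.map fun P => S17DT_lin (ev P)).prod

theorem S17DT_eval_linProd (ev : Pl → ι → Ω) (A : Multiset Pl) (Y : ι → Ω) :
    eval Y (S17DT_linProd ev A) = (A.map fun P => S17H_dot Y (ev P)).prod := by
  unfold S17DT_linProd
  rw [map_multiset_prod, Multiset.map_map]
  congr 1
  exact Multiset.map_congr rfl fun P _ => S17DT_eval_lin Y (ev P)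

theorem S17DT_linProd_cons (ev : Pl → ι → Ω) (P : Pl) (A : Multiset Pl) :
    S17DT_linProd ev (P ::ₘ A) = S17DT_lin (ev P) * S17DT_linProd ev A := by
  unfold S17DT_linProd
  rw [Multiset.map_cons, Multiset.prod_cons]

/-- **unique factorisation** of products of pairwise non-proportional linear forms. -/
theorem S17DT_uf [Infinite Ω] (ev : Pl → ι → Ω)
    (hinj : ∀ P P', P ≠ P' → S17H_wedge (ev P) (ev P') ≠ 0)
    (hne : ∀ P, ev P ≠ 0) :
    ∀ (A B : Multiset Pl) (lam : Ω), lam ≠ 0 →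
      S17DT_linProd ev A = C lam * S17DT_linProd ev B → A = B := by
  classical
  intro A
  induction A using Multiset.induction_on with
  | empty =>
    intro B lam hlam h
    by_contra hB
    obtain ⟨R, hR⟩ := Multiset.exists_mem_of_ne_zero (Ne.symm hB)
    obtain ⟨B', rfl⟩ := Multiset.exists_cons_of_mem hR
    have h1 := congrArg (eval (0 : ι → Ω)) h
    rw [S17DT_linProd_cons, map_mul, map_mul, S17DT_eval_lin] at h1
    have h2 : S17H_dot (0 : ι → Ω) (ev R) = 0 := by
      unfold S17H_dot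
      simp
    rw [h2, zero_mul, mul_zero] at h1
    have h3 : eval (0 : ι → Ω) (S17DT_linProd ev (0 : Multiset Pl)) = 1 := by
      unfold S17DT_linProd
      simp
    rw [h3] at h1
    exact one_ne_zero h1
  | cons P A ih =>
    intro B lam hlam h
    have hPB : P ∈ B := by
      by_contra hPB
      obtain ⟨Y, hY, hYv⟩ := S17G1_exists_perp (κ := {R // R ∈ B.toFinset}) (ev P)
        (fun R => ev R.1) (fun R => hinj P R.1 (by
          intro hPR
          exact hPB (hPR ▸ Multiset.mem_toFinset.1 R.2)))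
      have h1 := congrArg (eval Y) h
      rw [S17DT_linProd_cons, map_mul, map_mul, S17DT_eval_lin, hY, zero_mul, eval_C,
        S17DT_eval_linProd] at h1
      rcases mul_eq_zero.1 h1.symm with h2 | h2
      · exact hlam h2
      · obtain ⟨R, hR, hR0⟩ := Multiset.mem_map.1 (Multiset.prod_eq_zero_iff.1 h2)
        exact hYv ⟨R, Multiset.mem_toFinset.2 hR⟩ hR0
    obtain ⟨B', rfl⟩ := Multiset.exists_cons_of_mem hPB
    rw [S17DT_linProd_cons, S17DT_linProd_cons, mul_left_comm] at h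
    have h2 := mul_left_cancel₀ (S17DT_lin_ne_zero (hne P)) h
    rw [ih B' lam hlam h2]

/-- the cycle of a list is the `toFinsupp` of its multiset. -/
theorem S17DT_cyc_eq_toFinsupp [DecidableEq Pl] {k : ℕ} (P : Fin k → Pl) :
    S17H_cyc P = Multiset.toFinsupp ((Finset.univ : Finset (Fin k)).val.map P) := by
  rw [← S17DT_sum_single_multiset, Multiset.map_map]
  rfl

/-- **`S17H_Fact` determines the cycle.** -/
theorem S17DT_cyc_eq_of_fact [Infinite Ω] (ev : Pl → ι → Ω)
    (hinj : ∀ P P', P ≠ P' → S17H_wedge (ev P) (ev P') ≠ 0)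
    (hne : ∀ P, ev P ≠ 0) {k : ℕ}
    (chow : MvPolynomial (ι ⊕ ι) Ω) (c : ι → Ω) (P P' : Fin k → Pl)
    (hF : S17H_Fact chow c (fun i => ev (P i)))
    (hF' : S17H_Fact chow c (fun i => ev (P' i))) :
    S17H_cyc P = S17H_cyc P' := by
  classical
  obtain ⟨κ, hκ, hX⟩ := hF
  obtain ⟨κ', hκ', hX'⟩ := hF'
  have key : S17DT_linProd ev ((Finset.univ : Finset (Fin k)).val.map P) =
      C (κ⁻¹ * κ') * S17DT_linProd ev ((Finset.univ : Finset (Fin k)).val.map P') := by
    apply MvPolynomial.funext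
    intro Y
    rw [map_mul, eval_C, S17DT_eval_linProd, S17DT_eval_linProd, Multiset.map_map,
      Multiset.map_map]
    have h1 : (Multiset.map ((fun Q => S17H_dot Y (ev Q)) ∘ P) (Finset.univ : Finset (Fin k)).val).prod
        = ∏ i, S17H_dot Y (ev (P i)) := rfl
    have h2 : (Multiset.map ((fun Q => S17H_dot Y (ev Q)) ∘ P') (Finset.univ : Finset (Fin k)).val).prod
        = ∏ i, S17H_dot Y (ev (P' i)) := rfl
    rw [h1, h2]
    have h3 := (hX Y).symm.trans (hX' Y)
    rw [mul_assoc, ← h3, ← mul_assoc, inv_mul_cancel₀ hκ, one_mul]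
  have := S17DT_uf ev hinj hne _ _ (κ⁻¹ * κ') (mul_ne_zero (inv_ne_zero hκ) hκ') key
  rw [S17DT_cyc_eq_toFinsupp, S17DT_cyc_eq_toFinsupp, this]

end uf

/-! ## The curve -/

section curve

variable {K : Type} {F : Type} [Field K] [Field F] [Algebra K F]

/-- the multiplicity of a point in a list is positive iff the point occurs. -/
theorem S17DT_cyc_pos_iff {Pl : Type} {k : ℕ} (Q : Fin k → Pl) (P : Pl) :
    0 < S17H_cyc Q P ↔ ∃ i, P = Q i := by
  classical
  unfold S17H_cyc
  rw [Finsupp.finsetSum_apply]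
  constructor
  · intro hpos
    by_contra hcon
    push Not at hcon
    have : ∑ i, (Finsupp.single (Q i) (1 : ℕ)) P = 0 :=
      Finset.sum_eq_zero fun i _ => by
        rw [Finsupp.single_apply, if_neg (Ne.symm (hcon i))]
    omega
  · rintro ⟨i, rfl⟩
    have h1 : (Finsupp.single (Q i) (1 : ℕ)) (Q i) ≤ ∑ j, (Finsupp.single (Q j) (1 : ℕ)) (Q i) :=
      Finset.single_le_sum (f := fun j => (Finsupp.single (Q j) (1 : ℕ)) (Q i))
        (fun _ _ => Nat.zero_le _) (Finset.mem_univ i)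
    rw [Finsupp.single_eq_same] at h1
    omega

/-- the multiplicity of a point in an injective list is at most `1`. -/
theorem S17DT_cyc_le_one {Pl : Type} {k : ℕ} (Q : Fin k → Pl) (hQ : Function.Injective Q)
    (P : Pl) : S17H_cyc Q P ≤ 1 := by
  classical
  unfold S17H_cyc
  rw [Finsupp.finsetSum_apply]
  by_cases hex : ∃ i, Q i = P
  · obtain ⟨i, rfl⟩ := hex
    rw [Finset.sum_eq_single i (fun j _ hj => by
      rw [Finsupp.single_apply, if_neg (fun h => hj (hQ h))])
      (fun hi => absurd (Finset.mem_univ i) hi), Finsupp.single_eq_same]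
  · push Not at hex
    rw [Finset.sum_eq_zero fun i _ => by rw [Finsupp.single_apply, if_neg (hex i)]]
    exact Nat.zero_le _

variable (O : Place K F) (k : ℕ)

/-- **DICT-CONV**: if `S17H_Fact chow c (ev ∘ Q)` then the cycle of `Q` is `div φ + k·O`
(`hz` = the output of `S17DT_zeros`). -/
theorem S17DT_conv [Infinite K] {ι : Type} [Fintype ι] (ev : Place K F → ι → K)
    (hinj : ∀ P P', P ≠ P' → S17H_wedge (ev P) (ev P') ≠ 0) (hne : ∀ P, ev P ≠ 0)
    (chow : MvPolynomial (ι ⊕ ι) K) (c : ι → K) {φ : F}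
    (hz : ∃ v : Fin k → Place K F, S17H_Fact chow c (fun i => ev (v i)) ∧
      ∀ P, ((S17H_cyc v P : ℕ) : ℤ) = P.ord φ + (k • Finsupp.single O (1 : ℤ)) P)
    (Q : Fin k → Place K F) (hF : S17H_Fact chow c (fun i => ev (Q i))) (P : Place K F) :
    ((S17H_cyc Q P : ℕ) : ℤ) = P.ord φ + (k • Finsupp.single O (1 : ℤ)) P := by
  obtain ⟨v, hvF, hv⟩ := hz
  rw [S17DT_cyc_eq_of_fact ev hinj hne chow c Q v hF hvF]
  exact hv P

/-- if no `Q i` is `O` then `ord_O φ = -k`. -/
theorem S17DT_conv_ord_O {φ : F} (Q : Fin k → Place K F)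
    (hQ : ∀ P, ((S17H_cyc Q P : ℕ) : ℤ) = P.ord φ + (k • Finsupp.single O (1 : ℤ)) P)
    (hQO : ∀ i, Q i ≠ O) : O.ord φ = -(k : ℤ) := by
  have h1 := hQ O
  have h2 : S17H_cyc Q O = 0 := by
    by_contra h0
    obtain ⟨i, hi⟩ := (S17DT_cyc_pos_iff Q O).1 (Nat.pos_of_ne_zero h0)
    exact hQO i hi.symm
  rw [h2, Finsupp.smul_apply, Finsupp.single_eq_same, nsmul_eq_mul, mul_one] at h1
  push_cast at h1
  linarith

/-- the zeros `≠ O` of `φ` are exactly the `Q i`. -/
theorem S17DT_conv_pos_iff {φ : F} (Q : Fin k → Place K F)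
    (hQ : ∀ P, ((S17H_cyc Q P : ℕ) : ℤ) = P.ord φ + (k • Finsupp.single O (1 : ℤ)) P)
    {P : Place K F} (hP : P ≠ O) : 0 < P.ord φ ↔ ∃ i, P = Q i := by
  classical
  have h1 := hQ P
  have h0 : (k • Finsupp.single O (1 : ℤ)) P = 0 := by
    rw [Finsupp.smul_apply, Finsupp.single_apply, if_neg (Ne.symm hP), smul_zero]
  rw [h0, add_zero] at h1
  rw [← S17DT_cyc_pos_iff Q P, ← h1]
  exact Nat.cast_pos

/-- the zeros of `φ` are simple if `Q` is injective. -/
theorem S17DT_conv_ord_one {φ : F} (Q : Fin k → Place K F)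
    (hQ : ∀ P, ((S17H_cyc Q P : ℕ) : ℤ) = P.ord φ + (k • Finsupp.single O (1 : ℤ)) P)
    (hinjQ : Function.Injective Q) (i : Fin k) (hi : Q i ≠ O) : (Q i).ord φ = 1 := by
  classical
  have h1 := hQ (Q i)
  have h0 : (k • Finsupp.single O (1 : ℤ)) (Q i) = 0 := by
    rw [Finsupp.smul_apply, Finsupp.single_apply, if_neg (Ne.symm hi), smul_zero]
  rw [h0, add_zero] at h1
  have h2 := S17DT_cyc_le_one Q hinjQ (Q i)
  have h3 := (S17DT_cyc_pos_iff Q (Q i)).2 ⟨i, rfl⟩
  have h4 : S17H_cyc Q (Q i) = 1 := by omega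
  rw [h4] at h1
  exact_mod_cast h1.symm

open WithZero in
/-- `ord_O (∑ c_j e_j) = -k` forces `c il ≠ 0` (`e il` is the only basis element of pole order
`k`). -/
theorem S17DT_conv_il {ι : Type} [Fintype ι] (hk : 1 ≤ k) (e : ι → F) (il : ι)
    (helow : ∀ j, j ≠ il → O.adicValuation (e j) ≤ exp ((k : ℤ) - 1))
    (c : ι → K) (hφ : (∑ j, c j • e j) ≠ 0) (hO : O.ord (∑ j, c j • e j) = -(k : ℤ)) :
    c il ≠ 0 := by
  classical
  intro hc
  have h1 : O.adicValuation (∑ j, c j • e j) ≤ exp ((k : ℤ) - 1) := by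
    refine Valuation.map_sum_le _ fun j _ => ?_
    by_cases hj : j = il
    · rw [hj, hc, zero_smul, map_zero]
      exact zero_le
    · rw [Algebra.smul_def, map_mul]
      calc O.adicValuation (algebraMap K F (c j)) * O.adicValuation (e j)
          ≤ 1 * exp ((k : ℤ) - 1) :=
            mul_le_mul' (O.adicValuation_algebraMap_le_one _) (helow j hj)
        _ = exp ((k : ℤ) - 1) := one_mul _
  rw [O.adicValuation_eq_exp_neg_ord hφ, hO, neg_neg, exp_le_exp] at h1
  omega

/-- **DICT-CONV, main form** (input of TAN): `S17H_Fact chow c (ev ∘ Q)` with all `Q i ≠ O` and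
`Q` injective ⇒ `c il ≠ 0`, the zeros of `φ_c` are exactly the `Q i`, and they are simple. -/
theorem S17DT_conv_main [Infinite K] {ι : Type} [Fintype ι] (hk : 1 ≤ k) (e : ι → F) (il : ι)
    (helow : ∀ j, j ≠ il → O.adicValuation (e j) ≤ WithZero.exp ((k : ℤ) - 1))
    (ev : Place K F → ι → K)
    (hinj : ∀ P P', P ≠ P' → S17H_wedge (ev P) (ev P') ≠ 0) (hne : ∀ P, ev P ≠ 0)
    (chow : MvPolynomial (ι ⊕ ι) K) (c : ι → K) (hφ : (∑ j, c j • e j) ≠ 0)
    (hz : ∃ v : Fin k → Place K F, S17H_Fact chow c (fun i => ev (v i)) ∧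
      ∀ P, ((S17H_cyc v P : ℕ) : ℤ) =
        P.ord (∑ j, c j • e j) + (k • Finsupp.single O (1 : ℤ)) P)
    (Q : Fin k → Place K F) (hF : S17H_Fact chow c (fun i => ev (Q i)))
    (hQO : ∀ i, Q i ≠ O) :
    c il ≠ 0 ∧ O.ord (∑ j, c j • e j) = -(k : ℤ) ∧
      (∀ P, P ≠ O → (0 < P.ord (∑ j, c j • e j) ↔ ∃ i, P = Q i)) ∧
      (Function.Injective Q → ∀ i, (Q i).ord (∑ j, c j • e j) = 1) := by
  have hQ := S17DT_conv O k ev hinj hne chow c hz Q hF
  have hO := S17DT_conv_ord_O O k Q hQ hQO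
  exact ⟨S17DT_conv_il O k hk e il helow c hφ hO, hO,
    fun P hP => S17DT_conv_pos_iff O k Q hQ hP,
    fun hinjQ i => S17DT_conv_ord_one O k Q hQ hinjQ i (hQO i)⟩

end curve

end Fermat.Agent.S17
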