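import Fermat.Agent.S17.HtDefs
import Fermat.Agent.S17.Disc

/-!
# TRACK 8 (S17), heights pillar: (DISC) in vector form (helper12), prefix `S17DV_`

`S17DV_main` : for an abstract curve datum `X : S17H_Curve Ω ι k` (`k ≥ 1`),

  (A) + (DEC′) + (TAN) + `TanOK`  ⇒  (DISC),

i.e. `(k + g − 1)·h(c) ≤ Σ_{i<j} λ(v i, v j) + C` for every reduced zero cycle `v` of `c` all of
whose points carry a `TanC`-tangent vector.  Proof: sum (DEC′) over the points `i₀` of the zero
cycle, insert (TAN) and the lower half of (A) (`S17DI_disc`, helper5).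

Auxiliary: `S17DV_c_ne_zero` (a zero cycle with nonzero points exists only for `c ≠ 0`).
-/

set_option autoImplicit false
set_option linter.unusedSectionVars false

open MvPolynomial Finset

namespace Fermat.Agent.S17

section aux

variable {Ω : Type} [Field Ω] {ι : Type} [Fintype ι]

/-- a bihomogeneous form of positive left degree vanishes at `c = 0`. -/
theorem S17DV_eval_zero_left (f : MvPolynomial (ι ⊕ ι) Ω) {N₁ N₂ : ℕ}
    (hf : S17C_IsBihom f N₁ N₂) (hN : 1 ≤ N₁) (X : ι → Ω) :
    eval (Sum.elim (0 : ι → Ω) X) f = 0 := by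
  classical
  rw [eval_eq]
  refine Finset.sum_eq_zero fun d hd => ?_
  have hcoef : coeff d f ≠ 0 := by simpa [mem_support_iff] using hd
  obtain ⟨h1, -⟩ := hf d hcoef
  have hex : ∃ i : ι, d (Sum.inl i) ≠ 0 := by
    by_contra hcon
    push Not at hcon
    have : ∑ i, d (Sum.inl i) = 0 := Finset.sum_eq_zero fun i _ => hcon i
    omega
  obtain ⟨i, hi⟩ := hex
  have hmem : Sum.inl i ∈ d.support := Finsupp.mem_support_iff.2 hi
  have hz : ∏ s ∈ d.support, (Sum.elim (0 : ι → Ω) X s) ^ d s = 0 := by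
    refine Finset.prod_eq_zero hmem ?_
    simp [hi]
  rw [hz, mul_zero]

/-- finitely many nonzero vectors are simultaneously non-orthogonal to some vector
(infinite field). -/
theorem S17DV_exists_dot_ne_zero [Infinite Ω] {k : ℕ} (v : Fin k → ι → Ω)
    (hv : ∀ i, v i ≠ 0) : ∃ X : ι → Ω, ∀ i, S17H_dot X (v i) ≠ 0 := by
  classical
  let P : MvPolynomial ι Ω := ∏ i : Fin k, ∑ j : ι, C (v i j) * MvPolynomial.X j
  have hlin : ∀ i : Fin k, (∑ j : ι, C (v i j) * MvPolynomial.X j : MvPolynomial ι Ω) ≠ 0 := by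
    intro i h0
    apply hv i
    funext j
    have hj := congrArg (coeff (Finsupp.single j 1)) h0
    rw [coeff_sum, coeff_zero] at hj
    rw [Finset.sum_eq_single j] at hj
    · simpa [coeff_C_mul, coeff_X] using hj
    · intro b _ hb
      rw [coeff_C_mul, coeff_X]
      have : Finsupp.single b 1 ≠ Finsupp.single j 1 := by
        intro h
        apply hb
        exact (Finsupp.single_left_injective (by norm_num : (1 : ℕ) ≠ 0)) h
      rw [if_neg this, mul_zero]
    · intro h
      exact absurd (Finset.mem_univ j) h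
  have hP : P ≠ 0 := Finset.prod_ne_zero_iff.2 fun i _ => hlin i
  by_contra hcon
  push Not at hcon
  apply hP
  apply MvPolynomial.funext
  intro X
  obtain ⟨i, hi⟩ := hcon X
  rw [map_zero]
  show eval X (∏ i : Fin k, ∑ j : ι, C (v i j) * MvPolynomial.X j) = 0
  rw [map_prod]
  refine Finset.prod_eq_zero (Finset.mem_univ i) ?_
  rw [map_sum]
  simp only [map_mul, eval_C, eval_X]
  rw [← hi]
  unfold S17H_dot
  exact Finset.sum_congr rfl fun j _ => mul_comm _ _

/-- a zero cycle with nonzero points exists only for `c ≠ 0`. -/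
theorem S17DV_c_ne_zero [Infinite Ω] {k : ℕ} (X : S17H_Curve Ω ι k) (hk : 1 ≤ k)
    {c : ι → Ω} {v : Fin k → ι → Ω} (hF : S17H_Fact X.chow c v) (hv : ∀ i, v i ≠ 0) :
    c ≠ 0 := by
  rintro rfl
  obtain ⟨κ, hκ, hF⟩ := hF
  obtain ⟨Y, hY⟩ := S17DV_exists_dot_ne_zero v hv
  have h0 := hF Y
  rw [S17DV_eval_zero_left X.chow X.chow_bihom hk Y] at h0
  have : κ * ∏ i, S17H_dot Y (v i) ≠ 0 :=
    mul_ne_zero hκ (Finset.prod_ne_zero_iff.2 fun i _ => hY i)
  exact this h0.symm

/-- the sum over ordered pairs is twice the sum over `i < j` (symmetric summand). -/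
theorem S17DV_Lam2_univ {k : ℕ} (L : Fin k → Fin k → ℝ) (hs : ∀ i j, L i j = L j i) :
    S17DI_Lam2 L Finset.univ = 2 * ∑ i, ∑ j, (if i < j then L i j else 0) := by
  classical
  unfold S17DI_Lam2
  have h1 : ∀ i : Fin k, ∑ j ∈ Finset.univ.erase i, L i j =
      ∑ j, (if i < j then L i j else 0) + ∑ j, (if j < i then L i j else 0) := by
    intro i
    rw [← Finset.sum_add_distrib, ← Finset.filter_ne' Finset.univ i, Finset.sum_filter]
    refine Finset.sum_congr rfl fun j _ => ?_
    rcases lt_trichotomy i j with h | h | h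
    · rw [if_pos (ne_of_gt h), if_pos h, if_neg (not_lt.2 h.le), add_zero]
    · subst h
      simp
    · rw [if_pos (ne_of_lt h), if_neg (not_lt.2 h.le), if_pos h, zero_add]
  rw [Finset.sum_congr rfl fun i _ => h1 i, Finset.sum_add_distrib]
  have h2 : ∑ i : Fin k, ∑ j, (if j < i then L i j else 0) =
      ∑ i : Fin k, ∑ j, (if i < j then L i j else 0) := by
    rw [Finset.sum_comm]
    refine Finset.sum_congr rfl fun j _ => Finset.sum_congr rfl fun i _ => ?_
    by_cases h : j < i
    · rw [if_pos h, if_pos h, hs]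
    · rw [if_neg h, if_neg h]
  rw [h2]
  ring

end aux

section main

variable {Ω : Type} [Field Ω] [CharZero Ω] [Algebra.IsAlgebraic ℚ Ω] {ι : Type} [Fintype ι]
  {k : ℕ}

/-- **(DISC), vector form**: (A) + (DEC′) + (TAN) ⇒ (DISC). -/
theorem S17DV_main (X : S17H_Curve Ω ι k) (g : ℕ) (TanC : (ι → Ω) → (ι → Ω) → Prop)
    (hk : 1 ≤ k) (hOK : S17H_TanOK X TanC) (hA : S17H_StmtA X) (hD : S17H_StmtDEC' X)
    (hT : S17H_StmtTAN X g TanC) : S17H_StmtDISC X g TanC := by
  classical
  obtain ⟨CA, hA⟩ := hA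
  obtain ⟨CD, hD⟩ := hD
  obtain ⟨CT, hT⟩ := hT
  refine ⟨(((k : ℝ) - 1) * CA + CT + k * CD) / 2, ?_⟩
  intro c v v' hF htan hred
  -- the points of the zero cycle are nonzero, hence `c ≠ 0`
  have hv : ∀ i, v i ≠ 0 := by
    intro i h0
    apply (hOK _ _ (htan i)).2
    rw [h0]
    funext p
    simp [S17H_wedge]
  have hc : c ≠ 0 := S17DV_c_ne_zero X hk hF hv
  -- the three inputs of `S17DI_disc`
  have hdec : ∀ i ∈ (Finset.univ : Finset (Fin k)),
      ∑ j ∈ (Finset.univ : Finset (Fin k)).erase i, S17H_w (v i) (v j) ≤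
        ((k : ℝ) - 1) * (S17AH_h c + S17AH_h (v i)) - S17H_w (v i) (v' i) + CD := by
    intro i _
    have h := hD c v i (v' i) hF (hOK _ _ (htan i)).1 (hOK _ _ (htan i)).2
      (fun j hj => hred i j (Ne.symm hj))
    linarith
  have htan' : (2 * (k : ℝ) + 2 * g - 2) * S17AH_h c - CT ≤
      ∑ i ∈ (Finset.univ : Finset (Fin k)), S17H_w (v i) (v' i) := by
    have h := hT c v v' hF htan hred
    linarith
  have hA' : (k : ℝ) * S17AH_h c - CA ≤
      S17DI_H (fun i : Fin k => S17AH_h (v i)) Finset.univ := by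
    have h := hA c v hc hv hF
    rw [abs_le] at h
    unfold S17DI_H
    linarith [h.1]
  have hcard : (Finset.univ : Finset (Fin k)).card = k := by
    rw [Finset.card_univ, Fintype.card_fin]
  have hmain := S17DI_disc (fun i : Fin k => S17AH_h (v i)) (fun i => S17H_w (v i) (v' i))
    (fun i j => S17H_w (v i) (v j)) (fun i j => S17H_lam (v i) (v j))
    (fun i j => rfl) Finset.univ k hcard hk g (S17AH_h c) CD CT CA hdec htan' hA'
  rw [S17DV_Lam2_univ _ (fun i j => S17H_lam_comm (v i) (v j))] at hmain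
  linarith

end main

end Fermat.Agent.S17
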