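import Fermat.Agent.Lib.Hurwitz
import Fermat.Agent.S24.GlobalA

/-!
# TRACK 8 (S17), heights pillar, TAN-curve, piece T5 DEG (helper12), prefix `S17TD_`

Setting (that of `S17/NormFibO.lean`): `K` algebraically closed of characteristic `0`, `F / K` a
function field with `h : RR_Hyp K F`, `t : F` transcendental with `F / K(t)` finite, `O` the only
pole of `t`, of order `k`.  `dt := D K F t` (Kähler differential), `g := RR_genus K F`,
`δ_v := v.ordDifferential (D K F t)`.

* `S17TD_W`        : the divisor `W` of `dt`: `deg W = 2g − 2`, `W O = −(k+1)`, `W v ≥ 0` (`v ≠ O`);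
* `S17TD_W_sum`    : `Σ_{v ≠ O} δ_v = 2g − 2 + (k + 1)`;
* `S17TD_local`    : `f` regular at `v ≠ O`, `df = q • dt` ⇒ `ord_v q ≥ −δ_v`;
* `S17TD_local_eq` : `f − c` a uniformiser at `v`, `df = q • dt` ⇒ `ord_v q = −δ_v`;
* `S17TD_pole`     : `ord_O f = −n ≠ 0`, `df = q • dt` ⇒ `ord_O q = k − n`;
* `S17TD_E2_exists`, `S17TD_E2_deg` : for `w₂ ≠ 0` with `ord_v w₂ ≥ δ_v` (`v ≠ O`) the effective
  divisor `E₂ = Σ_{v ≠ O} (ord_v w₂ − δ_v)·v` has degree `n₂ − (2g − 2 + k + 1)`, `n₂ := −ord_O w₂`;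
* `S17TD_main`     : for `s ≠ 0` with `ord_v s ≥ E₂ v` (`v ≠ O`) and `ord_O s ≥ −(n₂ + k − 1)` the
  effective divisor `Z' = Σ_{v ≠ O} (ord_v s − E₂ v)·v + (n₂ + k − 1 + ord_O s)·O` has degree
  `2k + 2g − 2` (always).
-/

set_option autoImplicit false
set_option linter.unusedSectionVars false
set_option linter.style.haveILetI false

open AlgebraicCurve KaehlerDifferential IntermediateField
open scoped IntermediateField.algebraAdjoinAdjoin

universe u v

namespace Fermat.Agent.S17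

open Fermat.Agent.S24 Fermat.Agent.Lib

section divisors

variable {K : Type u} {F : Type v} [Field K] [Field F] [Algebra K F]

/-- a nonnegative divisor as an `ℕ`-valued finitely supported function. -/
theorem S17TD_toNat (hdeg : ∀ v : Place K F, v.deg = 1) (D : Divisor K F) (hD : ∀ v, 0 ≤ D v) :
    ∃ E : Place K F →₀ ℕ, (∀ v, (E v : ℤ) = D v) ∧
      (((E.sum fun _ n => n) : ℕ) : ℤ) = D.degree := by
  classical
  refine ⟨D.mapRange Int.toNat (by simp), fun v => ?_, ?_⟩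
  · rw [Finsupp.mapRange_apply]
    exact Int.toNat_of_nonneg (hD v)
  · rw [RR_degree_eq_sum hdeg, Finsupp.sum, Nat.cast_sum]
    have hsupp : (D.mapRange Int.toNat (by simp)).support = D.support := by
      ext v
      simp only [Finsupp.mem_support_iff, Finsupp.mapRange_apply, ne_eq]
      have := hD v
      omega
    rw [hsupp]
    refine Finset.sum_congr rfl fun v _ => ?_
    rw [Finsupp.mapRange_apply]
    exact Int.toNat_of_nonneg (hD v)

/-- the sum of an `ℕ`-valued finitely supported function is the degree of any divisor with the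
same values. -/
theorem S17TD_sum_eq (hdeg : ∀ v : Place K F, v.deg = 1) (E : Place K F →₀ ℕ) (D : Divisor K F)
    (h : ∀ v, (E v : ℤ) = D v) : (((E.sum fun _ n => n) : ℕ) : ℤ) = D.degree := by
  classical
  rw [RR_degree_eq_sum hdeg, Finsupp.sum, Nat.cast_sum]
  have hsupp : E.support = D.support := by
    ext v
    simp only [Finsupp.mem_support_iff, ne_eq]
    have := h v
    omega
  rw [hsupp]
  exact Finset.sum_congr rfl fun v _ => h v

end divisors

variable {K : Type u} {F : Type v} [Field K] [Field F] [Algebra K F] [IsAlgClosed K] [CharZero K]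
  {t : F} (ht : Transcendental K t) [FiniteDimensional K⟮t⟯ F]

omit [IsAlgClosed K] in
/-- in characteristic `0` every `t` with `F / K(t)` finite is separating. -/
theorem S17TD_sep (t : F) [FiniteDimensional K⟮t⟯ F] : Algebra.IsSeparable K⟮t⟯ F := by
  haveI : CharZero K⟮t⟯ := charZero_of_injective_algebraMap (algebraMap K K⟮t⟯).injective
  exact Algebra.IsSeparable.of_integral _ _

variable (h : RR_Hyp K F) (O : Place K F) (hO : ∀ P : Place K F, P.ord t < 0 ↔ P = O)
  (k : ℕ) (hk : O.ord t = -(k : ℤ))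

include ht in
omit [IsAlgClosed K] [CharZero K] [FiniteDimensional K⟮t⟯ F] in
theorem S17TD_t_ne_zero : t ≠ 0 := fun h0 => ht (h0 ▸ isAlgebraic_zero)

include hO in
omit [IsAlgClosed K] [CharZero K] [FiniteDimensional K⟮t⟯ F] in
theorem S17TD_ord_t_nonneg {v : Place K F} (hv : v ≠ O) : 0 ≤ v.ord t := by
  by_contra hn
  exact hv ((hO v).1 (not_le.1 hn))

include ht h hO in
/-- `δ_v ≥ 0` off `O`. -/
theorem S17TD_del_nonneg {v : Place K F} (hv : v ≠ O) :
    0 ≤ v.ordDifferential (D K F t) := by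
  haveI := S17TD_sep (K := K) t
  exact FD_ordDifferential_D_nonneg t v (h.deg_one v)
    ((BG_mem_iff_ord_nonneg v (S17TD_t_ne_zero ht)).2 (S17TD_ord_t_nonneg O hO hv))

include h hO hk in
/-- `δ_O = −(k+1)`. -/
theorem S17TD_del_O : O.ordDifferential (D K F t) = -((k : ℤ) + 1) := by
  haveI := S17TD_sep (K := K) t
  have hlt : O.ord t < 0 := (hO O).2 rfl
  have hne : ((O.ord t : ℤ) : K) ≠ 0 := Int.cast_ne_zero.2 hlt.ne
  rw [FD_ordDifferential_D t O (h.deg_one O) hne, hk]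
  ring

include ht h hO hk in
/-- **(a)** the divisor of `dt`. -/
theorem S17TD_W :
    ∃ W : Divisor K F, (∀ v : Place K F, W v = v.ordDifferential (D K F t)) ∧
      W.degree = 2 * (RR_genus K F : ℤ) - 2 ∧ W O = -((k : ℤ) + 1) ∧
      ∀ v : Place K F, v ≠ O → 0 ≤ W v := by
  haveI := S17TD_sep (K := K) t
  obtain ⟨W, hW, hdeg⟩ := HW_hurwitz h t ht
  refine ⟨W, hW, hdeg, ?_, fun v hv => ?_⟩
  · rw [hW, S17TD_del_O h O hO k hk]
  · rw [hW]
    exact S17TD_del_nonneg ht h O hO hv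

include ht h hO hk in
/-- **(a′)** `Σ_{v ≠ O} δ_v = 2g − 2 + (k + 1)`. -/
theorem S17TD_W_sum (W : Divisor K F)
    (hW : ∀ v : Place K F, W v = v.ordDifferential (D K F t)) :
    letI := Classical.decEq (Place K F)
    ∑ v ∈ W.support.erase O, W v = 2 * (RR_genus K F : ℤ) - 2 + ((k : ℤ) + 1) := by
  classical
  haveI := S17TD_sep (K := K) t
  have hdeg := HW_hurwitz_degree ht h W hW
  rw [RR_degree_eq_sum h.deg_one] at hdeg
  have hOW : W O = -((k : ℤ) + 1) := by rw [hW, S17TD_del_O h O hO k hk]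
  have hmem : O ∈ W.support := by
    rw [Finsupp.mem_support_iff, hOW]
    omega
  rw [← Finset.add_sum_erase _ _ hmem, hOW] at hdeg
  linarith

include h in
/-- the coefficient of `dt` at any place is nonzero. -/
theorem S17TD_coeff_ne_zero (v : Place K F) : v.differentialCoeff (D K F t) ≠ 0 := by
  haveI := S17TD_sep (K := K) t
  exact HW_differentialCoeff_ne_zero (x := t) v (h.deg_one v)

include h in
/-- `ord_v(q • dt) = ord_v q + δ_v` for `q ≠ 0`. -/
theorem S17TD_ord_smul (v : Place K F) {q : F} (hq : q ≠ 0) :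
    v.ordDifferential (q • D K F t) = v.ord q + v.ordDifferential (D K F t) := by
  haveI := S17TD_sep (K := K) t
  have hdeg := h.deg_one v
  haveI := FD_dCoordGenerates t v hdeg
  haveI := FD_nontrivial_kaehler v hdeg
  exact v.ordDifferential_smul hq (S17TD_coeff_ne_zero h v)

include ht h hO in
/-- **(b)** `f` regular at `v ≠ O` and `df = q • dt` ⇒ `ord_v q ≥ −δ_v`. -/
theorem S17TD_local {v : Place K F} (hv : v ≠ O) {f q : F} (hf : 0 ≤ v.ord f)
    (hq : D K F f = q • D K F t) : -v.ordDifferential (D K F t) ≤ v.ord q := by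
  haveI := S17TD_sep (K := K) t
  have hdeg := h.deg_one v
  have hδ := S17TD_del_nonneg ht h O hO hv
  rcases eq_or_ne q 0 with rfl | hq0
  · rw [Place.ord_zero]
    omega
  have hfO : f ∈ v.toValuationSubring := by
    rcases eq_or_ne f 0 with rfl | hf0
    · exact zero_mem _
    · exact (BG_mem_iff_ord_nonneg v hf0).2 hf
  have h1 := FD_ordDifferential_D_nonneg t v hdeg hfO
  rw [hq, S17TD_ord_smul h v hq0] at h1
  omega

include h in
/-- in characteristic `0`, `df ≠ 0` as soon as `f` has a zero or a pole somewhere. -/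
theorem S17TD_D_ne_zero (t : F) [FiniteDimensional K⟮t⟯ F] (v : Place K F) {f : F}
    (hf : v.ord f ≠ 0) : D K F f ≠ 0 := by
  haveI := S17TD_sep (K := K) t
  have hdeg := h.deg_one v
  haveI := FD_dCoordGenerates t v hdeg
  haveI := FD_nontrivial_kaehler v hdeg
  intro h0
  by_cases h1 : v.ord f = 1
  · obtain ⟨u, hu0, -, hu⟩ := FD_D_unif t v hdeg h1
    rw [h0] at hu
    rcases smul_eq_zero.1 hu.symm with h5 | h5
    · exact hu0 h5
    · exact v.dCoord_ne_zero h5
  · have h2 := FD_ordDifferential_D t v hdeg (y := f) (Int.cast_ne_zero.2 hf)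
    rw [h0, Place.ordDifferential, v.differentialCoeff_zero, Place.ord_zero] at h2
    omega

include h in
/-- **(b″)** at a pole or zero: `ord_v f ≠ 0`, `df = q • dt` ⇒ `ord_v q = ord_v f − 1 − δ_v`. -/
theorem S17TD_local_ord (v : Place K F) {f q : F} (hf : v.ord f ≠ 0)
    (hq : D K F f = q • D K F t) :
    v.ord q = v.ord f - 1 - v.ordDifferential (D K F t) := by
  haveI := S17TD_sep (K := K) t
  have hdeg := h.deg_one v
  have h1 := FD_ordDifferential_D t v hdeg (y := f) (Int.cast_ne_zero.2 hf)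
  have hq0 : q ≠ 0 := by
    rintro rfl
    rw [zero_smul] at hq
    exact S17TD_D_ne_zero h t v hf hq
  rw [hq, S17TD_ord_smul h v hq0] at h1
  omega

include h in
/-- **(b′)** `f − c` a uniformiser at `v` and `df = q • dt` ⇒ `ord_v q = −δ_v`. -/
theorem S17TD_local_eq (v : Place K F) {f q : F} {c : K}
    (hf : v.ord (f - algebraMap K F c) = 1) (hq : D K F f = q • D K F t) :
    v.ord q = -v.ordDifferential (D K F t) := by
  have h1 := S17TD_local_ord (t := t) h v (f := f - algebraMap K F c) (q := q)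
    (by rw [hf]; exact one_ne_zero)
    (by rw [map_sub, Derivation.map_algebraMap, sub_zero, hq])
  rw [h1, hf]
  ring

include h hO hk in
/-- **(b‴)** at `O`: `ord_O f = −n ≠ 0`, `df = q • dt` ⇒ `ord_O q = k − n`. -/
theorem S17TD_pole {f q : F} (hf : O.ord f ≠ 0) (hq : D K F f = q • D K F t) :
    O.ord q = O.ord f + (k : ℤ) := by
  rw [S17TD_local_ord h O hf hq, S17TD_del_O h O hO k hk]
  ring

include ht h hO hk in
/-- **(c)** the effective divisor `E₂ = Σ_{v ≠ O} (ord_v w₂ − δ_v)·v`. -/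
theorem S17TD_E2_exists {w₂ : F}
    (hreg : ∀ v : Place K F, v ≠ O → v.ordDifferential (D K F t) ≤ v.ord w₂) :
    ∃ E₂ : Place K F →₀ ℕ, E₂ O = 0 ∧
      (∀ v : Place K F, v ≠ O → (E₂ v : ℤ) = v.ord w₂ - v.ordDifferential (D K F t)) ∧
      (((E₂.sum fun _ n => n) : ℕ) : ℤ) =
        -O.ord w₂ - (2 * (RR_genus K F : ℤ) - 2 + ((k : ℤ) + 1)) := by
  classical
  obtain ⟨W, hW, hWdeg, hWO, -⟩ := S17TD_W ht h O hO k hk
  set D₂ : Divisor K F := RR_div h.principal w₂ - W - Finsupp.single O (O.ord w₂ - W O) with hD₂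
  have hvalO : D₂ O = 0 := by
    rw [hD₂, Finsupp.sub_apply, Finsupp.sub_apply, RR_div_apply, Finsupp.single_eq_same]
    ring
  have hval : ∀ v : Place K F, v ≠ O → D₂ v = v.ord w₂ - v.ordDifferential (D K F t) := by
    intro v hv
    rw [hD₂, Finsupp.sub_apply, Finsupp.sub_apply, RR_div_apply,
      Finsupp.single_apply, if_neg (Ne.symm hv), hW]
    ring
  have hnn : ∀ v, 0 ≤ D₂ v := by
    intro v
    by_cases hv : v = O
    · rw [hv, hvalO]
    · rw [hval v hv]
      have := hreg v hv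
      omega
  have hdegD : D₂.degree = -O.ord w₂ - (2 * (RR_genus K F : ℤ) - 2 + ((k : ℤ) + 1)) := by
    rw [hD₂, map_sub, map_sub, RR_div_degree, hWdeg, Divisor.degree_single, h.deg_one O, hWO]
    push_cast
    ring
  obtain ⟨E, hE, hEsum⟩ := S17TD_toNat h.deg_one D₂ hnn
  refine ⟨E, ?_, fun v hv => ?_, ?_⟩
  · have := hE O
    rw [hvalO] at this
    exact_mod_cast this
  · rw [hE v, hval v hv]
  · rw [hEsum, hdegD]

include ht h hO hk in
/-- **(c′)** the degree of `E₂` (any `E₂` with the right values). -/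
theorem S17TD_E2_deg {w₂ : F} (E₂ : Place K F →₀ ℕ) (hE₂O : E₂ O = 0)
    (hE₂ : ∀ v : Place K F, v ≠ O →
      (E₂ v : ℤ) = v.ord w₂ - v.ordDifferential (D K F t)) :
    (((E₂.sum fun _ n => n) : ℕ) : ℤ) =
      -O.ord w₂ - (2 * (RR_genus K F : ℤ) - 2 + ((k : ℤ) + 1)) := by
  classical
  have hreg : ∀ v : Place K F, v ≠ O → v.ordDifferential (D K F t) ≤ v.ord w₂ := by
    intro v hv
    have := hE₂ v hv
    omega
  obtain ⟨E, hEO, hE, hEsum⟩ := S17TD_E2_exists ht h O hO k hk hreg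
  have : E₂ = E := by
    ext v
    by_cases hv : v = O
    · rw [hv, hE₂O, hEO]
    · have h1 := hE₂ v hv
      have h2 := hE v hv
      omega
  rw [this, hEsum]

include ht h hO hk in
/-- **(d)** the residual divisor `Z' = div₀(s) − E₂ + (n₂ + k − 1 + ord_O s)·O` is effective of
degree `2k + 2g − 2`, for every `s ≠ 0` with `ord_v s ≥ E₂ v` off `O` and pole order
`≤ n₂ + k − 1` at `O`  (`n₂ = −ord_O w₂`). -/
theorem S17TD_main {w₂ s : F} (E₂ : Place K F →₀ ℕ) (hE₂O : E₂ O = 0)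
    (hE₂ : ∀ v : Place K F, v ≠ O →
      (E₂ v : ℤ) = v.ord w₂ - v.ordDifferential (D K F t))
    (hs : ∀ v : Place K F, v ≠ O → (E₂ v : ℤ) ≤ v.ord s)
    (hsO : -(-O.ord w₂ + ((k : ℤ) - 1)) ≤ O.ord s) :
    ∃ Z' : Place K F →₀ ℕ,
      (∀ v : Place K F, v ≠ O → (Z' v : ℤ) = v.ord s - E₂ v) ∧
      (Z' O : ℤ) = -O.ord w₂ + ((k : ℤ) - 1) + O.ord s ∧
      (((Z'.sum fun _ n => n) : ℕ) : ℤ) = 2 * (k : ℤ) + 2 * (RR_genus K F : ℤ) - 2 := by
  classical
  have hE₂deg := S17TD_E2_deg ht h O hO k hk E₂ hE₂O hE₂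
  set DE : Divisor K F := E₂.mapRange (fun n : ℕ => (n : ℤ)) (by simp) with hDE
  have hDEv : ∀ v, DE v = (E₂ v : ℤ) := fun v => by rw [hDE, Finsupp.mapRange_apply]
  have hDEdeg : DE.degree = -O.ord w₂ - (2 * (RR_genus K F : ℤ) - 2 + ((k : ℤ) + 1)) := by
    rw [← S17TD_sum_eq h.deg_one E₂ DE (fun v => (hDEv v).symm), hE₂deg]
  set DZ : Divisor K F :=
    RR_div h.principal s - DE + Finsupp.single O (-O.ord w₂ + ((k : ℤ) - 1)) with hDZ
  have hvalO : DZ O = -O.ord w₂ + ((k : ℤ) - 1) + O.ord s := by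
    rw [hDZ, Finsupp.add_apply, Finsupp.sub_apply, RR_div_apply, Finsupp.single_eq_same, hDEv,
      hE₂O]
    push_cast
    ring
  have hval : ∀ v : Place K F, v ≠ O → DZ v = v.ord s - E₂ v := by
    intro v hv
    rw [hDZ, Finsupp.add_apply, Finsupp.sub_apply, RR_div_apply,
      Finsupp.single_apply, if_neg (Ne.symm hv), hDEv]
    ring
  have hnn : ∀ v, 0 ≤ DZ v := by
    intro v
    by_cases hv : v = O
    · rw [hv, hvalO]
      omega
    · rw [hval v hv]
      have := hs v hv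
      omega
  have hdegD : DZ.degree = 2 * (k : ℤ) + 2 * (RR_genus K F : ℤ) - 2 := by
    rw [hDZ, map_add, map_sub, RR_div_degree, hDEdeg, Divisor.degree_single, h.deg_one O]
    push_cast
    ring
  obtain ⟨Z, hZ, hZsum⟩ := S17TD_toNat h.deg_one DZ hnn
  refine ⟨Z, fun v hv => ?_, ?_, ?_⟩
  · rw [hZ v, hval v hv]
  · rw [hZ O, hvalO]
  · rw [hZsum, hdegD]

include hO hk in
omit [IsAlgClosed K] [CharZero K] [FiniteDimensional K⟮t⟯ F] in
/-- `k ≥ 1`. -/
theorem S17TD_one_le_k : 1 ≤ k := by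
  have hlt : O.ord t < 0 := (hO O).2 rfl
  omega

include ht h hO hk in
/-- **(d), `ℕ`-form**: `Σ_v Z' v = 2k + 2g − 2` in `ℕ`. -/
theorem S17TD_main_nat {w₂ s : F} (E₂ : Place K F →₀ ℕ) (hE₂O : E₂ O = 0)
    (hE₂ : ∀ v : Place K F, v ≠ O →
      (E₂ v : ℤ) = v.ord w₂ - v.ordDifferential (D K F t))
    (hs : ∀ v : Place K F, v ≠ O → (E₂ v : ℤ) ≤ v.ord s)
    (hsO : -(-O.ord w₂ + ((k : ℤ) - 1)) ≤ O.ord s) :
    ∃ Z' : Place K F →₀ ℕ,
      (∀ v : Place K F, v ≠ O → (Z' v : ℤ) = v.ord s - E₂ v) ∧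
      (Z' O : ℤ) = -O.ord w₂ + ((k : ℤ) - 1) + O.ord s ∧
      (Z'.sum fun _ n => n) = 2 * k + 2 * RR_genus K F - 2 := by
  obtain ⟨Z', h1, h2, h3⟩ := S17TD_main ht h O hO k hk E₂ hE₂O hE₂ hs hsO
  refine ⟨Z', h1, h2, ?_⟩
  have hk1 := S17TD_one_le_k O hO k hk
  omega

end Fermat.Agent.S17
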