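import Fermat.Agent.S17.TanG
import Fermat.Agent.S17.NGLast

/-!
# TRACK 8 (S17), heights pillar, TAN-curve, piece T6-ncz (helper21), prefix `S17NZ_`

* `S17NZ_zero_count` : a function `f ≠ 0`, regular off `O`, of pole order `≤ k` at `O`, has at most
  `k` zeros (degree of a principal divisor is `0`).
* `S17NZ_c0_sum`     : the value of `∑ c_j e_j` at `P ≠ O` is `∑ c_j · e_j(P)`.
* `S17NZ_main`       : **no common zero** of the forms `G_a = κ_a ∏_{R ∈ Z_a} ⟨X, ev R⟩^{Z_a R}`
  (`a : Fin (k+1)`) of (TAN): pigeonhole — a common zero `c ≠ 0` gives `k + 1` distinct zeros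
  `R_a ≠ O` of `t_c = ∑ c_j e_j ∈ L(kO) ∖ 0`.
-/

set_option autoImplicit false
set_option linter.unusedSectionVars false

open AlgebraicCurve MvPolynomial WithZero

namespace Fermat.Agent.S17

open Fermat.Agent.Lib

variable {K : Type} {F : Type*} [Field K] [Field F] [Algebra K F] {ι : Type}

/-- a nonzero function, regular off `O`, with pole order at most `k` at `O`, has at most `k`
zeros. -/
theorem S17NZ_zero_count (h : RR_Hyp K F) (O : Place K F) (k : ℕ) {f : F} (hf0 : f ≠ 0)
    (hreg : ∀ P : Place K F, P ≠ O → 0 ≤ P.ord f) (hO : -(k : ℤ) ≤ O.ord f)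
    (S : Finset (Place K F)) (hS : ∀ R ∈ S, R ≠ O ∧ 0 < R.ord f) : S.card ≤ k := by
  classical
  obtain ⟨D, hD, hD0⟩ := h.principal.exists_divisor f hf0
  have hsub : D.support ⊆ insert O (S ∪ D.support.erase O) := by
    intro P hP
    by_cases hPO : P = O
    · rw [hPO]; exact Finset.mem_insert_self _ _
    · exact Finset.mem_insert_of_mem
        (Finset.mem_union_right _ (Finset.mem_erase.mpr ⟨hPO, hP⟩))
  have hO_notin : O ∉ S ∪ D.support.erase O := by
    intro hmem
    rcases Finset.mem_union.1 hmem with h1 | h1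
    · exact (hS O h1).1 rfl
    · exact Finset.notMem_erase O _ h1
  have h1 := RR_degree_eq_sum_of_subset h.deg_one D hsub
  rw [hD0, Finset.sum_insert hO_notin] at h1
  have h2 : ∑ P ∈ S, (1 : ℤ) ≤ ∑ P ∈ S ∪ D.support.erase O, D P := by
    calc ∑ P ∈ S, (1 : ℤ) ≤ ∑ P ∈ S, D P := by
          refine Finset.sum_le_sum fun P hP => ?_
          rw [hD]
          have := (hS P hP).2
          omega
      _ ≤ ∑ P ∈ S ∪ D.support.erase O, D P := by
          refine Finset.sum_le_sum_of_subset_of_nonneg Finset.subset_union_left ?_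
          intro P hP _
          rw [hD]
          refine hreg P ?_
          rintro rfl
          exact hO_notin hP
  rw [Finset.sum_const, nsmul_eq_mul, mul_one] at h2
  rw [hD] at h1
  have : (S.card : ℤ) ≤ k := by omega
  exact_mod_cast this

/-- linear combinations of functions regular at `P` are regular at `P`, and evaluation is
linear. -/
theorem S17NZ_c0_sum [Fintype ι] (h : RR_Hyp K F) (e : ι → F) (P : Place K F)
    (he : ∀ j, P.adicValuation (e j) ≤ 1) (c : ι → K) :
    P.adicValuation (∑ j, c j • e j) ≤ 1 ∧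
      FD_c0 P (∑ j, c j • e j) = ∑ j, c j * FD_c0 P (e j) := by
  classical
  have key : ∀ s : Finset ι, P.adicValuation (∑ j ∈ s, c j • e j) ≤ 1 ∧
      FD_c0 P (∑ j ∈ s, c j • e j) = ∑ j ∈ s, c j * FD_c0 P (e j) := by
    intro s
    induction s using Finset.induction_on with
    | empty =>
      refine ⟨by simp, ?_⟩
      rw [Finset.sum_empty, Finset.sum_empty]
      exact FD_c0_unique P (by simp)
    | insert a s ha ih =>
      rw [Finset.sum_insert ha, Finset.sum_insert ha]
      have h1 : P.adicValuation (c a • e a) ≤ 1 := by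
        rw [Algebra.smul_def, map_mul]
        exact mul_le_one' (P.adicValuation_algebraMap_le_one (c a)) (he a)
      refine ⟨(Valuation.map_add _ _ _).trans (max_le h1 ih.1), ?_⟩
      rw [(FD_c0_add P (h.deg_one P) h1 ih.1).1, (FD_c0_smul P (h.deg_one P) (c a) (he a)).1,
        ih.2]
  exact key Finset.univ

/-- **T6-ncz**: the forms `G_a` of (TAN) have no common zero. -/
theorem S17NZ_main [Fintype ι] (h : RR_Hyp K F) (O : Place K F) (k : ℕ) (e : ι → F) (il : ι)
    (hli : LinearIndependent K e)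
    (hereg : ∀ j, ∀ P : Place K F, P ≠ O → P.adicValuation (e j) ≤ 1)
    (hel : O.adicValuation (e il) = exp (k : ℤ))
    (helow : ∀ j, j ≠ il → O.adicValuation (e j) ≤ exp ((k : ℤ) - 1))
    (w : Fin (k + 1) → F) (E : Place K F →₀ ℕ) (Z : Fin (k + 1) → Place K F →₀ ℕ)
    (κ : Fin (k + 1) → K)
    (hκ : ∀ a, κ a ≠ 0) (hZO : ∀ a, Z a O = 0)
    (hZ : ∀ a (v : Place K F), v ≠ O → (Z a v : ℤ) = v.ord (w a) - E v)
    (hgen : ∀ a b, a ≠ b → ∀ R : Place K F, R ≠ O → R.ord (w a) = E R ∨ R.ord (w b) = E R)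
    (c : ι → K) (hc : c ≠ 0) :
    ∃ a, MvPolynomial.eval c (S17T6_G (S17NGL_ev O e il) (κ a) (Z a)) ≠ 0 := by
  classical
  by_contra hcon
  push Not at hcon
  -- the section `t_c`
  set tc : F := ∑ j, c j • e j with htc
  have htc0 : tc ≠ 0 := by
    intro h0
    apply hc
    funext j
    exact (Fintype.linearIndependent_iff.1 hli) c h0 j
  -- a zero `R_a` of `t_c` in the support of `Z a`
  have hex : ∀ a, ∃ R : Place K F, Z a R ≠ 0 ∧ R ≠ O ∧ 0 < R.ord tc := by
    intro a
    have h0 := hcon a
    rw [S17T6_G_eval] at h0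
    rcases mul_eq_zero.1 h0 with h1 | h1
    · exact absurd h1 (hκ a)
    · unfold Finsupp.prod at h1
      obtain ⟨R, hR, hR0⟩ := Finset.prod_eq_zero_iff.1 h1
      have hZR : Z a R ≠ 0 := Finsupp.mem_support_iff.1 hR
      have hRO : R ≠ O := by
        rintro rfl
        exact hZR (hZO a)
      refine ⟨R, hZR, hRO, ?_⟩
      have h2 : ∑ j, c j * S17NGL_ev O e il R j = 0 := pow_eq_zero_iff hZR |>.1 hR0
      rw [S17NGL_ev_of_ne O e il hRO] at h2
      have h3 := S17NZ_c0_sum h e R (fun j => hereg j R hRO) c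
      have h4 : FD_c0 R tc = 0 := by
        rw [htc, h3.2]
        exact h2
      have h5 := (FD_c0_eq_zero_iff R (h.deg_one R) h3.1).1 h4
      rw [R.adicValuation_eq_exp_neg_ord htc0, ← WithZero.exp_zero, WithZero.exp_lt_exp] at h5
      omega
  choose R hRZ hRO hRpos using hex
  have hinj : Function.Injective R := by
    intro a b hab
    by_contra hne
    have h1 := hZ a (R a) (hRO a)
    have h2 := hZ b (R b) (hRO b)
    have h3 : (Z a (R a) : ℤ) ≠ 0 := by exact_mod_cast hRZ a
    have h4 : (Z b (R b) : ℤ) ≠ 0 := by exact_mod_cast hRZ b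
    rcases hgen a b hne (R a) (hRO a) with h5 | h5
    · rw [h5, sub_self] at h1
      exact h3 h1
    · rw [hab] at h5
      rw [h5, sub_self] at h2
      exact h4 h2
  -- `t_c` is regular off `O` with pole order `≤ k` at `O`
  have hreg : ∀ P : Place K F, P ≠ O → 0 ≤ P.ord tc := by
    intro P hP
    have h3 := (S17NZ_c0_sum h e P (fun j => hereg j P hP) c).1
    rcases (P.adicValuation_le_one_iff).1 h3 with h4 | h4
    · exact absurd h4 htc0
    · exact h4
  have hO : -(k : ℤ) ≤ O.ord tc := by
    have h1 : O.adicValuation tc ≤ exp (k : ℤ) := by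
      rw [htc]
      refine Valuation.map_sum_le _ fun j _ => ?_
      rw [Algebra.smul_def, map_mul]
      have h2 : O.adicValuation (e j) ≤ exp (k : ℤ) := by
        by_cases hj : j = il
        · rw [hj, hel]
        · refine (helow j hj).trans ?_
          rw [WithZero.exp_le_exp]
          omega
      calc O.adicValuation (algebraMap K F (c j)) * O.adicValuation (e j)
          ≤ 1 * exp (k : ℤ) := mul_le_mul' (O.adicValuation_algebraMap_le_one (c j)) h2
        _ = exp (k : ℤ) := one_mul _
    rcases (O.adicValuation_le_exp_iff).1 h1 with h4 | h4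
    · exact absurd h4 htc0
    · exact h4
  have hcount := S17NZ_zero_count h O k htc0 hreg hO (Finset.univ.image R) (by
    intro P hP
    obtain ⟨a, -, rfl⟩ := Finset.mem_image.1 hP
    exact ⟨hRO a, hRpos a⟩)
  rw [Finset.card_image_of_injective _ hinj, Finset.card_univ, Fintype.card_fin] at hcount
  omega

end Fermat.Agent.S17
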