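import Fermat.Agent.S17.TanW2
import Fermat.Agent.S17.RRAvoid

/-!
# TRACK 8 (S17), heights pillar, TAN-curve, piece T2x "W2-exact" (helper10), prefix `S17T2X_`

Abstract, against `RR_Hyp K F` and a place `O`.

* `S17T2X_main h O W k hk` : there are `μ ≥ 1` and `w₂ ≠ 0`, regular off `O`, with
  `ord_R w₂ ≥ W R` for all `R ≠ O` and pole order EXACTLY `(μ − 1) k + 1` at `O`
  (`w₂ := w · f`, `w` from `S17T2_w2`, `f` of a suitable exact pole order from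
  `S17RS_exists_pole_order`).
-/

set_option autoImplicit false

open AlgebraicCurve Fermat.Agent.Lib

namespace Fermat.Agent.S17

variable {K F : Type*} [Field K] [Field F] [Algebra K F]

/-- **T2x**: `w₂ ≠ 0`, regular off `O`, `ord_R w₂ ≥ W R` for `R ≠ O`, and
`ord_O w₂ = −((μ − 1) k + 1)` exactly. -/
theorem S17T2X_main [Infinite K] (h : RR_Hyp K F) (O : Place K F) (W : Divisor K F) (k : ℕ)
    (hk : 1 ≤ k) :
    ∃ (μ : ℕ) (w₂ : F), 1 ≤ μ ∧ w₂ ≠ 0 ∧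
      (∀ R : Place K F, R ≠ O → W R ≤ R.ord w₂ ∧ 0 ≤ R.ord w₂) ∧
      O.ord w₂ = -((((μ - 1) * k + 1 : ℕ)) : ℤ) := by
  obtain ⟨n, w, hw0, hw, -⟩ := S17T2_w2 h O W
  obtain ⟨a, ha⟩ : ∃ a : ℤ, a = O.ord w := ⟨_, rfl⟩
  -- `ν = μ - 1`
  obtain ⟨ν, hν⟩ : ∃ ν : ℕ, ν = (2 * (RR_genus K F : ℤ) - a).toNat := ⟨_, rfl⟩
  have hν1 : 2 * (RR_genus K F : ℤ) - a ≤ ν := by
    rw [hν]; exact Int.self_le_toNat _
  have hkν : (ν : ℤ) ≤ (ν : ℤ) * k := by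
    have : (1 : ℤ) ≤ k := by exact_mod_cast hk
    nlinarith [Int.natCast_nonneg ν]
  obtain ⟨b, hb⟩ : ∃ b : ℕ, b = ((ν : ℤ) * k + 1 + a).toNat := ⟨_, rfl⟩
  have hb0 : 0 ≤ (ν : ℤ) * k + 1 + a := by
    have : 0 ≤ 2 * (RR_genus K F : ℤ) := by positivity
    linarith
  have hb1 : (b : ℤ) = (ν : ℤ) * k + 1 + a := by
    rw [hb]; exact Int.toNat_of_nonneg hb0
  have hb2 : 2 * RR_genus K F + 1 ≤ b := by
    have : (2 * (RR_genus K F : ℤ) + 1) ≤ b := by rw [hb1]; linarith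
    exact_mod_cast this
  obtain ⟨f, hf0, hfO, hf⟩ := S17RS_exists_pole_order h O b hb2
  refine ⟨ν + 1, w * f, Nat.le_add_left 1 ν, mul_ne_zero hw0 hf0, fun R hR => ?_, ?_⟩
  · rw [R.ord_mul hw0 hf0]
    have h1 := hw R hR
    have h2 := hf R hR
    exact ⟨by linarith [h1.1], by linarith [h1.2]⟩
  · rw [O.ord_mul hw0 hf0, hfO, ← ha, hb1, Nat.add_sub_cancel]
    push_cast
    ring

end Fermat.Agent.S17
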