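import Fermat.Agent.Lib.DiffLocal
import Fermat.Agent.Lib.Hurwitz

/-!
# TRACK 8 (S17), heights, (TAN) piece T4-LOCAL (R) (helper24): the local "Wronskian" lemmas at a
place where the functions are regular

`t ∈ F` separating, `W v := ord_v (dt)`, `Df • dt = df` (i.e. `Df = D_t f`).

* `S17WR_val_D` : `g` regular at `v`  ⇒  `v (D_t g) ≤ exp (W v)`;
* `S17WR_ge`  (W1) : `f, g` regular at `v`  ⇒  `v (f D_t g − g D_t f) ≤ exp (W v)`;
* `S17WR_eq`  (W3) : `y − c` a uniformiser at `v`  ⇒  `D_t y ≠ 0` and `ord_v (D_t y) = − W v`.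
-/

set_option autoImplicit false
set_option linter.unusedSectionVars false
set_option linter.unusedVariables false
set_option linter.style.haveILetI false

open KaehlerDifferential WithZero AlgebraicCurve IntermediateField

namespace Fermat.Agent.S17

open Fermat.Agent.Lib

variable {K F : Type*} [Field K] [Field F] [Algebra K F] [CharZero K] {t : F}
  (ht : Transcendental K t) [FiniteDimensional K⟮t⟯ F] [Algebra.IsSeparable K⟮t⟯ F]
  (v : Place K F) (hdeg : v.deg = 1)

include ht hdeg in
/-- `g` regular at `v` ⇒ `v (D_t g) ≤ exp (ord_v dt)`. -/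
theorem S17WR_val_D (g Dg : F) (hDg : Dg • D K F t = D K F g) (hg : v.adicValuation g ≤ 1) :
    v.adicValuation Dg ≤ exp (v.ordDifferential (D K F t)) := by
  haveI := FD_dCoordGenerates t v hdeg
  haveI := FD_nontrivial_kaehler v hdeg
  rcases eq_or_ne Dg 0 with h0 | h0
  · rw [h0, map_zero]; exact bot_le
  · have h1 := v.ordDifferential_smul h0 (HW_differentialCoeff_ne_zero (x := t) v hdeg)
    rw [hDg] at h1
    have h2 := FD_ordDifferential_D_nonneg t v hdeg
      ((Fermat.Agent.S24.BL_adicValuation_le_one_iff v g).1 hg)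
    rw [v.adicValuation_eq_exp_neg_ord h0, exp_le_exp]
    omega

include ht hdeg in
/-- **(W1)** -/
theorem S17WR_ge (f g Df Dg : F) (hDf : Df • D K F t = D K F f) (hDg : Dg • D K F t = D K F g)
    (hf : v.adicValuation f ≤ 1) (hg : v.adicValuation g ≤ 1) :
    v.adicValuation (f * Dg - g * Df) ≤ exp (v.ordDifferential (D K F t)) := by
  have h1 := S17WR_val_D ht v hdeg g Dg hDg hg
  have h2 := S17WR_val_D ht v hdeg f Df hDf hf
  refine (Valuation.map_sub _ _ _).trans (max_le ?_ ?_)
  · rw [map_mul]; exact (mul_le_of_le_one_left' hf).trans h1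
  · rw [map_mul]; exact (mul_le_of_le_one_left' hg).trans h2

include ht hdeg in
/-- **(W3)** -/
theorem S17WR_eq (y Dy : F) (c : K) (hy : v.ord (y - algebraMap K F c) = 1)
    (hDy : Dy • D K F t = D K F y) :
    Dy ≠ 0 ∧ v.ord Dy = - v.ordDifferential (D K F t) := by
  haveI := FD_dCoordGenerates t v hdeg
  haveI := FD_nontrivial_kaehler v hdeg
  have h1 : v.ordDifferential (D K F y) = 0 := by
    rw [FD_ordDifferential_D_of_sub t v hdeg (y := y) (c := c) (by rw [hy]; simp), hy, sub_self]
  have hne : D K F y ≠ 0 := by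
    obtain ⟨u, hu0, -, hu⟩ := FD_D_unif t v hdeg hy
    rw [map_sub, Derivation.map_algebraMap, sub_zero] at hu
    rw [hu]
    exact smul_ne_zero hu0 v.dCoord_ne_zero
  have h0 : Dy ≠ 0 := by
    rintro rfl
    rw [zero_smul] at hDy
    exact hne hDy.symm
  refine ⟨h0, ?_⟩
  have h2 := v.ordDifferential_smul h0 (HW_differentialCoeff_ne_zero (x := t) v hdeg)
  rw [hDy, h1] at h2
  omega

end Fermat.Agent.S17
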