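import Fermat.Agent.S17.TanAsm
import Fermat.Agent.S17.TanDeg
import Fermat.Agent.S17.TanW2x
import Fermat.Agent.S17.TanWrR
import Fermat.Agent.S17.TanNcz
import Fermat.Agent.S17.DictConv
import Fermat.Agent.S17.DiscVec

/-!
# TRACK 8 (S17), heights pillar, TAN-curve, piece T6 (helper3): the assembly

`S17T6_main`: the model fields `B`, `tan`, `tan_ok`, `tanS` for the curve side
(`h : RR_Hyp K F`, `O`, the basis `e` of `L(kO)`, `X : S17H_Curve K ι k` with `X.I = S17NGZ_I e`),
from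

* the landed pieces T1 (`S17/TanDer.lean`), T2x (`S17/TanW2x.lean`), T5 (`S17/TanDeg.lean`),
  the local bound (W1) (`S17/TanWrR.lean`), NCZ (`S17/TanNcz.lean`), DICT-CONV
  (`S17/DictConv.lean`), TAN-abs (`S17/TanAbs.lean`), T6-core (`S17/TanAsm.lean`);
* the outputs of T4 (GEN) and T3c (REC), taken as hypotheses `hT4`, `hREC` in their exact shapes;
* the zero cycles of sections (`hzeros`, DICT) and the injectivity of `ev` (`hevinj`).

`tan Q = ((d e_j / dt)(Q))_j` with `t = e il`.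
-/

set_option autoImplicit false
set_option linter.style.haveILetI false
set_option linter.unusedSectionVars false

open MvPolynomial AlgebraicCurve WithZero KaehlerDifferential IntermediateField

namespace Fermat.Agent.S17

open Fermat.Agent.Lib Fermat.Agent.S24

section main

variable {K F : Type} [Field K] [Field F] [Algebra K F] [IsAlgClosed K] [CharZero K]
  {ι : Type} [Fintype ι]

/-- the shape of the output of T4 (GEN). -/
def S17T6_GenOut (O : Place K F) (k : ℕ) (e : ι → F) (il : ι) : Prop :=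
  ∃ T : Fin (k + 1) → ι × ι → K,
    (∀ a, S17TN_s (S17TN_Dt (K := K) (e il)) e (T a) ≠ 0) ∧
    (∀ a, O.ord (S17TN_s (S17TN_Dt (K := K) (e il)) e (T a)) = -((k : ℤ) - 1)) ∧
    ∀ a b, a ≠ b → ∀ R : Place K F, R ≠ O →
      R.ord (S17TN_s (S17TN_Dt (K := K) (e il)) e (T a)) = -R.ordDifferential (D K F (e il)) ∨
      R.ord (S17TN_s (S17TN_Dt (K := K) (e il)) e (T b)) = -R.ordDifferential (D K F (e il))

/-- the shape of the output of T3c (REC). -/
def S17T6_RecOut (O : Place K F) (k : ℕ) (e : ι → F) (il : ι) : Prop :=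
  ∀ (w : F), w ≠ 0 → (∀ P : Place K F, P ≠ O → 0 ≤ P.ord w) →
    ∀ μ : ℕ, O.ord w = -((μ * k : ℕ) : ℤ) →
    ∃ (κ : K) (S : Finset (Place K F)), κ ≠ 0 ∧ (∀ P, P ∈ S ↔ P ≠ O ∧ 0 < P.ord w) ∧
      ∀ (c : ι → K) (Q : Fin k → Place K F), c il ≠ 0 → Function.Injective Q →
        (∀ P : Place K F, 0 < P.ord (∑ j, c j • e j) ↔ ∃ i, P = Q i) →
        (c il) ^ (μ * k) * ∏ i, FD_c0 (Q i) w
          = κ * ∏ P ∈ S, (∑ j, c j * FD_c0 P (e j)) ^ (P.ord w).toNat

/-- the local bound `v_R (s_T) ≤ exp (δ_R)` off `O`. -/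
theorem S17T6_s_val (h : RR_Hyp K F) (O : Place K F) (e : ι → F) (il : ι)
    (ht : Transcendental K (e il)) [FiniteDimensional K⟮e il⟯ F]
    (hereg : ∀ j, ∀ P : Place K F, P ≠ O → P.adicValuation (e j) ≤ 1)
    (T : ι × ι → K) (R : Place K F) (hR : R ≠ O) :
    R.adicValuation (S17TN_s (S17TN_Dt (K := K) (e il)) e T) ≤
      exp (R.ordDifferential (D K F (e il))) := by
  haveI := S17TD_sep (K := K) (e il)
  unfold S17TN_s
  refine Valuation.map_sum_le _ fun p _ => ?_
  have h1 := S17WR_ge ht R (h.deg_one R) (e p.1) (e p.2) (S17TN_Dt (K := K) (e il) (e p.1))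
    (S17TN_Dt (K := K) (e il) (e p.2)) (S17TN_Dt_spec (e il) R (h.deg_one R) (e p.1))
    (S17TN_Dt_spec (e il) R (h.deg_one R) (e p.2)) (hereg p.1 R hR) (hereg p.2 R hR)
  rw [Algebra.smul_def, map_mul]
  exact (mul_le_of_le_one_left' (R.adicValuation_algebraMap_le_one _)).trans h1

variable [Algebra.IsAlgebraic ℚ K]

/-- **T6 (TAN-curve), assembly**: the model fields `B`, `tan_ok`, `tanS` with
`tan = S17TN_tan (S17TN_Dt (e il)) e`. -/
theorem S17T6_main (h : RR_Hyp K F) (O : Place K F) (k : ℕ) (hk : 1 ≤ k)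
    (e : ι → F) (i0 il : ι) (he0 : e i0 = 1)
    (hel : O.adicValuation (e il) = exp (k : ℤ))
    (helow : ∀ j, j ≠ il → O.adicValuation (e j) ≤ exp ((k : ℤ) - 1))
    (hereg : ∀ j, ∀ P : Place K F, P ≠ O → P.adicValuation (e j) ≤ 1)
    (hli : LinearIndependent K e)
    (hevinj : ∀ P P' : Place K F, P ≠ P' →
      S17H_wedge (S17NGL_ev O e il P) (S17NGL_ev O e il P') ≠ 0)
    (X : S17H_Curve K ι k) (hXI : X.I = S17NGZ_I (K := K) e)
    (hzeros : ∀ c : ι → K, c ≠ 0 → ∃ v : Fin k → Place K F,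
      S17H_Fact X.chow c (fun i => S17NGL_ev O e il (v i)) ∧
      ∀ P, ((S17H_cyc v P : ℕ) : ℤ) =
        P.ord (∑ j, c j • e j) + (k • Finsupp.single O (1 : ℤ)) P)
    (hT4 : S17T6_GenOut (K := K) O k e il) (hREC : S17T6_RecOut (K := K) O k e il) :
    ∃ B : Finset (Place K F), O ∈ B ∧
      (∀ Q, Q ∉ B →
        S17H_Tan X.I (S17NGL_ev O e il Q) (S17TN_tan (S17TN_Dt (K := K) (e il)) e Q) ∧
        S17H_wedge (S17NGL_ev O e il Q) (S17TN_tan (S17TN_Dt (K := K) (e il)) e Q) ≠ 0) ∧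
      S17H_StmtTAN X (RR_genus K F)
        (fun x x' => ∃ Q, Q ∉ B ∧ x = S17NGL_ev O e il Q ∧
          x' = S17TN_tan (S17TN_Dt (K := K) (e il)) e Q) := by
  classical
  -- the parameter `t = e il`
  have ht0 : e il ≠ 0 := by
    intro h0
    rw [h0, map_zero] at hel
    exact (exp_ne_zero).symm hel
  have hkO : O.ord (e il) = -(k : ℤ) := by
    have := O.adicValuation_eq_exp_neg_ord ht0
    rw [hel, exp_inj] at this
    omega
  have hO : ∀ P : Place K F, P.ord (e il) < 0 ↔ P = O := by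
    intro P
    constructor
    · intro hP
      by_contra hne
      have := (Place.adicValuation_le_one_iff P).1 (hereg il P hne)
      rcases this with h0 | h0
      · exact ht0 h0
      · omega
    · rintro rfl
      rw [hkO]
      have : (0 : ℤ) < k := by exact_mod_cast hk
      omega
  have ht : Transcendental K (e il) := RR_transcendental_of_pole O ((hO O).2 rfl)
  obtain ⟨x₀, -, hfin₀, -⟩ := h.exists_x
  haveI : FiniteDimensional K⟮e il⟯ F := BL_finite_of_transcendental hfin₀ ht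
  haveI := S17TD_sep (K := K) (e il)
  have hδl : S17TN_Dt (K := K) (e il) (e il) = 1 := S17TN_Dt_self (e il) O (h.deg_one O)
  -- the divisor of `dt`
  obtain ⟨W, hW, -, hWO, hW0⟩ := S17TD_W ht h O hO k hkO
  -- `w₂`
  obtain ⟨μ, w₂, hμ, hw₂, hw₂reg, hw₂O⟩ := S17T2X_main h O W k hk
  -- the generic forms
  obtain ⟨T, hs0, hsO, hgen⟩ := hT4
  -- `E₂`
  obtain ⟨E₂, hE₂O, hE₂, -⟩ := S17TD_E2_exists ht h O hO k hkO (w₂ := w₂)
    (fun v hv => by rw [← hW]; exact (hw₂reg v hv).1)
  -- the local bounds for `w_a = w₂ · s_a`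
  have hsR : ∀ a (R : Place K F), R ≠ O →
      -R.ordDifferential (D K F (e il)) ≤
        R.ord (S17TN_s (S17TN_Dt (K := K) (e il)) e (T a)) := by
    intro a R hR
    have h1 := S17T6_s_val h O e il ht hereg (T a) R hR
    rw [R.adicValuation_eq_exp_neg_ord (hs0 a), exp_le_exp] at h1
    omega
  have hw0 : ∀ a, w₂ * S17TN_s (S17TN_Dt (K := K) (e il)) e (T a) ≠ 0 := fun a =>
    mul_ne_zero hw₂ (hs0 a)
  have hword : ∀ a (R : Place K F),
      R.ord (w₂ * S17TN_s (S17TN_Dt (K := K) (e il)) e (T a)) =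
        R.ord w₂ + R.ord (S17TN_s (S17TN_Dt (K := K) (e il)) e (T a)) := fun a R =>
    R.ord_mul hw₂ (hs0 a)
  -- `Z a`
  have hZex : ∀ a, ∃ Z' : Place K F →₀ ℕ,
      (∀ v : Place K F, v ≠ O → (Z' v : ℤ) =
        v.ord (w₂ * S17TN_s (S17TN_Dt (K := K) (e il)) e (T a)) - E₂ v) ∧
      (Z' O : ℤ) = -O.ord w₂ + ((k : ℤ) - 1) +
        O.ord (w₂ * S17TN_s (S17TN_Dt (K := K) (e il)) e (T a)) ∧
      (Z'.sum fun _ n => n) = 2 * k + 2 * RR_genus K F - 2 := fun a =>
    S17TD_main_nat ht h O hO k hkO E₂ hE₂O hE₂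
      (fun v hv => by
        rw [hword a v, hE₂ v hv]
        have := hsR a v hv
        omega)
      (by rw [hword a O, hsO a]; omega)
  choose Z hZ hZO' hZdeg using hZex
  have hZO : ∀ a, Z a O = 0 := fun a => by
    have := hZO' a
    rw [hword a O, hsO a] at this
    omega
  -- reciprocity
  have hrecex : ∀ a, ∃ (κ : K) (S : Finset (Place K F)), κ ≠ 0 ∧
      (∀ P, P ∈ S ↔ P ≠ O ∧ 0 < P.ord (w₂ * S17TN_s (S17TN_Dt (K := K) (e il)) e (T a))) ∧
      ∀ (c : ι → K) (Q : Fin k → Place K F), c il ≠ 0 → Function.Injective Q →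
        (∀ P : Place K F, 0 < P.ord (∑ j, c j • e j) ↔ ∃ i, P = Q i) →
        (c il) ^ (μ * k) *
            ∏ i, FD_c0 (Q i) (w₂ * S17TN_s (S17TN_Dt (K := K) (e il)) e (T a))
          = κ * ∏ P ∈ S, (∑ j, c j * FD_c0 P (e j)) ^
              (P.ord (w₂ * S17TN_s (S17TN_Dt (K := K) (e il)) e (T a))).toNat := fun a =>
    hREC _ (hw0 a)
      (fun P hP => by
        rw [hword a P]
        have h1 := hsR a P hP
        have h2 := (hw₂reg P hP).1
        rw [hW] at h2
        omega) μ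
      (by
        rw [hword a O, hsO a, hw₂O]
        push_cast
        have : ((μ - 1 : ℕ) : ℤ) = (μ : ℤ) - 1 := by
          rw [Nat.cast_sub hμ]; simp
        rw [this]
        ring)
  choose κ S hκ hS hSrec using hrecex
  -- no common zero
  have hncz : ∀ c : ι → K, c ≠ 0 →
      ∃ a, eval c (S17T6_G (S17NGL_ev O e il) (κ a) (Z a)) ≠ 0 := fun c hc =>
    S17NZ_main h O k e il hli hereg hel helow
      (fun a => w₂ * S17TN_s (S17TN_Dt (K := K) (e il)) e (T a)) E₂ Z κ hκ hZO hZ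
      (fun a b hab R hR => by
        rcases hgen a b hab R hR with h1 | h1
        · left
          rw [hword a R, h1, hE₂ R hR]
          ring
        · right
          rw [hword b R, h1, hE₂ R hR]
          ring) c hc
  -- DICT-CONV
  have hdict : ∀ (c : ι → K) (Q : Fin k → Place K F),
      S17H_Fact X.chow c (fun i => S17NGL_ev O e il (Q i)) → (∀ i, Q i ≠ O) →
      (∀ i j, i ≠ j →
        S17H_wedge (S17NGL_ev O e il (Q i)) (S17NGL_ev O e il (Q j)) ≠ 0) →
      c il ≠ 0 ∧ Function.Injective Q ∧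
        ∀ P : Place K F, 0 < P.ord (∑ j, c j • e j) ↔ ∃ i, P = Q i := by
    intro c Q hF hQO hred
    have hne : ∀ P : Place K F, S17NGL_ev O e il P ≠ 0 := fun P =>
      S17NGL_ev_ne_zero O e i0 il he0 P
    have hc : c ≠ 0 := S17DV_c_ne_zero X hk hF (fun i => hne (Q i))
    have hφ : (∑ j, c j • e j) ≠ 0 := by
      intro h0
      apply hc
      funext j
      exact (Fintype.linearIndependent_iff.1 hli) c h0 j
    obtain ⟨h1, h2, h3, -⟩ := S17DT_conv_main O k hk e il helow (S17NGL_ev O e il) hevinj hne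
      X.chow c hφ (hzeros c hc) Q hF hQO
    have hQinj : Function.Injective Q := by
      intro i j hij
      by_contra hne'
      apply hred i j hne'
      rw [hij]
      exact S17H_wedge_self _
    refine ⟨h1, hQinj, fun P => ?_⟩
    by_cases hP : P = O
    · subst hP
      constructor
      · intro hpos
        rw [h2] at hpos
        have : (0 : ℤ) < k := by exact_mod_cast hk
        omega
      · rintro ⟨i, hi⟩
        exact absurd hi.symm (hQO i)
    · exact h3 P hP
  exact S17T6_core h O k hk e i0 il he0 hereg X hXI (S17TN_Dt (K := K) (e il)) hδl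
    (fun R => R.ordDifferential (D K F (e il)))
    (fun R hR => by have := hW0 R hR; rwa [hW] at this) w₂ hw₂ μ T E₂ hE₂O hE₂ Z hZO hZ hZdeg κ
    (fun a => ⟨S a, hS a, hSrec a⟩) hncz hdict

end main

end Fermat.Agent.S17
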