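import Fermat.Agent.S17.ModelInst3
import Fermat.Agent.S17.TanMain

/-!
# TRACK 8 (S17), heights pillar, package C1 (helper4), part 4: the concrete model `M_N` from
CURVE-INST, T4 (GEN) and T3c (REC)

* `S17MI_CurveStmt hd1` : the output of CURVE-INST (helper7): a term `X : S17H_Curve` with
  `X.I = S17NGZ_I e` and `X.chow = S17MI_chow hd1` (`= (S17CC_data …).chowForm`);
* `S17MI_hzeros`        : the zero cycles of sections in the shape of `S17T6_main`;
* `S17MI_exists_in2`    : the inputs `S17MI_In2` from `X`, `hT4`, `hREC` (TAN = `S17T6_main`);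
* `S17MI_exists_model`  : **the model** `M_N` with `M.JQ = S17_JQ N`, `M.X = X`.
-/

set_option autoImplicit false
set_option linter.style.haveILetI false
set_option linter.unusedSectionVars false

open ModularCurve AlgebraicCurve MvPolynomial WithZero

namespace Fermat.Agent.S17

open Fermat.Agent.Lib

noncomputable section

variable {N : ℕ} [NeZero N]

/-- the output of CURVE-INST: the abstract curve data of `X₀(N)` with the Chow form
`S17MI_chow`. -/
def S17MI_CurveStmt {d1 : ℕ} (hd1 : 2 * S17MI_g N + 1 ≤ d1) : Prop :=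
  ∃ X : S17H_Curve (AlgebraicClosure ℚ) (S17MI_ι N d1) (4 * d1),
    X.I = S17NGZ_I (K := AlgebraicClosure ℚ) (S17MI_e N d1) ∧ X.chow = S17MI_chow hd1

/-- the zero cycles of sections, in the shape of the hypothesis `hzeros` of `S17T6_main`. -/
theorem S17MI_hzeros {d1 : ℕ} (hd1 : 2 * S17MI_g N + 1 ≤ d1)
    (c : S17MI_ι N d1 → AlgebraicClosure ℚ) (hc : c ≠ 0) :
    ∃ v : Fin (4 * d1) → S17HI_Pl N,
      S17H_Fact (S17MI_chow hd1) c (fun i => S17MI_ev N d1 (v i)) ∧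
      ∀ P : S17HI_Pl N, ((S17H_cyc v P : ℕ) : ℤ) =
        P.ord (∑ j, c j • S17MI_e N d1 j) +
          ((4 * d1) • (Finsupp.single (S17EM_O N) (1 : ℤ) :
            Divisor (AlgebraicClosure ℚ) ↥(modularFunctionFieldBar N))) P := by
  have hφ := S17MI_phi_ne_zero N d1 hc
  obtain ⟨P, hP, -⟩ := S17PC_zeros_cyc (O := S17EM_O N) (B := S17EM_D N (4 * d1))
    (e := S17MI_e N d1) (S17ST_hRR N) (fun Q hQ => S17EM_D_apply_ne N (4 * d1) hQ)
    (S17EM_e_mem N (4 * d1)) (S17EM_D_degree N (4 * d1)) c hφ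
  refine ⟨P, S17MI_fact hd1 c P hφ hP, fun Q => ?_⟩
  rw [S17DT_cyc_coe, hP Q, ← S17EM_D_eq]

/-- the field `ev_inj`, as a statement on `S17MI_ev`. -/
theorem S17MI_ev_inj {d1 : ℕ} (hd1 : 2 * S17MI_g N + 1 ≤ d1) (P Q : S17HI_Pl N) (hPQ : P ≠ Q) :
    S17H_wedge (S17MI_ev N d1 P) (S17MI_ev N d1 Q) ≠ 0 := by
  refine S17NGL_ev_inj (S17ST_hRR N) (S17EM_O N) (4 * d1) (S17MI_e N d1) (S17MI_i0 N d1)
    (S17MI_il N d1) (S17MI_e_i0 N d1) (S17EM_val_last N (4 * d1) (S17MI_hk2 hd1))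
    (S17MI_hk1 hd1) (S17EM_D N (4 * d1)) (S17MI_D_off N d1) ?_ (S17MI_span N d1) P Q hPQ
  rw [S17MI_D_degree]
  have : 2 * S17MI_g N + 2 ≤ 4 * d1 := by omega
  unfold S17MI_g at this
  exact_mod_cast this

/-- **the inputs of the model** from CURVE-INST, T4 (GEN) and T3c (REC). -/
theorem S17MI_exists_in2 {d1 : ℕ} (hd1 : 2 * S17MI_g N + 1 ≤ d1)
    (X : S17H_Curve (AlgebraicClosure ℚ) (S17MI_ι N d1) (4 * d1))
    (hXI : X.I = S17NGZ_I (K := AlgebraicClosure ℚ) (S17MI_e N d1))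
    (hchow : X.chow = S17MI_chow hd1)
    (hT4 : S17T6_GenOut (K := AlgebraicClosure ℚ) (S17EM_O N) (4 * d1) (S17MI_e N d1)
      (S17MI_il N d1))
    (hREC : S17T6_RecOut (K := AlgebraicClosure ℚ) (S17EM_O N) (4 * d1) (S17MI_e N d1)
      (S17MI_il N d1)) :
    ∃ I : S17MI_In2 N d1, I.X = X := by
  haveI : Algebra.IsAlgebraic ℚ (AlgebraicClosure ℚ) := S17AH_isAlgebraic_Qbar
  obtain ⟨B, -, htan, htanS⟩ := S17T6_main (S17ST_hRR N) (S17EM_O N) (4 * d1) (S17MI_hk1 hd1)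
    (S17MI_e N d1) (S17MI_i0 N d1) (S17MI_il N d1) (S17MI_e_i0 N d1)
    (S17EM_val_last N (4 * d1) (S17MI_hk2 hd1))
    (fun j hj => S17EM_val_low N (4 * d1) (S17MI_hk2 hd1) j hj)
    (fun j P hP => S17EM_val_off N (4 * d1) j P hP)
    (S17EM_e_linearIndependent N (4 * d1)) (S17MI_ev_inj hd1) X hXI
    (fun c hc => by rw [hchow]; exact S17MI_hzeros hd1 c hc) hT4 hREC
  exact ⟨{ X := X
           hXI := hXI
           fact := fun c P hφ hP => by rw [hchow]; exact S17MI_fact hd1 c P hφ hP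
           B := B
           tan := S17TN_tan (S17TN_Dt (K := AlgebraicClosure ℚ) (S17MI_e N d1 (S17MI_il N d1)))
             (S17MI_e N d1)
           tan_ok := htan
           tanS := htanS }, rfl⟩

/-- **C1, final form**: the concrete model `M_N` of `X₀(N)` from CURVE-INST, T4 and T3c. -/
theorem S17MI_exists_model {d1 : ℕ} (hd1 : 2 * S17MI_g N + 1 ≤ d1)
    (hX : S17MI_CurveStmt hd1)
    (hT4 : S17T6_GenOut (K := AlgebraicClosure ℚ) (S17EM_O N) (4 * d1) (S17MI_e N d1)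
      (S17MI_il N d1))
    (hREC : S17T6_RecOut (K := AlgebraicClosure ℚ) (S17EM_O N) (4 * d1) (S17MI_e N d1)
      (S17MI_il N d1)) :
    ∃ M : S17H_Model (AlgebraicClosure ℚ) (JZero N) (S17HI_Pl N) (S17MI_ι N d1) (4 * d1)
      (S17MI_g N) d1, M.JQ = S17_JQ N := by
  obtain ⟨X, hXI, hchow⟩ := hX
  obtain ⟨I, -⟩ := S17MI_exists_in2 hd1 X hXI hchow hT4 hREC
  exact ⟨S17MI_model2 hd1 I, rfl⟩

end

end Fermat.Agent.S17
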