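import Fermat.Agent.Lib.DiffLocal
import Fermat.Agent.Lib.Hurwitz

/-!
# TRACK 8 (S17), heights pillar, TAN-curve, T4 GEN, local "Wronskian" lemmas at `O` (helper12)

Setting (helper18's): `K` of characteristic `0`, `t : F` transcendental, `F / K(t)` finite
separable, `v` a place of degree one, `dt := D K F t`.  All statements are for arbitrary
`f g : F` and arbitrary `Df Dg` with `Df • dt = df`, `Dg • dt = dg`.

* `S17WR_core`  : `f, g ≠ 0`, `ord_v f ≤ ord_v g` ⇒ `f Dg − g Df = 0` or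
                  `ord_v (f Dg − g Df) ≥ 2 ord_v f − ord_v (dt)`     (`= f² d(g/f) / dt`);
* `S17WR_ge_O`  **(W2)** : `ord_v t = −k < 0`, `v(f), v(g) ≤ exp k` ⇒ `v(f Dg − g Df) ≤ exp (k−1)`;
* `S17WR_eq_O`  **(W4)** : `ord_v t = −k`, `ord_v f = −(k−1)` ⇒ `t Df − f Dt ≠ 0` of order
                  exactly `−(k−1)`   (`f / t` is a uniformiser at `v`).
-/

set_option autoImplicit false
set_option linter.unusedSectionVars false
set_option linter.unusedVariables false
set_option linter.style.haveILetI false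

open KaehlerDifferential WithZero AlgebraicCurve IntermediateField
open scoped IntermediateField.algebraAdjoinAdjoin

namespace Fermat.Agent.S17

open Fermat.Agent.Lib Fermat.Agent.S24

variable {K : Type*} {F : Type*} [Field K] [Field F] [Algebra K F] [CharZero K] {t : F}
  (ht : Transcendental K t) [FiniteDimensional K⟮t⟯ F] [Algebra.IsSeparable K⟮t⟯ F]
  (v : Place K F) (hdeg : v.deg = 1)

include hdeg in
/-- `dt ≠ 0`. -/
theorem S17WR_dt_ne_zero : D K F t ≠ 0 := by
  haveI := FD_dCoordGenerates t v hdeg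
  haveI := FD_nontrivial_kaehler v hdeg
  intro h0
  have h1 := HW_differentialCoeff_ne_zero (x := t) v hdeg
  rw [h0] at h1
  exact h1 v.differentialCoeff_zero

include hdeg in
/-- `ord_v (dt) = −(k+1)` at a pole of order `k` of `t`. -/
theorem S17WR_ord_dt (k : ℕ) (hk : v.ord t = -(k : ℤ)) (hk0 : 0 < k) :
    v.ordDifferential (D K F t) = -((k : ℤ) + 1) := by
  have hne : ((v.ord t : ℤ) : K) ≠ 0 := by
    rw [hk]
    exact Int.cast_ne_zero.2 (by omega)
  rw [FD_ordDifferential_D t v hdeg hne, hk]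
  ring

include hdeg in
/-- `v.ord (-f) = v.ord f`. -/
theorem S17WR_ord_neg (f : F) : v.ord (-f) = v.ord f := by
  rw [Place.ord, Place.ord, Valuation.map_neg]

include hdeg in
/-- the core: `f Dg − g Df = f² · d(g/f)/dt`. -/
theorem S17WR_core (f g Df Dg : F) (hDf : Df • D K F t = D K F f)
    (hDg : Dg • D K F t = D K F g) (hf0 : f ≠ 0) (hg0 : g ≠ 0) (hfg : v.ord f ≤ v.ord g) :
    f * Dg - g * Df = 0 ∨
      2 * v.ord f - v.ordDifferential (D K F t) ≤ v.ord (f * Dg - g * Df) := by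
  haveI := FD_dCoordGenerates t v hdeg
  haveI := FD_nontrivial_kaehler v hdeg
  by_cases h0 : f * Dg - g * Df = 0
  · exact Or.inl h0
  right
  set q : F := f⁻¹ ^ 2 * (f * Dg - g * Df) with hq
  have hq0 : q ≠ 0 := mul_ne_zero (pow_ne_zero _ (inv_ne_zero hf0)) h0
  have hD : D K F (g / f) = q • D K F t := by
    rw [Derivation.leibniz_div, ← hDf, ← hDg, hq, smul_smul, smul_smul, ← sub_smul, smul_smul]
  have hr : g / f ∈ v.toValuationSubring := by
    rw [BL_mem_iff_ord_nonneg v (div_ne_zero hg0 hf0), div_eq_mul_inv,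
      v.ord_mul hg0 (inv_ne_zero hf0), v.ord_inv]
    omega
  have h1 := FD_ordDifferential_D_nonneg t v hdeg hr
  rw [hD, v.ordDifferential_smul hq0 (HW_differentialCoeff_ne_zero (x := t) v hdeg)] at h1
  have h2 : v.ord q = -(2 * v.ord f) + v.ord (f * Dg - g * Df) := by
    rw [hq, v.ord_mul (pow_ne_zero _ (inv_ne_zero hf0)) h0, ← zpow_natCast, v.ord_zpow,
      v.ord_inv]
    push_cast
    ring
  omega

include ht hdeg in
/-- **(W2)**: at a pole of order `k` of `t`, the Wronskian of two functions with pole order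
`≤ k` has pole order `≤ k − 1`. -/
theorem S17WR_ge_O (k : ℕ) (hk : v.ord t = -(k : ℤ)) (hk0 : 0 < k) (f g Df Dg : F)
    (hDf : Df • D K F t = D K F f) (hDg : Dg • D K F t = D K F g)
    (hf : v.adicValuation f ≤ exp (k : ℤ)) (hg : v.adicValuation g ≤ exp (k : ℤ)) :
    v.adicValuation (f * Dg - g * Df) ≤ exp ((k : ℤ) - 1) := by
  have hdt := S17WR_dt_ne_zero (t := t) v hdeg
  have hW := S17WR_ord_dt (t := t) v hdeg k hk hk0
  rcases eq_or_ne f 0 with rfl | hf0
  · have hDf0 : Df = 0 := by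
      rw [map_zero] at hDf
      exact (smul_eq_zero.1 hDf).resolve_right hdt
    rw [hDf0]
    simp
  rcases eq_or_ne g 0 with rfl | hg0
  · have hDg0 : Dg = 0 := by
      rw [map_zero] at hDg
      exact (smul_eq_zero.1 hDg).resolve_right hdt
    rw [hDg0]
    simp
  have hfo : -(k : ℤ) ≤ v.ord f := (v.adicValuation_le_exp_iff.1 hf).resolve_left hf0
  have hgo : -(k : ℤ) ≤ v.ord g := (v.adicValuation_le_exp_iff.1 hg).resolve_left hg0
  rw [v.adicValuation_le_exp_iff]
  rcases le_total (v.ord f) (v.ord g) with hfg | hfg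
  · rcases S17WR_core v hdeg f g Df Dg hDf hDg hf0 hg0 hfg with h0 | h1
    · exact Or.inl h0
    · right
      rw [hW] at h1
      omega
  · have hsw : f * Dg - g * Df = -(g * Df - f * Dg) := by ring
    rcases S17WR_core v hdeg g f Dg Df hDg hDf hg0 hf0 hfg with h0 | h1
    · left
      rw [hsw, h0, neg_zero]
    · right
      rw [hsw, S17WR_ord_neg v hdeg]
      rw [hW] at h1
      omega

include ht hdeg in
/-- **(W4)**: at a pole of order `k` of `t`, for `f` of pole order exactly `k − 1` the Wronskian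
`t Df − f Dt` has pole order exactly `k − 1`. -/
theorem S17WR_eq_O (k : ℕ) (hk : v.ord t = -(k : ℤ)) (hk2 : 2 ≤ k) (f Df Dt : F)
    (hf : v.ord f = -((k : ℤ) - 1)) (hDf : Df • D K F t = D K F f)
    (hDt : Dt • D K F t = D K F t) :
    t * Df - f * Dt ≠ 0 ∧ v.ord (t * Df - f * Dt) = -((k : ℤ) - 1) := by
  haveI := FD_dCoordGenerates t v hdeg
  haveI := FD_nontrivial_kaehler v hdeg
  have hdt := S17WR_dt_ne_zero (t := t) v hdeg
  have hW := S17WR_ord_dt (t := t) v hdeg k hk (by omega)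
  have ht0 : t ≠ 0 := fun h0 => ht (h0 ▸ isAlgebraic_zero)
  have hf0 : f ≠ 0 := by
    rintro rfl
    rw [v.ord_zero] at hf
    omega
  -- `Dt = 1`
  have hDt1 : Dt = 1 := by
    have h2 : (Dt - 1) • D K F t = 0 := by rw [sub_smul, hDt, one_smul, sub_self]
    exact sub_eq_zero.1 ((smul_eq_zero.1 h2).resolve_right hdt)
  subst hDt1
  set q : F := t⁻¹ ^ 2 * (t * Df - f * 1) with hq
  have hD : D K F (f / t) = q • D K F t := by
    rw [Derivation.leibniz_div, ← hDf, hq, smul_smul, ← sub_smul, smul_smul, mul_one]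
  have hr1 : v.ord (f / t) = 1 := by
    rw [div_eq_mul_inv, v.ord_mul hf0 (inv_ne_zero ht0), v.ord_inv, hf, hk]
    ring
  have hDr : D K F (f / t) ≠ 0 := by
    obtain ⟨u, hu0, -, hu⟩ := FD_D_unif t v hdeg hr1
    rw [hu]
    exact smul_ne_zero hu0 v.dCoord_ne_zero
  have hq0 : q ≠ 0 := by
    rintro h0
    rw [h0, zero_smul] at hD
    exact hDr hD
  have h0 : t * Df - f * 1 ≠ 0 := by
    intro h0
    apply hq0
    rw [hq, h0, mul_zero]
  have h1 := FD_ordDifferential_D t v hdeg (y := f / t)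
    (by rw [hr1]; exact Int.cast_ne_zero.2 one_ne_zero)
  rw [hD, v.ordDifferential_smul hq0 (HW_differentialCoeff_ne_zero (x := t) v hdeg), hr1, hW]
    at h1
  have h2 : v.ord q = -(2 * v.ord t) + v.ord (t * Df - f * 1) := by
    rw [hq, v.ord_mul (pow_ne_zero _ (inv_ne_zero ht0)) h0, ← zpow_natCast, v.ord_zpow,
      v.ord_inv]
    push_cast
    ring
  refine ⟨h0, ?_⟩
  rw [hk] at h2
  omega

end Fermat.Agent.S17
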