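import Fermat.Agent.S17.TanDer
import Fermat.Agent.S17.RRAvoid
import Fermat.Agent.S17.TanWrR
import Fermat.Agent.S17.TanWrO

/-!
# TRACK 8 (S17), heights, (TAN) piece T4 = GEN, assembly (helper24): sections in general position

## Layer 1 (abstract): a base-point-free linear system has members in general position

`s : V →ₗ[K] F` a linear family of functions, `w : Place K F → ℤ` (finite support) with
`v_R (s T) ≤ exp (w R)` for all `T` ("pole order at most `w R`") and, for every `R`, some `T`
with equality.  Then for every `n` there are `T_0, …, T_{n-1}` with `v_O (s T_a) = exp (w O)` and,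
for `a ≠ b` and every place `R`, `v_R (s T_a) = exp (w R)` or `v_R (s T_b) = exp (w R)`
(the "zero divisors" `div (s T_a) + w` are pairwise disjoint and avoid `O`): `S17TY_general`.

## Layer 2 (concrete): the functions `s_T = Σ_p T_p (e_i D_t e_j − e_j D_t e_i)`, `t = e il`

`S17TY_main`: general position for the `s_T`, with `w O = k − 1`, `w R = ord_R (dt)` (`R ≠ O`).
-/

set_option autoImplicit false
set_option linter.style.haveILetI false

open AlgebraicCurve MvPolynomial WithZero KaehlerDifferential IntermediateField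

namespace Fermat.Agent.S17

open Fermat.Agent.Lib

section abstract

variable {K : Type*} {F : Type*} [Field K] [Field F] [Algebra K F]

/-- the valuation ball `{f | v_R f ≤ exp m}` as a `K`-subspace of `F`. -/
def S17TY_ball (R : Place K F) (m : ℤ) : Submodule K F where
  carrier := {f | R.adicValuation f ≤ exp m}
  zero_mem' := by simp
  add_mem' := fun {a b} ha hb => by
    have ha' : R.adicValuation a ≤ exp m := ha
    have hb' : R.adicValuation b ≤ exp m := hb
    exact (Valuation.map_add _ _ _).trans (max_le ha' hb')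
  smul_mem' := fun c f hf => by
    have hf' : R.adicValuation f ≤ exp m := hf
    change R.adicValuation (c • f) ≤ exp m
    rw [Algebra.smul_def, map_mul]
    exact (mul_le_of_le_one_left' (R.adicValuation_algebraMap_le_one c)).trans hf'

theorem S17TY_mem_ball (R : Place K F) (m : ℤ) (f : F) :
    f ∈ S17TY_ball (K := K) R m ↔ R.adicValuation f ≤ exp m := by
  change f ∈ {f | R.adicValuation f ≤ exp m} ↔ _
  rfl

/-- discreteness: `v ≤ exp m` and `¬ v ≤ exp (m - 1)` force `v = exp m`. -/
theorem S17TY_val_eq (R : Place K F) {m : ℤ} {f : F} (h1 : R.adicValuation f ≤ exp m)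
    (h2 : ¬ R.adicValuation f ≤ exp (m - 1)) : R.adicValuation f = exp m := by
  have hf : f ≠ 0 := by
    rintro rfl
    exact h2 (by simp)
  rw [R.adicValuation_eq_exp_neg_ord hf] at h1 h2 ⊢
  rw [exp_le_exp] at h1 h2
  rw [exp_inj]
  omega

/-- **general position** (abstract). -/
theorem S17TY_general [Infinite K] {V : Type*} [AddCommGroup V] [Module K V]
    (h : RR_Hyp K F) (s : V →ₗ[K] F) (w : Place K F → ℤ)
    (B : Finset (Place K F)) (hB : ∀ R, R ∉ B → w R = 0)
    (hlow : ∀ R T, R.adicValuation (s T) ≤ exp (w R))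
    (hbpf : ∀ R, ∃ T, R.adicValuation (s T) = exp (w R))
    (O : Place K F) (n : ℕ) :
    ∃ T : Fin n → V, (∀ a, O.adicValuation (s (T a)) = exp (w O)) ∧
      ∀ a b, a ≠ b → ∀ R, R.adicValuation (s (T a)) = exp (w R) ∨
        R.adicValuation (s (T b)) = exp (w R) := by
  classical
  induction n with
  | zero => exact ⟨fun a => a.elim0, fun a => a.elim0, fun a => a.elim0⟩
  | succ n ih =>
    obtain ⟨T, hTO, hT⟩ := ih
    -- the finite set of places to avoid
    set Z : Finset (Place K F) :=
      insert O (B ∪ Finset.univ.biUnion fun a => (RR_div h.principal (s (T a))).support) with hZ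
    have hZgood : ∀ R, R ∉ Z → ∀ a, R.adicValuation (s (T a)) = exp (w R) := by
      intro R hR a
      rw [hZ, Finset.mem_insert, Finset.mem_union, Finset.mem_biUnion] at hR
      push Not at hR
      have h1 : w R = 0 := hB R hR.2.1
      have h2 : RR_div h.principal (s (T a)) R = 0 := by
        by_contra hne
        exact hR.2.2 a (Finset.mem_univ a) (Finsupp.mem_support_iff.2 hne)
      rw [RR_div_apply] at h2
      have h3 : s (T a) ≠ 0 := by
        intro h0
        have := hTO a
        rw [h0, map_zero] at this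
        exact exp_ne_zero this.symm
      rw [R.adicValuation_eq_exp_neg_ord h3, h2, h1, neg_zero]
    -- the subspaces to avoid
    obtain ⟨Tn, -, hTn⟩ := S17RS_avoid_subspaces (⊤ : Submodule K V)
      (Z.image fun R => (S17TY_ball (K := K) R (w R - 1)).comap s) (by
        intro U hU hle
        rw [Finset.mem_image] at hU
        obtain ⟨R, -, rfl⟩ := hU
        obtain ⟨T₀, hT₀⟩ := hbpf R
        have : T₀ ∈ (S17TY_ball (K := K) R (w R - 1)).comap s := hle trivial
        rw [Submodule.mem_comap, S17TY_mem_ball, hT₀, exp_le_exp] at this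
        omega)
    have hnew : ∀ R ∈ Z, R.adicValuation (s Tn) = exp (w R) := by
      intro R hR
      refine S17TY_val_eq R (hlow R Tn) fun hle => ?_
      exact hTn _ (Finset.mem_image_of_mem _ hR)
        (Submodule.mem_comap.2 ((S17TY_mem_ball R _ _).2 hle))
    refine ⟨Fin.snoc T Tn, ?_, ?_⟩
    · intro a
      rcases Fin.eq_castSucc_or_eq_last a with ⟨a', rfl⟩ | rfl
      · rw [Fin.snoc_castSucc]; exact hTO a'
      · rw [Fin.snoc_last]; exact hnew O (by rw [hZ]; exact Finset.mem_insert_self _ _)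
    · intro a b hab R
      rcases Fin.eq_castSucc_or_eq_last a with ⟨a', rfl⟩ | rfl
      · rcases Fin.eq_castSucc_or_eq_last b with ⟨b', rfl⟩ | rfl
        · rw [Fin.snoc_castSucc, Fin.snoc_castSucc]
          exact hT a' b' (fun h0 => hab (by rw [h0])) R
        · rw [Fin.snoc_castSucc, Fin.snoc_last]
          by_cases hR : R ∈ Z
          · exact Or.inr (hnew R hR)
          · exact Or.inl (hZgood R hR a')
      · rcases Fin.eq_castSucc_or_eq_last b with ⟨b', rfl⟩ | rfl
        · rw [Fin.snoc_castSucc, Fin.snoc_last]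
          by_cases hR : R ∈ Z
          · exact Or.inl (hnew R hR)
          · exact Or.inr (hZgood R hR b')
        · exact absurd rfl hab

end abstract

section concrete

variable {K : Type} {F : Type*} [Field K] [Field F] [Algebra K F] {ι : Type} [Fintype ι]

/-- `T ↦ s_T` as a linear map. -/
noncomputable def S17TY_sLin (δ : Derivation K F F) (e : ι → F) : (ι × ι → K) →ₗ[K] F where
  toFun T := S17TN_s δ e T
  map_add' T T' := by
    simp only [S17TN_s, Pi.add_apply, add_smul, Finset.sum_add_distrib]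
  map_smul' c T := by
    simp only [S17TN_s, Pi.smul_apply, smul_eq_mul, RingHom.id_apply, Finset.smul_sum, mul_smul]

theorem S17TY_sLin_apply (δ : Derivation K F F) (e : ι → F) (T : ι × ι → K) :
    S17TY_sLin δ e T = S17TN_s δ e T := rfl

/-- `s_T` for a unit vector `T`. -/
theorem S17TY_s_single [DecidableEq ι] (δ : Derivation K F F) (e : ι → F) (p : ι × ι) :
    S17TN_s δ e (Pi.single p 1) = e p.1 * δ (e p.2) - e p.2 * δ (e p.1) := by
  unfold S17TN_s
  rw [Finset.sum_eq_single p]
  · rw [Pi.single_eq_same, one_smul]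
  · intro q _ hq
    rw [Pi.single_eq_of_ne hq, zero_smul]
  · intro hp
    exact absurd (Finset.mem_univ p) hp

/-- a uniform bound for all the terms gives the bound for `s_T`. -/
theorem S17TY_val_s_le (δ : Derivation K F F) (e : ι → F) (R : Place K F) (m : ℤ)
    (hm : ∀ p : ι × ι, R.adicValuation (e p.1 * δ (e p.2) - e p.2 * δ (e p.1)) ≤ exp m)
    (T : ι × ι → K) : R.adicValuation (S17TN_s δ e T) ≤ exp m := by
  have : S17TN_s δ e T ∈ S17TY_ball (K := K) R m := by
    unfold S17TN_s
    exact Submodule.sum_mem _ fun p _ => Submodule.smul_mem _ _ ((S17TY_mem_ball R m _).2 (hm p))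
  exact (S17TY_mem_ball R m _).1 this

/-- `v = exp m` in terms of `ord`. -/
theorem S17TY_val_eq_iff (R : Place K F) (f : F) (m : ℤ) :
    R.adicValuation f = exp m ↔ f ≠ 0 ∧ R.ord f = -m := by
  constructor
  · intro h
    have hf : f ≠ 0 := by
      rintro rfl
      rw [map_zero] at h
      exact exp_ne_zero h.symm
    rw [R.adicValuation_eq_exp_neg_ord hf, exp_inj] at h
    exact ⟨hf, by omega⟩
  · rintro ⟨hf, h⟩
    rw [R.adicValuation_eq_exp_neg_ord hf, h, neg_neg]

/-- **T4 GEN** from the four local Wronskian statements (W1)–(W4) at the places of `F`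
(`δ f • dt = df`, `t = e il`): `k + 1` sections `s_{T a}` of exact pole order `k − 1` at `O` whose
zero divisors (relative to `W = div dt`) are pairwise disjoint. -/
theorem S17TY_main_of [Infinite K] (h : RR_Hyp K F) (O : Place K F) (k : ℕ) (e : ι → F)
    (i0 i1 il : ι) (he0 : e i0 = 1)
    (hereg : ∀ j, ∀ P : Place K F, P ≠ O → P.adicValuation (e j) ≤ 1)
    (hel : O.adicValuation (e il) = exp (k : ℤ))
    (helow : ∀ j, j ≠ il → O.adicValuation (e j) ≤ exp ((k : ℤ) - 1))
    (δ : Derivation K F F) (W : Divisor K F)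
    (himm : ∀ R : Place K F, R ≠ O → ∃ j, R.ord (e j - algebraMap K F (FD_c0 R (e j))) = 1)
    (hW1 : ∀ R : Place K F, R ≠ O → ∀ f g : F, R.adicValuation f ≤ 1 → R.adicValuation g ≤ 1 →
      R.adicValuation (f * δ g - g * δ f) ≤ exp (W R))
    (hW3 : ∀ R : Place K F, R ≠ O → ∀ (y : F) (c : K), R.ord (y - algebraMap K F c) = 1 →
      δ y ≠ 0 ∧ R.ord (δ y) = -W R)
    (hW2 : ∀ f g : F, O.adicValuation f ≤ exp (k : ℤ) → O.adicValuation g ≤ exp (k : ℤ) →
      O.adicValuation (f * δ g - g * δ f) ≤ exp ((k : ℤ) - 1))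
    (hW4 : e il * δ (e i1) - e i1 * δ (e il) ≠ 0 ∧
      O.ord (e il * δ (e i1) - e i1 * δ (e il)) = -((k : ℤ) - 1))
    (n : ℕ) :
    ∃ T : Fin n → ι × ι → K,
      (∀ a, O.ord (S17TN_s δ e (T a)) = -((k : ℤ) - 1)) ∧ (∀ a, S17TN_s δ e (T a) ≠ 0) ∧
      ∀ a b, a ≠ b → ∀ R : Place K F, R ≠ O →
        R.ord (S17TN_s δ e (T a)) = -(W R) ∨ R.ord (S17TN_s δ e (T b)) = -(W R) := by
  classical
  have hvalO : ∀ j, O.adicValuation (e j) ≤ exp (k : ℤ) := by
    intro j
    by_cases hj : j = il
    · rw [hj, hel]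
    · refine (helow j hj).trans ?_
      rw [exp_le_exp]
      omega
  set w : Place K F → ℤ := fun R => if R = O then (k : ℤ) - 1 else W R with hw
  have hwO : w O = (k : ℤ) - 1 := by simp [hw]
  have hwR : ∀ R, R ≠ O → w R = W R := fun R hR => by simp [hw, hR]
  have hlow : ∀ R T, R.adicValuation (S17TY_sLin δ e T) ≤ exp (w R) := by
    intro R T
    rw [S17TY_sLin_apply]
    by_cases hR : R = O
    · rw [hR, hwO]
      exact S17TY_val_s_le δ e O _ (fun p => hW2 _ _ (hvalO _) (hvalO _)) T
    · rw [hwR R hR]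
      exact S17TY_val_s_le δ e R _
        (fun p => hW1 R hR _ _ (hereg _ R hR) (hereg _ R hR)) T
  have hbpf : ∀ R, ∃ T, R.adicValuation (S17TY_sLin δ e T) = exp (w R) := by
    intro R
    by_cases hR : R = O
    · refine ⟨Pi.single (il, i1) 1, ?_⟩
      rw [S17TY_sLin_apply, S17TY_s_single, hR, hwO, S17TY_val_eq_iff]
      exact hW4
    · obtain ⟨j, hj⟩ := himm R hR
      refine ⟨Pi.single (i0, j) 1, ?_⟩
      rw [S17TY_sLin_apply, S17TY_s_single, hwR R hR, S17TY_val_eq_iff]
      have h1 : e (i0, j).1 * δ (e (i0, j).2) - e (i0, j).2 * δ (e (i0, j).1) = δ (e j) := by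
        simp only
        rw [he0, Derivation.map_one_eq_zero, one_mul, mul_zero, sub_zero]
      rw [h1]
      exact hW3 R hR (e j) _ hj
  obtain ⟨T, hTO, hT⟩ := S17TY_general h (S17TY_sLin δ e) w (insert O W.support)
    (fun R hR => by
      rw [Finset.mem_insert, not_or] at hR
      rw [hwR R hR.1]
      exact Finsupp.notMem_support_iff.1 hR.2) hlow hbpf O n
  refine ⟨T, fun a => ?_, fun a => ?_, fun a b hab R hR => ?_⟩
  · have := hTO a
    rw [S17TY_sLin_apply, hwO, S17TY_val_eq_iff] at this
    exact this.2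
  · have := hTO a
    rw [S17TY_sLin_apply, hwO, S17TY_val_eq_iff] at this
    exact this.1
  · have := hT a b hab R
    rw [S17TY_sLin_apply, S17TY_sLin_apply, hwR R hR, S17TY_val_eq_iff, S17TY_val_eq_iff] at this
    exact this.imp (fun h => h.2) (fun h => h.2)

end concrete

section final

variable {K : Type} {F : Type*} [Field K] [Field F] [Algebra K F] [CharZero K] {ι : Type}
  [Fintype ι]

/-- **T4 GEN** (helper3's exact output): for `t = e il`, `δ = d/dt = S17TN_Dt (e il)`,
`W = div (dt)`: there are `T_0, …, T_{n-1}` with `ord_O (s_{T a}) = −(k − 1)` and, for `a ≠ b` and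
every place `R ≠ O`, `ord_R (s_{T a}) = − W R` or `ord_R (s_{T b}) = − W R`. -/
theorem S17TY_main (h : RR_Hyp K F) (O : Place K F) (k : ℕ) (hk : 2 ≤ k) (e : ι → F)
    (i0 i1 il : ι) (he0 : e i0 = 1)
    (hereg : ∀ j, ∀ P : Place K F, P ≠ O → P.adicValuation (e j) ≤ 1)
    (hel : O.adicValuation (e il) = exp (k : ℤ))
    (helow : ∀ j, j ≠ il → O.adicValuation (e j) ≤ exp ((k : ℤ) - 1))
    (hi1 : O.ord (e i1) = -((k : ℤ) - 1))
    (himm : ∀ R : Place K F, R ≠ O → ∃ j, R.ord (e j - algebraMap K F (FD_c0 R (e j))) = 1)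
    (ht : Transcendental K (e il)) [FiniteDimensional K⟮e il⟯ F]
    [Algebra.IsSeparable K⟮e il⟯ F]
    (W : Divisor K F) (hW : ∀ v : Place K F, W v = v.ordDifferential (D K F (e il))) (n : ℕ) :
    ∃ T : Fin n → ι × ι → K,
      (∀ a, O.ord (S17TN_s (S17TN_Dt (e il)) e (T a)) = -((k : ℤ) - 1)) ∧
      (∀ a, S17TN_s (S17TN_Dt (e il)) e (T a) ≠ 0) ∧
      ∀ a b, a ≠ b → ∀ R : Place K F, R ≠ O →
        R.ord (S17TN_s (S17TN_Dt (e il)) e (T a)) = -(W R) ∨
          R.ord (S17TN_s (S17TN_Dt (e il)) e (T b)) = -(W R) := by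
  have hspec : ∀ f : F, S17TN_Dt (K := K) (e il) f • D K F (e il) = D K F f :=
    S17TN_Dt_spec (e il) O (h.deg_one O)
  have hil0 : e il ≠ 0 := by
    intro h0
    rw [h0, map_zero] at hel
    exact exp_ne_zero hel.symm
  have hordO : O.ord (e il) = -(k : ℤ) := by
    have := hel
    rw [O.adicValuation_eq_exp_neg_ord hil0, exp_inj] at this
    omega
  refine S17TY_main_of h O k e i0 i1 il he0 hereg hel helow (S17TN_Dt (e il)) W himm ?_ ?_ ?_ ?_ n
  · intro R _ f g hf hg
    rw [hW]
    exact S17WR_ge ht R (h.deg_one R) f g _ _ (hspec f) (hspec g) hf hg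
  · intro R _ y c hy
    rw [hW]
    exact S17WR_eq ht R (h.deg_one R) y _ c hy (hspec y)
  · intro f g hf hg
    exact S17WR_ge_O ht O (h.deg_one O) k hordO (by omega) f g _ _ (hspec f) (hspec g) hf hg
  · exact S17WR_eq_O ht O (h.deg_one O) k hordO hk (e i1) _ _ hi1 (hspec (e i1)) (hspec (e il))

end final

end Fermat.Agent.S17
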