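import Fermat.Agent.S17.TanMain
import Fermat.Agent.S17.TanGenAsm

/-!
# TRACK 8 (S17), heights pillar, TAN-curve (helper3): `S17T6_genOut`, `S17T6_final`

* `S17T6_genOut` : the output of T4 (GEN, helper24's `S17TY_main`) in the shape `S17T6_GenOut`.
* `S17T6_final`  : `S17T6_main` with T4 discharged: the model fields `B`, `tan_ok`, `tanS` from
  the basis data (`e i1` of exact pole order `k − 1`, immersion `himm`), the zero cycles
  (`hzeros`), the injectivity of `ev` (`hevinj`) and reciprocity (`hREC : S17T6_RecOut`).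
-/

set_option autoImplicit false
set_option linter.style.haveILetI false
set_option linter.unusedSectionVars false

open MvPolynomial AlgebraicCurve WithZero KaehlerDifferential IntermediateField

namespace Fermat.Agent.S17

open Fermat.Agent.Lib Fermat.Agent.S24

section final

variable {K F : Type} [Field K] [Field F] [Algebra K F] [IsAlgClosed K] [CharZero K]
  {ι : Type} [Fintype ι]

/-- T4 (GEN) in the shape `S17T6_GenOut`. -/
theorem S17T6_genOut (h : RR_Hyp K F) (O : Place K F) (k : ℕ) (hk : 2 ≤ k) (e : ι → F)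
    (i0 i1 il : ι) (he0 : e i0 = 1)
    (hereg : ∀ j, ∀ P : Place K F, P ≠ O → P.adicValuation (e j) ≤ 1)
    (hel : O.adicValuation (e il) = exp (k : ℤ))
    (helow : ∀ j, j ≠ il → O.adicValuation (e j) ≤ exp ((k : ℤ) - 1))
    (hi1 : O.ord (e i1) = -((k : ℤ) - 1))
    (himm : ∀ R : Place K F, R ≠ O → ∃ j, R.ord (e j - algebraMap K F (FD_c0 R (e j))) = 1) :
    S17T6_GenOut (K := K) O k e il := by
  have ht0 : e il ≠ 0 := by
    intro h0
    rw [h0, map_zero] at hel
    exact (exp_ne_zero).symm hel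
  have hkO : O.ord (e il) = -(k : ℤ) := by
    have := O.adicValuation_eq_exp_neg_ord ht0
    rw [hel, exp_inj] at this
    omega
  have ht : Transcendental K (e il) := RR_transcendental_of_pole O (by rw [hkO]; omega)
  obtain ⟨x₀, -, hfin₀, -⟩ := h.exists_x
  haveI : FiniteDimensional K⟮e il⟯ F := BL_finite_of_transcendental hfin₀ ht
  haveI := S17TD_sep (K := K) (e il)
  obtain ⟨W, hW, -⟩ := HW_hurwitz h (e il) ht
  obtain ⟨T, h1, h2, h3⟩ := S17TY_main h O k hk e i0 i1 il he0 hereg hel helow hi1 himm ht W hW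
    (k + 1)
  refine ⟨T, h2, h1, fun a b hab R hR => ?_⟩
  have := h3 a b hab R hR
  rwa [hW] at this

variable [Algebra.IsAlgebraic ℚ K]

/-- **TAN-curve**: the model fields `B`, `tan_ok`, `tanS` (`tan = S17TN_tan (S17TN_Dt (e il)) e`),
modulo reciprocity `hREC`. -/
theorem S17T6_final (h : RR_Hyp K F) (O : Place K F) (k : ℕ) (hk : 2 ≤ k)
    (e : ι → F) (i0 i1 il : ι) (he0 : e i0 = 1)
    (hel : O.adicValuation (e il) = exp (k : ℤ))
    (helow : ∀ j, j ≠ il → O.adicValuation (e j) ≤ exp ((k : ℤ) - 1))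
    (hereg : ∀ j, ∀ P : Place K F, P ≠ O → P.adicValuation (e j) ≤ 1)
    (hi1 : O.ord (e i1) = -((k : ℤ) - 1))
    (himm : ∀ R : Place K F, R ≠ O → ∃ j, R.ord (e j - algebraMap K F (FD_c0 R (e j))) = 1)
    (hli : LinearIndependent K e)
    (hevinj : ∀ P P' : Place K F, P ≠ P' →
      S17H_wedge (S17NGL_ev O e il P) (S17NGL_ev O e il P') ≠ 0)
    (X : S17H_Curve K ι k) (hXI : X.I = S17NGZ_I (K := K) e)
    (hzeros : ∀ c : ι → K, c ≠ 0 → ∃ v : Fin k → Place K F,
      S17H_Fact X.chow c (fun i => S17NGL_ev O e il (v i)) ∧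
      ∀ P, ((S17H_cyc v P : ℕ) : ℤ) =
        P.ord (∑ j, c j • e j) + (k • Finsupp.single O (1 : ℤ)) P)
    (hREC : S17T6_RecOut (K := K) O k e il) :
    ∃ B : Finset (Place K F), O ∈ B ∧
      (∀ Q, Q ∉ B →
        S17H_Tan X.I (S17NGL_ev O e il Q) (S17TN_tan (S17TN_Dt (K := K) (e il)) e Q) ∧
        S17H_wedge (S17NGL_ev O e il Q) (S17TN_tan (S17TN_Dt (K := K) (e il)) e Q) ≠ 0) ∧
      S17H_StmtTAN X (RR_genus K F)
        (fun x x' => ∃ Q, Q ∉ B ∧ x = S17NGL_ev O e il Q ∧
          x' = S17TN_tan (S17TN_Dt (K := K) (e il)) e Q) :=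
  S17T6_main h O k (by omega) e i0 il he0 hel helow hereg hli hevinj X hXI hzeros
    (S17T6_genOut h O k hk e i0 i1 il he0 hereg hel helow hi1 himm) hREC

end final

end Fermat.Agent.S17
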