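import Mathlib

/-!
# TRACK 8 (S17), package CHOW, abstract part (helper2)

The Chow form of a curve from its norm forms, WITHOUT the leading-coefficient formula and without
Weil reciprocity.  Everything here is elementary algebra over an algebraically closed field `K`.

* `S17CH_interp`        interpolation of forms of degree `n` on a finite grid off `X last = 0`
* `S17CH_nonvanishing`  a polynomial without zeros on `{Y last ≠ 0}` is `κ · X_last ^ e`
* `S17CH_chow`          the main construction (see the statement)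
-/

set_option autoImplicit false

open MvPolynomial

namespace Fermat.Agent.S17

/-! ## 0. linear forms -/

/-- the linear form `⟨v, X⟩ = ∑ j, v j * X j` -/
noncomputable def S17CH_lin {K : Type*} [CommSemiring K] {ι : Type*} [Fintype ι] (v : ι → K) :
    MvPolynomial ι K := ∑ j, C (v j) * X j

theorem S17CH_eval_lin {K : Type*} [CommSemiring K] {ι : Type*} [Fintype ι] (v x : ι → K) :
    eval x (S17CH_lin v) = ∑ j, x j * v j := by
  simp only [S17CH_lin, map_sum, map_mul, eval_C, eval_X]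
  exact Finset.sum_congr rfl fun j _ => mul_comm _ _

theorem S17CH_lin_isHomogeneous {K : Type*} [CommSemiring K] {ι : Type*} [Fintype ι]
    (v : ι → K) : (S17CH_lin v).IsHomogeneous 1 := by
  unfold S17CH_lin
  refine IsHomogeneous.sum _ _ _ fun j _ => ?_
  have h := (isHomogeneous_C ι (v j)).mul (isHomogeneous_X K j)
  simpa using h

theorem S17CH_lin_ne_zero {K : Type*} [Field K] {ι : Type*} [Fintype ι] (v : ι → K)
    (hv : v ≠ 0) : S17CH_lin v ≠ 0 := by
  classical
  intro h
  apply hv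
  funext i
  have h1 := congrArg (eval (Pi.single i (1 : K))) h
  rw [S17CH_eval_lin] at h1
  simpa [Pi.single_apply] using h1

/-- two polynomials which agree off a coordinate hyperplane are equal -/
theorem S17CH_ext_off {K : Type*} [Field K] [Infinite K] {ι : Type*} (last : ι)
    (p q : MvPolynomial ι K) (h : ∀ x : ι → K, x last ≠ 0 → eval x p = eval x q) : p = q := by
  have h1 : (p - q) * X last = 0 := by
    apply MvPolynomial.funext
    intro x
    by_cases hx : x last = 0
    · simp [hx]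
    · simp [h x hx]
  rcases mul_eq_zero.1 h1 with h2 | h2
  · exact sub_eq_zero.1 h2
  · exact absurd h2 (X_ne_zero last)

/-! ## 1. interpolation of forms on a grid -/

theorem S17CH_interp {K : Type*} [Field K] [Infinite K] {ι : Type*} [Fintype ι] (last : ι)
    (n : ℕ) :
    ∃ (node : Finset (ι → K)) (L : (ι → K) → MvPolynomial ι K),
      (∀ x ∈ node, x last ≠ 0) ∧ (∀ x, (L x).IsHomogeneous n) ∧
      ∀ H : MvPolynomial ι K, H.IsHomogeneous n → H = ∑ x ∈ node, C (eval x H) * L x := by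
  classical
  -- a set of `n + 1` nonzero scalars
  have hinf : ({x : K | x ≠ 0} : Set K).Infinite := by
    have h := (Set.infinite_univ (α := K)).sdiff (Set.finite_singleton (0 : K))
    refine h.mono ?_
    intro x hx
    simpa using hx.2
  obtain ⟨S, hS, hcard⟩ := hinf.exists_subset_card_eq (n + 1)
  let node : Finset (ι → K) := Fintype.piFinset fun _ => S
  -- the evaluation map
  let E : homogeneousSubmodule ι K n →ₗ[K] (node → K) :=
    { toFun := fun H x => eval x.1 H.1
      map_add' := fun H H' => by funext x; simp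
      map_smul' := fun a H => by funext x; simp [smul_eval] }
  have hE : LinearMap.ker E = ⊥ := by
    rw [LinearMap.ker_eq_bot']
    rintro ⟨H, hH⟩ h0
    have hH' : H.IsHomogeneous n := (mem_homogeneousSubmodule n H).1 hH
    have : H = 0 := by
      refine eq_zero_of_eval_zero_at_prod_finset H (fun _ => S) (fun i => ?_) fun x hx => ?_
      · calc H.degreeOf i ≤ H.totalDegree := degreeOf_le_totalDegree H i
          _ ≤ n := hH'.totalDegree_le
          _ < S.card := by rw [hcard]; exact Nat.lt_succ_self n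
      · have hx' : x ∈ node := Fintype.mem_piFinset.2 hx
        exact congrFun h0 ⟨x, hx'⟩
    exact Subtype.ext this
  obtain ⟨g, hg⟩ := E.exists_leftInverse_of_injective hE
  let L : (ι → K) → MvPolynomial ι K := fun x =>
    if hx : x ∈ node then (g (Pi.single ⟨x, hx⟩ 1)).1 else 0
  refine ⟨node, L, ?_, ?_, ?_⟩
  · intro x hx
    exact hS (Fintype.mem_piFinset.1 hx last)
  · intro x
    by_cases hx : x ∈ node
    · simp only [L, dif_pos hx]
      exact (mem_homogeneousSubmodule n _).1 (g (Pi.single ⟨x, hx⟩ 1)).2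
    · simp only [L, dif_neg hx]
      exact isHomogeneous_zero _ _ _
  · intro H hH
    have h1 : g (E ⟨H, (mem_homogeneousSubmodule n H).2 hH⟩) = ⟨H, (mem_homogeneousSubmodule n H).2 hH⟩ :=
      LinearMap.congr_fun hg _
    have h2 : E ⟨H, (mem_homogeneousSubmodule n H).2 hH⟩
        = ∑ x : node, (eval x.1 H) • (Pi.single x (1 : K) : node → K) := by
      funext y
      simp only [E, LinearMap.coe_mk, AddHom.coe_mk, Finset.sum_apply, Pi.smul_apply,
        Pi.single_apply, smul_eq_mul, mul_ite, mul_one, mul_zero]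
      rw [Finset.sum_ite_eq]
      simp
    rw [h2, map_sum] at h1
    have h3 := congrArg Subtype.val h1
    simp only [map_smul] at h3
    rw [AddSubmonoidClass.coe_finsetSum] at h3
    have h4 : ∑ x ∈ node, C (eval x H) * L x = ∑ x : node, C (eval x.1 H) * L x.1 :=
      (Finset.sum_coe_sort node (fun x => C (eval x H) * L x)).symm
    rw [h4]
    refine h3.symm.trans (Finset.sum_congr rfl fun x _ => ?_)
    simp only [L, dif_pos x.2, Submodule.coe_smul, smul_eq_C_mul]

/-! ## 2. polynomials without zeros off a coordinate hyperplane -/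

/-- restriction of a polynomial to the line `s ↦ y + s • v` -/
noncomputable def S17CH_line {K : Type*} [CommSemiring K] {ι : Type*} (y v : ι → K)
    (w : MvPolynomial ι K) : Polynomial K :=
  eval₂ Polynomial.C (fun j => Polynomial.C (y j) + Polynomial.C (v j) * Polynomial.X) w

theorem S17CH_eval_line {K : Type*} [CommSemiring K] {ι : Type*} (y v : ι → K)
    (w : MvPolynomial ι K) (s : K) :
    Polynomial.eval s (S17CH_line y v w) = eval (fun j => y j + v j * s) w := by
  unfold S17CH_line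
  have h := eval₂_comp_left (Polynomial.evalRingHom s) (Polynomial.C : K →+* Polynomial K)
    (fun j => Polynomial.C (y j) + Polynomial.C (v j) * Polynomial.X) w
  simp only [Polynomial.coe_evalRingHom] at h
  rw [h]
  have h1 : (Polynomial.evalRingHom s).comp (Polynomial.C : K →+* Polynomial K)
      = RingHom.id K := by
    ext a; simp
  rw [h1]
  have h2 : (Polynomial.eval s ∘ fun j => Polynomial.C (y j) + Polynomial.C (v j) * Polynomial.X)
      = fun j => y j + v j * s := by
    funext j; simp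
  rw [h2, eval₂_id]

/-- over an algebraically closed field a univariate polynomial without roots is a nonzero
constant -/
theorem S17CH_const_of_no_root {K : Type*} [Field K] [IsAlgClosed K] (p : Polynomial K)
    (hp : ∀ s, Polynomial.eval s p ≠ 0) : ∃ κ : K, κ ≠ 0 ∧ p = Polynomial.C κ := by
  have hdeg : p.degree = 0 := by
    by_contra h
    obtain ⟨s, hs⟩ := IsAlgClosed.exists_root p h
    exact hp s hs
  have h1 := Polynomial.eq_C_of_degree_eq_zero hdeg
  refine ⟨p.coeff 0, ?_, h1⟩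
  intro h0
  apply hp 0
  rw [h1, h0]
  simp

theorem S17CH_nonvanishing {K : Type*} [Field K] [IsAlgClosed K] {ι : Type*} (last : ι)
    (w : MvPolynomial ι K) (hw : ∀ Y : ι → K, Y last ≠ 0 → eval Y w ≠ 0) :
    ∃ (κ : K) (e : ℕ), κ ≠ 0 ∧ w = C κ * X last ^ e := by
  classical
  have : Infinite K := IsAlgClosed.instInfinite
  -- Step A: `w` is constant along directions inside the hyperplane
  have hA : ∀ Y v : ι → K, Y last ≠ 0 → v last = 0 →
      eval (fun j => Y j + v j) w = eval Y w := by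
    intro Y v hY hv
    obtain ⟨κ, -, hκ⟩ := S17CH_const_of_no_root (S17CH_line Y v w) (fun s => by
      rw [S17CH_eval_line]
      apply hw
      simp [hv, hY])
    have h1 := S17CH_eval_line Y v w 1
    have h0 := S17CH_eval_line Y v w 0
    rw [hκ] at h1 h0
    simp only [Polynomial.eval_C, mul_one, mul_zero, add_zero] at h1 h0
    rw [← h1, ← h0]
  -- Step B: the restriction to the axis
  set q : Polynomial K := S17CH_line 0 (Pi.single last 1) w with hq
  have hq_eval : ∀ s, Polynomial.eval s q = eval (fun j => (Pi.single last (1 : K) : ι → K) j * s) w := by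
    intro s
    rw [hq, S17CH_eval_line]
    simp
  have hq_ne : ∀ s, s ≠ 0 → Polynomial.eval s q ≠ 0 := by
    intro s hs
    rw [hq_eval]
    apply hw
    simpa using hs
  have hq0 : q ≠ 0 := by
    intro h
    apply hq_ne 1 one_ne_zero
    rw [h]; simp
  obtain ⟨q₁, hq₁, hndvd⟩ := Polynomial.exists_eq_pow_rootMultiplicity_mul_and_not_dvd q hq0 0
  set e := q.rootMultiplicity 0 with he
  simp only [map_zero, sub_zero] at hq₁ hndvd
  obtain ⟨κ, hκ, hκq⟩ := S17CH_const_of_no_root q₁ (fun s => by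
    by_cases hs : s = 0
    · subst hs
      intro h
      apply hndvd
      rw [Polynomial.X_dvd_iff, Polynomial.coeff_zero_eq_eval_zero]
      exact h
    · intro h
      apply hq_ne s hs
      rw [hq₁, Polynomial.eval_mul, h, mul_zero])
  refine ⟨κ, e, hκ, ?_⟩
  apply S17CH_ext_off last
  intro Y hY
  have h1 := hA (fun j => (Pi.single last (1 : K) : ι → K) j * Y last)
    (fun j => Y j - (Pi.single last (1 : K) : ι → K) j * Y last) (by simpa using hY) (by simp)
  have h2 : (fun j => (Pi.single last (1 : K) : ι → K) j * Y last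
      + (Y j - (Pi.single last (1 : K) : ι → K) j * Y last)) = Y := by
    funext j; ring
  rw [h2] at h1
  rw [h1, ← hq_eval, hq₁, hκq]
  simp [mul_comm]

/-! ## 3. univariate preliminaries -/

/-- the polynomial `lc · ∏_{r ∈ s} (X - r)` -/
noncomputable def S17CH_pp {K : Type*} [Field K] (lc : K) (s : Multiset K) : Polynomial K :=
  Polynomial.C lc * (s.map fun r => Polynomial.X - Polynomial.C r).prod

theorem S17CH_pp_eval {K : Type*} [Field K] (lc : K) (s : Multiset K) (a : K) :
    (S17CH_pp lc s).eval a = lc * (s.map fun r => a - r).prod := by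
  unfold S17CH_pp
  rw [Polynomial.eval_mul, Polynomial.eval_C, Polynomial.eval_multiset_prod, Multiset.map_map]
  congr 2
  refine Multiset.map_congr rfl fun r _ => ?_
  simp

theorem S17CH_pp_natDegree_le {K : Type*} [Field K] (lc : K) (s : Multiset K) :
    (S17CH_pp lc s).natDegree ≤ Multiset.card s := by
  unfold S17CH_pp
  refine (Polynomial.natDegree_C_mul_le _ _).trans ?_
  rw [Polynomial.natDegree_multiset_prod_X_sub_C_eq_card]

theorem S17CH_pp_coeff {K : Type*} [Field K] (lc : K) (s : Multiset K) :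
    (S17CH_pp lc s).coeff (Multiset.card s) = lc := by
  unfold S17CH_pp
  rw [Polynomial.coeff_C_mul]
  have hm : (s.map fun r => Polynomial.X - Polynomial.C r).prod.Monic :=
    Polynomial.monic_multiset_prod_of_monic _ _ fun r _ => Polynomial.monic_X_sub_C r
  have h := hm.coeff_natDegree
  rw [Polynomial.natDegree_multiset_prod_X_sub_C_eq_card] at h
  rw [h, mul_one]

/-- the top coefficient of a family of polynomials `a ↦ eval c (g a)` is a polynomial in `c` -/
theorem S17CH_top_coeff {K : Type*} [Field K] [Infinite K] {ι₁ : Type*} (n k : ℕ)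
    (g : K → MvPolynomial ι₁ K) (hg : ∀ a, (g a).IsHomogeneous k) :
    ∃ ℓ : MvPolynomial ι₁ K, ℓ.IsHomogeneous k ∧
      ∀ (c : ι₁ → K) (p : Polynomial K), p.natDegree ≤ n →
        (∀ a, p.eval a = eval c (g a)) → eval c ℓ = p.coeff n := by
  classical
  obtain ⟨S, hS⟩ := Infinite.exists_subset_card_eq K (n + 1)
  refine ⟨∑ a ∈ S, C ((Lagrange.basis S id a).coeff n) * g a, ?_, ?_⟩
  · refine IsHomogeneous.sum _ _ _ fun a _ => ?_
    have h := (isHomogeneous_C ι₁ ((Lagrange.basis S id a).coeff n)).mul (hg a)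
    simpa using h
  · intro c p hp hpe
    have hdeg : p.degree < S.card := by
      rw [hS]
      refine lt_of_le_of_lt Polynomial.degree_le_natDegree ?_
      exact_mod_cast Nat.lt_succ_of_le hp
    have h1 := Lagrange.eq_interpolate (s := S) (v := id) (f := p)
      (Function.injective_id.injOn) hdeg
    have h2 : p.coeff n = ∑ a ∈ S, p.eval a * (Lagrange.basis S id a).coeff n := by
      conv_lhs => rw [h1]
      rw [Lagrange.interpolate_apply, Polynomial.finsetSum_coeff]
      refine Finset.sum_congr rfl fun a _ => ?_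
      rw [Polynomial.coeff_C_mul]
      rfl
    rw [h2, map_sum]
    refine Finset.sum_congr rfl fun a _ => ?_
    rw [map_mul, eval_C, hpe a, mul_comm]

/-! ## 3b. bihomogeneity and products of linear forms -/

/-- weighted homogeneity is transported by `rename` -/
theorem S17CH_isWH_rename {R σ τ M : Type*} [CommSemiring R] [AddCommMonoid M] (f : σ → τ)
    (w : τ → M) (φ : MvPolynomial σ R) (m : M) (h : IsWeightedHomogeneous (w ∘ f) φ m) :
    IsWeightedHomogeneous w (rename f φ) m := by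
  intro d' hd'
  obtain ⟨d, rfl, hd⟩ := coeff_rename_ne_zero f φ d' hd'
  rw [← h hd]
  exact Finsupp.linearCombination_mapDomain (R := ℕ) (v' := w) f d

/-- the weight counting the left variables -/
def S17CH_wl (ι₁ ι : Type*) : ι₁ ⊕ ι → ℕ := Sum.elim (fun _ => 1) (fun _ => 0)

/-- the weight counting the right variables -/
def S17CH_wr (ι₁ ι : Type*) : ι₁ ⊕ ι → ℕ := Sum.elim (fun _ => 0) (fun _ => 1)

theorem S17CH_weight_wl {ι₁ ι : Type*} [Fintype ι₁] [Fintype ι] (d : ι₁ ⊕ ι →₀ ℕ) :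
    Finsupp.weight (S17CH_wl ι₁ ι) d = ∑ i, d (Sum.inl i) := by
  rw [Finsupp.weight_apply, Finsupp.sum_fintype _ _ (fun i => by simp), Fintype.sum_sum_type]
  simp [S17CH_wl]

theorem S17CH_weight_wr {ι₁ ι : Type*} [Fintype ι₁] [Fintype ι] (d : ι₁ ⊕ ι →₀ ℕ) :
    Finsupp.weight (S17CH_wr ι₁ ι) d = ∑ i, d (Sum.inr i) := by
  rw [Finsupp.weight_apply, Finsupp.sum_fintype _ _ (fun i => by simp), Fintype.sum_sum_type]
  simp [S17CH_wr]

theorem S17CH_isWH_zero {R σ : Type*} [CommSemiring R] (φ : MvPolynomial σ R) :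
    IsWeightedHomogeneous (fun _ : σ => (0 : ℕ)) φ 0 := by
  intro d _
  simp [Finsupp.weight_apply, Finsupp.sum]

/-- `f(c) · g(X)` is bihomogeneous -/
theorem S17CH_bihom_mul {K : Type*} [CommSemiring K] {ι₁ ι : Type*} [Fintype ι₁] [Fintype ι]
    (f : MvPolynomial ι₁ K) (g : MvPolynomial ι K) (N₁ N₂ : ℕ) (hf : f.IsHomogeneous N₁)
    (hg : g.IsHomogeneous N₂) :
    IsWeightedHomogeneous (S17CH_wl ι₁ ι) (rename Sum.inl f * rename Sum.inr g) N₁ ∧
    IsWeightedHomogeneous (S17CH_wr ι₁ ι) (rename Sum.inl f * rename Sum.inr g) N₂ := by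
  constructor
  · have h1 : IsWeightedHomogeneous (S17CH_wl ι₁ ι) (rename Sum.inl f) N₁ :=
      S17CH_isWH_rename _ _ _ _ hf
    have h2 : IsWeightedHomogeneous (S17CH_wl ι₁ ι) (rename Sum.inr g) 0 :=
      S17CH_isWH_rename _ _ _ _ (S17CH_isWH_zero g)
    simpa using h1.mul h2
  · have h1 : IsWeightedHomogeneous (S17CH_wr ι₁ ι) (rename Sum.inl f) 0 :=
      S17CH_isWH_rename _ _ _ _ (S17CH_isWH_zero f)
    have h2 : IsWeightedHomogeneous (S17CH_wr ι₁ ι) (rename Sum.inr g) N₂ :=
      S17CH_isWH_rename _ _ _ _ hg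
    simpa using h1.mul h2

/-- a product of (negated) linear forms is a form -/
theorem S17CH_prod_lin_hom {K : Type*} [CommRing K] {ι : Type*} [Fintype ι]
    (s : Multiset (ι → K)) :
    ((s.map fun v => -S17CH_lin v).prod).IsHomogeneous (Multiset.card s) := by
  induction s using Multiset.induction_on with
  | empty => simpa using isHomogeneous_one ι K
  | cons v s ih =>
    rw [Multiset.map_cons, Multiset.prod_cons, Multiset.card_cons, add_comm]
    exact ((S17CH_lin_isHomogeneous v).neg).mul ih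

theorem S17CH_prod_lin_ne_zero {K : Type*} [Field K] {ι : Type*} [Fintype ι]
    (s : Multiset (ι → K)) (hs : ∀ v ∈ s, v ≠ 0) :
    (s.map fun v => -S17CH_lin v).prod ≠ 0 := by
  apply Multiset.prod_ne_zero
  intro h
  obtain ⟨v, hv, hv0⟩ := Multiset.mem_map.1 h
  exact S17CH_lin_ne_zero v (hs v hv) (neg_eq_zero.1 hv0)

theorem S17CH_eval_prod_lin {K : Type*} [CommRing K] {ι : Type*} [Fintype ι]
    (s : Multiset (ι → K)) (x : ι → K) :
    eval x (s.map fun v => -S17CH_lin v).prod = (s.map fun v => -∑ j, x j * v j).prod := by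
  rw [map_multiset_prod, Multiset.map_map]
  congr 1
  refine Multiset.map_congr rfl fun v _ => ?_
  simp [S17CH_eval_lin]

/-! ## 3c. the shift `P(Y - a ε₀)` -/

/-- `P(Y - a ε₀)` as a polynomial in `a` with coefficients in `K[Y]` -/
noncomputable def S17CH_shift {K : Type*} [CommRing K] {ι : Type*} (ε₀ : ι → K)
    (P : MvPolynomial ι K) : Polynomial (MvPolynomial ι K) :=
  eval₂ (Polynomial.C.comp C)
    (fun j => Polynomial.C (X j) - Polynomial.C (C (ε₀ j)) * Polynomial.X) P

theorem S17CH_shift_eval {K : Type*} [CommRing K] {ι : Type*} (ε₀ : ι → K)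
    (P : MvPolynomial ι K) (Y : ι → K) (a : K) :
    Polynomial.eval a (Polynomial.map (eval Y) (S17CH_shift ε₀ P))
      = eval (fun j => Y j - a * ε₀ j) P := by
  unfold S17CH_shift
  have h := eval₂_comp_left
    ((Polynomial.evalRingHom a).comp (Polynomial.mapRingHom (eval Y)))
    ((Polynomial.C.comp C : K →+* Polynomial (MvPolynomial ι K)))
    (fun j => Polynomial.C (X j) - Polynomial.C (C (ε₀ j)) * Polynomial.X) P
  simp only [RingHom.coe_comp, Function.comp_apply, Polynomial.coe_evalRingHom,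
    Polynomial.coe_mapRingHom] at h
  rw [h]
  have h1 : ((Polynomial.evalRingHom a).comp (Polynomial.mapRingHom (eval Y))).comp
      ((Polynomial.C.comp C : K →+* Polynomial (MvPolynomial ι K))) = RingHom.id K := by
    refine RingHom.ext fun x => ?_
    simp only [RingHom.comp_apply, Polynomial.coe_evalRingHom, Polynomial.coe_mapRingHom,
      Polynomial.map_C, Polynomial.eval_C, eval_C, RingHom.id_apply]
  have h2 : ((Polynomial.eval a ∘ Polynomial.map (eval Y)) ∘
      fun j => Polynomial.C (X j) - Polynomial.C (C (ε₀ j)) * Polynomial.X)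
      = fun j => Y j - a * ε₀ j := by
    funext j
    simp only [Function.comp_apply, Polynomial.map_sub, Polynomial.map_mul, Polynomial.map_C,
      Polynomial.map_X, Polynomial.eval_sub, Polynomial.eval_mul, Polynomial.eval_C,
      Polynomial.eval_X, eval_X, eval_C]
    ring
  rw [h2]
  exact (congrArg (fun f => eval₂ f (fun j => Y j - a * ε₀ j) P) h1).trans (eval₂_id _)

/-! ## 4. the abstract norm data of a curve -/

/-- The abstract norm data.
`c : ι₁ → K` are the coordinates of `φ_c ∈ L(μ k O)` (`top` = the coordinate of exact pole order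
`μ k`), `X : ι → K` the coordinates of `t_X ∈ L(k O)` (`last` = the coordinate of exact pole order
`k`), `ε₀` the coordinates of the constant `1`, `Pl` the places `≠ O`, `ev P` the values of the
basis of `L(k O)` at `P`, `Z c` the zeros of `φ_c` with multiplicities, and
`eval c (G X) = N_{F/K(t_X)}(φ_c)(0)`. -/
structure S17CH_Data (K : Type*) [Field K] (ι₁ ι Pl : Type*) [Fintype ι₁] [Fintype ι] where
  /-- the coordinate of exact pole order `μ k` -/
  top : ι₁
  /-- the coordinate of exact pole order `k` -/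
  last : ι
  /-- the degree of the embedding -/
  k : ℕ
  /-- the multiplier -/
  μ : ℕ
  /-- the coordinates of the constant function `1` -/
  ε₀ : ι → K
  /-- the values of the basis at a place -/
  ev : Pl → ι → K
  /-- the zeros of `φ_c` -/
  Z : (ι₁ → K) → Multiset Pl
  /-- the norm form -/
  G : (ι → K) → MvPolynomial ι₁ K
  ε₀_last : ε₀ last = 0
  ev_ε₀ : ∀ P, ∑ j, ε₀ j * ev P j = 1
  card_top : ∀ c : ι₁ → K, c top ≠ 0 → Multiset.card (Z c) = μ * k
  G_hom : ∀ X : ι → K, X last ≠ 0 → (G X).IsHomogeneous k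
  norm_eq : ∀ Y : ι → K, Y last ≠ 0 → ∀ c : ι₁ → K, c ≠ 0 → ∃ lc : K, lc ≠ 0 ∧
    ∀ a : K, eval c (G fun j => Y j - a * ε₀ j)
      = lc * ((Z c).map fun R => a - ∑ j, Y j * ev R j).prod
  norm_pow : ∃ γ : K, γ ≠ 0 ∧ ∀ Y : ι → K, Y last ≠ 0 → ∃ c' : ι₁ → K,
    c' top = γ * Y last ^ μ ∧ ∀ a : K, eval c' (G fun j => Y j - a * ε₀ j) = a ^ (μ * k)

namespace S17CH_Data

variable {K : Type*} [Field K] {ι₁ ι Pl : Type*} [Fintype ι₁] [Fintype ι]

theorem shift_last (D : S17CH_Data K ι₁ ι Pl) (Y : ι → K) (a : K) :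
    (fun j => Y j - a * D.ε₀ j) D.last = Y D.last := by
  simp [D.ε₀_last]

theorem norm_eq_pp (D : S17CH_Data K ι₁ ι Pl) (Y : ι → K) (hY : Y D.last ≠ 0) (c : ι₁ → K)
    (hc : c ≠ 0) : ∃ lc : K, lc ≠ 0 ∧ ∀ a : K, eval c (D.G fun j => Y j - a * D.ε₀ j)
      = (S17CH_pp lc ((D.Z c).map fun R => ∑ j, Y j * D.ev R j)).eval a := by
  obtain ⟨lc, hlc, h⟩ := D.norm_eq Y hY c hc
  refine ⟨lc, hlc, fun a => ?_⟩
  rw [h a, S17CH_pp_eval, Multiset.map_map]
  rfl

/-- **Step 1**: for `c top ≠ 0` the function `X ↦ X_last ^ (μ k) · N_X(φ_c)(0)` is a form. -/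
theorem step1 [IsAlgClosed K] (D : S17CH_Data K ι₁ ι Pl) :
    ∃ γ : K, γ ≠ 0 ∧ ∀ (X : ι → K) (c : ι₁ → K), X D.last ≠ 0 → c D.top ≠ 0 →
      X D.last ^ (D.μ * D.k) * eval c (D.G X)
        = (c D.top / γ) ^ D.k * ((D.Z c).map fun R => -∑ j, X j * D.ev R j).prod := by
  classical
  have : Infinite K := IsAlgClosed.instInfinite
  obtain ⟨γ, hγ, hnp⟩ := D.norm_pow
  refine ⟨γ, hγ, fun Y c hY hc => ?_⟩
  have hc0 : c ≠ 0 := fun h => hc (by rw [h]; rfl)
  -- the top coefficient as a polynomial in `c`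
  obtain ⟨ℓ, hℓhom, hℓ⟩ := S17CH_top_coeff (D.μ * D.k) D.k
    (fun a => D.G fun j => Y j - a * D.ε₀ j)
    (fun a => D.G_hom _ (by simpa [D.ε₀_last] using hY))
  have key : ∀ c : ι₁ → K, c D.top ≠ 0 → ∃ lc : K, lc ≠ 0 ∧ eval c ℓ = lc ∧
      ∀ a : K, eval c (D.G fun j => Y j - a * D.ε₀ j)
        = (S17CH_pp lc ((D.Z c).map fun R => ∑ j, Y j * D.ev R j)).eval a := by
    intro c hc
    have hc0 : c ≠ 0 := fun h => hc (by rw [h]; rfl)
    obtain ⟨lc, hlc, h⟩ := D.norm_eq_pp Y hY c hc0
    refine ⟨lc, hlc, ?_, h⟩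
    have hcard : Multiset.card ((D.Z c).map fun R => ∑ j, Y j * D.ev R j) = D.μ * D.k := by
      rw [Multiset.card_map, D.card_top c hc]
    have h1 := hℓ c (S17CH_pp lc ((D.Z c).map fun R => ∑ j, Y j * D.ev R j))
      (by rw [← hcard]; exact S17CH_pp_natDegree_le _ _) (fun a => (h a).symm)
    rw [h1, ← hcard, S17CH_pp_coeff]
  have hℓne : ∀ c : ι₁ → K, c D.top ≠ 0 → eval c ℓ ≠ 0 := by
    intro c hc
    obtain ⟨lc, hlc, h1, -⟩ := key c hc
    rw [h1]; exact hlc
  obtain ⟨α, e, hα, hℓeq⟩ := S17CH_nonvanishing D.top ℓ hℓne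
  have hℓ0 : ℓ ≠ 0 := by
    rw [hℓeq]
    exact mul_ne_zero (by simpa using hα) (pow_ne_zero _ (X_ne_zero _))
  have he : e = D.k := by
    have h1 : ℓ.IsHomogeneous (0 + 1 * e) := by
      rw [hℓeq]
      exact (isHomogeneous_C ι₁ α).mul ((isHomogeneous_X K D.top).pow e)
    have h2 := h1.inj_right hℓhom hℓ0
    omega
  subst he
  -- normalisation
  obtain ⟨c', hc'top, hc'⟩ := hnp Y hY
  have hc'ne : c' D.top ≠ 0 := by
    rw [hc'top]
    exact mul_ne_zero hγ (pow_ne_zero _ hY)
  obtain ⟨lc', -, hlc'1, hlc'2⟩ := key c' hc'ne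
  have hcard' : Multiset.card ((D.Z c').map fun R => ∑ j, Y j * D.ev R j) = D.μ * D.k := by
    rw [Multiset.card_map, D.card_top c' hc'ne]
  have hpp : S17CH_pp lc' ((D.Z c').map fun R => ∑ j, Y j * D.ev R j)
      = Polynomial.X ^ (D.μ * D.k) := by
    apply Polynomial.funext
    intro a
    rw [← hlc'2 a, hc' a]
    simp
  have hlc'one : lc' = 1 := by
    have h1 := S17CH_pp_coeff lc' ((D.Z c').map fun R => ∑ j, Y j * D.ev R j)
    rw [hpp, hcard'] at h1
    simpa using h1.symm
  have hα1 : α * (γ * Y D.last ^ D.μ) ^ D.k = 1 := by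
    have h1 := hlc'1
    rw [hℓeq, hlc'one] at h1
    simpa [hc'top] using h1
  -- the formula
  obtain ⟨lc, -, hlc1, hlc2⟩ := key c hc
  have h0 := hlc2 0
  have hY0 : (fun j => Y j - 0 * D.ε₀ j) = Y := by funext j; simp
  rw [hY0, S17CH_pp_eval, Multiset.map_map] at h0
  have hlc : lc = α * c D.top ^ D.k := by
    rw [← hlc1, hℓeq]; simp
  rw [h0, hlc]
  have h3 : ((D.Z c).map ((fun r => 0 - r) ∘ fun R => ∑ j, Y j * D.ev R j)).prod
      = ((D.Z c).map fun R => -∑ j, Y j * D.ev R j).prod := by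
    congr 1
    refine Multiset.map_congr rfl fun R _ => ?_
    simp
  rw [h3, div_pow]
  have hγk : γ ^ D.k ≠ 0 := pow_ne_zero _ hγ
  have h4 : Y D.last ^ (D.μ * D.k) * α = 1 / γ ^ D.k := by
    rw [eq_div_iff hγk]
    rw [mul_pow, ← pow_mul] at hα1
    linear_combination hα1
  calc Y D.last ^ (D.μ * D.k) * (α * c D.top ^ D.k *
        ((D.Z c).map fun R => -∑ j, Y j * D.ev R j).prod)
      = (Y D.last ^ (D.μ * D.k) * α) * c D.top ^ D.k *
        ((D.Z c).map fun R => -∑ j, Y j * D.ev R j).prod := by ring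
    _ = _ := by rw [h4]; ring

theorem ev_ne_zero (D : S17CH_Data K ι₁ ι Pl) (R : Pl) : D.ev R ≠ 0 := by
  intro h
  have h1 := D.ev_ε₀ R
  rw [h] at h1
  simp at h1

/-- **Step 2**: the Chow form, and the second formula `𝒞(c, X) = X_last ^ (μ k) · N_X(φ_c)(0)`. -/
theorem step2 [IsAlgClosed K] (D : S17CH_Data K ι₁ ι Pl) :
    ∃ 𝒞 : MvPolynomial (ι₁ ⊕ ι) K,
      (IsWeightedHomogeneous (S17CH_wl ι₁ ι) 𝒞 D.k ∧
        IsWeightedHomogeneous (S17CH_wr ι₁ ι) 𝒞 (D.μ * D.k)) ∧
      (∀ c : ι₁ → K, ∃ P : MvPolynomial ι K, P.IsHomogeneous (D.μ * D.k) ∧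
        ∀ X : ι → K, eval X P = eval (Sum.elim c X) 𝒞) ∧
      ∀ (X : ι → K), X D.last ≠ 0 → ∀ c : ι₁ → K,
        eval (Sum.elim c X) 𝒞 = X D.last ^ (D.μ * D.k) * eval c (D.G X) := by
  classical
  have : Infinite K := IsAlgClosed.instInfinite
  obtain ⟨γ, hγ, h1⟩ := D.step1
  obtain ⟨node, L, hnode, hL, hint⟩ := S17CH_interp (K := K) D.last (D.μ * D.k)
  set 𝒞 : MvPolynomial (ι₁ ⊕ ι) K :=
    ∑ x ∈ node, rename Sum.inl (C (x D.last ^ (D.μ * D.k)) * D.G x) * rename Sum.inr (L x)
    with h𝒞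
  have hGx : ∀ x ∈ node, (C (x D.last ^ (D.μ * D.k)) * D.G x).IsHomogeneous D.k := by
    intro x hx
    have h := (isHomogeneous_C ι₁ (x D.last ^ (D.μ * D.k))).mul (D.G_hom x (hnode x hx))
    simpa using h
  have heval : ∀ (c : ι₁ → K) (X : ι → K), eval (Sum.elim c X) 𝒞
      = ∑ x ∈ node, (x D.last ^ (D.μ * D.k) * eval c (D.G x)) * eval X (L x) := by
    intro c X
    rw [h𝒞, map_sum]
    refine Finset.sum_congr rfl fun x _ => ?_
    rw [map_mul, eval_rename, eval_rename, Sum.elim_comp_inl, Sum.elim_comp_inr, map_mul,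
      eval_C]
  -- the forms `H_c`
  have hH : ∀ c : ι₁ → K, c D.top ≠ 0 → ∀ X : ι → K, eval (Sum.elim c X) 𝒞
      = (c D.top / γ) ^ D.k * ((D.Z c).map fun R => -∑ j, X j * D.ev R j).prod := by
    intro c hc X
    set H : MvPolynomial ι K :=
      C ((c D.top / γ) ^ D.k) * (((D.Z c).map D.ev).map fun v => -S17CH_lin v).prod with hHdef
    have hHhom : H.IsHomogeneous (D.μ * D.k) := by
      have h := (isHomogeneous_C ι ((c D.top / γ) ^ D.k)).mul
        (S17CH_prod_lin_hom ((D.Z c).map D.ev))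
      rw [Multiset.card_map, D.card_top c hc, zero_add] at h
      exact h
    have hHeval : ∀ x : ι → K, eval x H
        = (c D.top / γ) ^ D.k * ((D.Z c).map fun R => -∑ j, x j * D.ev R j).prod := by
      intro x
      rw [hHdef, map_mul, eval_C, S17CH_eval_prod_lin, Multiset.map_map]
      rfl
    rw [heval, ← hHeval X]
    conv_rhs => rw [hint H hHhom]
    rw [map_sum]
    refine Finset.sum_congr rfl fun x hx => ?_
    rw [map_mul, eval_C, h1 x c (hnode x hx) hc, hHeval x]
  refine ⟨𝒞, ?_, ?_, ?_⟩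
  · constructor
    · rw [h𝒞]
      exact IsWeightedHomogeneous.sum _ _ _ fun x hx =>
        (S17CH_bihom_mul _ _ _ _ (hGx x hx) (hL x)).1
    · rw [h𝒞]
      exact IsWeightedHomogeneous.sum _ _ _ fun x hx =>
        (S17CH_bihom_mul _ _ _ _ (hGx x hx) (hL x)).2
  · intro c
    refine ⟨∑ x ∈ node, C (x D.last ^ (D.μ * D.k) * eval c (D.G x)) * L x, ?_, ?_⟩
    · refine IsHomogeneous.sum _ _ _ fun x _ => ?_
      have h := (isHomogeneous_C ι (x D.last ^ (D.μ * D.k) * eval c (D.G x))).mul (hL x)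
      simpa using h
    · intro X
      rw [heval, map_sum]
      refine Finset.sum_congr rfl fun x _ => ?_
      rw [map_mul, eval_C]
  · intro X hX c
    -- two polynomials in `c` which agree on `c top ≠ 0`
    have h2 : (∑ x ∈ node, C (x D.last ^ (D.μ * D.k) * eval X (L x)) * D.G x)
        = C (X D.last ^ (D.μ * D.k)) * D.G X := by
      apply S17CH_ext_off D.top
      intro c hc
      have h3 := hH c hc X
      rw [heval] at h3
      rw [map_mul, eval_C, h1 X c hX hc, ← h3, map_sum]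
      refine Finset.sum_congr rfl fun x _ => ?_
      rw [map_mul, eval_C]
      ring
    have h4 := congrArg (eval c) h2
    rw [map_mul, eval_C, map_sum] at h4
    rw [heval, ← h4]
    refine Finset.sum_congr rfl fun x _ => ?_
    rw [map_mul, eval_C]
    ring

/-- **Step 3**: the first formula, for ALL `c ≠ 0`. -/
theorem step3 [IsAlgClosed K] (D : S17CH_Data K ι₁ ι Pl) (𝒞 : MvPolynomial (ι₁ ⊕ ι) K)
    (h2 : ∀ c : ι₁ → K, ∃ P : MvPolynomial ι K, P.IsHomogeneous (D.μ * D.k) ∧
        ∀ X : ι → K, eval X P = eval (Sum.elim c X) 𝒞)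
    (h3 : ∀ (X : ι → K), X D.last ≠ 0 → ∀ c : ι₁ → K,
        eval (Sum.elim c X) 𝒞 = X D.last ^ (D.μ * D.k) * eval c (D.G X))
    (c : ι₁ → K) (hc : c ≠ 0) :
    Multiset.card (D.Z c) ≤ D.μ * D.k ∧ ∃ κ : K, κ ≠ 0 ∧ ∀ X : ι → K, eval (Sum.elim c X) 𝒞
      = κ * X D.last ^ (D.μ * D.k - Multiset.card (D.Z c))
          * ((D.Z c).map fun R => ∑ j, X j * D.ev R j).prod := by
  classical
  have : Infinite K := IsAlgClosed.instInfinite
  obtain ⟨P, hPhom, hP⟩ := h2 c
  set d := Multiset.card (D.Z c) with hd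
  set w : MvPolynomial ι K := (S17CH_shift D.ε₀ P).coeff d with hwdef
  have hw : ∀ Y : ι → K, Y D.last ≠ 0 → ∃ lc : K, lc ≠ 0 ∧
      eval Y w = Y D.last ^ (D.μ * D.k) * lc ∧
      eval Y P = Y D.last ^ (D.μ * D.k) * lc
        * ((D.Z c).map fun R => -∑ j, Y j * D.ev R j).prod := by
    intro Y hY
    obtain ⟨lc, hlc, h⟩ := D.norm_eq_pp Y hY c hc
    have hp : Polynomial.map (eval Y) (S17CH_shift D.ε₀ P)
        = S17CH_pp (Y D.last ^ (D.μ * D.k) * lc)
            ((D.Z c).map fun R => ∑ j, Y j * D.ev R j) := by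
      apply Polynomial.funext
      intro a
      rw [S17CH_shift_eval, hP, h3 _ (by simpa [D.ε₀_last] using hY), h a, S17CH_pp_eval,
        S17CH_pp_eval]
      simp only [D.ε₀_last, mul_zero, sub_zero]
      ring
    refine ⟨lc, hlc, ?_, ?_⟩
    · rw [hwdef, ← Polynomial.coeff_map, hp]
      have hcard : d = Multiset.card ((D.Z c).map fun R => ∑ j, Y j * D.ev R j) := by
        rw [Multiset.card_map]
      rw [hcard, S17CH_pp_coeff]
    · have h0 := S17CH_shift_eval D.ε₀ P Y 0
      have hY0 : (fun j => Y j - 0 * D.ε₀ j) = Y := by funext j; simp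
      rw [hY0, hp, S17CH_pp_eval, Multiset.map_map] at h0
      rw [← h0]
      congr 2
      refine Multiset.map_congr rfl fun R _ => ?_
      simp
  have hwne : ∀ Y : ι → K, Y D.last ≠ 0 → eval Y w ≠ 0 := by
    intro Y hY
    obtain ⟨lc, hlc, h, -⟩ := hw Y hY
    rw [h]
    exact mul_ne_zero (pow_ne_zero _ hY) hlc
  obtain ⟨κ, e, hκ, hweq⟩ := S17CH_nonvanishing D.last w hwne
  have hPeq : P = C κ * X D.last ^ e * (((D.Z c).map D.ev).map fun v => -S17CH_lin v).prod := by
    apply S17CH_ext_off D.last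
    intro Y hY
    obtain ⟨lc, -, h, h'⟩ := hw Y hY
    have e1 : eval Y (C κ * X D.last ^ e * (((D.Z c).map D.ev).map fun v => -S17CH_lin v).prod)
        = eval Y (C κ * X D.last ^ e)
          * ((D.Z c).map fun R => -∑ j, Y j * D.ev R j).prod := by
      rw [map_mul, S17CH_eval_prod_lin, Multiset.map_map]
      rfl
    rw [h', ← h, hweq, e1]
  have hP0 : P ≠ 0 := by
    rw [hPeq]
    refine mul_ne_zero (mul_ne_zero (by simpa using hκ) (pow_ne_zero _ (X_ne_zero _))) ?_
    apply S17CH_prod_lin_ne_zero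
    intro v hv
    obtain ⟨R, -, rfl⟩ := Multiset.mem_map.1 hv
    exact D.ev_ne_zero R
  have hdeg : D.μ * D.k = e + d := by
    have h1 : P.IsHomogeneous (0 + 1 * e + Multiset.card ((D.Z c).map D.ev)) := by
      rw [hPeq]
      exact ((isHomogeneous_C ι κ).mul ((isHomogeneous_X K D.last).pow e)).mul
        (S17CH_prod_lin_hom _)
    have h2 := hPhom.inj_right h1 hP0
    rw [Multiset.card_map] at h2
    omega
  refine ⟨by omega, κ * (-1) ^ d, mul_ne_zero hκ (pow_ne_zero _ (by simp)), fun Y => ?_⟩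
  have he : D.μ * D.k - d = e := by omega
  rw [← hP, hPeq, he, map_mul, map_mul, S17CH_eval_prod_lin, Multiset.map_map, eval_C, map_pow,
    eval_X]
  have hneg : ((D.Z c).map ((fun v => -∑ j, Y j * v j) ∘ D.ev)).prod
      = (-1) ^ d * ((D.Z c).map fun R => ∑ j, Y j * D.ev R j).prod := by
    have h1 := Multiset.prod_map_neg ((D.Z c).map fun R => ∑ j, Y j * D.ev R j)
    rw [Multiset.map_map, Multiset.card_map] at h1
    exact h1
  rw [hneg]
  ring

/-- **CHOW, abstract form.**  From the norm data of a curve: a bihomogeneous form `𝒞` of bidegree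
`(k, μ k)` with
* (second formula) `𝒞(c, X) = X_last ^ (μ k) · N_X(φ_c)(0)` for `X_last ≠ 0`, and
* (first formula) `𝒞(c, X) = κ(c) · X_last ^ (μ k - card Z(c)) · ∏_{R ∈ Z(c)} ⟨X, ev R⟩`,
  `κ(c) ≠ 0`, for every `c ≠ 0`. -/
theorem chow [IsAlgClosed K] (D : S17CH_Data K ι₁ ι Pl) :
    ∃ 𝒞 : MvPolynomial (ι₁ ⊕ ι) K,
      (∀ d, coeff d 𝒞 ≠ 0 →
        ∑ i, d (Sum.inl i) = D.k ∧ ∑ i, d (Sum.inr i) = D.μ * D.k) ∧
      (∀ (X : ι → K), X D.last ≠ 0 → ∀ c : ι₁ → K,
        eval (Sum.elim c X) 𝒞 = X D.last ^ (D.μ * D.k) * eval c (D.G X)) ∧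
      ∀ c : ι₁ → K, c ≠ 0 → Multiset.card (D.Z c) ≤ D.μ * D.k ∧
        ∃ κ : K, κ ≠ 0 ∧ ∀ X : ι → K, eval (Sum.elim c X) 𝒞
          = κ * X D.last ^ (D.μ * D.k - Multiset.card (D.Z c))
              * ((D.Z c).map fun R => ∑ j, X j * D.ev R j).prod := by
  obtain ⟨𝒞, ⟨hl, hr⟩, h2, h3⟩ := D.step2
  refine ⟨𝒞, fun d hd => ⟨?_, ?_⟩, h3, fun c hc => D.step3 𝒞 h2 h3 c hc⟩
  · rw [← S17CH_weight_wl]; exact hl hd
  · rw [← S17CH_weight_wr]; exact hr hd

/-- the Chow form of the norm data (a choice) -/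
noncomputable def chowForm [IsAlgClosed K] (D : S17CH_Data K ι₁ ι Pl) :
    MvPolynomial (ι₁ ⊕ ι) K := Classical.choose D.chow

theorem chowForm_spec [IsAlgClosed K] (D : S17CH_Data K ι₁ ι Pl) :
    (∀ d, coeff d D.chowForm ≠ 0 →
        ∑ i, d (Sum.inl i) = D.k ∧ ∑ i, d (Sum.inr i) = D.μ * D.k) ∧
      (∀ (X : ι → K), X D.last ≠ 0 → ∀ c : ι₁ → K,
        eval (Sum.elim c X) D.chowForm = X D.last ^ (D.μ * D.k) * eval c (D.G X)) ∧
      ∀ c : ι₁ → K, c ≠ 0 → Multiset.card (D.Z c) ≤ D.μ * D.k ∧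
        ∃ κ : K, κ ≠ 0 ∧ ∀ X : ι → K, eval (Sum.elim c X) D.chowForm
          = κ * X D.last ^ (D.μ * D.k - Multiset.card (D.Z c))
              * ((D.Z c).map fun R => ∑ j, X j * D.ev R j).prod :=
  Classical.choose_spec D.chow

end S17CH_Data

end Fermat.Agent.S17
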