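import Mathlib
import Fermat.Agent.Lib.RiemannThm
import Fermat.Agent.Lib.DiffExpand

/-!
# TRACK 8 (S17), HEIGHTS, package NG part (d) (helper24): the zero set of the relation ideal

`F / K` a function field (`RR_Hyp K F`), `O` a place, `e : ι → F` a family in `L(kO)` with
`e i₀ = 1`, `e i_l` of exact pole order `k` and all other `e j ∈ L((k-1)O)`.
`I := ker (X_j ↦ e_j · s)` is the ideal of homogeneous relations of `e`.

* `S17NGZ_I_homog`   : `I` is homogeneous.
* `S17NGZ_main`      : every `x ≠ 0` in `V(I)(K)` is `c • ev P` for a place `P ≠ O` or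
                       `c • ε_{i_l}` (the point `O`), given normal generation (b) as a hypothesis.
* `S17NGZ_ev_mem`, `S17NGZ_last_mem` : conversely these points lie in `V(I)`.
-/

set_option autoImplicit false

open AlgebraicCurve MvPolynomial WithZero

namespace Fermat.Agent.S17

open Fermat.Agent.Lib

variable {K F : Type*} [Field K] [Field F] [Algebra K F] {ι : Type*}

/-- the graded evaluation `X_j ↦ e_j · s`. -/
noncomputable def S17NGZ_phi (e : ι → F) : MvPolynomial ι K →ₐ[K] Polynomial F :=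
  aeval (fun j => Polynomial.C (e j) * Polynomial.X)

/-- the ideal of homogeneous relations of `e`. -/
noncomputable def S17NGZ_I (e : ι → F) : Ideal (MvPolynomial ι K) :=
  RingHom.ker (S17NGZ_phi (K := K) e)

theorem S17NGZ_phi_monomial (e : ι → F) (d : ι →₀ ℕ) (c : K) :
    S17NGZ_phi e (monomial d c) =
      Polynomial.C (aeval e (monomial d c)) * Polynomial.X ^ d.degree := by
  rw [S17NGZ_phi, aeval_monomial, aeval_monomial, Finsupp.prod, Finsupp.prod,
    Finsupp.degree_apply]
  simp only [mul_pow, Finset.prod_mul_distrib, Finset.prod_pow_eq_pow_sum, map_mul, map_prod,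
    map_pow]
  rw [← mul_assoc]
  congr 2

theorem S17NGZ_phi_homog (e : ι → F) {p : MvPolynomial ι K} {n : ℕ} (hp : p.IsHomogeneous n) :
    S17NGZ_phi e p = Polynomial.C (aeval e p) * Polynomial.X ^ n := by
  conv_lhs => rw [p.as_sum]
  conv_rhs => rw [p.as_sum]
  rw [map_sum, map_sum, map_sum, Finset.sum_mul]
  refine Finset.sum_congr rfl fun d hd => ?_
  rw [S17NGZ_phi_monomial]
  congr 2
  rw [Finsupp.degree_eq_weight_one]
  exact hp (mem_support_iff.1 hd)

theorem S17NGZ_mem_I_of_homog (e : ι → F) {p : MvPolynomial ι K} {n : ℕ}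
    (hp : p.IsHomogeneous n) (h0 : aeval e p = 0) : p ∈ S17NGZ_I e := by
  rw [S17NGZ_I, RingHom.mem_ker, S17NGZ_phi_homog e hp, h0, map_zero, zero_mul]

theorem S17NGZ_phi_eq_sum (e : ι → F) (p : MvPolynomial ι K) :
    S17NGZ_phi e p = ∑ n ∈ Finset.range (p.totalDegree + 1),
      Polynomial.C (aeval e (homogeneousComponent n p)) * Polynomial.X ^ n := by
  conv_lhs => rw [← sum_homogeneousComponent p]
  rw [map_sum]
  exact Finset.sum_congr rfl fun n _ =>
    S17NGZ_phi_homog e (homogeneousComponent_isHomogeneous n p)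

theorem S17NGZ_mem_I_iff (e : ι → F) (p : MvPolynomial ι K) :
    p ∈ S17NGZ_I e ↔ ∀ n, aeval e (homogeneousComponent n p) = 0 := by
  rw [S17NGZ_I, RingHom.mem_ker, S17NGZ_phi_eq_sum]
  constructor
  · intro h n
    have h1 := congrArg (fun q : Polynomial F => q.coeff n) h
    simp only [Polynomial.finsetSum_coeff, Polynomial.coeff_C_mul_X_pow, Polynomial.coeff_zero]
      at h1
    by_cases hn : n ∈ Finset.range (p.totalDegree + 1)
    · rw [Finset.sum_eq_single n (fun m _ hmn => if_neg (Ne.symm hmn))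
        (fun hn' => absurd hn hn'), if_pos rfl] at h1
      exact h1
    · rw [Finset.mem_range, not_lt] at hn
      rw [homogeneousComponent_eq_zero _ _ (by omega), map_zero]
  · intro h
    exact Finset.sum_eq_zero fun n _ => by rw [h n, map_zero, zero_mul]

/-- the relation ideal is homogeneous. -/
theorem S17NGZ_I_homog (e : ι → F) :
    ∀ f ∈ S17NGZ_I (K := K) e, ∀ d, homogeneousComponent d f ∈ S17NGZ_I (K := K) e := by
  intro f hf d
  exact S17NGZ_mem_I_of_homog e (homogeneousComponent_isHomogeneous d f)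
    ((S17NGZ_mem_I_iff e f).1 hf d)

theorem S17NGZ_aeval_of_mem (e : ι → F) {p : MvPolynomial ι K} {n : ℕ}
    (hp : p.IsHomogeneous n) (hI : p ∈ S17NGZ_I e) : aeval e p = 0 := by
  have := (S17NGZ_mem_I_iff e p).1 hI n
  rwa [homogeneousComponent_of_mem hp, if_pos rfl] at this

/-- a point of `V(I)` kills every homogeneous relation. -/
theorem S17NGZ_hV_of_mem (e : ι → F) (x : ι → K)
    (hx : ∀ f ∈ S17NGZ_I (K := K) e, eval x f = 0) :
    ∀ (n : ℕ) (p : MvPolynomial ι K), p.IsHomogeneous n → aeval e p = 0 → eval x p = 0 :=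
  fun _ p hp h0 => hx p (S17NGZ_mem_I_of_homog e hp h0)

/-- conversely. -/
theorem S17NGZ_mem_of_hV (e : ι → F) (x : ι → K)
    (hV : ∀ (n : ℕ) (p : MvPolynomial ι K), p.IsHomogeneous n → aeval e p = 0 → eval x p = 0) :
    ∀ f ∈ S17NGZ_I (K := K) e, eval x f = 0 := by
  intro f hf
  rw [← sum_homogeneousComponent f, map_sum]
  exact Finset.sum_eq_zero fun n _ =>
    hV n _ (homogeneousComponent_isHomogeneous n f) ((S17NGZ_mem_I_iff e f).1 hf n)

section main

variable (h : RR_Hyp K F) (O : Place K F) (k : ℕ) (e : ι → F) (i0 il : ι)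
  (he0 : e i0 = 1)
  (hereg : ∀ j, ∀ P : Place K F, P ≠ O → P.adicValuation (e j) ≤ 1)
  (hel : O.adicValuation (e il) = exp (k : ℤ))
  (helow : ∀ j, j ≠ il → O.adicValuation (e j) ≤ exp ((k : ℤ) - 1))
  (hk : 1 ≤ k)
  (hb : ∀ n : ℕ, 1 ≤ n → ∀ f : F, (∀ P : Place K F, P ≠ O → P.adicValuation f ≤ 1) →
    O.adicValuation f ≤ exp ((n * k : ℕ) : ℤ) →
    ∃ p : MvPolynomial ι K, p.IsHomogeneous n ∧ aeval e p = f)
  (x : ι → K)
  (hV : ∀ (n : ℕ) (p : MvPolynomial ι K), p.IsHomogeneous n → aeval e p = 0 → eval x p = 0)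

include he0 hereg helow hk hb hV in
/-- CASE `x_{i₀} = 0`: all coordinates except the last vanish. -/
theorem S17NGZ_caseO (hx0 : x i0 = 0) (j : ι) (hj : j ≠ il) : x j = 0 := by
  have h1 : ∀ P : Place K F, P ≠ O → P.adicValuation (e j ^ (k + 1)) ≤ 1 := by
    intro P hP
    rw [map_pow]
    exact pow_le_one' (hereg j P hP) _
  have h2 : O.adicValuation (e j ^ (k + 1)) ≤ exp ((k * k : ℕ) : ℤ) := by
    rw [map_pow]
    calc O.adicValuation (e j) ^ (k + 1) ≤ exp ((k : ℤ) - 1) ^ (k + 1) :=
          pow_le_pow_left' (helow j hj) _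
      _ = exp ((k + 1 : ℕ) • ((k : ℤ) - 1)) := (exp_nsmul _ _).symm
      _ ≤ exp ((k * k : ℕ) : ℤ) := by
          rw [exp_le_exp, nsmul_eq_mul]
          push_cast
          nlinarith
  obtain ⟨q, hq, hqe⟩ := hb k hk _ h1 h2
  have h3 : (X j ^ (k + 1) - X i0 * q : MvPolynomial ι K).IsHomogeneous (k + 1) := by
    apply IsHomogeneous.sub (isHomogeneous_X_pow j (k + 1))
    rw [add_comm k 1]
    exact (isHomogeneous_X K i0).mul hq
  have h4 := hV _ _ h3 (by rw [map_sub, map_pow, map_mul, aeval_X, aeval_X, hqe, he0, one_mul,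
    sub_self])
  rw [map_sub, map_pow, map_mul, eval_X, eval_X, hx0, zero_mul, sub_zero] at h4
  exact pow_eq_zero_iff (Nat.succ_ne_zero k) |>.1 h4

include hel helow in
theorem S17NGZ_val_O_le (j : ι) : O.adicValuation (e j) ≤ exp (k : ℤ) := by
  by_cases hj : j = il
  · rw [hj, hel]
  · refine (helow j hj).trans ?_
    rw [exp_le_exp]
    omega

include hel hk in
/-- `t − a` has a pole of exact order `k` at `O`. -/
theorem S17NGZ_val_O_sub (a : K) :
    O.adicValuation (e il - algebraMap K F a) = exp (k : ℤ) := by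
  have h1 : O.adicValuation (algebraMap K F a) < O.adicValuation (e il) := by
    rw [hel]
    refine lt_of_le_of_lt (O.adicValuation_algebraMap_le_one a) ?_
    rw [← exp_zero, exp_lt_exp]
    exact_mod_cast hk
  rw [Valuation.map_sub_eq_of_lt_left _ h1, hel]

include h he0 hereg hel helow hk hb hV in
/-- CASE `x_{i₀} ≠ 0`: `x` is proportional to `ev P` for a place `P ≠ O`. -/
theorem S17NGZ_caseP (hx0 : x i0 ≠ 0) :
    ∃ P : Place K F, P ≠ O ∧ ∀ j, x j = x i0 * FD_c0 P (e j) := by
  classical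
  by_contra hcon
  push Not at hcon
  set a : K := x il / x i0 with ha
  have hvO := S17NGZ_val_O_sub O k e il hel hk a
  have hta0 : e il - algebraMap K F a ≠ 0 := by
    intro h0
    rw [h0, map_zero] at hvO
    exact exp_ne_zero hvO.symm
  obtain ⟨D, hD, -⟩ := h.principal.exists_divisor _ hta0
  have hval : ∀ P : Place K F, P.adicValuation (e il - algebraMap K F a) = exp (-D P) := by
    intro P
    rw [P.adicValuation_eq_exp_neg_ord hta0, hD]
  have hDO : D O = -(k : ℤ) := by
    have := hval O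
    rw [hvO, exp_inj] at this
    omega
  have hDnn : ∀ P : Place K F, P ≠ O → 0 ≤ D P := by
    intro P hP
    have h1 : P.adicValuation (e il - algebraMap K F a) ≤ 1 :=
      (Valuation.map_sub _ _ _).trans
        (max_le (hereg il P hP) (P.adicValuation_algebraMap_le_one a))
    rw [hval P, ← exp_zero, exp_le_exp] at h1
    omega
  -- the chosen index
  let jR : Place K F → ι := fun R =>
    if hR : ∃ j, x j ≠ x i0 * FD_c0 R (e j) then hR.choose else i0
  have hjR : ∀ R, R ≠ O → x (jR R) ≠ x i0 * FD_c0 R (e (jR R)) := by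
    intro R hR
    have h1 := hcon R hR
    simp only [jR, dif_pos h1]
    exact h1.choose_spec
  let L : Place K F → MvPolynomial ι K := fun R =>
    X (jR R) - C (FD_c0 R (e (jR R))) * X i0
  let G : Place K F → F := fun R => e (jR R) - algebraMap K F (FD_c0 R (e (jR R)))
  have hLG : ∀ R, aeval e (L R) = G R := by
    intro R
    simp only [L, G, map_sub, map_mul, aeval_X, aeval_C, he0, mul_one]
  have hLhom : ∀ R, (L R).IsHomogeneous 1 := fun R =>
    (isHomogeneous_X K _).sub ((isHomogeneous_X K i0).C_mul _)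
  have hLx : ∀ R, eval x (L R) = x (jR R) - FD_c0 R (e (jR R)) * x i0 := by
    intro R
    simp only [L, map_sub, map_mul, eval_X, eval_C]
  let ε : Place K F → ℕ := fun R => (D R).toNat
  set n : ℕ := ∑ R ∈ D.support, ε R with hn
  have hGreg : ∀ R P : Place K F, P ≠ O → P.adicValuation (G R) ≤ 1 := fun R P hP =>
    (Valuation.map_sub _ _ _).trans
      (max_le (hereg _ P hP) (P.adicValuation_algebraMap_le_one _))
  have hGO : ∀ R : Place K F, O.adicValuation (G R) ≤ exp (k : ℤ) := fun R =>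
    (Valuation.map_sub _ _ _).trans
      (max_le (S17NGZ_val_O_le O k e il hel helow _)
        ((O.adicValuation_algebraMap_le_one _).trans (by
          rw [← exp_zero, exp_le_exp]; exact_mod_cast Nat.zero_le k)))
  set hh : F := (∏ R ∈ D.support, G R ^ ε R) / (e il - algebraMap K F a) with hhh
  have hreg : ∀ P : Place K F, P ≠ O → P.adicValuation hh ≤ 1 := by
    intro P hP
    rw [hhh, map_div₀, hval P, map_prod]
    rw [div_le_iff₀ (zero_lt_iff.2 exp_ne_zero), one_mul]
    by_cases hP0 : D P = 0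
    · rw [hP0, neg_zero, exp_zero]
      refine Finset.prod_le_one' fun R _ => ?_
      rw [map_pow]
      exact pow_le_one' (hGreg R P hP) _
    · have hPs : P ∈ D.support := Finsupp.mem_support_iff.2 hP0
      have hDpos : 0 < D P := lt_of_le_of_ne (hDnn P hP) (Ne.symm hP0)
      rw [← Finset.mul_prod_erase _ _ hPs]
      have h1 : P.adicValuation (G P ^ ε P) ≤ exp (-D P) := by
        rw [map_pow]
        have h2 : P.adicValuation (G P) ≤ exp (-1 : ℤ) :=
          (FD_val_lt_one_iff P).1
            (FD_c0_spec P (h.deg_one P) (hereg _ P hP))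
        calc P.adicValuation (G P) ^ ε P ≤ exp (-1 : ℤ) ^ ε P := pow_le_pow_left' h2 _
          _ = exp (ε P • (-1 : ℤ)) := (exp_nsmul _ _).symm
          _ = exp (-D P) := by
              congr 1
              simp only [ε, nsmul_eq_mul]
              rw [Int.toNat_of_nonneg hDpos.le]
              ring
      have h3 : ∏ R ∈ D.support.erase P, P.adicValuation (G R ^ ε R) ≤ 1 :=
        Finset.prod_le_one' fun R _ => by
          rw [map_pow]
          exact pow_le_one' (hGreg R P hP) _
      calc P.adicValuation (G P ^ ε P) * ∏ R ∈ D.support.erase P, P.adicValuation (G R ^ ε R)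
          ≤ exp (-D P) * 1 := mul_le_mul' h1 h3
        _ = exp (-D P) := mul_one _
  have hO : O.adicValuation hh ≤ exp (((n + 1) * k : ℕ) : ℤ) := by
    rw [hhh, map_div₀, hvO, map_prod, div_le_iff₀ (zero_lt_iff.2 exp_ne_zero)]
    have h1 : ∏ R ∈ D.support, O.adicValuation (G R ^ ε R) ≤
        ∏ R ∈ D.support, exp (k : ℤ) ^ ε R :=
      Finset.prod_le_prod' fun R _ => by
        rw [map_pow]
        exact pow_le_pow_left' (hGO R) _
    refine h1.trans ?_
    rw [Finset.prod_pow_eq_pow_sum, ← hn, ← exp_nsmul, ← exp_add, exp_le_exp, nsmul_eq_mul]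
    push_cast
    nlinarith [Nat.zero_le k, Nat.zero_le n]
  obtain ⟨q, hq, hqe⟩ := hb (n + 1) (Nat.succ_pos n) hh hreg hO
  set Pr : MvPolynomial ι K := ∏ R ∈ D.support, L R ^ ε R with hPr
  have hPrhom : Pr.IsHomogeneous n := by
    rw [hPr, hn]
    refine IsHomogeneous.prod _ _ _ fun R _ => ?_
    have := (hLhom R).pow (ε R)
    rwa [one_mul] at this
  have hid : (Pr * X i0 ^ 2 - (X il - C a * X i0) * q).IsHomogeneous (n + 2) := by
    apply IsHomogeneous.sub
    · exact hPrhom.mul (isHomogeneous_X_pow i0 2)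
    · have h1 : ((X il - C a * X i0 : MvPolynomial ι K) * q).IsHomogeneous (1 + (n + 1)) :=
        ((isHomogeneous_X K il).sub ((isHomogeneous_X K i0).C_mul a)).mul hq
      rwa [show 1 + (n + 1) = n + 2 by ring] at h1
  have h0 := hV _ _ hid (by
    rw [map_sub, map_mul, map_mul, map_pow, map_sub, map_mul, aeval_X, aeval_X, aeval_C, he0,
      one_pow, mul_one, mul_one, hqe, hPr, map_prod]
    simp only [map_pow, hLG]
    rw [hhh, mul_div_cancel₀ _ hta0, sub_self])
  rw [map_sub, map_mul, map_mul, map_pow, map_sub, map_mul, eval_X, eval_X, eval_C, ha,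
    div_mul_cancel₀ _ hx0, sub_self, zero_mul, sub_zero, hPr, map_prod] at h0
  rcases mul_eq_zero.1 h0 with h1 | h1
  · rw [Finset.prod_eq_zero_iff] at h1
    obtain ⟨R, hRs, hR0⟩ := h1
    rw [map_pow] at hR0
    have hε : ε R ≠ 0 := by
      intro hε
      rw [hε, pow_zero] at hR0
      exact one_ne_zero hR0
    have hRO : R ≠ O := by
      rintro rfl
      apply hε
      simp only [ε, hDO]
      exact Int.toNat_eq_zero.2 (by omega)
    have h2 := pow_eq_zero_iff hε |>.1 hR0
    rw [hLx, sub_eq_zero] at h2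
    exact hjR R hRO (by rw [h2, mul_comm])
  · exact hx0 (pow_eq_zero_iff (two_ne_zero) |>.1 h1)

include h he0 hereg hel helow hk hb hV in
/-- **NG (d)**: every nonzero point of `V(I)` is proportional to `ev P` for a place `P ≠ O`,
or to the last unit vector (the point `O`). -/
theorem S17NGZ_main (hx : x ≠ 0) :
    (∃ P : Place K F, P ≠ O ∧ ∃ c : K, c ≠ 0 ∧ ∀ j, x j = c * FD_c0 P (e j)) ∨
      (x il ≠ 0 ∧ ∀ j, j ≠ il → x j = 0) := by
  by_cases hx0 : x i0 = 0
  · right
    have h1 := S17NGZ_caseO O k e i0 il he0 hereg helow hk hb x hV hx0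
    refine ⟨fun h2 => hx ?_, h1⟩
    funext j
    by_cases hj : j = il
    · rw [hj, h2]; rfl
    · exact h1 j hj
  · left
    obtain ⟨P, hP, hPx⟩ := S17NGZ_caseP h O k e i0 il he0 hereg hel helow hk hb x hV hx0
    exact ⟨P, hP, x i0, hx0, hPx⟩

end main

section converse

variable (O : Place K F) (e : ι → F)

/-- the evaluation vector at a place. -/
noncomputable def S17NGZ_ev (P : Place K F) (e : ι → F) : ι → K := fun j => FD_c0 P (e j)

/-- evaluation at a place of degree one commutes with polynomials in functions regular at the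
place. -/
theorem S17NGZ_c0_aeval (P : Place K F) (hdeg : P.deg = 1)
    (he : ∀ j, P.adicValuation (e j) ≤ 1) (p : MvPolynomial ι K) :
    P.adicValuation (aeval e p) ≤ 1 ∧ FD_c0 P (aeval e p) = eval (S17NGZ_ev P e) p := by
  have hmem : ∀ j, e j ∈ P.toValuationSubring := fun j =>
    (Fermat.Agent.S24.BL_adicValuation_le_one_iff P _).1 (he j)
  let e' : ι → P.toValuationSubring := fun j => ⟨e j, hmem j⟩
  have key : ∀ q : MvPolynomial ι K,
      PowerSeries.constantCoeff (aeval (fun i => FD_expHom P hdeg (e' i)) q) =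
        eval (S17NGZ_ev P e) q := by
    intro q
    induction q using MvPolynomial.induction_on with
    | C c => simp
    | add p q hp hq => rw [map_add, map_add, map_add, hp, hq]
    | mul_X p j hp =>
      rw [map_mul, map_mul, map_mul, hp, aeval_X, eval_X, FD_expHom_apply, FD_constantCoeff]
      rfl
  have h1 : ((aeval e' p : P.toValuationSubring) : F) = aeval e p := by
    have h2 := DFunLike.congr_fun (MvPolynomial.comp_aeval (f := e')
      (IsScalarTower.toAlgHom K P.toValuationSubring F)) p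
    rw [AlgHom.comp_apply] at h2
    exact h2
  have h3 : PowerSeries.constantCoeff (FD_expHom P hdeg (aeval e' p)) =
      eval (S17NGZ_ev P e) p := by
    have h4 := DFunLike.congr_fun (MvPolynomial.comp_aeval (f := e') (FD_expHom P hdeg)) p
    rw [AlgHom.comp_apply] at h4
    rw [h4, key]
  rw [FD_expHom_apply, FD_constantCoeff, h1] at h3
  refine ⟨?_, h3⟩
  rw [← h1]
  exact P.adicValuation_le_one_of_mem (Subtype.property _)

/-- `ev P ∈ V(I)` for every place `P ≠ O`. -/
theorem S17NGZ_ev_mem (h : RR_Hyp K F)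
    (hereg : ∀ j, ∀ P : Place K F, P ≠ O → P.adicValuation (e j) ≤ 1)
    (P : Place K F) (hP : P ≠ O) :
    ∀ f ∈ S17NGZ_I (K := K) e, eval (S17NGZ_ev P e) f = 0 := by
  apply S17NGZ_mem_of_hV
  intro n p _ h0
  have := (S17NGZ_c0_aeval e P (h.deg_one P) (fun j => hereg j P hP) p).2
  rw [← this, h0]
  exact FD_c0_unique P (by rw [map_zero, sub_zero, map_zero]; exact zero_lt_one)

end converse

section wrapper

/-- membership in `L(B)` for a divisor supported at `O`. -/
theorem S17NGZ_mem_L_iff (O : Place K F) (B : Divisor K F) (hB : ∀ P, P ≠ O → B P = 0)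
    (f : F) :
    f ∈ riemannRochSpace B ↔
      (∀ P : Place K F, P ≠ O → P.adicValuation f ≤ 1) ∧ O.adicValuation f ≤ exp (B O) := by
  constructor
  · intro hf
    refine ⟨fun P hP => ?_, hf O⟩
    have := hf P
    rwa [hB P hP, exp_zero] at this
  · rintro ⟨h1, h2⟩ P
    by_cases hP : P = O
    · rw [hP]; exact h2
    · rw [hB P hP, exp_zero]
      exact h1 P hP

/-- **NG (d)**, with the hypotheses in terms of Riemann–Roch spaces `L(B n)`, `B n = nk·O`
(any spelling: `B n` supported at `O` with `B n O = n k`). -/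
theorem S17NGZ_main_L (h : RR_Hyp K F) (O : Place K F) (k : ℕ) (hk : 1 ≤ k) (e : ι → F)
    (i0 il : ι) (he0 : e i0 = 1)
    (B : ℕ → Divisor K F) (hBs : ∀ n P, P ≠ O → B n P = 0) (hBO : ∀ n, B n O = (n * k : ℕ))
    (he : ∀ j, e j ∈ riemannRochSpace (B 1))
    (hel : O.adicValuation (e il) = exp (k : ℤ))
    (helow : ∀ j, j ≠ il → O.adicValuation (e j) ≤ exp ((k : ℤ) - 1))
    (hb : ∀ n : ℕ, 1 ≤ n → ∀ f ∈ riemannRochSpace (B n),
      ∃ p : MvPolynomial ι K, p.IsHomogeneous n ∧ aeval e p = f)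
    (x : ι → K) (hx : x ≠ 0) (hxI : ∀ f ∈ S17NGZ_I (K := K) e, eval x f = 0) :
    (∃ P : Place K F, P ≠ O ∧ ∃ c : K, c ≠ 0 ∧ x = c • S17NGZ_ev P e) ∨
      (x il ≠ 0 ∧ ∀ j, j ≠ il → x j = 0) := by
  have hereg : ∀ j, ∀ P : Place K F, P ≠ O → P.adicValuation (e j) ≤ 1 := fun j =>
    ((S17NGZ_mem_L_iff O (B 1) (hBs 1) (e j)).1 (he j)).1
  have hb' : ∀ n : ℕ, 1 ≤ n → ∀ f : F, (∀ P : Place K F, P ≠ O → P.adicValuation f ≤ 1) →
      O.adicValuation f ≤ exp ((n * k : ℕ) : ℤ) →
      ∃ p : MvPolynomial ι K, p.IsHomogeneous n ∧ aeval e p = f := fun n hn f h1 h2 =>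
    hb n hn f ((S17NGZ_mem_L_iff O (B n) (hBs n) f).2 ⟨h1, by rw [hBO n]; exact h2⟩)
  rcases S17NGZ_main h O k e i0 il he0 hereg hel helow hk hb' x
    (S17NGZ_hV_of_mem e x hxI) hx with ⟨P, hP, c, hc, hPx⟩ | h2
  · exact Or.inl ⟨P, hP, c, hc, funext hPx⟩
  · exact Or.inr h2

end wrapper

end Fermat.Agent.S17
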