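import Mathlib
import Fermat.Agent.S24.Global
import Fermat.Agent.S18.SemiReg
import Fermat.Agent.Lib.DiffExpand

/-!
# TRACK 8 (S17), heights, package NORMFIB (helper22): the norm–fibre formula

`K` algebraically closed of characteristic `0`, `F / K` a function field, `t : F` transcendental,
`F / K(t)` finite.  `R = K[t]` (`Algebra.adjoin K {t}`, `≃ K[X]` by `BL_equiv ht`), `B` = the
integral closure of `R` in `F` (= the functions regular at all places `P` with `0 ≤ ord_P t`; it is
a Dedekind domain, finite free over `R` of rank `[F : K(t)]`: `BG_isDedekindDomain`, `BG_finite`,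
`BG_free`, `BG_finrank` of `S24/Global.lean`).

* `S17NF_norm ht φ : K[X]`     : the norm `N_{B/R} φ = det (mult. by φ)` as a polynomial in `t`
                                 (`S17NF_norm_apply`, `S17NF_norm_mul`, `S17NF_norm_one`);
* `S17NF_relNorm_prime`        : the relative norm of a prime `w` of `B` is `(t - t(w))`;
* `S17NF_norm_eq_multiset`     : `N φ = c · ∏_q (X - t(q))`, `q` the prime factors of `(φ)`;
* `S17NF_norm_eq_prod`         : **norm–fibre formula**: for every finite set `S` of places with
     `P ∈ S ↔ 0 ≤ ord_P t ∧ 0 < ord_P φ`:  `N φ = C c * ∏ P ∈ S, (X - C (t(P))) ^ ord_P φ`, `c ≠ 0`,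
     where `t(P) = FD_c0 P t` (`Lib/DiffExpand.lean`);
* dictionary primes of `B` ↔ places: `S17NF_mem_prime_iff`, `S17NF_ord_nonneg`,
  `S17NF_valI_eq_c0`, `S17NF_count_eq_ord`.

The corollaries for `t` with poles only at `O` (rank `= -ord_O t`, `deg N φ = -ord_O φ`,
`B = ⋃ L(nO)`) are in `S17/NormFibO.lean`.  Prefix `S17NF_`.
-/

set_option autoImplicit false
set_option linter.unusedSectionVars false
set_option linter.style.haveILetI false

open AlgebraicCurve IntermediateField IsDedekindDomain Polynomial
open scoped IntermediateField.algebraAdjoinAdjoin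

universe u v

namespace Fermat.Agent.S17

open Fermat.Agent.S24 Fermat.Agent.Lib Fermat.Agent.S18

variable {K : Type u} {F : Type v} [Field K] [Field F] [Algebra K F] [CharZero K]
  {t : F} (ht : Transcendental K t) [FiniteDimensional K⟮t⟯ F]

omit [FiniteDimensional K⟮t⟯ F] in
theorem S17NF_charZero_R : CharZero (Algebra.adjoin K ({t} : Set F)) :=
  charZero_of_injective_algebraMap (algebraMap K (Algebra.adjoin K ({t} : Set F))).injective

omit [FiniteDimensional K⟮t⟯ F] in
theorem S17NF_perfect : PerfectField (FractionRing (Algebra.adjoin K ({t} : Set F))) := by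
  haveI := S17NF_charZero_R (K := K) (t := t)
  haveI : CharZero (FractionRing (Algebra.adjoin K ({t} : Set F))) :=
    charZero_of_injective_algebraMap
      (IsFractionRing.injective (Algebra.adjoin K ({t} : Set F))
        (FractionRing (Algebra.adjoin K ({t} : Set F))))
  infer_instance

/-- the prime `(t - a)` of `K[t]`. -/
def S17NF_p (K : Type u) {F : Type v} [Field K] [Field F] [Algebra K F] (t : F) (a : K) :
    Ideal (Algebra.adjoin K ({t} : Set F)) :=
  Ideal.span {BL_gen (K := K) t - algebraMap K _ a}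

omit [CharZero K] [FiniteDimensional K⟮t⟯ F] in
include ht in
theorem S17NF_gen_sub_eq (a : K) :
    BL_gen (K := K) t - algebraMap K (Algebra.adjoin K ({t} : Set F)) a =
      BL_equiv ht (X - C a) := by
  apply Subtype.ext
  rw [BL_equiv_coe]
  simp [BL_gen]

omit [CharZero K] [FiniteDimensional K⟮t⟯ F] in
include ht in
theorem S17NF_p_isMaximal (a : K) : (S17NF_p K t a).IsMaximal := by
  have := BG_isPrincipalIdealRing ht
  apply PrincipalIdealRing.isMaximal_of_irreducible
  rw [S17NF_gen_sub_eq ht]
  exact (MulEquiv.irreducible_iff (BL_equiv ht).toMulEquiv).mpr (Polynomial.irreducible_X_sub_C a)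

section primes

variable [IsAlgClosed K]

/-- `t` as an element of `B`. -/
def S17NF_tB (K : Type u) {F : Type v} [Field K] [Field F] [Algebra K F] (t : F) :
    integralClosure (Algebra.adjoin K ({t} : Set F)) F :=
  algebraMap (Algebra.adjoin K ({t} : Set F)) _ (BL_gen (K := K) t)

omit [CharZero K] [FiniteDimensional K⟮t⟯ F] [IsAlgClosed K] in
theorem S17NF_tB_coe :
    algebraMap (integralClosure (Algebra.adjoin K ({t} : Set F)) F) F (S17NF_tB K t) = t := rfl

include ht in
/-- `K → B ⧸ w` is onto. -/
theorem S17NF_quot_surj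
    (w : letI := BG_isDedekindDomain ht
      HeightOneSpectrum (integralClosure (Algebra.adjoin K ({t} : Set F)) F)) :
    Function.Surjective (algebraMap K
      (integralClosure (Algebra.adjoin K ({t} : Set F)) F ⧸ w.asIdeal)) := by
  letI := BG_isDedekindDomain ht
  letI := BG_isFractionRing (K := K) (x := t)
  have hF : S24_IsFunctionField1 K F :=
    S24_isFunctionField1_of_isAlgebraic t (Algebra.IsAlgebraic.of_finite _ _)
  exact BG_quotient_surjective (K := K) (F := F) w (S24_residue_surjective hF _)

include ht in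
/-- the value of `t` at a height one prime of `B`. -/
theorem S17NF_exists_val
    (w : letI := BG_isDedekindDomain ht
      HeightOneSpectrum (integralClosure (Algebra.adjoin K ({t} : Set F)) F)) :
    ∃ a : K, S17NF_tB K t - algebraMap K _ a ∈ w.asIdeal := by
  letI := BG_isDedekindDomain ht
  obtain ⟨a, ha⟩ := S17NF_quot_surj ht w (Ideal.Quotient.mk _ (S17NF_tB K t))
  refine ⟨a, ?_⟩
  rw [← Ideal.Quotient.eq, ← ha]
  rfl

omit [IsAlgClosed K] in
include ht in
theorem S17NF_liesOver
    (w : letI := BG_isDedekindDomain ht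
      HeightOneSpectrum (integralClosure (Algebra.adjoin K ({t} : Set F)) F))
    (a : K) (ha : S17NF_tB K t - algebraMap K _ a ∈ w.asIdeal) :
    w.asIdeal.LiesOver (S17NF_p K t a) := by
  letI := BG_isDedekindDomain ht
  have hmax := S17NF_p_isMaximal ht a
  have hle : S17NF_p K t a ≤ w.asIdeal.under (Algebra.adjoin K ({t} : Set F)) := by
    rw [S17NF_p, Ideal.span_le, Set.singleton_subset_iff]
    show algebraMap _ _ (BL_gen (K := K) t - algebraMap K _ a) ∈ w.asIdeal
    rw [map_sub]
    exact ha
  have hprime : w.asIdeal.IsPrime := w.isPrime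
  have hunder : (w.asIdeal.under (Algebra.adjoin K ({t} : Set F))).IsPrime :=
    Ideal.IsPrime.under _ _
  exact ⟨Ideal.IsMaximal.eq_of_le hmax hunder.ne_top hle⟩

include ht in
/-- **the relative norm of a prime of `B`** is the prime `(t - a)` below it (`f = 1`). -/
theorem S17NF_relNorm_prime
    (w : letI := BG_isDedekindDomain ht
      HeightOneSpectrum (integralClosure (Algebra.adjoin K ({t} : Set F)) F))
    (a : K) (ha : S17NF_tB K t - algebraMap K _ a ∈ w.asIdeal) :
    letI := BG_isPrincipalIdealRing ht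
    letI := BG_isDedekindDomain ht
    letI := BG_finite ht
    Ideal.relNorm (Algebra.adjoin K ({t} : Set F)) w.asIdeal = S17NF_p K t a := by
  letI := BG_isPrincipalIdealRing ht
  letI := BG_isDedekindDomain ht
  letI := BG_finite ht
  haveI := S17NF_perfect (K := K) (t := t)
  haveI := S17NF_p_isMaximal ht a
  haveI := S17NF_liesOver ht w a ha
  haveI : w.asIdeal.IsMaximal := w.isMaximal
  rw [Ideal.relNorm_eq_pow_of_isMaximal w.asIdeal (S17NF_p K t a),
    BG_inertiaDeg_eq_one (K := K) (S17NF_p K t a) w.asIdeal (S17NF_quot_surj ht w), pow_one]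

/-- the value of `t` at an ideal of `B` (meaningful for maximal ideals). -/
noncomputable def S17NF_valI (K : Type u) {F : Type v} [Field K] [Field F] [Algebra K F] (t : F)
    (q : Ideal (integralClosure (Algebra.adjoin K ({t} : Set F)) F)) : K :=
  open Classical in
  if h : ∃ a : K, S17NF_tB K t - algebraMap K _ a ∈ q then h.choose else 0

include ht in
theorem S17NF_valI_spec
    (w : letI := BG_isDedekindDomain ht
      HeightOneSpectrum (integralClosure (Algebra.adjoin K ({t} : Set F)) F)) :
    S17NF_tB K t - algebraMap K _ (S17NF_valI K t w.asIdeal) ∈ w.asIdeal := by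
  have hex := S17NF_exists_val ht w
  rw [S17NF_valI, dif_pos hex]
  exact hex.choose_spec

include ht in
/-- the norm of `φ` generates the product of the primes `(t - t(q))`, `q` running through the
prime factors of `(φ)` (with multiplicity). -/
theorem S17NF_span_norm (φ : integralClosure (Algebra.adjoin K ({t} : Set F)) F) (hφ : φ ≠ 0) :
    letI := BG_isPrincipalIdealRing ht
    letI := BG_isDedekindDomain ht
    letI := BG_finite ht
    letI := BG_free ht
    Ideal.span {Algebra.norm (Algebra.adjoin K ({t} : Set F)) φ} =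
      Ideal.span {BL_equiv ht
        (((UniqueFactorizationMonoid.normalizedFactors (Ideal.span {φ})).map
          (fun q => X - C (S17NF_valI K t q))).prod)} := by
  letI := BG_isPrincipalIdealRing ht
  letI := BG_isDedekindDomain ht
  letI := BG_finite ht
  letI := BG_free ht
  have hI : (Ideal.span {φ} : Ideal (integralClosure (Algebra.adjoin K ({t} : Set F)) F)) ≠ ⊥ := by
    rwa [Ne, Ideal.span_singleton_eq_bot]
  have h1 : Ideal.relNorm (Algebra.adjoin K ({t} : Set F)) (Ideal.span {φ}) =
      Ideal.span {Algebra.norm (Algebra.adjoin K ({t} : Set F)) φ} := by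
    rw [Ideal.relNorm_singleton, Algebra.intNorm_eq_norm]
  rw [← h1]
  conv_lhs => rw [← Ideal.prod_normalizedFactors_eq_self hI]
  rw [map_multiset_prod, map_multiset_prod, ← Ideal.multiset_prod_span_singleton, Multiset.map_map,
    Multiset.map_map]
  congr 1
  apply Multiset.map_congr rfl
  intro q hq
  have hprime := UniqueFactorizationMonoid.prime_of_normalized_factor q hq
  have hq0 : q ≠ ⊥ := hprime.ne_zero
  have hqp : q.IsPrime := Ideal.isPrime_of_prime hprime
  let w : HeightOneSpectrum (integralClosure (Algebra.adjoin K ({t} : Set F)) F) := ⟨q, hqp, hq0⟩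
  have h2 := S17NF_relNorm_prime ht w _ (S17NF_valI_spec ht w)
  show Ideal.relNorm (Algebra.adjoin K ({t} : Set F)) q = _
  rw [show q = w.asIdeal from rfl, h2, S17NF_p, S17NF_gen_sub_eq ht]
  rfl

/-- **the norm** `N_{B / K[t]} φ` as a polynomial in `t`. -/
noncomputable def S17NF_norm
    (φ : integralClosure (Algebra.adjoin K ({t} : Set F)) F) : K[X] :=
  (BL_equiv ht).symm (Algebra.norm (Algebra.adjoin K ({t} : Set F)) φ)

omit [CharZero K] [FiniteDimensional K⟮t⟯ F] [IsAlgClosed K] in
theorem S17NF_norm_apply (φ : integralClosure (Algebra.adjoin K ({t} : Set F)) F) :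
    BL_equiv ht (S17NF_norm ht φ) = Algebra.norm (Algebra.adjoin K ({t} : Set F)) φ :=
  (BL_equiv ht).apply_symm_apply _

omit [CharZero K] [FiniteDimensional K⟮t⟯ F] [IsAlgClosed K] in
theorem S17NF_norm_mul (φ ψ : integralClosure (Algebra.adjoin K ({t} : Set F)) F) :
    S17NF_norm ht (φ * ψ) = S17NF_norm ht φ * S17NF_norm ht ψ := by
  unfold S17NF_norm
  rw [map_mul, map_mul]

omit [CharZero K] [FiniteDimensional K⟮t⟯ F] [IsAlgClosed K] in
theorem S17NF_norm_one : S17NF_norm ht (1 : integralClosure (Algebra.adjoin K ({t} : Set F)) F) = 1 := by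
  unfold S17NF_norm
  rw [map_one, map_one]

include ht in
/-- **norm–fibre formula, ideal form**: `N φ = c · ∏_q (X - t(q))`, `q` running through the prime
factors of `(φ)` with multiplicity. -/
theorem S17NF_norm_eq_multiset
    (φ : integralClosure (Algebra.adjoin K ({t} : Set F)) F) (hφ : φ ≠ 0) :
    letI := BG_isDedekindDomain ht
    ∃ c : K, c ≠ 0 ∧ S17NF_norm ht φ = C c *
      ((UniqueFactorizationMonoid.normalizedFactors (Ideal.span {φ})).map
        (fun q => X - C (S17NF_valI K t q))).prod := by
  letI := BG_isDedekindDomain ht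
  have h := S17NF_span_norm ht φ hφ
  rw [Ideal.span_singleton_eq_span_singleton] at h
  obtain ⟨u, hu⟩ := h
  have h2 : S17NF_norm ht φ * (BL_equiv ht).symm (u : Algebra.adjoin K ({t} : Set F)) =
      ((UniqueFactorizationMonoid.normalizedFactors (Ideal.span {φ})).map
        (fun q => X - C (S17NF_valI K t q))).prod := by
    unfold S17NF_norm
    rw [← map_mul, hu, AlgEquiv.symm_apply_apply]
  have hunit : IsUnit ((BL_equiv ht).symm (u : Algebra.adjoin K ({t} : Set F))) :=
    u.isUnit.map (BL_equiv ht).symm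
  obtain ⟨c, hc, hcu⟩ := Polynomial.isUnit_iff.mp hunit
  have hc0 : c ≠ 0 := hc.ne_zero
  refine ⟨c⁻¹, inv_ne_zero hc0, ?_⟩
  rw [← h2, ← hcu, mul_comm (C c⁻¹), mul_assoc, ← C_mul, mul_inv_cancel₀ hc0, C_1, mul_one]

/-! ### Dictionary: primes of `B` ↔ places with `0 ≤ ord t` -/

omit [CharZero K] [FiniteDimensional K⟮t⟯ F] [IsAlgClosed K] in
include ht in
theorem S17NF_t_ne_zero : t ≠ 0 := fun h => ht (h ▸ isAlgebraic_zero)

omit [CharZero K] [FiniteDimensional K⟮t⟯ F] [IsAlgClosed K] in
include ht in
theorem S17NF_t_sub_ne_zero (a : K) : t - algebraMap K F a ≠ 0 := by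
  intro h
  apply ht
  rw [sub_eq_zero.mp h]
  exact isAlgebraic_algebraMap a

omit [CharZero K] [FiniteDimensional K⟮t⟯ F] [IsAlgClosed K] in
/-- `ord > 0` in terms of the adic valuation. -/
theorem S17NF_val_lt_one_iff (P : Place K F) {f : F} (hf : f ≠ 0) :
    P.adicValuation f < 1 ↔ 0 < P.ord f := by
  rw [P.adicValuation_eq_exp_neg_ord hf, ← WithZero.exp_zero, WithZero.exp_lt_exp]
  omega

omit [IsAlgClosed K] in
include ht in
theorem S17NF_mem_prime_iff
    (w : letI := BG_isDedekindDomain ht
      HeightOneSpectrum (integralClosure (Algebra.adjoin K ({t} : Set F)) F))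
    (b : integralClosure (Algebra.adjoin K ({t} : Set F)) F) (hb : b ≠ 0) :
    letI := BG_isDedekindDomain ht
    letI := BG_isFractionRing (K := K) (x := t)
    b ∈ w.asIdeal ↔ 0 < (Place.ofHeightOneSpectrum (K := K) (F := F) w).ord (b : F) := by
  letI := BG_isDedekindDomain ht
  letI := BG_isFractionRing (K := K) (x := t)
  have hb0 : (b : F) ≠ 0 := fun h => hb (Subtype.ext h)
  rw [BG_mem_asIdeal_iff (K := K) (F := F) w b, ← BG_mem_nonunits_iff_ord_pos _ hb0]
  rfl

omit [IsAlgClosed K] in
include ht in
theorem S17NF_ord_nonneg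
    (w : letI := BG_isDedekindDomain ht
      HeightOneSpectrum (integralClosure (Algebra.adjoin K ({t} : Set F)) F))
    (b : integralClosure (Algebra.adjoin K ({t} : Set F)) F) :
    letI := BG_isDedekindDomain ht
    letI := BG_isFractionRing (K := K) (x := t)
    0 ≤ (Place.ofHeightOneSpectrum (K := K) (F := F) w).ord (b : F) := by
  letI := BG_isDedekindDomain ht
  letI := BG_isFractionRing (K := K) (x := t)
  by_cases hb : (b : F) = 0
  · rw [hb, Place.ord_zero]
  rw [← BG_mem_iff_ord_nonneg _ hb, BG_mem_ofHeightOneSpectrum]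
  exact w.valuation_le_one b

include ht in
/-- the value of `t` at the prime `w` is the value of `t` at the place of `w`. -/
theorem S17NF_valI_eq_c0
    (w : letI := BG_isDedekindDomain ht
      HeightOneSpectrum (integralClosure (Algebra.adjoin K ({t} : Set F)) F)) :
    letI := BG_isDedekindDomain ht
    letI := BG_isFractionRing (K := K) (x := t)
    S17NF_valI K t w.asIdeal = FD_c0 (Place.ofHeightOneSpectrum (K := K) (F := F) w) t := by
  letI := BG_isDedekindDomain ht
  letI := BG_isFractionRing (K := K) (x := t)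
  symm
  apply FD_c0_unique
  have h := S17NF_valI_spec ht w
  have hne : S17NF_tB K t - algebraMap K _ (S17NF_valI K t w.asIdeal) ≠ 0 := by
    intro h0
    apply S17NF_t_sub_ne_zero ht (S17NF_valI K t w.asIdeal)
    have := congrArg (algebraMap (integralClosure (Algebra.adjoin K ({t} : Set F)) F) F) h0
    rw [map_sub, map_zero, S17NF_tB_coe, ← IsScalarTower.algebraMap_apply] at this
    exact this
  rw [S17NF_mem_prime_iff ht w _ hne] at h
  rw [S17NF_val_lt_one_iff _ (S17NF_t_sub_ne_zero ht _)]
  have e : ((S17NF_tB K t - algebraMap K _ (S17NF_valI K t w.asIdeal) :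
      integralClosure (Algebra.adjoin K ({t} : Set F)) F) : F) =
      t - algebraMap K F (S17NF_valI K t w.asIdeal) := rfl
  rwa [e] at h

omit [IsAlgClosed K] in
include ht in
/-- the multiplicity of `w` in `(φ)` is the order of `φ` at the place of `w`. -/
theorem S17NF_count_eq_ord
    (w : letI := BG_isDedekindDomain ht
      HeightOneSpectrum (integralClosure (Algebra.adjoin K ({t} : Set F)) F))
    (φ : integralClosure (Algebra.adjoin K ({t} : Set F)) F) (hφ : φ ≠ 0) :
    letI := BG_isDedekindDomain ht
    letI := BG_isFractionRing (K := K) (x := t)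
    ((Multiset.count w.asIdeal
      (UniqueFactorizationMonoid.normalizedFactors (Ideal.span {φ})) : ℕ) : ℤ) =
      (Place.ofHeightOneSpectrum (K := K) (F := F) w).ord (φ : F) := by
  letI := BG_isDedekindDomain ht
  letI := BG_isFractionRing (K := K) (x := t)
  have hI : (Ideal.span {φ} : Ideal (integralClosure (Algebra.adjoin K ({t} : Set F)) F)) ≠ 0 := by
    rwa [Ne, Ideal.zero_eq_bot, Ideal.span_singleton_eq_bot]
  rw [BG_ord_ofHeightOneSpectrum (K := K) (F := F) w (φ : F)]
  have h1 : w.valuation F (φ : F) = w.intValuation φ := w.valuation_of_algebraMap φ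
  rw [h1, w.intValuation_if_neg hφ, WithZero.log_exp, neg_neg,
    Ideal.count_associates_factors_eq hI w.isPrime w.ne_bot]

include ht in
/-- **NORM–FIBRE FORMULA** (place form): for `φ ∈ B`, `φ ≠ 0`,
`N_{B/K[t]}(φ) = c · ∏_P (X - t(P)) ^ ord_P φ`, the product over the zeros `P` of `φ` with
`0 ≤ ord_P t`. -/
theorem S17NF_norm_eq_prod
    (φ : integralClosure (Algebra.adjoin K ({t} : Set F)) F) (hφ : φ ≠ 0)
    (S : Finset (Place K F))
    (hS : ∀ P : Place K F, P ∈ S ↔ 0 ≤ P.ord t ∧ 0 < P.ord (φ : F)) :
    ∃ c : K, c ≠ 0 ∧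
      S17NF_norm ht φ = C c * ∏ P ∈ S, (X - C (FD_c0 P t)) ^ (P.ord (φ : F)).toNat := by
  classical
  letI := BG_isDedekindDomain ht
  letI := BG_isFractionRing (K := K) (x := t)
  obtain ⟨c, hc, hN⟩ := S17NF_norm_eq_multiset ht φ hφ
  refine ⟨c, hc, ?_⟩
  rw [hN, Finset.prod_multiset_map_count]
  congr 1
  have hI : (Ideal.span {φ} : Ideal (integralClosure (Algebra.adjoin K ({t} : Set F)) F)) ≠ ⊥ := by
    rwa [Ne, Ideal.span_singleton_eq_bot]
  have hmem : ∀ q ∈ (UniqueFactorizationMonoid.normalizedFactors (Ideal.span {φ})).toFinset,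
      q.IsPrime ∧ q ≠ ⊥ := by
    intro q hq
    rw [Multiset.mem_toFinset] at hq
    have hprime := UniqueFactorizationMonoid.prime_of_normalized_factor q hq
    exact ⟨Ideal.isPrime_of_prime hprime, hprime.ne_zero⟩
  refine Finset.prod_bij
    (fun q hq => Place.ofHeightOneSpectrum (K := K) (F := F)
      (⟨q, (hmem q hq).1, (hmem q hq).2⟩ :
        HeightOneSpectrum (integralClosure (Algebra.adjoin K ({t} : Set F)) F)))
    ?_ ?_ ?_ ?_
  · -- maps into `S`
    intro q hq
    rw [hS]
    set w : HeightOneSpectrum (integralClosure (Algebra.adjoin K ({t} : Set F)) F) :=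
      ⟨q, (hmem q hq).1, (hmem q hq).2⟩ with hw
    refine ⟨S17NF_ord_nonneg ht w (S17NF_tB K t), ?_⟩
    rw [← S17NF_mem_prime_iff ht w φ hφ]
    rw [Multiset.mem_toFinset, Ideal.mem_normalizedFactors_iff hI] at hq
    exact hq.2 (Ideal.subset_span rfl)
  · -- injective
    intro q₁ hq₁ q₂ hq₂ h
    have := BG_ofHeightOneSpectrum_injective (K := K) (F := F) h
    exact congrArg HeightOneSpectrum.asIdeal this
  · -- surjective
    intro P hP
    rw [hS] at hP
    have htP : t ∈ P.toValuationSubring := (BG_mem_iff_ord_nonneg P (S17NF_t_ne_zero ht)).mpr hP.1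
    obtain ⟨w, hw⟩ := BG_exists_heightOneSpectrum (K := K) (F := F)
      (B := integralClosure (Algebra.adjoin K ({t} : Set F)) F) P
      (fun b => BL_mem_of_isIntegral P htP (b := (b : F)) b.2)
    have hφw : φ ∈ w.asIdeal := by
      rw [S17NF_mem_prime_iff ht w φ hφ, hw]
      exact hP.2
    have hq : w.asIdeal ∈
        (UniqueFactorizationMonoid.normalizedFactors (Ideal.span {φ})).toFinset := by
      rw [Multiset.mem_toFinset, Ideal.mem_normalizedFactors_iff hI]
      refine ⟨w.isPrime, ?_⟩
      rw [Ideal.span_le, Set.singleton_subset_iff]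
      exact hφw
    exact ⟨w.asIdeal, hq, hw⟩
  · -- the factors agree
    intro q hq
    set w : HeightOneSpectrum (integralClosure (Algebra.adjoin K ({t} : Set F)) F) :=
      ⟨q, (hmem q hq).1, (hmem q hq).2⟩ with hw
    have h1 := S17NF_valI_eq_c0 ht w
    have h2 := S17NF_count_eq_ord ht w φ hφ
    have h3 : Multiset.count q (UniqueFactorizationMonoid.normalizedFactors (Ideal.span {φ})) =
        ((Place.ofHeightOneSpectrum (K := K) (F := F) w).ord (φ : F)).toNat := by
      rw [← h2]
      rfl
    rw [h3, ← h1]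

end primes

end Fermat.Agent.S17
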