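import Mathlib
import Fermat.Agent.S17.NormFib
import Fermat.Agent.S24.PrincipalDiv

/-!
# TRACK 8 (S17), heights, package NORMFIB part 2 (helper22): `t` with its only pole at `O`

Setting of `S17/NormFib.lean`, and in addition `O : Place K F` with
`hO : ∀ P, P.ord t < 0 ↔ P = O` (the only pole of `t` is `O`).

* `S17NF_mem_B_iff'`   : `f ∈ B ↔ ∀ P, 0 ≤ ord_P t → 0 ≤ ord_P f`   (any transcendental `t`);
* `S17NF_mem_B_iff`    : `f ∈ B ↔ ∀ P ≠ O, 0 ≤ ord_P f`;
* `S17NF_mem_B_of_RR`  : `L(n O) ⊆ B`;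
* `S17NF_finrank`      : `rank_R B = -ord_O t`;
* `S17NF_exists_zeros` : the finite set of zeros `≠ O` of `φ ∈ B`;
* `S17NF_natDegree`    : `deg N φ = -ord_O φ`;
* `S17NF_main`         : the norm–fibre formula with all of the above.
-/

set_option autoImplicit false
set_option linter.unusedSectionVars false
set_option linter.style.haveILetI false

open AlgebraicCurve IntermediateField IsDedekindDomain Polynomial
open scoped IntermediateField.algebraAdjoinAdjoin

universe u v

namespace Fermat.Agent.S17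

open Fermat.Agent.S24 Fermat.Agent.Lib Fermat.Agent.S18

variable {K : Type u} {F : Type v} [Field K] [Field F] [Algebra K F] [CharZero K]
  {t : F} (ht : Transcendental K t) [FiniteDimensional K⟮t⟯ F]

include ht in
/-- `B` is the ring of functions regular at the places where `t` is regular. -/
theorem S17NF_mem_B_iff' (f : F) :
    f ∈ integralClosure (Algebra.adjoin K ({t} : Set F)) F ↔
      ∀ P : Place K F, 0 ≤ P.ord t → 0 ≤ P.ord f := by
  constructor
  · intro hf P hP
    by_cases hf0 : f = 0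
    · rw [hf0, Place.ord_zero]
    have htP : t ∈ P.toValuationSubring :=
      (BG_mem_iff_ord_nonneg P (S17NF_t_ne_zero ht)).mpr hP
    exact (BG_mem_iff_ord_nonneg P hf0).mp (BL_mem_of_isIntegral P htP hf)
  · intro hf
    haveI : CharZero K⟮t⟯ := charZero_of_injective_algebraMap (algebraMap K K⟮t⟯).injective
    haveI : Algebra.IsSeparable K⟮t⟯ F := Algebra.IsSeparable.of_integral _ _
    exact S18_semi_isIntegral_of_regular ht f hf

variable (O : Place K F) (hO : ∀ P : Place K F, P.ord t < 0 ↔ P = O)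

include ht hO in
theorem S17NF_mem_B_iff (f : F) :
    f ∈ integralClosure (Algebra.adjoin K ({t} : Set F)) F ↔
      ∀ P : Place K F, P ≠ O → 0 ≤ P.ord f := by
  rw [S17NF_mem_B_iff' ht]
  constructor
  · intro h P hP
    apply h
    by_contra hn
    rw [not_le] at hn
    exact hP ((hO P).mp hn)
  · intro h P hP
    apply h
    intro hPO
    have := (hO P).mpr hPO
    omega

include ht hO in
/-- `L(n O) ⊆ B`. -/
theorem S17NF_mem_B_of_RR (n : ℤ) {f : F}
    (hf : f ∈ riemannRochSpace (Finsupp.single O n : Divisor K F)) :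
    f ∈ integralClosure (Algebra.adjoin K ({t} : Set F)) F := by
  rw [S17NF_mem_B_iff ht O hO]
  intro P hP
  rcases (mem_riemannRochSpace_iff.mp hf) P with h | h
  · rw [h, Place.ord_zero]
  · rw [Finsupp.single_eq_of_ne hP] at h
    simpa using h

section rank

variable [IsAlgClosed K]

include ht hO in
/-- **the rank**: `B` is free over `K[t]` of rank `-ord_O t` (`BG_free`, `BG_finite`). -/
theorem S17NF_finrank :
    (Module.finrank (Algebra.adjoin K ({t} : Set F))
      (integralClosure (Algebra.adjoin K ({t} : Set F)) F) : ℤ) = -O.ord t := by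
  rw [BG_finrank ht]
  have hti : Transcendental K t⁻¹ := BG_transcendental_inv ht
  have e : K⟮t⁻¹⟯ = K⟮t⟯ := BG_adjoin_inv t
  haveI hfin : FiniteDimensional K⟮t⁻¹⟯ F := e ▸ (inferInstance : FiniteDimensional K⟮t⟯ F)
  have hrank : Module.finrank K⟮t⁻¹⟯ F = Module.finrank K⟮t⟯ F := by
    clear hfin
    rw [e]
  have h := BG_sum_ord_zeros hti
  rw [hrank] at h
  rw [← h]
  have hS : (BG_finite_zeros hti).toFinset = {O} := by
    ext P
    rw [Set.Finite.mem_toFinset, Finset.mem_singleton, ← hO P]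
    show 0 < P.ord t⁻¹ ↔ _
    rw [Place.ord_inv]
    omega
  rw [hS, Finset.sum_singleton, Place.ord_inv]

end rank

section degree

variable [IsAlgClosed K] (hdeg : ∀ v : Place K F, v.deg = 1) (hP : HasPrincipalDivisors K F)

include ht hO hP in
/-- the finite set of zeros `≠ O` of `φ ∈ B`, and `∑ ord = -ord_O φ`. -/
theorem S17NF_exists_zeros (hdeg : ∀ v : Place K F, v.deg = 1)
    (φ : integralClosure (Algebra.adjoin K ({t} : Set F)) F) (hφ : φ ≠ 0) :
    ∃ S : Finset (Place K F), (∀ P : Place K F, P ∈ S ↔ P ≠ O ∧ 0 < P.ord (φ : F)) ∧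
      (∀ P : Place K F, P ∈ S ↔ 0 ≤ P.ord t ∧ 0 < P.ord (φ : F)) ∧
      ∑ P ∈ S, P.ord (φ : F) = -O.ord (φ : F) := by
  classical
  have hφ0 : (φ : F) ≠ 0 := fun h => hφ (Subtype.ext h)
  obtain ⟨D, hD, hD0⟩ := hP.exists_divisor (φ : F) hφ0
  have hreg := (S17NF_mem_B_iff ht O hO (φ : F)).mp φ.2
  have hmem : ∀ P : Place K F, P ∈ D.support.erase O ↔ P ≠ O ∧ 0 < P.ord (φ : F) := by
    intro P
    rw [Finset.mem_erase, Finsupp.mem_support_iff, hD]
    constructor
    · rintro ⟨h1, h2⟩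
      have := hreg P h1
      exact ⟨h1, by omega⟩
    · rintro ⟨h1, h2⟩
      exact ⟨h1, by omega⟩
  refine ⟨D.support.erase O, hmem, ?_, ?_⟩
  · intro P
    rw [hmem]
    constructor
    · rintro ⟨h1, h2⟩
      refine ⟨?_, h2⟩
      by_contra hn
      rw [not_le] at hn
      exact h1 ((hO P).mp hn)
    · rintro ⟨h1, h2⟩
      refine ⟨?_, h2⟩
      intro hPO
      have := (hO P).mpr hPO
      omega
  · have h1 := RR_degree_eq_sum_of_subset hdeg D (s := insert O (D.support.erase O)) (by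
      intro P hPs
      by_cases hPO : P = O
      · rw [hPO]; exact Finset.mem_insert_self _ _
      · exact Finset.mem_insert_of_mem (Finset.mem_erase.mpr ⟨hPO, hPs⟩))
    rw [hD0, Finset.sum_insert (Finset.notMem_erase O D.support)] at h1
    have h2 : ∑ P ∈ D.support.erase O, D P = ∑ P ∈ D.support.erase O, P.ord (φ : F) :=
      Finset.sum_congr rfl fun P _ => hD P
    rw [h2, hD] at h1
    omega

omit [CharZero K] [FiniteDimensional K⟮t⟯ F] [IsAlgClosed K] in
/-- the degree of a product of powers of linear factors. -/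
theorem S17NF_natDegree_prod {ι : Type*} (S : Finset ι) (a : ι → K) (n : ι → ℕ) (c : K)
    (hc : c ≠ 0) :
    (C c * ∏ i ∈ S, (X - C (a i)) ^ n i).natDegree = ∑ i ∈ S, n i := by
  rw [natDegree_C_mul hc, natDegree_prod_of_monic _ _ (fun i _ => (monic_X_sub_C (a i)).pow (n i))]
  apply Finset.sum_congr rfl
  intro i _
  rw [(monic_X_sub_C (a i)).natDegree_pow, natDegree_X_sub_C, mul_one]

include ht hO hP in
/-- **NORMFIB, main statement** (`t` with its only pole at `O`): for `φ ∈ B`, `φ ≠ 0`, there are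
`c ≠ 0` and the finite set `S` of zeros `≠ O` of `φ` with
`N φ = c · ∏_{P ∈ S} (X - t(P)) ^ ord_P φ`, and `deg N φ = -ord_O φ`. -/
theorem S17NF_main (hdeg : ∀ v : Place K F, v.deg = 1)
    (φ : integralClosure (Algebra.adjoin K ({t} : Set F)) F) (hφ : φ ≠ 0) :
    ∃ (c : K) (S : Finset (Place K F)), c ≠ 0 ∧
      (∀ P : Place K F, P ∈ S ↔ P ≠ O ∧ 0 < P.ord (φ : F)) ∧
      S17NF_norm ht φ = C c * ∏ P ∈ S, (X - C (FD_c0 P t)) ^ (P.ord (φ : F)).toNat ∧
      ((S17NF_norm ht φ).natDegree : ℤ) = -O.ord (φ : F) := by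
  obtain ⟨S, hS1, hS2, hsum⟩ := S17NF_exists_zeros ht O hO hP hdeg φ hφ
  obtain ⟨c, hc, hN⟩ := S17NF_norm_eq_prod ht φ hφ S hS2
  refine ⟨c, S, hc, hS1, hN, ?_⟩
  rw [hN, S17NF_natDegree_prod S _ _ c hc, ← hsum]
  push_cast
  apply Finset.sum_congr rfl
  intro P hPS
  have := ((hS1 P).mp hPS).2
  omega

include ht hO hP in
/-- `deg N φ = -ord_O φ`. -/
theorem S17NF_natDegree (hdeg : ∀ v : Place K F, v.deg = 1)
    (φ : integralClosure (Algebra.adjoin K ({t} : Set F)) F) (hφ : φ ≠ 0) :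
    ((S17NF_norm ht φ).natDegree : ℤ) = -O.ord (φ : F) := by
  obtain ⟨c, S, -, -, -, h⟩ := S17NF_main ht O hO hP hdeg φ hφ
  exact h

include ht in
theorem S17NF_norm_ne_zero
    (φ : integralClosure (Algebra.adjoin K ({t} : Set F)) F) (hφ : φ ≠ 0) :
    S17NF_norm ht φ ≠ 0 := by
  letI := BG_isDedekindDomain ht
  obtain ⟨c, hc, hN⟩ := S17NF_norm_eq_multiset ht φ hφ
  rw [hN]
  apply mul_ne_zero (C_ne_zero.mpr hc)
  apply Multiset.prod_ne_zero
  intro h
  obtain ⟨q, -, hq⟩ := Multiset.mem_map.mp h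
  exact X_sub_C_ne_zero _ hq

end degree

end Fermat.Agent.S17
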