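import Mathlib
import Fermat.Agent.S17.NormFibO

/-!
# NORMFIB part 3 (helper22): shift `t ↦ t - a`, determinant form, homogeneity

Setting as in `NormFib.lean`: `R = K[t] = Algebra.adjoin K {t}`, `B = integralClosure R F`.

* `S17NF_adjoin_sub`, `S17NF_transcendental_sub`, `S17NF_finiteDimensional_sub`,
  `S17NF_mem_B_sub` : `K[t - a] = K[t]`, and the integral closures agree.
* `S17NF_norm_sub`   : `N_{t-a} φ = (N_t φ).comp (X + C a)`.
* `S17NF_norm_algebraMap`, `S17NF_norm_t_pow` : `N (p(t)) = p ^ k`, `N (t ^ m) = X ^ (m k)`.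
* `S17NF_norm_eval_eq_det` : `(N φ_c)(a) = det (∑ c_j • N_j)`, `N_j` constant matrices.
* `S17NF_exists_hom_poly` : a homogeneous `G : MvPolynomial ι K` of degree `k = finrank R B`
  with `eval c G = (N (∑ c_j f_j))(a)`.
-/

open AlgebraicCurve IntermediateField IsDedekindDomain Polynomial
open scoped IntermediateField.algebraAdjoinAdjoin

universe u v

namespace Fermat.Agent.S17

open Fermat.Agent.S24 Fermat.Agent.Lib Fermat.Agent.S18

variable {K : Type u} {F : Type v} [Field K] [Field F] [Algebra K F]

/-- the generic matrix `∑_j X_j • N_j` over `MvPolynomial ι K`. -/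
noncomputable def S17NF_genMat {ι : Type*} [Fintype ι] {n : Type*}
    (N : ι → Matrix n n K) : Matrix n n (MvPolynomial ι K) :=
  fun i i' => ∑ j, MvPolynomial.C (N j i i') * MvPolynomial.X j

/-- the determinant of the generic matrix `∑_j X_j • N_j` is homogeneous of degree `card n`, and
specialises to `det (∑_j c_j • N_j)`. -/
theorem S17NF_det_hom {ι : Type*} [Fintype ι] {n : Type*} [Fintype n] [DecidableEq n]
    (N : ι → Matrix n n K) :
    (S17NF_genMat N).det.IsHomogeneous (Fintype.card n) ∧
      ∀ c : ι → K, MvPolynomial.eval c (S17NF_genMat N).det = (∑ j, c j • N j).det := by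
  classical
  refine ⟨?_, ?_⟩
  · rw [Matrix.det_apply]
    apply MvPolynomial.IsHomogeneous.sum
    intro σ _
    have h1 : (∏ i, (S17NF_genMat N) (σ i) i).IsHomogeneous (∑ _i : n, 1) := by
      apply MvPolynomial.IsHomogeneous.prod
      intro i _
      apply MvPolynomial.IsHomogeneous.sum
      intro j _
      have := (MvPolynomial.isHomogeneous_C ι (N j (σ i) i)).mul
        (MvPolynomial.isHomogeneous_X K j)
      simpa using this
    rw [Finset.sum_const, Finset.card_univ, smul_eq_mul, mul_one] at h1
    rcases Int.units_eq_one_or (Equiv.Perm.sign σ) with h | h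
    · rw [h, one_smul]; exact h1
    · rw [h, Units.neg_smul, one_smul]
      exact h1.neg
  · intro c
    rw [RingHom.map_det]
    congr 1
    ext i i'
    simp [S17NF_genMat, Matrix.sum_apply, Matrix.smul_apply, mul_comm]

/-- transport of the norm along an equality of subalgebras. -/
theorem S17NF_norm_transport {S S' : Subalgebra K F} (h : S = S')
    (e : K[X] ≃ₐ[K] S) (e' : K[X] ≃ₐ[K] S') (σ : K[X] → K[X])
    (hσ : ∀ p, ((e' p : S') : F) = ((e (σ p) : S) : F))
    (φ : integralClosure S F) (φ' : integralClosure S' F) (hφ : (φ : F) = (φ' : F)) :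
    e.symm (Algebra.norm S φ) = σ (e'.symm (Algebra.norm S' φ')) := by
  subst h
  have h1 : φ = φ' := Subtype.ext hφ
  subst h1
  apply e.injective
  rw [AlgEquiv.apply_symm_apply]
  apply Subtype.ext
  rw [← hσ, AlgEquiv.apply_symm_apply]

theorem S17NF_mem_integralClosure_congr {S S' : Subalgebra K F} (h : S = S') (f : F) :
    f ∈ integralClosure S F ↔ f ∈ integralClosure S' F := by
  subst h; rfl

variable {t : F}

theorem S17NF_adjoin_sub (a : K) :
    Algebra.adjoin K ({t - algebraMap K F a} : Set F) = Algebra.adjoin K ({t} : Set F) := by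
  apply le_antisymm
  · apply Algebra.adjoin_le
    rw [Set.singleton_subset_iff]
    exact Subalgebra.sub_mem _ (Algebra.self_mem_adjoin_singleton K t)
      (Subalgebra.algebraMap_mem _ a)
  · apply Algebra.adjoin_le
    rw [Set.singleton_subset_iff]
    have h1 := Subalgebra.add_mem _
      (Algebra.self_mem_adjoin_singleton K (t - algebraMap K F a))
      (Subalgebra.algebraMap_mem (Algebra.adjoin K ({t - algebraMap K F a} : Set F)) a)
    rwa [sub_add_cancel] at h1

theorem S17NF_transcendental_sub (ht : Transcendental K t) (a : K) :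
    Transcendental K (t - algebraMap K F a) := by
  intro h
  apply ht
  have h1 := h.add (isAlgebraic_algebraMap (R := K) (A := F) a)
  rwa [sub_add_cancel] at h1

theorem S17NF_field_adjoin_sub (a : K) :
    K⟮t - algebraMap K F a⟯ = K⟮t⟯ := by
  apply le_antisymm
  · rw [IntermediateField.adjoin_simple_le_iff]
    exact sub_mem (IntermediateField.mem_adjoin_simple_self K t)
      (IntermediateField.algebraMap_mem _ a)
  · rw [IntermediateField.adjoin_simple_le_iff]
    have h1 := add_mem (IntermediateField.mem_adjoin_simple_self K (t - algebraMap K F a))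
      (IntermediateField.algebraMap_mem K⟮t - algebraMap K F a⟯ a)
    rwa [sub_add_cancel] at h1

theorem S17NF_finiteDimensional_congr {E E' : IntermediateField K F} (h : E = E')
    [FiniteDimensional E F] : FiniteDimensional E' F := by
  subst h; infer_instance

theorem S17NF_finiteDimensional_sub [FiniteDimensional K⟮t⟯ F] (a : K) :
    FiniteDimensional K⟮t - algebraMap K F a⟯ F :=
  S17NF_finiteDimensional_congr (S17NF_field_adjoin_sub (K := K) (t := t) a).symm

theorem S17NF_mem_B_sub (a : K) (f : F) :
    f ∈ integralClosure (Algebra.adjoin K ({t - algebraMap K F a} : Set F)) F ↔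
      f ∈ integralClosure (Algebra.adjoin K ({t} : Set F)) F :=
  S17NF_mem_integralClosure_congr (S17NF_adjoin_sub a) f

/-- **SHIFT**: the norm with respect to `t - a` is the norm with respect to `t`, composed with
`X + C a`. -/
theorem S17NF_norm_sub (ht : Transcendental K t) (a : K)
    (ht' : Transcendental K (t - algebraMap K F a))
    (φ : integralClosure (Algebra.adjoin K ({t} : Set F)) F)
    (φ' : integralClosure (Algebra.adjoin K ({t - algebraMap K F a} : Set F)) F)
    (hφ : (φ : F) = (φ' : F)) :
    S17NF_norm ht' φ' = (S17NF_norm ht φ).comp (X + C a) := by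
  have h := S17NF_norm_transport (S17NF_adjoin_sub (K := K) (t := t) a)
    (BL_equiv ht') (BL_equiv ht) (fun p => p.comp (X + C a)) (fun p => by
      rw [BL_equiv_coe, BL_equiv_coe, Polynomial.aeval_comp]
      congr 1
      simp) φ' φ hφ.symm
  exact h

section det

variable [CharZero K] (ht : Transcendental K t) [FiniteDimensional K⟮t⟯ F]

include ht in
/-- `N (p(t)) = p ^ k`, `k = finrank R B`. -/
theorem S17NF_norm_algebraMap (p : K[X])
    (φ : integralClosure (Algebra.adjoin K ({t} : Set F)) F)
    (hφ : (φ : F) = Polynomial.aeval t p) :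
    S17NF_norm ht φ = p ^ Module.finrank (Algebra.adjoin K ({t} : Set F))
      (integralClosure (Algebra.adjoin K ({t} : Set F)) F) := by
  classical
  have := BG_finite ht
  have := BG_free ht
  have h1 : φ = algebraMap (Algebra.adjoin K ({t} : Set F))
      (integralClosure (Algebra.adjoin K ({t} : Set F)) F) (BL_equiv ht p) := by
    apply Subtype.ext
    rw [hφ, ← BL_equiv_coe ht]
    rfl
  unfold S17NF_norm
  rw [h1, Algebra.norm_algebraMap_of_basis
    (Module.finBasis (Algebra.adjoin K ({t} : Set F))
      (integralClosure (Algebra.adjoin K ({t} : Set F)) F)), map_pow,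
    AlgEquiv.symm_apply_apply, Fintype.card_fin]

include ht in
/-- `N (t ^ m) = X ^ (m k)`. -/
theorem S17NF_norm_t_pow (m : ℕ)
    (φ : integralClosure (Algebra.adjoin K ({t} : Set F)) F)
    (hφ : (φ : F) = t ^ m) :
    S17NF_norm ht φ = X ^ (m * Module.finrank (Algebra.adjoin K ({t} : Set F))
      (integralClosure (Algebra.adjoin K ({t} : Set F)) F)) := by
  rw [S17NF_norm_algebraMap ht (X ^ m) φ (by rw [hφ, map_pow, Polynomial.aeval_X]), pow_mul]

/-- evaluation at `a` of the polynomial attached to an element of `R = K[t]`. -/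
noncomputable def S17NF_rho (a : K) : Algebra.adjoin K ({t} : Set F) →+* K :=
  (Polynomial.evalRingHom a).comp ((BL_equiv ht).symm : Algebra.adjoin K ({t} : Set F) →+* K[X])

omit [CharZero K] [FiniteDimensional K⟮t⟯ F] in
theorem S17NF_rho_apply (a : K) (r : Algebra.adjoin K ({t} : Set F)) :
    S17NF_rho ht a r = ((BL_equiv ht).symm r).eval a := rfl

omit [CharZero K] [FiniteDimensional K⟮t⟯ F] in
theorem S17NF_rho_algebraMap (a c : K) :
    S17NF_rho ht a (algebraMap K (Algebra.adjoin K ({t} : Set F)) c) = c := by
  rw [S17NF_rho_apply, AlgEquiv.commutes, Polynomial.algebraMap_eq, Polynomial.eval_C]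

omit [CharZero K] [FiniteDimensional K⟮t⟯ F] in
theorem S17NF_eval_norm_eq_rho (a : K)
    (φ : integralClosure (Algebra.adjoin K ({t} : Set F)) F) :
    (S17NF_norm ht φ).eval a = S17NF_rho ht a (Algebra.norm (Algebra.adjoin K ({t} : Set F)) φ) :=
  rfl

/-- the constant matrix of multiplication by `f`, reduced at `t = a`, in the chosen basis of
`B` over `K[t]`. -/
noncomputable def S17NF_mat (a : K) (f : integralClosure (Algebra.adjoin K ({t} : Set F)) F) :
    Matrix (Fin (Module.finrank (Algebra.adjoin K ({t} : Set F))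
      (integralClosure (Algebra.adjoin K ({t} : Set F)) F)))
      (Fin (Module.finrank (Algebra.adjoin K ({t} : Set F))
      (integralClosure (Algebra.adjoin K ({t} : Set F)) F))) K :=
  haveI := BG_finite ht
  haveI := BG_free ht
  (S17NF_rho ht a).mapMatrix (Algebra.leftMulMatrix
    (Module.finBasis (Algebra.adjoin K ({t} : Set F))
      (integralClosure (Algebra.adjoin K ({t} : Set F)) F)) f)

/-- **DETERMINANT FORM**: `(N φ)(a) = det (∑_j c_j • M_j)` for `φ = ∑_j c_j f_j`. -/
theorem S17NF_norm_eval_eq_det {ι : Type*} [Fintype ι] (a : K)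
    (f : ι → integralClosure (Algebra.adjoin K ({t} : Set F)) F) (c : ι → K)
    (φ : integralClosure (Algebra.adjoin K ({t} : Set F)) F)
    (hφ : (φ : F) = ∑ j, c j • (f j : F)) :
    (S17NF_norm ht φ).eval a = (∑ j, c j • S17NF_mat ht a (f j)).det := by
  classical
  have := BG_finite ht
  have := BG_free ht
  have h1 : φ = ∑ j, algebraMap K (Algebra.adjoin K ({t} : Set F)) (c j) • f j := by
    apply Subtype.ext
    rw [hφ]
    push_cast
    refine Finset.sum_congr rfl fun j _ => ?_
    rw [Algebra.smul_def, Algebra.smul_def]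
    rfl
  rw [S17NF_eval_norm_eq_rho, Algebra.norm_eq_matrix_det
    (Module.finBasis (Algebra.adjoin K ({t} : Set F))
      (integralClosure (Algebra.adjoin K ({t} : Set F)) F)), RingHom.map_det, h1]
  congr 1
  rw [map_sum, map_sum]
  refine Finset.sum_congr rfl fun j _ => ?_
  rw [map_smul]
  ext i i'
  simp only [RingHom.mapMatrix_apply, Matrix.map_apply, Matrix.smul_apply, smul_eq_mul,
    S17NF_mat, map_mul, S17NF_rho_algebraMap]

/-- **the homogeneous form** `G` with `G(c) = (N (∑_j c_j f_j))(a)`. -/
noncomputable def S17NF_G {ι : Type*} [Fintype ι] (a : K)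
    (f : ι → integralClosure (Algebra.adjoin K ({t} : Set F)) F) : MvPolynomial ι K :=
  (S17NF_genMat (fun j => S17NF_mat ht a (f j))).det

theorem S17NF_G_isHomogeneous {ι : Type*} [Fintype ι] (a : K)
    (f : ι → integralClosure (Algebra.adjoin K ({t} : Set F)) F) :
    (S17NF_G ht a f).IsHomogeneous (Module.finrank (Algebra.adjoin K ({t} : Set F))
      (integralClosure (Algebra.adjoin K ({t} : Set F)) F)) := by
  classical
  have h := (S17NF_det_hom (fun j => S17NF_mat ht a (f j))).1
  rwa [Fintype.card_fin] at h

theorem S17NF_G_eval {ι : Type*} [Fintype ι] (a : K)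
    (f : ι → integralClosure (Algebra.adjoin K ({t} : Set F)) F) (c : ι → K)
    (φ : integralClosure (Algebra.adjoin K ({t} : Set F)) F)
    (hφ : (φ : F) = ∑ j, c j • (f j : F)) :
    MvPolynomial.eval c (S17NF_G ht a f) = (S17NF_norm ht φ).eval a := by
  classical
  rw [S17NF_norm_eval_eq_det ht a f c φ hφ]
  exact (S17NF_det_hom (fun j => S17NF_mat ht a (f j))).2 c

end det

end Fermat.Agent.S17
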