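import Mathlib
import Fermat.Agent.S17.NormFibS
import Fermat.Agent.S17.NGZero
import Fermat.Agent.S17.Chow

/-!
# TRACK 8 (S17), package CHOW, concrete wiring (helper22): the term `S17CH_Data` of a curve

`F / K` a function field (`RR_Hyp K F`), `K` algebraically closed of characteristic `0`, `O` a
place, `e : ι → F` a linearly independent family in `L(kO)` with `e i0 = 1`, `e il` of exact pole
order `k` and all other `e j ∈ L((k-1)O)` (helper24's spelling, `S17NGZ_main`).

* `S17CC_phi e c`   : `φ_c = ∑ j, c j • e j`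
* `S17CC_Z O e c`   : the multiset of zeros `≠ O` of `φ_c`, with multiplicities
* `S17CC_G … X`     : the norm form, `eval c (G X) = N_{F/K(t_X)}(φ_c)(0)`, `t_X = φ_X`
* `S17CC_Z1`, `S17CC_Z2`, `S17CC_M1`, `S17CC_M2` : the dictionary for `Z`
* `S17CC_data`      : the term `S17CH_Data K ι ι {P : Place K F // P ≠ O}`
-/

set_option autoImplicit false

open AlgebraicCurve IntermediateField Polynomial WithZero
open scoped IntermediateField.algebraAdjoinAdjoin

universe u v

namespace Fermat.Agent.S17

open Fermat.Agent.S24 Fermat.Agent.Lib Fermat.Agent.S18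

variable {K : Type u} {F : Type v} [Field K] [Field F] [Algebra K F] {ι : Type*}

/-- `φ_c = ∑ j, c j • e j`. -/
noncomputable def S17CC_phi [Fintype ι] (e : ι → F) (c : ι → K) : F := ∑ j, c j • e j

section basic

variable [Fintype ι] (O : Place K F) (k : ℕ) (e : ι → F) (i0 il : ι)
  (he0 : e i0 = 1)
  (hereg : ∀ j, ∀ P : Place K F, P ≠ O → P.adicValuation (e j) ≤ 1)
  (hel : O.adicValuation (e il) = exp (k : ℤ))
  (helow : ∀ j, j ≠ il → O.adicValuation (e j) ≤ exp ((k : ℤ) - 1))
  (hk : 1 ≤ k)

include hereg in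
theorem S17CC_phi_reg (c : ι → K) {P : Place K F} (hP : P ≠ O) :
    P.adicValuation (S17CC_phi e c) ≤ 1 := by
  unfold S17CC_phi
  apply Valuation.map_sum_le
  intro j _
  rw [Algebra.smul_def, map_mul]
  exact mul_le_one' (P.adicValuation_algebraMap_le_one _) (hereg j P hP)

omit [Fintype ι] in
include helow in
/-- the part of `φ_c` without the last coordinate has a pole of order `≤ k - 1`. -/
theorem S17CC_val_O_low (c : ι → K) (s : Finset ι) (hs : il ∉ s) :
    O.adicValuation (∑ j ∈ s, c j • e j) ≤ exp ((k : ℤ) - 1) := by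
  apply Valuation.map_sum_le
  intro j hj
  rw [Algebra.smul_def, map_mul]
  calc O.adicValuation (algebraMap K F (c j)) * O.adicValuation (e j)
      ≤ 1 * exp ((k : ℤ) - 1) :=
        mul_le_mul' (O.adicValuation_algebraMap_le_one _)
          (helow j (fun h => hs (h ▸ hj)))
    _ = exp ((k : ℤ) - 1) := one_mul _

omit [Fintype ι] in
/-- constants `≠ 0` are units at every place. -/
theorem S17CC_val_const (P : Place K F) {a : K} (ha : a ≠ 0) :
    P.adicValuation (algebraMap K F a) = 1 := by
  apply le_antisymm (P.adicValuation_algebraMap_le_one _)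
  have h2 := P.adicValuation_algebraMap_le_one a⁻¹
  have h3 : P.adicValuation (algebraMap K F a) * P.adicValuation (algebraMap K F a⁻¹) = 1 := by
    rw [← map_mul, ← map_mul, mul_inv_cancel₀ ha, map_one, map_one]
  calc (1 : ℤᵐ⁰) = P.adicValuation (algebraMap K F a) *
        P.adicValuation (algebraMap K F a⁻¹) := h3.symm
    _ ≤ P.adicValuation (algebraMap K F a) * 1 := mul_le_mul' le_rfl h2
    _ = _ := mul_one _

/-- there is a finite set `s ∌ il` with `φ_c = c il • e il + ∑ j ∈ s, c j • e j`. -/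
theorem S17CC_phi_split (c : ι → K) :
    ∃ s : Finset ι, il ∉ s ∧ S17CC_phi e c = c il • e il + ∑ j ∈ s, c j • e j := by
  classical
  refine ⟨Finset.univ.erase il, Finset.notMem_erase _ _, ?_⟩
  unfold S17CC_phi
  exact (Finset.add_sum_erase Finset.univ (fun j => c j • e j) (Finset.mem_univ il)).symm

include hel helow in
/-- `φ_c` has a pole of exact order `k` at `O` if `c il ≠ 0`. -/
theorem S17CC_val_O (c : ι → K) (hc : c il ≠ 0) :
    O.adicValuation (S17CC_phi e c) = exp (k : ℤ) := by
  obtain ⟨s, hs, hsplit⟩ := S17CC_phi_split e il c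
  have h1 : O.adicValuation (c il • e il) = exp (k : ℤ) := by
    rw [Algebra.smul_def, map_mul, hel, S17CC_val_const O hc, one_mul]
  have h2 : O.adicValuation (∑ j ∈ s, c j • e j) <
      O.adicValuation (c il • e il) := by
    rw [h1]
    refine lt_of_le_of_lt (S17CC_val_O_low O k e il helow c s hs) ?_
    rw [exp_lt_exp]
    omega
  rw [hsplit, Valuation.map_add_eq_of_lt_left _ h2, h1]

include hel helow in
theorem S17CC_val_O_le (c : ι → K) :
    O.adicValuation (S17CC_phi e c) ≤ exp (k : ℤ) := by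
  obtain ⟨s, hs, hsplit⟩ := S17CC_phi_split e il c
  rw [hsplit]
  refine (Valuation.map_add _ _ _).trans (max_le ?_ ?_)
  · rw [Algebra.smul_def, map_mul, hel]
    calc O.adicValuation (algebraMap K F (c il)) * exp (k : ℤ) ≤ 1 * exp (k : ℤ) :=
          mul_le_mul' (O.adicValuation_algebraMap_le_one _) le_rfl
      _ = _ := one_mul _
  · refine (S17CC_val_O_low O k e il helow c s hs).trans ?_
    rw [exp_le_exp]
    omega

include helow in
theorem S17CC_val_O_of_zero (c : ι → K) (hc : c il = 0) :
    O.adicValuation (S17CC_phi e c) ≤ exp ((k : ℤ) - 1) := by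
  obtain ⟨s, hs, hsplit⟩ := S17CC_phi_split e il c
  rw [hsplit, hc, zero_smul, zero_add]
  exact S17CC_val_O_low O k e il helow c s hs

include hel helow in
theorem S17CC_phi_ne_zero_of_last (c : ι → K) (hc : c il ≠ 0) : S17CC_phi e c ≠ 0 := by
  intro h0
  have h1 := S17CC_val_O O k e il hel helow c hc
  rw [h0, map_zero] at h1
  exact WithZero.exp_ne_zero h1.symm

include hel helow in
/-- `ord_O φ_c = -k` if `c il ≠ 0`. -/
theorem S17CC_ord_O (c : ι → K) (hc : c il ≠ 0) : O.ord (S17CC_phi e c) = -(k : ℤ) := by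
  have h0 := S17CC_phi_ne_zero_of_last O k e il hel helow c hc
  have h1 := S17CC_val_O O k e il hel helow c hc
  rw [O.adicValuation_eq_exp_neg_ord h0, exp_inj] at h1
  omega

include hereg hel helow hk in
/-- the only pole of `φ_c` is `O` (`c il ≠ 0`). -/
theorem S17CC_hO (c : ι → K) (hc : c il ≠ 0) (P : Place K F) :
    P.ord (S17CC_phi e c) < 0 ↔ P = O := by
  constructor
  · intro hP
    by_contra hne
    have h1 := S17CC_phi_reg O e hereg c hne
    rcases P.adicValuation_le_one_iff.mp h1 with h2 | h2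
    · rw [h2, Place.ord_zero] at hP
      exact lt_irrefl _ hP
    · omega
  · rintro rfl
    rw [S17CC_ord_O P k e il hel helow c hc]
    omega

end basic

theorem S17CC_prod_replicate {α : Type*} {M : Type*} [CommMonoid M] (s : Finset α) (n : α → ℕ)
    (f : α → M) :
    ((∑ P ∈ s, Multiset.replicate (n P) P).map f).prod = ∏ P ∈ s, f P ^ n P := by
  classical
  induction s using Finset.induction_on with
  | empty => simp
  | insert a s ha ih =>
    rw [Finset.sum_insert ha, Finset.prod_insert ha, Multiset.map_add, Multiset.prod_add, ih,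
      Multiset.map_replicate, Multiset.prod_replicate]

theorem S17CC_card_replicate {α : Type*} (s : Finset α) (n : α → ℕ) :
    Multiset.card (∑ P ∈ s, Multiset.replicate (n P) P) = ∑ P ∈ s, n P := by
  classical
  induction s using Finset.induction_on with
  | empty => simp
  | insert a s ha ih =>
    rw [Finset.sum_insert ha, Finset.sum_insert ha, Multiset.card_add, ih,
      Multiset.card_replicate]

theorem S17CC_count_replicate {α : Type*} [DecidableEq α] (s : Finset α) (n : α → ℕ) (a : α) :
    Multiset.count a (∑ P ∈ s, Multiset.replicate (n P) P) = if a ∈ s then n a else 0 := by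
  induction s using Finset.induction_on with
  | empty => simp
  | insert b s hb ih =>
    rw [Finset.sum_insert hb, Multiset.count_add, ih, Multiset.count_replicate]
    by_cases hab : b = a
    · subst hab
      simp [hb]
    · have : a ∉ s → (a ∈ insert b s ↔ False) := by
        intro has
        simp [has, Ne.symm hab]
      by_cases has : a ∈ s
      · simp [hab, has]
      · simp [hab, has, Ne.symm hab]

/-- `S17NF_norm_sub` for a `t'` that is only propositionally `t - a`. -/
theorem S17CC_norm_sub' {t : F} (ht : Transcendental K t) (a : K) {t' : F}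
    (heq : t' = t - algebraMap K F a) (ht' : Transcendental K t')
    (φ : integralClosure (Algebra.adjoin K ({t} : Set F)) F)
    (φ' : integralClosure (Algebra.adjoin K ({t'} : Set F)) F)
    (hφ : (φ : F) = (φ' : F)) :
    S17NF_norm ht' φ' = (S17NF_norm ht φ).comp (X + C a) := by
  subst heq
  exact S17NF_norm_sub ht a ht' φ φ' hφ

section curve

variable [CharZero K] [IsAlgClosed K] [Fintype ι]
  (h : RR_Hyp K F) (O : Place K F) (k : ℕ) (e : ι → F) (i0 il : ι)
  (he0 : e i0 = 1)
  (hereg : ∀ j, ∀ P : Place K F, P ≠ O → P.adicValuation (e j) ≤ 1)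
  (hel : O.adicValuation (e il) = exp (k : ℤ))
  (helow : ∀ j, j ≠ il → O.adicValuation (e j) ≤ exp ((k : ℤ) - 1))
  (hk : 1 ≤ k)
  (hli : LinearIndependent K e)

omit [CharZero K] in
include hel helow hk in
theorem S17CC_transc (c : ι → K) (hc : c il ≠ 0) : Transcendental K (S17CC_phi e c) :=
  BL_transcendental_of_ord_ne_zero O (by
    rw [S17CC_ord_O O k e il hel helow c hc]
    omega)

omit [CharZero K] in
include h hel helow hk in
theorem S17CC_findim (c : ι → K) (hc : c il ≠ 0) :
    FiniteDimensional K⟮S17CC_phi e c⟯ F := by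
  obtain ⟨x, -, hfin, -⟩ := h.exists_x
  exact BL_finite_of_transcendental hfin (S17CC_transc O k e il hel helow hk c hc)

include h hereg hel helow hk in
/-- functions regular off `O` are integral over `K[t_X]`. -/
theorem S17CC_mem_B (X : ι → K) (hX : X il ≠ 0) (f : F)
    (hf : ∀ P : Place K F, P ≠ O → P.adicValuation f ≤ 1) :
    f ∈ integralClosure (Algebra.adjoin K ({S17CC_phi e X} : Set F)) F := by
  have := S17CC_findim h O k e il hel helow hk X hX
  rw [S17NF_mem_B_iff (S17CC_transc O k e il hel helow hk X hX) O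
    (S17CC_hO O k e il hereg hel helow hk X hX)]
  intro P hP
  rcases P.adicValuation_le_one_iff.mp (hf P hP) with h0 | h0
  · rw [h0, Place.ord_zero]
  · exact h0

include h hereg hel helow hk in
/-- the rank of `B` over `K[t_X]` is `k`. -/
theorem S17CC_finrank (X : ι → K) (hX : X il ≠ 0) :
    Module.finrank (Algebra.adjoin K ({S17CC_phi e X} : Set F))
      (integralClosure (Algebra.adjoin K ({S17CC_phi e X} : Set F)) F) = k := by
  have := S17CC_findim h O k e il hel helow hk X hX
  have h1 := S17NF_finrank (S17CC_transc O k e il hel helow hk X hX) O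
    (S17CC_hO O k e il hereg hel helow hk X hX)
  rw [S17CC_ord_O O k e il hel helow X hX, neg_neg] at h1
  exact_mod_cast h1

omit [CharZero K] [IsAlgClosed K] in
include hli in
theorem S17CC_phi_ne_zero (c : ι → K) (hc : c ≠ 0) : S17CC_phi e c ≠ 0 := by
  intro h0
  apply hc
  funext j
  exact Fintype.linearIndependent_iff.mp hli c h0 j

omit [CharZero K] [IsAlgClosed K] in
include h hereg in
/-- the value of `φ_b` at `P ≠ O`. -/
theorem S17CC_c0_phi {P : Place K F} (hP : P ≠ O) (b : ι → K) :
    FD_c0 P (S17CC_phi e b) = ∑ j, b j * FD_c0 P (e j) := by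
  classical
  have key : ∀ s : Finset ι, P.adicValuation (∑ j ∈ s, b j • e j) ≤ 1 ∧
      FD_c0 P (∑ j ∈ s, b j • e j) = ∑ j ∈ s, b j * FD_c0 P (e j) := by
    intro s
    induction s using Finset.induction_on with
    | empty =>
      refine ⟨by simp, ?_⟩
      rw [Finset.sum_empty, Finset.sum_empty]
      exact FD_c0_unique P (by simp)
    | insert a s ha ih =>
      rw [Finset.sum_insert ha, Finset.sum_insert ha]
      have h1 : P.adicValuation (b a • e a) ≤ 1 := by
        rw [Algebra.smul_def, map_mul]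
        exact mul_le_one' (P.adicValuation_algebraMap_le_one _) (hereg a P hP)
      refine ⟨(Valuation.map_add _ _ _).trans (max_le h1 ih.1), ?_⟩
      rw [(FD_c0_add P (h.deg_one P) h1 ih.1).1, ih.2,
        (FD_c0_smul P (h.deg_one P) (b a) (hereg a P hP)).1]
  exact (key Finset.univ).2

/-! ## the zeros of `φ_c` -/

omit [CharZero K] [IsAlgClosed K] [Fintype ι] in
include h in
theorem S17CC_exists_zeroSet (f : F) :
    ∃ S : Finset {P : Place K F // P ≠ O}, ∀ P : {P : Place K F // P ≠ O},
      P ∈ S ↔ 0 < P.1.ord f := by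
  classical
  by_cases hf : f = 0
  · refine ⟨∅, fun P => ?_⟩
    rw [hf, Place.ord_zero]
    simp
  · obtain ⟨D, hD, -⟩ := h.principal.exists_divisor f hf
    refine ⟨(D.support.filter (fun P => 0 < P.ord f)).subtype (fun P => P ≠ O), fun P => ?_⟩
    rw [Finset.mem_subtype, Finset.mem_filter, Finsupp.mem_support_iff, hD]
    constructor
    · rintro ⟨-, h2⟩
      exact h2
    · intro h2
      exact ⟨by omega, h2⟩

/-- the finite set of zeros `≠ O` of `f`, as places `≠ O`. -/
noncomputable def S17CC_zeroSet' (h : RR_Hyp K F) (O : Place K F) (f : F) :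
    Finset {P : Place K F // P ≠ O} :=
  (S17CC_exists_zeroSet h O f).choose

omit [CharZero K] [IsAlgClosed K] [Fintype ι] in
theorem S17CC_mem_zeroSet' (f : F) (P : {P : Place K F // P ≠ O}) :
    P ∈ S17CC_zeroSet' h O f ↔ 0 < P.1.ord f :=
  (S17CC_exists_zeroSet h O f).choose_spec P

/-- the finite set of zeros `≠ O` of `f`. -/
noncomputable def S17CC_zeroSet (h : RR_Hyp K F) (O : Place K F) (f : F) : Finset (Place K F) :=
  (S17CC_zeroSet' h O f).map (Function.Embedding.subtype _)

omit [CharZero K] [IsAlgClosed K] [Fintype ι] in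
theorem S17CC_mem_zeroSet (f : F) (P : Place K F) :
    P ∈ S17CC_zeroSet h O f ↔ P ≠ O ∧ 0 < P.ord f := by
  unfold S17CC_zeroSet
  rw [Finset.mem_map]
  constructor
  · rintro ⟨Q, hQ, rfl⟩
    exact ⟨Q.2, (S17CC_mem_zeroSet' h O f Q).mp hQ⟩
  · rintro ⟨h1, h2⟩
    exact ⟨⟨P, h1⟩, (S17CC_mem_zeroSet' h O f ⟨P, h1⟩).mpr h2, rfl⟩

/-- **the multiset of zeros `≠ O` of `φ_c`**, with multiplicities. -/
noncomputable def S17CC_Z (h : RR_Hyp K F) (O : Place K F) (e : ι → F) (c : ι → K) :
    Multiset {P : Place K F // P ≠ O} :=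
  ∑ P ∈ S17CC_zeroSet' h O (S17CC_phi e c),
    Multiset.replicate (P.1.ord (S17CC_phi e c)).toNat P

omit [CharZero K] [IsAlgClosed K] in
open Classical in
/-- **(Z1)** the multiplicity of `P` in `Z c` is `ord_P φ_c`. -/
theorem S17CC_Z1 (c : ι → K) (P : {P : Place K F // P ≠ O}) :
    (S17CC_Z h O e c).count P = (P.1.ord (S17CC_phi e c)).toNat := by
  unfold S17CC_Z
  rw [S17CC_count_replicate]
  split_ifs with hmem
  · rfl
  · rw [S17CC_mem_zeroSet'] at hmem
    symm
    rw [Int.toNat_eq_zero]
    omega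

omit [CharZero K] [IsAlgClosed K] in
/-- products over `Z c`. -/
theorem S17CC_Z_map_prod (c : ι → K) {M : Type*} [CommMonoid M]
    (g : Place K F → M) :
    ((S17CC_Z h O e c).map fun R => g R.1).prod =
      ∏ P ∈ S17CC_zeroSet h O (S17CC_phi e c), g P ^ (P.ord (S17CC_phi e c)).toNat := by
  unfold S17CC_Z S17CC_zeroSet
  rw [S17CC_prod_replicate _ _ (fun R : {P : Place K F // P ≠ O} => g R.1), Finset.prod_map]
  rfl

omit [CharZero K] [IsAlgClosed K] in
theorem S17CC_Z_card (c : ι → K) :
    Multiset.card (S17CC_Z h O e c) =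
      ∑ P ∈ S17CC_zeroSet h O (S17CC_phi e c), (P.ord (S17CC_phi e c)).toNat := by
  unfold S17CC_Z S17CC_zeroSet
  rw [S17CC_card_replicate, Finset.sum_map]
  rfl

include h hereg hel helow hk in
/-- **(Z2)** `card (Z c) = - ord_O φ_c`. -/
theorem S17CC_Z2' (c : ι → K) (hφ : S17CC_phi e c ≠ 0) :
    (Multiset.card (S17CC_Z h O e c) : ℤ) = -O.ord (S17CC_phi e c) := by
  classical
  have hX : (fun _ : ι => (1 : K)) il ≠ 0 := one_ne_zero
  have := S17CC_findim h O k e il hel helow hk (fun _ : ι => (1 : K)) hX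
  have hmem := S17CC_mem_B h O k e il hereg hel helow hk (fun _ : ι => (1 : K)) hX
    (S17CC_phi e c) (fun P hP => S17CC_phi_reg O e hereg c hP)
  obtain ⟨S, hS1, -, hsum⟩ := S17NF_exists_zeros
    (S17CC_transc O k e il hel helow hk (fun _ : ι => (1 : K)) hX) O
    (S17CC_hO O k e il hereg hel helow hk (fun _ : ι => (1 : K)) hX) h.principal h.deg_one
    ⟨S17CC_phi e c, hmem⟩ (fun h0 => hφ (congrArg Subtype.val h0))
  have hS : S = S17CC_zeroSet h O (S17CC_phi e c) := by
    ext P
    rw [hS1, S17CC_mem_zeroSet]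
  rw [S17CC_Z_card, ← hsum, hS]
  push_cast
  refine Finset.sum_congr rfl fun P hP => ?_
  have h2 := ((S17CC_mem_zeroSet h O _ P).mp hP).2
  exact Int.toNat_of_nonneg h2.le

include h hereg hel helow hk hli in
/-- **(Z2)** `card (Z c) = - ord_O φ_c` for `c ≠ 0`. -/
theorem S17CC_Z2 (c : ι → K) (hc : c ≠ 0) :
    (Multiset.card (S17CC_Z h O e c) : ℤ) = -O.ord (S17CC_phi e c) :=
  S17CC_Z2' h O k e il hereg hel helow hk c (S17CC_phi_ne_zero e hli c hc)

omit [CharZero K] [IsAlgClosed K] in
include hereg hli in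
/-- **(M1)** a place `P ≠ O` with `⟨c, ev P⟩ = 0` is a zero of `φ_c`. -/
theorem S17CC_M1 (c : ι → K) (hc : c ≠ 0) (P : {P : Place K F // P ≠ O})
    (h0 : ∑ j, c j * S17NGZ_ev P.1 e j = 0) : P ∈ S17CC_Z h O e c := by
  classical
  have hφ := S17CC_phi_ne_zero e hli c hc
  have h1 : FD_c0 P.1 (S17CC_phi e c) = 0 := by
    rw [S17CC_c0_phi h O e hereg P.2 c]
    exact h0
  have h2 := (FD_c0_eq_zero_iff P.1 (h.deg_one P.1) (S17CC_phi_reg O e hereg c P.2)).mp h1
  have h3 := (S17NF_val_lt_one_iff P.1 hφ).mp h2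
  rw [← Multiset.count_pos, S17CC_Z1]
  omega

include h hereg hel helow hk hli in
/-- **(M2)** if `c il = 0` then `φ_c` has fewer than `k` zeros off `O`. -/
theorem S17CC_M2 (c : ι → K) (hc : c ≠ 0) (hl : c il = 0) :
    Multiset.card (S17CC_Z h O e c) < k := by
  have hφ := S17CC_phi_ne_zero e hli c hc
  have h1 := S17CC_Z2 h O k e il hereg hel helow hk hli c hc
  have h2 := S17CC_val_O_of_zero O k e il helow c hl
  rcases O.adicValuation_le_exp_iff.mp h2 with h3 | h3
  · exact absurd h3 hφ
  · omega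

include h hereg hel helow hk in
/-- `card (Z c) = k` if `c il ≠ 0`. -/
theorem S17CC_card_top (c : ι → K) (hc : c il ≠ 0) :
    Multiset.card (S17CC_Z h O e c) = k := by
  have h1 := S17CC_Z2' h O k e il hereg hel helow hk c
    (S17CC_phi_ne_zero_of_last O k e il hel helow c hc)
  rw [S17CC_ord_O O k e il hel helow c hc, neg_neg] at h1
  exact_mod_cast h1

/-! ## the norm form -/

open Classical in
/-- **the norm form**: `eval c (G X) = N_{F/K(t_X)}(φ_c)(0)` for `X il ≠ 0`. -/
noncomputable def S17CC_G (X : ι → K) : MvPolynomial ι K :=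
  if hX : X il ≠ 0 then
    haveI := S17CC_findim h O k e il hel helow hk X hX
    S17NF_G (S17CC_transc O k e il hel helow hk X hX) 0
      (fun j => ⟨e j, S17CC_mem_B h O k e il hereg hel helow hk X hX (e j) (hereg j)⟩)
  else 0

/-- `G X` is homogeneous of degree `k`. -/
theorem S17CC_G_hom (X : ι → K) (hX : X il ≠ 0) :
    (S17CC_G h O k e il hereg hel helow hk X).IsHomogeneous k := by
  unfold S17CC_G
  rw [dif_pos hX]
  have := S17CC_findim h O k e il hel helow hk X hX
  have h1 := S17NF_G_isHomogeneous (S17CC_transc O k e il hel helow hk X hX) 0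
    (fun j => ⟨e j, S17CC_mem_B h O k e il hereg hel helow hk X hX (e j) (hereg j)⟩)
  rwa [S17CC_finrank h O k e il hereg hel helow hk X hX] at h1

/-- `eval c (G X) = N_{t_X}(φ_c)(0)`. -/
theorem S17CC_G_eval (X : ι → K) (hX : X il ≠ 0) (c : ι → K)
    (φ : integralClosure (Algebra.adjoin K ({S17CC_phi e X} : Set F)) F)
    (hφ : (φ : F) = S17CC_phi e c) :
    MvPolynomial.eval c (S17CC_G h O k e il hereg hel helow hk X) =
      (S17NF_norm (S17CC_transc O k e il hel helow hk X hX) φ).eval 0 := by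
  unfold S17CC_G
  rw [dif_pos hX]
  have := S17CC_findim h O k e il hel helow hk X hX
  exact S17NF_G_eval (S17CC_transc O k e il hel helow hk X hX) 0
    (fun j => ⟨e j, S17CC_mem_B h O k e il hereg hel helow hk X hX (e j) (hereg j)⟩) c φ hφ

/-! ## the shift `Y ↦ Y - a • ε₀` -/

open Classical in
/-- the coordinates of the constant function `1`. -/
noncomputable def S17CC_eps (i0 : ι) : ι → K := Pi.single i0 1

omit [CharZero K] [IsAlgClosed K] [Fintype ι] in
include he0 hel hk in
theorem S17CC_i0_ne_il : i0 ≠ il := by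
  intro h0
  rw [← h0, he0, map_one, ← exp_zero, exp_inj] at hel
  omega

omit [CharZero K] [IsAlgClosed K] [Fintype ι] in
include he0 hel hk in
theorem S17CC_eps_last : S17CC_eps (K := K) i0 il = 0 := by
  classical
  unfold S17CC_eps
  rw [Pi.single_apply, if_neg (S17CC_i0_ne_il O k e i0 il he0 hel hk).symm]

omit [CharZero K] [IsAlgClosed K] in
include he0 in
/-- `φ_{Y - a ε₀} = φ_Y - a`. -/
theorem S17CC_phi_shift (Y : ι → K) (a : K) :
    S17CC_phi e (fun j => Y j - a * S17CC_eps i0 j) = S17CC_phi e Y - algebraMap K F a := by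
  classical
  unfold S17CC_phi S17CC_eps
  simp only [sub_smul, Finset.sum_sub_distrib]
  congr 1
  rw [Finset.sum_eq_single i0]
  · rw [Pi.single_eq_same, mul_one, he0, Algebra.smul_def, mul_one]
  · intro j _ hj
    rw [Pi.single_apply, if_neg hj, mul_zero, zero_smul]
  · intro h0
    exact absurd (Finset.mem_univ i0) h0

omit [CharZero K] [IsAlgClosed K] in
include he0 in
/-- `⟨ε₀, ev P⟩ = 1`. -/
theorem S17CC_ev_eps (P : Place K F) :
    ∑ j, S17CC_eps (K := K) i0 j * S17NGZ_ev P e j = 1 := by
  classical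
  unfold S17CC_eps S17NGZ_ev
  rw [Finset.sum_eq_single i0]
  · rw [Pi.single_eq_same, one_mul, he0]
    exact FD_c0_unique P (by simp)
  · intro j _ hj
    rw [Pi.single_apply, if_neg hj, zero_mul]
  · intro h0
    exact absurd (Finset.mem_univ i0) h0

include he0 in
/-- **the norm of `φ_c` with respect to `t_Y - a`, at `0`, is the norm with respect to `t_Y`
at `a`**. -/
theorem S17CC_G_eval_shift (Y : ι → K) (hY : Y il ≠ 0) (a : K) (c : ι → K)
    (φ : integralClosure (Algebra.adjoin K ({S17CC_phi e Y} : Set F)) F)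
    (hφ : (φ : F) = S17CC_phi e c) :
    MvPolynomial.eval c
        (S17CC_G h O k e il hereg hel helow hk (fun j => Y j - a * S17CC_eps i0 j)) =
      (S17NF_norm (S17CC_transc O k e il hel helow hk Y hY) φ).eval a := by
  have hYa : (fun j => Y j - a * S17CC_eps (K := K) i0 j) il ≠ 0 := by
    show Y il - a * S17CC_eps (K := K) i0 il ≠ 0
    rw [S17CC_eps_last O k e i0 il he0 hel hk, mul_zero, sub_zero]
    exact hY
  have hmem := S17CC_mem_B h O k e il hereg hel helow hk
    (fun j => Y j - a * S17CC_eps (K := K) i0 j) hYa (S17CC_phi e c)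
    (fun P hP => S17CC_phi_reg O e hereg c hP)
  rw [S17CC_G_eval h O k e il hereg hel helow hk (fun j => Y j - a * S17CC_eps (K := K) i0 j)
    hYa c ⟨S17CC_phi e c, hmem⟩ rfl,
    S17CC_norm_sub' (S17CC_transc O k e il hel helow hk Y hY) a
      (S17CC_phi_shift e i0 he0 Y a) _ φ ⟨S17CC_phi e c, hmem⟩ hφ,
    Polynomial.eval_comp, Polynomial.eval_add, Polynomial.eval_X, Polynomial.eval_C, zero_add]

include he0 hli in
/-- **(H2)** the norm–fibre formula in the shape of `S17CH_Data.norm_eq`. -/
theorem S17CC_norm_eq (Y : ι → K) (hY : Y il ≠ 0) (c : ι → K) (hc : c ≠ 0) :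
    ∃ lc : K, lc ≠ 0 ∧ ∀ a : K,
      MvPolynomial.eval c
          (S17CC_G h O k e il hereg hel helow hk (fun j => Y j - a * S17CC_eps i0 j)) =
        lc * ((S17CC_Z h O e c).map fun R => a - ∑ j, Y j * S17NGZ_ev R.1 e j).prod := by
  classical
  have hφ := S17CC_phi_ne_zero e hli c hc
  have := S17CC_findim h O k e il hel helow hk Y hY
  have hmem := S17CC_mem_B h O k e il hereg hel helow hk Y hY (S17CC_phi e c)
    (fun P hP => S17CC_phi_reg O e hereg c hP)
  have hO := S17CC_hO O k e il hereg hel helow hk Y hY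
  obtain ⟨lc, hlc, hN⟩ := S17NF_norm_eq_prod (S17CC_transc O k e il hel helow hk Y hY)
    ⟨S17CC_phi e c, hmem⟩ (fun h0 => hφ (congrArg Subtype.val h0))
    (S17CC_zeroSet h O (S17CC_phi e c)) (fun P => by
      rw [S17CC_mem_zeroSet]
      have h1 : P ≠ O ↔ 0 ≤ P.ord (S17CC_phi e Y) := by
        rw [← not_lt, hO P]
      rw [h1])
  refine ⟨lc, hlc, fun a => ?_⟩
  rw [S17CC_G_eval_shift h O k e i0 il he0 hereg hel helow hk Y hY a c
    ⟨S17CC_phi e c, hmem⟩ rfl, hN]
  have h2 : (fun R : {P : Place K F // P ≠ O} => a - ∑ j, Y j * S17NGZ_ev R.1 e j) =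
      fun R => (fun P : Place K F => a - FD_c0 P (S17CC_phi e Y)) R.1 := by
    funext R
    show a - ∑ j, Y j * S17NGZ_ev R.1 e j = a - FD_c0 R.1 (S17CC_phi e Y)
    rw [S17CC_c0_phi h O e hereg R.2 Y]
    rfl
  rw [h2, S17CC_Z_map_prod h O e c (fun P : Place K F => a - FD_c0 P (S17CC_phi e Y)),
    Polynomial.eval_mul, Polynomial.eval_C, Polynomial.eval_prod]
  congr 1
  refine Finset.prod_congr rfl fun P _ => ?_
  rw [Polynomial.eval_pow, Polynomial.eval_sub, Polynomial.eval_X, Polynomial.eval_C]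

include he0 in
/-- **(H3)** `N_{t_Y - a}(t_Y)(0) = a ^ k`. -/
theorem S17CC_norm_pow (Y : ι → K) (hY : Y il ≠ 0) (a : K) :
    MvPolynomial.eval Y
        (S17CC_G h O k e il hereg hel helow hk (fun j => Y j - a * S17CC_eps i0 j)) =
      a ^ k := by
  have := S17CC_findim h O k e il hel helow hk Y hY
  have hmem := S17CC_mem_B h O k e il hereg hel helow hk Y hY (S17CC_phi e Y)
    (fun P hP => S17CC_phi_reg O e hereg Y hP)
  rw [S17CC_G_eval_shift h O k e i0 il he0 hereg hel helow hk Y hY a Y
    ⟨S17CC_phi e Y, hmem⟩ rfl,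
    S17NF_norm_t_pow (S17CC_transc O k e il hel helow hk Y hY) 1 ⟨S17CC_phi e Y, hmem⟩
      (by rw [pow_one]),
    one_mul, S17CC_finrank h O k e il hereg hel helow hk Y hY, Polynomial.eval_pow,
    Polynomial.eval_X]

/-! ## the term `S17CH_Data` -/

/-- **the CHOW data of the curve** (`μ = 1`). -/
noncomputable def S17CC_data : S17CH_Data K ι ι {P : Place K F // P ≠ O} where
  top := il
  last := il
  k := k
  μ := 1
  ε₀ := S17CC_eps i0
  ev := fun P => S17NGZ_ev P.1 e
  Z := S17CC_Z h O e
  G := S17CC_G h O k e il hereg hel helow hk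
  ε₀_last := S17CC_eps_last O k e i0 il he0 hel hk
  ev_ε₀ := fun P => S17CC_ev_eps e i0 he0 P.1
  card_top := fun c hc => by
    rw [one_mul]
    exact S17CC_card_top h O k e il hereg hel helow hk c hc
  G_hom := fun X hX => S17CC_G_hom h O k e il hereg hel helow hk X hX
  norm_eq := fun Y hY c hc => S17CC_norm_eq h O k e i0 il he0 hereg hel helow hk hli Y hY c hc
  norm_pow := ⟨1, one_ne_zero, fun Y hY => ⟨Y, by rw [pow_one, one_mul], fun a => by
    rw [one_mul]
    exact S17CC_norm_pow h O k e i0 il he0 hereg hel helow hk Y hY a⟩⟩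

section fields

theorem S17CC_data_hmu :
    (S17CC_data h O k e i0 il he0 hereg hel helow hk hli).μ = 1 := rfl

theorem S17CC_data_k :
    (S17CC_data h O k e i0 il he0 hereg hel helow hk hli).k = k := rfl

theorem S17CC_data_last :
    (S17CC_data h O k e i0 il he0 hereg hel helow hk hli).last = il := rfl

theorem S17CC_data_top :
    (S17CC_data h O k e i0 il he0 hereg hel helow hk hli).top = il := rfl

theorem S17CC_data_ev (P : {P : Place K F // P ≠ O}) :
    (S17CC_data h O k e i0 il he0 hereg hel helow hk hli).ev P = S17NGZ_ev P.1 e := rfl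

theorem S17CC_data_Z (c : ι → K) :
    (S17CC_data h O k e i0 il he0 hereg hel helow hk hli).Z c = S17CC_Z h O e c := rfl

theorem S17CC_data_G (X : ι → K) :
    (S17CC_data h O k e i0 il he0 hereg hel helow hk hli).G X =
      S17CC_G h O k e il hereg hel helow hk X := rfl

/-- **(M1)** for the data. -/
theorem S17CC_data_M1 (c : ι → K) (hc : c ≠ 0) (P : {P : Place K F // P ≠ O})
    (h0 : ∑ j, c j * (S17CC_data h O k e i0 il he0 hereg hel helow hk hli).ev P j = 0) :
    P ∈ (S17CC_data h O k e i0 il he0 hereg hel helow hk hli).Z c :=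
  S17CC_M1 h O e hereg hli c hc P h0

/-- **(M2)** for the data. -/
theorem S17CC_data_M2 (c : ι → K) (hc : c ≠ 0)
    (hl : c (S17CC_data h O k e i0 il he0 hereg hel helow hk hli).last = 0) :
    Multiset.card ((S17CC_data h O k e i0 il he0 hereg hel helow hk hli).Z c) <
      (S17CC_data h O k e i0 il he0 hereg hel helow hk hli).k :=
  S17CC_M2 h O k e il hereg hel helow hk hli c hc hl

end fields

end curve

end Fermat.Agent.S17
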