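import Mathlib
import Fermat.Agent.S17.NormFibO

/-!
# TRACK 8 (S17), heights pillar, TAN-curve, piece T3-lc (helper21), prefix `S17NL_`

Setting of `S17/NormFibO.lean`: `K` algebraically closed of characteristic `0`, `t` transcendental
with its only pole at `O`, `R = K[t]`, `B` = the integral closure of `R` in `F`,
`S17NF_norm ht φ = N_{B/R} φ ∈ K[X]`.

* `S17NL_pencil` : (pure linear algebra) for `A A' : Matrix n n K[X]`: if
  `coeff_{n'} det (A − λ A') ≠ 0` for all `λ ≠ β` and `coeff_{n'} det A' ≠ 0`, then
  `coeff_{n'} det A = β ^ card n · coeff_{n'} det A'`.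
  [`p(Y) := coeff_{n'} det (A − Y A') ∈ K[Y]` has degree exactly `card n` and no root `≠ β`.]
* `S17NL_main`   : **the leading coefficient of the norm**: if `w = β w'` or
  `ord_O (w − β w') > ord_O w'` (`β ≠ 0`), then `lc N(w) = β ^ rank_R B · lc N(w')`.
-/

set_option autoImplicit false
set_option linter.unusedSectionVars false
set_option linter.style.haveILetI false

open AlgebraicCurve IntermediateField Polynomial Matrix
open scoped IntermediateField.algebraAdjoinAdjoin

universe u v

namespace Fermat.Agent.S17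

open Fermat.Agent.S24 Fermat.Agent.Lib Fermat.Agent.S18

section pencil

variable {K : Type*} [Field K] {n : Type*} [Fintype n] [DecidableEq n]

/-- the pencil polynomial `P(Y) = det (A − Y A')` over `K[X]`. -/
noncomputable def S17NL_P (A A' : Matrix n n K[X]) : K[X][X] :=
  det ((X : K[X][X]) • (-A').map C + A.map C)

theorem S17NL_eval_P (A A' : Matrix n n K[X]) (c : K[X]) :
    eval c (S17NL_P A A') = det (A - c • A') := by
  unfold S17NL_P
  rw [← coe_evalRingHom, RingHom.map_det]
  congr 1
  ext i j
  simp only [RingHom.mapMatrix_apply, Matrix.map_apply, Matrix.add_apply, Matrix.smul_apply,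
    Matrix.neg_apply, Matrix.sub_apply, coe_evalRingHom, smul_eq_mul, eval_add, eval_mul, eval_X,
    eval_C]
  ring_nf

/-- the polynomial `p(Y) = coeff_{n'} (det (A − Y A'))` over `K`. -/
noncomputable def S17NL_p (A A' : Matrix n n K[X]) (n' : ℕ) : K[X] :=
  ∑ j ∈ Finset.range (Fintype.card n + 1), monomial j (((S17NL_P A A').coeff j).coeff n')

theorem S17NL_p_coeff (A A' : Matrix n n K[X]) (n' : ℕ) (j : ℕ) :
    (S17NL_p A A' n').coeff j = ((S17NL_P A A').coeff j).coeff n' := by
  unfold S17NL_p
  rw [finsetSum_coeff]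
  simp only [coeff_monomial]
  by_cases hj : j ∈ Finset.range (Fintype.card n + 1)
  · rw [Finset.sum_eq_single j]
    · simp
    · intro i _ hij
      rw [if_neg hij]
    · intro h
      exact absurd hj h
  · rw [Finset.sum_eq_zero]
    · have hdeg : (S17NL_P A A').natDegree < j := by
        have := natDegree_det_X_add_C_le (-A') A
        rw [Finset.mem_range, not_lt] at hj
        unfold S17NL_P
        omega
      rw [coeff_eq_zero_of_natDegree_lt hdeg, coeff_zero]
    · intro i hi
      have : i ≠ j := fun h => hj (h ▸ hi)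
      rw [if_neg this]

theorem S17NL_eval_p (A A' : Matrix n n K[X]) (n' : ℕ) (c : K) :
    eval c (S17NL_p A A' n') = (det (A - C c • A')).coeff n' := by
  rw [← S17NL_eval_P]
  have hdeg : (S17NL_P A A').natDegree < Fintype.card n + 1 :=
    Nat.lt_succ_of_le (natDegree_det_X_add_C_le (-A') A)
  rw [eval_eq_sum_range' hdeg, finsetSum_coeff]
  unfold S17NL_p
  rw [eval_finsetSum]
  refine Finset.sum_congr rfl fun j _ => ?_
  rw [eval_monomial, ← C_pow, coeff_mul_C]

theorem S17NL_p_natDegree_le (A A' : Matrix n n K[X]) (n' : ℕ) :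
    (S17NL_p A A' n').natDegree ≤ Fintype.card n := by
  rw [natDegree_le_iff_coeff_eq_zero]
  intro j hj
  rw [S17NL_p_coeff]
  have hdeg : (S17NL_P A A').natDegree < j :=
    lt_of_le_of_lt (natDegree_det_X_add_C_le (-A') A) hj
  rw [coeff_eq_zero_of_natDegree_lt hdeg, coeff_zero]

theorem S17NL_p_coeff_card (A A' : Matrix n n K[X]) (n' : ℕ) :
    (S17NL_p A A' n').coeff (Fintype.card n) = (-1) ^ Fintype.card n * (det A').coeff n' := by
  rw [S17NL_p_coeff]
  unfold S17NL_P
  rw [coeff_det_X_add_C_card, det_neg]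
  have : ((-1 : K[X]) ^ Fintype.card n) = C ((-1 : K) ^ Fintype.card n) := by
    rw [C_pow, C_neg, C_1]
  rw [this, coeff_C_mul]

theorem S17NL_p_coeff_zero (A A' : Matrix n n K[X]) (n' : ℕ) :
    (S17NL_p A A' n').coeff 0 = (det A).coeff n' := by
  rw [S17NL_p_coeff]
  unfold S17NL_P
  rw [coeff_det_X_add_C_zero]

/-- **the pencil lemma**: if `coeff_{n'} det (A − λ A') ≠ 0` for all `λ ≠ β` and
`coeff_{n'} det A' ≠ 0`, then `coeff_{n'} det A = β ^ k · coeff_{n'} det A'`. -/
theorem S17NL_pencil [IsAlgClosed K] (A A' : Matrix n n K[X]) (n' : ℕ) (β : K)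
    (h1 : ∀ c : K, c ≠ β → (det (A - C c • A')).coeff n' ≠ 0)
    (h2 : (det A').coeff n' ≠ 0) :
    (det A).coeff n' = β ^ Fintype.card n * (det A').coeff n' := by
  classical
  set k := Fintype.card n with hk
  set p := S17NL_p A A' n' with hp
  have hpk : p.coeff k = (-1) ^ k * (det A').coeff n' := S17NL_p_coeff_card A A' n'
  have hpk0 : p.coeff k ≠ 0 := by
    rw [hpk]
    exact mul_ne_zero (pow_ne_zero _ (by norm_num)) h2
  have hdeg : p.natDegree = k :=
    le_antisymm (S17NL_p_natDegree_le A A' n') (le_natDegree_of_ne_zero hpk0)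
  have hp0 : p ≠ 0 := fun h => hpk0 (by rw [h, coeff_zero])
  have hlc : p.leadingCoeff = p.coeff k := by rw [leadingCoeff, hdeg]
  have hroots : p.roots = Multiset.replicate k β := by
    rw [Multiset.eq_replicate]
    refine ⟨?_, fun r hr => ?_⟩
    · rw [← hdeg]
      exact IsAlgClosed.card_roots_eq_natDegree
    · by_contra hrβ
      have hr0 : eval r p = 0 := (mem_roots hp0).1 hr
      rw [hp, S17NL_eval_p] at hr0
      exact h1 r hrβ hr0
  have hsplit := (IsAlgClosed.splits p).eq_prod_roots
  rw [hroots, Multiset.map_replicate, Multiset.prod_replicate, hlc] at hsplit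
  have h0 : p.coeff 0 = (det A).coeff n' := S17NL_p_coeff_zero A A' n'
  rw [← h0, coeff_zero_eq_eval_zero]
  conv_lhs => rw [hsplit]
  rw [eval_mul, eval_C, eval_pow, eval_sub, eval_X, eval_C, hpk, zero_sub]
  rw [neg_pow β k]
  have e : ((-1 : K) ^ k) * ((-1) ^ k) = 1 := by
    rw [← pow_add, Even.neg_one_pow ⟨k, rfl⟩]
  linear_combination ((det A').coeff n' * β ^ k) * e

end pencil

section norm

variable {K : Type u} {F : Type v} [Field K] [Field F] [Algebra K F] [CharZero K]
  {t : F} (ht : Transcendental K t) [FiniteDimensional K⟮t⟯ F]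

/-- the element `w − c w'` of `B` (`c ∈ K`). -/
noncomputable def S17NL_phi (w w' : integralClosure (Algebra.adjoin K ({t} : Set F)) F) (c : K) :
    integralClosure (Algebra.adjoin K ({t} : Set F)) F :=
  w - (BL_equiv ht (C c)) • w'

theorem S17NL_phi_coe (w w' : integralClosure (Algebra.adjoin K ({t} : Set F)) F) (c : K) :
    ((S17NL_phi ht w w' c : integralClosure (Algebra.adjoin K ({t} : Set F)) F) : F) =
      (w : F) - c • (w' : F) := by
  unfold S17NL_phi
  have h1 : (((BL_equiv ht (C c)) • w' : integralClosure (Algebra.adjoin K ({t} : Set F)) F) : F)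
      = ((BL_equiv ht (C c) : Algebra.adjoin K ({t} : Set F)) : F) * (w' : F) := rfl
  rw [AddSubgroupClass.coe_sub, h1, BL_equiv_coe, aeval_C, Algebra.smul_def]

theorem S17NL_phi_zero (w w' : integralClosure (Algebra.adjoin K ({t} : Set F)) F) :
    S17NL_phi ht w w' 0 = w := by
  unfold S17NL_phi
  rw [map_zero, map_zero, zero_smul, sub_zero]

/-- the matrix of multiplication by `φ`, over `K[X]`. -/
noncomputable def S17NL_mat
    (φ : integralClosure (Algebra.adjoin K ({t} : Set F)) F) :
    letI := BG_free ht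
    letI := BG_finite ht
    Matrix (Module.Free.ChooseBasisIndex (Algebra.adjoin K ({t} : Set F))
        (integralClosure (Algebra.adjoin K ({t} : Set F)) F))
      (Module.Free.ChooseBasisIndex (Algebra.adjoin K ({t} : Set F))
        (integralClosure (Algebra.adjoin K ({t} : Set F)) F)) K[X] :=
  letI := BG_free ht
  letI := BG_finite ht
  open Classical in
  (Algebra.leftMulMatrix (Module.Free.chooseBasis (Algebra.adjoin K ({t} : Set F))
    (integralClosure (Algebra.adjoin K ({t} : Set F)) F)) φ).map (BL_equiv ht).symm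

theorem S17NL_det_mat (φ : integralClosure (Algebra.adjoin K ({t} : Set F)) F) :
    letI := BG_free ht
    letI := BG_finite ht
    open Classical in
    det (S17NL_mat ht φ) = S17NF_norm ht φ := by
  letI := BG_free ht
  letI := BG_finite ht
  classical
  unfold S17NL_mat S17NF_norm
  rw [Algebra.norm_eq_matrix_det (Module.Free.chooseBasis (Algebra.adjoin K ({t} : Set F))
    (integralClosure (Algebra.adjoin K ({t} : Set F)) F)) φ]
  have := RingHom.map_det ((BL_equiv ht).symm : Algebra.adjoin K ({t} : Set F) →+* K[X])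
    (Algebra.leftMulMatrix (Module.Free.chooseBasis (Algebra.adjoin K ({t} : Set F))
      (integralClosure (Algebra.adjoin K ({t} : Set F)) F)) φ)
  exact this.symm

theorem S17NL_mat_phi (w w' : integralClosure (Algebra.adjoin K ({t} : Set F)) F) (c : K) :
    S17NL_mat ht (S17NL_phi ht w w' c) = S17NL_mat ht w - C c • S17NL_mat ht w' := by
  letI := BG_free ht
  letI := BG_finite ht
  classical
  unfold S17NL_mat S17NL_phi
  rw [map_sub, map_smul]
  ext i j
  simp only [Matrix.map_apply, Matrix.sub_apply, Matrix.smul_apply, smul_eq_mul, map_sub,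
    map_mul, AlgEquiv.symm_apply_apply]

end norm

section main

variable {K : Type u} {F : Type v} [Field K] [Field F] [Algebra K F] [CharZero K]
  {t : F} (ht : Transcendental K t) [FiniteDimensional K⟮t⟯ F]
  (O : Place K F) (hO : ∀ P : Place K F, P.ord t < 0 ↔ P = O)
  [IsAlgClosed K] (hdeg : ∀ v : Place K F, v.deg = 1) (hP : HasPrincipalDivisors K F)

include hdeg in
/-- `w − c w'` has the valuation of `w'` at `O` for `c ≠ β`. -/
theorem S17NL_val_phi (x y : F) (β c : K) (hc : c ≠ β)
    (h : O.adicValuation (x - β • y) < O.adicValuation y) :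
    O.adicValuation (x - c • y) = O.adicValuation y := by
  have e : x - c • y = (x - β • y) + (β - c) • y := by
    rw [sub_smul]; ring
  have hbc : β - c ≠ 0 := sub_ne_zero.2 (Ne.symm hc)
  have h2 : O.adicValuation ((β - c) • y) = O.adicValuation y := by
    rw [Algebra.smul_def, map_mul, FD_val_algebraMap O hbc, one_mul]
  rw [e, Valuation.map_add_eq_of_lt_right _ (by rw [h2]; exact h), h2]

include ht hO hP hdeg in
/-- **T3-lc**: the leading coefficient of the norm. -/
theorem S17NL_main (w w' : integralClosure (Algebra.adjoin K ({t} : Set F)) F) (hw' : w' ≠ 0)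
    (β : K) (hβ : β ≠ 0)
    (h : (w : F) = β • (w' : F) ∨ O.ord (w' : F) < O.ord ((w : F) - β • (w' : F))) :
    (S17NF_norm ht w).leadingCoeff
      = β ^ Module.finrank (Algebra.adjoin K ({t} : Set F))
            (integralClosure (Algebra.adjoin K ({t} : Set F)) F)
          * (S17NF_norm ht w').leadingCoeff := by
  letI := BG_free ht
  letI := BG_finite ht
  classical
  have hw'0 : (w' : F) ≠ 0 := fun h0 => hw' (Subtype.ext h0)
  -- valuation form of the hypothesis
  have hv : O.adicValuation ((w : F) - β • (w' : F)) < O.adicValuation (w' : F) := by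
    by_cases hne : (w : F) - β • (w' : F) = 0
    · rw [hne, map_zero]
      exact zero_lt_iff.2 (O.adicValuation_ne_zero hw'0)
    · rcases h with h | h
      · exact absurd (by rw [h, sub_self]) hne
      · rw [O.adicValuation_eq_exp_neg_ord hne, O.adicValuation_eq_exp_neg_ord hw'0,
          WithZero.exp_lt_exp]
        omega
  -- `φ_c := w − c w'` for `c ≠ β`
  have hphi : ∀ c : K, c ≠ β → S17NL_phi ht w w' c ≠ 0 ∧
      (S17NF_norm ht (S17NL_phi ht w w' c)).natDegree = (S17NF_norm ht w').natDegree := by
    intro c hc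
    have hval := S17NL_val_phi O hdeg (w : F) (w' : F) β c hc hv
    rw [← S17NL_phi_coe ht] at hval
    have hne : S17NL_phi ht w w' c ≠ 0 := by
      intro h0
      rw [h0] at hval
      have : O.adicValuation ((0 : integralClosure (Algebra.adjoin K ({t} : Set F)) F) : F) = 0 := by
        simp
      rw [this] at hval
      exact O.adicValuation_ne_zero hw'0 hval.symm
    refine ⟨hne, ?_⟩
    have h1 := S17NF_natDegree ht O hO hP hdeg _ hne
    have h2 := S17NF_natDegree ht O hO hP hdeg _ hw'
    have h3 : O.ord ((S17NL_phi ht w w' c : integralClosure (Algebra.adjoin K ({t} : Set F)) F) : F)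
        = O.ord (w' : F) := by
      rw [Place.ord, Place.ord, hval]
    rw [h3] at h1
    omega
  set n' := (S17NF_norm ht w').natDegree with hn'
  have hN' : S17NF_norm ht w' ≠ 0 := S17NF_norm_ne_zero ht w' hw'
  have key := S17NL_pencil (S17NL_mat ht w) (S17NL_mat ht w') n' β
    (by
      intro c hc
      obtain ⟨hne, hd⟩ := hphi c hc
      rw [← S17NL_mat_phi, S17NL_det_mat, ← hd]
      exact leadingCoeff_ne_zero.2 (S17NF_norm_ne_zero ht _ hne))
    (by
      rw [S17NL_det_mat]
      exact leadingCoeff_ne_zero.2 hN')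
  rw [S17NL_det_mat, S17NL_det_mat] at key
  obtain ⟨-, hd0⟩ := hphi 0 (Ne.symm hβ)
  rw [S17NL_phi_zero] at hd0
  rw [leadingCoeff, leadingCoeff, hd0, key, Module.finrank_eq_card_chooseBasisIndex]

end main

end Fermat.Agent.S17
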