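import Mathlib
import Fermat.Agent.S17.NormFibS

/-!
# TRACK 8 (S17), heights, TAN piece T3a "FIB" (helper10): the norm at `0` is the product over the
fibre

Setting of `S17/NormFib.lean`, `S17/NormFibO.lean` (helper22): `K` algebraically closed of
characteristic `0`, `t : F` transcendental, `F / K(t)` finite, `R = K[t]`, `B` = the integral
closure of `R` in `F`, `O` the only pole of `t`.

* `S17FB_ev P hdeg htP : B →+* K` : evaluation at a place `P` at which `t` is regular
  (`S17FB_ev_apply : S17FB_ev P hdeg htP f = FD_c0 P f`); on `K[t]` it is the evaluation of the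
  polynomial at `t(P)` (`S17FB_ev_R`).
* `S17FB_core` : if `Q i` (`i < rank`) are zeros of `t` such that every `f ∈ B` vanishing at all
  `Q i` is divisible by `t`, then `(N w)(0) = ∏ i, w(Q i)`  [the matrix `V = (b_i(Q_l))` is
  invertible and `diag(w(Q_l)) · V = V · M̄`, `M̄` the matrix of multiplication by `w` at `t = 0`].
* `S17FB_count` : `k = [F : K(t)]` distinct zeros of `t` are all the zeros of `t`, and simple.
* `S17FB_div` : `f ∈ B` vanishing at all zeros of `t` (all simple) is `t · g`, `g ∈ B`.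
* `S17FB_main` : **T3a FIB**: `O.ord t = -k`, `Q : Fin k → Place K F` injective, `0 < (Q i).ord t`
  ⇒ `∀ w : B, (S17NF_norm ht w).eval 0 = ∏ i, FD_c0 (Q i) w`.
-/

set_option autoImplicit false
set_option linter.unusedSectionVars false
set_option linter.style.haveILetI false

open AlgebraicCurve IntermediateField IsDedekindDomain Polynomial
open scoped IntermediateField.algebraAdjoinAdjoin

universe u v

namespace Fermat.Agent.S17

open Fermat.Agent.S24 Fermat.Agent.Lib Fermat.Agent.S18

variable {K : Type u} {F : Type v} [Field K] [Field F] [Algebra K F]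
  {t : F}

/-- the inclusion of `B` into the valuation ring of a place at which `t` is regular. -/
noncomputable def S17FB_incl (P : Place K F) (htP : t ∈ P.toValuationSubring) :
    integralClosure (Algebra.adjoin K ({t} : Set F)) F →+* P.toValuationSubring where
  toFun f := ⟨(f : F), BL_mem_of_isIntegral P htP f.2⟩
  map_one' := rfl
  map_mul' _ _ := rfl
  map_zero' := rfl
  map_add' _ _ := rfl

/-- evaluation at a place `P` at which `t` is regular, as a ring homomorphism `B →+* K`. -/
noncomputable def S17FB_ev (P : Place K F) (hdeg : P.deg = 1) (htP : t ∈ P.toValuationSubring) :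
    integralClosure (Algebra.adjoin K ({t} : Set F)) F →+* K :=
  (PowerSeries.constantCoeff (R := K)).comp
    ((FD_expHom P hdeg).toRingHom.comp (S17FB_incl P htP))

theorem S17FB_ev_apply (P : Place K F) (hdeg : P.deg = 1) (htP : t ∈ P.toValuationSubring)
    (f : integralClosure (Algebra.adjoin K ({t} : Set F)) F) :
    S17FB_ev P hdeg htP f = FD_c0 P (f : F) :=
  FD_constantCoeff P (f : F)

theorem S17FB_c0_algebraMap (P : Place K F) (c : K) : FD_c0 P (algebraMap K F c) = c := by
  apply FD_c0_unique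
  rw [sub_self, map_zero]
  exact zero_lt_one

/-- on `K[t]`, evaluation at `P` is evaluation of the polynomial at `t(P)`. -/
theorem S17FB_ev_R (ht : Transcendental K t) (P : Place K F) (hdeg : P.deg = 1)
    (htP : t ∈ P.toValuationSubring) (r : Algebra.adjoin K ({t} : Set F)) :
    S17FB_ev P hdeg htP (algebraMap _ _ r) = ((BL_equiv ht).symm r).eval (FD_c0 P t) := by
  obtain ⟨p, rfl⟩ := (BL_equiv ht).surjective r
  rw [AlgEquiv.symm_apply_apply]
  have key : (S17FB_ev P hdeg htP).comp
      ((algebraMap (Algebra.adjoin K ({t} : Set F))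
        (integralClosure (Algebra.adjoin K ({t} : Set F)) F)).comp
        ((BL_equiv ht : K[X] →+* Algebra.adjoin K ({t} : Set F)))) =
      Polynomial.evalRingHom (FD_c0 P t) := by
    apply Polynomial.ringHom_ext
    · intro c
      simp only [RingHom.comp_apply, coe_evalRingHom, eval_C]
      rw [S17FB_ev_apply]
      have : ((algebraMap (Algebra.adjoin K ({t} : Set F))
          (integralClosure (Algebra.adjoin K ({t} : Set F)) F)
          ((BL_equiv ht : K[X] →+* Algebra.adjoin K ({t} : Set F)) (C c)) :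
          integralClosure (Algebra.adjoin K ({t} : Set F)) F) : F) = algebraMap K F c := by
        show ((BL_equiv ht (C c) : Algebra.adjoin K ({t} : Set F)) : F) = _
        rw [BL_equiv_coe, aeval_C]
      rw [this, S17FB_c0_algebraMap]
    · simp only [RingHom.comp_apply, coe_evalRingHom, eval_X]
      rw [S17FB_ev_apply]
      have : ((algebraMap (Algebra.adjoin K ({t} : Set F))
          (integralClosure (Algebra.adjoin K ({t} : Set F)) F)
          ((BL_equiv ht : K[X] →+* Algebra.adjoin K ({t} : Set F)) X) :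
          integralClosure (Algebra.adjoin K ({t} : Set F)) F) : F) = t := by
        show ((BL_equiv ht X : Algebra.adjoin K ({t} : Set F)) : F) = _
        rw [BL_equiv_coe, aeval_X]
      rw [this]
  exact congrArg (fun f => f p) key

section core

variable [CharZero K] (ht : Transcendental K t) [FiniteDimensional K⟮t⟯ F]

omit [CharZero K] [FiniteDimensional K⟮t⟯ F] in
theorem S17FB_rho_gen : S17NF_rho ht 0 (BL_gen (K := K) t) = 0 := by
  rw [S17NF_rho_apply]
  have : (BL_equiv ht).symm (BL_gen (K := K) t) = X := by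
    rw [AlgEquiv.symm_apply_eq]
    apply Subtype.ext
    rw [BL_equiv_coe, aeval_X]
    rfl
  rw [this, eval_X]

/-- **FIB, core**: if `Q i` (`i < rank`) are zeros of `t` such that every `f ∈ B` vanishing at all
`Q i` is divisible by `t` in `B`, then `(N w)(0) = ∏ i, w(Q i)`. -/
theorem S17FB_core (hdeg : ∀ v : Place K F, v.deg = 1)
    (Q : Fin (Module.finrank (Algebra.adjoin K ({t} : Set F))
      (integralClosure (Algebra.adjoin K ({t} : Set F)) F)) → Place K F)
    (hQ0 : ∀ i, t ∈ (Q i).toValuationSubring)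
    (hQz : ∀ i, FD_c0 (Q i) t = 0)
    (hV : ∀ f : integralClosure (Algebra.adjoin K ({t} : Set F)) F,
      (∀ i, FD_c0 (Q i) (f : F) = 0) →
        ∃ g : integralClosure (Algebra.adjoin K ({t} : Set F)) F, f = BL_gen (K := K) t • g)
    (w : integralClosure (Algebra.adjoin K ({t} : Set F)) F) :
    (S17NF_norm ht w).eval 0 = ∏ i, FD_c0 (Q i) (w : F) := by
  classical
  have := BG_finite ht
  have := BG_free ht
  obtain ⟨b, hb⟩ : ∃ b, b = Module.finBasis (Algebra.adjoin K ({t} : Set F))
      (integralClosure (Algebra.adjoin K ({t} : Set F)) F) := ⟨_, rfl⟩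
  obtain ⟨χ, hχ⟩ : ∃ χ : Fin (Module.finrank (Algebra.adjoin K ({t} : Set F))
      (integralClosure (Algebra.adjoin K ({t} : Set F)) F)) →
      (integralClosure (Algebra.adjoin K ({t} : Set F)) F →+* K),
      χ = fun i => S17FB_ev (Q i) (hdeg _) (hQ0 i) := ⟨_, rfl⟩
  have hχa : ∀ i f, χ i f = FD_c0 (Q i) (f : F) := fun i f => by
    rw [hχ]; exact S17FB_ev_apply _ _ _ f
  have hχR : ∀ i (r : Algebra.adjoin K ({t} : Set F)) f, χ i (r • f) = S17NF_rho ht 0 r * χ i f := by
    intro i r f
    rw [Algebra.smul_def, map_mul]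
    congr 1
    rw [hχ]
    show S17FB_ev (Q i) (hdeg _) (hQ0 i) (algebraMap _ _ r) = _
    rw [S17FB_ev_R ht, hQz, S17NF_rho_apply]
  set M := Algebra.leftMulMatrix b w with hM
  have h1 : (S17NF_norm ht w).eval 0 = ((S17NF_rho ht 0).mapMatrix M).det := by
    rw [S17NF_eval_norm_eq_rho, Algebra.norm_eq_matrix_det b, RingHom.map_det]
  set V : Matrix _ _ K := Matrix.of fun l i => χ l (b i) with hVdef
  have hVM : Matrix.diagonal (fun l => χ l w) * V = V * (S17NF_rho ht 0).mapMatrix M := by
    ext l j
    rw [Matrix.diagonal_mul, Matrix.mul_apply]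
    simp only [hVdef, Matrix.of_apply, RingHom.mapMatrix_apply, Matrix.map_apply]
    rw [← map_mul]
    have hsum : w * b j = ∑ i, M i j • b i := by
      rw [← b.sum_repr (w * b j)]
      refine Finset.sum_congr rfl fun i _ => ?_
      rw [hM, Algebra.leftMulMatrix_eq_repr_mul]
    rw [hsum, map_sum]
    refine Finset.sum_congr rfl fun i _ => ?_
    rw [hχR, mul_comm]
  have hdetV : V.det ≠ 0 := by
    intro h0
    obtain ⟨a, ha0, ha⟩ := Matrix.exists_mulVec_eq_zero_iff.mpr h0
    apply ha0
    obtain ⟨f, hf⟩ : ∃ f : integralClosure (Algebra.adjoin K ({t} : Set F)) F,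
        f = ∑ i, algebraMap K (Algebra.adjoin K ({t} : Set F)) (a i) • b i := ⟨_, rfl⟩
    have hfz : ∀ l, FD_c0 (Q l) (f : F) = 0 := by
      intro l
      rw [← hχa, hf, map_sum]
      have := congrFun ha l
      rw [Matrix.mulVec, dotProduct] at this
      simp only [Pi.zero_apply] at this
      rw [← this]
      refine Finset.sum_congr rfl fun i _ => ?_
      rw [hχR, S17NF_rho_algebraMap, mul_comm]
      rfl
    obtain ⟨g, hg⟩ := hV f hfz
    funext i
    have e1 : b.repr f i = algebraMap K (Algebra.adjoin K ({t} : Set F)) (a i) := by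
      rw [hf, b.repr_sum_self]
    have e2 : b.repr f i = BL_gen (K := K) t * b.repr g i := by
      rw [hg]
      have h := b.repr.map_smul (BL_gen (K := K) t) g
      rw [h, Finsupp.smul_apply, smul_eq_mul]
    have e3 : S17NF_rho ht 0 (algebraMap K (Algebra.adjoin K ({t} : Set F)) (a i)) =
        S17NF_rho ht 0 (BL_gen (K := K) t * b.repr g i) := congrArg _ (e1.symm.trans e2)
    rw [S17NF_rho_algebraMap, RingHom.map_mul, S17FB_rho_gen, zero_mul] at e3
    exact e3
  have h2 := congrArg Matrix.det hVM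
  rw [Matrix.det_mul, Matrix.det_mul, Matrix.det_diagonal, mul_comm] at h2
  have h3 := mul_left_cancel₀ hdetV h2
  rw [h1, ← h3]
  exact Finset.prod_congr rfl fun i _ => hχa i w

end core

section geom

variable [CharZero K] (ht : Transcendental K t) [FiniteDimensional K⟮t⟯ F] [IsAlgClosed K]

include ht in
/-- counting: `n` distinct zeros of `t`, `n = [F : K(t)]`, are all the zeros and are simple. -/
theorem S17FB_count {k : ℕ}
    (hk : Module.finrank (Algebra.adjoin K ({t} : Set F))
      (integralClosure (Algebra.adjoin K ({t} : Set F)) F) = k)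
    (Q : Fin k → Place K F) (hQinj : Function.Injective Q) (hQ : ∀ i, 0 < (Q i).ord t) :
    (∀ i, (Q i).ord t = 1) ∧ ∀ P : Place K F, 0 < P.ord t → ∃ i, Q i = P := by
  classical
  have hsum := BG_sum_ord_zeros ht
  rw [← BG_finrank ht, hk] at hsum
  set Z := (BG_finite_zeros ht).toFinset with hZ
  have hmemZ : ∀ P, P ∈ Z ↔ 0 < P.ord t := by
    intro P
    rw [hZ, Set.Finite.mem_toFinset]
    rfl
  set I := Finset.univ.image Q with hI
  have hIZ : I ⊆ Z := by
    intro P hP
    rw [hI, Finset.mem_image] at hP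
    obtain ⟨i, -, rfl⟩ := hP
    exact (hmemZ _).mpr (hQ i)
  have hcardI : I.card = k := by
    rw [hI, Finset.card_image_of_injective _ hQinj, Finset.card_univ, Fintype.card_fin]
  have hge : ∀ P ∈ Z, (1 : ℤ) ≤ P.ord t := fun P hP => by
    have := (hmemZ P).mp hP
    omega
  have hcardZ : (Z.card : ℤ) ≤ k := by
    have h1 : ∑ _P ∈ Z, (1 : ℤ) ≤ ∑ P ∈ Z, P.ord t := Finset.sum_le_sum hge
    rw [Finset.sum_const, nsmul_eq_mul, mul_one, hsum] at h1
    exact h1
  have hcardle : I.card ≤ Z.card := Finset.card_le_card hIZ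
  have hZI : I = Z := Finset.eq_of_subset_of_card_le hIZ (by
    rw [hcardI]
    exact_mod_cast hcardZ)
  have hZk : (Z.card : ℤ) = k := by rw [← hZI, hcardI]
  have hone : ∀ P ∈ Z, P.ord t = 1 := by
    have h0 : ∑ P ∈ Z, (P.ord t - 1) = 0 := by
      rw [Finset.sum_sub_distrib, hsum, Finset.sum_const, nsmul_eq_mul, mul_one, hZk, sub_self]
    have h1 := (Finset.sum_eq_zero_iff_of_nonneg (fun P hP => by
      have := hge P hP
      omega)).mp h0
    intro P hP
    have := h1 P hP
    omega
  refine ⟨fun i => hone _ (hIZ (by rw [hI]; exact Finset.mem_image_of_mem Q (Finset.mem_univ i))),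
    fun P hP => ?_⟩
  have : P ∈ I := by
    rw [hZI]
    exact (hmemZ P).mpr hP
  rw [hI, Finset.mem_image] at this
  obtain ⟨i, -, hi⟩ := this
  exact ⟨i, hi⟩

variable (O : Place K F) (hO : ∀ P : Place K F, P.ord t < 0 ↔ P = O)

include ht hO in
/-- a function of `B` vanishing at all zeros of `t` (all simple) is divisible by `t` in `B`. -/
theorem S17FB_div (hdeg : ∀ v : Place K F, v.deg = 1)
    {k : ℕ} (Q : Fin k → Place K F) (hQ1 : ∀ i, (Q i).ord t = 1)
    (hQall : ∀ P : Place K F, 0 < P.ord t → ∃ i, Q i = P)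
    (f : integralClosure (Algebra.adjoin K ({t} : Set F)) F)
    (hf : ∀ i, FD_c0 (Q i) (f : F) = 0) :
    ∃ g : integralClosure (Algebra.adjoin K ({t} : Set F)) F, f = BL_gen (K := K) t • g := by
  have ht0 : t ≠ 0 := S17NF_t_ne_zero ht
  have hreg := (S17NF_mem_B_iff ht O hO (f : F)).mp f.2
  have hg : (f : F) / t ∈ integralClosure (Algebra.adjoin K ({t} : Set F)) F := by
    rw [S17NF_mem_B_iff ht O hO]
    intro P hPO
    by_cases hf0 : (f : F) = 0
    · rw [hf0, zero_div, Place.ord_zero]
    have hdiv : P.ord ((f : F) / t) = P.ord (f : F) - P.ord t := by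
      rw [div_eq_mul_inv, P.ord_mul hf0 (inv_ne_zero ht0), Place.ord_inv]
      ring
    rw [hdiv]
    by_cases hPz : 0 < P.ord t
    · obtain ⟨i, rfl⟩ := hQall P hPz
      have hval : (Q i).adicValuation (f : F) ≤ 1 :=
        (Q i).adicValuation_le_one_of_mem ((BG_mem_iff_ord_nonneg (Q i) hf0).mpr (hreg _ hPO))
      have h1 := (FD_c0_eq_zero_iff (Q i) (hdeg _) hval).mp (hf i)
      have h2 := (S17NF_val_lt_one_iff (Q i) hf0).mp h1
      rw [hQ1 i]
      omega
    · have h1 : ¬ P.ord t < 0 := fun h => hPO ((hO P).mp h)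
      have h2 := hreg P hPO
      omega
  refine ⟨⟨(f : F) / t, hg⟩, ?_⟩
  apply Subtype.ext
  rw [Algebra.smul_def]
  show (f : F) = t * ((f : F) / t)
  field_simp

include ht hO in
/-- **T3a FIB**: `t` with its only pole at `O`, of order `k`; `Q i` (`i < k`) pairwise distinct
zeros of `t`.  Then for every `w ∈ B`:  `(N w)(0) = ∏ i, w(Q i)`. -/
theorem S17FB_main (hdeg : ∀ v : Place K F, v.deg = 1) {k : ℕ} (hk : O.ord t = -(k : ℤ))
    (Q : Fin k → Place K F) (hQinj : Function.Injective Q) (hQ : ∀ i, 0 < (Q i).ord t)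
    (w : integralClosure (Algebra.adjoin K ({t} : Set F)) F) :
    (S17NF_norm ht w).eval 0 = ∏ i, FD_c0 (Q i) (w : F) := by
  have hn : Module.finrank (Algebra.adjoin K ({t} : Set F))
      (integralClosure (Algebra.adjoin K ({t} : Set F)) F) = k := by
    have := S17NF_finrank ht O hO
    omega
  obtain ⟨hQ1, hQall⟩ := S17FB_count ht hn Q hQinj hQ
  subst hn
  have ht0 : t ≠ 0 := S17NF_t_ne_zero ht
  have hQ0 : ∀ i, t ∈ (Q i).toValuationSubring := fun i =>
    (BG_mem_iff_ord_nonneg (Q i) ht0).mpr (by have := hQ i; omega)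
  have hQz : ∀ i, FD_c0 (Q i) t = 0 := fun i =>
    (FD_c0_eq_zero_iff (Q i) (hdeg _) ((Q i).adicValuation_le_one_of_mem (hQ0 i))).mpr
      ((S17NF_val_lt_one_iff (Q i) ht0).mpr (hQ i))
  exact S17FB_core ht hdeg Q hQ0 hQz
    (fun f hf => S17FB_div ht O hO hdeg Q hQ1 hQall f hf) w

end geom

end Fermat.Agent.S17
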