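import Mathlib
import Fermat.Agent.S17.ChowCurve
import Fermat.Agent.S17.TanFib
import Fermat.Agent.S17.NormLc

/-!
# TRACK 8 (S17), heights, TAN piece T3c REC (helper2): reciprocity for a function regular off `O`

Setting of `S17/ChowCurve.lean` (`e : ι → F` in `L(kO)`, `e il` of exact pole order `k`).
For `w ≠ 0` regular off `O` with `ord_O w = -μ k` there is a constant `κ ≠ 0` such that for every
section `t_c = ∑ c_j e_j` with `c il ≠ 0` and `k` distinct zeros `Q_i`: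

  `(c il) ^ (μ k) · ∏ i, w(Q i) = κ · ∏_{P zero of w} ⟨c, ev P⟩ ^ ord_P w`.

Inputs: FIB (`S17FB_main`, helper10), `S17NF_main` + `S17NF_norm_t_pow` (helper22) and T3-lc
(`S17NL_main`, helper21; `S17RC_main_of` takes it as the hypothesis `S17RC_Lc`).
-/

set_option autoImplicit false

open AlgebraicCurve IntermediateField Polynomial WithZero
open scoped IntermediateField.algebraAdjoinAdjoin

universe u v

namespace Fermat.Agent.S17

open Fermat.Agent.S24 Fermat.Agent.Lib Fermat.Agent.S18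

/-! ## valuations -/

/-- `v (x ^ n - y ^ n) < M ^ n` if `v x, v y ≤ M` and `v (x - y) < M` (also for `n = 0`). -/
theorem S17RC_val_pow_sub {R : Type*} [CommRing R] {Γ₀ : Type*}
    [LinearOrderedCommGroupWithZero Γ₀] (v : Valuation R Γ₀) {x y : R} {M : Γ₀} (hM : 0 < M)
    (hx : v x ≤ M) (hy : v y ≤ M) (hxy : v (x - y) < M) (n : ℕ) :
    v (x ^ n - y ^ n) < M ^ n := by
  induction n with
  | zero => simp
  | succ n ih =>
    have h1 : x ^ (n + 1) - y ^ (n + 1) = x * (x ^ n - y ^ n) + (x - y) * y ^ n := by ring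
    rw [h1]
    apply Valuation.map_add_lt
    · rw [map_mul, pow_succ']
      calc v x * v (x ^ n - y ^ n) ≤ M * v (x ^ n - y ^ n) := mul_le_mul' hx le_rfl
        _ < M * M ^ n := mul_lt_mul_of_pos_left ih hM
    · rw [map_mul, map_pow, pow_succ']
      calc v (x - y) * v y ^ n ≤ v (x - y) * M ^ n :=
            mul_le_mul' le_rfl (pow_le_pow_left₀ zero_le hy n)
        _ < M * M ^ n := mul_lt_mul_of_pos_right hxy (pow_pos hM n)

/-! ## polynomials `c · ∏ (X - a_P) ^ n_P` -/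

theorem S17RC_lc_prod {K : Type*} [Field K] {α : Type*} (S : Finset α) (a : α → K) (n : α → ℕ)
    (c : K) : (C c * ∏ P ∈ S, (X - C (a P)) ^ n P).leadingCoeff = c := by
  have hm : (∏ P ∈ S, (X - C (a P)) ^ n P).Monic :=
    monic_prod_of_monic _ _ fun P _ => (monic_X_sub_C (a P)).pow (n P)
  rw [leadingCoeff_mul, leadingCoeff_C, hm.leadingCoeff, mul_one]

theorem S17RC_eval_prod {K : Type*} [Field K] {α : Type*} (S : Finset α) (a : α → K)
    (n : α → ℕ) (c : K) :
    (C c * ∏ P ∈ S, (X - C (a P)) ^ n P).eval 0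
      = c * (-1) ^ (∑ P ∈ S, n P) * ∏ P ∈ S, a P ^ n P := by
  rw [eval_mul, eval_C, eval_prod, mul_assoc, ← Finset.prod_pow_eq_pow_sum,
    ← Finset.prod_mul_distrib]
  congr 1
  refine Finset.prod_congr rfl fun P _ => ?_
  rw [eval_pow, eval_sub, eval_X, eval_C, zero_sub, neg_pow]

variable {K : Type u} {F : Type v} [Field K] [Field F] [Algebra K F] {ι : Type*}

/-- the leading coefficient of `w` relative to `y` at a place -/
theorem S17RC_exists_beta (O : Place K F) (hdeg : O.deg = 1) {w y : F} (hw : w ≠ 0)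
    (hy : y ≠ 0) (hord : O.ord w = O.ord y) :
    ∃ β : K, β ≠ 0 ∧ O.adicValuation (w - β • y) < O.adicValuation y := by
  have hf : O.adicValuation (w / y) = 1 := by
    rw [map_div₀, O.adicValuation_eq_exp_neg_ord hw, O.adicValuation_eq_exp_neg_ord hy, hord]
    exact div_self exp_ne_zero
  have h1 := FD_c0_spec O hdeg (le_of_eq hf)
  refine ⟨FD_c0 O (w / y), ?_, ?_⟩
  · intro h0
    rw [h0, map_zero, sub_zero, hf] at h1
    exact lt_irrefl _ h1
  · have h2 : w - FD_c0 O (w / y) • y = (w / y - algebraMap K F (FD_c0 O (w / y))) * y := by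
      rw [Algebra.smul_def]
      field_simp
    rw [h2, map_mul]
    calc O.adicValuation (w / y - algebraMap K F (FD_c0 O (w / y))) * O.adicValuation y
        < 1 * O.adicValuation y :=
          mul_lt_mul_of_pos_right h1 (zero_lt_iff.2 (O.adicValuation_ne_zero hy))
      _ = O.adicValuation y := one_mul _

/-- the statement of T3-lc (`S17NL_main`, helper21) -/
def S17RC_Lc (K : Type u) (F : Type v) [Field K] [Field F] [Algebra K F] [CharZero K]
    [IsAlgClosed K] (O : Place K F) : Prop :=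
  ∀ (t : F) (ht : Transcendental K t) [FiniteDimensional K⟮t⟯ F],
    (∀ P : Place K F, P.ord t < 0 ↔ P = O) →
    ∀ (w w' : integralClosure (Algebra.adjoin K ({t} : Set F)) F), w' ≠ 0 →
    ∀ β : K, β ≠ 0 →
      ((w : F) = β • (w' : F) ∨ O.ord (w' : F) < O.ord ((w : F) - β • (w' : F))) →
      (S17NF_norm ht w).leadingCoeff
        = β ^ Module.finrank (Algebra.adjoin K ({t} : Set F))
              (integralClosure (Algebra.adjoin K ({t} : Set F)) F)
          * (S17NF_norm ht w').leadingCoeff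

section main

variable [CharZero K] [IsAlgClosed K] [Fintype ι]
  (h : RR_Hyp K F) (O : Place K F) (k : ℕ) (e : ι → F) (il : ι)
  (hereg : ∀ j, ∀ P : Place K F, P ≠ O → P.adicValuation (e j) ≤ 1)
  (hel : O.adicValuation (e il) = exp (k : ℤ))
  (helow : ∀ j, j ≠ il → O.adicValuation (e j) ≤ exp ((k : ℤ) - 1))

omit [CharZero K] [IsAlgClosed K] in
include hel helow in
/-- `w - (β / c_il ^ μ) t_c ^ μ` has a pole of order `< μ k` at `O`. -/
theorem S17RC_val_rel (c : ι → K) (hc : c il ≠ 0) (w : F) (μ : ℕ) (β : K)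
    (hβw : O.adicValuation (w - β • (e il) ^ μ) < O.adicValuation ((e il) ^ μ)) :
    O.adicValuation (w - (β / (c il) ^ μ) • (S17CC_phi e c) ^ μ)
      < O.adicValuation ((S17CC_phi e c) ^ μ) := by
  have hvt := S17CC_val_O O k e il hel helow c hc
  have hM : (0 : ℤᵐ⁰) < exp (k : ℤ) := exp_pos
  rw [map_pow, hel] at hβw
  rw [map_pow, hvt]
  -- `u = c_il⁻¹ • t`
  have hu : (β / (c il) ^ μ) • (S17CC_phi e c) ^ μ = β • ((c il)⁻¹ • S17CC_phi e c) ^ μ := by
    rw [_root_.smul_pow, smul_smul, inv_pow, div_eq_mul_inv]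
  have hcinv : O.adicValuation (algebraMap K F (c il)⁻¹) = 1 :=
    S17CC_val_const O (inv_ne_zero hc)
  have hvu : O.adicValuation ((c il)⁻¹ • S17CC_phi e c) ≤ exp (k : ℤ) := by
    rw [Algebra.smul_def, map_mul, hcinv, one_mul, hvt]
  have hdiff : O.adicValuation (e il - (c il)⁻¹ • S17CC_phi e c) < exp (k : ℤ) := by
    obtain ⟨s, hs, hsplit⟩ := S17CC_phi_split e il c
    have h1 : e il - (c il)⁻¹ • S17CC_phi e c = -((c il)⁻¹ • ∑ j ∈ s, c j • e j) := by
      rw [hsplit, smul_add, smul_smul, inv_mul_cancel₀ hc, one_smul]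
      ring
    rw [h1, Valuation.map_neg, Algebra.smul_def, map_mul, hcinv, one_mul]
    refine lt_of_le_of_lt (S17CC_val_O_low O k e il helow c s hs) ?_
    rw [exp_lt_exp]
    omega
  have h2 := S17RC_val_pow_sub O.adicValuation hM (le_of_eq hel) hvu hdiff μ
  have h3 : w - (β / (c il) ^ μ) • (S17CC_phi e c) ^ μ
      = (w - β • (e il) ^ μ) + β • ((e il) ^ μ - ((c il)⁻¹ • S17CC_phi e c) ^ μ) := by
    rw [hu, smul_sub]
    ring
  rw [h3]
  apply Valuation.map_add_lt _ hβw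
  rw [Algebra.smul_def, map_mul]
  calc O.adicValuation (algebraMap K F β)
        * O.adicValuation ((e il) ^ μ - ((c il)⁻¹ • S17CC_phi e c) ^ μ)
      ≤ 1 * O.adicValuation ((e il) ^ μ - ((c il)⁻¹ • S17CC_phi e c) ^ μ) :=
        mul_le_mul' (O.adicValuation_algebraMap_le_one _) le_rfl
    _ < exp (k : ℤ) ^ μ := by rw [one_mul]; exact h2

include h hereg hel helow in
/-- **T3c REC**, from T3-lc as a hypothesis. -/
theorem S17RC_main_of (hlc : S17RC_Lc K F O) (hk : 1 ≤ k) (w : F) (hw0 : w ≠ 0)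
    (hwreg : ∀ P : Place K F, P ≠ O → 0 ≤ P.ord w)
    (μ : ℕ) (hwO : O.ord w = -((μ * k : ℕ) : ℤ)) :
    ∃ (κ : K) (S : Finset (Place K F)), κ ≠ 0 ∧ (∀ P, P ∈ S ↔ P ≠ O ∧ 0 < P.ord w) ∧
      ∀ (c : ι → K) (Q : Fin k → Place K F), c il ≠ 0 → Function.Injective Q →
        (∀ P : Place K F, 0 < P.ord (∑ j, c j • e j) ↔ ∃ i, P = Q i) →
        (c il) ^ (μ * k) * ∏ i, FD_c0 (Q i) w
          = κ * ∏ P ∈ S, (∑ j, c j * FD_c0 P (e j)) ^ (P.ord w).toNat := by
  classical
  have heil0 : e il ≠ 0 := by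
    intro h0
    rw [h0, map_zero] at hel
    exact exp_ne_zero hel.symm
  have hordeil : O.ord (e il) = -(k : ℤ) := by
    have h1 := hel
    rw [O.adicValuation_eq_exp_neg_ord heil0, exp_inj] at h1
    omega
  have hy0 : (e il) ^ μ ≠ 0 := pow_ne_zero _ heil0
  have hordy : O.ord ((e il) ^ μ) = -((μ * k : ℕ) : ℤ) := by
    have h1 := O.ord_zpow (e il) (μ : ℤ)
    rw [zpow_natCast] at h1
    rw [h1, hordeil]
    push_cast
    ring
  obtain ⟨β, hβ, hβw⟩ := S17RC_exists_beta O (h.deg_one O) hw0 hy0 (hwO.trans hordy.symm)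
  refine ⟨β ^ k * (-1) ^ (μ * k), S17CC_zeroSet h O w,
    mul_ne_zero (pow_ne_zero _ hβ) (pow_ne_zero _ (by norm_num)), S17CC_mem_zeroSet h O w, ?_⟩
  intro c Q hc hQinj hQ
  change ∀ P : Place K F, 0 < P.ord (S17CC_phi e c) ↔ ∃ i, P = Q i at hQ
  have ht := S17CC_transc O k e il hel helow hk c hc
  have := S17CC_findim h O k e il hel helow hk c hc
  have hO := S17CC_hO O k e il hereg hel helow hk c hc
  have hordt := S17CC_ord_O O k e il hel helow c hc
  have ht0 : S17CC_phi e c ≠ 0 := S17CC_phi_ne_zero_of_last O k e il hel helow c hc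
  have hfr := S17CC_finrank h O k e il hereg hel helow hk c hc
  -- `w` and `t ^ μ` as elements of `B`
  have hwB : w ∈ integralClosure (Algebra.adjoin K ({S17CC_phi e c} : Set F)) F :=
    (S17NF_mem_B_iff ht O hO w).2 hwreg
  have htB : S17CC_phi e c ∈ integralClosure (Algebra.adjoin K ({S17CC_phi e c} : Set F)) F := by
    rw [S17NF_mem_B_iff ht O hO]
    intro P hP
    by_contra hneg
    exact hP ((hO P).1 (not_le.1 hneg))
  have htμB : (S17CC_phi e c) ^ μ ∈
      integralClosure (Algebra.adjoin K ({S17CC_phi e c} : Set F)) F :=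
    Subalgebra.pow_mem _ htB μ
  have hwB0 : (⟨w, hwB⟩ : integralClosure (Algebra.adjoin K ({S17CC_phi e c} : Set F)) F) ≠ 0 :=
    fun h0 => hw0 (congrArg Subtype.val h0)
  have htμB0 : (⟨(S17CC_phi e c) ^ μ, htμB⟩ :
      integralClosure (Algebra.adjoin K ({S17CC_phi e c} : Set F)) F) ≠ 0 :=
    fun h0 => pow_ne_zero μ ht0 (congrArg Subtype.val h0)
  -- FIB
  have hfib := S17FB_main ht O hO h.deg_one hordt Q hQinj (fun i => (hQ (Q i)).2 ⟨i, rfl⟩)
    ⟨w, hwB⟩
  -- the norm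
  obtain ⟨c₀, S', hc₀, hS', hN, hdeg⟩ := S17NF_main ht O hO h.principal h.deg_one ⟨w, hwB⟩ hwB0
  have hSS : S' = S17CC_zeroSet h O w :=
    Finset.ext fun P => by rw [hS', S17CC_mem_zeroSet]
  subst hSS
  -- the leading coefficient
  have hβ' : β / (c il) ^ μ ≠ 0 := div_ne_zero hβ (pow_ne_zero _ hc)
  have hrel : (w : F) = (β / (c il) ^ μ) • (S17CC_phi e c) ^ μ ∨
      O.ord ((S17CC_phi e c) ^ μ) < O.ord (w - (β / (c il) ^ μ) • (S17CC_phi e c) ^ μ) := by
    have hv := S17RC_val_rel O k e il hel helow c hc w μ β hβw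
    by_cases hd : w - (β / (c il) ^ μ) • (S17CC_phi e c) ^ μ = 0
    · exact Or.inl (sub_eq_zero.1 hd)
    · right
      rw [O.adicValuation_eq_exp_neg_ord hd,
        O.adicValuation_eq_exp_neg_ord (pow_ne_zero μ ht0), exp_lt_exp] at hv
      omega
  have hlc' := hlc (S17CC_phi e c) ht hO ⟨w, hwB⟩ ⟨(S17CC_phi e c) ^ μ, htμB⟩ htμB0
    (β / (c il) ^ μ) hβ' hrel
  rw [S17NF_norm_t_pow ht μ ⟨(S17CC_phi e c) ^ μ, htμB⟩ rfl, leadingCoeff_X_pow, mul_one, hfr,
    hN, S17RC_lc_prod] at hlc'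
  -- the degree
  have hsum : ∑ P ∈ S17CC_zeroSet h O w, (P.ord w).toNat = μ * k := by
    have h1 := hdeg
    rw [hN, S17NF_natDegree_prod _ _ _ c₀ hc₀] at h1
    have h2 : ((∑ P ∈ S17CC_zeroSet h O w, (P.ord w).toNat : ℕ) : ℤ) = ((μ * k : ℕ) : ℤ) := by
      rw [h1]
      show -O.ord w = _
      rw [hwO, neg_neg]
    exact_mod_cast h2
  -- the value at `0`
  rw [hN, S17RC_eval_prod] at hfib
  have hsum' : ∑ P ∈ S17CC_zeroSet h O w, (P.ord ((⟨w, hwB⟩ :
      integralClosure (Algebra.adjoin K ({S17CC_phi e c} : Set F)) F) : F)).toNat = μ * k := hsum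
  rw [hsum'] at hfib
  have hfib' : ∏ i, FD_c0 (Q i) w = c₀ * (-1) ^ (μ * k)
      * ∏ P ∈ S17CC_zeroSet h O w, FD_c0 P (S17CC_phi e c) ^ (P.ord w).toNat := hfib.symm
  rw [hfib', hlc']
  have hprod : ∏ P ∈ S17CC_zeroSet h O w, FD_c0 P (S17CC_phi e c) ^ (P.ord w).toNat
      = ∏ P ∈ S17CC_zeroSet h O w, (∑ j, c j * FD_c0 P (e j)) ^ (P.ord w).toNat := by
    refine Finset.prod_congr rfl fun P hP => ?_
    rw [S17CC_c0_phi h O e hereg ((S17CC_mem_zeroSet h O w P).1 hP).1 c]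
  rw [hprod, div_pow, ← pow_mul]
  have hcμ : (c il) ^ (μ * k) ≠ 0 := pow_ne_zero _ hc
  field_simp

include h in
/-- T3-lc holds (`S17NL_main`). -/
theorem S17RC_lc_holds : S17RC_Lc K F O :=
  fun _ ht _ hO w w' hw' β hβ hrel =>
    S17NL_main ht O hO h.deg_one h.principal w w' hw' β hβ hrel

include h hereg hel helow in
/-- **T3c REC**: reciprocity for a function `w` regular off `O` with `ord_O w = -μ k`. -/
theorem S17RC_main (hk : 1 ≤ k) (w : F) (hw0 : w ≠ 0)
    (hwreg : ∀ P : Place K F, P ≠ O → 0 ≤ P.ord w)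
    (μ : ℕ) (hwO : O.ord w = -((μ * k : ℕ) : ℤ)) :
    ∃ (κ : K) (S : Finset (Place K F)), κ ≠ 0 ∧ (∀ P, P ∈ S ↔ P ≠ O ∧ 0 < P.ord w) ∧
      ∀ (c : ι → K) (Q : Fin k → Place K F), c il ≠ 0 → Function.Injective Q →
        (∀ P : Place K F, 0 < P.ord (∑ j, c j • e j) ↔ ∃ i, P = Q i) →
        (c il) ^ (μ * k) * ∏ i, FD_c0 (Q i) w
          = κ * ∏ P ∈ S, (∑ j, c j * FD_c0 P (e j)) ^ (P.ord w).toNat :=
  S17RC_main_of h O k e il hereg hel helow (S17RC_lc_holds h O) hk w hw0 hwreg μ hwO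

end main

end Fermat.Agent.S17
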