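import Fermat.Agent.S17.TanFinal
import Fermat.Agent.S17.TanRec

/-!
# TRACK 8 (S17), heights pillar, TAN-curve: reciprocity discharged (helper2)

* `S17RC_recOut`    : `S17RC_main` in the shape `S17T6_RecOut` (helper3's `TanMain.lean`);
* `S17RC_tan_final` : `S17T6_final` without the hypothesis `hREC`: the model fields `B`, `tan_ok`,
  `tanS` (`tan = S17TN_tan (S17TN_Dt (e il)) e`) from the basis data, the zero cycles and the
  injectivity of `ev`.
-/

set_option autoImplicit false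
set_option linter.unusedSectionVars false

open MvPolynomial AlgebraicCurve WithZero KaehlerDifferential IntermediateField

namespace Fermat.Agent.S17

open Fermat.Agent.Lib Fermat.Agent.S24

section final

variable {K F : Type} [Field K] [Field F] [Algebra K F] [IsAlgClosed K] [CharZero K]
  {ι : Type} [Fintype ι]

/-- T3c (REC) in the shape `S17T6_RecOut`. -/
theorem S17RC_recOut (h : RR_Hyp K F) (O : Place K F) (k : ℕ) (hk : 1 ≤ k) (e : ι → F) (il : ι)
    (hereg : ∀ j, ∀ P : Place K F, P ≠ O → P.adicValuation (e j) ≤ 1)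
    (hel : O.adicValuation (e il) = exp (k : ℤ))
    (helow : ∀ j, j ≠ il → O.adicValuation (e j) ≤ exp ((k : ℤ) - 1)) :
    S17T6_RecOut (K := K) O k e il :=
  fun w hw0 hwreg μ hwO => S17RC_main h O k e il hereg hel helow hk w hw0 hwreg μ hwO

variable [Algebra.IsAlgebraic ℚ K]

/-- **TAN-curve**, unconditional in reciprocity: the model fields `B`, `tan_ok`, `tanS`. -/
theorem S17RC_tan_final (h : RR_Hyp K F) (O : Place K F) (k : ℕ) (hk : 2 ≤ k)
    (e : ι → F) (i0 i1 il : ι) (he0 : e i0 = 1)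
    (hel : O.adicValuation (e il) = exp (k : ℤ))
    (helow : ∀ j, j ≠ il → O.adicValuation (e j) ≤ exp ((k : ℤ) - 1))
    (hereg : ∀ j, ∀ P : Place K F, P ≠ O → P.adicValuation (e j) ≤ 1)
    (hi1 : O.ord (e i1) = -((k : ℤ) - 1))
    (himm : ∀ R : Place K F, R ≠ O → ∃ j, R.ord (e j - algebraMap K F (FD_c0 R (e j))) = 1)
    (hli : LinearIndependent K e)
    (hevinj : ∀ P P' : Place K F, P ≠ P' →
      S17H_wedge (S17NGL_ev O e il P) (S17NGL_ev O e il P') ≠ 0)
    (X : S17H_Curve K ι k) (hXI : X.I = S17NGZ_I (K := K) e)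
    (hzeros : ∀ c : ι → K, c ≠ 0 → ∃ v : Fin k → Place K F,
      S17H_Fact X.chow c (fun i => S17NGL_ev O e il (v i)) ∧
      ∀ P, ((S17H_cyc v P : ℕ) : ℤ) =
        P.ord (∑ j, c j • e j) + (k • Finsupp.single O (1 : ℤ)) P) :
    ∃ B : Finset (Place K F), O ∈ B ∧
      (∀ Q, Q ∉ B →
        S17H_Tan X.I (S17NGL_ev O e il Q) (S17TN_tan (S17TN_Dt (K := K) (e il)) e Q) ∧
        S17H_wedge (S17NGL_ev O e il Q) (S17TN_tan (S17TN_Dt (K := K) (e il)) e Q) ≠ 0) ∧
      S17H_StmtTAN X (RR_genus K F)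
        (fun x x' => ∃ Q, Q ∉ B ∧ x = S17NGL_ev O e il Q ∧
          x' = S17TN_tan (S17TN_Dt (K := K) (e il)) e Q) :=
  S17T6_final h O k hk e i0 i1 il he0 hel helow hereg hi1 himm hli hevinj X hXI hzeros
    (S17RC_recOut h O k (by omega) e il hereg hel helow)

end final

end Fermat.Agent.S17
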