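import Fermat.Agent.S17.Final2
import Fermat.Agent.S17.ModelInst4
import Fermat.Agent.S17.CurveInst2
import Fermat.Agent.S17.TanFinal
import Fermat.Agent.S17.TanRecFinal
import Fermat.Agent.S17.Emb4

/-!
# TRACK 8 "MW" (S17): the FINAL ASSEMBLY, third part (helper17, captain)

* `S17F_curve`   : CURVE-INST (`S17CV_main`, helper7 + helper19) at the data of `X₀(N)`;
* `S17F_genOut`  : T4 GEN (`S17T6_genOut`, helper24 + helper3) at the data of `X₀(N)`;
* `S17F_recOut`  : T3c REC (`S17RC_recOut`, helper2) at the data of `X₀(N)`;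
* `S17F_model`   : the concrete model `M_N` (`S17MI_exists_model`, helper4), unconditional;
* `S17F_main`    : **S17** for every `N ≠ 0`.
-/

set_option autoImplicit false

open ModularCurve AlgebraicCurve WithZero

namespace Fermat.Agent.S17

open Fermat.Agent.Lib

variable {N : ℕ} [NeZero N]

/-- CURVE-INST at the data of `X₀(N)`. -/
theorem S17F_curve {d1 : ℕ} (hd1 : 2 * S17MI_g N + 1 ≤ d1) : S17MI_CurveStmt hd1 := by
  haveI : Algebra.IsAlgebraic ℚ (AlgebraicClosure ℚ) := S17AH_isAlgebraic_Qbar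
  have hk4 : 4 * RR_genus (AlgebraicClosure ℚ) ↥(modularFunctionFieldBar N) + 2 ≤ 4 * d1 := by
    unfold S17MI_g at hd1
    omega
  exact S17CV_main (S17ST_hRR N) (S17EM_O N) (4 * d1) (S17MI_e N d1) (S17MI_i0 N d1)
    (S17MI_il N d1) (S17MI_e_i0 N d1) (fun j P hP => S17EM_val_off N (4 * d1) j P hP)
    (S17EM_val_last N (4 * d1) (S17MI_hk2 hd1))
    (fun j hj => S17EM_val_low N (4 * d1) (S17MI_hk2 hd1) j hj) (S17MI_hk1 hd1)
    (S17EM_e_linearIndependent N (4 * d1)) hk4 (S17MI_span N d1)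

/-- T4 (GEN) at the data of `X₀(N)`. -/
theorem S17F_genOut {d1 : ℕ} (hd1 : 2 * S17MI_g N + 1 ≤ d1) :
    S17T6_GenOut (K := AlgebraicClosure ℚ) (S17EM_O N) (4 * d1) (S17MI_e N d1)
      (S17MI_il N d1) := by
  have hk2 : 2 * RR_genus (AlgebraicClosure ℚ) ↥(modularFunctionFieldBar N) + 2 ≤ 4 * d1 := by
    unfold S17MI_g at hd1
    omega
  obtain ⟨i1, -, hi1⟩ := S17EM_exists_pred N (4 * d1) hk2
  refine S17T6_genOut (S17ST_hRR N) (S17EM_O N) (4 * d1) (by omega) (S17MI_e N d1)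
    (S17MI_i0 N d1) i1 (S17MI_il N d1) (S17MI_e_i0 N d1)
    (fun j P hP => S17EM_val_off N (4 * d1) j P hP)
    (S17EM_val_last N (4 * d1) (S17MI_hk2 hd1))
    (fun j hj => S17EM_val_low N (4 * d1) (S17MI_hk2 hd1) j hj) hi1 (fun R hR => ?_)
  refine S17NGS_immersion (O := S17EM_O N) (B := S17EM_D N (4 * d1)) (e := S17MI_e N d1)
    (S17ST_hRR N) (S17MI_D_off N d1) ?_ (S17MI_span N d1) hR
  rw [S17MI_D_degree]
  exact_mod_cast hk2

/-- T3c (REC) at the data of `X₀(N)`. -/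
theorem S17F_recOut {d1 : ℕ} (hd1 : 2 * S17MI_g N + 1 ≤ d1) :
    S17T6_RecOut (K := AlgebraicClosure ℚ) (S17EM_O N) (4 * d1) (S17MI_e N d1)
      (S17MI_il N d1) :=
  S17RC_recOut (S17ST_hRR N) (S17EM_O N) (4 * d1) (S17MI_hk1 hd1) (S17MI_e N d1)
    (S17MI_il N d1) (fun j P hP => S17EM_val_off N (4 * d1) j P hP)
    (S17EM_val_last N (4 * d1) (S17MI_hk2 hd1))
    (fun j hj => S17EM_val_low N (4 * d1) (S17MI_hk2 hd1) j hj)

/-- **the concrete model** `M_N` of `X₀(N)`, for every `d1 ≥ 2 g + 1`. -/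
theorem S17F_model {d1 : ℕ} (hd1 : 2 * S17MI_g N + 1 ≤ d1) :
    ∃ M : S17H_Model (AlgebraicClosure ℚ) (JZero N) (S17HI_Pl N) (S17MI_ι N d1) (4 * d1)
      (S17MI_g N) d1, M.JQ = S17_JQ N :=
  S17MI_exists_model hd1 (S17F_curve hd1) (S17F_genOut hd1) (S17F_recOut hd1)

variable (N)

/-- **S17**: `J₀(N)(ℚ)` is finitely generated, for every `N ≠ 0`. -/
theorem S17F_main :
    AddGroup.FG ↥(FixedPoints.addSubgroup ((AlgebraicClosure ℚ) ≃ₐ[ℚ] (AlgebraicClosure ℚ))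
      (JZero N)) :=
  S17F_result_of N fun _ => by
    obtain ⟨M, hM⟩ := S17F_model (N := N) (d1 := 2 * S17MI_g N + 1) le_rfl
    exact ⟨_, inferInstance, _, _, _, M, hM⟩

end Fermat.Agent.S17
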