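import Mathlib

/-!
# TRACK 8 (S17), package CERT: abstract height API

`S17C_HtAPI K` packages the properties of a logarithmic height on tuples `ι → K` (all index types
in one universe `u`) that the multi-homogeneous height machine (`S17/CertM.lean`) uses.
`S17C_HtAPI_logHeight` is the instance given by Mathlib's `Height.logHeight` for a field with
an admissible family of absolute values.  Package ABS instantiates it for the absolute
height on `ℚ̄`.
-/

namespace Fermat.Agent.S17

open MvPolynomial

universe u v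

/-- Abstract API of a logarithmic height on finite tuples with entries in `K`. -/
structure S17C_HtAPI (K : Type v) [Field K] : Type (max (u + 1) v) where
  /-- the height of a tuple -/
  h : ∀ {ι : Type u}, (ι → K) → ℝ
  zero : ∀ {ι : Type u}, h (0 : ι → K) = 0
  nonneg : ∀ {ι : Type u} [Finite ι] (x : ι → K), 0 ≤ h x
  comp_le : ∀ {ι ι' : Type u} [Finite ι] [Finite ι'] (f : ι → ι') (x : ι' → K),
    h (x ∘ f) ≤ h x
  fun_mul : ∀ {ι ι' : Type u} [Finite ι] [Finite ι'] {x : ι → K} {y : ι' → K},
    x ≠ 0 → y ≠ 0 → h (fun a : ι × ι' => x a.1 * y a.2) = h x + h y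
  fun_prod : ∀ {α : Type u} [Fintype α] {ι : α → Type u} [∀ a, Finite (ι a)]
    {x : (a : α) → ι a → K}, (∀ a, x a ≠ 0) →
    h (fun f : (a : α) → ι a => ∏ a, x a (f a)) = ∑ a, h (x a)
  pow : ∀ {ι : Type u} [Finite ι] (x : ι → K) (n : ℕ), h (x ^ n) = n * h x
  smul : ∀ {ι : Type u} [Finite ι] (x : ι → K) {c : K}, c ≠ 0 → h (c • x) = h x
  eval_le : ∀ {ι ι' : Type u} [Finite ι] [Finite ι'] {N : ℕ} {p : ι' → MvPolynomial ι K},
    (∀ j, (p j).IsHomogeneous N) → ∃ C : ℝ, ∀ x : ι → K,
      h (fun j => (p j).eval x) ≤ C + N * h x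
  eval_ge : ∀ {ι ι' : Type u} [Finite ι] [Fintype ι'] {M N : ℕ}
    {q : ι × ι' → MvPolynomial ι K}, (∀ a, (q a).IsHomogeneous M) → ∃ C : ℝ,
      ∀ (p : ι' → MvPolynomial ι K) (x : ι → K),
        (∀ k, ∑ j, (q (k, j)).eval x * (p j).eval x = x k ^ (M + N)) →
        C + N * h x ≤ h (fun j => (p j).eval x)

/-- Mathlib's logarithmic height (for a field with an admissible family of absolute values,
e.g. a number field) satisfies the API. -/
noncomputable def S17C_HtAPI_logHeight (K : Type v) [Field K] [Height.AdmissibleAbsValues K] :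
    S17C_HtAPI.{u} K where
  h := fun x => Height.logHeight x
  zero := Height.logHeight_zero
  nonneg := fun x => Height.logHeight_nonneg x
  comp_le := fun f x => Height.logHeight_comp_le f x
  fun_mul := fun hx hy => Height.logHeight_fun_mul_eq hx hy
  fun_prod := fun hx => Height.logHeight_fun_prod_eq hx
  pow := fun x n => Height.logHeight_pow x n
  smul := fun x _ hc => Height.logHeight_smul_eq_logHeight x hc
  eval_le := fun hp => Height.logHeight_eval_le' hp
  eval_ge := fun {_ _ _ _ _ N _} hq => by
    obtain ⟨C, hC⟩ := Height.logHeight_eval_ge' (N := N) hq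
    exact ⟨C, fun p x h => hC p h⟩

end Fermat.Agent.S17
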