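import Fermat.Agent.S17.AbsHeight2
import Fermat.Agent.S17.CertAPI

/-!
# TRACK 8 (S17, Mordell–Weil), package ABS part 3 (helper8): the absolute height satisfies the
abstract height API `S17C_HtAPI` (helper26)

* `S17AH_h_zero'` : `S17AH_h 0 = 0` for every index type;
* `S17AH_h_pow` : `S17AH_h (x ^ n) = n * S17AH_h x`;
* `S17AH_api Ω : S17C_HtAPI Ω` with `(S17AH_api Ω).h = S17AH_h` (by `rfl`, `S17AH_api_h`), for
  every field `Ω` of characteristic `0` which is algebraic over `ℚ`;
* `S17AH_apiQbar := S17AH_api (AlgebraicClosure ℚ)`.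
-/

set_option autoImplicit false
set_option linter.style.haveILetI false
set_option linter.unusedSectionVars false

open NumberField Height Module IntermediateField

namespace Fermat.Agent.S17

universe u v

section

variable {Ω : Type v} [Field Ω] [CharZero Ω]

/-- `S17AH_h 0 = 0` for every index type (finite or not). -/
theorem S17AH_h_zero' {ι : Type*} : S17AH_h (0 : ι → Ω) = 0 := by
  unfold S17AH_h
  split_ifs with h
  · haveI := h
    haveI : NumberField (S17AH_field (0 : ι → Ω)) := {}
    have h0 : S17AH_lift (0 : ι → Ω) = 0 := by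
      funext i
      exact Subtype.ext rfl
    have h1 : logHeight (S17AH_lift (0 : ι → Ω)) = 0 := by
      rw [h0, logHeight_zero]
    exact mul_eq_zero_of_right _ h1
  · rfl

variable [Algebra.IsAlgebraic ℚ Ω]

theorem S17AH_h_pow {ι : Type*} [Finite ι] (x : ι → Ω) (n : ℕ) :
    S17AH_h (x ^ n) = n * S17AH_h x := by
  have h1 : S17AH_h (x ^ n) = S17AH_h (fun i => (((S17AH_lift x ^ n) i : S17AH_field x) : Ω)) := by
    congr 1
  have h2 : S17AH_h x = S17AH_h (fun i => ((S17AH_lift x) i : Ω)) := rfl
  rw [h1, h2, S17AH_h_sub, S17AH_h_sub, logHeight_pow]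
  ring

variable (Ω)

/-- **ABS**: the absolute logarithmic height satisfies the abstract height API. -/
noncomputable def S17AH_api : S17C_HtAPI.{u} Ω where
  h := fun x => S17AH_h x
  zero := S17AH_h_zero'
  nonneg := fun x => S17AH_h_nonneg x
  comp_le := fun f x => S17AH_h_comp_le f x
  fun_mul := fun hx hy => S17AH_h_fun_mul hx hy
  fun_prod := fun hx => S17AH_h_fun_prod hx
  pow := fun x n => S17AH_h_pow x n
  smul := fun x _ hc => S17AH_h_smul x hc
  eval_le := fun hp => S17AH_eval_le' hp
  eval_ge := fun hq => S17AH_eval_ge' hq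

@[simp] theorem S17AH_api_h {ι : Type u} (x : ι → Ω) : (S17AH_api.{u} Ω).h x = S17AH_h x := rfl

end

/-- `ℚ̄` is algebraic over `ℚ` (for the canonical `ℚ`-algebra structure of a division ring). -/
theorem S17AH_isAlgebraic_Qbar : Algebra.IsAlgebraic ℚ (AlgebraicClosure ℚ) :=
  AlgebraicClosure.isAlgebraic ℚ

/-- the absolute height API on `ℚ̄`. -/
noncomputable def S17AH_apiQbar : S17C_HtAPI.{u} (AlgebraicClosure ℚ) :=
  haveI := S17AH_isAlgebraic_Qbar
  S17AH_api (AlgebraicClosure ℚ)

@[simp] theorem S17AH_apiQbar_h {ι : Type u} (x : ι → AlgebraicClosure ℚ) :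
    (S17AH_apiQbar.{u}).h x = S17AH_h x := rfl

end Fermat.Agent.S17
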