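import Mathlib

/-!
# TRACK 8 (S17, Mordell–Weil), package ABS (helper8): the absolute logarithmic height

Mathlib only.  `Ω` is any field of characteristic `0` that is algebraic over `ℚ`
(e.g. `AlgebraicClosure ℚ`), `ι` a finite index type.

* `S17AH_mulHeight_ext`, `S17AH_logHeight_ext` : the **extension formula**
  `H_L(x) = H_K(x) ^ [L : K]` for number fields `L / K` and a tuple `x : ι → K`
  (infinite places: complex embeddings, `AlgHom.card`; finite places: `Ideal.absNorm_algebraMap`).
* `S17AH_h x` : the absolute logarithmic height of `x : ι → Ω`,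
  `(1 / [K : ℚ]) · logHeight (x over K)`, `K = ℚ(x)`.
* `S17AH_h_eq` : **(a)** `S17AH_h (φ ∘ x) = (1 / [L : ℚ]) · logHeight x` for EVERY number field `L`,
  every `φ : L →+* Ω` and every `x : ι → L`.
* `S17AH_h_rat` : **(b)** `S17AH_h (algebraMap ℚ Ω ∘ x) = Height.logHeight x` for `x : ι → ℚ`.
* `S17AH_h_comp`, `S17AH_h_gal`, `S17AH_h_smul` : **(c)** invariance under field embeddings /
  automorphisms and under scaling.
* `S17AH_h_nonneg`, `S17AH_h_zero`, `S17AH_h_comp_equiv`.
-/

set_option autoImplicit false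
set_option linter.style.haveILetI false
set_option linter.unusedSectionVars false

open NumberField Height Module IntermediateField

namespace Fermat.Agent.S17

section ext

variable {K L : Type*} [Field K] [Field L] [NumberField K] [NumberField L] [Algebra K L]

/-- product over the infinite places (with multiplicity) = product over complex embeddings -/
theorem S17AH_prod_emb (G : InfinitePlace K → ℝ) :
    ∏ v : InfinitePlace K, G v ^ v.mult = ∏ φ : K →+* ℂ, G (InfinitePlace.mk φ) := by
  classical
  rw [← Finset.prod_fiberwise Finset.univ InfinitePlace.mk (fun φ => G (InfinitePlace.mk φ))]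
  refine Finset.prod_congr rfl fun w _ => ?_
  have : ∀ φ ∈ ({φ | InfinitePlace.mk φ = w} : Finset (K →+* ℂ)),
      G (InfinitePlace.mk φ) = G w := by
    intro φ hφ
    rw [(Finset.mem_filter.mp hφ).2]
  rw [Finset.prod_congr rfl this, Finset.prod_const, InfinitePlace.card_filter_mk_eq]

/-- the number of complex embeddings of `L` extending a given one of `K` is `[L : K]`. -/
theorem S17AH_card_fiber (ψ : K →+* ℂ)
    [DecidablePred fun φ : L →+* ℂ => φ.comp (algebraMap K L) = ψ] :
    (Finset.univ.filter fun φ : L →+* ℂ => φ.comp (algebraMap K L) = ψ).card = finrank K L := by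
  let _ : Algebra K ℂ := ψ.toAlgebra
  rw [← AlgHom.card K L ℂ, ← Finset.card_univ]
  symm
  refine Finset.card_nbij AlgHom.toRingHom (fun σ _ => ?_) AlgHom.coe_ringHom_injective.injOn
    (fun φ hφ => ?_)
  · simp only [Finset.coe_filter, Finset.mem_univ, true_and, Set.mem_ofPred_eq]
    ext x
    simp [RingHom.algebraMap_toAlgebra]
  · simp only [Finset.coe_filter, Finset.mem_univ, true_and, Set.mem_ofPred_eq] at hφ
    refine ⟨⟨φ, fun x => ?_⟩, by simp, rfl⟩
    simp [RingHom.algebraMap_toAlgebra, ← hφ]

/-- **Extension formula, infinite part.** -/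
theorem S17AH_prod_infinite (G : InfinitePlace K → ℝ) :
    ∏ w : InfinitePlace L, G (w.comap (algebraMap K L)) ^ w.mult =
      (∏ v : InfinitePlace K, G v ^ v.mult) ^ finrank K L := by
  classical
  rw [S17AH_prod_emb (fun w : InfinitePlace L => G (w.comap (algebraMap K L))), S17AH_prod_emb G,
    ← Finset.prod_pow]
  rw [← Finset.prod_fiberwise Finset.univ (fun φ : L →+* ℂ => φ.comp (algebraMap K L))
    (fun φ => G ((InfinitePlace.mk φ).comap (algebraMap K L)))]
  refine Finset.prod_congr rfl fun ψ _ => ?_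
  have : ∀ φ ∈ (Finset.univ.filter fun φ : L →+* ℂ => φ.comp (algebraMap K L) = ψ),
      G ((InfinitePlace.mk φ).comap (algebraMap K L)) = G (InfinitePlace.mk ψ) := by
    intro φ hφ
    rw [InfinitePlace.comap_mk, (Finset.mem_filter.mp hφ).2]
  rw [Finset.prod_congr rfl this, Finset.prod_const, S17AH_card_fiber]

variable {ι : Type*} [Finite ι]

/-- **Extension formula, finite part** (integral tuples). -/
theorem S17AH_finprod_finite (y : ι → 𝓞 K) (hy : y ≠ 0) :
    ∏ᶠ w : FinitePlace L, ⨆ i, w (algebraMap K L (y i : K)) =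
      (∏ᶠ v : FinitePlace K, ⨆ i, v (y i : K)) ^ finrank K L := by
  have hK := absNorm_mul_finprod_finitePlace_eq_one hy
  have hinj : Function.Injective (algebraMap (𝓞 K) (𝓞 L)) :=
    FaithfulSMul.algebraMap_injective (𝓞 K) (𝓞 L)
  have hy' : (fun i => algebraMap (𝓞 K) (𝓞 L) (y i)) ≠ 0 := by
    intro h
    apply hy
    funext i
    have := congrFun h i
    simp only [Pi.zero_apply] at this ⊢
    exact hinj (by rw [this, map_zero])
  have hL := absNorm_mul_finprod_finitePlace_eq_one hy'
  have hspan : Ideal.span (Set.range fun i => algebraMap (𝓞 K) (𝓞 L) (y i)) =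
      (Ideal.span (Set.range y)).map (algebraMap (𝓞 K) (𝓞 L)) := by
    rw [Ideal.map_span, ← Set.range_comp]
    rfl
  rw [hspan, Ideal.absNorm_algebraMap (𝓞 K) (𝓞 L), ← IsFractionRing.finrank_eq (𝓞 K) K (𝓞 L) L]
    at hL
  have hcoe : ∀ i, ((algebraMap (𝓞 K) (𝓞 L) (y i) : 𝓞 L) : L) = algebraMap K L (y i : K) :=
    fun i => rfl
  simp only [hcoe] at hL
  set a : ℝ := (Ideal.absNorm (Ideal.span (Set.range y)) : ℝ) with ha
  set P := ∏ᶠ v : FinitePlace K, ⨆ i, v (y i : K) with hP
  set Q := ∏ᶠ w : FinitePlace L, ⨆ i, w (algebraMap K L (y i : K)) with hQ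
  push_cast at hL
  have h1 : (a * P) ^ finrank K L = 1 := by rw [hK, one_pow]
  rw [mul_pow] at h1
  have ha0 : a ^ finrank K L ≠ 0 := by
    intro h0
    rw [h0, zero_mul] at h1
    exact zero_ne_one h1
  exact mul_left_cancel₀ ha0 (hL.trans h1.symm)

/-- **Extension formula** for the multiplicative height: `H_L(x) = H_K(x)^{[L:K]}`. -/
theorem S17AH_mulHeight_ext (x : ι → K) :
    mulHeight (fun i => algebraMap K L (x i)) = mulHeight x ^ finrank K L := by
  rcases eq_or_ne x 0 with rfl | hx
  · have : (fun i => algebraMap K L ((0 : ι → K) i)) = 0 := by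
      funext i; simp
    rw [this, mulHeight_zero, mulHeight_zero, one_pow]
  obtain ⟨b, hb⟩ := IsLocalization.exist_integer_multiples_of_finite (nonZeroDivisors (𝓞 K)) x
  choose y hy using hb
  have hb0 : ((b : 𝓞 K) : K) ≠ 0 := by
    have := nonZeroDivisors.ne_zero b.2
    exact_mod_cast this
  have hyx : ∀ i, (y i : K) = ((b : 𝓞 K) : K) * x i := by
    intro i
    rw [← Algebra.smul_def]
    exact hy i
  have hy0 : y ≠ 0 := by
    intro h
    apply hx
    funext i
    have := hyx i
    rw [h] at this
    simp only [Pi.zero_apply, map_zero] at this ⊢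
    rcases mul_eq_zero.mp this.symm with h' | h'
    · exact absurd h' hb0
    · exact h'
  have e1 : mulHeight x = mulHeight (fun i => (y i : K)) := by
    rw [← mulHeight_smul_eq_mulHeight x hb0]
    congr 1
    funext i
    simp [hyx i]
  have hbL : algebraMap K L ((b : 𝓞 K) : K) ≠ 0 := by
    rw [Ne, map_eq_zero]; exact hb0
  have e2 : mulHeight (fun i => algebraMap K L (x i)) =
      mulHeight (fun i => algebraMap K L (y i : K)) := by
    rw [← mulHeight_smul_eq_mulHeight (fun i => algebraMap K L (x i)) hbL]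
    congr 1
    funext i
    simp [hyx i]
  have hyK : (fun i => (y i : K)) ≠ 0 := by
    intro h
    apply hy0
    funext i
    have := congrFun h i
    simp only [Pi.zero_apply] at this ⊢
    exact_mod_cast this
  have hyL : (fun i => algebraMap K L (y i : K)) ≠ 0 := by
    intro h
    apply hyK
    funext i
    have := congrFun h i
    simp only [Pi.zero_apply, map_eq_zero] at this ⊢
    exact this
  rw [e1, e2, NumberField.mulHeight_eq hyK, NumberField.mulHeight_eq hyL, mul_pow,
    ← S17AH_finprod_finite y hy0,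
    ← S17AH_prod_infinite (L := L) (fun v : InfinitePlace K => ⨆ i, v (y i : K))]
  rfl

/-- **Extension formula** for the logarithmic height: `h_L(x) = [L:K] · h_K(x)`. -/
theorem S17AH_logHeight_ext (x : ι → K) :
    logHeight (fun i => algebraMap K L (x i)) = finrank K L * logHeight x := by
  rw [logHeight_eq_log_mulHeight, S17AH_mulHeight_ext, Real.log_pow, logHeight_eq_log_mulHeight]

end ext

section defs

variable {Ω : Type*} [Field Ω] [CharZero Ω] {ι : Type*}

/-- the field generated by the coordinates of `x`. -/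
def S17AH_field (x : ι → Ω) : IntermediateField ℚ Ω := adjoin ℚ (Set.range x)

theorem S17AH_mem_field (x : ι → Ω) (i : ι) : x i ∈ S17AH_field x :=
  subset_adjoin ℚ _ (Set.mem_range_self i)

/-- the tuple `x` with coordinates in `S17AH_field x`. -/
def S17AH_lift (x : ι → Ω) : ι → S17AH_field x :=
  fun i => ⟨x i, S17AH_mem_field x i⟩

@[simp] theorem S17AH_lift_coe (x : ι → Ω) (i : ι) : ((S17AH_lift x i : S17AH_field x) : Ω) = x i :=
  rfl

open Classical in
/-- The **absolute logarithmic height** of a tuple of algebraic numbers (junk value `0` if the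
coordinates do not generate a number field). -/
noncomputable def S17AH_h (x : ι → Ω) : ℝ :=
  if h : FiniteDimensional ℚ (S17AH_field x) then
    haveI := h
    haveI : NumberField (S17AH_field x) := {}
    ((finrank ℚ (S17AH_field x) : ℝ))⁻¹ * logHeight (S17AH_lift x)
  else 0

variable [Algebra.IsAlgebraic ℚ Ω] [Finite ι]

instance S17AH_field_fd (x : ι → Ω) : FiniteDimensional ℚ (S17AH_field x) := by
  unfold S17AH_field
  have : (Set.range x).Finite := Set.finite_range x
  exact IntermediateField.finiteDimensional_adjoin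
    (fun a _ => (Algebra.IsAlgebraic.isAlgebraic a).isIntegral)

instance S17AH_field_nf (x : ι → Ω) : NumberField (S17AH_field x) := {}

theorem S17AH_h_def (x : ι → Ω) :
    S17AH_h x = ((finrank ℚ (S17AH_field x) : ℝ))⁻¹ * logHeight (S17AH_lift x) := by
  unfold S17AH_h
  rw [dif_pos (S17AH_field_fd x)]

/-- **(a) independence of the field**: the absolute height is computed by ANY number field `L`
with an embedding `φ : L → Ω` through which the tuple factors. -/
theorem S17AH_h_eq {L : Type*} [Field L] [NumberField L] (φ : L →+* Ω) (x : ι → L) :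
    S17AH_h (fun i => φ (x i)) = ((finrank ℚ L : ℝ))⁻¹ * logHeight x := by
  classical
  set φ' : L →ₐ[ℚ] Ω := φ.toRatAlgHom with hφ'
  set z : ι → Ω := fun i => φ (x i) with hz
  have hle : S17AH_field z ≤ φ'.fieldRange := by
    unfold S17AH_field
    rw [adjoin_le_iff]
    rintro _ ⟨i, rfl⟩
    exact ⟨x i, rfl⟩
  let e : L ≃ₐ[ℚ] φ'.fieldRange := AlgEquiv.ofInjectiveField φ'
  let j : S17AH_field z →ₐ[ℚ] L := (e.symm : φ'.fieldRange →ₐ[ℚ] L).comp (inclusion hle)
  have hj : ∀ a : S17AH_field z, φ (j a) = (a : Ω) := by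
    intro a
    have h1 : e (j a) = inclusion hle a := by
      show e (e.symm (inclusion hle a)) = inclusion hle a
      exact e.apply_symm_apply _
    have h2 : ((e (j a) : φ'.fieldRange) : Ω) = φ (j a) := rfl
    rw [← h2, h1]
    rfl
  let _ : Algebra (S17AH_field z) L := j.toRingHom.toAlgebra
  have : IsScalarTower ℚ (S17AH_field z) L :=
    IsScalarTower.of_algebraMap_eq fun q => (j.commutes q).symm
  have hx : x = fun i => algebraMap (S17AH_field z) L (S17AH_lift z i) := by
    funext i
    apply φ.injective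
    show φ (x i) = φ (j (S17AH_lift z i))
    rw [hj]
    rfl
  have h1 : logHeight x = finrank (S17AH_field z) L * logHeight (S17AH_lift z) := by
    conv_lhs => rw [hx]
    exact S17AH_logHeight_ext (S17AH_lift z)
  have h2 : finrank ℚ L = finrank ℚ (S17AH_field z) * finrank (S17AH_field z) L :=
    (Module.finrank_mul_finrank ℚ (S17AH_field z) L).symm
  have h3 : 0 < finrank (S17AH_field z) L := Module.finrank_pos
  have h4 : 0 < finrank ℚ (S17AH_field z) := Module.finrank_pos
  rw [S17AH_h_def, h1, h2]
  push_cast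
  field_simp

/-- (a) for an intermediate field `L ⊂ Ω` which is a number field and contains the coordinates. -/
theorem S17AH_h_of_mem (L : IntermediateField ℚ Ω) [NumberField L] (x : ι → Ω)
    (hx : ∀ i, x i ∈ L) :
    S17AH_h x = ((finrank ℚ L : ℝ))⁻¹ * logHeight (fun i => (⟨x i, hx i⟩ : L)) :=
  S17AH_h_eq (algebraMap L Ω) (fun i => (⟨x i, hx i⟩ : L))

/-- **(b)** on rational tuples the absolute height is Mathlib's `Height.logHeight`. -/
theorem S17AH_h_rat (x : ι → ℚ) :
    S17AH_h (fun i => algebraMap ℚ Ω (x i)) = logHeight x := by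
  rw [S17AH_h_eq (algebraMap ℚ Ω) x, Module.finrank_self]
  simp

/-- **(c)** invariance under field embeddings. -/
theorem S17AH_h_comp {Ω' : Type*} [Field Ω'] [CharZero Ω'] [Algebra.IsAlgebraic ℚ Ω']
    (σ : Ω →+* Ω') (x : ι → Ω) : S17AH_h (fun i => σ (x i)) = S17AH_h x := by
  have h1 : S17AH_h (fun i => σ (x i)) =
      ((finrank ℚ (S17AH_field x) : ℝ))⁻¹ * logHeight (S17AH_lift x) :=
    S17AH_h_eq (σ.comp (algebraMap (S17AH_field x) Ω)) (S17AH_lift x)
  rw [h1, S17AH_h_def]

/-- **(c)** Galois invariance. -/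
theorem S17AH_h_gal (σ : Ω ≃ₐ[ℚ] Ω) (x : ι → Ω) : S17AH_h (fun i => σ (x i)) = S17AH_h x :=
  S17AH_h_comp (σ : Ω →+* Ω) x

/-- **(c)** invariance under scaling. -/
theorem S17AH_h_smul (x : ι → Ω) {c : Ω} (hc : c ≠ 0) : S17AH_h (c • x) = S17AH_h x := by
  let w : Option ι → Ω := fun o => o.elim c x
  let c' : S17AH_field w := S17AH_lift w none
  let x' : ι → S17AH_field w := fun i => S17AH_lift w (some i)
  have hc' : c' ≠ 0 := by
    intro h
    apply hc
    have := congrArg (fun a : S17AH_field w => (a : Ω)) h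
    simpa [c', w] using this
  have h1 : S17AH_h (c • x) = S17AH_h (fun i => algebraMap (S17AH_field w) Ω ((c' • x') i)) := by
    congr 1
  have h2 : S17AH_h x = S17AH_h (fun i => algebraMap (S17AH_field w) Ω (x' i)) := by
    congr 1
  rw [h1, h2, S17AH_h_eq, S17AH_h_eq, logHeight_smul_eq_logHeight x' hc']

theorem S17AH_h_nonneg (x : ι → Ω) : 0 ≤ S17AH_h x := by
  rw [S17AH_h_def]
  exact mul_nonneg (inv_nonneg.mpr (Nat.cast_nonneg _)) (logHeight_nonneg _)

theorem S17AH_h_zero : S17AH_h (0 : ι → Ω) = 0 := by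
  have : S17AH_h (0 : ι → Ω) = S17AH_h (fun i => algebraMap ℚ Ω ((0 : ι → ℚ) i)) := by
    congr 1
    funext i
    simp
  rw [this, S17AH_h_rat, logHeight_zero]

theorem S17AH_h_comp_equiv {ι' : Type*} [Finite ι'] (e : ι ≃ ι') (x : ι' → Ω) :
    S17AH_h (x ∘ e) = S17AH_h x := by
  have h1 : S17AH_h (x ∘ e) =
      S17AH_h (fun i => algebraMap (S17AH_field x) Ω ((S17AH_lift x ∘ e) i)) := by
    congr 1
  rw [h1, S17AH_h_eq, logHeight_comp_equiv, S17AH_h_def]

end defs

end Fermat.Agent.S17
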