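import Fermat.Agent.S17.GaussMahler
import Fermat.Agent.S17.AbsHeight

/-!
# TRACK 8 (S17), package GM for the absolute height (helper1)

On top of `S17/GaussMahler.lean` (helper1) and `S17/AbsHeight.lean` (helper8).
`Ω` is a field of characteristic `0`, algebraic over `ℚ` (e.g. `AlgebraicClosure ℚ`).

* `S17AG_hpoly f` : the absolute logarithmic height of the coefficient vector of
  `f : MvPolynomial σ Ω`  (`= S17AH_h (S17GM_cf f)`).
* `S17AG_hpoly_map` : `S17AG_hpoly (map φ f) = [L:ℚ]⁻¹ · logHeight (S17GM_cf f)` for a number field `L`,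
  `φ : L →+* Ω`.
* `S17AG_gm` : **Gauss–Mahler / Gelfond for the absolute height**, constant independent of the field:
  `|h(f g) − h(f) − h(g)| ≤ log (S17GM_const n (d+1))` for `f g : MvPolynomial (Fin n) Ω` nonzero of
  total degree `≤ d`.
-/

set_option autoImplicit false
set_option linter.style.haveILetI false

open NumberField Height Module IntermediateField

namespace Fermat.Agent.S17

section

variable {Ω : Type*} [Field Ω] [CharZero Ω]

/-- absolute logarithmic height of (the coefficient vector of) a polynomial. -/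
noncomputable def S17AG_hpoly {σ : Type*} (f : MvPolynomial σ Ω) : ℝ :=
  S17AH_h (S17GM_cf f)

theorem S17AG_totalDegree_map {R S : Type*} [CommSemiring R] [CommSemiring S] {σ : Type*}
    (φ : R →+* S) (hφ : Function.Injective φ) (f : MvPolynomial σ R) :
    (MvPolynomial.map φ f).totalDegree = f.totalDegree := by
  unfold MvPolynomial.totalDegree
  rw [MvPolynomial.support_map_of_injective f hφ]

variable [Algebra.IsAlgebraic ℚ Ω]

/-- the height of a polynomial with coefficients in a number field `L ⊂ Ω`. -/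
theorem S17AG_hpoly_map {L : Type*} [Field L] [NumberField L] (φ : L →+* Ω) {σ : Type*}
    (f : MvPolynomial σ L) :
    S17AG_hpoly (MvPolynomial.map φ f) = ((finrank ℚ L : ℝ))⁻¹ * logHeight (S17GM_cf f) := by
  classical
  have hs : (MvPolynomial.map φ f).support = f.support :=
    MvPolynomial.support_map_of_injective f φ.injective
  let e : (MvPolynomial.map φ f).support ≃ f.support :=
    Equiv.subtypeEquivRight (fun m => by rw [hs])
  have h1 : S17GM_cf (MvPolynomial.map φ f) = (fun i : f.support => φ (S17GM_cf f i)) ∘ e := by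
    funext m
    simp only [S17GM_cf, Function.comp_apply, MvPolynomial.coeff_map]
    rfl
  unfold S17AG_hpoly
  rw [h1, S17AH_h_comp_equiv e, S17AH_h_eq φ (S17GM_cf f)]

/-- every polynomial over `Ω` is defined over a number field. -/
theorem S17AG_exists_numberField {σ : Type*} (f g : MvPolynomial σ Ω) :
    ∃ (L : IntermediateField ℚ Ω) (_ : NumberField L) (f₀ g₀ : MvPolynomial σ L),
      MvPolynomial.map (algebraMap L Ω) f₀ = f ∧ MvPolynomial.map (algebraMap L Ω) g₀ = g := by
  classical
  let S : Set Ω := (f.coeffs : Set Ω) ∪ (g.coeffs : Set Ω)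
  have hS : S.Finite := (Finset.finite_toSet _).union (Finset.finite_toSet _)
  let L : IntermediateField ℚ Ω := adjoin ℚ S
  haveI : FiniteDimensional ℚ L := by
    haveI : Finite S := hS
    exact IntermediateField.finiteDimensional_adjoin
      (fun a _ => (Algebra.IsAlgebraic.isAlgebraic a).isIntegral)
  haveI hL : NumberField L := {}
  have hf : f ∈ Set.range (MvPolynomial.map (algebraMap L Ω)) := by
    rw [MvPolynomial.mem_range_map_iff_coeffs_subset]
    intro a ha
    exact ⟨⟨a, subset_adjoin ℚ S (Or.inl ha)⟩, rfl⟩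
  have hg : g ∈ Set.range (MvPolynomial.map (algebraMap L Ω)) := by
    rw [MvPolynomial.mem_range_map_iff_coeffs_subset]
    intro a ha
    exact ⟨⟨a, subset_adjoin ℚ S (Or.inr ha)⟩, rfl⟩
  obtain ⟨f₀, hf₀⟩ := hf
  obtain ⟨g₀, hg₀⟩ := hg
  exact ⟨L, hL, f₀, g₀, hf₀, hg₀⟩

/-- **Gauss–Mahler / Gelfond for the absolute height**: the height of a product of polynomials
is the sum of the heights up to a constant depending only on the number of variables and the
degree. -/
theorem S17AG_gm (n d : ℕ) (f g : MvPolynomial (Fin n) Ω) (hf0 : f ≠ 0) (hg0 : g ≠ 0)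
    (hf : f.totalDegree ≤ d) (hg : g.totalDegree ≤ d) :
    |S17AG_hpoly (f * g) - S17AG_hpoly f - S17AG_hpoly g| ≤
      Real.log (S17GM_const n (d + 1)) := by
  obtain ⟨L, hL, f₀, g₀, rfl, rfl⟩ := S17AG_exists_numberField f g
  have hinj : Function.Injective (algebraMap L Ω) := (algebraMap L Ω).injective
  have hf0' : f₀ ≠ 0 := by
    rintro rfl
    exact hf0 (map_zero _)
  have hg0' : g₀ ≠ 0 := by
    rintro rfl
    exact hg0 (map_zero _)
  rw [S17AG_totalDegree_map _ hinj] at hf hg
  have key := S17GM_numberField L n d f₀ g₀ hf0' hg0' hf hg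
  rw [← map_mul, S17AG_hpoly_map, S17AG_hpoly_map, S17AG_hpoly_map]
  have hpos : (0 : ℝ) < finrank ℚ L := by
    exact_mod_cast (Module.finrank_pos : 0 < finrank ℚ L)
  have h1 : ((finrank ℚ L : ℝ))⁻¹ * logHeight (S17GM_cf (f₀ * g₀))
        - ((finrank ℚ L : ℝ))⁻¹ * logHeight (S17GM_cf f₀)
        - ((finrank ℚ L : ℝ))⁻¹ * logHeight (S17GM_cf g₀)
      = ((finrank ℚ L : ℝ))⁻¹ *
        (logHeight (S17GM_cf (f₀ * g₀)) - logHeight (S17GM_cf f₀) - logHeight (S17GM_cf g₀)) := by
    ring
  rw [h1, abs_mul, abs_of_pos (inv_pos.mpr hpos)]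
  calc ((finrank ℚ L : ℝ))⁻¹ *
        |logHeight (S17GM_cf (f₀ * g₀)) - logHeight (S17GM_cf f₀) - logHeight (S17GM_cf g₀)|
      ≤ ((finrank ℚ L : ℝ))⁻¹ * (finrank ℚ L * Real.log (S17GM_const n (d + 1))) :=
        mul_le_mul_of_nonneg_left key (inv_pos.mpr hpos).le
    _ = Real.log (S17GM_const n (d + 1)) := by
        field_simp

end

end Fermat.Agent.S17
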