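import Fermat.Agent.S17.AbsHeight

/-!
# TRACK 8 (S17, Mordell–Weil), package ABS part 2 (helper8): the height machine for `S17AH_h`

All constants are independent of the number field (they depend on the polynomials only).
`Ω` : a field of characteristic `0`, algebraic over `ℚ` (e.g. `AlgebraicClosure ℚ`).

* `S17AH_mulHeightBound_le` : Mathlib's constant `mulHeightBound p` is bounded by
  `m ^ totalWeight K * mulHeight c` for any tuple `c` containing `1` and the coefficients of `p`.
* `S17AH_h_sub`, `S17AH_h_comp_le`, `S17AH_h_fun_mul`, `S17AH_h_fun_prod` : the shapes of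
  Mathlib's `logHeight_comp_le`, `logHeight_fun_mul_eq`, `logHeight_fun_prod_eq`.
* `S17AH_coef p`, `S17AH_const p` : the coefficient tuple of a family of polynomials and the
  constant `log #coefficients + h(coefficients)`.
* `S17AH_eval_le`, `S17AH_eval_le'` : **(d)** `h(p(x)) ≤ S17AH_const p + N · h(x)`.
* `S17AH_eval_ge`, `S17AH_eval_ge'` : **(d)** `-(log #ι' + S17AH_const q) + N · h(x) ≤ h(p(x))`.
* `S17AH_linearMap_le` : `h(A x) ≤ log #ι + h(A) + h(x)`.
-/

set_option autoImplicit false
set_option linter.style.haveILetI false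
set_option linter.unusedSectionVars false

open NumberField Height Module IntermediateField AdmissibleAbsValues

namespace Fermat.Agent.S17

/-- **(E2)** Mathlib's constant `mulHeightBound p` is bounded by the height of any tuple `c`
containing `1` and all coefficients of the `p j`. -/
theorem S17AH_mulHeightBound_le {K : Type*} [Field K] [AdmissibleAbsValues K] {ι ι' T : Type*}
    [Finite T] (p : ι' → MvPolynomial ι K) (c : T → K) (t₀ : T) (h1 : c t₀ = 1)
    (hc : ∀ j s, s ∈ (p j).support → ∃ t, c t = MvPolynomial.coeff s (p j))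
    (m : ℕ) (hm1 : 1 ≤ m) (hm : ∀ j, (p j).support.card ≤ m) :
    mulHeightBound p ≤ (m : ℝ) ^ totalWeight K * mulHeight c := by
  have hc0 : c ≠ 0 := by
    intro h
    have := congrFun h t₀
    rw [h1] at this
    exact one_ne_zero this
  have hsup : ∀ (v : AbsoluteValue K ℝ) (t : T), v (c t) ≤ ⨆ t, v (c t) :=
    fun v t => Finite.le_ciSup_of_le t le_rfl
  have hsup0 : ∀ (v : AbsoluteValue K ℝ), 0 ≤ ⨆ t, v (c t) :=
    fun v => Real.iSup_nonneg_of_nonnegHomClass v _
  have hsup1 : ∀ (v : AbsoluteValue K ℝ), 1 ≤ ⨆ t, v (c t) := by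
    intro v
    have := hsup v t₀
    rwa [h1, map_one] at this
  have hcoef : ∀ (v : AbsoluteValue K ℝ) j s, s ∈ (p j).support →
      v (MvPolynomial.coeff s (p j)) ≤ ⨆ t, v (c t) := by
    intro v j s hs
    obtain ⟨t, ht⟩ := hc j s hs
    rw [← ht]
    exact hsup v t
  rw [mulHeightBound_eq, mulHeight_eq hc0, ← mul_assoc]
  have hA : (archAbsVal.map fun v : AbsoluteValue K ℝ ↦
      ⨆ j, (AddMonoidAlgebra.coeff <| p j).sum (fun _ c ↦ v c)).prod ≤
      (m : ℝ) ^ totalWeight K * (archAbsVal.map fun v : AbsoluteValue K ℝ ↦ ⨆ t, v (c t)).prod := by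
    rw [← Multiset.prod_replicate, totalWeight, ← Multiset.map_const', ← Multiset.prod_map_mul]
    refine Multiset.prod_map_le_prod_map₀ _ _ (fun v _ => ?_) (fun v _ => ?_)
    · exact Real.iSup_nonneg fun j => Finsupp.sum_nonneg fun s _ => by positivity
    · refine Real.iSup_le (fun j => ?_) (mul_nonneg (by positivity) (hsup0 v))
      calc (AddMonoidAlgebra.coeff <| p j).sum (fun _ c ↦ v c)
          = ∑ s ∈ (p j).support, v (MvPolynomial.coeff s (p j)) := rfl
        _ ≤ ∑ s ∈ (p j).support, ⨆ t, v (c t) :=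
            Finset.sum_le_sum fun s hs => hcoef v j s hs
        _ = (p j).support.card * ⨆ t, v (c t) := by
            rw [Finset.sum_const, nsmul_eq_mul]
        _ ≤ m * ⨆ t, v (c t) := by
            gcongr
            · exact hsup0 v
            · exact_mod_cast hm j
  have hB : ∏ᶠ v : nonarchAbsVal (K := K),
      ⨆ j, max (⨆ s : (p j).support, v.val (MvPolynomial.coeff s (p j))) 1 ≤
      ∏ᶠ v : nonarchAbsVal (K := K), ⨆ t, v.val (c t) := by
    have hR : (fun v : nonarchAbsVal (K := K) => ⨆ t, v.val (c t)).HasFiniteMulSupport := by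
      have hne : Nonempty {t // c t ≠ 0} := ⟨⟨t₀, by rw [h1]; exact one_ne_zero⟩⟩
      have heq : (fun v : nonarchAbsVal (K := K) => ⨆ t, v.val (c t)) =
          fun v : nonarchAbsVal (K := K) => ⨆ t : {t // c t ≠ 0}, v.val (c t) := by
        funext v
        refine le_antisymm (Real.iSup_le (fun t => ?_) ?_) (Real.iSup_le (fun t => ?_) (hsup0 v.val))
        · rcases eq_or_ne (c t) 0 with h | h
          · rw [h, map_zero]
            exact Real.iSup_nonneg fun t => by positivity
          · exact Finite.le_ciSup_of_le (⟨t, h⟩ : {t // c t ≠ 0}) le_rfl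
        · exact Real.iSup_nonneg fun t => by positivity
        · exact hsup v.val t.1
      rw [heq]
      exact Function.HasFiniteMulSupport.iSup fun t => hasFiniteMulSupport t.2
    have hle : ∀ v : nonarchAbsVal (K := K),
        ⨆ j, max (⨆ s : (p j).support, v.val (MvPolynomial.coeff s (p j))) 1 ≤
          ⨆ t, v.val (c t) := by
      intro v
      refine Real.iSup_le (fun j => ?_) (hsup0 v.val)
      refine max_le ?_ (hsup1 v.val)
      exact Real.iSup_le (fun s => hcoef v.val j s.1 s.2) (hsup0 v.val)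
    by_cases hL : (fun v : nonarchAbsVal (K := K) =>
        ⨆ j, max (⨆ s : (p j).support, v.val (MvPolynomial.coeff s (p j))) 1).HasFiniteMulSupport
    · refine finprod_le_finprod hL (fun v => ?_) hR hle
      exact Real.iSup_nonneg fun j => le_trans zero_le_one (le_max_right _ _)
    · rw [finprod_of_infinite_mulSupport hL]
      exact one_le_finprod fun v => hsup1 v.val
  refine mul_le_mul hA hB ?_ ?_
  · exact finprod_nonneg fun v => Real.iSup_nonneg fun j => le_trans zero_le_one (le_max_right _ _)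
  · exact mul_nonneg (by positivity) (Multiset.prod_map_nonneg fun v _ => hsup0 v)

section transfer

variable {Ω : Type*} [Field Ω] [CharZero Ω] [Algebra.IsAlgebraic ℚ Ω]

/-- the absolute height of a tuple with coordinates in `S17AH_field w`. -/
theorem S17AH_h_sub {κ ι : Type*} [Finite κ] [Finite ι] (w : κ → Ω) (x : ι → S17AH_field w) :
    S17AH_h (fun i => (x i : Ω)) = ((finrank ℚ (S17AH_field w) : ℝ))⁻¹ * logHeight x :=
  S17AH_h_eq (algebraMap (S17AH_field w) Ω) x

theorem S17AH_h_comp_le {ι ι' : Type*} [Finite ι] [Finite ι'] (f : ι → ι') (x : ι' → Ω) :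
    S17AH_h (x ∘ f) ≤ S17AH_h x := by
  have h1 : S17AH_h (x ∘ f) = S17AH_h (fun i => ((S17AH_lift x ∘ f) i : Ω)) := rfl
  have h2 : S17AH_h x = S17AH_h (fun i => ((S17AH_lift x) i : Ω)) := rfl
  rw [h1, h2, S17AH_h_sub, S17AH_h_sub]
  exact mul_le_mul_of_nonneg_left (logHeight_comp_le f _) (inv_nonneg.mpr (Nat.cast_nonneg _))

theorem S17AH_h_fun_mul {ι ι' : Type*} [Finite ι] [Finite ι'] {x : ι → Ω} (hx : x ≠ 0)
    {y : ι' → Ω} (hy : y ≠ 0) :
    S17AH_h (fun a : ι × ι' => x a.1 * y a.2) = S17AH_h x + S17AH_h y := by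
  let w : ι ⊕ ι' → Ω := Sum.elim x y
  let x' : ι → S17AH_field w := fun i => S17AH_lift w (Sum.inl i)
  let y' : ι' → S17AH_field w := fun i => S17AH_lift w (Sum.inr i)
  have hx' : x' ≠ 0 := by
    intro h
    apply hx
    funext i
    exact congrArg (fun a : S17AH_field w => (a : Ω)) (congrFun h i)
  have hy' : y' ≠ 0 := by
    intro h
    apply hy
    funext i
    exact congrArg (fun a : S17AH_field w => (a : Ω)) (congrFun h i)
  have h1 : S17AH_h (fun a : ι × ι' => x a.1 * y a.2) =
      S17AH_h (fun a : ι × ι' => (((fun a : ι × ι' => x' a.1 * y' a.2) a : S17AH_field w) : Ω)) :=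
    rfl
  have h2 : S17AH_h x = S17AH_h (fun i => (x' i : Ω)) := rfl
  have h3 : S17AH_h y = S17AH_h (fun i => (y' i : Ω)) := rfl
  rw [h1, h2, h3, S17AH_h_sub, S17AH_h_sub, S17AH_h_sub, logHeight_fun_mul_eq hx' hy', mul_add]

universe u v

theorem S17AH_h_fun_prod {α : Type u} [Fintype α] {ι : α → Type v} [∀ a, Finite (ι a)]
    {x : (a : α) → ι a → Ω} (hx : ∀ a, x a ≠ 0) :
    S17AH_h (fun I : (a : α) → ι a => ∏ a, x a (I a)) = ∑ a, S17AH_h (x a) := by
  let w : (Σ a, ι a) → Ω := fun s => x s.1 s.2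
  let x' : (a : α) → ι a → S17AH_field w := fun a i => S17AH_lift w ⟨a, i⟩
  have hx' : ∀ a, x' a ≠ 0 := by
    intro a h
    apply hx a
    funext i
    exact congrArg (fun a : S17AH_field w => (a : Ω)) (congrFun h i)
  have h1 : S17AH_h (fun I : (a : α) → ι a => ∏ a, x a (I a)) =
      S17AH_h (fun I : (a : α) → ι a =>
        (((fun I : (a : α) → ι a => ∏ a, x' a (I a)) I : S17AH_field w) : Ω)) := by
    congr 1
    funext I
    simp only [x']
    push_cast
    rfl
  have h2 : ∀ a, S17AH_h (x a) = S17AH_h (fun i => (x' a i : Ω)) := fun a => rfl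
  rw [h1, S17AH_h_sub, logHeight_fun_prod_eq hx', Finset.mul_sum]
  refine Finset.sum_congr rfl fun a _ => ?_
  rw [h2 a, S17AH_h_sub]

end transfer

section poly

variable {Ω : Type*} [Field Ω] [CharZero Ω] [Algebra.IsAlgebraic ℚ Ω]
variable {ι ι' : Type*}

/-- index type of the coefficient tuple of a family of polynomials -/
abbrev S17AH_CoefIdx {R : Type*} [CommSemiring R] (p : ι' → MvPolynomial ι R) : Type _ :=
  Option (Σ j : ι', ↥(p j).support)

/-- the coefficient tuple (with an additional entry `1`) -/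
def S17AH_coef {R : Type*} [CommSemiring R] (p : ι' → MvPolynomial ι R) : S17AH_CoefIdx p → R :=
  fun o => o.elim 1 (fun js => MvPolynomial.coeff js.2.1 (p js.1))

/-- the constant of the polynomial height bounds. -/
noncomputable def S17AH_const (p : ι' → MvPolynomial ι Ω) : ℝ :=
  Real.log (Nat.card (S17AH_CoefIdx p)) + S17AH_h (S17AH_coef p)

theorem S17AH_const_nonneg [Finite ι'] (p : ι' → MvPolynomial ι Ω) : 0 ≤ S17AH_const p :=
  add_nonneg (Real.log_natCast_nonneg _) (S17AH_h_nonneg _)

/-- the field-independent bound for Mathlib's constant `mulHeightBound`. -/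
theorem S17AH_log_bound [Finite ι'] {L : Type*} [Field L] [NumberField L] (φ : L →+* Ω)
    (p : ι' → MvPolynomial ι Ω) (p' : ι' → MvPolynomial ι L)
    (hp : ∀ j, MvPolynomial.map φ (p' j) = p j) :
    Real.log (max (mulHeightBound p') 1) ≤ finrank ℚ L * S17AH_const p := by
  classical
  let c' : S17AH_CoefIdx p → L := fun o => o.elim 1 (fun js => MvPolynomial.coeff js.2.1 (p' js.1))
  have hφc : (fun t => φ (c' t)) = S17AH_coef p := by
    funext t
    rcases t with _ | ⟨j, s⟩
    · simp [c', S17AH_coef]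
    · simp only [c', S17AH_coef, Option.elim_some]
      have := MvPolynomial.coeff_map φ (p' j) (s : ι →₀ ℕ)
      rw [hp j] at this
      exact this.symm
  have hh : S17AH_h (S17AH_coef p) = ((finrank ℚ L : ℝ))⁻¹ * logHeight c' := by
    rw [← hφc, S17AH_h_eq]
  have hsupp : ∀ j, (p' j).support = (p j).support := by
    intro j
    rw [← hp j, MvPolynomial.support_map_of_injective _ φ.injective]
  have hm1 : 1 ≤ Nat.card (S17AH_CoefIdx p) := Nat.card_pos
  have hE2 := S17AH_mulHeightBound_le p' c' none rfl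
    (fun j s hs => ⟨some ⟨j, ⟨s, hsupp j ▸ hs⟩⟩, rfl⟩) (Nat.card (S17AH_CoefIdx p)) hm1
    (fun j => by
      rw [hsupp j]
      have : Function.Injective (fun s : ↥(p j).support => (some ⟨j, s⟩ : S17AH_CoefIdx p)) := by
        intro a b hab
        simpa using hab
      have h := Nat.card_le_card_of_injective _ this
      rw [Nat.card_eq_fintype_card, Fintype.card_coe] at h
      exact h)
  have hfr : (0 : ℝ) < finrank ℚ L := by exact_mod_cast (Module.finrank_pos : 0 < finrank ℚ L)
  have hmpos : (0 : ℝ) < (Nat.card (S17AH_CoefIdx p) : ℝ) := by exact_mod_cast hm1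
  have hR1 : 1 ≤ ((Nat.card (S17AH_CoefIdx p) : ℕ) : ℝ) ^ totalWeight L * mulHeight c' := by
    have h1 : (1 : ℝ) ≤ ((Nat.card (S17AH_CoefIdx p) : ℕ) : ℝ) ^ totalWeight L :=
      one_le_pow₀ (by exact_mod_cast hm1)
    calc (1 : ℝ) = 1 * 1 := (one_mul 1).symm
      _ ≤ _ := mul_le_mul h1 (one_le_mulHeight c') zero_le_one (le_trans zero_le_one h1)
  have h2 : max (mulHeightBound p') 1 ≤
      ((Nat.card (S17AH_CoefIdx p) : ℕ) : ℝ) ^ totalWeight L * mulHeight c' := max_le hE2 hR1
  have h3 := Real.log_le_log (lt_of_lt_of_le zero_lt_one (le_max_right _ _)) h2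
  rw [Real.log_mul (pow_ne_zero _ hmpos.ne') (mulHeight_pos c').ne', Real.log_pow,
    totalWeight_eq_finrank] at h3
  refine h3.trans (le_of_eq ?_)
  unfold S17AH_const
  rw [hh, logHeight_eq_log_mulHeight]
  field_simp

/-- descent of a family of polynomials to a subfield containing its coefficients. -/
theorem S17AH_descend (L : IntermediateField ℚ Ω) (p : ι' → MvPolynomial ι Ω)
    (hL : ∀ t, S17AH_coef p t ∈ L) :
    ∃ p' : ι' → MvPolynomial ι L, ∀ j, MvPolynomial.map (algebraMap L Ω) (p' j) = p j := by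
  have : ∀ j, p j ∈ Set.range (MvPolynomial.map (algebraMap L Ω) :
      MvPolynomial ι L → MvPolynomial ι Ω) := by
    intro j
    rw [MvPolynomial.mem_range_map_iff_coeffs_subset]
    intro a ha
    classical
    rw [Finset.mem_coe, MvPolynomial.mem_coeffs_iff] at ha
    obtain ⟨s, hs, rfl⟩ := ha
    exact ⟨⟨_, hL (some ⟨j, ⟨s, hs⟩⟩)⟩, rfl⟩
  choose p' hp' using this
  exact ⟨p', hp'⟩

theorem S17AH_eval_descend (L : IntermediateField ℚ Ω) (x' : ι → L) (p : MvPolynomial ι Ω)
    (p' : MvPolynomial ι L) (hp : MvPolynomial.map (algebraMap L Ω) p' = p) :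
    MvPolynomial.eval (fun i => (x' i : Ω)) p = ((MvPolynomial.eval x' p' : L) : Ω) := by
  rw [← hp, MvPolynomial.eval_map]
  exact (MvPolynomial.eval₂_comp (algebraMap L Ω) x' p').symm

/-- **(d) upper bound**: the absolute height of the image under a family of homogeneous
polynomials of degree `N` over `Ω`; the constant depends on `p` only. -/
theorem S17AH_eval_le [Finite ι] [Finite ι'] {N : ℕ} {p : ι' → MvPolynomial ι Ω}
    (hp : ∀ j, (p j).IsHomogeneous N) (x : ι → Ω) :
    S17AH_h (fun j => (p j).eval x) ≤ S17AH_const p + N * S17AH_h x := by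
  let w : S17AH_CoefIdx p ⊕ ι → Ω := Sum.elim (S17AH_coef p) x
  obtain ⟨p', hp'⟩ := S17AH_descend (S17AH_field w) p
    (fun t => S17AH_mem_field w (Sum.inl t))
  let x' : ι → S17AH_field w := fun i => S17AH_lift w (Sum.inr i)
  have hx : x = fun i => (x' i : Ω) := rfl
  have hhom : ∀ j, (p' j).IsHomogeneous N := fun j =>
    MvPolynomial.IsHomogeneous.of_map (f := algebraMap (S17AH_field w) Ω)
      (algebraMap (S17AH_field w) Ω).injective (by rw [hp' j]; exact hp j)
  have h1 : (fun j => (p j).eval x) =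
      fun j => (((fun j => (p' j).eval x') j : S17AH_field w) : Ω) := by
    funext j
    rw [hx]
    exact S17AH_eval_descend _ x' (p j) (p' j) (hp' j)
  have h2 : S17AH_h x = S17AH_h (fun i => (x' i : Ω)) := rfl
  rw [h1, h2, S17AH_h_sub, S17AH_h_sub]
  have hM := logHeight_eval_le hhom x'
  have hB := S17AH_log_bound (algebraMap (S17AH_field w) Ω) p p' hp'
  have hfr : (0 : ℝ) < finrank ℚ (S17AH_field w) := by
    exact_mod_cast (Module.finrank_pos : 0 < finrank ℚ (S17AH_field w))
  rw [inv_mul_le_iff₀ hfr]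
  calc logHeight (fun j => (p' j).eval x')
      ≤ Real.log (max (mulHeightBound p') 1) + N * logHeight x' := hM
    _ ≤ finrank ℚ (S17AH_field w) * S17AH_const p + N * logHeight x' := by gcongr
    _ = _ := by field_simp

/-- **(d) lower bound**: if `Σ_j q (k, j)(x) · p_j(x) = x_k ^ (M + N)` with `q` homogeneous of
degree `M`, then `N · h(x) ≤ h(p(x)) + C`; the constant depends on `q` only. -/
theorem S17AH_eval_ge [Finite ι] [Fintype ι'] {M N : ℕ} {q : ι × ι' → MvPolynomial ι Ω}
    (hq : ∀ a, (q a).IsHomogeneous M) (p : ι' → MvPolynomial ι Ω) (x : ι → Ω)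
    (h : ∀ k, ∑ j, (q (k, j)).eval x * (p j).eval x = x k ^ (M + N)) :
    -(Real.log (Nat.card ι') + S17AH_const q) + N * S17AH_h x ≤
      S17AH_h (fun j => (p j).eval x) := by
  let w : (S17AH_CoefIdx q ⊕ S17AH_CoefIdx p) ⊕ ι → Ω :=
    Sum.elim (Sum.elim (S17AH_coef q) (S17AH_coef p)) x
  obtain ⟨q', hq'⟩ := S17AH_descend (S17AH_field w) q
    (fun t => S17AH_mem_field w (Sum.inl (Sum.inl t)))
  obtain ⟨p', hp'⟩ := S17AH_descend (S17AH_field w) p
    (fun t => S17AH_mem_field w (Sum.inl (Sum.inr t)))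
  let x' : ι → S17AH_field w := fun i => S17AH_lift w (Sum.inr i)
  have hx : x = fun i => (x' i : Ω) := rfl
  have hhom : ∀ a, (q' a).IsHomogeneous M := fun a =>
    MvPolynomial.IsHomogeneous.of_map (f := algebraMap (S17AH_field w) Ω)
      (algebraMap (S17AH_field w) Ω).injective (by rw [hq' a]; exact hq a)
  have hevp : ∀ j, (p j).eval x = (((p' j).eval x' : S17AH_field w) : Ω) := fun j => by
    rw [hx]; exact S17AH_eval_descend _ x' (p j) (p' j) (hp' j)
  have hevq : ∀ a, (q a).eval x = (((q' a).eval x' : S17AH_field w) : Ω) := fun a => by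
    rw [hx]; exact S17AH_eval_descend _ x' (q a) (q' a) (hq' a)
  have h' : ∀ k, ∑ j, (q' (k, j)).eval x' * (p' j).eval x' = x' k ^ (M + N) := by
    intro k
    apply (algebraMap (S17AH_field w) Ω).injective
    have := h k
    simp only [hevp, hevq] at this
    rw [map_sum, map_pow]
    simp only [map_mul]
    exact this
  have h1 : (fun j => (p j).eval x) =
      fun j => (((fun j => (p' j).eval x') j : S17AH_field w) : Ω) := by
    funext j
    exact hevp j
  have h2 : S17AH_h x = S17AH_h (fun i => (x' i : Ω)) := rfl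
  rw [h1, h2, S17AH_h_sub, S17AH_h_sub]
  have hM := logHeight_eval_ge hhom p' h'
  have hB := S17AH_log_bound (algebraMap (S17AH_field w) Ω) q q' hq'
  have hfr : (0 : ℝ) < finrank ℚ (S17AH_field w) := by
    exact_mod_cast (Module.finrank_pos : 0 < finrank ℚ (S17AH_field w))
  have hlogmax : 0 ≤ Real.log (max (mulHeightBound q') 1) :=
    Real.log_nonneg (le_max_right _ _)
  have hlog : Real.log ((Nat.card ι' : ℝ) ^ totalWeight (S17AH_field w) *
      max (mulHeightBound q') 1) ≤
      finrank ℚ (S17AH_field w) * (Real.log (Nat.card ι') + S17AH_const q) := by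
    rcases Nat.eq_zero_or_pos (Nat.card ι') with h0 | hpos
    · have htw : totalWeight (S17AH_field w) ≠ 0 := (totalWeight_pos _).ne'
      rw [h0]
      simp only [Nat.cast_zero, zero_pow htw, zero_mul, Real.log_zero, zero_add]
      exact mul_nonneg hfr.le (S17AH_const_nonneg q)
    · have hc : (0 : ℝ) < (Nat.card ι' : ℝ) := by exact_mod_cast hpos
      rw [Real.log_mul (pow_ne_zero _ hc.ne')
        (lt_of_lt_of_le zero_lt_one (le_max_right _ _)).ne', Real.log_pow,
        totalWeight_eq_finrank, mul_add]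
      gcongr
  rw [le_inv_mul_iff₀ hfr]
  calc (finrank ℚ (S17AH_field w) : ℝ) * (-(Real.log (Nat.card ι') + S17AH_const q) +
        N * ((finrank ℚ (S17AH_field w) : ℝ)⁻¹ * logHeight x'))
      = -(finrank ℚ (S17AH_field w) * (Real.log (Nat.card ι') + S17AH_const q)) +
        N * logHeight x' := by field_simp
    _ ≤ -Real.log ((Nat.card ι' : ℝ) ^ totalWeight (S17AH_field w) *
          max (mulHeightBound q') 1) + N * logHeight x' := by gcongr
    _ ≤ _ := hM


/-- `S17AH_eval_le` with an unspecified constant (shape of Mathlib's `logHeight_eval_le'`). -/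
theorem S17AH_eval_le' [Finite ι] [Finite ι'] {N : ℕ} {p : ι' → MvPolynomial ι Ω}
    (hp : ∀ j, (p j).IsHomogeneous N) :
    ∃ C, ∀ x : ι → Ω, S17AH_h (fun j => (p j).eval x) ≤ C + N * S17AH_h x :=
  ⟨_, S17AH_eval_le hp⟩

/-- `S17AH_eval_ge` with an unspecified constant (shape of Mathlib's `logHeight_eval_ge'`). -/
theorem S17AH_eval_ge' [Finite ι] [Fintype ι'] {M N : ℕ} {q : ι × ι' → MvPolynomial ι Ω}
    (hq : ∀ a, (q a).IsHomogeneous M) :
    ∃ C, ∀ (p : ι' → MvPolynomial ι Ω) (x : ι → Ω),
      (∀ k, ∑ j, (q (k, j)).eval x * (p j).eval x = x k ^ (M + N)) →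
      C + N * S17AH_h x ≤ S17AH_h (fun j => (p j).eval x) :=
  ⟨_, S17AH_eval_ge hq⟩

/-- the absolute height of the image under a linear map. -/
theorem S17AH_linearMap_le [Fintype ι] [Finite ι'] (A : ι' × ι → Ω) (x : ι → Ω) :
    S17AH_h (fun j => ∑ i, A (j, i) * x i) ≤
      Real.log (Nat.card ι) + S17AH_h A + S17AH_h x := by
  let w : (ι' × ι) ⊕ ι → Ω := Sum.elim A x
  let A' : ι' × ι → S17AH_field w := fun a => S17AH_lift w (Sum.inl a)
  let x' : ι → S17AH_field w := fun i => S17AH_lift w (Sum.inr i)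
  have h1 : S17AH_h (fun j => ∑ i, A (j, i) * x i) =
      S17AH_h (fun j => (((fun j => ∑ i, A' (j, i) * x' i) j : S17AH_field w) : Ω)) := by
    congr 1
    funext j
    push_cast
    rfl
  have h2 : S17AH_h x = S17AH_h (fun i => (x' i : Ω)) := rfl
  have h3 : S17AH_h A = S17AH_h (fun a => (A' a : Ω)) := rfl
  rw [h1, h2, h3, S17AH_h_sub, S17AH_h_sub, S17AH_h_sub]
  have hM := logHeight_linearMap_apply_le A' x'
  have hfr : (0 : ℝ) < finrank ℚ (S17AH_field w) := by
    exact_mod_cast (Module.finrank_pos : 0 < finrank ℚ (S17AH_field w))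
  rw [totalWeight_eq_finrank] at hM
  rw [inv_mul_le_iff₀ hfr]
  refine hM.trans (le_of_eq ?_)
  field_simp

end poly

end Fermat.Agent.S17
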