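import Fermat.Agent.S17.AbsHeight2

/-!
# TRACK 8 (S17, Mordell–Weil), package ABS part 4 = NORTH-ABS (helper8):
Northcott's theorem for algebraic numbers of bounded degree

`Ω` : a field of characteristic `0`, algebraic over `ℚ`; from `S17AN_coeff_minpoly_le` on
algebraically closed (e.g. `AlgebraicClosure ℚ`).  `h = S17AH_h` the absolute logarithmic height.

* `S17AN_coeff_le` : **Vieta bound** `h(coefficients of ∏ (X + y_i)) ≤ d · log 2 + Σ h(y_i : 1)`.
* `S17AN_h1_neg`, `S17AN_h1_conj` : `h(−a : 1) = h(a : 1)`; conjugates have the same height.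
* `S17AN_coeff_minpoly_le` : the coefficients of `minpoly ℚ a` have height
  `≤ deg · (log 2 + h(a : 1))`.
* `S17AN_northcott₁` : `{a | deg (minpoly ℚ a) ≤ n ∧ h(a : 1) ≤ B}` is finite.
* `S17AN_northcott` : `{x : ι → Ω | x i₀ = 1 ∧ (∀ i, deg (minpoly ℚ (x i)) ≤ n) ∧ h(x) ≤ B}` is
  finite.
* `S17AN_natDegree_le_of_orbit` : if all conjugates `σ a` lie in a finset `s` then
  `deg (minpoly ℚ a) ≤ #s`.
* `S17AN_northcott_orbit` : `{x | x i₀ = 1 ∧ (∀ i, ∃ s : Finset Ω, #s ≤ n ∧ ∀ σ, σ (x i) ∈ s) ∧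
  h(x) ≤ B}` is finite.
-/

set_option autoImplicit false
set_option linter.style.haveILetI false
set_option linter.unusedSectionVars false

open NumberField Height Module IntermediateField Polynomial

namespace Fermat.Agent.S17

section

variable {Ω : Type*} [Field Ω] [CharZero Ω] [Algebra.IsAlgebraic ℚ Ω]

/-- the height of the rational tuple `(0, 1)` is `0`. -/
theorem S17AN_h_zero_one : S17AH_h (![0, 1] : Fin 2 → Ω) = 0 := by
  have h1 : (![0, 1] : Fin 2 → Ω) = fun i => algebraMap ℚ Ω ((![0, 1] : Fin 2 → ℚ) i) := by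
    funext i
    fin_cases i <;> simp
  rw [h1, S17AH_h_rat, ← logHeight₁_eq_logHeight, logHeight₁_zero]

/-- a tuple with entries in `{0, 1}` has height `0`. -/
theorem S17AN_h_zero_one_valued {ι : Type*} [Finite ι] (A : ι → Ω)
    (hA : ∀ i, A i = 0 ∨ A i = 1) : S17AH_h A = 0 := by
  classical
  have h1 : A = (![0, 1] : Fin 2 → Ω) ∘ (fun i => if A i = 0 then 0 else 1) := by
    funext i
    rcases hA i with h | h
    · simp [h]
    · simp [h]
  refine le_antisymm ?_ (S17AH_h_nonneg A)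
  rw [h1]
  exact (S17AH_h_comp_le _ _).trans (le_of_eq S17AN_h_zero_one)

/-- **Vieta bound**: the height of the coefficient vector of `∏ (X + y_i)` is at most
`d · log 2 + Σ h(y_i : 1)`. -/
theorem S17AN_coeff_le {α κ : Type*} [Fintype α] [Finite κ] (y : α → Ω) (g : κ → ℕ) :
    S17AH_h (fun m : κ => (∏ i, (X + C (y i))).coeff (g m)) ≤
      Fintype.card α * Real.log 2 + ∑ i, S17AH_h ![y i, 1] := by
  classical
  let x : α → Fin 2 → Ω := fun i => ![y i, 1]
  let T : (α → Fin 2) → Ω := fun f => ∏ i, x i (f i)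
  let N : (α → Fin 2) → ℕ := fun f => ∑ i, ((f i : Fin 2) : ℕ)
  let A : κ × (α → Fin 2) → Ω :=
    fun a => if N a.2 = g a.1 then 1 else 0
  have hx : ∀ i, x i ≠ 0 := by
    intro i h
    have := congrFun h 1
    simp [x] at this
  have hT : S17AH_h T = ∑ i, S17AH_h (x i) := S17AH_h_fun_prod hx
  have hA : S17AH_h A = 0 := by
    apply S17AN_h_zero_one_valued
    intro a
    simp only [A]
    split_ifs
    · exact Or.inr rfl
    · exact Or.inl rfl
  have hP : ((∏ i, (X + C (y i))) : Polynomial Ω) = ∑ f : α → Fin 2, C (T f) * X ^ N f := by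
    have h1 : ∀ i, (X + C (y i) : Polynomial Ω) = ∑ j : Fin 2, C (x i j) * X ^ ((j : Fin 2) : ℕ) := by
      intro i
      simp [Fin.sum_univ_two, x, add_comm]
    simp_rw [h1]
    rw [Finset.prod_univ_sum]
    simp only [Fintype.piFinset_univ]
    refine Finset.sum_congr rfl fun f _ => ?_
    rw [Finset.prod_mul_distrib, Finset.prod_pow_eq_pow_sum, ← map_prod]
  have hc : (fun m : κ => (∏ i, (X + C (y i))).coeff (g m)) =
      fun m => ∑ f, A (m, f) * T f := by
    funext m
    rw [hP, finsetSum_coeff]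
    refine Finset.sum_congr rfl fun f _ => ?_
    rw [coeff_C_mul, coeff_X_pow]
    simp only [A]
    by_cases h : N f = g m
    · simp [h]
    · have h' : ¬ g m = N f := fun e => h e.symm
      simp [h, h']
  rw [hc]
  have hL := S17AH_linearMap_le A T
  rw [hA, hT] at hL
  have hcard : (Nat.card (α → Fin 2) : ℝ) = 2 ^ Fintype.card α := by
    rw [Nat.card_eq_fintype_card, Fintype.card_fun, Fintype.card_fin]
    push_cast
    rfl
  rw [hcard, Real.log_pow, add_zero] at hL
  exact hL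

/-- negation does not change the height of `(a : 1)`. -/
theorem S17AN_h1_neg (a : Ω) : S17AH_h ![-a, 1] = S17AH_h ![a, 1] := by
  let w : Fin 1 → Ω := fun _ => a
  let a' : S17AH_field w := S17AH_lift w 0
  have h1 : (![-a, 1] : Fin 2 → Ω) = fun i => (((![-a', 1] : Fin 2 → S17AH_field w) i) : Ω) := by
    funext i
    fin_cases i
    · simp [a', w]
    · simp
  have h2 : (![a, 1] : Fin 2 → Ω) = fun i => (((![a', 1] : Fin 2 → S17AH_field w) i) : Ω) := by
    funext i
    fin_cases i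
    · simp [a', w]
    · simp
  rw [h1, h2, S17AH_h_sub, S17AH_h_sub, ← logHeight₁_eq_logHeight, ← logHeight₁_eq_logHeight,
    logHeight₁_neg]

/-- conjugate algebraic numbers have the same height. -/
theorem S17AN_h1_conj (a β : Ω) (hβ : Polynomial.aeval β (minpoly ℚ a) = 0) :
    S17AH_h ![β, 1] = S17AH_h ![a, 1] := by
  have ha : IsIntegral ℚ a := (Algebra.IsAlgebraic.isAlgebraic a).isIntegral
  haveI : FiniteDimensional ℚ ℚ⟮a⟯ := adjoin.finiteDimensional ha
  haveI : NumberField ℚ⟮a⟯ := {}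
  have hmem : β ∈ (minpoly ℚ a).aroots Ω := by
    rw [Polynomial.mem_aroots]
    exact ⟨minpoly.ne_zero ha, hβ⟩
  let φ : ℚ⟮a⟯ →ₐ[ℚ] Ω := (algHomAdjoinIntegralEquiv ℚ ha).symm ⟨β, hmem⟩
  have hφ : φ (AdjoinSimple.gen ℚ a) = β := algHomAdjoinIntegralEquiv_symm_apply_gen ℚ ha _
  have h1 : (![β, 1] : Fin 2 → Ω) =
      fun i => (φ : ℚ⟮a⟯ →+* Ω) ((![AdjoinSimple.gen ℚ a, 1] : Fin 2 → ℚ⟮a⟯) i) := by
    funext i
    fin_cases i
    · simp [hφ]
    · simp
  have h2 : (![a, 1] : Fin 2 → Ω) =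
      fun i => (algebraMap ℚ⟮a⟯ Ω) ((![AdjoinSimple.gen ℚ a, 1] : Fin 2 → ℚ⟮a⟯) i) := by
    funext i
    fin_cases i
    · simp
    · simp
  rw [h1, h2, S17AH_h_eq, S17AH_h_eq]

variable [IsAlgClosed Ω]

/-- the coefficients of the minimal polynomial have bounded height. -/
theorem S17AN_coeff_minpoly_le (a : Ω) (j : ℕ) :
    logHeight₁ ((minpoly ℚ a).coeff j) ≤
      (minpoly ℚ a).natDegree * (Real.log 2 + S17AH_h ![a, 1]) := by
  classical
  have ha : IsIntegral ℚ a := (Algebra.IsAlgebraic.isAlgebraic a).isIntegral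
  set P₀ := minpoly ℚ a with hP₀
  set P := P₀.map (algebraMap ℚ Ω) with hP
  have hmonic : P.Monic := (minpoly.monic ha).map _
  have hsplit : P.Splits := IsAlgClosed.splits P
  have hprod := hsplit.eq_prod_roots_of_monic hmonic
  have hcard : P.natDegree = Multiset.card P.roots := hsplit.natDegree_eq_card_roots
  have hdeg : P.natDegree = P₀.natDegree := Polynomial.natDegree_map _
  set l := P.roots.toList with hl
  have hlr : (l : Multiset Ω) = P.roots := Multiset.coe_toList _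
  have hlen : l.length = P₀.natDegree := by
    rw [← hdeg, hcard, ← hlr, Multiset.coe_card]
  let y : Fin l.length → Ω := fun i => -l[i.1]
  have hPy : (∏ i, (X + C (y i)) : Polynomial Ω) = P := by
    have h1 : ∀ i : Fin l.length, (X + C (y i) : Polynomial Ω) = (fun r => X - C r) l[i.1] := by
      intro i
      simp [y, sub_eq_add_neg]
    rw [Finset.prod_congr rfl fun i _ => h1 i, Fin.prod_univ_fun_getElem l (fun r => X - C r)]
    conv_rhs => rw [hprod, ← hlr]
    rfl
  have hy : ∀ i, S17AH_h ![y i, 1] = S17AH_h ![a, 1] := by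
    intro i
    have hmem : l[i.1] ∈ P.roots := Multiset.mem_toList.mp (List.getElem_mem _)
    have hroot : Polynomial.aeval l[i.1] P₀ = 0 := by
      have := (Polynomial.mem_roots'.mp hmem).2
      rwa [Polynomial.IsRoot.def, hP, Polynomial.eval_map_algebraMap] at this
    simp only [y]
    rw [S17AN_h1_neg, S17AN_h1_conj a _ hroot]
  have hV := S17AN_coeff_le y (![j, P₀.natDegree] : Fin 2 → ℕ)
  rw [hPy] at hV
  have hT : (fun m : Fin 2 => P.coeff ((![j, P₀.natDegree] : Fin 2 → ℕ) m)) =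
      fun m => algebraMap ℚ Ω ((![P₀.coeff j, 1] : Fin 2 → ℚ) m) := by
    funext m
    fin_cases m
    · simp [hP, Polynomial.coeff_map]
    · have : P₀.coeff P₀.natDegree = 1 := minpoly.monic ha
      simp [hP, Polynomial.coeff_map, this]
  rw [hT, S17AH_h_rat, ← logHeight₁_eq_logHeight] at hV
  refine hV.trans (le_of_eq ?_)
  rw [Finset.sum_congr rfl fun i _ => hy i, Finset.sum_const, Finset.card_univ,
    Fintype.card_fin, hlen]
  simp only [nsmul_eq_mul]
  ring

/-- **Northcott for bounded degree** (elements). -/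
theorem S17AN_northcott₁ (n : ℕ) (B : ℝ) :
    {a : Ω | (minpoly ℚ a).natDegree ≤ n ∧ S17AH_h ![a, 1] ≤ B}.Finite := by
  classical
  set B' : ℝ := n * (Real.log 2 + max B 0) with hB'
  have hC : {c : ℚ | logHeight₁ c ≤ B'}.Finite := NumberField.finite_setOfPred_logHeight₁_le ℚ B'
  have hF : {c : Fin (n + 1) → ℚ | ∀ j, c j ∈ {c : ℚ | logHeight₁ c ≤ B'}}.Finite := by
    have := Set.Finite.pi' (ι := Fin (n + 1)) (t := fun _ => {c : ℚ | logHeight₁ c ≤ B'})
      (fun _ => hC)
    refine this.subset ?_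
    intro c hc
    exact hc
  have hP : {P : Polynomial ℚ | P ≠ 0 ∧ P.natDegree ≤ n ∧ ∀ j, logHeight₁ (P.coeff j) ≤ B'}.Finite := by
    refine (hF.image fun c : Fin (n + 1) → ℚ => ∑ j : Fin (n + 1), C (c j) * X ^ (j : ℕ)).subset ?_
    rintro P ⟨-, hdeg, hco⟩
    refine ⟨fun j => P.coeff j, fun j => hco j, ?_⟩
    have h1 := Polynomial.as_sum_range' P (n + 1) (Nat.lt_succ_of_le hdeg)
    conv_rhs => rw [h1]
    rw [Finset.sum_range]
    refine Finset.sum_congr rfl fun j _ => ?_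
    rw [← Polynomial.C_mul_X_pow_eq_monomial]
  refine (Set.Finite.biUnion hP fun P _ => P.rootSet_finite Ω).subset ?_
  rintro a ⟨hdeg, hh⟩
  have ha : IsIntegral ℚ a := (Algebra.IsAlgebraic.isAlgebraic a).isIntegral
  simp only [Set.mem_iUnion, Set.mem_ofPred_eq, exists_prop]
  refine ⟨minpoly ℚ a, ⟨minpoly.ne_zero ha, hdeg, fun j => ?_⟩, ?_⟩
  · refine (S17AN_coeff_minpoly_le a j).trans ?_
    have h0 : 0 ≤ Real.log 2 + S17AH_h ![a, 1] :=
      add_nonneg (Real.log_nonneg (by norm_num)) (S17AH_h_nonneg _)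
    have h1 : Real.log 2 + S17AH_h ![a, 1] ≤ Real.log 2 + max B 0 := by
      have := le_max_left B 0
      linarith
    have h2 : ((minpoly ℚ a).natDegree : ℝ) ≤ n := by exact_mod_cast hdeg
    exact mul_le_mul h2 h1 h0 (Nat.cast_nonneg _)
  · rw [Polynomial.mem_rootSet]
    exact ⟨minpoly.ne_zero ha, minpoly.aeval ℚ a⟩

/-- **Northcott for bounded degree** (tuples normalised by `x i₀ = 1`). -/
theorem S17AN_northcott {ι : Type*} [Finite ι] (n : ℕ) (B : ℝ) (i₀ : ι) :
    {x : ι → Ω | x i₀ = 1 ∧ (∀ i, (minpoly ℚ (x i)).natDegree ≤ n) ∧ S17AH_h x ≤ B}.Finite := by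
  have h1 := S17AN_northcott₁ (Ω := Ω) n B
  have := Set.Finite.pi' (ι := ι)
    (t := fun _ => {a : Ω | (minpoly ℚ a).natDegree ≤ n ∧ S17AH_h ![a, 1] ≤ B}) (fun _ => h1)
  refine this.subset ?_
  rintro x ⟨hx0, hdeg, hh⟩ i
  refine ⟨hdeg i, ?_⟩
  have h2 : (![x i, 1] : Fin 2 → Ω) = x ∘ (![i, i₀] : Fin 2 → ι) := by
    funext m
    fin_cases m
    · simp
    · simp [hx0]
  rw [h2]
  exact (S17AH_h_comp_le _ _).trans hh

/-- an algebraic number all of whose conjugates lie in a finite set `s` has degree `≤ #s`. -/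
theorem S17AN_natDegree_le_of_orbit (a : Ω) (s : Finset Ω)
    (hs : ∀ σ : Ω ≃ₐ[ℚ] Ω, σ a ∈ s) : (minpoly ℚ a).natDegree ≤ s.card := by
  classical
  have ha : IsIntegral ℚ a := (Algebra.IsAlgebraic.isAlgebraic a).isIntegral
  haveI : IsAlgClosure ℚ Ω := ⟨inferInstance, inferInstance⟩
  haveI : Normal ℚ Ω := IsAlgClosure.normal ℚ Ω
  have hsep : (minpoly ℚ a).Separable := (minpoly.irreducible ha).separable
  have hsplit : ((minpoly ℚ a).map (algebraMap ℚ Ω)).Splits := IsAlgClosed.splits _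
  have hcard := Polynomial.card_rootSet_eq_natDegree hsep hsplit
  rw [← hcard, ← Set.toFinset_card]
  refine Finset.card_le_card ?_
  intro β hβ
  rw [Set.mem_toFinset, Polynomial.mem_rootSet] at hβ
  have hconj : IsConjRoot ℚ a β := (isConjRoot_iff_aeval_eq_zero ha).mpr hβ.2
  obtain ⟨σ, hσ⟩ := isConjRoot_iff_exists_algEquiv.mp hconj
  have hβσ : β = σ.symm a := by
    rw [← hσ, AlgEquiv.symm_apply_apply]
  rw [hβσ]
  exact hs σ.symm

/-- **Northcott**, orbit form: tuples normalised by `x i₀ = 1`, every coordinate with at most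
`n` conjugates, of bounded height. -/
theorem S17AN_northcott_orbit {ι : Type*} [Finite ι] (n : ℕ) (B : ℝ) (i₀ : ι) :
    {x : ι → Ω | x i₀ = 1 ∧
      (∀ i, ∃ s : Finset Ω, s.card ≤ n ∧ ∀ σ : Ω ≃ₐ[ℚ] Ω, σ (x i) ∈ s) ∧
      S17AH_h x ≤ B}.Finite := by
  refine (S17AN_northcott (Ω := Ω) n B i₀).subset ?_
  rintro x ⟨hx0, horb, hh⟩
  refine ⟨hx0, fun i => ?_, hh⟩
  obtain ⟨s, hs, hσ⟩ := horb i
  exact (S17AN_natDegree_le_of_orbit (x i) s hσ).trans hs

end

end Fermat.Agent.S17
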