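import Mathlib

/-!
# TRACK 8 (S17, Mordell–Weil), package CERT: homogeneous Nullstellensatz certificates

Mathlib only.  Prefix `S17C_`.

Main results

* `S17C_hc_mul` : for `p` homogeneous of degree `N`,
  `homogeneousComponent (M + N) (a * p) = homogeneousComponent M a * p`.
* `S17C_cert` : **homogeneous Nullstellensatz certificate** with coefficients in a field `k`
  and points in an algebraically closed extension `K` (so descent from `K` to `k` is built in):
  if `p j` are homogeneous of degree `N`, `I` is a homogeneous ideal and the `p j` have no common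
  zero `x ≠ 0` on `V(I)(K)`, then there are `M` and `q (i, j)` homogeneous of degree `M` with
  `X i ^ (M + N) - ∑ j, q (i, j) * p j ∈ I`.
* `S17C_cert_eval` : the same, in the exact shape consumed by Mathlib's
  `Height.logHeight_eval_ge'`: for all `x` in `V(I)(k)`,
  `∑ j, (q (i, j)).eval x * (p j).eval x = x i ^ (M + N)`.
-/

namespace Fermat.Agent.S17

open MvPolynomial

/-- Taking the homogeneous component of degree `M + N` of a product `a * p` with `p` homogeneous
of degree `N` amounts to taking the component of degree `M` of `a`. -/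
theorem S17C_hc_mul {R σ : Type*} [CommSemiring R] (a p : MvPolynomial σ R) {N : ℕ}
    (hp : p.IsHomogeneous N) (M : ℕ) :
    homogeneousComponent (M + N) (a * p) = homogeneousComponent M a * p := by
  classical
  have key : ∀ d, homogeneousComponent (M + N) (homogeneousComponent d a * p) =
      if d = M then homogeneousComponent d a * p else 0 := by
    intro d
    rw [homogeneousComponent_of_mem ((homogeneousComponent_isHomogeneous d a).mul hp)]
    by_cases h : d = M
    · subst h; simp
    · have : ¬ M + N = d + N := fun h' => h (Nat.add_right_cancel h').symm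
      rw [if_neg this, if_neg h]
  conv_lhs => rw [← sum_homogeneousComponent a]
  rw [Finset.sum_mul, map_sum]
  simp_rw [key]
  rw [Finset.sum_ite_eq']
  split_ifs with h
  · rfl
  · rw [homogeneousComponent_eq_zero, zero_mul]
    simpa using h

/-- Same as `S17C_hc_mul` with the homogeneous factor on the left. -/
theorem S17C_hc_mul' {R σ : Type*} [CommSemiring R] (a p : MvPolynomial σ R) {N : ℕ}
    (hp : p.IsHomogeneous N) (M : ℕ) :
    homogeneousComponent (N + M) (p * a) = p * homogeneousComponent M a := by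
  rw [mul_comm, add_comm, S17C_hc_mul a p hp M, mul_comm]

/-- **Homogeneous Nullstellensatz certificate.**  `k` is any field, `K` an algebraically closed
field containing `k` (e.g. `k = K`, or `k = ℚ`, `K = ℚ̄`).  If the forms `p j` (homogeneous of
degree `N`) have no common zero `x ≠ 0` in `K` on the zero set of the homogeneous ideal `I`, then
a power of every variable is a combination of the `p j` modulo `I`, with homogeneous
coefficients of the right degree. -/
theorem S17C_cert {k K : Type*} [Field k] [Field K] [Algebra k K] [IsAlgClosed K]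
    {ι ι' : Type*} [Finite ι] [Fintype ι'] (N : ℕ)
    (p : ι' → MvPolynomial ι k) (hp : ∀ j, (p j).IsHomogeneous N)
    (I : Ideal (MvPolynomial ι k))
    (hI : ∀ f ∈ I, ∀ d, homogeneousComponent d f ∈ I)
    (hne : ∀ x : ι → K, x ≠ 0 → (∀ f ∈ I, aeval x f = 0) → ∃ j, aeval x (p j) ≠ 0) :
    ∃ (M : ℕ) (q : ι × ι' → MvPolynomial ι k), (∀ a, (q a).IsHomogeneous M) ∧
      ∀ i, X i ^ (M + N) - ∑ j, q (i, j) * p j ∈ I := by
  classical
  cases nonempty_fintype ι
  obtain ⟨J, hJ⟩ : ∃ J : Ideal (MvPolynomial ι k), J = I ⊔ Ideal.span (Set.range p) := ⟨_, rfl⟩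
  have hzero : ∀ x ∈ zeroLocus K J, x = 0 := by
    intro x hx
    by_contra hx0
    obtain ⟨j, hj⟩ := hne x hx0 (fun f hf => hx f (hJ ▸ Ideal.mem_sup_left hf))
    exact hj (hx (p j) (hJ ▸ Ideal.mem_sup_right (Ideal.subset_span ⟨j, rfl⟩)))
  have hrad : ∀ i, ∃ n : ℕ, (X i : MvPolynomial ι k) ^ n ∈ J := by
    intro i
    have : (X i : MvPolynomial ι k) ∈ J.radical := by
      rw [← vanishingIdeal_zeroLocus_eq_radical (K := K)]
      intro x hx
      rw [hzero x hx]
      simp
    exact this
  choose m hm using hrad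
  obtain ⟨M, hM⟩ : ∃ M, ∀ i, m i ≤ M := ⟨Finset.univ.sup m, fun i => Finset.le_sup (Finset.mem_univ i)⟩
  have hpow : ∀ i, (X i : MvPolynomial ι k) ^ (M + N) ∈ J := by
    intro i
    have : M + N = m i + (M + N - m i) := by have := hM i; omega
    rw [this, pow_add]
    exact Ideal.mul_mem_right _ _ (hm i)
  have hdec : ∀ i, ∃ f ∈ I, ∃ c : ι' → MvPolynomial ι k,
      f + ∑ j, c j * p j = (X i : MvPolynomial ι k) ^ (M + N) := by
    intro i
    have h := hpow i
    rw [hJ, Submodule.mem_sup] at h
    obtain ⟨f, hf, g, hg, hfg⟩ := h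
    obtain ⟨c, hc⟩ := Ideal.mem_span_range_iff_exists_fun.1 hg
    exact ⟨f, hf, c, by rw [hc, hfg]⟩
  choose f hf c hc using hdec
  refine ⟨M, fun a => homogeneousComponent M (c a.1 a.2),
    fun a => homogeneousComponent_isHomogeneous _ _, fun i => ?_⟩
  have h1 := congrArg (homogeneousComponent (M + N)) (hc i)
  rw [map_add, map_sum, homogeneousComponent_eq_self (isHomogeneous_X_pow i (M + N))] at h1
  simp_rw [S17C_hc_mul _ _ (hp _)] at h1
  rw [← h1, add_sub_cancel_right]
  exact hI _ (hf i) _

/-- The homogeneity hypothesis `hI` of `S17C_cert` holds for every ideal spanned by homogeneous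
polynomials (of arbitrary degrees). -/
theorem S17C_hI_of_span {R σ : Type*} [CommRing R] (S : Set (MvPolynomial σ R))
    (hS : ∀ f ∈ S, ∃ n, f.IsHomogeneous n) :
    ∀ f ∈ Ideal.span S, ∀ d, homogeneousComponent d f ∈ Ideal.span S := by
  classical
  letI := MvPolynomial.gradedAlgebra (σ := σ) (R := R)
  have h : (Ideal.span S).IsHomogeneous (homogeneousSubmodule σ R) :=
    Ideal.homogeneous_span _ _ fun f hf => by
      obtain ⟨n, hn⟩ := hS f hf
      exact ⟨n, hn⟩
  intro f hf d
  exact homogeneousComponent_mem_of_mem h hf d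

/-- The homogeneity hypothesis `hI` of `S17C_cert` in terms of Mathlib's `Ideal.IsHomogeneous`. -/
theorem S17C_hI_iff {R σ : Type*} [CommRing R] (I : Ideal (MvPolynomial σ R)) :
    (∀ f ∈ I, ∀ d, homogeneousComponent d f ∈ I) ↔
      letI := MvPolynomial.gradedAlgebra (σ := σ) (R := R)
      I.IsHomogeneous (homogeneousSubmodule σ R) := by
  classical
  letI := MvPolynomial.gradedAlgebra (σ := σ) (R := R)
  constructor
  · intro h i f hf
    have := h f hf i
    rwa [← decomposition.decompose'_apply] at this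
  · intro h f hf d
    exact homogeneousComponent_mem_of_mem h hf d

/-- A certificate modulo `I` gives the evaluated identity at every point of `V(I)` with
coordinates in any `k`-algebra `A`. -/
theorem S17C_aeval_of_cert {k A : Type*} [CommRing k] [CommRing A] [Algebra k A]
    {ι ι' : Type*} [Fintype ι'] {I : Ideal (MvPolynomial ι k)} {M N : ℕ}
    {p : ι' → MvPolynomial ι k} {q : ι × ι' → MvPolynomial ι k}
    (h : ∀ i, X i ^ (M + N) - ∑ j, q (i, j) * p j ∈ I)
    (x : ι → A) (hx : ∀ f ∈ I, aeval x f = 0) (i : ι) :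
    ∑ j, aeval x (q (i, j)) * aeval x (p j) = x i ^ (M + N) := by
  have := hx _ (h i)
  simp only [map_sub, map_pow, aeval_X, map_sum, map_mul] at this
  exact (sub_eq_zero.1 this).symm

/-- A certificate modulo `I` gives the evaluated identity at every point of `V(I)(k)`: this is
the hypothesis `_h` of Mathlib's `Height.logHeight_eval_ge'`. -/
theorem S17C_eval_of_cert {k : Type*} [CommRing k]
    {ι ι' : Type*} [Fintype ι'] {I : Ideal (MvPolynomial ι k)} {M N : ℕ}
    {p : ι' → MvPolynomial ι k} {q : ι × ι' → MvPolynomial ι k}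
    (h : ∀ i, X i ^ (M + N) - ∑ j, q (i, j) * p j ∈ I)
    (x : ι → k) (hx : ∀ f ∈ I, eval x f = 0) (i : ι) :
    ∑ j, eval x (q (i, j)) * eval x (p j) = x i ^ (M + N) := by
  have := hx _ (h i)
  simp only [map_sub, map_pow, eval_X, map_sum, map_mul] at this
  exact (sub_eq_zero.1 this).symm

/-- A certificate modulo `I` over `k` gives the evaluated identity for the base-changed
polynomials at every point of `V(I)(L)`, `L` any commutative `k`-algebra: this is the hypothesis
`_h` of Mathlib's `Height.logHeight_eval_ge'` over `L` for `map (algebraMap k L) ∘ p`. -/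
theorem S17C_eval_map_of_cert {k L : Type*} [CommRing k] [CommRing L] [Algebra k L]
    {ι ι' : Type*} [Fintype ι'] {I : Ideal (MvPolynomial ι k)} {M N : ℕ}
    {p : ι' → MvPolynomial ι k} {q : ι × ι' → MvPolynomial ι k}
    (h : ∀ i, X i ^ (M + N) - ∑ j, q (i, j) * p j ∈ I)
    (x : ι → L) (hx : ∀ f ∈ I, aeval x f = 0) (i : ι) :
    ∑ j, eval x (map (algebraMap k L) (q (i, j))) * eval x (map (algebraMap k L) (p j)) =
      x i ^ (M + N) := by
  have := S17C_aeval_of_cert h x hx i
  simpa only [aeval_def, eval₂_eq_eval_map] using this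

/-- **Height machine, lower bound on a subvariety.**  `F` a field with an admissible family of
absolute values (e.g. a number field), `K ⊇ F` algebraically closed.  If the forms `p j` over `F`
(homogeneous of degree `N`) have no common zero `≠ 0` on `V(I)(K)`, `I` a homogeneous ideal,
then `N * h(x) ≤ h(p(x)) + O(1)` for `x ∈ V(I)(F)`. -/
theorem S17C_logHeight_ge {F K : Type*} [Field F] [Height.AdmissibleAbsValues F] [Field K]
    [Algebra F K] [IsAlgClosed K] {ι ι' : Type*} [Finite ι] [Fintype ι'] (N : ℕ)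
    (p : ι' → MvPolynomial ι F) (hp : ∀ j, (p j).IsHomogeneous N)
    (I : Ideal (MvPolynomial ι F))
    (hI : ∀ f ∈ I, ∀ d, homogeneousComponent d f ∈ I)
    (hne : ∀ x : ι → K, x ≠ 0 → (∀ f ∈ I, aeval x f = 0) → ∃ j, aeval x (p j) ≠ 0) :
    ∃ C : ℝ, ∀ x : ι → F, (∀ f ∈ I, eval x f = 0) →
      C + N * Height.logHeight x ≤ Height.logHeight (fun j => (p j).eval x) := by
  obtain ⟨M, q, hq, hcert⟩ := S17C_cert N p hp I hI hne
  obtain ⟨C, hC⟩ := Height.logHeight_eval_ge' (N := N) hq
  exact ⟨C, fun x hx => hC p (fun i => S17C_eval_of_cert hcert x hx i)⟩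

/-- **Height machine on a subvariety**, two-sided: `|h(p(x)) - N * h(x)| ≤ C` for `x ∈ V(I)(F)`. -/
theorem S17C_logHeight_abs_le {F K : Type*} [Field F] [Height.AdmissibleAbsValues F] [Field K]
    [Algebra F K] [IsAlgClosed K] {ι ι' : Type*} [Finite ι] [Fintype ι'] (N : ℕ)
    (p : ι' → MvPolynomial ι F) (hp : ∀ j, (p j).IsHomogeneous N)
    (I : Ideal (MvPolynomial ι F))
    (hI : ∀ f ∈ I, ∀ d, homogeneousComponent d f ∈ I)
    (hne : ∀ x : ι → K, x ≠ 0 → (∀ f ∈ I, aeval x f = 0) → ∃ j, aeval x (p j) ≠ 0) :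
    ∃ C : ℝ, ∀ x : ι → F, (∀ f ∈ I, eval x f = 0) →
      |Height.logHeight (fun j => (p j).eval x) - N * Height.logHeight x| ≤ C := by
  obtain ⟨C₁, hC₁⟩ := S17C_logHeight_ge N p hp I hI hne
  obtain ⟨C₂, hC₂⟩ := Height.logHeight_eval_le' (K := F) hp
  refine ⟨max (-C₁) C₂, fun x hx => abs_le.2 ⟨?_, ?_⟩⟩
  · have := hC₁ x hx
    have h2 : -C₁ ≤ max (-C₁) C₂ := le_max_left _ _
    linarith
  · have := hC₂ x
    have h2 : C₂ ≤ max (-C₁) C₂ := le_max_right _ _
    linarith

end Fermat.Agent.S17
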