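import Fermat.Agent.S17.CertW
import Fermat.Agent.S17.CertAPI

/-!
# TRACK 8 (S17), package CERT, part 3: multi-homogeneous certificate and height machine

Variables `σ` (finite) are distributed into blocks by `b : σ → α`; the multidegree weight is
`S17C_bw b s = Pi.single (b s) 1 : α → ℕ`.  The block `a` of a point `x : σ → K` is
`fun s : {s // b s = a} => x s`.

* `S17C_cert_multi` : multi-homogeneous Nullstellensatz certificate.
* `S17C_machine_le`, `S17C_machine_ge`, `S17C_machine` : for a height API `H`,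
  `| H.h (p(x)) - ∑ a, N a * H.h (block a of x) | ≤ C` on `V(I)`, all blocks `≠ 0`, if the
  multi-homogeneous family `p` (multidegree `N`) has no common zero on `V(I)` with all blocks
  `≠ 0`.
-/

namespace Fermat.Agent.S17

open MvPolynomial

universe u v

/-- The multidegree weight attached to a block map `b : σ → α`: the variable `s` has weight
`Pi.single (b s) 1`. -/
def S17C_bw {σ α : Type*} [DecidableEq α] (b : σ → α) : σ → α → ℕ :=
  fun s => Pi.single (b s) 1

theorem S17C_weight_bw {σ α : Type*} [DecidableEq α] [Fintype σ] (b : σ → α) (d : σ →₀ ℕ)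
    (a : α) : Finsupp.weight (S17C_bw b) d a = ∑ s : {s : σ // b s = a}, d s.1 := by
  classical
  rw [Finsupp.weight_eq_sum, Finset.sum_apply]
  simp only [S17C_bw, Pi.smul_apply, smul_eq_mul, Pi.single_apply]
  rw [← Finset.sum_subtype (Finset.univ.filter (fun s => b s = a)) (by simp) (fun s => d s),
    Finset.sum_filter]
  refine Finset.sum_congr rfl fun s _ => ?_
  by_cases h : b s = a
  · rw [if_pos h.symm, if_pos h, mul_one]
  · rw [if_neg (fun h' => h h'.symm), if_neg h, mul_zero]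

/-- multi-homogeneity in terms of block degrees -/
theorem S17C_isMulti_iff {R σ α : Type*} [CommSemiring R] [DecidableEq α] [Fintype σ]
    (b : σ → α) (f : MvPolynomial σ R) (N : α → ℕ) :
    IsWeightedHomogeneous (S17C_bw b) f N ↔
      ∀ d, coeff d f ≠ 0 → ∀ a, ∑ s : {s : σ // b s = a}, d s.1 = N a := by
  constructor
  · intro h d hd a
    rw [← S17C_weight_bw, h hd]
  · intro h d hd
    funext a
    rw [S17C_weight_bw, h d hd a]

/-- **Multi-homogeneous Nullstellensatz certificate.** -/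
theorem S17C_cert_multi {k K : Type*} [Field k] [Field K] [Algebra k K] [IsAlgClosed K]
    {σ α ι' : Type*} [Finite σ] [Fintype α] [DecidableEq α] [Fintype ι']
    (b : σ → α) (N : α → ℕ)
    (p : ι' → MvPolynomial σ k) (hp : ∀ j, IsWeightedHomogeneous (S17C_bw b) (p j) N)
    (I : Ideal (MvPolynomial σ k))
    (hI : ∀ f ∈ I, ∀ d, weightedHomogeneousComponent (S17C_bw b) d f ∈ I)
    (hne : ∀ x : σ → K, (∀ a, ∃ s, b s = a ∧ x s ≠ 0) → (∀ f ∈ I, aeval x f = 0) →
      ∃ j, aeval x (p j) ≠ 0) :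
    ∃ n : ℕ, (∀ a, N a ≤ n) ∧ ∃ q : ((a : α) → {s : σ // b s = a}) × ι' → MvPolynomial σ k,
      (∀ c, IsWeightedHomogeneous (S17C_bw b) (q c) (fun a => n - N a)) ∧
      ∀ i : (a : α) → {s : σ // b s = a}, (∏ a, X (i a).1) ^ n - ∑ j, q (i, j) * p j ∈ I := by
  classical
  have hg : ∀ i : (a : α) → {s : σ // b s = a},
      IsWeightedHomogeneous (S17C_bw b) (∏ a, (X (i a).1 : MvPolynomial σ k))
        (fun _ => 1) := by
    intro i
    have h := IsWeightedHomogeneous.prod (R := k) (w := S17C_bw b) Finset.univ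
      (fun a => (X (i a).1 : MvPolynomial σ k)) (fun a => S17C_bw b (i a).1)
      (fun a _ => isWeightedHomogeneous_X k (S17C_bw b) (i a).1)
    have hsum : ∑ a, S17C_bw b (i a).1 = fun _ => 1 := by
      have : ∀ a, S17C_bw b (i a).1 = Pi.single a 1 := fun a => by
        simp only [S17C_bw, (i a).2]
      simp_rw [this]
      exact Finset.univ_sum_single (fun _ => 1)
    rwa [hsum] at h
  have hvan : ∀ i : (a : α) → {s : σ // b s = a}, ∀ x : σ → K,
      (∀ f ∈ I, aeval x f = 0) → (∀ j, aeval x (p j) = 0) →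
        aeval x (∏ a, (X (i a).1 : MvPolynomial σ k)) = 0 := by
    intro i x hx hpx
    by_contra h0
    rw [map_prod] at h0
    simp only [aeval_X] at h0
    rw [← ne_eq, Finset.prod_ne_zero_iff] at h0
    obtain ⟨j, hj⟩ := hne x (fun a => ⟨(i a).1, (i a).2, h0 a (Finset.mem_univ a)⟩) hx
    exact hj (hpx j)
  have hex : ∀ i : (a : α) → {s : σ // b s = a}, ∃ n₀ : ℕ, ∀ n, n₀ ≤ n →
      ∀ E : ι' → (α → ℕ), (∀ j, E j + N = n • (fun _ => 1)) →
      ∃ q : ι' → MvPolynomial σ k, (∀ j, IsWeightedHomogeneous (S17C_bw b) (q j) (E j)) ∧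
        (∏ a, (X (i a).1 : MvPolynomial σ k)) ^ n - ∑ j, q j * p j ∈ I :=
    fun i => S17C_cert_weighted (K := K) (S17C_bw b) (fun _ => N) p hp I hI _ _ (hg i) (hvan i)
  choose n₀ hn₀ using hex
  obtain ⟨m₁, hm₁⟩ := (Set.finite_range n₀).bddAbove
  obtain ⟨m₂, hm₂⟩ := (Set.finite_range N).bddAbove
  have hm₁' : ∀ i, n₀ i ≤ max m₁ m₂ := fun i => le_trans (hm₁ ⟨i, rfl⟩) (le_max_left _ _)
  have hm₂' : ∀ a, N a ≤ max m₁ m₂ := fun a => le_trans (hm₂ ⟨a, rfl⟩) (le_max_right _ _)
  refine ⟨max m₁ m₂, hm₂', ?_⟩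
  have hE : ∀ _ : ι', (fun a => max m₁ m₂ - N a) + N = (max m₁ m₂) • (fun _ : α => 1) := by
    intro _
    funext a
    have := hm₂' a
    simp only [Pi.add_apply, Pi.smul_apply, smul_eq_mul, mul_one]
    omega
  choose q hq hqI using fun i => hn₀ i (max m₁ m₂) (hm₁' i) (fun _ a => max m₁ m₂ - N a) hE
  exact ⟨fun c => q c.1 c.2, fun c => hq c.1 c.2, hqI⟩

/-! ### The height machine -/

section machine

variable {K : Type v} [Field K] (H : S17C_HtAPI.{u} K)

theorem S17C_h_one {ι : Type u} [Finite ι] : H.h (1 : ι → K) = 0 := by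
  have h := H.pow (0 : ι → K) 0
  simpa using h

/-- tensor bound, without nonvanishing assumptions -/
theorem S17C_h_tensor_le {ι ι' : Type u} [Finite ι] [Finite ι'] (x : ι → K) (y : ι' → K) :
    H.h (fun a : ι × ι' => x a.1 * y a.2) ≤ H.h x + H.h y := by
  by_cases hx : x = 0
  · subst hx
    have h0 : (fun a : ι × ι' => (0 : ι → K) a.1 * y a.2) = 0 := by funext a; simp
    rw [h0, H.zero, H.zero, zero_add]
    exact H.nonneg y
  by_cases hy : y = 0
  · subst hy
    have h0 : (fun a : ι × ι' => x a.1 * (0 : ι' → K) a.2) = 0 := by funext a; simp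
    rw [h0, H.zero, H.zero, add_zero]
    exact H.nonneg x
  exact (H.fun_mul hx hy).le

/-- pointwise product bound -/
theorem S17C_h_mul_le {ι : Type u} [Finite ι] (x y : ι → K) :
    H.h (x * y) ≤ H.h x + H.h y := by
  have h1 : x * y = (fun a : ι × ι => x a.1 * y a.2) ∘ (fun i => (i, i)) := by
    funext i; rfl
  rw [h1]
  exact (H.comp_le _ _).trans (S17C_h_tensor_le H x y)

/-- finite pointwise products -/
theorem S17C_h_prod_le {ι : Type u} {α : Type*} [Finite ι] (s : Finset α) (x : α → ι → K) :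
    H.h (∏ a ∈ s, x a) ≤ ∑ a ∈ s, H.h (x a) := by
  classical
  induction s using Finset.induction_on with
  | empty => simp [S17C_h_one H]
  | insert a s ha ih =>
    rw [Finset.prod_insert ha, Finset.sum_insert ha]
    have := S17C_h_mul_le H (x a) (∏ a ∈ s, x a)
    linarith

/-- bound for linear maps -/
theorem S17C_h_linear_le {E ι' : Type u} [Fintype E] [Finite ι'] (A : ι' × E → K) :
    ∃ C : ℝ, ∀ z : E → K, H.h (fun j => ∑ e, A (j, e) * z e) ≤ C + H.h z := by
  obtain ⟨C, hC⟩ := H.eval_le (N := 1)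
    (p := fun j : ι' => ∑ e, (MvPolynomial.C (A (j, e)) : MvPolynomial E K) * X e)
    (fun j => IsHomogeneous.sum _ _ _ fun e _ => isHomogeneous_C_mul_X _ _)
  refine ⟨C, fun z => ?_⟩
  have := hC z
  simpa only [map_sum, map_mul, eval_C, eval_X, Nat.cast_one, one_mul] using this

/-- bound for a finite family of monomials of the same multidegree -/
theorem S17C_h_monomials_le {σ α E : Type u} [Fintype σ] [Fintype α] [DecidableEq α]
    [Finite E] (b : σ → α) (N : α → ℕ) (d : E → σ →₀ ℕ)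
    (hd : ∀ e a, ∑ s : {s : σ // b s = a}, d e s.1 = N a) :
    ∃ C : ℝ, ∀ x : σ → K, H.h (fun e => ∏ s, x s ^ d e s) ≤
      C + ∑ a, N a * H.h (fun s : {s : σ // b s = a} => x s.1) := by
  classical
  have key : ∀ a, ∃ C : ℝ, ∀ y : {s : σ // b s = a} → K,
      H.h (fun e => ∏ s : {s : σ // b s = a}, y s ^ d e s.1) ≤ C + N a * H.h y := by
    intro a
    obtain ⟨C, hC⟩ := H.eval_le (N := N a)
      (p := fun e : E => ∏ s : {s : σ // b s = a},
        (X s : MvPolynomial {s : σ // b s = a} K) ^ d e s.1)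
      (fun e => by
        have := IsHomogeneous.prod Finset.univ
          (fun s : {s : σ // b s = a} => (X s : MvPolynomial {s : σ // b s = a} K) ^ d e s.1)
          (fun s => d e s.1) (fun s _ => isHomogeneous_X_pow s _)
        rwa [hd e a] at this)
    refine ⟨C, fun y => ?_⟩
    have := hC y
    simpa only [map_prod, map_pow, eval_X] using this
  choose C hC using key
  refine ⟨∑ a, C a, fun x => ?_⟩
  have h1 : (fun e => ∏ s, x s ^ d e s) =
      ∏ a, (fun e => ∏ s : {s : σ // b s = a}, x s.1 ^ d e s.1) := by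
    funext e
    rw [Finset.prod_apply]
    exact (Fintype.prod_fiberwise b (fun s => x s ^ d e s)).symm
  rw [h1]
  refine (S17C_h_prod_le H Finset.univ _).trans ?_
  rw [← Finset.sum_add_distrib]
  exact Finset.sum_le_sum fun a _ => hC a (fun s => x s.1)

/-- evaluation as a linear form in the monomials of a finite set containing the support -/
theorem S17C_eval_eq_sum {σ : Type*} [Fintype σ] (S : Finset (σ →₀ ℕ)) (f : MvPolynomial σ K)
    (hf : f.support ⊆ S) (x : σ → K) :
    eval x f = ∑ e : S, coeff e.1 f * ∏ s, x s ^ e.1 s := by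
  rw [eval_eq', Finset.sum_coe_sort S (fun d => coeff d f * ∏ s, x s ^ d s)]
  exact Finset.sum_subset hf fun d _ hd => by rw [notMem_support_iff.1 hd, zero_mul]

/-- **Height machine, upper bound**: for a multi-homogeneous family `p` of multidegree `N`,
`h(p(x)) ≤ C + ∑ a, N a * h(block a of x)` for ALL `x`. -/
theorem S17C_machine_le {σ α ι' : Type u} [Fintype σ] [Fintype α] [DecidableEq α]
    [Fintype ι'] (b : σ → α) (N : α → ℕ) (p : ι' → MvPolynomial σ K)
    (hp : ∀ j, IsWeightedHomogeneous (S17C_bw b) (p j) N) :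
    ∃ C : ℝ, ∀ x : σ → K, H.h (fun j => (p j).eval x) ≤
      C + ∑ a, N a * H.h (fun s : {s : σ // b s = a} => x s.1) := by
  classical
  obtain ⟨S, hSdef⟩ : ∃ S : Finset (σ →₀ ℕ), S = Finset.univ.biUnion (fun j => (p j).support) :=
    ⟨_, rfl⟩
  have hsub : ∀ j, (p j).support ⊆ S := fun j => by
    rw [hSdef]; exact Finset.subset_biUnion_of_mem (fun j => (p j).support) (Finset.mem_univ j)
  have hS : ∀ e : S, ∀ a, ∑ s : {s : σ // b s = a}, (e.1) s.1 = N a := by
    intro e a
    have he : ∀ d ∈ S, ∃ j, d ∈ (p j).support := by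
      intro d hd
      rw [hSdef] at hd
      obtain ⟨j, -, hj⟩ := Finset.mem_biUnion.1 hd
      exact ⟨j, hj⟩
    obtain ⟨j, hj⟩ := he e.1 e.2
    exact (S17C_isMulti_iff b (p j) N).1 (hp j) e.1 (mem_support_iff.1 hj) a
  obtain ⟨C₁, hC₁⟩ := S17C_h_linear_le H (E := S) (fun c : ι' × S => coeff c.2.1 (p c.1))
  obtain ⟨C₂, hC₂⟩ := S17C_h_monomials_le H b N (fun e : S => e.1) hS
  refine ⟨C₁ + C₂, fun x => ?_⟩
  have h1 : (fun j => (p j).eval x) =
      fun j => ∑ e : S, coeff e.1 (p j) * ∏ s, x s ^ e.1 s := by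
    funext j
    exact S17C_eval_eq_sum S (p j) (hsub j) x
  rw [h1]
  have h2 := hC₁ (fun e : S => ∏ s, x s ^ e.1 s)
  have h3 := hC₂ x
  linarith

/-- **Height machine, lower bound**: if the multi-homogeneous family `p` (multidegree `N`) has
no common zero on `V(I)` with all blocks nonzero (points over an algebraically closed `Ω ⊇ K`),
then `∑ a, N a * h(block a of x) ≤ C + h(p(x))` for `x ∈ V(I)(K)` with all blocks nonzero. -/
theorem S17C_machine_ge {Ω : Type*} [Field Ω] [Algebra K Ω] [IsAlgClosed Ω]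
    {σ α ι' : Type u} [Fintype σ] [Fintype α] [DecidableEq α] [Fintype ι']
    (b : σ → α) (N : α → ℕ) (p : ι' → MvPolynomial σ K)
    (hp : ∀ j, IsWeightedHomogeneous (S17C_bw b) (p j) N)
    (I : Ideal (MvPolynomial σ K))
    (hI : ∀ f ∈ I, ∀ d, weightedHomogeneousComponent (S17C_bw b) d f ∈ I)
    (hne : ∀ x : σ → Ω, (∀ a, ∃ s, b s = a ∧ x s ≠ 0) → (∀ f ∈ I, aeval x f = 0) →
      ∃ j, aeval x (p j) ≠ 0) :
    ∃ C : ℝ, ∀ x : σ → K, (∀ a, ∃ s, b s = a ∧ x s ≠ 0) → (∀ f ∈ I, eval x f = 0) →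
      ∑ a, N a * H.h (fun s : {s : σ // b s = a} => x s.1) ≤
        C + H.h (fun j => (p j).eval x) := by
  classical
  obtain ⟨n, hn, q, hq, hcert⟩ := S17C_cert_multi (K := Ω) b N p hp I hI hne
  obtain ⟨S, hSdef⟩ : ∃ S : Finset (σ →₀ ℕ), S = Finset.univ.biUnion (fun c => (q c).support) :=
    ⟨_, rfl⟩
  have hsub : ∀ c, (q c).support ⊆ S := fun c => by
    rw [hSdef]; exact Finset.subset_biUnion_of_mem (fun c => (q c).support) (Finset.mem_univ c)
  have hS : ∀ e : S, ∀ a, ∑ s : {s : σ // b s = a}, (e.1) s.1 = n - N a := by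
    intro e a
    have he : ∀ d ∈ S, ∃ c, d ∈ (q c).support := by
      intro d hd
      rw [hSdef] at hd
      obtain ⟨c, -, hc⟩ := Finset.mem_biUnion.1 hd
      exact ⟨c, hc⟩
    obtain ⟨c, hc⟩ := he e.1 e.2
    exact (S17C_isMulti_iff b (q c) _).1 (hq c) e.1 (mem_support_iff.1 hc) a
  obtain ⟨C₂, hC₂⟩ := S17C_h_monomials_le H b (fun a => n - N a) (fun e : S => e.1) hS
  obtain ⟨C₁, hC₁⟩ := S17C_h_linear_le H (E := S × ι') (ι' := (a : α) → {s : σ // b s = a})
    (fun c => coeff c.2.1.1 (q (c.1, c.2.2)))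
  refine ⟨C₁ + C₂, fun x hx hxI => ?_⟩
  -- the vector `u`
  have hxa : ∀ a, (fun s : {s : σ // b s = a} => x s.1) ^ n ≠ 0 := by
    intro a
    obtain ⟨s, hs, hxs⟩ := hx a
    intro h0
    have := congrFun h0 ⟨s, hs⟩
    simp only [Pi.pow_apply, Pi.zero_apply] at this
    exact hxs (eq_zero_of_pow_eq_zero this)
  have hu := H.fun_prod (x := fun a => (fun s : {s : σ // b s = a} => x s.1) ^ n) hxa
  simp_rw [H.pow] at hu
  -- the identity
  have hid : (fun i : (a : α) → {s : σ // b s = a} =>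
      ∏ a, ((fun s : {s : σ // b s = a} => x s.1) ^ n) (i a)) =
      fun i => ∑ c : S × ι', coeff c.1.1 (q (i, c.2)) *
        ((fun c : S × ι' => (∏ s, x s ^ c.1.1 s) * eval x (p c.2)) c) := by
    funext i
    have h1 := hxI _ (hcert i)
    simp only [map_sub, map_pow, map_prod, eval_X, map_sum, map_mul] at h1
    have h2 : ∏ a, ((fun s : {s : σ // b s = a} => x s.1) ^ n) (i a) =
        (∏ a, x (i a).1) ^ n := by
      simp only [Pi.pow_apply]
      rw [Finset.prod_pow]
    rw [h2, sub_eq_zero.1 h1, Fintype.sum_prod_type, Finset.sum_comm]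
    refine Finset.sum_congr rfl fun j _ => ?_
    rw [S17C_eval_eq_sum S (q (i, j)) (hsub _) x, Finset.sum_mul]
    refine Finset.sum_congr rfl fun e _ => ?_
    ring
  rw [hid] at hu
  have h1 := hC₁ (fun c : S × ι' => (∏ s, x s ^ c.1.1 s) * eval x (p c.2))
  have h2 := S17C_h_tensor_le H (fun e : S => ∏ s, x s ^ e.1 s) (fun j => eval x (p j))
  have h3 := hC₂ x
  rw [hu] at h1
  have h4 : ∑ a, ((n - N a : ℕ) : ℝ) * H.h (fun s : {s : σ // b s = a} => x s.1) =
      ∑ a, (n : ℝ) * H.h (fun s : {s : σ // b s = a} => x s.1) -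
        ∑ a, (N a : ℝ) * H.h (fun s : {s : σ // b s = a} => x s.1) := by
    rw [← Finset.sum_sub_distrib]
    refine Finset.sum_congr rfl fun a _ => ?_
    rw [Nat.cast_sub (hn a)]
    ring
  rw [h4] at h3
  linarith

/-- **Height machine**, two-sided. -/
theorem S17C_machine {Ω : Type*} [Field Ω] [Algebra K Ω] [IsAlgClosed Ω]
    {σ α ι' : Type u} [Fintype σ] [Fintype α] [DecidableEq α] [Fintype ι']
    (b : σ → α) (N : α → ℕ) (p : ι' → MvPolynomial σ K)
    (hp : ∀ j, IsWeightedHomogeneous (S17C_bw b) (p j) N)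
    (I : Ideal (MvPolynomial σ K))
    (hI : ∀ f ∈ I, ∀ d, weightedHomogeneousComponent (S17C_bw b) d f ∈ I)
    (hne : ∀ x : σ → Ω, (∀ a, ∃ s, b s = a ∧ x s ≠ 0) → (∀ f ∈ I, aeval x f = 0) →
      ∃ j, aeval x (p j) ≠ 0) :
    ∃ C : ℝ, ∀ x : σ → K, (∀ a, ∃ s, b s = a ∧ x s ≠ 0) → (∀ f ∈ I, eval x f = 0) →
      |H.h (fun j => (p j).eval x) -
        ∑ a, N a * H.h (fun s : {s : σ // b s = a} => x s.1)| ≤ C := by
  obtain ⟨C₁, hC₁⟩ := S17C_machine_le H b N p hp
  obtain ⟨C₂, hC₂⟩ := S17C_machine_ge H (Ω := Ω) b N p hp I hI hne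
  refine ⟨max C₁ C₂, fun x hx hxI => abs_le.2 ⟨?_, ?_⟩⟩
  · have := hC₂ x hx hxI
    have h2 : C₂ ≤ max C₁ C₂ := le_max_right _ _
    linarith
  · have := hC₁ x
    have h2 : C₁ ≤ max C₁ C₂ := le_max_left _ _
    linarith

end machine

end Fermat.Agent.S17
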