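import Fermat.Agent.S17.Cert

/-!
# TRACK 8 (S17), package CERT, part 2: weighted / multi-homogeneous Nullstellensatz certificates

Mathlib only.  Prefix `S17C_`.

* `S17C_whc_mul` : `weightedHomogeneousComponent w (E + N) (a * p) = weightedHomogeneousComponent w E a * p`
  for `p` weighted homogeneous of degree `N` (weights in any right-cancellative monoid, e.g. `ℕ × ℕ`
  or `α → ℕ`).
* `S17C_cert_weighted` : the general certificate: `g` weighted homogeneous of degree `D` vanishing on
  the common zeros of the `p j` (weighted homogeneous of degrees `N j`) on `V(I)(K)` ⇒ for all large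
  `n` and all `E` with `E j + N j = n • D`:  `g ^ n - ∑ j, q j * p j ∈ I` with `q j` weighted
  homogeneous of degree `E j`.
-/

namespace Fermat.Agent.S17

open MvPolynomial

/-- Taking the weighted homogeneous component of degree `E + N` of a product `a * p` with `p`
weighted homogeneous of degree `N` amounts to taking the component of degree `E` of `a`. -/
theorem S17C_whc_mul {R σ M : Type*} [CommSemiring R] [AddCommMonoid M] [IsRightCancelAdd M]
    (w : σ → M) (a p : MvPolynomial σ R) {N : M} (hp : IsWeightedHomogeneous w p N) (E : M) :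
    weightedHomogeneousComponent w (E + N) (a * p) = weightedHomogeneousComponent w E a * p := by
  classical
  induction a using MvPolynomial.induction_on' with
  | monomial d c =>
    have h1 : IsWeightedHomogeneous w (monomial d c) (Finsupp.weight w d) :=
      isWeightedHomogeneous_monomial w d c rfl
    have h2 : monomial d c * p ∈ weightedHomogeneousSubmodule R w (Finsupp.weight w d + N) :=
      (mem_weightedHomogeneousSubmodule R w _ _).2 (h1.mul hp)
    have h3 : monomial d c ∈ weightedHomogeneousSubmodule R w (Finsupp.weight w d) :=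
      (mem_weightedHomogeneousSubmodule R w _ _).2 h1
    rw [weightedHomogeneousComponent_of_mem h2, weightedHomogeneousComponent_of_mem h3]
    by_cases h : E = Finsupp.weight w d
    · subst h; simp
    · have : ¬ E + N = Finsupp.weight w d + N := fun h' => h (add_right_cancel h')
      rw [if_neg this, if_neg h, zero_mul]
  | add a b ha hb => rw [add_mul, map_add, map_add, ha, hb, add_mul]

/-- **Weighted Nullstellensatz certificate.**  Weights `w : σ → M` in a right-cancellative
commutative monoid (e.g. `ℕ`, `ℕ × ℕ`, `α → ℕ`); `I` an ideal stable under weighted homogeneous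
components; `p j` weighted homogeneous of degree `N j`; `g` weighted homogeneous of degree `D`
vanishing at every common zero of the `p j` on `V(I)(K)`, `K ⊇ k` algebraically closed.  Then for
all large `n` and every `E` with `E j + N j = n • D` there are `q j`, weighted homogeneous of
degree `E j`, with `g ^ n - ∑ j, q j * p j ∈ I`. -/
theorem S17C_cert_weighted {k K : Type*} [Field k] [Field K] [Algebra k K] [IsAlgClosed K]
    {σ ι' M : Type*} [Finite σ] [Fintype ι'] [AddCommMonoid M] [IsRightCancelAdd M]
    (w : σ → M) (N : ι' → M)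
    (p : ι' → MvPolynomial σ k) (hp : ∀ j, IsWeightedHomogeneous w (p j) (N j))
    (I : Ideal (MvPolynomial σ k))
    (hI : ∀ f ∈ I, ∀ d, weightedHomogeneousComponent w d f ∈ I)
    (g : MvPolynomial σ k) (D : M) (hg : IsWeightedHomogeneous w g D)
    (hvan : ∀ x : σ → K, (∀ f ∈ I, aeval x f = 0) → (∀ j, aeval x (p j) = 0) → aeval x g = 0) :
    ∃ n₀ : ℕ, ∀ n, n₀ ≤ n → ∀ E : ι' → M, (∀ j, E j + N j = n • D) →
      ∃ q : ι' → MvPolynomial σ k, (∀ j, IsWeightedHomogeneous w (q j) (E j)) ∧
        g ^ n - ∑ j, q j * p j ∈ I := by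
  classical
  obtain ⟨J, hJ⟩ : ∃ J : Ideal (MvPolynomial σ k), J = I ⊔ Ideal.span (Set.range p) := ⟨_, rfl⟩
  have hrad : g ∈ J.radical := by
    rw [← vanishingIdeal_zeroLocus_eq_radical (K := K)]
    intro x hx
    exact hvan x (fun f hf => hx f (hJ ▸ Ideal.mem_sup_left hf))
      (fun j => hx (p j) (hJ ▸ Ideal.mem_sup_right (Ideal.subset_span ⟨j, rfl⟩)))
  obtain ⟨n₀, hn₀⟩ := hrad
  refine ⟨n₀, fun n hn E hE => ?_⟩
  have hpow : g ^ n ∈ J := by
    have : n = n₀ + (n - n₀) := by omega
    rw [this, pow_add]
    exact Ideal.mul_mem_right _ _ hn₀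
  rw [hJ, Submodule.mem_sup] at hpow
  obtain ⟨f, hf, g', hg', hfg⟩ := hpow
  obtain ⟨c, hc⟩ := Ideal.mem_span_range_iff_exists_fun.1 hg'
  refine ⟨fun j => weightedHomogeneousComponent w (E j) (c j),
    fun j => weightedHomogeneousComponent_isWeightedHomogeneous _ _, ?_⟩
  have h1 := congrArg (weightedHomogeneousComponent w (n • D)) hfg
  rw [weightedHomogeneousComponent_eq_self (hg.pow n), ← hc, map_add, map_sum] at h1
  have h2 : ∀ j, weightedHomogeneousComponent w (n • D) (c j * p j) =
      weightedHomogeneousComponent w (E j) (c j) * p j := by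
    intro j
    rw [← hE j]
    exact S17C_whc_mul w _ _ (hp j) _
  simp_rw [h2] at h1
  rw [← h1, add_sub_cancel_right]
  exact hI _ hf _

end Fermat.Agent.S17
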