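import Fermat.Agent.S17.Chow
import Fermat.Agent.S17.HtDefs

/-!
# TRACK 8 (S17), package CHOW: the fields `chow`, `chow_bihom`, `chow_ne`, `h1` of `S17H_Curve`
and the zero cycles (`S17H_Fact`) from the abstract norm data (helper2)

Input: `D : S17CH_Data Ω ι ι Pl` (`S17/Chow.lean`) with `μ = 1`, `top = last`, and
* `(M1)` `⟨c, ev P⟩ = 0 → P ∈ Z c`,
* `(M2)` `c last = 0 → card (Z c) < k`.

Output (`S17CF_main`): the form `chow := D.chowForm` satisfies `S17C_IsBihom chow k k`, `chow_ne`, `(H1)` at the points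
`x = a • ev P` and `x = a • ε_last`, and for every `c ≠ 0` a list `w : Fin k → Option Pl`
(`none` = the point `O`) of the zeros of `φ_c`, with multiplicities, such that
`S17H_Fact chow c (evO ∘ w)`.
-/

set_option autoImplicit false

open MvPolynomial

namespace Fermat.Agent.S17

/-- a multiset with `k` elements is the multiset of values of a function on `Fin k` -/
theorem S17CF_list {α : Type*} (s : Multiset α) (k : ℕ) (h : Multiset.card s = k) :
    ∃ w : Fin k → α, Finset.univ.val.map w = s := by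
  subst h
  induction s using Quotient.inductionOn with
  | _ l =>
    refine ⟨fun i => l.get (i.cast (by simp)), ?_⟩
    rw [Fin.univ_val_map]
    have h1 : List.ofFn (fun i : Fin (Multiset.card (Quotient.mk (List.isSetoid α) l)) =>
        l.get (i.cast (by simp))) = l := by
      apply List.ext_get
      · simp
      · intro n h1 h2
        simp
    rw [h1]
    rfl

variable {Ω : Type} [Field Ω] {ι : Type} [Fintype ι] {Pl : Type}

/-- the coordinate vector of a point of the completed curve (`none` = the point `O`) -/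
def S17CF_evO [DecidableEq ι] (D : S17CH_Data Ω ι ι Pl) : Option Pl → ι → Ω
  | none => Pi.single D.last 1
  | some P => D.ev P

theorem S17CF_dot_evO_none [DecidableEq ι] (D : S17CH_Data Ω ι ι Pl) (X : ι → Ω) :
    S17H_dot X (S17CF_evO D none) = X D.last := by
  simp [S17H_dot, S17CF_evO, Pi.single_apply]

theorem S17CF_dot_evO_some [DecidableEq ι] (D : S17CH_Data Ω ι ι Pl) (X : ι → Ω) (P : Pl) :
    S17H_dot X (S17CF_evO D (some P)) = ∑ j, X j * D.ev P j := rfl

theorem S17CF_evO_ne_zero [DecidableEq ι] (D : S17CH_Data Ω ι ι Pl) (w : Option Pl) :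
    S17CF_evO D w ≠ 0 := by
  cases w with
  | none =>
    intro h
    have := congrFun h D.last
    simp [S17CF_evO] at this
  | some P => exact D.ev_ne_zero P

/-- the zero cycle of `c` on the completed curve -/
def S17CF_cycle (D : S17CH_Data Ω ι ι Pl) (c : ι → Ω) : Multiset (Option Pl) :=
  (D.Z c).map some + Multiset.replicate (D.k - Multiset.card (D.Z c)) none

theorem S17CF_prod_cycle [DecidableEq ι] (D : S17CH_Data Ω ι ι Pl) (c X : ι → Ω) :
    ((S17CF_cycle D c).map fun w => S17H_dot X (S17CF_evO D w)).prod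
      = X D.last ^ (D.k - Multiset.card (D.Z c))
          * ((D.Z c).map fun R => ∑ j, X j * D.ev R j).prod := by
  unfold S17CF_cycle
  rw [Multiset.map_add, Multiset.prod_add, Multiset.map_map, Multiset.map_replicate,
    Multiset.prod_replicate, S17CF_dot_evO_none, mul_comm]
  rfl

/-- a bihomogeneous form of bidegree `(k, _)`, `k ≥ 1`, vanishes at `c = 0` -/
theorem S17CF_eval_zero_left {k n : ℕ} (hk : 1 ≤ k) (f : MvPolynomial (ι ⊕ ι) Ω)
    (hf : S17C_IsBihom f k n) (X : ι → Ω) : eval (Sum.elim (0 : ι → Ω) X) f = 0 := by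
  classical
  rw [eval_eq]
  refine Finset.sum_eq_zero fun d hd => ?_
  have h1 := (hf d (mem_support_iff.1 hd)).1
  have h2 : ∃ i, d (Sum.inl i) ≠ 0 := by
    by_contra h
    simp only [not_exists, not_not] at h
    rw [Finset.sum_eq_zero fun i _ => h i] at h1
    omega
  obtain ⟨i, hi⟩ := h2
  have h3 : Sum.inl i ∈ d.support := Finsupp.mem_support_iff.2 hi
  rw [Finset.prod_eq_zero h3 (by simp [hi]), mul_zero]

/-- **CHOW for `S17H_Curve`** -/
theorem S17CF_main [IsAlgClosed Ω] [DecidableEq ι] (D : S17CH_Data Ω ι ι Pl) (hμ : D.μ = 1)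
    (hk : 1 ≤ D.k)
    (M1 : ∀ c : ι → Ω, c ≠ 0 → ∀ P, ∑ j, c j * D.ev P j = 0 → P ∈ D.Z c)
    (M2 : ∀ c : ι → Ω, c ≠ 0 → c D.last = 0 → Multiset.card (D.Z c) < D.k) :
    S17C_IsBihom D.chowForm D.k D.k ∧
      (∀ c : ι → Ω, c ≠ 0 → ∃ X : ι → Ω, eval (Sum.elim c X) D.chowForm ≠ 0) ∧
      (∀ (c X : ι → Ω) (a : Ω) (w : Option Pl), a ≠ 0 → S17H_dot c (a • S17CF_evO D w) = 0 →
        S17H_dot X (a • S17CF_evO D w) = 0 → eval (Sum.elim c X) D.chowForm = 0) ∧
      (∀ c : ι → Ω, c ≠ 0 → Multiset.card (D.Z c) ≤ D.k ∧ ∃ w : Fin D.k → Option Pl,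
        Finset.univ.val.map w = S17CF_cycle D c ∧
        S17H_Fact D.chowForm c (fun i => S17CF_evO D (w i))) ∧
      (∀ X : ι → Ω, X D.last ≠ 0 → ∀ c : ι → Ω,
        eval (Sum.elim c X) D.chowForm = X D.last ^ D.k * eval c (D.G X)) := by
  classical
  have : Infinite Ω := IsAlgClosed.instInfinite
  obtain ⟨hbi, hval, hfirst⟩ := D.chowForm_spec
  set chow := D.chowForm with hchow
  rw [hμ, one_mul] at hbi hval
  have hfirst' : ∀ c : ι → Ω, c ≠ 0 → Multiset.card (D.Z c) ≤ D.k ∧ ∃ κ : Ω, κ ≠ 0 ∧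
      ∀ X : ι → Ω, eval (Sum.elim c X) chow
        = κ * ((S17CF_cycle D c).map fun w => S17H_dot X (S17CF_evO D w)).prod := by
    intro c hc
    obtain ⟨h1, κ, hκ, h2⟩ := hfirst c hc
    rw [hμ, one_mul] at h1 h2
    refine ⟨h1, κ, hκ, fun X => ?_⟩
    rw [h2 X, S17CF_prod_cycle, mul_assoc]
  have hdot_smul : ∀ (c : ι → Ω) (a : Ω) (v : ι → Ω), S17H_dot c (a • v) = a * S17H_dot c v := by
    intro c a v
    simp only [S17H_dot, Pi.smul_apply, smul_eq_mul, Finset.mul_sum]
    exact Finset.sum_congr rfl fun j _ => by ring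
  refine ⟨hbi, ?_, ?_, ?_, hval⟩
  · -- chow_ne
    intro c hc
    obtain ⟨-, κ, hκ, h2⟩ := hfirst' c hc
    by_contra hne
    simp only [not_exists, not_not] at hne
    have h3 : C κ * ((S17CF_cycle D c).map fun w => S17CH_lin (S17CF_evO D w)).prod = 0 := by
      apply MvPolynomial.funext
      intro X
      rw [map_mul, eval_C, map_multiset_prod, Multiset.map_map, map_zero, ← hne X, h2 X]
      congr 2
      refine Multiset.map_congr rfl fun w _ => ?_
      simp only [Function.comp_apply, S17CH_eval_lin]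
      rfl
    rcases mul_eq_zero.1 h3 with h4 | h4
    · exact hκ (by simpa using h4)
    · rw [Multiset.prod_eq_zero_iff] at h4
      obtain ⟨w, -, hw⟩ := Multiset.mem_map.1 h4
      exact S17CH_lin_ne_zero _ (S17CF_evO_ne_zero D w) hw
  · -- H1
    intro c X a w ha hc0 hX0
    rw [hdot_smul] at hc0 hX0
    have hc1 : S17H_dot c (S17CF_evO D w) = 0 := (mul_eq_zero.1 hc0).resolve_left ha
    have hX1 : S17H_dot X (S17CF_evO D w) = 0 := (mul_eq_zero.1 hX0).resolve_left ha
    by_cases hc : c = 0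
    · rw [hc]
      exact S17CF_eval_zero_left hk chow hbi X
    obtain ⟨-, κ, -, h2⟩ := hfirst' c hc
    rw [h2 X]
    have hmem : w ∈ S17CF_cycle D c := by
      unfold S17CF_cycle
      cases w with
      | none =>
        rw [S17CF_dot_evO_none] at hc1
        have h3 := M2 c hc hc1
        rw [Multiset.mem_add]
        right
        rw [Multiset.mem_replicate]
        exact ⟨by omega, rfl⟩
      | some P =>
        rw [Multiset.mem_add]
        left
        exact Multiset.mem_map_of_mem _ (M1 c hc P hc1)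
    rw [Multiset.prod_eq_zero (Multiset.mem_map.2 ⟨w, hmem, hX1⟩), mul_zero]
  · -- zero cycles
    intro c hc
    obtain ⟨h1, κ, hκ, h2⟩ := hfirst' c hc
    have hcard : Multiset.card (S17CF_cycle D c) = D.k := by
      unfold S17CF_cycle
      rw [Multiset.card_add, Multiset.card_map, Multiset.card_replicate]
      omega
    obtain ⟨w, hw⟩ := S17CF_list (S17CF_cycle D c) D.k hcard
    refine ⟨h1, w, hw, κ, hκ, fun X => ?_⟩
    rw [h2 X, ← hw, Multiset.map_map]
    rfl

/-- every point of the zero cycle of `c` is a zero of `c` -/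
theorem S17CF_cycle_dot [DecidableEq ι] (D : S17CH_Data Ω ι ι Pl) (hμ : D.μ = 1)
    (htop : D.top = D.last)
    (M1' : ∀ c : ι → Ω, c ≠ 0 → ∀ P, P ∈ D.Z c → ∑ j, c j * D.ev P j = 0)
    (c : ι → Ω) (hc : c ≠ 0) (w : Option Pl) (hw : w ∈ S17CF_cycle D c) :
    S17H_dot c (S17CF_evO D w) = 0 := by
  unfold S17CF_cycle at hw
  rcases Multiset.mem_add.1 hw with h | h
  · obtain ⟨P, hP, rfl⟩ := Multiset.mem_map.1 h
    exact M1' c hc P hP
  · obtain ⟨h1, rfl⟩ := Multiset.mem_replicate.1 h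
    rw [S17CF_dot_evO_none]
    by_contra h2
    have h3 := D.card_top c (by rw [htop]; exact h2)
    rw [hμ, one_mul] at h3
    omega

/-- the points of the zero cycle: `O` or a place `≠ O` -/
theorem S17CF_fact_dot [IsAlgClosed Ω] [DecidableEq ι] (D : S17CH_Data Ω ι ι Pl) (hμ : D.μ = 1)
    (htop : D.top = D.last) (hk : 1 ≤ D.k)
    (M1 : ∀ c : ι → Ω, c ≠ 0 → ∀ P, ∑ j, c j * D.ev P j = 0 → P ∈ D.Z c)
    (M1' : ∀ c : ι → Ω, c ≠ 0 → ∀ P, P ∈ D.Z c → ∑ j, c j * D.ev P j = 0)
    (M2 : ∀ c : ι → Ω, c ≠ 0 → c D.last = 0 → Multiset.card (D.Z c) < D.k)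
    (c : ι → Ω) (hc : c ≠ 0) :
    ∃ w : Fin D.k → Option Pl, Finset.univ.val.map w = S17CF_cycle D c ∧
      S17H_Fact D.chowForm c (fun i => S17CF_evO D (w i)) ∧
      ∀ i, S17H_dot c (S17CF_evO D (w i)) = 0 := by
  obtain ⟨-, w, hw, hF⟩ := (S17CF_main D hμ hk M1 M2).2.2.2.1 c hc
  refine ⟨w, hw, hF, fun i => S17CF_cycle_dot D hμ htop M1' c hc (w i) ?_⟩
  rw [← hw]
  exact Multiset.mem_map_of_mem w (Finset.mem_univ_val i)

end Fermat.Agent.S17
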