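import Fermat.Agent.S17.NGLast
import Fermat.Agent.Lib.DiffLocal

/-!
# TRACK 8 (S17), heights, (TAN) piece T1 = DER (helper24): tangent vectors of the curve

`F / K` a function field, `e : ι → F`, `I = S17NGZ_I e` the ideal of homogeneous relations of `e`,
`δ : Derivation K F F` (in the application `δ = D_t = d/dt`, `t = e il`).

* `S17TN_Dt t`      : the derivation `d/dt` of `F` (`df = (D_t f) • dt` in `Ω[F/K]`),
                      `S17TN_Dt_spec`, `S17TN_Dt_self : D_t t = 1`;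
* `S17TN_tan δ e Q` : the tangent vector `((δ e_j)(Q))_j`;
* `S17TN_aeval_dual`: `p(ev Q + ε tan Q) = p(e)(Q) + ε (δ p(e))(Q)` for every polynomial `p`
                      (`e j`, `δ (e j)` regular at `Q`);
* `S17TN_tan_mem`   : `S17H_Tan I (ev Q) (tan Q)`;
* `S17TN_wedge_ne_zero` : `ev Q ∧ tan Q ≠ 0` if `e i0 = 1`, `δ (e il) = 1`
                      (the `(i0, il)`-minor is `1`);
* `S17TN_c0_wedge`, `S17TN_s`, `S17TN_c0_s` : the value of `e_i δ e_j − e_j δ e_i` at `Q` is the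
                      `(i,j)`-minor of `(ev Q, tan Q)`; `s_T (Q) = Σ_p T_p (ev Q ∧ tan Q)_p`;
* `S17TN_exists_B`  : a finite set `B ∋ O` of places off which all `e j`, `δ (e j)` are regular;
* `S17TN_tan_ok_at`, `S17TN_tan_ok` : the field `tan_ok` of `S17H_Model` for
                      `ev = S17NGL_ev O e il` (at one place / off a finite set `B`);
* `S17TN_I_isPrime`, `S17TN_I_isRadical` : the field `I_rad` of `S17H_Curve`.
-/

set_option autoImplicit false
set_option linter.style.haveILetI false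

open AlgebraicCurve MvPolynomial WithZero KaehlerDifferential IntermediateField

namespace Fermat.Agent.S17

open Fermat.Agent.Lib

section Dt

variable {K : Type*} {F : Type*} [Field K] [Field F] [Algebra K F]

open Classical in
/-- the derivation `d/dt` of `F / K`: `df = (D_t f) • dt` (junk `0` if `dt` does not generate
`Ω[F/K]` freely). -/
noncomputable def S17TN_Dt (t : F) : Derivation K F F :=
  if h : D K F t ≠ 0 ∧ Submodule.span F {D K F t} = ⊤ then
    (((LinearEquiv.coord F Ω[F⁄K] (D K F t) h.1).toLinearMap).comp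
      (LinearEquiv.ofTop _ h.2).symm.toLinearMap).compDer (D K F)
  else 0

theorem S17TN_Dt_spec' (t : F) (h0 : D K F t ≠ 0) (hs : Submodule.span F {D K F t} = ⊤)
    (f : F) : S17TN_Dt (K := K) t f • D K F t = D K F f := by
  unfold S17TN_Dt
  rw [dif_pos ⟨h0, hs⟩]
  exact LinearEquiv.coord_apply_smul F Ω[F⁄K] (D K F t) h0
    ((LinearEquiv.ofTop _ hs).symm (D K F f))

theorem S17TN_Dt_self' (t : F) (h0 : D K F t ≠ 0) (hs : Submodule.span F {D K F t} = ⊤) :
    S17TN_Dt (K := K) t t = 1 := by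
  have h1 := S17TN_Dt_spec' t h0 hs t
  have h2 : (S17TN_Dt (K := K) t t - 1) • D K F t = 0 := by
    rw [sub_smul, h1, one_smul, sub_self]
  rcases smul_eq_zero.1 h2 with h3 | h3
  · exact sub_eq_zero.1 h3
  · exact absurd h3 h0

variable (t : F) [FiniteDimensional K⟮t⟯ F] [Algebra.IsSeparable K⟮t⟯ F]

/-- `dt ≠ 0` for a separating element `t` (a place of degree one exists). -/
theorem S17TN_D_ne_zero (v : Place K F) (hdeg : v.deg = 1) : D K F t ≠ 0 := by
  have := FD_nontrivial_kaehler (K := K) (F := F) v hdeg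
  intro h0
  have h2 := FD_span_D (K := K) t
  rw [h0, Submodule.span_zero_singleton] at h2
  exact bot_ne_top h2

/-- `df = (D_t f) • dt`. -/
theorem S17TN_Dt_spec (v : Place K F) (hdeg : v.deg = 1) (f : F) :
    S17TN_Dt (K := K) t f • D K F t = D K F f :=
  S17TN_Dt_spec' t (S17TN_D_ne_zero t v hdeg) (FD_span_D t) f

/-- `D_t t = 1`. -/
theorem S17TN_Dt_self (v : Place K F) (hdeg : v.deg = 1) : S17TN_Dt (K := K) t t = 1 :=
  S17TN_Dt_self' t (S17TN_D_ne_zero t v hdeg) (FD_span_D t)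

end Dt

section tangent

variable {K : Type} {F : Type*} [Field K] [Field F] [Algebra K F] {ι : Type}

/-- the tangent vector `((δ e_j)(Q))_j`. -/
noncomputable def S17TN_tan (δ : Derivation K F F) (e : ι → F) (Q : Place K F) : ι → K :=
  fun j => FD_c0 Q (δ (e j))

theorem S17TN_c0_algebraMap (Q : Place K F) (a : K) : FD_c0 Q (algebraMap K F a) = a :=
  FD_c0_unique Q (by rw [sub_self, map_zero]; exact zero_lt_one)

theorem S17TN_c0_zero (Q : Place K F) : FD_c0 Q (0 : F) = 0 :=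
  FD_c0_unique Q (by rw [map_zero, sub_zero, map_zero]; exact zero_lt_one)

/-- `p(ev Q + ε tan Q) = p(e)(Q) + ε (δ p(e))(Q)`. -/
theorem S17TN_aeval_dual (δ : Derivation K F F) (e : ι → F) (Q : Place K F) (hdeg : Q.deg = 1)
    (he : ∀ j, Q.adicValuation (e j) ≤ 1) (hδ : ∀ j, Q.adicValuation (δ (e j)) ≤ 1)
    (p : MvPolynomial ι K) :
    Q.adicValuation (aeval e p) ≤ 1 ∧ Q.adicValuation (δ (aeval e p)) ≤ 1 ∧
      aeval (S17H_dual (S17NGZ_ev Q e) (S17TN_tan δ e Q)) p =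
        TrivSqZeroExt.inl (FD_c0 Q (aeval e p)) +
          TrivSqZeroExt.inr (FD_c0 Q (δ (aeval e p))) := by
  induction p using MvPolynomial.induction_on with
  | C a =>
    refine ⟨?_, ?_, ?_⟩
    · rw [aeval_C]; exact Q.adicValuation_algebraMap_le_one a
    · rw [aeval_C, Derivation.map_algebraMap, map_zero]; exact zero_le_one
    · rw [aeval_C, aeval_C, Derivation.map_algebraMap, S17TN_c0_algebraMap, S17TN_c0_zero,
        TrivSqZeroExt.inr_zero, add_zero]
      rfl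
  | add p q hp hq =>
    obtain ⟨hp1, hp2, hp3⟩ := hp
    obtain ⟨hq1, hq2, hq3⟩ := hq
    refine ⟨?_, ?_, ?_⟩
    · rw [map_add]; exact (Valuation.map_add _ _ _).trans (max_le hp1 hq1)
    · rw [map_add, map_add]; exact (Valuation.map_add _ _ _).trans (max_le hp2 hq2)
    · rw [map_add, map_add, map_add, hp3, hq3, (FD_c0_add Q hdeg hp1 hq1).1,
        (FD_c0_add Q hdeg hp2 hq2).1, TrivSqZeroExt.inl_add, TrivSqZeroExt.inr_add]
      abel
  | mul_X p j hp =>
    obtain ⟨hp1, hp2, hp3⟩ := hp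
    have h1 : Q.adicValuation (aeval e p • δ (e j)) ≤ 1 := by
      rw [smul_eq_mul, map_mul]; exact mul_le_one' hp1 (hδ j)
    have h2 : Q.adicValuation (e j • δ (aeval e p)) ≤ 1 := by
      rw [smul_eq_mul, map_mul]; exact mul_le_one' (he j) hp2
    refine ⟨?_, ?_, ?_⟩
    · rw [map_mul, aeval_X, map_mul]; exact mul_le_one' hp1 (he j)
    · rw [map_mul, aeval_X, Derivation.leibniz]
      exact (Valuation.map_add _ _ _).trans (max_le h1 h2)
    · rw [map_mul, map_mul, aeval_X, aeval_X, hp3, Derivation.leibniz,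
        (FD_c0_add Q hdeg h1 h2).1, (FD_c0_mul Q hdeg hp1 (he j)).1, smul_eq_mul, smul_eq_mul,
        (FD_c0_mul Q hdeg hp1 (hδ j)).1, (FD_c0_mul Q hdeg (he j) hp2).1]
      apply TrivSqZeroExt.ext
      · simp [S17H_dual, S17NGZ_ev]
      · simp [S17H_dual, S17NGZ_ev, S17TN_tan]
        ring

/-- **(DER)**: `tan Q` is a tangent vector of `V(I)` at `ev Q`. -/
theorem S17TN_tan_mem (δ : Derivation K F F) (e : ι → F) (Q : Place K F) (hdeg : Q.deg = 1)
    (he : ∀ j, Q.adicValuation (e j) ≤ 1) (hδ : ∀ j, Q.adicValuation (δ (e j)) ≤ 1) :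
    S17H_Tan (S17NGZ_I (K := K) e) (S17NGZ_ev Q e) (S17TN_tan δ e Q) := by
  intro f hf
  have h1 : aeval (S17H_dual (S17NGZ_ev Q e) (S17TN_tan δ e Q)) f =
      ∑ n ∈ Finset.range (f.totalDegree + 1),
        aeval (S17H_dual (S17NGZ_ev Q e) (S17TN_tan δ e Q)) (homogeneousComponent n f) := by
    conv_lhs => rw [← sum_homogeneousComponent f]
    rw [map_sum]
  rw [h1]
  refine Finset.sum_eq_zero fun n _ => ?_
  have h0 := (S17NGZ_mem_I_iff e f).1 hf n
  rw [(S17TN_aeval_dual δ e Q hdeg he hδ (homogeneousComponent n f)).2.2, h0, map_zero,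
    S17TN_c0_zero, TrivSqZeroExt.inl_zero, TrivSqZeroExt.inr_zero, add_zero]

/-- the `(i0, il)`-minor of `(ev Q, tan Q)` is `1`. -/
theorem S17TN_wedge_apply (δ : Derivation K F F) (e : ι → F) (Q : Place K F) (i0 il : ι)
    (he0 : e i0 = 1) (hδl : δ (e il) = 1) :
    S17H_wedge (S17NGZ_ev Q e) (S17TN_tan δ e Q) (i0, il) = 1 := by
  simp only [S17H_wedge, S17NGZ_ev, S17TN_tan]
  rw [he0, hδl, Derivation.map_one_eq_zero, S17NGL_c0_one, S17TN_c0_zero]
  ring

theorem S17TN_wedge_ne_zero (δ : Derivation K F F) (e : ι → F) (Q : Place K F) (i0 il : ι)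
    (he0 : e i0 = 1) (hδl : δ (e il) = 1) :
    S17H_wedge (S17NGZ_ev Q e) (S17TN_tan δ e Q) ≠ 0 := by
  intro h0
  have := congrFun h0 (i0, il)
  rw [S17TN_wedge_apply δ e Q i0 il he0 hδl] at this
  exact one_ne_zero this

theorem S17TN_c0_sub (Q : Place K F) (hdeg : Q.deg = 1) {f g : F}
    (hf : Q.adicValuation f ≤ 1) (hg : Q.adicValuation g ≤ 1) :
    FD_c0 Q (f - g) = FD_c0 Q f - FD_c0 Q g := by
  have h1 : Q.adicValuation (f - g) ≤ 1 := (Valuation.map_sub _ _ _).trans (max_le hf hg)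
  have h2 := (FD_c0_add Q hdeg h1 hg).1
  rw [sub_add_cancel] at h2
  rw [h2, add_sub_cancel_right]

/-- the value of `e_i δ e_j − e_j δ e_i` at `Q` is the `(i, j)`-minor of `(ev Q, tan Q)`. -/
theorem S17TN_c0_wedge (δ : Derivation K F F) (e : ι → F) (Q : Place K F) (hdeg : Q.deg = 1)
    (he : ∀ j, Q.adicValuation (e j) ≤ 1) (hδ : ∀ j, Q.adicValuation (δ (e j)) ≤ 1) (p : ι × ι) :
    Q.adicValuation (e p.1 * δ (e p.2) - e p.2 * δ (e p.1)) ≤ 1 ∧
      FD_c0 Q (e p.1 * δ (e p.2) - e p.2 * δ (e p.1)) =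
        S17H_wedge (S17NGZ_ev Q e) (S17TN_tan δ e Q) p := by
  have h1 : Q.adicValuation (e p.1 * δ (e p.2)) ≤ 1 := by
    rw [map_mul]; exact mul_le_one' (he _) (hδ _)
  have h2 : Q.adicValuation (e p.2 * δ (e p.1)) ≤ 1 := by
    rw [map_mul]; exact mul_le_one' (he _) (hδ _)
  refine ⟨(Valuation.map_sub _ _ _).trans (max_le h1 h2), ?_⟩
  rw [S17TN_c0_sub Q hdeg h1 h2, (FD_c0_mul Q hdeg (he _) (hδ _)).1,
    (FD_c0_mul Q hdeg (he _) (hδ _)).1]
  rfl

/-- the function `s_T = Σ_p T_p (e_i δ e_j − e_j δ e_i)`, `p = (i, j)`. -/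
noncomputable def S17TN_s [Fintype ι] (δ : Derivation K F F) (e : ι → F) (T : ι × ι → K) : F :=
  ∑ p : ι × ι, T p • (e p.1 * δ (e p.2) - e p.2 * δ (e p.1))

/-- `s_T (Q) = Σ_p T_p (ev Q ∧ tan Q)_p`. -/
theorem S17TN_c0_s [Fintype ι] (δ : Derivation K F F) (e : ι → F) (Q : Place K F)
    (hdeg : Q.deg = 1) (he : ∀ j, Q.adicValuation (e j) ≤ 1)
    (hδ : ∀ j, Q.adicValuation (δ (e j)) ≤ 1) (T : ι × ι → K) :
    Q.adicValuation (S17TN_s δ e T) ≤ 1 ∧
      FD_c0 Q (S17TN_s δ e T) =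
        ∑ p : ι × ι, T p * S17H_wedge (S17NGZ_ev Q e) (S17TN_tan δ e Q) p := by
  classical
  unfold S17TN_s
  have key : ∀ s : Finset (ι × ι),
      Q.adicValuation (∑ p ∈ s, T p • (e p.1 * δ (e p.2) - e p.2 * δ (e p.1))) ≤ 1 ∧
      FD_c0 Q (∑ p ∈ s, T p • (e p.1 * δ (e p.2) - e p.2 * δ (e p.1))) =
        ∑ p ∈ s, T p * S17H_wedge (S17NGZ_ev Q e) (S17TN_tan δ e Q) p := by
    intro s
    induction s using Finset.induction_on with
    | empty =>
      simp only [Finset.sum_empty, map_zero]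
      exact ⟨zero_le_one, S17TN_c0_zero Q⟩
    | insert a s ha ih =>
      obtain ⟨h1, h2⟩ := S17TN_c0_wedge δ e Q hdeg he hδ a
      have h3 : Q.adicValuation (T a • (e a.1 * δ (e a.2) - e a.2 * δ (e a.1))) ≤ 1 := by
        rw [Algebra.smul_def, map_mul]
        exact mul_le_one' (Q.adicValuation_algebraMap_le_one _) h1
      rw [Finset.sum_insert ha, Finset.sum_insert ha]
      refine ⟨(Valuation.map_add _ _ _).trans (max_le h3 ih.1), ?_⟩
      rw [(FD_c0_add Q hdeg h3 ih.1).1, (FD_c0_smul Q hdeg (T a) h1).1, h2, ih.2]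
  exact key Finset.univ

/-- `s_T • dt = ω_T := Σ_p T_p (e_i de_j − e_j de_i)` for `δ = d/dt`. -/
theorem S17TN_s_smul_D [Fintype ι] (t : F) [FiniteDimensional K⟮t⟯ F]
    [Algebra.IsSeparable K⟮t⟯ F] (v : Place K F) (hdeg : v.deg = 1) (e : ι → F)
    (T : ι × ι → K) :
    S17TN_s (S17TN_Dt t) e T • D K F t =
      ∑ p : ι × ι, T p • (e p.1 • D K F (e p.2) - e p.2 • D K F (e p.1)) := by
  unfold S17TN_s
  rw [Finset.sum_smul]
  refine Finset.sum_congr rfl fun p _ => ?_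
  rw [smul_assoc, sub_smul, mul_smul, mul_smul, S17TN_Dt_spec t v hdeg, S17TN_Dt_spec t v hdeg]

/-- off a finite set of places, finitely many functions are regular. -/
theorem S17TN_exists_B {κ : Type*} [Finite κ] (h : RR_Hyp K F) (O : Place K F) (f : κ → F) :
    ∃ B : Finset (Place K F), O ∈ B ∧ ∀ Q, Q ∉ B → ∀ j, Q.adicValuation (f j) ≤ 1 := by
  classical
  letI := Fintype.ofFinite κ
  refine ⟨insert O (Finset.univ.biUnion fun j => (RR_div h.principal (f j)).support),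
    Finset.mem_insert_self _ _, fun Q hQ j => ?_⟩
  rw [Finset.mem_insert, not_or, Finset.mem_biUnion] at hQ
  have h1 : RR_div h.principal (f j) Q = 0 := by
    by_contra hne
    exact hQ.2 ⟨j, Finset.mem_univ j, Finsupp.mem_support_iff.2 hne⟩
  rw [RR_div_apply] at h1
  by_cases hf : f j = 0
  · rw [hf, map_zero]; exact zero_le_one
  · rw [Q.adicValuation_eq_exp_neg_ord hf, h1, neg_zero, exp_zero]

/-- `tan_ok` at a single place `Q ≠ O` at which all `δ (e j)` are regular. -/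
theorem S17TN_tan_ok_at (h : RR_Hyp K F) (O : Place K F) (δ : Derivation K F F)
    (e : ι → F) (i0 il : ι) (he0 : e i0 = 1) (hδl : δ (e il) = 1)
    (hereg : ∀ j, ∀ P : Place K F, P ≠ O → P.adicValuation (e j) ≤ 1)
    (Q : Place K F) (hQO : Q ≠ O) (hQ : ∀ j, Q.adicValuation (δ (e j)) ≤ 1) :
    S17H_Tan (S17NGZ_I (K := K) e) (S17NGL_ev O e il Q) (S17TN_tan δ e Q) ∧
      S17H_wedge (S17NGL_ev O e il Q) (S17TN_tan δ e Q) ≠ 0 := by
  rw [S17NGL_ev_of_ne O e il hQO]
  exact ⟨S17TN_tan_mem δ e Q (h.deg_one Q) (fun j => hereg j Q hQO) hQ,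
    S17TN_wedge_ne_zero δ e Q i0 il he0 hδl⟩

/-- the relation ideal is prime (kernel of a homomorphism into the domain `F[s]`). -/
theorem S17TN_I_isPrime (e : ι → F) : (S17NGZ_I (K := K) e).IsPrime :=
  RingHom.ker_isPrime _

/-- field `I_rad` of `S17H_Curve`. -/
theorem S17TN_I_isRadical (e : ι → F) : (S17NGZ_I (K := K) e).IsRadical :=
  (S17TN_I_isPrime e).isRadical

/-- **field `tan_ok` of the model**: off a finite set `B ∋ O`, `tan Q` is a tangent vector at
`ev Q`, not proportional to `ev Q`. -/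
theorem S17TN_tan_ok [Finite ι] (h : RR_Hyp K F) (O : Place K F) (δ : Derivation K F F)
    (e : ι → F) (i0 il : ι) (he0 : e i0 = 1) (hδl : δ (e il) = 1)
    (hereg : ∀ j, ∀ P : Place K F, P ≠ O → P.adicValuation (e j) ≤ 1) :
    ∃ B : Finset (Place K F), O ∈ B ∧ (∀ Q, Q ∉ B → ∀ j, Q.adicValuation (δ (e j)) ≤ 1) ∧
      ∀ Q, Q ∉ B → S17H_Tan (S17NGZ_I (K := K) e) (S17NGL_ev O e il Q) (S17TN_tan δ e Q) ∧
        S17H_wedge (S17NGL_ev O e il Q) (S17TN_tan δ e Q) ≠ 0 := by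
  obtain ⟨B, hOB, hB⟩ := S17TN_exists_B h O (fun j => δ (e j))
  refine ⟨B, hOB, hB, fun Q hQ => ?_⟩
  have hQO : Q ≠ O := fun h0 => hQ (h0 ▸ hOB)
  rw [S17NGL_ev_of_ne O e il hQO]
  exact ⟨S17TN_tan_mem δ e Q (h.deg_one Q) (fun j => hereg j Q hQO) (hB Q hQ),
    S17TN_wedge_ne_zero δ e Q i0 il he0 hδl⟩

end tangent

end Fermat.Agent.S17
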