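import Fermat.Agent.S17.HtDefs
import Fermat.Agent.S17.ChowCurve
import Fermat.Agent.S17.ChowFact
import Fermat.Agent.S17.DeccMain
import Fermat.Agent.S17.NGZero
import Fermat.Agent.S17.NormGen
import Fermat.Agent.S17.TanDer

/-!
# TRACK 8 (S17), heights pillar, package CURVE-INST (helper7): the term `X : S17H_Curve`

`F / Ω` a function field (`RR_Hyp Ω F`), `O` a place, `k ≥ 4g + 2`, `e : ι → F` a basis of
`L(kO)` with `e i0 = 1`, `e il` of exact pole order `k`, the other `e j` of pole order `≤ k - 1`.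

* `I    := S17NGZ_I e`                      (NG (d), helper24; radical by TanDer),
* `chow := (S17CC_data …).chowForm`         (ChowCurve, helper22; Chow / ChowFact, helper2),
* `psi`  from `S17DC_exists_psi`            (DECC part 1, helper19),
* `ncz`  from the hypothesis `S17CV_NczStmt` (DECC part 2, helper19): NCZ for EVERY family `psi`
  which satisfies the three properties of `S17DC_exists_psi`.

`S17CV_exists` : `∃ X : S17H_Curve Ω ι k, X.I = S17NGZ_I e ∧ X.chow = (S17CC_data …).chowForm`.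
-/

set_option autoImplicit false
set_option linter.unusedSectionVars false
set_option linter.unusedVariables false

open AlgebraicCurve WithZero MvPolynomial

namespace Fermat.Agent.S17

open Fermat.Agent.Lib

section abstract

variable {Ω : Type} [Field Ω] {ι : Type} [Fintype ι]

/-- `T̂ (a • x) = a • T̂ x`. -/
theorem S17CV_hat_smul (T : ι × ι → Ω) (a : Ω) (x : ι → Ω) :
    S17H_hat T (a • x) = a • S17H_hat T x := by
  funext j
  simp only [S17H_hat, Pi.smul_apply, smul_eq_mul, Finset.mul_sum]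
  exact Finset.sum_congr rfl fun i _ => by ring

/-- `T̂ 0 = 0`. -/
theorem S17CV_hat_zero (T : ι × ι → Ω) : S17H_hat T (0 : ι → Ω) = 0 := by
  funext j
  simp [S17H_hat]

theorem S17CV_dot_smul (c : ι → Ω) (a : Ω) (x : ι → Ω) :
    S17H_dot c (a • x) = a * S17H_dot c x := by
  simp only [S17H_dot, Pi.smul_apply, smul_eq_mul, Finset.mul_sum]
  exact Finset.sum_congr rfl fun i _ => by ring

theorem S17CV_dot_zero (c : ι → Ω) : S17H_dot c (0 : ι → Ω) = 0 := by
  simp [S17H_dot]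

/-- scaling in the right block of a bihomogeneous form. -/
theorem S17CV_eval_smul_right {p : MvPolynomial (ι ⊕ ι) Ω} {a b : ℕ} (hp : S17C_IsBihom p a b)
    (c x : ι → Ω) (t : Ω) :
    eval (Sum.elim c (t • x)) p = t ^ b * eval (Sum.elim c x) p := by
  have h := S17DC_aeval_bihom_scale (A := Ω) p a b hp c x t
  rw [aeval_eq_eval, aeval_eq_eval] at h
  exact h

/-- a bihomogeneous form of positive right degree vanishes at `x = 0`. -/
theorem S17CV_eval_zero_right {p : MvPolynomial (ι ⊕ ι) Ω} {a b : ℕ} (hp : S17C_IsBihom p a b)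
    (hb : 1 ≤ b) (c : ι → Ω) : eval (Sum.elim c (0 : ι → Ω)) p = 0 := by
  have h := S17CV_eval_smul_right hp c (0 : ι → Ω) 0
  rw [smul_zero, zero_pow (by omega), zero_mul] at h
  exact h

/-- scaling of `Ψ̃(c, x, ·)` in `x`. -/
theorem S17CV_psiT_smul {Γ : Type} [Fintype Γ] (psi : Γ → MvPolynomial (ι ⊕ ι) Ω)
    (mon : Γ → (ι × ι →₀ ℕ)) {a b : ℕ} (hpsi : ∀ γ, S17C_IsBihom (psi γ) a b)
    (c x : ι → Ω) (t : Ω) (T : ι × ι → Ω) :
    eval T (S17H_psiT psi mon c (t • x)) = t ^ b * eval T (S17H_psiT psi mon c x) := by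
  simp only [S17H_psiT, map_sum, map_mul, eval_C, Finset.mul_sum]
  refine Finset.sum_congr rfl fun γ _ => ?_
  rw [S17CV_eval_smul_right (hpsi γ) c x t]
  ring

/-- **(H2) on a cone**: if the identity `𝒞(c, T̂ y) = ⟨c, y⟩ Ψ̃(c, y, T)` holds at `y`, it holds
at every multiple of `y`. -/
theorem S17CV_h2_smul {Γ : Type} [Fintype Γ] {k : ℕ} (hk : 1 ≤ k)
    (chow : MvPolynomial (ι ⊕ ι) Ω) (hchow : S17C_IsBihom chow k k)
    (psi : Γ → MvPolynomial (ι ⊕ ι) Ω) (mon : Γ → (ι × ι →₀ ℕ))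
    (hpsi : ∀ γ, S17C_IsBihom (psi γ) (k - 1) (k - 1)) (c y : ι → Ω) (T : ι × ι → Ω)
    (hy : eval (Sum.elim c (S17H_hat T y)) chow = S17H_dot c y * eval T (S17H_psiT psi mon c y))
    (a : Ω) :
    eval (Sum.elim c (S17H_hat T (a • y))) chow =
      S17H_dot c (a • y) * eval T (S17H_psiT psi mon c (a • y)) := by
  rw [S17CV_hat_smul, S17CV_eval_smul_right hchow, hy, S17CV_dot_smul,
    S17CV_psiT_smul psi mon hpsi]
  obtain ⟨k', rfl⟩ : ∃ k', k = k' + 1 := ⟨k - 1, by omega⟩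
  rw [Nat.add_sub_cancel, pow_succ]
  ring

end abstract

section curve

variable {Ω : Type} [Field Ω] [CharZero Ω] [IsAlgClosed Ω] {F : Type} [Field F] [Algebra Ω F]
  {ι : Type} [Fintype ι] [DecidableEq ι]

/-- **the NCZ input** (DECC part 2): no common zero, for EVERY family `psi` with the three
properties which `S17DC_exists_psi` provides. -/
def S17CV_NczStmt (O : Place Ω F) (k : ℕ) (e : ι → F) (il : ι)
    (chow : MvPolynomial (ι ⊕ ι) Ω) : Prop :=
  ∀ (S : Finset (ι × ι →₀ ℕ)) (psi : ↥S → MvPolynomial (ι ⊕ ι) Ω),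
    (∀ γ, S17C_IsBihom (psi γ) (k - 1) (k - 1)) →
    (∀ P : Place Ω F, P ≠ O → ∀ (c : ι → Ω) (T : ι × ι → Ω),
      eval (Sum.elim c (S17H_hat T (fun j => FD_c0 P (e j)))) chow =
        S17H_dot c (fun j => FD_c0 P (e j)) *
          eval T (S17H_psiT psi (fun γ => (γ : ι × ι →₀ ℕ)) c (fun j => FD_c0 P (e j)))) →
    (∀ (c : ι → Ω) (T : ι × ι → Ω),
      eval (Sum.elim c (S17H_hat T (Pi.single il 1))) chow =
        S17H_dot c (Pi.single il 1) *
          eval T (S17H_psiT psi (fun γ => (γ : ι × ι →₀ ℕ)) c (Pi.single il 1))) →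
    S17H_NCZ (S17NGZ_I (K := Ω) e) psi

variable (h : RR_Hyp Ω F) (O : Place Ω F) (k : ℕ) (e : ι → F) (i0 il : ι)
  (he0 : e i0 = 1)
  (hereg : ∀ j, ∀ P : Place Ω F, P ≠ O → P.adicValuation (e j) ≤ 1)
  (hel : O.adicValuation (e il) = exp (k : ℤ))
  (helow : ∀ j, j ≠ il → O.adicValuation (e j) ≤ exp ((k : ℤ) - 1))
  (hk : 1 ≤ k)
  (hli : LinearIndependent Ω e)

/-- the Chow form of the curve. -/
noncomputable def S17CV_chow : MvPolynomial (ι ⊕ ι) Ω :=
  (S17CC_data h O k e i0 il he0 hereg hel helow hk hli).chowForm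

/-- the output of CHOW for the curve (`S17CF_main` for `S17CC_data`). -/
theorem S17CV_chow_spec :
    S17C_IsBihom (S17CV_chow h O k e i0 il he0 hereg hel helow hk hli) k k ∧
      (∀ c : ι → Ω, c ≠ 0 → ∃ X : ι → Ω,
        eval (Sum.elim c X) (S17CV_chow h O k e i0 il he0 hereg hel helow hk hli) ≠ 0) ∧
      (∀ (c X : ι → Ω) (a : Ω) (P : Place Ω F), P ≠ O → a ≠ 0 →
        S17H_dot c (a • fun j => FD_c0 P (e j)) = 0 →
        S17H_dot X (a • fun j => FD_c0 P (e j)) = 0 →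
        eval (Sum.elim c X) (S17CV_chow h O k e i0 il he0 hereg hel helow hk hli) = 0) ∧
      (∀ (c X : ι → Ω) (a : Ω), a ≠ 0 →
        S17H_dot c (a • (Pi.single il 1 : ι → Ω)) = 0 →
        S17H_dot X (a • (Pi.single il 1 : ι → Ω)) = 0 →
        eval (Sum.elim c X) (S17CV_chow h O k e i0 il he0 hereg hel helow hk hli) = 0) := by
  obtain ⟨h1, h2, h3, -, -⟩ := S17CF_main (S17CC_data h O k e i0 il he0 hereg hel helow hk hli)
    rfl hk (S17CC_data_M1 h O k e i0 il he0 hereg hel helow hk hli)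
    (S17CC_data_M2 h O k e i0 il he0 hereg hel helow hk hli)
  refine ⟨h1, h2, fun c X a P hP ha hc hX => ?_, fun c X a ha hc hX => ?_⟩
  · exact h3 c X a (some ⟨P, hP⟩) ha hc hX
  · exact h3 c X a none ha hc hX

variable (hk4 : 4 * RR_genus Ω F + 2 ≤ k)
  (hspan : Submodule.span Ω (Set.range e) = riemannRochSpace (Finsupp.single O (k : ℤ)))

include h he0 hereg hel helow hk hk4 hspan in
/-- **NG (d)** in the form used here: a nonzero point of `V(I)` is a multiple of `ev P`,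
`P ≠ O`, or of the last unit vector. -/
theorem S17CV_points (x : ι → Ω) (hx : x ≠ 0) (hxI : x ∈ S17H_V (S17NGZ_I (K := Ω) e)) :
    (∃ P : Place Ω F, P ≠ O ∧ ∃ a : Ω, a ≠ 0 ∧ x = a • fun j => FD_c0 P (e j)) ∨
      (∃ a : Ω, a ≠ 0 ∧ x = a • (Pi.single il 1 : ι → Ω)) := by
  classical
  have : Infinite Ω := IsAlgClosed.instInfinite
  have hb : ∀ n : ℕ, 1 ≤ n → ∀ f : F, (∀ P : Place Ω F, P ≠ O → P.adicValuation f ≤ 1) →
      O.adicValuation f ≤ exp ((n * k : ℕ) : ℤ) →
      ∃ p : MvPolynomial ι Ω, p.IsHomogeneous n ∧ aeval e p = f := by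
    intro n hn f hf1 hf2
    refine S17NG_main h O e k hk4 (le_of_eq hspan.symm) n hn f ?_
    refine (S17NGZ_mem_L_iff O (Finsupp.single O ((n * k : ℕ) : ℤ)) (fun P hP => ?_) f).2
      ⟨hf1, ?_⟩
    · rw [Finsupp.single_apply, if_neg (Ne.symm hP)]
    · rw [Finsupp.single_eq_same]
      exact hf2
  rcases S17NGZ_main h O k e i0 il he0 hereg hel helow hk hb x
    (S17NGZ_hV_of_mem e x hxI) hx with ⟨P, hP, a, ha, hxP⟩ | ⟨hxl, hx0⟩
  · left
    refine ⟨P, hP, a, ha, ?_⟩
    funext j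
    rw [hxP j]
    rfl
  · right
    refine ⟨x il, hxl, ?_⟩
    funext j
    by_cases hj : j = il
    · subst hj
      simp
    · rw [hx0 j hj]
      simp [hj]

include h he0 hereg hel helow hk hk4 hspan in
/-- **(H1)** for the curve. -/
theorem S17CV_h1 :
    S17H_H1 (S17NGZ_I (K := Ω) e) (S17CV_chow h O k e i0 il he0 hereg hel helow hk hli) := by
  intro c x X hxI hx hc hX
  obtain ⟨-, -, h3, h4⟩ := S17CV_chow_spec h O k e i0 il he0 hereg hel helow hk hli
  rcases S17CV_points h O k e i0 il he0 hereg hel helow hk hk4 hspan x hx hxI with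
    ⟨P, hP, a, ha, rfl⟩ | ⟨a, ha, rfl⟩
  · exact h3 c X a P hP ha hc hX
  · exact h4 c X a ha hc hX

include h he0 hereg hel helow hk hk4 hspan in
/-- **CURVE-INST**: the abstract curve data of the embedded curve, given NCZ. -/
theorem S17CV_exists
    (hncz : S17CV_NczStmt O k e il (S17CV_chow h O k e i0 il he0 hereg hel helow hk hli)) :
    ∃ X : S17H_Curve Ω ι k, X.I = S17NGZ_I (K := Ω) e ∧
      X.chow = S17CV_chow h O k e i0 il he0 hereg hel helow hk hli := by
  have : Infinite Ω := IsAlgClosed.instInfinite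
  obtain ⟨hbi, hne, h3, h4⟩ := S17CV_chow_spec h O k e i0 il he0 hereg hel helow hk hli
  have hlt : ∀ j, j ≠ il → O.adicValuation (e j) < exp (k : ℤ) := fun j hj =>
    lt_of_le_of_lt (helow j hj) (exp_lt_exp.2 (by omega))
  obtain ⟨S, psi, hpsi, hP, hO⟩ := S17DC_exists_psi h O k hk4 e hspan i0 il he0 hel
    (S17CV_chow h O k e i0 il he0 hereg hel helow hk hli) hbi
    (fun P hP c X hc hX => h3 c X 1 P hP one_ne_zero (by rwa [one_smul]) (by rwa [one_smul]))
    hlt
  refine ⟨{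
    I := S17NGZ_I (K := Ω) e
    I_hom := S17NGZ_I_homog e
    I_rad := S17TN_I_isRadical e
    chow := S17CV_chow h O k e i0 il he0 hereg hel helow hk hli
    chow_bihom := hbi
    chow_ne := hne
    h1 := S17CV_h1 h O k e i0 il he0 hereg hel helow hk hli hk4 hspan
    Γ := ↥S
    instΓ := inferInstance
    psi := psi
    mon := fun γ => (γ : ι × ι →₀ ℕ)
    mon_inj := Subtype.val_injective
    psi_bihom := hpsi
    h2 := ?_
    ncz := hncz S psi hpsi hP hO }, rfl, rfl⟩
  intro c x T hxI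
  by_cases hx : x = 0
  · subst hx
    rw [S17CV_hat_zero, S17CV_eval_zero_right hbi hk, S17CV_dot_zero, zero_mul]
  · rcases S17CV_points h O k e i0 il he0 hereg hel helow hk hk4 hspan x hx hxI with
      ⟨P, hPO, a, ha, rfl⟩ | ⟨a, ha, rfl⟩
    · exact S17CV_h2_smul hk _ hbi psi _ hpsi c _ T (hP P hPO c T) a
    · exact S17CV_h2_smul hk _ hbi psi _ hpsi c _ T (hO c T) a

end curve

end Fermat.Agent.S17
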