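import Fermat.Agent.S17.DeccNczCurve
import Fermat.Agent.S17.ChowCurve
import Fermat.Agent.S17.ChowFact

/-!
# TRACK 8 (S17), heights pillar, package DECC part 2 (helper19): (NCZ) for the Chow form of the curve

`chow := (S17CC_data h O k e i0 il he0 hereg hel helow hk hli).chowForm` (helper22's CHOW data of
the curve, `μ = 1`).

* `S17DN_data_h1`   : (H1) at the points `S17NGL_ev O e il P` (all places `P`);
* `S17DN_data_fact` : every `c ≠ 0` has a zero list `v : Fin k → Place` with `S17H_Fact` and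
  `⟨c, ev (v i)⟩ = 0`;
* `S17DN_ncz_data`  : **(NCZ)** for EVERY family `psi` with the three properties of
  `S17DC_exists_psi` (= the body of `S17CV_NczStmt` of `S17/CurveInst.lean`);
* `S17DN_data_psi`  : the family `psi` for this Chow form with `psi_bihom`, `h2`, `ncz`.
-/

set_option autoImplicit false
set_option linter.unusedSectionVars false
set_option linter.unusedVariables false
set_option linter.style.haveILetI false

open MvPolynomial AlgebraicCurve WithZero

namespace Fermat.Agent.S17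

open Fermat.Agent.Lib

section data

variable {Ω : Type} [Field Ω] [CharZero Ω] [IsAlgClosed Ω] {F : Type} [Field F] [Algebra Ω F]
  {ι : Type} [Fintype ι] [DecidableEq ι]

variable (h : RR_Hyp Ω F) (O : Place Ω F) (k : ℕ) (e : ι → F) (i0 il : ι)
  (he0 : e i0 = 1)
  (hereg : ∀ j, ∀ P : Place Ω F, P ≠ O → P.adicValuation (e j) ≤ 1)
  (hel : O.adicValuation (e il) = exp (k : ℤ))
  (helow : ∀ j, j ≠ il → O.adicValuation (e j) ≤ exp ((k : ℤ) - 1))
  (hk : 1 ≤ k)
  (hli : LinearIndependent Ω e)

/-- `none ↦ O`, `some P ↦ P`. -/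
def S17DN_pt (O : Place Ω F) : Option {P : Place Ω F // P ≠ O} → Place Ω F
  | none => O
  | some P => P.1

/-- the two spellings of the coordinate vector of a point. -/
theorem S17DN_evO_eq (o : Option {P : Place Ω F // P ≠ O}) :
    S17CF_evO (S17CC_data h O k e i0 il he0 hereg hel helow hk hli) o =
      S17NGL_ev O e il (S17DN_pt O o) := by
  cases o with
  | none => exact (S17DN_evO_single O e il).symm
  | some P => exact (S17NGL_ev_of_ne O e il P.2).symm

/-- every place is `S17DN_pt` of something. -/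
theorem S17DN_pt_surj (P : Place Ω F) : ∃ o, S17DN_pt O o = P := by
  by_cases hP : P = O
  · exact ⟨none, hP.symm⟩
  · exact ⟨some ⟨P, hP⟩, rfl⟩

/-- **(M1′)** the points of `Z c` are zeros of `c`. -/
theorem S17DN_data_M1' (c : ι → Ω) (hc : c ≠ 0) (P : {P : Place Ω F // P ≠ O})
    (hP : P ∈ (S17CC_data h O k e i0 il he0 hereg hel helow hk hli).Z c) :
    ∑ j, c j * (S17CC_data h O k e i0 il he0 hereg hel helow hk hli).ev P j = 0 := by
  classical
  have hφ := S17CC_phi_ne_zero e hli c hc
  have h1 : 0 < (S17CC_Z h O e c).count P := Multiset.count_pos.2 hP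
  rw [S17CC_Z1] at h1
  have h2 : 0 < P.1.ord (S17CC_phi e c) := by omega
  have h3 : P.1.adicValuation (S17CC_phi e c) < 1 := by
    rw [P.1.adicValuation_eq_exp_neg_ord hφ, ← exp_zero, exp_lt_exp]
    omega
  have h4 := (FD_c0_eq_zero_iff P.1 (h.deg_one P.1) (S17CC_phi_reg O e hereg c P.2)).2 h3
  rw [S17CC_c0_phi h O e hereg P.2 c] at h4
  exact h4

/-- **(H1)** at the points of the curve, for the Chow form of the curve. -/
theorem S17DN_data_h1 (P : Place Ω F) (c X : ι → Ω)
    (hc : S17H_dot c (S17NGL_ev O e il P) = 0) (hX : S17H_dot X (S17NGL_ev O e il P) = 0) :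
    eval (Sum.elim c X) (S17CC_data h O k e i0 il he0 hereg hel helow hk hli).chowForm = 0 := by
  obtain ⟨o, rfl⟩ := S17DN_pt_surj O P
  rw [← S17DN_evO_eq h O k e i0 il he0 hereg hel helow hk hli o] at hc hX
  have hmain := (S17CF_main (S17CC_data h O k e i0 il he0 hereg hel helow hk hli) rfl hk
    (S17CC_data_M1 h O k e i0 il he0 hereg hel helow hk hli)
    (S17CC_data_M2 h O k e i0 il he0 hereg hel helow hk hli)).2.2.1
  exact hmain c X 1 o one_ne_zero (by rw [one_smul]; exact hc) (by rw [one_smul]; exact hX)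

/-- zero lists, in terms of places. -/
theorem S17DN_data_fact (c : ι → Ω) (hc : c ≠ 0) :
    ∃ v : Fin k → Place Ω F,
      S17H_Fact (S17CC_data h O k e i0 il he0 hereg hel helow hk hli).chowForm c
        (fun i => S17NGL_ev O e il (v i)) ∧
      ∀ i, S17H_dot c (S17NGL_ev O e il (v i)) = 0 := by
  obtain ⟨w, -, hF, hdot⟩ := S17CF_fact_dot
    (S17CC_data h O k e i0 il he0 hereg hel helow hk hli) rfl rfl hk
    (S17CC_data_M1 h O k e i0 il he0 hereg hel helow hk hli)
    (S17DN_data_M1' h O k e i0 il he0 hereg hel helow hk hli)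
    (S17CC_data_M2 h O k e i0 il he0 hereg hel helow hk hli) c hc
  refine ⟨fun i => S17DN_pt O (w i), ?_, fun i => ?_⟩
  · obtain ⟨κ, hκ, hFX⟩ := hF
    refine ⟨κ, hκ, fun X => ?_⟩
    rw [hFX X]
    congr 1
    refine Finset.prod_congr rfl fun i _ => ?_
    show S17H_dot X (S17CF_evO (S17CC_data h O k e i0 il he0 hereg hel helow hk hli) (w i)) =
      S17H_dot X (S17NGL_ev O e il (S17DN_pt O (w i)))
    rw [S17DN_evO_eq h O k e i0 il he0 hereg hel helow hk hli (w i)]
  · rw [← S17DN_evO_eq h O k e i0 il he0 hereg hel helow hk hli (w i)]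
    exact hdot i

/-- the Chow form of the curve is bihomogeneous of bidegree `(k, k)`. -/
theorem S17DN_data_bihom :
    S17C_IsBihom (S17CC_data h O k e i0 il he0 hereg hel helow hk hli).chowForm k k :=
  (S17CF_main (S17CC_data h O k e i0 il he0 hereg hel helow hk hli) rfl hk
    (S17CC_data_M1 h O k e i0 il he0 hereg hel helow hk hli)
    (S17CC_data_M2 h O k e i0 il he0 hereg hel helow hk hli)).1

/-- **(NCZ)** for every family `psi` with the three properties of `S17DC_exists_psi`, for the Chow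
form of the curve. -/
theorem S17DN_ncz_data [Algebra.IsAlgebraic ℚ Ω]
    (hspan : Submodule.span Ω (Set.range e) = riemannRochSpace (Finsupp.single O (k : ℤ)))
    (hk4 : 4 * RR_genus Ω F + 2 ≤ k)
    (S : Finset (ι × ι →₀ ℕ)) (psi : ↥S → MvPolynomial (ι ⊕ ι) Ω)
    (hpsi : ∀ γ, S17C_IsBihom (psi γ) (k - 1) (k - 1))
    (hP : ∀ P : Place Ω F, P ≠ O → ∀ (c : ι → Ω) (T : ι × ι → Ω),
      eval (Sum.elim c (S17H_hat T (fun j => FD_c0 P (e j))))
          (S17CC_data h O k e i0 il he0 hereg hel helow hk hli).chowForm =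
        S17H_dot c (fun j => FD_c0 P (e j)) *
          eval T (S17H_psiT psi (fun γ => (γ : ι × ι →₀ ℕ)) c (fun j => FD_c0 P (e j))))
    (hO : ∀ (c : ι → Ω) (T : ι × ι → Ω),
      eval (Sum.elim c (S17H_hat T (Pi.single il 1)))
          (S17CC_data h O k e i0 il he0 hereg hel helow hk hli).chowForm =
        S17H_dot c (Pi.single il 1) *
          eval T (S17H_psiT psi (fun γ => (γ : ι × ι →₀ ℕ)) c (Pi.single il 1))) :
    S17H_NCZ (S17NGZ_I (K := Ω) e) psi := by
  have h2 : ∀ (P : Place Ω F) (c : ι → Ω) (T : ι × ι → Ω),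
      eval (Sum.elim c (S17H_hat T (S17NGL_ev O e il P)))
          (S17CC_data h O k e i0 il he0 hereg hel helow hk hli).chowForm =
        S17H_dot c (S17NGL_ev O e il P) *
          eval T (S17H_psiT psi (fun γ => (γ : ι × ι →₀ ℕ)) c (S17NGL_ev O e il P)) := by
    intro P c T
    by_cases hPO : P = O
    · rw [hPO, S17DN_evO_single O e il]
      exact hO c T
    · rw [S17NGL_ev_of_ne O e il hPO]
      exact hP P hPO c T
  exact S17DN_ncz_curve h O k e i0 il hspan hli he0 hel helow hk4 _
    (S17DN_data_bihom h O k e i0 il he0 hereg hel helow hk hli) psi _ hpsi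
    (S17DN_data_h1 h O k e i0 il he0 hereg hel helow hk hli) h2
    (S17DN_data_fact h O k e i0 il he0 hereg hel helow hk hli)

/-- **DECC for the Chow form of the curve, complete.** -/
theorem S17DN_data_psi [Algebra.IsAlgebraic ℚ Ω]
    (hspan : Submodule.span Ω (Set.range e) = riemannRochSpace (Finsupp.single O (k : ℤ)))
    (hk4 : 4 * RR_genus Ω F + 2 ≤ k) :
    ∃ (S : Finset (ι × ι →₀ ℕ)) (psi : ↥S → MvPolynomial (ι ⊕ ι) Ω),
      (∀ γ, S17C_IsBihom (psi γ) (k - 1) (k - 1)) ∧
      S17H_H2 (S17NGZ_I (K := Ω) e)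
        (S17CC_data h O k e i0 il he0 hereg hel helow hk hli).chowForm psi
        (fun γ => (γ : ι × ι →₀ ℕ)) ∧
      S17H_NCZ (S17NGZ_I (K := Ω) e) psi :=
  S17DN_curve_psi h O k e i0 il hspan hli he0 hel helow hk4 _
    (S17DN_data_bihom h O k e i0 il he0 hereg hel helow hk hli)
    (S17DN_data_h1 h O k e i0 il he0 hereg hel helow hk hli)
    (S17DN_data_fact h O k e i0 il he0 hereg hel helow hk hli)

end data

end Fermat.Agent.S17
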