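import Fermat.Agent.S17.CurveInst
import Fermat.Agent.S17.DeccNczData

/-!
# TRACK 8 (S17), heights pillar: CURVE-INST closed (helper19)

* `S17DN_nczStmt` : the NCZ input `S17CV_NczStmt` of `S17CV_exists` (helper7), for the Chow form
  `S17CV_chow` of the curve;
* `S17DN_curve_exists` : the abstract curve data `X : S17H_Curve Ω ι k` of the embedded curve,
  unconditionally (`X.I = S17NGZ_I e`, `X.chow = S17CV_chow …`).
-/

set_option autoImplicit false
set_option linter.unusedSectionVars false
set_option linter.unusedVariables false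

open MvPolynomial AlgebraicCurve WithZero

namespace Fermat.Agent.S17

open Fermat.Agent.Lib

section closed

variable {Ω : Type} [Field Ω] [CharZero Ω] [IsAlgClosed Ω] [Algebra.IsAlgebraic ℚ Ω]
  {F : Type} [Field F] [Algebra Ω F] {ι : Type} [Fintype ι] [DecidableEq ι]

variable (h : RR_Hyp Ω F) (O : Place Ω F) (k : ℕ) (e : ι → F) (i0 il : ι)
  (he0 : e i0 = 1)
  (hereg : ∀ j, ∀ P : Place Ω F, P ≠ O → P.adicValuation (e j) ≤ 1)
  (hel : O.adicValuation (e il) = exp (k : ℤ))
  (helow : ∀ j, j ≠ il → O.adicValuation (e j) ≤ exp ((k : ℤ) - 1))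
  (hk : 1 ≤ k)
  (hli : LinearIndependent Ω e)
  (hk4 : 4 * RR_genus Ω F + 2 ≤ k)
  (hspan : Submodule.span Ω (Set.range e) = riemannRochSpace (Finsupp.single O (k : ℤ)))

include hk4 hspan in
/-- **(NCZ)**: the NCZ input of CURVE-INST. -/
theorem S17DN_nczStmt :
    S17CV_NczStmt O k e il (S17CV_chow h O k e i0 il he0 hereg hel helow hk hli) :=
  fun S psi hpsi hP hO =>
    S17DN_ncz_data h O k e i0 il he0 hereg hel helow hk hli hspan hk4 S psi hpsi hP hO

include hk4 hspan in
/-- **CURVE-INST, unconditional**: the abstract curve data of the embedded curve. -/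
theorem S17DN_curve_exists :
    ∃ X : S17H_Curve Ω ι k, X.I = S17NGZ_I (K := Ω) e ∧
      X.chow = S17CV_chow h O k e i0 il he0 hereg hel helow hk hli :=
  S17CV_exists h O k e i0 il he0 hereg hel helow hk hli hk4 hspan
    (S17DN_nczStmt h O k e i0 il he0 hereg hel helow hk hli hk4 hspan)

end closed

end Fermat.Agent.S17
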