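import Fermat.Agent.S17.Ord
import Fermat.Agent.Lib.DiffExpand

/-!
# TRACK 8 (S17), pillar DIV, package ORD (helper24), part 2: the place form

`P` a place of degree `1` of `F / K` (char `0`), `x, y ∈ O_P` with `Φ(x, y) = 0`,
`a = x(P)`, `b = y(P)`, `x − a` a uniformizer at `P`, `Φ_Y(a, b) ≠ 0`.  Then for `h ∈ K[X, Y]`

  `ord_P h(x, y) ≥ n  ↔  ∀ j < n, (D^j h)(a, b) = 0`,   `D h = h_X Φ_Y − h_Y Φ_X`.
-/

set_option autoImplicit false

open AlgebraicCurve MvPolynomial PowerSeries WithZero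

namespace Fermat.Agent.S17

open Fermat.Agent.Lib

variable {K F : Type*} [Field K] [Field F] [Algebra K F]

/-- divisibility of the expansion by `T^n` is the order condition at the place. -/
theorem S17OR_X_pow_dvd_exp_iff (P : Place K F) (hdeg : P.deg = 1) {f : F}
    (hf : P.adicValuation f ≤ 1) (n : ℕ) :
    (X : K⟦X⟧) ^ n ∣ FD_exp P f ↔ P.adicValuation f ≤ exp (-(n : ℤ)) := by
  rw [P.adicValuation_le_exp_iff, neg_neg]
  rcases eq_or_ne f 0 with rfl | hf0
  · simp [FD_exp_zero]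
  · have hord : 0 ≤ P.ord f := by
      rcases P.adicValuation_le_one_iff.1 hf with h | h
      · exact absurd h hf0
      · exact h
    obtain ⟨m, hm⟩ := Int.eq_ofNat_of_zero_le hord
    have ho := FD_order P hdeg m hf hf0 hm
    rw [or_iff_right hf0, hm, Nat.cast_le, X_pow_dvd_iff]
    constructor
    · intro h
      by_contra hlt
      rw [not_le] at hlt
      have h1 := h m hlt
      exact (PowerSeries.order_eq_nat.1 ho).1 h1
    · intro h k hk
      apply PowerSeries.coeff_of_lt_order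
      rw [ho]
      exact_mod_cast lt_of_lt_of_le hk h

section place

variable (P : Place K F) (hdeg : P.deg = 1) {x y : F}
  (hx : x ∈ P.toValuationSubring) (hy : y ∈ P.toValuationSubring)

include hx hy in
/-- `h(x, y)` is the coercion of `h(x, y)` computed in `O_P`. -/
theorem S17OR_ev_coe (h : MvPolynomial (Fin 2) K) :
    ((aeval ![(⟨x, hx⟩ : P.toValuationSubring), ⟨y, hy⟩] h : P.toValuationSubring) : F) =
      aeval ![x, y] h := by
  have h2 := DFunLike.congr_fun (MvPolynomial.comp_aeval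
    (f := ![(⟨x, hx⟩ : P.toValuationSubring), ⟨y, hy⟩])
    (IsScalarTower.toAlgHom K P.toValuationSubring F)) h
  rw [AlgHom.comp_apply] at h2
  have h3 : (fun i => (IsScalarTower.toAlgHom K P.toValuationSubring F)
      (![(⟨x, hx⟩ : P.toValuationSubring), ⟨y, hy⟩] i)) = ![x, y] := by
    funext i
    fin_cases i <;> rfl
  rw [h3] at h2
  exact h2

include hx hy in
/-- `h(x, y) ∈ O_P`. -/
theorem S17OR_ev_mem (h : MvPolynomial (Fin 2) K) : aeval ![x, y] h ∈ P.toValuationSubring := by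
  rw [← S17OR_ev_coe P hx hy h]
  exact Subtype.property _

include hdeg hx hy in
/-- the expansion of `h(x, y)` is `h(ξ, η)`. -/
theorem S17OR_exp_ev (h : MvPolynomial (Fin 2) K) :
    FD_exp P (aeval ![x, y] h) = S17OR_ev (FD_exp P x) (FD_exp P y) h := by
  have h2 := DFunLike.congr_fun (MvPolynomial.comp_aeval
    (f := ![(⟨x, hx⟩ : P.toValuationSubring), ⟨y, hy⟩]) (FD_expHom P hdeg)) h
  rw [AlgHom.comp_apply, FD_expHom_apply, S17OR_ev_coe P hx hy h] at h2
  have h3 : (fun i => (FD_expHom P hdeg) (![(⟨x, hx⟩ : P.toValuationSubring), ⟨y, hy⟩] i)) =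
      ![FD_exp P x, FD_exp P y] := by
    funext i
    fin_cases i <;> rfl
  rw [h3] at h2
  exact h2

variable [CharZero K]

include hdeg hx hy in
/-- **ORD, place form**: at a place `P` of degree `1` where `x − x(P)` is a uniformizer and
`Φ_Y(x(P), y(P)) ≠ 0`: `ord_P h(x, y) ≥ n ↔ (D^j h)(x(P), y(P)) = 0` for all `j < n`. -/
theorem S17OR_place (Φ : MvPolynomial (Fin 2) K) (hΦ : aeval ![x, y] Φ = 0)
    (hux : P.ord (x - algebraMap K F (FD_c0 P x)) = 1)
    (hY : MvPolynomial.eval ![FD_c0 P x, FD_c0 P y] (pderiv 1 Φ) ≠ 0)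
    (n : ℕ) (h : MvPolynomial (Fin 2) K) :
    P.adicValuation (aeval ![x, y] h) ≤ exp (-(n : ℤ)) ↔
      ∀ j < n, MvPolynomial.eval ![FD_c0 P x, FD_c0 P y] ((S17OR_D Φ)^[j] h) = 0 := by
  have hvx := P.adicValuation_le_one_of_mem hx
  have hΦ' : S17OR_ev (FD_exp P x) (FD_exp P y) Φ = 0 := by
    rw [← S17OR_exp_ev P hdeg hx hy, hΦ, FD_exp_zero]
  have hc : x - algebraMap K F (FD_c0 P x) ∈ P.toValuationSubring :=
    sub_mem hx (P.algebraMap_mem' _)
  have hξ : coeff 1 (FD_exp P x) ≠ 0 := by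
    have h0 : x - algebraMap K F (FD_c0 P x) ≠ 0 := by
      intro h0
      rw [h0, Place.ord_zero] at hux
      exact zero_ne_one hux
    have ho := FD_order P hdeg 1 (P.adicValuation_le_one_of_mem hc) h0 (by simpa using hux)
    have h1 := (PowerSeries.order_eq_nat.1 ho).1
    have h2 : FD_exp P x =
        FD_exp P (x - algebraMap K F (FD_c0 P x)) + PowerSeries.C (FD_c0 P x) := by
      rw [← FD_exp_algebraMap P (FD_c0 P x),
        ← FD_exp_add P hdeg (P.adicValuation_le_one_of_mem hc)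
          (P.adicValuation_algebraMap_le_one _), sub_add_cancel]
    rw [h2, map_add, PowerSeries.coeff_C]
    simpa using h1
  rw [← S17OR_X_pow_dvd_exp_iff P hdeg
      (P.adicValuation_le_one_of_mem (S17OR_ev_mem P hx hy h)) n,
    S17OR_exp_ev P hdeg hx hy, S17OR_dvd_iff Φ _ _ hΦ' (by
      rwa [FD_constantCoeff, FD_constantCoeff]) hξ n h, FD_constantCoeff, FD_constantCoeff]

include hdeg hx hy in
/-- the same with given values `a = x(P)`, `b = y(P)` and in terms of `ord`. -/
theorem S17OR_place' (Φ : MvPolynomial (Fin 2) K) (hΦ : aeval ![x, y] Φ = 0) (a b : K)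
    (hux : P.ord (x - algebraMap K F a) = 1)
    (hb : P.adicValuation (y - algebraMap K F b) < 1)
    (hY : MvPolynomial.eval ![a, b] (pderiv 1 Φ) ≠ 0)
    (n : ℕ) (h : MvPolynomial (Fin 2) K) :
    (aeval ![x, y] h = 0 ∨ (n : ℤ) ≤ P.ord (aeval ![x, y] h)) ↔
      ∀ j < n, MvPolynomial.eval ![a, b] ((S17OR_D Φ)^[j] h) = 0 := by
  have h0 : x - algebraMap K F a ≠ 0 := by
    intro h0
    rw [h0, Place.ord_zero] at hux
    exact zero_ne_one hux
  have ha : P.adicValuation (x - algebraMap K F a) < 1 := by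
    rw [P.adicValuation_eq_exp_neg_ord h0, hux, ← exp_zero, exp_lt_exp]
    norm_num
  have hca : FD_c0 P x = a := FD_c0_unique P ha
  have hcb : FD_c0 P y = b := FD_c0_unique P hb
  have := S17OR_place P hdeg hx hy Φ hΦ (by rw [hca]; exact hux) (by rw [hca, hcb]; exact hY) n h
  rw [hca, hcb] at this
  rw [← this, P.adicValuation_le_exp_iff, neg_neg]

end place

end Fermat.Agent.S17
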