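import Fermat.Agent.S17.DivDefs
import Fermat.Agent.S17.OrdPlace

/-!
# TRACK 8 (S17), pillar DIV, package ORD (helper24), part 3: the interface statement `S17OR_iff`

`ord_P h(x, y) ≥ m ↔ (D^j h)(a, b) = 0` for all `j < m`, at a place `P` centred at a good point
`(a, b)` of a plane model (`NOTES/items/16_DIV_iface.md`).
-/

set_option autoImplicit false

open AlgebraicCurve MvPolynomial IntermediateField WithZero

namespace Fermat.Agent.S17

open Fermat.Agent.Lib

variable {K F : Type*} [Field K] [Field F] [Algebra K F]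

/-- the designer's derivation `S17D_Der Φ` is `h ↦ h_X Φ_Y − h_Y Φ_X`. -/
theorem S17OR_Der_apply (Φ h : MvPolynomial (Fin 2) K) :
    S17D_Der Φ h = pderiv 0 h * pderiv 1 Φ - pderiv 1 h * pderiv 0 Φ := by
  induction h using MvPolynomial.induction_on with
  | C a => simp [S17D_Der]
  | add p q hp hq =>
    rw [map_add, hp, hq, map_add, map_add]
    ring
  | mul_X p i hp =>
    rw [Derivation.leibniz, hp, Derivation.leibniz, Derivation.leibniz, S17D_Der,
      mkDerivation_X]
    fin_cases i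
    · simp [pderiv_X]
      ring
    · simp [pderiv_X]
      ring

theorem S17OR_Der_eq (Φ : MvPolynomial (Fin 2) K) :
    (⇑(S17D_Der Φ) : MvPolynomial (Fin 2) K → MvPolynomial (Fin 2) K) = ⇑(S17OR_D Φ) := by
  funext h
  rw [S17OR_Der_apply, S17OR_D_apply]

/-- a place centred at `(a, b)` contains `x` and `y`. -/
theorem S17OR_At_mem {x y : F} {P : Place K F} {a b : K} (hP : S17D_At x y P a b) :
    x ∈ P.toValuationSubring ∧ y ∈ P.toValuationSubring := by
  have h1 : ∀ {z : F} {c : K}, P.adicValuation (z - algebraMap K F c) < 1 →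
      z ∈ P.toValuationSubring := by
    intro z c hz
    have h2 : z - algebraMap K F c ∈ P.toValuationSubring :=
      (Fermat.Agent.S24.BL_adicValuation_le_one_iff P _).1 hz.le
    have := add_mem h2 (P.algebraMap_mem' c)
    rwa [sub_add_cancel] at this
  exact ⟨h1 hP.1, h1 hP.2⟩

/-- a place of degree one centred at `(a, b)`: `Φ(x, y) = 0 ⇒ Φ(a, b) = 0`. -/
theorem S17OR_At_eval (P : Place K F) (hdeg : P.deg = 1) {x y : F} {a b : K}
    (hP : S17D_At x y P a b) (h : MvPolynomial (Fin 2) K) (h0 : aeval ![x, y] h = 0) :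
    eval ![a, b] h = 0 := by
  obtain ⟨hx, hy⟩ := S17OR_At_mem hP
  have hca : FD_c0 P x = a := FD_c0_unique P hP.1
  have hcb : FD_c0 P y = b := FD_c0_unique P hP.2
  have h1 := S17OR_exp_ev P hdeg hx hy h
  rw [h0, FD_exp_zero] at h1
  have h2 := S17OR_constantCoeff_ev h (FD_exp P x) (FD_exp P y)
  rw [← h1, map_zero, FD_constantCoeff, FD_constantCoeff, hca, hcb] at h2
  exact h2.symm

/-- **ORD** (interface statement). -/
theorem S17OR_iff [IsAlgClosed K] [CharZero K] (h : RR_Hyp K F) (M : S17D_Model K F)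
    (P : Place K F) (a b : K) (ha : M.δ.eval a ≠ 0) (hP : S17D_At M.x M.y P a b)
    (f : MvPolynomial (Fin 2) K) (m : ℕ) :
    P.adicValuation (aeval ![M.x, M.y] f) ≤ exp (-(m : ℤ)) ↔
      ∀ j < m, eval ![a, b] ((S17D_Der M.Φ)^[j] f) = 0 := by
  obtain ⟨hx, hy⟩ := S17OR_At_mem hP
  have hdeg := h.deg_one P
  have hΦab : eval ![a, b] M.Φ = 0 := S17OR_At_eval P hdeg hP M.Φ M.hΦ
  have h1 := S17OR_place' P hdeg hx hy M.Φ M.hΦ a b (M.unram a P ha hP.1) hP.2
    (M.smooth a b ha hΦab) m f
  rw [P.adicValuation_le_exp_iff, neg_neg, h1, S17OR_Der_eq]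

end Fermat.Agent.S17
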