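import Mathlib
import Fermat.Prelude.Def_AlgebraicCurve_DivisorClassGroup
import Fermat.Agent.Lib.RiemannBasic

/-!
# TRACK 8 (S17), DIV package P7 "SPEC": specialisation of algebraic elements at almost all places

`K` an algebraically closed field, `F / K` a field extension with principal divisors
(`HasPrincipalDivisors`), all of whose places have degree one, `L / F` an algebraic field
extension.  For finitely many `y i : L` there is a finite set `T` of places of `F` such that for
every place `P ∉ T` all `y i` are integral over `O_P`, and there is a ring homomorphism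
`ρ` from the integral closure of `O_P` in `L` to `K` which restricts to the residue map
("evaluation at `P`") on `O_P`.

* `S17SP_finite_bad`, `S17SP_finite_bad_finset`: an element (finitely many elements) of `F`
  lies in `O_P` for all but finitely many `P`.
* `S17SP_isIntegral_of_coeffs`: `y` is integral over `O_P` if the coefficients of its minimal
  polynomial lie in `O_P`.
* `S17SP_exists_rho`: the specialisation homomorphism (no finiteness needed here).
* `S17SP_rho_const`: `ρ` is the identity on constants.
* `S17SP_spec_closure`: main statement with `C` = integral closure of `O_P` in `L`.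
* `S17SP_spec`: the same with an abstract subring `C` of `L`.
-/

set_option autoImplicit false

open AlgebraicCurve Polynomial

namespace Fermat.Agent.S17

variable {K F L : Type*} [Field K] [Field F] [Algebra K F] [Field L] [Algebra F L]

/-- an element of `F` lies in `O_P` for all but finitely many places `P`. -/
theorem S17SP_finite_bad (hP : HasPrincipalDivisors K F) (f : F) :
    ∃ T : Finset (Place K F), ∀ P : Place K F, P ∉ T → f ∈ P.toValuationSubring := by
  by_cases hf : f = 0
  · exact ⟨∅, fun P _ => hf ▸ P.toValuationSubring.zero_mem⟩
  · obtain ⟨D, hD, -⟩ := hP.exists_divisor f hf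
    refine ⟨D.support, fun P hPT => ?_⟩
    have h0 : P.ord f = 0 := by
      rw [← hD P]
      exact Finsupp.notMem_support_iff.1 hPT
    apply (S24.BL_adicValuation_le_one_iff P f).1
    rw [P.adicValuation_eq_exp_neg_ord hf, h0]
    simp

/-- finitely many elements of `F` lie in `O_P` for all but finitely many places `P`. -/
theorem S17SP_finite_bad_finset (hP : HasPrincipalDivisors K F) (S : Finset F) :
    ∃ T : Finset (Place K F), ∀ P : Place K F, P ∉ T → ∀ f ∈ S, f ∈ P.toValuationSubring := by
  classical
  choose T hT using S17SP_finite_bad (K := K) hP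
  exact ⟨S.biUnion T, fun P hPT f hf => hT f P fun h => hPT (Finset.mem_biUnion.2 ⟨f, hf, h⟩)⟩

/-- `y` is integral over `O_P` as soon as the coefficients of its minimal polynomial over `F`
lie in `O_P`. -/
theorem S17SP_isIntegral_of_coeffs (P : Place K F) (y : L) (hy : IsIntegral F y)
    (hc : ∀ f ∈ (minpoly F y).coeffs, f ∈ P.toValuationSubring) :
    IsIntegral P.toValuationSubring y := by
  have hl : minpoly F y ∈ Polynomial.lifts (algebraMap P.toValuationSubring F) := by
    rw [Polynomial.lifts_iff_coeff_lifts]
    intro n
    by_cases h0 : (minpoly F y).coeff n = 0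
    · exact ⟨0, by rw [h0, map_zero]⟩
    · exact ⟨⟨_, hc _ (Polynomial.coeff_mem_coeffs h0)⟩, rfl⟩
  obtain ⟨q, hq, -, hqm⟩ := Polynomial.lifts_and_degree_eq_and_monic hl (minpoly.monic hy)
  refine ⟨q, hqm, ?_⟩
  have h1 : (algebraMap P.toValuationSubring L) =
      (algebraMap F L).comp (algebraMap P.toValuationSubring F) := rfl
  rw [h1, ← Polynomial.eval₂_map, hq]
  exact minpoly.aeval F y

/-- The specialisation homomorphism at a place of degree one: a ring homomorphism from the
integral closure of `O_P` in `L` to `K` which is the residue map on `O_P`. -/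
theorem S17SP_exists_rho [IsAlgClosed K] (P : Place K F) (hdeg : P.deg = 1) :
    ∃ ρ : integralClosure P.toValuationSubring L →+* K,
      ∀ a : P.toValuationSubring,
        P.adicValuation ((a : F) - algebraMap K F
          (ρ (algebraMap P.toValuationSubring (integralClosure P.toValuationSubring L) a))) < 1 := by
  have hinj : Function.Injective
      (algebraMap P.toValuationSubring (integralClosure P.toValuationSubring L)) := by
    intro a b hab
    have h2 : algebraMap F L (a : F) = algebraMap F L (b : F) := congrArg Subtype.val hab
    exact Subtype.ext ((algebraMap F L).injective h2)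
  obtain ⟨Q, hQmax, hQ⟩ := Ideal.exists_ideal_over_maximal_of_isIntegral
    (S := integralClosure P.toValuationSubring L)
    (IsLocalRing.maximalIdeal P.toValuationSubring)
    (by rw [(RingHom.injective_iff_ker_eq_bot _).1 hinj]; exact bot_le)
  let ψ : K →+* (integralClosure P.toValuationSubring L) ⧸ Q :=
    (Ideal.Quotient.mk Q).comp
      ((algebraMap P.toValuationSubring (integralClosure P.toValuationSubring L)).comp
        (algebraMap K P.toValuationSubring))
  -- every element of `O_P` is congruent to a constant
  have key : ∀ a : P.toValuationSubring, ∀ c : K, P.adicValuation ((a : F) - algebraMap K F c) < 1 →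
      Ideal.Quotient.mk Q (algebraMap P.toValuationSubring _ a) = ψ c := by
    intro a c hc
    have hmem : a - algebraMap K P.toValuationSubring c ∈
        IsLocalRing.maximalIdeal P.toValuationSubring := by
      rw [← Lib.RR_val_lt_one_iff]
      simpa using hc
    rw [← hQ, Ideal.mem_comap, map_sub] at hmem
    have := Ideal.Quotient.eq_zero_iff_mem.2 hmem
    rw [map_sub, sub_eq_zero] at this
    exact this
  have key' : ∀ a : P.toValuationSubring, ∃ c : K,
      P.adicValuation ((a : F) - algebraMap K F c) < 1 := fun a =>
    Lib.RR_exists_const P hdeg ((S24.BL_adicValuation_le_one_iff P _).2 a.2)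
  have hψ : ψ.IsIntegral := by
    intro x
    obtain ⟨c, rfl⟩ := Ideal.Quotient.mk_surjective x
    have hc : IsIntegral P.toValuationSubring c := Algebra.IsIntegral.isIntegral c
    obtain ⟨p, hpm, hp⟩ := hc
    have hl : p.map ((Ideal.Quotient.mk Q).comp
        (algebraMap P.toValuationSubring (integralClosure P.toValuationSubring L))) ∈
        Polynomial.lifts ψ := by
      rw [Polynomial.lifts_iff_coeff_lifts]
      intro n
      obtain ⟨k, hk⟩ := key' (p.coeff n)
      exact ⟨k, by rw [Polynomial.coeff_map]; exact (key _ _ hk).symm⟩
    obtain ⟨q, hq, -, hqm⟩ := Polynomial.lifts_and_degree_eq_and_monic hl (hpm.map _)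
    refine ⟨q, hqm, ?_⟩
    rw [← Polynomial.eval_map, hq, Polynomial.eval_map, ← Polynomial.hom_eval₂, hp, map_zero]
  have hbij := IsAlgClosed.ringHom_bijective_of_isIntegral ψ hψ
  let e : K ≃+* (integralClosure P.toValuationSubring L) ⧸ Q := RingEquiv.ofBijective ψ hbij
  refine ⟨(e.symm : _ →+* K).comp (Ideal.Quotient.mk Q), fun a => ?_⟩
  obtain ⟨c, hc⟩ := key' a
  have h3 : ((e.symm : _ →+* K).comp (Ideal.Quotient.mk Q))
      (algebraMap P.toValuationSubring (integralClosure P.toValuationSubring L) a) = c := by
    rw [RingHom.comp_apply, key a c hc]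
    exact e.symm_apply_apply c
  rw [h3]
  exact hc

/-- a constant of valuation `< 1` is zero. -/
theorem S17SP_const_eq_zero (P : Place K F) {c : K}
    (h : P.adicValuation (algebraMap K F c) < 1) : c = 0 := by
  by_contra hc
  have h0 : algebraMap K F c ≠ 0 := by rwa [Ne, map_eq_zero]
  rw [P.adicValuation_eq_exp_neg_ord h0, S24.BL_ord_algebraMap, neg_zero, WithZero.exp_zero] at h
  exact lt_irrefl _ h

/-- the residue in `K` of an element at a place is unique. -/
theorem S17SP_residue_unique (P : Place K F) {z : F} {c c' : K}
    (h : P.adicValuation (z - algebraMap K F c) < 1)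
    (h' : P.adicValuation (z - algebraMap K F c') < 1) : c = c' := by
  have h1 : P.adicValuation (algebraMap K F (c' - c)) < 1 := by
    have : algebraMap K F (c' - c) = (z - algebraMap K F c) - (z - algebraMap K F c') := by
      rw [map_sub]; ring
    rw [this]
    exact lt_of_le_of_lt (Valuation.map_sub _ _ _) (max_lt h h')
  exact (sub_eq_zero.1 (S17SP_const_eq_zero P h1)).symm

/-- a specialisation homomorphism is the identity on constants. -/
theorem S17SP_rho_const (P : Place K F)
    (ρ : integralClosure P.toValuationSubring L →+* K)
    (hρ : ∀ a : P.toValuationSubring,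
        P.adicValuation ((a : F) - algebraMap K F
          (ρ (algebraMap P.toValuationSubring (integralClosure P.toValuationSubring L) a))) < 1)
    (c : K) :
    ρ (algebraMap P.toValuationSubring (integralClosure P.toValuationSubring L)
      (algebraMap K P.toValuationSubring c)) = c := by
  have h1 := hρ (algebraMap K P.toValuationSubring c)
  have h2 : P.adicValuation
      (((algebraMap K P.toValuationSubring c : P.toValuationSubring) : F) - algebraMap K F c) < 1 := by
    rw [Place.coe_algebraMap, sub_self, map_zero]
    exact zero_lt_one
  exact S17SP_residue_unique P h1 h2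

/-- **P7 SPEC**, explicit form.  `K` algebraically closed, all places of `F / K` of degree one,
`L / F` algebraic, `y i ∈ L` finitely many elements.  Then for all places `P` outside a finite
set, all `y i` lie in the integral closure `C_P` of `O_P` in `L`, and there is a ring
homomorphism `ρ : C_P → K` inducing the residue map on `O_P`. -/
theorem S17SP_spec_closure [IsAlgClosed K] [Algebra.IsAlgebraic F L]
    (hP : HasPrincipalDivisors K F) (hdeg : ∀ v : Place K F, v.deg = 1)
    {ι : Type*} [Finite ι] (y : ι → L) :
    ∃ T : Finset (Place K F), ∀ P : Place K F, P ∉ T →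
      (∀ i, y i ∈ integralClosure P.toValuationSubring L) ∧
      ∃ ρ : integralClosure P.toValuationSubring L →+* K,
        (∀ a : P.toValuationSubring,
          P.adicValuation ((a : F) - algebraMap K F
            (ρ (algebraMap P.toValuationSubring
              (integralClosure P.toValuationSubring L) a))) < 1) ∧
        ∀ c : K, ρ (algebraMap P.toValuationSubring (integralClosure P.toValuationSubring L)
          (algebraMap K P.toValuationSubring c)) = c := by
  classical
  cases nonempty_fintype ι
  obtain ⟨T, hT⟩ := S17SP_finite_bad_finset (K := K) hP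
    (Finset.univ.biUnion fun i => (minpoly F (y i)).coeffs)
  refine ⟨T, fun P hPT => ⟨fun i => ?_, ?_⟩⟩
  · refine S17SP_isIntegral_of_coeffs P (y i) (Algebra.IsIntegral.isIntegral (y i)) fun f hf => ?_
    exact hT P hPT f (Finset.mem_biUnion.2 ⟨i, Finset.mem_univ i, hf⟩)
  · obtain ⟨ρ, hρ⟩ := S17SP_exists_rho (L := L) P (hdeg P)
    exact ⟨ρ, hρ, S17SP_rho_const P ρ hρ⟩

/-- **P7 SPEC**, abstract form: a subring `C ⊂ L` containing the `y i` and the image of `O_P`,
with a ring homomorphism `ρ : C → K` which is the identity on constants and the residue map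
on `O_P`. -/
theorem S17SP_spec [IsAlgClosed K] [Algebra.IsAlgebraic F L]
    (hP : HasPrincipalDivisors K F) (hdeg : ∀ v : Place K F, v.deg = 1)
    {ι : Type*} [Finite ι] (y : ι → L) :
    ∃ T : Finset (Place K F), ∀ P : Place K F, P ∉ T →
      ∃ (C : Subring L) (ρ : C →+* K), (∀ i, y i ∈ C) ∧
        (∀ f : F, f ∈ P.toValuationSubring → algebraMap F L f ∈ C) ∧
        (∀ (c : K) (hc : algebraMap F L (algebraMap K F c) ∈ C), ρ ⟨_, hc⟩ = c) ∧
        ∀ (f : F) (_ : f ∈ P.toValuationSubring) (hfC : algebraMap F L f ∈ C),
          P.adicValuation (f - algebraMap K F (ρ ⟨_, hfC⟩)) < 1 := by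
  obtain ⟨T, hT⟩ := S17SP_spec_closure hP hdeg y
  refine ⟨T, fun P hPT => ?_⟩
  obtain ⟨hy, ρ, hρ, hρc⟩ := hT P hPT
  have hmem : ∀ f : F, f ∈ P.toValuationSubring →
      algebraMap F L f ∈ (integralClosure P.toValuationSubring L).toSubring := fun f hf =>
    (algebraMap P.toValuationSubring (integralClosure P.toValuationSubring L) ⟨f, hf⟩).2
  refine ⟨(integralClosure P.toValuationSubring L).toSubring,
    ρ.comp ((Subring.subtype _).codRestrict (integralClosure P.toValuationSubring L)
      fun x => x.2), hy, hmem, ?_, ?_⟩
  · intro c hc
    exact hρc c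
  · intro f hf hfC
    exact hρ ⟨f, hf⟩

end Fermat.Agent.S17
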