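import Fermat.Agent.S17.DivDefs
import Fermat.Agent.S17.OrdIff
import Fermat.Agent.S17.Spec

/-!
# TRACK 8 (S17), pillar DIV, package DATA (helper23)

`S17DA_exists`: for a plane model `M` of a function field `F / K` (`K` algebraically closed) and
`n > 0` there are a base place `Q` and data `S17D_Data M Q n`: non-special points `R_1, …, R_g`
(`g` the Riemann genus) at good `x`-values which are pairwise different and different from
`x(Q)`, a basis `ψ_0 = 1, …, ψ_D` of `L(nE + Q)`, numerators `A_k`, separating polynomials `Θ_i`.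

Pieces (usable separately):
* `S17DA_poles_finite`, `S17DA_zeros_finite`, `S17DA_fibre_finite`, `S17DA_c0_fibre_finite`
* `S17DA_nonspecial_finset`, `S17DA_nonspecial` : greedy choice of non-special points with
  pairwise different values of a function `c` with finite fibres
* `S17DA_basis` : a basis of a finite-dimensional subspace starting with `1`
* `S17DA_roots_finite`, `S17DA_theta`
* `S17DA_regular` : `(x − a_Q) ∏ (x − a⁰_i)ⁿ ψ` has no finite poles
-/

set_option autoImplicit false

open AlgebraicCurve MvPolynomial IntermediateField WithZero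

namespace Fermat.Agent.S17

open Fermat.Agent.Lib

variable {K F : Type*} [Field K] [Field F] [Algebra K F]

/-! ### finiteness of poles, zeros and fibres -/

/-- an element of `F` has finitely many poles. -/
theorem S17DA_poles_finite (hP : HasPrincipalDivisors K F) (f : F) :
    {P : Place K F | ¬ P.adicValuation f ≤ 1}.Finite := by
  obtain ⟨T, hT⟩ := S17SP_finite_bad (K := K) hP f
  refine T.finite_toSet.subset fun P hPf => ?_
  by_contra hPT
  exact hPf (P.adicValuation_le_one_of_mem (hT P hPT))

/-- a nonzero element of `F` has finitely many zeros. -/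
theorem S17DA_zeros_finite (hP : HasPrincipalDivisors K F) {f : F} (hf : f ≠ 0) :
    {P : Place K F | P.adicValuation f < 1}.Finite := by
  refine (S17DA_poles_finite hP f⁻¹).subset fun P hPf => ?_
  have h0 : 0 < P.adicValuation f := by
    rw [Valuation.pos_iff]
    exact hf
  show ¬ P.adicValuation f⁻¹ ≤ 1
  rw [map_inv₀, inv_le_one₀ h0, not_le]
  exact hPf

theorem S17DA_sub_ne_zero {x : F} (hx : Transcendental K x) (a : K) :
    x - algebraMap K F a ≠ 0 := by
  intro h0
  apply hx
  rw [sub_eq_zero] at h0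
  rw [h0]
  exact isAlgebraic_algebraMap a

/-- the places over a value `a` of `x`. -/
theorem S17DA_fibre_finite (hP : HasPrincipalDivisors K F) {x : F} (hx : Transcendental K x)
    (a : K) : {P : Place K F | P.adicValuation (x - algebraMap K F a) < 1}.Finite :=
  S17DA_zeros_finite hP (S17DA_sub_ne_zero hx a)

/-- the value of `x` at a place where `x` is regular. -/
theorem S17DA_c0_fibre_finite (hP : HasPrincipalDivisors K F)
    (hdeg : ∀ v : Place K F, v.deg = 1) {x : F} (hx : Transcendental K x) (a : K) :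
    {P : Place K F | P.adicValuation x ≤ 1 ∧ FD_c0 P x = a}.Finite := by
  refine (S17DA_fibre_finite hP hx a).subset fun P hPa => ?_
  obtain ⟨h1, h2⟩ := hPa
  have := FD_c0_spec P (hdeg P) h1
  rwa [h2] at this

/-! ### non-special points with distinct `x`-values -/

/-- **greedy choice**: for `j ≤ g` there are `j` places outside `T`, with pairwise different
values of `c`, whose sum is non-special. -/
theorem S17DA_nonspecial_finset [Infinite K] (h : RR_Hyp K F) (c : Place K F → K)
    (T : Finset (Place K F)) (hc : ∀ a : K, {P : Place K F | P ∉ T ∧ c P = a}.Finite)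
    (j : ℕ) (hj : j ≤ RR_genus K F) :
    ∃ S : Finset (Place K F), S.card = j ∧ Disjoint S T ∧ Set.InjOn c (S : Set (Place K F)) ∧
      Module.finrank K (riemannRochSpace (∑ P ∈ S, Finsupp.single P (1 : ℤ))) = 1 := by
  classical
  induction j with
  | zero =>
    refine ⟨∅, rfl, Finset.disjoint_empty_left _, by simp, ?_⟩
    rw [Finset.sum_empty]
    exact RR_finrank_zero h.deg_one h.principal h.nonempty.some
  | succ j ih =>
    obtain ⟨S, hcard, hdisj, hinj, hfr⟩ := ih (Nat.le_of_succ_le hj)
    set D : Divisor K F := ∑ P ∈ S, Finsupp.single P (1 : ℤ) with hD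
    have hdegD : D.degree = j := by
      have := RR_degree_add_sum_single h 0 S
      rw [zero_add, map_zero, zero_add, hcard] at this
      exact this
    have hbad := RR_bad_finite h D (by
      rw [hdegD, hfr]
      have : ((j : ℤ) + 1) ≤ RR_genus K F := by exact_mod_cast hj
      push_cast
      linarith)
    have hinf := RR_infinite_places h
    obtain ⟨P, hP⟩ := Infinite.exists_notMem_finset
      (S ∪ T ∪ hbad.toFinset ∪ S.biUnion fun P' => (hc (c P')).toFinset)
    simp only [Finset.mem_union, Set.Finite.mem_toFinset, Set.mem_ofPred_eq, not_or,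
      not_not, Finset.mem_biUnion, not_exists, not_and] at hP
    obtain ⟨⟨⟨hPS, hPT⟩, hPbad⟩, hPc⟩ := hP
    refine ⟨insert P S, ?_, ?_, ?_, ?_⟩
    · rw [Finset.card_insert_of_notMem hPS, hcard]
    · rw [Finset.disjoint_insert_left]
      exact ⟨hPT, hdisj⟩
    · rw [Finset.coe_insert]
      refine (Set.injOn_insert (by simpa using hPS)).2 ⟨hinj, ?_⟩
      rintro ⟨P', hP'S, hP'c⟩
      exact hPc P' hP'S hPT hP'c.symm
    · rw [Finset.sum_insert hPS, add_comm]
      have heq : riemannRochSpace (D + Finsupp.single P 1) = riemannRochSpace D :=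
        le_antisymm hPbad (RR_mono (le_add_of_nonneg_right (by
          have := RR_single_nonneg (K := K) P 1
          rwa [Nat.cast_one] at this)))
      rw [heq, hfr]

/-- the same with a family indexed by `Fin g`. -/
theorem S17DA_nonspecial [Infinite K] (h : RR_Hyp K F) (c : Place K F → K)
    (T : Finset (Place K F)) (hc : ∀ a : K, {P : Place K F | P ∉ T ∧ c P = a}.Finite) :
    ∃ R : Fin (RR_genus K F) → Place K F, (∀ i, R i ∉ T) ∧
      Function.Injective (fun i => c (R i)) ∧
      Module.finrank K (riemannRochSpace (S17D_E R)) = 1 := by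
  classical
  obtain ⟨S, hcard, hdisj, hinj, hfr⟩ := S17DA_nonspecial_finset h c T hc (RR_genus K F) le_rfl
  let e : Fin (RR_genus K F) ≃ S := (S.equivFinOfCardEq hcard).symm
  refine ⟨fun i => (e i : Place K F), ?_, ?_, ?_⟩
  · intro i hi
    exact Finset.disjoint_left.1 hdisj (e i).2 hi
  · intro i i' hii
    exact e.injective (Subtype.ext (hinj (e i).2 (e i').2 hii))
  · have : S17D_E (fun i => (e i : Place K F)) =
        ∑ P ∈ S, Finsupp.single P (1 : ℤ) := by
      rw [S17D_E, ← Finset.sum_coe_sort S (fun P => Finsupp.single P (1 : ℤ))]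
      exact Equiv.sum_comp e (fun P : S => Finsupp.single (P : Place K F) (1 : ℤ))
    rw [this, hfr]


/-- a finite-dimensional subspace of `F` containing `1` has a basis starting with `1`. -/
theorem S17DA_basis (V : Submodule K F) [Module.Finite K V] (h1 : (1 : F) ∈ V) :
    ∃ (D : ℕ) (ψ : Fin (D + 1) → F), D + 1 = Module.finrank K V ∧ ψ 0 = 1 ∧ (∀ k, ψ k ∈ V) ∧
      LinearIndependent K ψ := by
  classical
  obtain ⟨q, hq⟩ := Submodule.exists_isCompl (K ∙ (1 : F))
  set W : Submodule K F := q ⊓ V with hW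
  have hWV : W ≤ V := inf_le_right
  have hspan : (K ∙ (1 : F)) ≤ V := (Submodule.span_singleton_le_iff_mem _ _).2 h1
  have : Module.Finite K W := Submodule.finiteDimensional_of_le hWV
  have : Module.Finite K (K ∙ (1 : F)) := Submodule.finiteDimensional_of_le hspan
  have hsup : (K ∙ (1 : F)) ⊔ W = V := by
    rw [hW, ← sup_inf_assoc_of_le q hspan, hq.sup_eq_top, top_inf_eq]
  have hinf : (K ∙ (1 : F)) ⊓ W = ⊥ := by
    rw [eq_bot_iff]
    calc (K ∙ (1 : F)) ⊓ W ≤ (K ∙ (1 : F)) ⊓ q := inf_le_inf_left _ inf_le_left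
      _ = ⊥ := hq.inf_eq_bot
  have hdim := Submodule.finrank_sup_add_finrank_inf_eq (K ∙ (1 : F)) W
  rw [hsup, hinf, finrank_bot, add_zero, finrank_span_singleton (one_ne_zero)] at hdim
  let b := Module.finBasis K W
  refine ⟨Module.finrank K W, Fin.cons 1 (fun i => (b i : F)), by omega, by simp, ?_, ?_⟩
  · intro k
    refine Fin.cases ?_ (fun i => ?_) k
    · simpa using h1
    · simpa using hWV (b i).2
  · rw [linearIndependent_finCons]
    have hli : LinearIndependent K (fun i => (b i : F)) :=
      b.linearIndependent.map' W.subtype (Submodule.ker_subtype W)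
    refine ⟨hli, ?_⟩
    have hsp : Submodule.span K (Set.range fun i => (b i : F)) = W := by
      have : (Set.range fun i => (b i : F)) = W.subtype '' Set.range b := by
        rw [← Set.range_comp]
        rfl
      rw [this, Submodule.span_image, b.span_eq, Submodule.map_top, Submodule.range_subtype]
    rw [hsp]
    intro h1W
    have : (1 : F) ∈ (K ∙ (1 : F)) ⊓ W := ⟨Submodule.mem_span_singleton_self 1, h1W⟩
    rw [hinf, Submodule.mem_bot] at this
    exact one_ne_zero this


/-! ### the polynomials `Θ_i` -/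

/-- over a good value `a` the polynomial `Φ(a, Y)` has finitely many roots. -/
theorem S17DA_roots_finite (h : RR_Hyp K F) (M : S17D_Model K F) (a : K)
    (ha : M.δ.eval a ≠ 0) : {b : K | eval ![a, b] M.Φ = 0}.Finite := by
  classical
  have hZ := S17DA_fibre_finite h.principal M.trans a
  have hex : ∀ b : {b : K | eval ![a, b] M.Φ = 0}, ∃ P : Place K F, S17D_At M.x M.y P a b :=
    fun b => M.exists_place a b ha b.2
  choose φ hφ using hex
  have hmem : ∀ b, φ b ∈ {P : Place K F | P.adicValuation (M.x - algebraMap K F a) < 1} :=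
    fun b => (hφ b).1
  have hinj : Function.Injective
      (fun b => (⟨φ b, hmem b⟩ : {P : Place K F | P.adicValuation (M.x - algebraMap K F a) < 1})) := by
    intro b b' hbb
    have h1 : φ b = φ b' := congrArg Subtype.val hbb
    have h2 := (hφ b).2
    have h3 := (hφ b').2
    rw [← h1] at h3
    exact Subtype.ext (S17SP_residue_unique (φ b) h2 h3)
  have := hZ.to_subtype
  exact Set.finite_coe_iff.1 (Finite.of_injective _ hinj)

/-- the polynomial `Θ` separating the root `b₀` from the other roots of `Φ(a, Y)`. -/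
theorem S17DA_theta (h : RR_Hyp K F) (M : S17D_Model K F) (a b₀ : K)
    (ha : M.δ.eval a ≠ 0) :
    ∃ Θ : Polynomial K, Θ.eval b₀ ≠ 0 ∧
      ∀ b : K, eval ![a, b] M.Φ = 0 → Θ.eval b ≠ 0 → b = b₀ := by
  classical
  have hfin := S17DA_roots_finite h M a ha
  refine ⟨∏ b' ∈ hfin.toFinset.erase b₀, (Polynomial.X - Polynomial.C b'), ?_, ?_⟩
  · rw [Polynomial.eval_prod, Finset.prod_ne_zero_iff]
    intro b' hb'
    rw [Polynomial.eval_sub, Polynomial.eval_X, Polynomial.eval_C, sub_ne_zero]
    exact (Finset.ne_of_mem_erase hb').symm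
  · intro b hb hΘ
    by_contra hne
    apply hΘ
    rw [Polynomial.eval_prod]
    refine Finset.prod_eq_zero (i := b) ?_ (by simp)
    rw [Finset.mem_erase]
    exact ⟨hne, by simpa using hb⟩

/-! ### the numerators -/

theorem S17DA_prod_le {ι : Type*} (s : Finset ι) (v : ι → ℤᵐ⁰) (e : ι → ℤ)
    (hv : ∀ i ∈ s, v i ≤ exp (e i)) : ∏ i ∈ s, v i ≤ exp (∑ i ∈ s, e i) := by
  classical
  induction s using Finset.induction_on with
  | empty => simp
  | insert a s ha ih =>
    rw [Finset.prod_insert ha, Finset.sum_insert ha, exp_add]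
    exact mul_le_mul' (hv a (Finset.mem_insert_self a s))
      (ih fun i hi => hv i (Finset.mem_insert_of_mem hi))

theorem S17DA_val_sub_le (P : Place K F) {x : F} (hx : P.adicValuation x ≤ 1) (a : K) :
    P.adicValuation (x - algebraMap K F a) ≤ 1 :=
  (Valuation.map_sub _ _ _).trans (max_le hx (P.adicValuation_algebraMap_le_one a))

theorem S17DA_val_sub_single (P Q : Place K F) {x : F} (hx : P.adicValuation x ≤ 1) (a : K)
    (hQ : Q.adicValuation (x - algebraMap K F a) < 1) :
    P.adicValuation (x - algebraMap K F a)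
      ≤ exp (-((Finsupp.single Q (1 : ℤ) : Divisor K F) P)) := by
  classical
  by_cases hPQ : Q = P
  · subst hPQ
    rw [Finsupp.single_eq_same]
    exact (FD_val_lt_one_iff Q).1 hQ
  · rw [Finsupp.single_eq_of_ne' hPQ, neg_zero, exp_zero]
    exact S17DA_val_sub_le P hx a

theorem S17DA_E_apply {g : ℕ} (R : Fin g → Place K F) (P : Place K F) :
    S17D_E R P = ∑ i, (Finsupp.single (R i) (1 : ℤ) : Divisor K F) P := by
  rw [S17D_E, Finsupp.finsetSum_apply]

theorem S17DA_E_nonneg {g : ℕ} (R : Fin g → Place K F) (P : Place K F) : 0 ≤ S17D_E R P := by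
  classical
  rw [S17DA_E_apply]
  refine Finset.sum_nonneg fun i _ => ?_
  rw [Finsupp.single_apply]
  split_ifs <;> simp

theorem S17DA_val_prod (P : Place K F) {g : ℕ} (R : Fin g → Place K F) (a0 : Fin g → K)
    {x : F} (hx : P.adicValuation x ≤ 1)
    (hR : ∀ i, (R i).adicValuation (x - algebraMap K F (a0 i)) < 1) :
    P.adicValuation (∏ i, (x - algebraMap K F (a0 i))) ≤ exp (-(S17D_E R P)) := by
  rw [map_prod, S17DA_E_apply, ← Finset.sum_neg_distrib]
  exact S17DA_prod_le _ _ _ fun i _ => S17DA_val_sub_single P (R i) hx (a0 i) (hR i)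

/-- the numerator functions have no finite poles. -/
theorem S17DA_regular (P Q : Place K F) {g : ℕ} (R : Fin g → Place K F) (a0 : Fin g → K)
    (aQ : K) (n : ℕ) {x ψ : F} (hx : P.adicValuation x ≤ 1)
    (hQ : Q.adicValuation (x - algebraMap K F aQ) < 1)
    (hR : ∀ i, (R i).adicValuation (x - algebraMap K F (a0 i)) < 1)
    (hψ : ψ ∈ riemannRochSpace ((n : ℤ) • S17D_E R + Finsupp.single Q (1 : ℤ))) :
    P.adicValuation ((x - algebraMap K F aQ) * (∏ i, (x - algebraMap K F (a0 i))) ^ n * ψ)
      ≤ 1 := by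
  have h1 := S17DA_val_sub_single P Q hx aQ hQ
  have h2 := S17DA_val_prod P R a0 hx hR
  have h3 := hψ P
  rw [Finsupp.add_apply, Finsupp.smul_apply] at h3
  rw [map_mul, map_mul, map_pow]
  calc P.adicValuation (x - algebraMap K F aQ) *
        P.adicValuation (∏ i, (x - algebraMap K F (a0 i))) ^ n * P.adicValuation ψ
      ≤ exp (-((Finsupp.single Q (1 : ℤ) : Divisor K F) P)) * exp (-(S17D_E R P)) ^ n *
        exp ((n : ℤ) • S17D_E R P + (Finsupp.single Q (1 : ℤ) : Divisor K F) P) :=
        mul_le_mul' (mul_le_mul' h1 (pow_le_pow_left' h2 n)) h3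
    _ = 1 := by
        rw [← exp_nsmul, ← exp_add, ← exp_add, ← exp_zero]
        congr 1
        simp only [smul_eq_mul, nsmul_eq_mul]
        ring


/-! ### the package statement -/

theorem S17DA_one_mem {g : ℕ} (R : Fin g → Place K F) (Q : Place K F) (n : ℕ) :
    (1 : F) ∈ riemannRochSpace ((n : ℤ) • S17D_E R + Finsupp.single Q (1 : ℤ)) := by
  classical
  intro P
  rw [map_one, ← exp_zero, exp_le_exp, Finsupp.add_apply, Finsupp.smul_apply]
  have h1 := S17DA_E_nonneg R P
  have h2 : 0 ≤ (Finsupp.single Q (1 : ℤ) : Divisor K F) P := by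
    rw [Finsupp.single_apply]
    split_ifs <;> simp
  have h3 : 0 ≤ (n : ℤ) • S17D_E R P := by
    rw [smul_eq_mul]
    positivity
  linarith

theorem S17DA_one_mem_E {g : ℕ} (R : Fin g → Place K F) :
    (1 : F) ∈ riemannRochSpace (S17D_E R) := by
  intro P
  rw [map_one, ← exp_zero, exp_le_exp]
  exact S17DA_E_nonneg R P

theorem S17DA_E_degree (h : RR_Hyp K F) {g : ℕ} (R : Fin g → Place K F) :
    (S17D_E R).degree = g := by
  rw [S17D_E, map_sum]
  simp [Divisor.degree_single, h.deg_one]

/-- **DATA**. -/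
theorem S17DA_exists [IsAlgClosed K] [CharZero K] (h : RR_Hyp K F) (M : S17D_Model K F)
    (n : ℕ) (hn : 0 < n) : ∃ Q : Place K F, Nonempty (S17D_Data M Q n) := by
  classical
  have hP := h.principal
  have hdeg := h.deg_one
  have hinf := RR_infinite_places h
  -- the base place
  obtain ⟨Q, hQ⟩ := Infinite.exists_notMem_finset (S17DA_poles_finite hP M.x).toFinset
  have hQx : Q.adicValuation M.x ≤ 1 := by
    by_contra hcon
    exact hQ ((Set.Finite.mem_toFinset _).2 hcon)
  have hQa := FD_c0_spec Q (hdeg Q) hQx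
  -- the excluded places
  set T : Finset (Place K F) := (S17DA_poles_finite hP M.x).toFinset ∪
    (M.δ.roots.toFinset.biUnion fun a => (S17DA_fibre_finite hP M.trans a).toFinset) ∪
    (S17DA_fibre_finite hP M.trans (FD_c0 Q M.x)).toFinset with hT
  have hTx : ∀ P : Place K F, P ∉ T → P.adicValuation M.x ≤ 1 := by
    intro P hPT
    by_contra hcon
    apply hPT
    rw [hT, Finset.mem_union, Finset.mem_union]
    exact Or.inl (Or.inl ((Set.Finite.mem_toFinset _).2 hcon))
  have hTδ : ∀ (P : Place K F) (a : K), P ∉ T → P.adicValuation (M.x - algebraMap K F a) < 1 →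
      M.δ.eval a ≠ 0 := by
    intro P a hPT hPa h0
    apply hPT
    rw [hT, Finset.mem_union, Finset.mem_union]
    refine Or.inl (Or.inr ?_)
    rw [Finset.mem_biUnion]
    refine ⟨a, ?_, (Set.Finite.mem_toFinset _).2 hPa⟩
    rw [Multiset.mem_toFinset, Polynomial.mem_roots M.hδ]
    exact h0
  have hTQ : ∀ P : Place K F, P ∉ T →
      ¬ P.adicValuation (M.x - algebraMap K F (FD_c0 Q M.x)) < 1 := by
    intro P hPT hPa
    apply hPT
    rw [hT, Finset.mem_union]
    exact Or.inr ((Set.Finite.mem_toFinset _).2 hPa)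
  have hc : ∀ a : K, {P : Place K F | P ∉ T ∧ FD_c0 P M.x = a}.Finite := fun a =>
    (S17DA_c0_fibre_finite hP hdeg M.trans a).subset fun P hPa => ⟨hTx P hPa.1, hPa.2⟩
  -- the non-special points
  obtain ⟨R, hRT, hRinj, hRfr⟩ := S17DA_nonspecial h (fun P => FD_c0 P M.x) T hc
  have hRx : ∀ i, (R i).adicValuation M.x ≤ 1 := fun i => hTx _ (hRT i)
  have hRa : ∀ i, (R i).adicValuation (M.x - algebraMap K F (FD_c0 (R i) M.x)) < 1 := fun i =>
    FD_c0_spec (R i) (hdeg _) (hRx i)
  have hRb : ∀ i, (R i).adicValuation (M.y - algebraMap K F (FD_c0 (R i) M.y)) < 1 := fun i =>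
    FD_c0_spec (R i) (hdeg _) (M.y_int _ (hRx i))
  have hRδ : ∀ i, M.δ.eval (FD_c0 (R i) M.x) ≠ 0 := fun i => hTδ _ _ (hRT i) (hRa i)
  -- the separating polynomials
  choose Θ hΘ0 hΘ using fun i =>
    S17DA_theta h M (FD_c0 (R i) M.x) (FD_c0 (R i) M.y) (hRδ i)
  -- the basis
  have hfin := RR_finite h ((n : ℤ) • S17D_E R + Finsupp.single Q (1 : ℤ))
  obtain ⟨D, ψ, hD, hψ0, hψmem, hψli⟩ := S17DA_basis
    (riemannRochSpace ((n : ℤ) • S17D_E R + Finsupp.single Q (1 : ℤ))) (S17DA_one_mem R Q n)
  -- the numerators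
  choose A hA using fun k => M.repr _ (fun P hPx =>
    S17DA_regular P Q R (fun i => FD_c0 (R i) M.x) (FD_c0 Q M.x) n hPx hQa hRa (hψmem k))
  refine ⟨Q, ⟨{
    g := RR_genus K F
    D := D
    R := R
    a0 := fun i => FD_c0 (R i) M.x
    b0 := fun i => FD_c0 (R i) M.y
    aQ := FD_c0 Q M.x
    tQ := FD_t Q
    ψ := ψ
    A := A
    Θ := Θ
    hQx := hQa
    htQ := FD_ord_t Q
    hR := fun i => ⟨hRa i, hRb i⟩
    hδ := hRδ
    ha_inj := hRinj
    haQ := ?_
    hΘ0 := hΘ0
    hΘ := hΘ
    hψ0 := hψ0
    hψ_mem := hψmem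
    hψ_li := hψli
    hnonspecial := ?_
    hcount := ?_
    hA := ?_ }⟩⟩
  · intro i hi
    apply hTQ _ (hRT i)
    rw [← hi]
    exact hRa i
  · intro f hf
    have h1 : (⟨1, S17DA_one_mem_E R⟩ : riemannRochSpace (S17D_E R)) ≠ 0 := by
      intro h0
      exact one_ne_zero (congrArg Subtype.val h0)
    obtain ⟨c, hc'⟩ := (finrank_eq_one_iff_of_nonzero' _ h1).1 hRfr ⟨f, hf⟩
    refine ⟨c, ?_⟩
    have := congrArg Subtype.val hc'
    rw [Algebra.algebraMap_eq_smul_one]
    exact this.symm
  · have h1 := RR_riemann_ineq h ((n : ℤ) • S17D_E R + Finsupp.single Q (1 : ℤ))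
    rw [map_add, map_zsmul, S17DA_E_degree h, Divisor.degree_single, hdeg Q, ← hD] at h1
    simp only [smul_eq_mul] at h1
    have h2 : ((n * RR_genus K F + 2 : ℕ) : ℤ) ≤ ((D + 1 + RR_genus K F : ℕ) : ℤ) := by
      push_cast
      push_cast at h1
      linarith
    exact_mod_cast h2
  · intro k
    rw [hA k]
    ring

end Fermat.Agent.S17
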