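import Fermat.Agent.S17.GMProd

/-!
# TRACK 8 (S17, Mordell–Weil), heights: Gauss–Mahler for any finite type of variables (helper8)

* `S17GP_hpoly_rename` : `hpoly (rename e f) = hpoly f` for injective `e`.
* `S17GP_gm_var` : `|hpoly (f g) − hpoly f − hpoly g| ≤ log (S17GM_const #σ (d + 1))` for
  `f g : MvPolynomial σ Ω`, `σ` a `Fintype`.
* `S17GP_gm_prod_var` : the same for a product of many factors.
* `S17GP_prod_linear_var` : for `k` linear forms in the variables `σ`.
* `S17GP_h_sign` : the height does not change if coordinates are multiplied by `±1`.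
-/

set_option autoImplicit false
set_option linter.style.haveILetI false
set_option linter.unusedSectionVars false

open NumberField Height Module IntermediateField MvPolynomial

namespace Fermat.Agent.S17

section

variable {Ω : Type*} [Field Ω] [CharZero Ω] [Algebra.IsAlgebraic ℚ Ω]

/-- renaming the variables injectively does not change the height of a polynomial. -/
theorem S17GP_hpoly_rename {σ τ : Type*} (e : σ → τ) (he : Function.Injective e)
    (f : MvPolynomial σ Ω) : S17AG_hpoly (rename e f) = S17AG_hpoly f := by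
  classical
  have hsupp : ∀ s ∈ (rename e f).support, ∃ k : f.support, (k : σ →₀ ℕ).mapDomain e = s := by
    intro s hs
    rw [support_rename_of_injective he, Finset.mem_image] at hs
    obtain ⟨u, hu, rfl⟩ := hs
    exact ⟨⟨u, hu⟩, rfl⟩
  rw [← S17GP_hpoly_eq (rename e f) (fun k : f.support => (k : σ →₀ ℕ).mapDomain e) hsupp]
  unfold S17AG_hpoly
  congr 1
  funext k
  rw [coeff_rename_mapDomain e he]
  rfl

/-- **Gauss–Mahler** for polynomials in a finite type of variables. -/
theorem S17GP_gm_prod_var {σ : Type*} [Fintype σ] (d : ℕ) {α : Type*} (s : Finset α)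
    (f : α → MvPolynomial σ Ω) (hf : ∀ i ∈ s, f i ≠ 0) (hd : (∏ i ∈ s, f i).totalDegree ≤ d) :
    |S17AG_hpoly (∏ i ∈ s, f i) - ∑ i ∈ s, S17AG_hpoly (f i)| ≤
      s.card * Real.log (S17GM_const (Fintype.card σ) (d + 1)) := by
  classical
  let e : σ ≃ Fin (Fintype.card σ) := Fintype.equivFin σ
  have hinj : Function.Injective (rename e : MvPolynomial σ Ω → _) :=
    rename_injective e e.injective
  have h := S17GP_gm_prod (Fintype.card σ) d s (fun i => rename e (f i))
    (fun i hi h0 => hf i hi (hinj (by rw [h0, map_zero])))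
    (by
      rw [← map_prod]
      have := totalDegree_renameEquiv e (∏ i ∈ s, f i)
      change (rename e (∏ i ∈ s, f i)).totalDegree = _ at this
      rw [this]
      exact hd)
  rw [← map_prod, S17GP_hpoly_rename e e.injective] at h
  simp only [S17GP_hpoly_rename e e.injective] at h
  exact h

/-- **Gauss–Mahler** for two polynomials in a finite type of variables. -/
theorem S17GP_gm_var {σ : Type*} [Fintype σ] (d : ℕ) (f g : MvPolynomial σ Ω)
    (hf : f ≠ 0) (hg : g ≠ 0) (hd : (f * g).totalDegree ≤ d) :
    |S17AG_hpoly (f * g) - S17AG_hpoly f - S17AG_hpoly g| ≤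
      2 * Real.log (S17GM_const (Fintype.card σ) (d + 1)) := by
  classical
  have h := S17GP_gm_prod_var d (Finset.univ : Finset (Fin 2)) (fun i => ![f, g] i)
    (fun i _ => by fin_cases i <;> simp [hf, hg])
    (by simpa [Fin.prod_univ_two] using hd)
  simp only [Fin.prod_univ_two, Fin.sum_univ_two, Matrix.cons_val_zero, Matrix.cons_val_one,
    Finset.card_univ, Fintype.card_fin] at h
  have e : S17AG_hpoly (f * g) - S17AG_hpoly f - S17AG_hpoly g =
      S17AG_hpoly (f * g) - (S17AG_hpoly f + S17AG_hpoly g) := by ring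
  rw [e]
  exact_mod_cast h

/-- **Gauss–Mahler for a product of `k` linear forms** in a finite type of variables. -/
theorem S17GP_prod_linear_var {σ : Type*} [Fintype σ] (k : ℕ) (v : Fin k → σ → Ω)
    (hv : ∀ i, v i ≠ 0) :
    |S17AG_hpoly (∏ i, S17GP_lin (v i)) - ∑ i, S17AH_h (v i)| ≤
      k * Real.log (S17GM_const (Fintype.card σ) (k + 1)) := by
  have hd : (∏ i, S17GP_lin (v i)).totalDegree ≤ k := by
    refine (MvPolynomial.totalDegree_finsetProd _ _).trans ?_
    calc ∑ i : Fin k, (S17GP_lin (v i)).totalDegree ≤ ∑ _i : Fin k, 1 :=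
          Finset.sum_le_sum fun i _ => S17GP_totalDegree_lin_le (v i)
      _ = k := by simp
  have h := S17GP_gm_prod_var k Finset.univ (fun i => S17GP_lin (v i))
    (fun i _ => S17GP_lin_ne_zero (hv i)) hd
  have e : ∀ i, S17AG_hpoly (S17GP_lin (v i)) = S17AH_h (v i) := fun i =>
    S17GP_hpoly_linear (v i)
  simp only [e, Finset.card_univ, Fintype.card_fin] at h
  exact h

/-- the height of a tuple does not change under coordinatewise sign changes. -/
theorem S17GP_h_sign {ι : Type*} [Finite ι] (x y : ι → Ω) (h : ∀ i, y i = x i ∨ y i = -x i) :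
    S17AH_h y = S17AH_h x := by
  have hy : ∀ i, y i ∈ S17AH_field x := by
    intro i
    rcases h i with h | h
    · rw [h]; exact S17AH_mem_field x i
    · rw [h]; exact neg_mem (S17AH_mem_field x i)
  let y' : ι → S17AH_field x := fun i => ⟨y i, hy i⟩
  have h' : ∀ i, y' i = S17AH_lift x i ∨ y' i = -S17AH_lift x i := by
    intro i
    rcases h i with h | h
    · left; exact Subtype.ext h
    · right; exact Subtype.ext h
  have hv : ∀ (v : AbsoluteValue (S17AH_field x) ℝ) (i : ι), v (y' i) = v (S17AH_lift x i) := by
    intro v i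
    rcases h' i with h | h
    · rw [h]
    · rw [h, v.map_neg]
  have h1 : S17AH_h y = S17AH_h (fun i => (y' i : Ω)) := rfl
  have h2 : S17AH_h x = S17AH_h (fun i => (S17AH_lift x i : Ω)) := rfl
  rw [h1, h2, S17AH_h_sub x, S17AH_h_sub x]
  congr 1
  rw [logHeight_eq_log_mulHeight, logHeight_eq_log_mulHeight]
  congr 1
  by_cases hx0 : S17AH_lift x = 0
  · have hy0 : y' = 0 := by
      funext i
      rcases h' i with h | h
      · rw [h, hx0]
      · rw [h, hx0]; simp
    rw [hx0, hy0]
  · have hy0 : y' ≠ 0 := by
      intro hy0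
      apply hx0
      funext i
      have := congrFun hy0 i
      rcases h' i with h | h
      · rw [← h, this]
      · have h3 : S17AH_lift x i = -y' i := by rw [h, neg_neg]
        rw [h3, this]; simp
    rw [Height.mulHeight_eq hy0, Height.mulHeight_eq hx0]
    simp only [hv]

end

end Fermat.Agent.S17
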