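import Fermat.Agent.S17.HtDefs
import Fermat.Agent.S17.GMVar
import Fermat.Agent.S17.AbsAPI

/-!
# TRACK 8 (S17), heights pillar, package DEC-abs (helper26)

`S17DB_main (X : S17H_Curve Ω ι k) : S17H_StmtDEC X` and
`S17DB_lam (X) (hA : S17H_StmtA X) : S17H_StmtDEClam X`,
for `Ω` algebraically closed of characteristic `0`, algebraic over `ℚ`.

Proof of (DEC): for `x ∈ V(I)`, `⟨c,x⟩ ≠ 0` and a zero cycle `v` of `c`, (H2) and the product
formula give the identity of polynomials in `T`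
`Ψ(c,x,T) = (κ / ⟨c,x⟩) · ∏ i, ⟨T̂ x, v i⟩`  (`S17DB_psiT_eq`);
Gauss–Mahler (`S17GP_prod_linear_var`) computes the height of the right side as
`Σ_i h(x ∧ v i) + O(1)`, the bihomogeneous height machine (`S17C_bihom`, with (NCZ)) computes
the height of the left side as `(k−1)(h c + h x) + O(1)`.
-/

set_option autoImplicit false
set_option linter.style.haveILetI false

open MvPolynomial

namespace Fermat.Agent.S17

section

variable {Ω : Type} [Field Ω] {ι : Type} [Fintype ι]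

theorem S17DB_skew_eq_lin (x y : ι → Ω) : S17H_skew x y = S17GP_lin (S17H_wedge x y) := rfl

theorem S17DB_dot_ne_zero_left {c x : ι → Ω} (h : S17H_dot c x ≠ 0) : c ≠ 0 := by
  rintro rfl
  exact h (by simp [S17H_dot])

theorem S17DB_dot_ne_zero_right {c x : ι → Ω} (h : S17H_dot c x ≠ 0) : x ≠ 0 := by
  rintro rfl
  exact h (by simp [S17H_dot])

/-- coefficients of `Ψ(c, x, ·)` -/
theorem S17DB_coeff_psiT {Γ : Type} [Fintype Γ] (psi : Γ → MvPolynomial (ι ⊕ ι) Ω)
    (mon : Γ → (ι × ι →₀ ℕ)) (hmon : Function.Injective mon) (c x : ι → Ω) (γ : Γ) :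
    coeff (mon γ) (S17H_psiT psi mon c x) = eval (Sum.elim c x) (psi γ) := by
  classical
  unfold S17H_psiT
  rw [coeff_sum]
  simp only [coeff_C_mul, coeff_monomial]
  rw [Finset.sum_eq_single γ]
  · rw [if_pos rfl, mul_one]
  · intro γ' _ hγ'
    rw [if_neg (fun h => hγ' (hmon h)), mul_zero]
  · intro h
    exact absurd (Finset.mem_univ γ) h

theorem S17DB_support_psiT {Γ : Type} [Fintype Γ] (psi : Γ → MvPolynomial (ι ⊕ ι) Ω)
    (mon : Γ → (ι × ι →₀ ℕ)) (c x : ι → Ω) :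
    ∀ s ∈ (S17H_psiT psi mon c x).support, ∃ γ, mon γ = s := by
  classical
  intro s hs
  rw [MvPolynomial.mem_support_iff] at hs
  by_contra hne
  apply hs
  unfold S17H_psiT
  rw [coeff_sum]
  refine Finset.sum_eq_zero fun γ _ => ?_
  rw [coeff_C_mul, coeff_monomial, if_neg (fun h => hne ⟨γ, h⟩), mul_zero]

/-- the identity of polynomials in `T`:  `Ψ(c,x,T) = (κ/⟨c,x⟩) ∏ i, ⟨T̂ x, v i⟩`. -/
theorem S17DB_psiT_eq [CharZero Ω] {k : ℕ} (X : S17H_Curve Ω ι k) (c x : ι → Ω)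
    (v : Fin k → ι → Ω) (hx : x ∈ S17H_V X.I) (hcx : S17H_dot c x ≠ 0) (κ : Ω)
    (hF : ∀ Y : ι → Ω, eval (Sum.elim c Y) X.chow = κ * ∏ i, S17H_dot Y (v i)) :
    letI := X.instΓ
    S17H_psiT X.psi X.mon c x = C (κ / S17H_dot c x) * ∏ i, S17H_skew x (v i) := by
  letI := X.instΓ
  apply MvPolynomial.funext
  intro T
  have h2 := X.h2 c x T hx
  rw [hF] at h2
  rw [map_mul, map_prod, eval_C]
  simp_rw [S17H_eval_skew]
  field_simp
  rw [h2]
  ring

/-- the case `k = 0` is void -/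
theorem S17DB_k_pos {k : ℕ} (X : S17H_Curve Ω ι k) (c x : ι → Ω) (v : Fin k → ι → Ω)
    (hx : x ∈ S17H_V X.I) (hF : S17H_Fact X.chow c v) : 0 < k := by
  classical
  letI := X.instΓ
  by_contra hk
  have hk0 : k = 0 := by omega
  subst hk0
  -- polynomials of bidegree `(0, 0)` are constant
  have hconst : ∀ (f : MvPolynomial (ι ⊕ ι) Ω), S17C_IsBihom f 0 0 →
      ∀ y : ι ⊕ ι → Ω, eval y f = coeff 0 f := by
    intro f hf y
    have hf' : f = C (coeff 0 f) := by
      ext d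
      rw [coeff_C]
      by_cases hd : 0 = d
      · rw [if_pos hd, hd]
      · rw [if_neg hd]
        by_contra h0
        obtain ⟨h1, h2⟩ := hf d h0
        apply hd
        ext s
        rcases s with s | s
        · have := (Finset.sum_eq_zero_iff.1 h1) s (Finset.mem_univ s)
          simpa using this.symm
        · have := (Finset.sum_eq_zero_iff.1 h2) s (Finset.mem_univ s)
          simpa using this.symm
    rw [hf', eval_C, coeff_C, if_pos rfl]
  obtain ⟨κ, hκ, hF⟩ := hF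
  have hc1 := X.h2 c x 0 hx
  have hc2 := X.h2 ((2 : Ω) • c) x 0 hx
  have hpsi : S17H_psiT X.psi X.mon ((2 : Ω) • c) x = S17H_psiT X.psi X.mon c x := by
    unfold S17H_psiT
    refine Finset.sum_congr rfl fun γ _ => ?_
    rw [hconst _ (by simpa using X.psi_bihom γ), hconst _ (by simpa using X.psi_bihom γ)]
  rw [hconst _ X.chow_bihom] at hc1 hc2
  rw [hpsi] at hc2
  have hκ' : coeff 0 X.chow = κ := by
    have := hF 0
    rw [hconst _ X.chow_bihom] at this
    simpa using this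
  have hdot : S17H_dot ((2 : Ω) • c) x = 2 * S17H_dot c x := by
    simp only [S17H_dot, Pi.smul_apply, smul_eq_mul, Finset.mul_sum]
    exact Finset.sum_congr rfl fun j _ => by ring
  rw [hdot, mul_assoc, ← hc1] at hc2
  have : coeff 0 X.chow = 0 := by linear_combination -hc2
  exact hκ (hκ' ▸ this)

end

section main

variable {Ω : Type} [Field Ω] [CharZero Ω] [Algebra.IsAlgebraic ℚ Ω] [IsAlgClosed Ω]
  {ι : Type} [Fintype ι] {k : ℕ}

/-- **(DEC)**, abstract form. -/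
theorem S17DB_main (X : S17H_Curve Ω ι k) : S17H_StmtDEC X := by
  classical
  letI := X.instΓ
  obtain ⟨C₁, hC₁⟩ := S17C_bihom (S17AH_api.{0} Ω) (Ω := Ω) (k - 1) (k - 1) X.psi X.psi_bihom
    X.I X.I_hom (by
      intro c x hc hx hxI
      obtain ⟨γ, hγ⟩ := X.ncz c x hc hx (fun f hf => by
        have := hxI f hf
        rwa [aeval_eq_eval] at this)
      exact ⟨γ, by rwa [aeval_eq_eval]⟩)
  refine ⟨C₁ + k * Real.log (S17GM_const (Fintype.card (ι × ι)) (k + 1)), ?_⟩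
  intro c x v hx hcx hF
  have hk := S17DB_k_pos X c x v hx hF
  have hc := S17DB_dot_ne_zero_left hcx
  have hx0 := S17DB_dot_ne_zero_right hcx
  obtain ⟨κ, hκ, hFκ⟩ := hF
  have hid := S17DB_psiT_eq X c x v hx hcx κ hFκ
  -- the left side
  have h1 := hC₁ c x hc hx0 hx
  have h2 : (S17AH_api.{0} Ω).h (fun γ : X.Γ => eval (Sum.elim c x) (X.psi γ)) =
      S17AG_hpoly (S17H_psiT X.psi X.mon c x) := by
    rw [← S17GP_hpoly_eq (S17H_psiT X.psi X.mon c x) X.mon (S17DB_support_psiT X.psi X.mon c x)]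
    show S17AH_h _ = S17AH_h _
    congr 1
    funext γ
    exact (S17DB_coeff_psiT X.psi X.mon X.mon_inj c x γ).symm
  -- `Ψ(c,x,·) ≠ 0`
  have hne : S17H_psiT X.psi X.mon c x ≠ 0 := by
    obtain ⟨γ, hγ⟩ := X.ncz c x hc hx0 hx
    intro h0
    apply hγ
    rw [← S17DB_coeff_psiT X.psi X.mon X.mon_inj c x γ, h0, coeff_zero]
  have hκ' : κ / S17H_dot c x ≠ 0 := div_ne_zero hκ hcx
  have hw : ∀ i, S17H_wedge x (v i) ≠ 0 := by
    intro i hi
    apply hne
    rw [hid]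
    have : S17H_skew x (v i) = 0 := by
      rw [S17DB_skew_eq_lin, hi]
      simp [S17GP_lin]
    rw [Finset.prod_eq_zero (Finset.mem_univ i) this, mul_zero]
  -- the right side
  have h3 : S17AG_hpoly (S17H_psiT X.psi X.mon c x) =
      S17AG_hpoly (∏ i, S17GP_lin (S17H_wedge x (v i))) := by
    rw [hid, S17GP_hpoly_C_mul _ hκ']
    rfl
  have h4 := S17GP_prod_linear_var k (fun i => S17H_wedge x (v i)) hw
  rw [h2, h3] at h1
  have h5 : (((k - 1 : ℕ) : ℝ)) = (k : ℝ) - 1 := by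
    rw [Nat.cast_sub hk, Nat.cast_one]
  rw [h5] at h1
  have h6 : (S17AH_api.{0} Ω).h c = S17AH_h c := rfl
  have h7 : (S17AH_api.{0} Ω).h x = S17AH_h x := rfl
  rw [h6, h7] at h1
  have h8 : ∑ i, S17H_w x (v i) = ∑ i, S17AH_h (S17H_wedge x (v i)) := rfl
  rw [h8]
  have e1 := abs_le.1 h1
  have e4 := abs_le.1 h4
  refine abs_le.2 ⟨?_, ?_⟩
  · linarith [e1.1, e1.2, e4.1, e4.2]
  · linarith [e1.1, e1.2, e4.1, e4.2]

/-- **(DEC), λ-form**, from (A) and (DEC). -/
theorem S17DB_lam (X : S17H_Curve Ω ι k) (hA : S17H_StmtA X) : S17H_StmtDEClam X := by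
  obtain ⟨C₁, hC₁⟩ := hA
  obtain ⟨C₂, hC₂⟩ := S17DB_main X
  refine ⟨C₁ + C₂, ?_⟩
  intro c x v hx hcx hv hF
  have h1 := abs_le.1 (hC₁ c v (S17DB_dot_ne_zero_left hcx) hv hF)
  have h2 := abs_le.1 (hC₂ c x v hx hcx hF)
  have h3 : ∑ i, S17H_lam x (v i) =
      k * S17AH_h x + ∑ i, S17AH_h (v i) - ∑ i, S17H_w x (v i) := by
    simp only [S17H_lam, Finset.sum_sub_distrib, Finset.sum_add_distrib, Finset.sum_const,
      Finset.card_univ, Fintype.card_fin, nsmul_eq_mul]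
  rw [h3]
  refine abs_le.2 ⟨?_, ?_⟩
  · nlinarith [h1.1, h1.2, h2.1, h2.2]
  · nlinarith [h1.1, h1.2, h2.1, h2.2]

end main

end Fermat.Agent.S17
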