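import Fermat.Agent.S17.DecAbs

/-!
# TRACK 8 (S17), heights pillar, package DEC′-abs (helper9)

`S17DP_main (X : S17H_Curve Ω ι k) : S17H_StmtDEC' X`
for `Ω` algebraically closed of characteristic `0`, algebraic over `ℚ`.

Let `v` be a zero cycle of `c`, `x = v i₀` a simple point of it and `x'` a tangent vector of
`V(I)` at `x`.  For fixed `c`, `T` the polynomial (in `Y`)
`G = κ ∏ i, ⟨T̂ Y, v i⟩ − ⟨c, Y⟩ · Ψ̃(c, Y, T)` vanishes on `V(I)` by (H2), hence lies in `I`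
(Nullstellensatz, `I` radical), hence vanishes at the dual-number point `x + ε x'`.  Since
`⟨T̂ x, x⟩ = 0` and `⟨c, x⟩ = 0` the `ε`-component of this is the identity of polynomials in `T`
`⟨c, x'⟩ · Ψ̃(c, x, T) = κ · ⟨T̂ x', x⟩ · ∏_{j ≠ i₀} ⟨T̂ x, v j⟩`   (`S17DP_psiT_eq`).
Gauss–Mahler computes the height of the right side, the bihomogeneous height machine the height
of the left side.
-/

set_option autoImplicit false
set_option linter.style.haveILetI false
set_option linter.unusedSectionVars false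

open MvPolynomial

namespace Fermat.Agent.S17

section alg

variable {Ω : Type} [Field Ω] {ι : Type} [Fintype ι]

/-! ### dual numbers -/

theorem S17DP_fst_aeval (x x' : ι → Ω) (f : MvPolynomial ι Ω) :
    TrivSqZeroExt.fst (aeval (S17H_dual x x') f) = eval x f := by
  have h := congrArg (fun φ : MvPolynomial ι Ω →ₐ[Ω] Ω => φ f)
    (comp_aeval (R := Ω) (f := S17H_dual x x') (TrivSqZeroExt.fstHom Ω Ω Ω))
  simp only [AlgHom.comp_apply] at h
  have h2 : (fun i => (TrivSqZeroExt.fstHom Ω Ω Ω) (S17H_dual x x' i)) = x := by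
    funext i
    show TrivSqZeroExt.fst (S17H_dual x x' i) = x i
    unfold S17H_dual
    rw [TrivSqZeroExt.fst_add, TrivSqZeroExt.fst_inl, TrivSqZeroExt.fst_inr, add_zero]
  rw [h2] at h
  rw [← aeval_eq_eval, ← h]
  rfl

theorem S17DP_snd_mul (u w : DualNumber Ω) :
    TrivSqZeroExt.snd (u * w) =
      TrivSqZeroExt.fst u * TrivSqZeroExt.snd w + TrivSqZeroExt.fst w * TrivSqZeroExt.snd u := by
  rw [TrivSqZeroExt.snd_mul]
  simp [mul_comm]

theorem S17DP_snd_aeval_mul (x x' : ι → Ω) (f g : MvPolynomial ι Ω) :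
    TrivSqZeroExt.snd (aeval (S17H_dual x x') (f * g)) =
      eval x f * TrivSqZeroExt.snd (aeval (S17H_dual x x') g) +
        eval x g * TrivSqZeroExt.snd (aeval (S17H_dual x x') f) := by
  rw [map_mul, S17DP_snd_mul, S17DP_fst_aeval, S17DP_fst_aeval]

theorem S17DP_snd_aeval_C (x x' : ι → Ω) (a : Ω) :
    TrivSqZeroExt.snd (aeval (S17H_dual x x') (C a : MvPolynomial ι Ω)) = 0 := by
  rw [aeval_C, TrivSqZeroExt.algebraMap_eq_inl, TrivSqZeroExt.snd_inl]

theorem S17DP_snd_aeval_lin (x x' a : ι → Ω) :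
    TrivSqZeroExt.snd (aeval (S17H_dual x x') (S17GP_lin a)) = S17H_dot a x' := by
  unfold S17GP_lin S17H_dot
  rw [map_sum, TrivSqZeroExt.snd_sum]
  refine Finset.sum_congr rfl fun j _ => ?_
  rw [S17DP_snd_aeval_mul, S17DP_snd_aeval_C, eval_C, aeval_X]
  simp [S17H_dual]

theorem S17DP_eval_lin (a x : ι → Ω) : eval x (S17GP_lin a) = S17H_dot a x := by
  simp [S17GP_lin, S17H_dot]

/-- a tangent vector sits at a point of `V(I)`. -/
theorem S17DP_mem_V_of_tan {I : Ideal (MvPolynomial ι Ω)} {x x' : ι → Ω}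
    (h : S17H_Tan I x x') : x ∈ S17H_V I := by
  intro f hf
  rw [← S17DP_fst_aeval x x', h f hf]
  rfl

/-! ### the linear forms `Y ↦ ⟨T̂ Y, v⟩` and the polynomial `G` -/

/-- coefficient vector of the linear form `Y ↦ ⟨T̂ Y, v⟩`. -/
def S17DP_co (T : ι × ι → Ω) (v : ι → Ω) : ι → Ω :=
  fun i => ∑ j, (T (i, j) - T (j, i)) * v j

theorem S17DP_dot_co (T : ι × ι → Ω) (y v : ι → Ω) :
    S17H_dot (S17DP_co T v) y = S17H_dot (S17H_hat T y) v := by
  unfold S17H_dot S17DP_co S17H_hat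
  simp only [Finset.sum_mul]
  rw [Finset.sum_comm]
  exact Finset.sum_congr rfl fun j _ => Finset.sum_congr rfl fun i _ => by ring

theorem S17DP_dot_hat_self (T : ι × ι → Ω) (x : ι → Ω) :
    S17H_dot (S17H_hat T x) x = 0 := by
  rw [S17H_dot_hat, S17H_wedge_self]
  simp

/-- `Ψ̃(c, Y, T)` as a polynomial in `Y`. -/
noncomputable def S17DP_R {Γ : Type} [Fintype Γ] (psi : Γ → MvPolynomial (ι ⊕ ι) Ω)
    (mon : Γ → (ι × ι →₀ ℕ)) (c : ι → Ω) (T : ι × ι → Ω) : MvPolynomial ι Ω :=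
  ∑ γ, C (eval T (monomial (mon γ) (1 : Ω))) *
    bind₁ (Sum.elim (fun i => C (c i)) X) (psi γ)

theorem S17DP_eval_bind (c y : ι → Ω) (f : MvPolynomial (ι ⊕ ι) Ω) :
    eval y (bind₁ (Sum.elim (fun i => C (c i)) X) f) = eval (Sum.elim c y) f := by
  rw [← aeval_eq_eval, aeval_bind₁, ← aeval_eq_eval]
  congr 2
  funext s
  cases s <;> simp

theorem S17DP_eval_R {Γ : Type} [Fintype Γ] (psi : Γ → MvPolynomial (ι ⊕ ι) Ω)
    (mon : Γ → (ι × ι →₀ ℕ)) (c : ι → Ω) (T : ι × ι → Ω) (y : ι → Ω) :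
    eval y (S17DP_R psi mon c T) = eval T (S17H_psiT psi mon c y) := by
  unfold S17DP_R S17H_psiT
  simp only [map_sum, map_mul, eval_C]
  refine Finset.sum_congr rfl fun γ _ => ?_
  rw [S17DP_eval_bind, mul_comm]

/-- the polynomial `G = κ ∏ i, ⟨T̂ Y, v i⟩ − ⟨c, Y⟩ · Ψ̃(c, Y, T)` in `Y`. -/
noncomputable def S17DP_G {Γ : Type} [Fintype Γ] {k : ℕ} (psi : Γ → MvPolynomial (ι ⊕ ι) Ω)
    (mon : Γ → (ι × ι →₀ ℕ)) (c : ι → Ω) (T : ι × ι → Ω) (κ : Ω) (v : Fin k → ι → Ω) :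
    MvPolynomial ι Ω :=
  C κ * ∏ i, S17GP_lin (S17DP_co T (v i)) - S17GP_lin c * S17DP_R psi mon c T

theorem S17DP_eval_G {Γ : Type} [Fintype Γ] {k : ℕ} (psi : Γ → MvPolynomial (ι ⊕ ι) Ω)
    (mon : Γ → (ι × ι →₀ ℕ)) (c : ι → Ω) (T : ι × ι → Ω) (κ : Ω) (v : Fin k → ι → Ω)
    (y : ι → Ω) :
    eval y (S17DP_G psi mon c T κ v) =
      κ * ∏ i, S17H_dot (S17H_hat T y) (v i) -
        S17H_dot c y * eval T (S17H_psiT psi mon c y) := by
  unfold S17DP_G
  rw [map_sub, map_mul, map_mul, map_prod, eval_C, S17DP_eval_lin, S17DP_eval_R]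
  congr 2
  exact Finset.prod_congr rfl fun i _ => by rw [S17DP_eval_lin, S17DP_dot_co]

/-- (H2) holds modulo `I`: `G ∈ I` (Nullstellensatz). -/
theorem S17DP_G_mem [IsAlgClosed Ω] {k : ℕ} (X : S17H_Curve Ω ι k) (c : ι → Ω)
    (T : ι × ι → Ω) (κ : Ω) (v : Fin k → ι → Ω)
    (hF : ∀ Y : ι → Ω, eval (Sum.elim c Y) X.chow = κ * ∏ i, S17H_dot Y (v i)) :
    letI := X.instΓ
    S17DP_G X.psi X.mon c T κ v ∈ X.I := by
  letI := X.instΓ
  have h : S17DP_G X.psi X.mon c T κ v ∈ vanishingIdeal Ω (zeroLocus Ω X.I) := by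
    intro y hy
    have hy' : y ∈ S17H_V X.I := fun f hf => hy f hf
    rw [aeval_eq_eval, S17DP_eval_G]
    have h2 := X.h2 c y T hy'
    rw [hF] at h2
    rw [h2, sub_self]
  rw [vanishingIdeal_zeroLocus_eq_radical, X.I_rad.radical] at h
  exact h

/-- the `ε`-component of `G(x + ε x') = 0` at `x = v i₀`. -/
theorem S17DP_key [IsAlgClosed Ω] {k : ℕ} (X : S17H_Curve Ω ι k) (c : ι → Ω)
    (v : Fin k → ι → Ω) (i₀ : Fin k) (x' : ι → Ω) (κ : Ω)
    (hF : ∀ Y : ι → Ω, eval (Sum.elim c Y) X.chow = κ * ∏ i, S17H_dot Y (v i))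
    (htan : S17H_Tan X.I (v i₀) x') (hcx : S17H_dot c (v i₀) = 0) (T : ι × ι → Ω) :
    letI := X.instΓ
    S17H_dot c x' * eval T (S17H_psiT X.psi X.mon c (v i₀)) =
      κ * (S17H_dot (S17H_hat T x') (v i₀) *
        ∏ j ∈ Finset.univ.erase i₀, S17H_dot (S17H_hat T (v i₀)) (v j)) := by
  classical
  letI := X.instΓ
  have hG := htan _ (S17DP_G_mem X c T κ v hF)
  have hs := congrArg TrivSqZeroExt.snd hG
  unfold S17DP_G at hs
  rw [map_sub, TrivSqZeroExt.snd_sub, S17DP_snd_aeval_mul, S17DP_snd_aeval_mul,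
    S17DP_snd_aeval_C, S17DP_snd_aeval_lin, eval_C, S17DP_eval_lin, hcx, S17DP_eval_R,
    ← Finset.mul_prod_erase _ _ (Finset.mem_univ i₀), S17DP_snd_aeval_mul,
    S17DP_snd_aeval_lin, S17DP_eval_lin, S17DP_dot_co, S17DP_dot_hat_self,
    S17DP_dot_co, TrivSqZeroExt.snd_zero] at hs
  simp only [zero_mul, mul_zero, zero_add, add_zero] at hs
  rw [map_prod] at hs
  have hp : ∏ j ∈ Finset.univ.erase i₀, eval (v i₀) (S17GP_lin (S17DP_co T (v j))) =
      ∏ j ∈ Finset.univ.erase i₀, S17H_dot (S17H_hat T (v i₀)) (v j) :=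
    Finset.prod_congr rfl fun j _ => by rw [S17DP_eval_lin, S17DP_dot_co]
  rw [hp] at hs
  linear_combination -hs

/-- a bihomogeneous polynomial of positive left degree vanishes at `c = 0`. -/
theorem S17DP_eval_zero_left {f : MvPolynomial (ι ⊕ ι) Ω} {a b : ℕ} (hf : S17C_IsBihom f a b)
    (ha : 0 < a) (Y : ι → Ω) : eval (Sum.elim (0 : ι → Ω) Y) f = 0 := by
  classical
  rw [eval_eq']
  refine Finset.sum_eq_zero fun d hd => ?_
  have hd' : coeff d f ≠ 0 := by rwa [mem_support_iff] at hd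
  obtain ⟨h1, -⟩ := hf d hd'
  have hex : ∃ i, d (Sum.inl i) ≠ 0 := by
    by_contra hcon
    have h0 : ∑ i, d (Sum.inl i) = 0 := Finset.sum_eq_zero fun i _ => by
      by_contra hi
      exact hcon ⟨i, hi⟩
    omega
  obtain ⟨i, hi⟩ := hex
  rw [Finset.prod_eq_zero (Finset.mem_univ (Sum.inl i)) (by simp [zero_pow hi]), mul_zero]

theorem S17DP_dot_comm (x y : ι → Ω) : S17H_dot x y = S17H_dot y x :=
  Finset.sum_congr rfl fun _ _ => mul_comm _ _

theorem S17DP_wedge_zero_left (y : ι → Ω) : S17H_wedge (0 : ι → Ω) y = 0 := by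
  funext p; simp [S17H_wedge]

theorem S17DP_wedge_zero_right (x : ι → Ω) : S17H_wedge x (0 : ι → Ω) = 0 := by
  funext p; simp [S17H_wedge]

end alg

section main

variable {Ω : Type} [Field Ω] [CharZero Ω] [Algebra.IsAlgebraic ℚ Ω] [IsAlgClosed Ω]
  {ι : Type} [Fintype ι] {k : ℕ}

/-- the identity of polynomials in `T`:
`⟨c, x'⟩ · Ψ̃(c, x, T) = κ · ⟨T̂ x', x⟩ · ∏_{j ≠ i₀} ⟨T̂ x, v j⟩` for `x = v i₀`. -/
theorem S17DP_psiT_eq (X : S17H_Curve Ω ι k) (c : ι → Ω)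
    (v : Fin k → ι → Ω) (i₀ : Fin k) (x' : ι → Ω) (κ : Ω)
    (hF : ∀ Y : ι → Ω, eval (Sum.elim c Y) X.chow = κ * ∏ i, S17H_dot Y (v i))
    (htan : S17H_Tan X.I (v i₀) x') (hcx : S17H_dot c (v i₀) = 0) :
    letI := X.instΓ
    C (S17H_dot c x') * S17H_psiT X.psi X.mon c (v i₀) =
      C κ * (S17H_skew x' (v i₀) * ∏ j ∈ Finset.univ.erase i₀, S17H_skew (v i₀) (v j)) := by
  letI := X.instΓ
  apply MvPolynomial.funext
  intro T
  rw [map_mul, map_mul, map_mul, map_prod, eval_C, eval_C, S17H_eval_skew]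
  simp_rw [S17H_eval_skew]
  exact S17DP_key X c v i₀ x' κ hF htan hcx T

/-- **(DEC′)**, abstract form (contract statement of `HtDefs.lean`). -/
theorem S17DP_main (X : S17H_Curve Ω ι k) : S17H_StmtDEC' X := by
  classical
  letI := X.instΓ
  obtain ⟨C₁, hC₁⟩ := S17C_bihom (S17AH_api.{0} Ω) (Ω := Ω) (k - 1) (k - 1) X.psi X.psi_bihom
    X.I X.I_hom (by
      intro c x hc hx hxI
      obtain ⟨γ, hγ⟩ := X.ncz c x hc hx (fun f hf => by
        have := hxI f hf
        rwa [aeval_eq_eval] at this)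
      exact ⟨γ, by rwa [aeval_eq_eval]⟩)
  refine ⟨C₁ + k * Real.log (S17GM_const (Fintype.card (ι × ι)) (k + 1)), ?_⟩
  intro c v i₀ x' hF htan hxx' hsimple
  have hk : 0 < k := i₀.pos
  have hx : v i₀ ∈ S17H_V X.I := S17DP_mem_V_of_tan htan
  have hx0 : v i₀ ≠ 0 := by
    intro h
    apply hxx'
    rw [h, S17DP_wedge_zero_left]
  have hv : ∀ j, v j ≠ 0 := by
    intro j
    by_cases hj : j = i₀
    · rw [hj]; exact hx0
    · intro h
      apply hsimple j hj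
      rw [h, S17DP_wedge_zero_right]
  obtain ⟨κ, hκ, hFκ⟩ := hF
  -- `c ≠ 0`
  have hc : c ≠ 0 := by
    rintro rfl
    have h0 : ∏ i, S17GP_lin (v i) = 0 := by
      apply MvPolynomial.funext
      intro Y
      have h1 := hFκ Y
      rw [S17DP_eval_zero_left X.chow_bihom hk] at h1
      rw [map_prod, map_zero]
      rcases mul_eq_zero.1 h1.symm with h | h
      · exact absurd h hκ
      · rw [← h]
        exact Finset.prod_congr rfl fun i _ => by rw [S17DP_eval_lin, S17DP_dot_comm]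
    obtain ⟨i, -, hi⟩ := Finset.prod_eq_zero_iff.1 h0
    exact S17GP_lin_ne_zero (hv i) hi
  -- `Ψ(c,x,·) ≠ 0`
  have hne : S17H_psiT X.psi X.mon c (v i₀) ≠ 0 := by
    obtain ⟨γ, hγ⟩ := X.ncz c (v i₀) hc hx0 hx
    intro h0
    apply hγ
    rw [← S17DB_coeff_psiT X.psi X.mon X.mon_inj c (v i₀) γ, h0, coeff_zero]
  -- `⟨c, x⟩ = 0`
  have hcx : S17H_dot c (v i₀) = 0 := by
    by_contra hcx
    apply hne
    apply MvPolynomial.funext
    intro T
    have h2 := X.h2 c (v i₀) T hx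
    rw [hFκ, Finset.prod_eq_zero (Finset.mem_univ i₀) (S17DP_dot_hat_self T (v i₀)),
      mul_zero] at h2
    rw [map_zero]
    exact (mul_eq_zero.1 h2.symm).resolve_left hcx
  have hid := S17DP_psiT_eq X c v i₀ x' κ hFκ htan hcx
  -- the `k` linear forms
  have hw : ∀ i, (if i = i₀ then S17H_wedge x' (v i₀) else S17H_wedge (v i₀) (v i)) ≠ 0 := by
    intro i
    by_cases hi : i = i₀
    · rw [if_pos hi]
      intro h
      apply hxx'
      rw [S17H_wedge_swap, h, neg_zero]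
    · rw [if_neg hi]
      exact hsimple i hi
  have hprod : ∏ i, S17GP_lin
        (if i = i₀ then S17H_wedge x' (v i₀) else S17H_wedge (v i₀) (v i)) =
      S17H_skew x' (v i₀) * ∏ j ∈ Finset.univ.erase i₀, S17H_skew (v i₀) (v j) := by
    rw [← Finset.mul_prod_erase _ _ (Finset.mem_univ i₀), if_pos rfl]
    congr 1
    refine Finset.prod_congr rfl fun j hj => ?_
    rw [if_neg (Finset.ne_of_mem_erase hj)]
    rfl
  have hcx' : S17H_dot c x' ≠ 0 := by
    intro h0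
    rw [h0, map_zero, zero_mul, ← hprod] at hid
    rcases mul_eq_zero.1 hid.symm with h | h
    · exact hκ (by simpa using h)
    · obtain ⟨i, -, hi⟩ := Finset.prod_eq_zero_iff.1 h
      exact S17GP_lin_ne_zero (hw i) hi
  -- heights: the left side
  have h1 := hC₁ c (v i₀) hc hx0 hx
  have h2 : (S17AH_api.{0} Ω).h (fun γ : X.Γ => eval (Sum.elim c (v i₀)) (X.psi γ)) =
      S17AG_hpoly (S17H_psiT X.psi X.mon c (v i₀)) := by
    rw [← S17GP_hpoly_eq (S17H_psiT X.psi X.mon c (v i₀)) X.mon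
      (S17DB_support_psiT X.psi X.mon c (v i₀))]
    show S17AH_h _ = S17AH_h _
    congr 1
    funext γ
    exact (S17DB_coeff_psiT X.psi X.mon X.mon_inj c (v i₀) γ).symm
  -- heights: the right side
  have h3 : S17AG_hpoly (S17H_psiT X.psi X.mon c (v i₀)) =
      S17AG_hpoly (∏ i, S17GP_lin
        (if i = i₀ then S17H_wedge x' (v i₀) else S17H_wedge (v i₀) (v i))) := by
    rw [← S17GP_hpoly_C_mul _ hcx', hid, ← hprod, S17GP_hpoly_C_mul _ hκ]
  have h4 := S17GP_prod_linear_var k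
    (fun i => if i = i₀ then S17H_wedge x' (v i₀) else S17H_wedge (v i₀) (v i)) hw
  have h5 : ∑ i, S17AH_h
        (if i = i₀ then S17H_wedge x' (v i₀) else S17H_wedge (v i₀) (v i)) =
      S17H_w (v i₀) x' + ∑ j ∈ Finset.univ.erase i₀, S17H_w (v i₀) (v j) := by
    rw [← Finset.add_sum_erase _ _ (Finset.mem_univ i₀), if_pos rfl]
    congr 1
    · exact S17H_w_comm x' (v i₀)
    · refine Finset.sum_congr rfl fun j hj => ?_
      rw [if_neg (Finset.ne_of_mem_erase hj)]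
      rfl
  rw [h2, h3] at h1
  rw [h5] at h4
  have h6 : (((k - 1 : ℕ) : ℝ)) = (k : ℝ) - 1 := by
    rw [Nat.cast_sub hk, Nat.cast_one]
  rw [h6] at h1
  have h7 : (S17AH_api.{0} Ω).h c = S17AH_h c := rfl
  have h8 : (S17AH_api.{0} Ω).h (v i₀) = S17AH_h (v i₀) := rfl
  rw [h7, h8] at h1
  have e1 := abs_le.1 h1
  have e4 := abs_le.1 h4
  linarith [e1.1, e1.2, e4.1, e4.2]

end main

end Fermat.Agent.S17
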