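import Fermat.Agent.S17.HtDefs

/-!
# TRACK 8 (S17), heights pillar: exact statements of (DEC′), (TAN), (DISC) over `S17H_Curve`
(helper21), prefix `S17DP_`

`X : S17H_Curve Ω ι k` the abstract curve data of `S17/HtDefs.lean`.

* `S17DP_Tan I x x'`      `x ∈ V(I)` and `x'` is a Zariski tangent vector of the cone `V(I)` at `x`:
                          `∑ j, (∂f/∂X_j)(x) · x' j = 0` for all `f ∈ I`.
                          (Curve side: `x = ẽ(Q)`, `x' = ((D_t e_j)(Q))_j`: apply the derivation `D_t`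
                          to `f(e) = 0`, `f ∈ I` homogeneous, and evaluate at `Q`.)
* `S17DP_StmtDECp X`      **(DEC′)**: for a zero cycle `v` of `c` with `v i₀ = x`, a tangent vector
                          `x'` at `x` with `x ∧ x' ≠ 0`, and `x ∧ v i ≠ 0` for `i ≠ i₀`:
                          `|Σ_{i ≠ i₀} h(x ∧ v i) + h(x ∧ x') − (k−1)(h c + h x)| ≤ C`.
* `S17DP_StmtTAN X R m`   **(TAN)** for a relation `R x x'` ("`x = λ ẽ(Q)`, `Q ∉ B`, and
                          `x' = λ D_t ẽ(Q)`"): `m · h(c) ≤ Σ_i h(v i ∧ x' i) + C`  (`m = 2k + 2g − 2`).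
* `S17DP_StmtDISC X R m`  **(DISC)**: `m/2 · h(c) ≤ Σ_{i<j} λ(v i, v j) + C` for a zero cycle `v` of
                          `c` consisting of pairwise non-proportional `R`-good points.
-/

set_option autoImplicit false

open MvPolynomial

namespace Fermat.Agent.S17

variable {Ω : Type} [Field Ω] {ι : Type}

/-- `x ∈ V(I)` and `x'` is a Zariski tangent vector of the cone `V(I)` at `x`. -/
def S17DP_Tan (I : Ideal (MvPolynomial ι Ω)) [Fintype ι] (x x' : ι → Ω) : Prop :=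
  x ∈ S17H_V I ∧ ∀ f ∈ I, ∑ j, eval x (pderiv j f) * x' j = 0

section statements

variable [CharZero Ω] [Fintype ι] {k : ℕ}

/-- **(DEC′)**, two-sided. -/
def S17DP_StmtDECp (X : S17H_Curve Ω ι k) : Prop :=
  ∃ C : ℝ, ∀ (c x x' : ι → Ω) (v : Fin k → ι → Ω) (i₀ : Fin k),
    S17DP_Tan X.I x x' → S17H_wedge x x' ≠ 0 → v i₀ = x →
    (∀ i, i ≠ i₀ → S17H_wedge x (v i) ≠ 0) → S17H_Fact X.chow c v →
    |∑ i ∈ Finset.univ.erase i₀, S17H_w x (v i) + S17H_w x x'
        - ((k : ℝ) - 1) * (S17AH_h c + S17AH_h x)| ≤ C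

/-- **(TAN)** for the tangent relation `R`, with the degree `m` of the Gauss map. -/
def S17DP_StmtTAN (X : S17H_Curve Ω ι k) (R : (ι → Ω) → (ι → Ω) → Prop) (m : ℝ) : Prop :=
  ∃ C : ℝ, ∀ (c : ι → Ω) (v x' : Fin k → ι → Ω), S17H_Fact X.chow c v →
    (∀ i, R (v i) (x' i)) →
    m * S17AH_h c ≤ ∑ i, S17H_w (v i) (x' i) + C

/-- **(DISC)**: the self-pairing of a generic hyperplane section. -/
def S17DP_StmtDISC (X : S17H_Curve Ω ι k) (R : (ι → Ω) → (ι → Ω) → Prop) (m : ℝ) : Prop :=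
  ∃ C : ℝ, ∀ (c : ι → Ω) (v x' : Fin k → ι → Ω), S17H_Fact X.chow c v →
    (∀ i, R (v i) (x' i)) → (∀ i j, i ≠ j → S17H_wedge (v i) (v j) ≠ 0) →
    m / 2 * S17AH_h c ≤ ∑ i, ∑ j, (if i < j then S17H_lam (v i) (v j) else 0) + C

end statements

end Fermat.Agent.S17
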