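import Fermat.Agent.S17.UAbs1
import Fermat.Agent.S17.DeccGen

/-!
# TRACK 8 (S17), heights pillar, package DECC part 2 (helper19): (NCZ), abstract form

`S17DN_ncz`: the `T`-coefficients `psi γ` of `Ψ̃` have no common zero on
`(Ω^ι ∖ 0) × (V(I) ∖ 0)`, from

* `hV`    every nonzero point of `V(I)` is a multiple of some `ev w`;
* `hsep`  distinct points have non-proportional coordinates;
* `h1`, `h2`  (H1), (H2) at the points `ev w`;
* `hfact` every section `c ≠ 0` has a zero cycle consisting of zeros of `c`;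
* `hbert` (Bertini) for every point `Q` and `c ≠ 0` there is a section `X₀` with `k` pairwise
  distinct zeros `s i`, one of them `Q`, the others no zeros of `c`.

Proof: `𝒞(·, X₀)` has degree `≤ k` and vanishes on the `k` distinct hyperplanes `⟨·, ev (s i)⟩ = 0`,
so it is `r · ∏ i ⟨·, ev (s i)⟩`, `r ≠ 0`; by (H2) with `T̂₀ (ev Q) = X₀`
`𝒞(·, X₀) = ⟨·, ev Q⟩ · Ψ̃(·, ev Q, T₀)`; cancel `⟨·, ev Q⟩` and evaluate at `c`.

`S17DN_h2`: (H2) on all of `V(I)` from (H2) at the points.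
-/

set_option autoImplicit false
set_option linter.unusedSectionVars false
set_option linter.style.haveILetI false

open MvPolynomial

namespace Fermat.Agent.S17

section pe

variable {Ω : Type} [Field Ω] {ι : Type} [Fintype ι]

/-- partial evaluation of `f(c, X)` at `X`: a polynomial in `c`. -/
noncomputable def S17DN_pe (f : MvPolynomial (ι ⊕ ι) Ω) (X : ι → Ω) : MvPolynomial ι Ω :=
  aeval (Sum.elim (fun j => (MvPolynomial.X j : MvPolynomial ι Ω)) (fun j => C (X j))) f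

theorem S17DN_eval_pe (f : MvPolynomial (ι ⊕ ι) Ω) (X c : ι → Ω) :
    eval c (S17DN_pe f X) = eval (Sum.elim c X) f := by
  unfold S17DN_pe
  rw [S17UA_eval_aeval]
  have h : (fun v => eval c (Sum.elim (fun j => (MvPolynomial.X j : MvPolynomial ι Ω))
      (fun j => C (X j)) v)) = Sum.elim c X := by
    apply _root_.funext
    intro v
    cases v <;> simp
  rw [h]

theorem S17DN_pe_hom {a b : ℕ} (f : MvPolynomial (ι ⊕ ι) Ω) (hf : S17C_IsBihom f a b)
    (X : ι → Ω) : (S17DN_pe f X).IsHomogeneous a := by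
  classical
  have h1 : IsWeightedHomogeneous (Sum.elim (fun _ : ι => (1 : ℕ)) (fun _ : ι => (0 : ℕ))) f a := by
    intro d hd
    obtain ⟨h2, -⟩ := hf d hd
    rw [Finsupp.weight_apply, Finsupp.sum_fintype _ _ (fun _ => by simp), Fintype.sum_sum_type]
    simpa using h2
  unfold S17DN_pe
  refine S17UA_wh_aeval _ (fun _ : ι => (1 : ℕ)) f a h1 _ ?_
  rintro (j | j)
  · exact isWeightedHomogeneous_X _ _ j
  · exact isWeightedHomogeneous_C _ _

end pe

section fac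

variable {Ω : Type} [Field Ω] [CharZero Ω] [Algebra.IsAlgebraic ℚ Ω] {ι : Type} [Fintype ι]

theorem S17DN_lin_hom (v : ι → Ω) : (S17GP_lin v).IsHomogeneous 1 := by
  unfold S17GP_lin
  refine IsHomogeneous.sum _ _ _ fun j _ => ?_
  exact isHomogeneous_C_mul_X _ _

theorem S17DN_dot_comm (c x : ι → Ω) : S17H_dot c x = S17H_dot x c := by
  unfold S17H_dot
  exact Finset.sum_congr rfl fun j _ => mul_comm _ _

theorem S17DN_dot_smul (c x : ι → Ω) (a : Ω) : S17H_dot c (a • x) = a * S17H_dot c x := by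
  simp only [S17H_dot, Pi.smul_apply, smul_eq_mul, Finset.mul_sum]
  exact Finset.sum_congr rfl fun j _ => by ring

theorem S17DN_hat_smul (T : ι × ι → Ω) (x : ι → Ω) (a : Ω) :
    S17H_hat T (a • x) = a • S17H_hat T x := by
  apply _root_.funext
  intro j
  simp only [S17H_hat, Pi.smul_apply, smul_eq_mul, Finset.mul_sum]
  exact Finset.sum_congr rfl fun i _ => by ring

/-- a nonzero polynomial of degree `≤ k` vanishing on `k` pairwise distinct hyperplanes is a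
constant multiple of the product of the linear forms. -/
theorem S17DN_factor {k : ℕ} (p : MvPolynomial ι Ω) (hp0 : p ≠ 0) (hdeg : p.totalDegree ≤ k)
    (a : Fin k → ι → Ω) (ha0 : ∀ i, a i ≠ 0)
    (ha : ∀ i j, i ≠ j → S17H_wedge (a i) (a j) ≠ 0)
    (hvan : ∀ i, ∀ z : ι → Ω, S17H_dot (a i) z = 0 → eval z p = 0) :
    ∃ r : Ω, r ≠ 0 ∧ p = C r * ∏ i, S17GP_lin (a i) := by
  classical
  have hdvd : (∏ i ∈ Finset.univ, S17GP_lin (a i)) ∣ p := by
    refine S17UA_prod_dvd Finset.univ a ?_ (fun i _ => ha0 i) p (fun i _ z hz => hvan i z hz)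
    intro i _ j _ hij
    obtain ⟨q, hq⟩ := Function.ne_iff.mp (ha i j hij)
    exact ⟨q.1, q.2, hq⟩
  obtain ⟨R, hR⟩ := hdvd
  have hprod0 : (∏ i, S17GP_lin (a i)) ≠ 0 :=
    Finset.prod_ne_zero_iff.2 fun i _ => S17GP_lin_ne_zero (ha0 i)
  have hR0 : R ≠ 0 := by
    rintro rfl
    exact hp0 (by rw [hR, mul_zero])
  have hprodhom : (∏ i, S17GP_lin (a i)).IsHomogeneous k := by
    have h := IsHomogeneous.prod Finset.univ (fun i => S17GP_lin (a i)) (fun _ => 1)
      (fun i _ => S17DN_lin_hom (a i))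
    simpa using h
  have hdp : (∏ i, S17GP_lin (a i)).totalDegree = k := hprodhom.totalDegree hprod0
  have hdR : R.totalDegree = 0 := by
    have h := totalDegree_mul_of_isDomain hprod0 hR0
    rw [← hR, hdp] at h
    omega
  rw [totalDegree_eq_zero_iff_eq_C] at hdR
  refine ⟨coeff 0 R, ?_, ?_⟩
  · intro h
    apply hR0
    rw [hdR, h, map_zero]
  · rw [hR, mul_comm, ← hdR]

/-- **(NCZ)**, abstract form. -/
theorem S17DN_ncz {k : ℕ} {Pt : Type} (ev : Pt → ι → Ω)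
    (I : Ideal (MvPolynomial ι Ω)) (chow : MvPolynomial (ι ⊕ ι) Ω)
    (hchow : S17C_IsBihom chow k k)
    {Γ : Type} [Fintype Γ] (psi : Γ → MvPolynomial (ι ⊕ ι) Ω) (mon : Γ → (ι × ι →₀ ℕ))
    (hpsi : ∀ γ, S17C_IsBihom (psi γ) (k - 1) (k - 1))
    (hV : ∀ x, x ∈ S17H_V I → x ≠ 0 → ∃ (w : Pt) (a : Ω), a ≠ 0 ∧ x = a • ev w)
    (hev : ∀ w, ev w ≠ 0)
    (hsep : ∀ w w', w ≠ w' → S17H_wedge (ev w) (ev w') ≠ 0)
    (h1 : ∀ w (c X : ι → Ω), S17H_dot c (ev w) = 0 → S17H_dot X (ev w) = 0 →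
      eval (Sum.elim c X) chow = 0)
    (h2 : ∀ w (c : ι → Ω) (T : ι × ι → Ω), eval (Sum.elim c (S17H_hat T (ev w))) chow =
      S17H_dot c (ev w) * eval T (S17H_psiT psi mon c (ev w)))
    (hfact : ∀ c : ι → Ω, c ≠ 0 → ∃ v : Fin k → Pt, S17H_Fact chow c (fun i => ev (v i)) ∧
      ∀ i, S17H_dot c (ev (v i)) = 0)
    (hbert : ∀ (Q : Pt) (c : ι → Ω), c ≠ 0 → ∃ (X₀ : ι → Ω) (s : Fin k → Pt),
      Function.Injective s ∧ (∃ i₀, s i₀ = Q) ∧
      (∀ w, S17H_dot X₀ (ev w) = 0 ↔ ∃ i, s i = w) ∧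
      ∀ i, s i ≠ Q → S17H_dot c (ev (s i)) ≠ 0) :
    S17H_NCZ I psi := by
  classical
  intro c x hc hx hxV
  obtain ⟨Q, a, ha, rfl⟩ := hV x hxV hx
  obtain ⟨X₀, s, hsinj, ⟨i₀, hi₀⟩, hzero, havoid⟩ := hbert Q c hc
  have hpdeg : (S17DN_pe chow X₀).totalDegree ≤ k :=
    (S17DN_pe_hom chow hchow X₀).totalDegree_le
  have hvan : ∀ i, ∀ z : ι → Ω, S17H_dot (ev (s i)) z = 0 →
      eval z (S17DN_pe chow X₀) = 0 := by
    intro i z hz
    rw [S17DN_eval_pe]
    exact h1 (s i) z X₀ (by rw [S17DN_dot_comm]; exact hz) ((hzero _).2 ⟨i, rfl⟩)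
  have hprod0 : (∏ i, S17GP_lin (ev (s i))) ≠ 0 :=
    Finset.prod_ne_zero_iff.2 fun i _ => S17GP_lin_ne_zero (hev _)
  obtain ⟨c', hc'⟩ : ∃ c', eval c' (∏ i, S17GP_lin (ev (s i))) ≠ 0 := by
    by_contra h
    push Not at h
    exact hprod0 (MvPolynomial.funext fun z => by rw [h z, map_zero])
  rw [map_prod] at hc'
  have hc'i : ∀ i, S17H_dot c' (ev (s i)) ≠ 0 := by
    intro i h
    apply hc'
    apply Finset.prod_eq_zero (Finset.mem_univ i)
    rw [S17GP_eval_lin]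
    rw [S17DN_dot_comm] at h
    exact h
  have hc'0 : c' ≠ 0 := by
    rintro rfl
    exact hc'i i₀ (by simp [S17H_dot])
  obtain ⟨v, ⟨κ, hκ, hFX⟩, hv⟩ := hfact c' hc'0
  have hp0 : S17DN_pe chow X₀ ≠ 0 := by
    intro h0
    have h3 : eval c' (S17DN_pe chow X₀) = 0 := by rw [h0, map_zero]
    rw [S17DN_eval_pe, hFX X₀] at h3
    rcases mul_eq_zero.1 h3 with h4 | h4
    · exact hκ h4
    · obtain ⟨i, -, hi⟩ := Finset.prod_eq_zero_iff.1 h4
      obtain ⟨j, hj⟩ := (hzero (v i)).1 hi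
      exact hc'i j (by rw [hj]; exact hv i)
  obtain ⟨r, hr, hfac⟩ := S17DN_factor (S17DN_pe chow X₀) hp0 hpdeg (fun i => ev (s i))
    (fun i => hev _) (fun i j hij => hsep _ _ (fun h => hij (hsinj h))) hvan
  obtain ⟨j₀, hj₀⟩ := Function.ne_iff.mp (hev Q)
  have hj₀' : ev Q j₀ ≠ 0 := hj₀
  have hXQ : S17H_dot X₀ (ev Q) = 0 := (hzero Q).2 ⟨i₀, hi₀⟩
  obtain ⟨T₀, hhat⟩ : ∃ T₀ : ι × ι → Ω, S17H_hat T₀ (ev Q) = X₀ := by
    refine ⟨fun q => if q.1 = j₀ then X₀ q.2 / ev Q j₀ else 0, ?_⟩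
    apply _root_.funext
    intro j
    simp only [S17H_hat, sub_mul, Finset.sum_sub_distrib, ite_mul, zero_mul]
    rw [Finset.sum_ite_eq' Finset.univ j₀, if_pos (Finset.mem_univ _), div_mul_cancel₀ _ hj₀']
    by_cases hj : j = j₀
    · simp only [hj, if_true]
      have : ∑ i, X₀ i / ev Q j₀ * ev Q i = S17H_dot X₀ (ev Q) / ev Q j₀ := by
        rw [S17H_dot, Finset.sum_div]
        exact Finset.sum_congr rfl fun i _ => by ring
      rw [this, hXQ, zero_div, sub_zero]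
    · simp [hj]
  have hΨeval : ∀ c'' : ι → Ω,
      eval c'' (∑ γ, C (eval T₀ (monomial (mon γ) (1 : Ω))) * S17DN_pe (psi γ) (ev Q)) =
        eval T₀ (S17H_psiT psi mon c'' (ev Q)) := by
    intro c''
    simp only [S17H_psiT, map_sum, map_mul, eval_C, S17DN_eval_pe]
    exact Finset.sum_congr rfl fun γ _ => by ring
  have hid : S17GP_lin (ev Q) *
      (∑ γ, C (eval T₀ (monomial (mon γ) (1 : Ω))) * S17DN_pe (psi γ) (ev Q)) =
        S17DN_pe chow X₀ := by
    apply MvPolynomial.funext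
    intro c''
    have h2' := h2 Q c'' T₀
    rw [hhat] at h2'
    rw [map_mul, S17GP_eval_lin, hΨeval, S17DN_eval_pe, h2', S17DN_dot_comm c'' (ev Q)]
    rfl
  have hsplit : ∏ i, S17GP_lin (ev (s i)) =
      S17GP_lin (ev Q) * ∏ i ∈ Finset.univ.erase i₀, S17GP_lin (ev (s i)) := by
    rw [← hi₀]
    exact (Finset.mul_prod_erase Finset.univ (fun i => S17GP_lin (ev (s i)))
      (Finset.mem_univ i₀)).symm
  have hΨ' : (∑ γ, C (eval T₀ (monomial (mon γ) (1 : Ω))) * S17DN_pe (psi γ) (ev Q)) =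
      C r * ∏ i ∈ Finset.univ.erase i₀, S17GP_lin (ev (s i)) := by
    apply mul_left_cancel₀ (S17GP_lin_ne_zero (hev Q))
    rw [hid, hfac, hsplit]
    ring
  have hΨc : eval T₀ (S17H_psiT psi mon c (ev Q)) ≠ 0 := by
    rw [← hΨeval, hΨ', map_mul, eval_C, map_prod]
    refine mul_ne_zero hr (Finset.prod_ne_zero_iff.2 fun i hi => ?_)
    rw [S17GP_eval_lin]
    have hne : s i ≠ Q := by
      intro h
      rw [← hi₀] at h
      exact (Finset.ne_of_mem_erase hi) (hsinj h)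
    have h3 := havoid i hne
    rw [S17DN_dot_comm] at h3
    exact h3
  have hex : ∃ γ, eval (Sum.elim c (ev Q)) (psi γ) ≠ 0 := by
    by_contra h
    push Not at h
    apply hΨc
    simp [S17H_psiT, h]
  obtain ⟨γ, hγ⟩ := hex
  refine ⟨γ, ?_⟩
  have hsc := S17DC_aeval_bihom_scale (psi γ) (k - 1) (k - 1) (hpsi γ) c (ev Q) a
  simp only [aeval_eq_eval] at hsc
  have he : (a • ev Q) = fun i => a * ev Q i := rfl
  rw [he]
  have hsc' : eval (Sum.elim c fun i => a * ev Q i) (psi γ) =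
      a ^ (k - 1) * eval (Sum.elim c (ev Q)) (psi γ) := hsc
  rw [hsc']
  exact mul_ne_zero (pow_ne_zero _ ha) hγ

/-- **(H2)** on all of `V(I)` from (H2) at the points `ev w`. -/
theorem S17DN_h2 {k : ℕ} (hk : 1 ≤ k) {Pt : Type} (ev : Pt → ι → Ω)
    (I : Ideal (MvPolynomial ι Ω)) (chow : MvPolynomial (ι ⊕ ι) Ω)
    (hchow : S17C_IsBihom chow k k)
    {Γ : Type} [Fintype Γ] (psi : Γ → MvPolynomial (ι ⊕ ι) Ω) (mon : Γ → (ι × ι →₀ ℕ))
    (hpsi : ∀ γ, S17C_IsBihom (psi γ) (k - 1) (k - 1))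
    (hV : ∀ x, x ∈ S17H_V I → x ≠ 0 → ∃ (w : Pt) (a : Ω), a ≠ 0 ∧ x = a • ev w)
    (h2 : ∀ w (c : ι → Ω) (T : ι × ι → Ω), eval (Sum.elim c (S17H_hat T (ev w))) chow =
      S17H_dot c (ev w) * eval T (S17H_psiT psi mon c (ev w))) :
    S17H_H2 I chow psi mon := by
  classical
  have hscale : ∀ (f : MvPolynomial (ι ⊕ ι) Ω) (n m : ℕ), S17C_IsBihom f n m →
      ∀ (c y : ι → Ω) (a : Ω), eval (Sum.elim c (a • y)) f = a ^ m * eval (Sum.elim c y) f := by
    intro f n m hf c y a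
    have hsc := S17DC_aeval_bihom_scale f n m hf c y a
    simp only [aeval_eq_eval] at hsc
    exact hsc
  intro c x T hx
  by_cases hx0 : x = 0
  · subst hx0
    have h0 : S17H_hat T (0 : ι → Ω) = (0 : Ω) • (0 : ι → Ω) := by
      apply _root_.funext
      intro j
      simp [S17H_hat]
    rw [h0, hscale chow k k hchow, zero_pow (by omega), zero_mul]
    simp [S17H_dot]
  · obtain ⟨w, a, ha, rfl⟩ := hV x hx hx0
    rw [S17DN_hat_smul, hscale chow k k hchow, h2 w c T, S17DN_dot_smul]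
    have hps : eval T (S17H_psiT psi mon c (a • ev w)) =
        a ^ (k - 1) * eval T (S17H_psiT psi mon c (ev w)) := by
      simp only [S17H_psiT, map_sum, map_mul, eval_C, Finset.mul_sum]
      refine Finset.sum_congr rfl fun γ _ => ?_
      rw [hscale (psi γ) (k - 1) (k - 1) (hpsi γ)]
      ring
    rw [hps]
    have hpow : a ^ k = a * a ^ (k - 1) := by
      rw [← pow_succ']
      congr 1
      omega
    rw [hpow]
    ring

end fac

end Fermat.Agent.S17
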