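import Mathlib
import Fermat.Agent.Lib.RiemannNonspecial
import Fermat.Agent.Lib.DiffExpand

/-!
# TRACK 8 "MW" (S17), pillar DIV: the common DEFINITIONS (helper15, designer)

Everything is ABSTRACT: `K` a field, `F / K` a function field (`RR_Hyp K F`).  Prefix `S17D_`.
Definitions only (no theorem is assumed here); the packages PM, ORD, DATA, JAC, LIN, SOUND, ASM
prove statements about these definitions (table: `NOTES/items/16_DIV_iface.md`).

* `S17D_Model K F`   : a plane model `x, y, Φ, δ` of `F` (package PM proves `Nonempty`).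
* `S17D_Der Φ`       : the derivation `h ↦ h_X Φ_Y - h_Y Φ_X` of `K[X, Y]` (kills `Φ`).
* `S17D_Data M Q n`  : base place `Q`, non-special points `R_i`, basis `ψ_k` of `L(nE + Q)`,
                       numerators `A_k` (package DATA proves existence).
* `S17D_eq`, `S17D_ineq` : the polynomial system (unknowns `c_k, a_i, b_i`; parameters `e_k, ξ`).
* `S17D_base`, `S17D_par` : the base point and the parameter values at a place.
-/

set_option autoImplicit false

open AlgebraicCurve MvPolynomial IntermediateField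

namespace Fermat.Agent.S17

open Fermat.Agent.Lib

variable {K F : Type*} [Field K] [Field F] [Algebra K F]

/-! ### the plane model -/

/-- the place `P` is centred at the point `(a, b)` of the plane model `(x, y)`. -/
def S17D_At (x y : F) (P : Place K F) (a b : K) : Prop :=
  P.adicValuation (x - algebraMap K F a) < 1 ∧ P.adicValuation (y - algebraMap K F b) < 1

/-- A plane model of `F / K`: `x` separating, `y` integral over `K[x]`, `Φ(x, y) = 0`,
`δ ∈ K[X]` a nonzero polynomial (a multiple of the discriminant) such that over every `a` with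
`δ(a) ≠ 0` the places of `F` correspond to the roots of `Φ(a, Y)`, all unramified, and such that
`δ(x) · f ∈ K[x, y]` for every `f` without poles at the finite places. -/
structure S17D_Model (K F : Type*) [Field K] [Field F] [Algebra K F] where
  x : F
  y : F
  Φ : MvPolynomial (Fin 2) K
  δ : Polynomial K
  trans : Transcendental K x
  fin : FiniteDimensional K⟮x⟯ F
  hΦ : aeval ![x, y] Φ = 0
  hδ : δ ≠ 0
  y_int : ∀ P : Place K F, P.adicValuation x ≤ 1 → P.adicValuation y ≤ 1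
  smooth : ∀ a b : K, δ.eval a ≠ 0 → eval ![a, b] Φ = 0 → eval ![a, b] (pderiv 1 Φ) ≠ 0
  exists_place : ∀ a b : K, δ.eval a ≠ 0 → eval ![a, b] Φ = 0 →
    ∃ P : Place K F, S17D_At x y P a b
  unique_place : ∀ (a b : K) (P P' : Place K F), δ.eval a ≠ 0 →
    S17D_At x y P a b → S17D_At x y P' a b → P = P'
  unram : ∀ (a : K) (P : Place K F), δ.eval a ≠ 0 →
    P.adicValuation (x - algebraMap K F a) < 1 → P.ord (x - algebraMap K F a) = 1
  repr : ∀ f : F, (∀ P : Place K F, P.adicValuation x ≤ 1 → P.adicValuation f ≤ 1) →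
    ∃ A : MvPolynomial (Fin 2) K, aeval ![x, y] A = Polynomial.aeval x δ * f

/-- the derivation `h ↦ h_X Φ_Y - h_Y Φ_X` of `K[X, Y]`; it kills `Φ`, so it induces `Φ_Y · d/dx`
on the function field. -/
noncomputable def S17D_Der (Φ : MvPolynomial (Fin 2) K) :
    Derivation K (MvPolynomial (Fin 2) K) (MvPolynomial (Fin 2) K) :=
  mkDerivation K ![pderiv 1 Φ, - pderiv 0 Φ]

/-! ### the data -/

/-- the divisor `R_1 + ... + R_g`. -/
noncomputable def S17D_E {g : ℕ} (R : Fin g → Place K F) : Divisor K F :=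
  ∑ i, Finsupp.single (R i) (1 : ℤ)

/-- The data of the construction for the base place `Q` and the exponent `n`. -/
structure S17D_Data (M : S17D_Model K F) (Q : Place K F) (n : ℕ) where
  /-- the number of moving points (the genus). -/
  g : ℕ
  /-- `dim L(nE + Q) = D + 1`. -/
  D : ℕ
  R : Fin g → Place K F
  a0 : Fin g → K
  b0 : Fin g → K
  aQ : K
  tQ : F
  ψ : Fin (D + 1) → F
  A : Fin (D + 1) → MvPolynomial (Fin 2) K
  Θ : Fin g → Polynomial K
  hQx : Q.adicValuation (M.x - algebraMap K F aQ) < 1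
  htQ : Q.ord tQ = 1
  hR : ∀ i, S17D_At M.x M.y (R i) (a0 i) (b0 i)
  hδ : ∀ i, M.δ.eval (a0 i) ≠ 0
  ha_inj : Function.Injective a0
  haQ : ∀ i, a0 i ≠ aQ
  hΘ0 : ∀ i, (Θ i).eval (b0 i) ≠ 0
  hΘ : ∀ i (b : K), eval ![a0 i, b] M.Φ = 0 → (Θ i).eval b ≠ 0 → b = b0 i
  hψ0 : ψ 0 = 1
  hψ_mem : ∀ k, ψ k ∈ riemannRochSpace ((n : ℤ) • S17D_E R + Finsupp.single Q (1 : ℤ))
  hψ_li : LinearIndependent K ψ
  hnonspecial : ∀ f ∈ riemannRochSpace (S17D_E R), ∃ c : K, f = algebraMap K F c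
  /-- Riemann's inequality `D + 1 ≥ deg (nE + Q) + 1 - g`. -/
  hcount : n * g + 2 ≤ D + 1 + g
  hA : ∀ k, aeval ![M.x, M.y] (A k) =
    Polynomial.aeval M.x M.δ * (M.x - algebraMap K F aQ)
      * (∏ i, (M.x - algebraMap K F (a0 i))) ^ n * ψ k

/-! ### the polynomial system -/

/-- unknowns: `c_k` (`k ≤ D`) | `a_i` | `b_i`. -/
abbrev S17D_U (g D : ℕ) : Type := Fin (D + 1) ⊕ (Fin g ⊕ Fin g)

/-- parameters: `e_k` (`k ≤ D`) | `ξ`. -/
abbrev S17D_P (D : ℕ) : Type := Fin (D + 1) ⊕ Unit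

/-- equations: `c_0 = 1` | `∑ c_k e_k = 0` | `Φ(a_i, b_i) = 0` | `D^j(∑ c_k A_k)(a_i, b_i) = 0`. -/
abbrev S17D_T (g n : ℕ) : Type := (Unit ⊕ Unit) ⊕ (Fin g ⊕ (Fin g × Fin n))

/-- all variables. -/
abbrev S17D_V (g D : ℕ) : Type := S17D_U g D ⊕ S17D_P D

section system

variable (K) in
/-- the variable `c_k`. -/
noncomputable def S17D_c (g : ℕ) {D : ℕ} (k : Fin (D + 1)) : MvPolynomial (S17D_V g D) K :=
  X (Sum.inl (Sum.inl k))

variable (K) in
/-- the variable `a_i`. -/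
noncomputable def S17D_a {g : ℕ} (D : ℕ) (i : Fin g) : MvPolynomial (S17D_V g D) K :=
  X (Sum.inl (Sum.inr (Sum.inl i)))

variable (K) in
/-- the variable `b_i`. -/
noncomputable def S17D_b {g : ℕ} (D : ℕ) (i : Fin g) : MvPolynomial (S17D_V g D) K :=
  X (Sum.inl (Sum.inr (Sum.inr i)))

variable (K) in
/-- the parameter `e_k`. -/
noncomputable def S17D_e (g : ℕ) {D : ℕ} (k : Fin (D + 1)) : MvPolynomial (S17D_V g D) K :=
  X (Sum.inr (Sum.inl k))

variable (K) in
/-- the parameter `ξ`. -/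
noncomputable def S17D_xi (g D : ℕ) : MvPolynomial (S17D_V g D) K :=
  X (Sum.inr (Sum.inr ()))

/-- the `i`-th moving point: `X ↦ a_i`, `Y ↦ b_i`. -/
def S17D_pt {g : ℕ} (D : ℕ) (i : Fin g) : Fin 2 → S17D_V g D :=
  ![Sum.inl (Sum.inr (Sum.inl i)), Sum.inl (Sum.inr (Sum.inr i))]

/-- `h(a_i, b_i)`. -/
noncomputable def S17D_at {g : ℕ} (D : ℕ) (i : Fin g) (h : MvPolynomial (Fin 2) K) :
    MvPolynomial (S17D_V g D) K :=
  rename (S17D_pt D i) h

/-- the equations of the system. -/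
noncomputable def S17D_eq {g D : ℕ} (n : ℕ) (Φ : MvPolynomial (Fin 2) K)
    (A : Fin (D + 1) → MvPolynomial (Fin 2) K) : S17D_T g n → MvPolynomial (S17D_V g D) K
  | Sum.inl (Sum.inl _) => S17D_c K g 0 - 1
  | Sum.inl (Sum.inr _) => ∑ k, S17D_c K g k * S17D_e K g k
  | Sum.inr (Sum.inl i) => S17D_at D i Φ
  | Sum.inr (Sum.inr (i, j)) => ∑ k, S17D_c K g k * S17D_at D i ((S17D_Der Φ)^[(j : ℕ)] (A k))

/-- the inequation of the system: `δ(a_i) ≠ 0`, `a_i ≠ ξ`, `a_i ≠ a_Q`, `a_i ≠ a⁰_j` (`j ≠ i`),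
`Θ_i(b_i) ≠ 0`, `a_i ≠ a_j` (`i ≠ j`). -/
noncomputable def S17D_ineq {g : ℕ} (D : ℕ) (δ : Polynomial K) (Θ : Fin g → Polynomial K)
    (a0 : Fin g → K) (aQ : K) : MvPolynomial (S17D_V g D) K :=
  ∏ i, (Polynomial.aeval (S17D_a K D i) δ * (S17D_a K D i - S17D_xi K g D)
      * (S17D_a K D i - C aQ) * Polynomial.aeval (S17D_b K D i) (Θ i)
      * ∏ j, if j = i then 1 else (S17D_a K D i - C (a0 j)) * (S17D_a K D i - S17D_a K D j))

/-- a point of the space of unknowns. -/
def S17D_pnt {g D : ℕ} (c : Fin (D + 1) → K) (a b : Fin g → K) : S17D_U g D → K :=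
  Sum.elim c (Sum.elim a b)

/-- the base point `c = (1, 0, ..., 0)`, `(a_i, b_i) = (a⁰_i, b⁰_i)`. -/
def S17D_base {g : ℕ} (D : ℕ) (a0 b0 : Fin g → K) : S17D_U g D → K :=
  S17D_pnt (Pi.single 0 1) a0 b0

end system

/-- the parameters, as elements of `F`: `e_k = t_Q ψ_k`, `ξ = x`. -/
def S17D_parF {D : ℕ} (x tQ : F) (ψ : Fin (D + 1) → F) : S17D_P D → F :=
  Sum.elim (fun k => tQ * ψ k) (fun _ => x)

/-- the values of the parameters at the place `P` (`FD_c0 P` is the residue at `P`). -/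
noncomputable def S17D_par {D : ℕ} (x tQ : F) (ψ : Fin (D + 1) → F) (P : Place K F) :
    S17D_P D → K :=
  fun j => FD_c0 P (S17D_parF x tQ ψ j)

end Fermat.Agent.S17
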