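import Mathlib
import Fermat.Agent.S17.DivDefs

/-!
# TRACK 8 (S17), pillar DIV, package JAC (helper6): the Jacobian of the system at the base point

Pure algebra (Mathlib + `S17/DivDefs.lean`).  The system `S17D_eq n Φ A` in the unknowns
`c_k` (`k ≤ D`), `a_i`, `b_i` (`i < g`) and the parameters `e_k`, `ξ`:

  `c_0 = 1`,  `∑ c_k e_k = 0`,  `Φ(a_i, b_i) = 0`,  `∑_k c_k (D^j A_k)(a_i, b_i) = 0` (`j < n`).

* `S17JA_der_apply` : `S17D_Der Φ H = Φ_Y · H_X − Φ_X · H_Y`;
* `S17JA_tangent` : along a tangent vector `(α, β)` of the curve at `(a, b)`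
  (`Φ_X α + Φ_Y β = 0`, `Φ_Y(a, b) ≠ 0`): `G_X α + G_Y β = (α / Φ_Y) · (D G)(a, b)`;
* `S17JA_d` : the differential of a polynomial at a point in a direction of the unknowns, with its
  rules (`S17JA_d_add`, `_mul`, `_X_inl`, `_X_inr`, `_at`, …);
* `S17JA_base` : the base point solves the system;
* `S17JA_injective` : the Jacobian at the base point is injective (`0 < n`);
* **`S17JA_main`** : base point solves the system + the Jacobian is SURJECTIVE (injective + count).

REMARK.  The hypothesis `0 < n` is necessary: for `n = 0`, `g = 1`, `D = 0`, `Φ = Y`, `A 0 = 1`,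
`e0 = 0` all other hypotheses hold, but the equation `∑ c_k e_k = 0` has zero gradient.
-/

set_option autoImplicit false

open AlgebraicCurve MvPolynomial IntermediateField

namespace Fermat.Agent.S17

open Fermat.Agent.Lib

variable {K : Type*} [Field K]

/-! ### the derivation `D` -/

/-- `D H = Φ_Y · H_X − Φ_X · H_Y`. -/
theorem S17JA_der_apply (Φ H : MvPolynomial (Fin 2) K) :
    S17D_Der Φ H = pderiv 1 Φ * pderiv 0 H - pderiv 0 Φ * pderiv 1 H := by
  have key : S17D_Der Φ = pderiv 1 Φ • (pderiv 0 : Derivation K (MvPolynomial (Fin 2) K) _) -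
      pderiv 0 Φ • (pderiv 1 : Derivation K (MvPolynomial (Fin 2) K) _) := by
    apply MvPolynomial.derivation_ext
    intro i
    rw [S17D_Der, mkDerivation_X]
    fin_cases i
    · simp [pderiv_X]
    · simp [pderiv_X]
  rw [key]
  rfl

/-- the derivative of `G(a, b)` along a tangent vector `(α, β)` of the curve `Φ = 0`. -/
theorem S17JA_tangent (Φ G : MvPolynomial (Fin 2) K) (a b α β : K)
    (hΦY : eval ![a, b] (pderiv 1 Φ) ≠ 0)
    (htan : eval ![a, b] (pderiv 0 Φ) * α + eval ![a, b] (pderiv 1 Φ) * β = 0) :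
    eval ![a, b] (pderiv 0 G) * α + eval ![a, b] (pderiv 1 G) * β =
      α / eval ![a, b] (pderiv 1 Φ) * eval ![a, b] (S17D_Der Φ G) := by
  rw [S17JA_der_apply, map_sub, map_mul, map_mul]
  have hb : β = -(eval ![a, b] (pderiv 0 Φ) * α) / eval ![a, b] (pderiv 1 Φ) := by
    field_simp
    linear_combination htan
  rw [hb]
  field_simp
  ring

/-! ### the differential at a point, in a direction of the unknowns -/

section Diff

variable {g D : ℕ}

/-- the differential of `G` at the point `p` in the direction `v` (unknowns only). -/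
noncomputable def S17JA_d (p : S17D_V g D → K) (v : S17D_U g D → K)
    (G : MvPolynomial (S17D_V g D) K) : K :=
  ∑ s, eval p (pderiv (Sum.inl s) G) * v s

variable (p : S17D_V g D → K) (v : S17D_U g D → K)

theorem S17JA_d_add (G H : MvPolynomial (S17D_V g D) K) :
    S17JA_d p v (G + H) = S17JA_d p v G + S17JA_d p v H := by
  simp only [S17JA_d, map_add, add_mul, Finset.sum_add_distrib]

theorem S17JA_d_sub (G H : MvPolynomial (S17D_V g D) K) :
    S17JA_d p v (G - H) = S17JA_d p v G - S17JA_d p v H := by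
  simp only [S17JA_d, map_sub, sub_mul, Finset.sum_sub_distrib]

theorem S17JA_d_zero : S17JA_d p v (0 : MvPolynomial (S17D_V g D) K) = 0 := by
  simp [S17JA_d]

theorem S17JA_d_sum {ι : Type*} (s : Finset ι) (G : ι → MvPolynomial (S17D_V g D) K) :
    S17JA_d p v (∑ i ∈ s, G i) = ∑ i ∈ s, S17JA_d p v (G i) := by
  classical
  induction s using Finset.induction_on with
  | empty => simp [S17JA_d_zero]
  | insert a s ha ih => rw [Finset.sum_insert ha, Finset.sum_insert ha, S17JA_d_add, ih]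

theorem S17JA_d_mul (G H : MvPolynomial (S17D_V g D) K) :
    S17JA_d p v (G * H) = eval p G * S17JA_d p v H + eval p H * S17JA_d p v G := by
  simp only [S17JA_d, Derivation.leibniz, smul_eq_mul, map_add, map_mul, add_mul,
    Finset.sum_add_distrib, Finset.mul_sum]
  congr 1 <;> exact Finset.sum_congr rfl fun s _ => by ring

theorem S17JA_d_one : S17JA_d p v (1 : MvPolynomial (S17D_V g D) K) = 0 := by
  simp [S17JA_d]

theorem S17JA_d_C (a : K) : S17JA_d p v (C a : MvPolynomial (S17D_V g D) K) = 0 := by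
  simp [S17JA_d]

theorem S17JA_d_X_inl (s : S17D_U g D) :
    S17JA_d p v (X (Sum.inl s) : MvPolynomial (S17D_V g D) K) = v s := by
  classical
  rw [S17JA_d, Finset.sum_eq_single s]
  · rw [pderiv_X_self, map_one, one_mul]
  · intro s' _ hs'
    rw [pderiv_X_of_ne (fun h => hs' (Sum.inl_injective h).symm), map_zero, zero_mul]
  · intro hs
    exact absurd (Finset.mem_univ s) hs

theorem S17JA_d_X_inr (j : S17D_P D) :
    S17JA_d p v (X (Sum.inr j) : MvPolynomial (S17D_V g D) K) = 0 := by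
  classical
  rw [S17JA_d]
  refine Finset.sum_eq_zero fun s _ => ?_
  rw [pderiv_X_of_ne (fun h => Sum.inl_ne_inr h.symm), map_zero, zero_mul]

theorem S17JA_pt_injective (i : Fin g) : Function.Injective (S17D_pt (g := g) D i) := by
  intro x y hxy
  fin_cases x <;> fin_cases y <;> simp_all [S17D_pt]

omit [Field K] in
theorem S17JA_comp_pt (i : Fin g) :
    p ∘ S17D_pt D i = ![p (Sum.inl (Sum.inr (Sum.inl i))), p (Sum.inl (Sum.inr (Sum.inr i)))] := by
  funext x
  fin_cases x <;> rfl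

/-- evaluation of `h(a_i, b_i)`. -/
theorem S17JA_eval_at (i : Fin g) (h : MvPolynomial (Fin 2) K) :
    eval p (S17D_at D i h) =
      eval ![p (Sum.inl (Sum.inr (Sum.inl i))), p (Sum.inl (Sum.inr (Sum.inr i)))] h := by
  rw [S17D_at, eval_rename, S17JA_comp_pt]

/-- the differential of `h(a_i, b_i)`. -/
theorem S17JA_d_at (i : Fin g) (h : MvPolynomial (Fin 2) K) :
    S17JA_d p v (S17D_at D i h) =
      eval ![p (Sum.inl (Sum.inr (Sum.inl i))), p (Sum.inl (Sum.inr (Sum.inr i)))] (pderiv 0 h) *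
          v (Sum.inr (Sum.inl i)) +
        eval ![p (Sum.inl (Sum.inr (Sum.inl i))), p (Sum.inl (Sum.inr (Sum.inr i)))] (pderiv 1 h) *
          v (Sum.inr (Sum.inr i)) := by
  classical
  have hinj := S17JA_pt_injective (D := D) i
  have h0 : pderiv (Sum.inl (Sum.inr (Sum.inl i)) : S17D_V g D) (S17D_at D i h) =
      S17D_at D i (pderiv 0 h) := by
    have := pderiv_rename hinj (R := K) 0 h
    exact this
  have h1 : pderiv (Sum.inl (Sum.inr (Sum.inr i)) : S17D_V g D) (S17D_at D i h) =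
      S17D_at D i (pderiv 1 h) := by
    have := pderiv_rename hinj (R := K) 1 h
    exact this
  have hne : (Sum.inr (Sum.inl i) : S17D_U g D) ≠ Sum.inr (Sum.inr i) := by
    intro h
    exact Sum.inl_ne_inr (Sum.inr_injective h)
  rw [S17JA_d, Finset.sum_eq_add (Sum.inr (Sum.inl i)) (Sum.inr (Sum.inr i)) hne]
  · rw [h0, h1, S17JA_eval_at, S17JA_eval_at]
  · intro s _ hs
    have hnot : (Sum.inl s : S17D_V g D) ∉ (S17D_at D i h).vars := by
      intro hmem
      have hsub := vars_rename (S17D_pt D i) h hmem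
      rw [Finset.mem_image] at hsub
      obtain ⟨x, -, hx⟩ := hsub
      fin_cases x
      · exact hs.1 (Sum.inl_injective hx).symm
      · exact hs.2 (Sum.inl_injective hx).symm
    rw [pderiv_eq_zero_of_notMem_vars hnot, map_zero, zero_mul]
  · intro hm
    exact absurd (Finset.mem_univ _) hm
  · intro hm
    exact absurd (Finset.mem_univ _) hm

end Diff

/-! ### the system at the base point -/

section Main

variable {g D : ℕ} (n : ℕ) (Φ : MvPolynomial (Fin 2) K)
  (A : Fin (D + 1) → MvPolynomial (Fin 2) K) (a0 b0 : Fin g → K) (e0 : Fin (D + 1) → K) (ξ0 : K)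

/-- the base point together with the parameter values. -/
def S17JA_p0 : S17D_V g D → K :=
  Sum.elim (S17D_base D a0 b0) (Sum.elim e0 (fun _ => ξ0))

theorem S17JA_p0_c (k : Fin (D + 1)) :
    S17JA_p0 a0 b0 e0 ξ0 (Sum.inl (Sum.inl k)) = if k = 0 then 1 else 0 := by
  show (Pi.single 0 1 : Fin (D + 1) → K) k = _
  rw [Pi.single_apply]

theorem S17JA_p0_a (i : Fin g) :
    S17JA_p0 (D := D) a0 b0 e0 ξ0 (Sum.inl (Sum.inr (Sum.inl i))) = a0 i := rfl

theorem S17JA_p0_b (i : Fin g) :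
    S17JA_p0 (D := D) a0 b0 e0 ξ0 (Sum.inl (Sum.inr (Sum.inr i))) = b0 i := rfl

theorem S17JA_p0_e (k : Fin (D + 1)) :
    S17JA_p0 (g := g) a0 b0 e0 ξ0 (Sum.inr (Sum.inl k)) = e0 k := rfl

theorem S17JA_eval_c (k : Fin (D + 1)) :
    eval (S17JA_p0 a0 b0 e0 ξ0) (S17D_c K g k) = if k = 0 then 1 else 0 := by
  rw [S17D_c, eval_X, S17JA_p0_c]

theorem S17JA_eval_e (k : Fin (D + 1)) :
    eval (S17JA_p0 a0 b0 e0 ξ0) (S17D_e K g k) = e0 k := by
  rw [S17D_e, eval_X, S17JA_p0_e]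

theorem S17JA_eval_at0 (i : Fin g) (h : MvPolynomial (Fin 2) K) :
    eval (S17JA_p0 a0 b0 e0 ξ0) (S17D_at D i h) = eval ![a0 i, b0 i] h := by
  rw [S17JA_eval_at, S17JA_p0_a, S17JA_p0_b]

/-- **the base point solves the system.** -/
theorem S17JA_base
    (hΦ : ∀ i, eval ![a0 i, b0 i] Φ = 0)
    (hA0 : ∀ i, ∀ j < n, eval ![a0 i, b0 i] ((S17D_Der Φ)^[j] (A 0)) = 0)
    (he0 : e0 0 = 0) (t : S17D_T g n) :
    eval (S17JA_p0 a0 b0 e0 ξ0) (S17D_eq (g := g) n Φ A t) = 0 := by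
  rcases t with (_ | _) | i | ⟨i, j⟩
  · show eval _ (S17D_c K g 0 - 1) = 0
    rw [map_sub, S17JA_eval_c, if_pos rfl, map_one, sub_self]
  · show eval _ (∑ k, S17D_c K g k * S17D_e K g k) = 0
    rw [map_sum]
    refine Finset.sum_eq_zero fun k _ => ?_
    rw [map_mul, S17JA_eval_c, S17JA_eval_e]
    by_cases hk : k = 0
    · rw [hk, he0, mul_zero]
    · rw [if_neg hk, zero_mul]
  · show eval _ (S17D_at D i Φ) = 0
    rw [S17JA_eval_at0, hΦ]
  · show eval _ (∑ k, S17D_c K g k * S17D_at D i ((S17D_Der Φ)^[(j : ℕ)] (A k))) = 0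
    rw [map_sum]
    refine Finset.sum_eq_zero fun k _ => ?_
    rw [map_mul, S17JA_eval_c, S17JA_eval_at0]
    by_cases hk : k = 0
    · rw [hk, hA0 i j j.2, mul_zero]
    · rw [if_neg hk, zero_mul]

/-! ### the differentials of the four kinds of equations -/

variable (v : S17D_U g D → K)

theorem S17JA_d_norm :
    S17JA_d (S17JA_p0 a0 b0 e0 ξ0) v (S17D_eq (g := g) n Φ A (Sum.inl (Sum.inl ()))) =
      v (Sum.inl 0) := by
  show S17JA_d _ v (S17D_c K g 0 - 1) = _
  rw [S17JA_d_sub, S17JA_d_one, sub_zero, S17D_c, S17JA_d_X_inl]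

theorem S17JA_d_zeroEq :
    S17JA_d (S17JA_p0 a0 b0 e0 ξ0) v (S17D_eq (g := g) n Φ A (Sum.inl (Sum.inr ()))) =
      ∑ k, v (Sum.inl k) * e0 k := by
  show S17JA_d _ v (∑ k, S17D_c K g k * S17D_e K g k) = _
  rw [S17JA_d_sum]
  refine Finset.sum_congr rfl fun k _ => ?_
  rw [S17JA_d_mul, S17JA_eval_e]
  rw [S17D_e, S17JA_d_X_inr, mul_zero, zero_add, S17D_c, S17JA_d_X_inl, mul_comm]

theorem S17JA_d_curve (i : Fin g) :
    S17JA_d (S17JA_p0 a0 b0 e0 ξ0) v (S17D_eq (g := g) n Φ A (Sum.inr (Sum.inl i))) =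
      eval ![a0 i, b0 i] (pderiv 0 Φ) * v (Sum.inr (Sum.inl i)) +
        eval ![a0 i, b0 i] (pderiv 1 Φ) * v (Sum.inr (Sum.inr i)) := by
  show S17JA_d _ v (S17D_at D i Φ) = _
  rw [S17JA_d_at, S17JA_p0_a, S17JA_p0_b]

theorem S17JA_d_ord (i : Fin g) (j : Fin n) :
    S17JA_d (S17JA_p0 a0 b0 e0 ξ0) v (S17D_eq (g := g) n Φ A (Sum.inr (Sum.inr (i, j)))) =
      (∑ k, v (Sum.inl k) * eval ![a0 i, b0 i] ((S17D_Der Φ)^[(j : ℕ)] (A k))) +
        (eval ![a0 i, b0 i] (pderiv 0 ((S17D_Der Φ)^[(j : ℕ)] (A 0))) * v (Sum.inr (Sum.inl i)) +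
          eval ![a0 i, b0 i] (pderiv 1 ((S17D_Der Φ)^[(j : ℕ)] (A 0))) *
            v (Sum.inr (Sum.inr i))) := by
  show S17JA_d _ v (∑ k, S17D_c K g k * S17D_at D i ((S17D_Der Φ)^[(j : ℕ)] (A k))) = _
  rw [S17JA_d_sum]
  have h1 : ∀ k : Fin (D + 1),
      S17JA_d (S17JA_p0 a0 b0 e0 ξ0) v
          (S17D_c K g k * S17D_at D i ((S17D_Der Φ)^[(j : ℕ)] (A k))) =
        v (Sum.inl k) * eval ![a0 i, b0 i] ((S17D_Der Φ)^[(j : ℕ)] (A k)) +
          (if k = 0 then
            (eval ![a0 i, b0 i] (pderiv 0 ((S17D_Der Φ)^[(j : ℕ)] (A 0))) *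
                v (Sum.inr (Sum.inl i)) +
              eval ![a0 i, b0 i] (pderiv 1 ((S17D_Der Φ)^[(j : ℕ)] (A 0))) *
                v (Sum.inr (Sum.inr i))) else 0) := by
    intro k
    rw [S17JA_d_mul, S17JA_eval_c, S17JA_eval_at0, S17JA_d_at, S17JA_p0_a, S17JA_p0_b]
    rw [S17D_c, S17JA_d_X_inl]
    by_cases hk : k = 0
    · subst hk
      rw [if_pos rfl, if_pos rfl, one_mul]
      ring
    · rw [if_neg hk, if_neg hk, zero_mul]
      ring
  rw [Finset.sum_congr rfl fun k _ => h1 k, Finset.sum_add_distrib,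
    Finset.sum_ite_eq' Finset.univ (0 : Fin (D + 1)), if_pos (Finset.mem_univ _)]

/-- **the Jacobian at the base point is injective.** -/
theorem S17JA_injective (hn : 0 < n)
    (hF3 : ∀ i, eval ![a0 i, b0 i] (pderiv 1 Φ) ≠ 0)
    (hA0 : ∀ i, ∀ j < n, eval ![a0 i, b0 i] ((S17D_Der Φ)^[j] (A 0)) = 0)
    (hF2 : ∀ i, eval ![a0 i, b0 i] ((S17D_Der Φ)^[n] (A 0)) ≠ 0)
    (hF1 : ∀ γ : Fin (D + 1) → K, γ 0 = 0 → ∑ k, γ k * e0 k = 0 →
      (∀ i, ∀ j, j + 1 < n → ∑ k, γ k * eval ![a0 i, b0 i] ((S17D_Der Φ)^[j] (A k)) = 0) →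
      γ = 0)
    (hv : ∀ t, S17JA_d (S17JA_p0 a0 b0 e0 ξ0) v (S17D_eq (g := g) n Φ A t) = 0) : v = 0 := by
  have e1 := hv (Sum.inl (Sum.inl ()))
  rw [S17JA_d_norm] at e1
  have e2 := hv (Sum.inl (Sum.inr ()))
  rw [S17JA_d_zeroEq] at e2
  have e3 : ∀ i, eval ![a0 i, b0 i] (pderiv 0 Φ) * v (Sum.inr (Sum.inl i)) +
      eval ![a0 i, b0 i] (pderiv 1 Φ) * v (Sum.inr (Sum.inr i)) = 0 := by
    intro i
    have := hv (Sum.inr (Sum.inl i))
    rwa [S17JA_d_curve] at this
  -- the equations (i, j) in tangent form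
  have e4 : ∀ (i : Fin g) (j : ℕ), j < n →
      (∑ k, v (Sum.inl k) * eval ![a0 i, b0 i] ((S17D_Der Φ)^[j] (A k))) +
        v (Sum.inr (Sum.inl i)) / eval ![a0 i, b0 i] (pderiv 1 Φ) *
          eval ![a0 i, b0 i] ((S17D_Der Φ)^[j + 1] (A 0)) = 0 := by
    intro i j hj
    have := hv (Sum.inr (Sum.inr (i, ⟨j, hj⟩)))
    rw [S17JA_d_ord, S17JA_tangent Φ _ (a0 i) (b0 i) _ _ (hF3 i) (e3 i)] at this
    rw [Function.iterate_succ_apply']
    exact this
  -- γ = 0
  have hγ : (fun k => v (Sum.inl k)) = 0 := by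
    refine hF1 _ e1 e2 fun i j hj => ?_
    have := e4 i j (by omega)
    rw [hA0 i (j + 1) hj, mul_zero, add_zero] at this
    exact this
  have hγ' : ∀ k, v (Sum.inl k) = 0 := fun k => congrFun hγ k
  -- α = 0
  have hα : ∀ i, v (Sum.inr (Sum.inl i)) = 0 := by
    intro i
    have := e4 i (n - 1) (by omega)
    rw [Finset.sum_eq_zero (fun k _ => by rw [hγ' k, zero_mul]), zero_add,
      show n - 1 + 1 = n by omega] at this
    rcases mul_eq_zero.1 this with h | h
    · rcases div_eq_zero_iff.1 h with h' | h'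
      · exact h'
      · exact absurd h' (hF3 i)
    · exact absurd h (hF2 i)
  -- β = 0
  have hβ : ∀ i, v (Sum.inr (Sum.inr i)) = 0 := by
    intro i
    have := e3 i
    rw [hα i, mul_zero, zero_add] at this
    exact (mul_eq_zero.1 this).resolve_left (hF3 i)
  funext s
  rcases s with k | i | i
  · exact hγ' k
  · exact hα i
  · exact hβ i

/-- **JAC**: the base point solves the system and the Jacobian with respect to the unknowns is
surjective there. -/
theorem S17JA_main {g D : ℕ} (n : ℕ) (hn : 0 < n) (Φ : MvPolynomial (Fin 2) K)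
    (A : Fin (D + 1) → MvPolynomial (Fin 2) K) (a0 b0 : Fin g → K) (e0 : Fin (D + 1) → K) (ξ0 : K)
    (hΦ : ∀ i, eval ![a0 i, b0 i] Φ = 0)
    (hF3 : ∀ i, eval ![a0 i, b0 i] (pderiv 1 Φ) ≠ 0)
    (hA0 : ∀ i, ∀ j < n, eval ![a0 i, b0 i] ((S17D_Der Φ)^[j] (A 0)) = 0)
    (hF2 : ∀ i, eval ![a0 i, b0 i] ((S17D_Der Φ)^[n] (A 0)) ≠ 0)
    (he0 : e0 0 = 0)
    (hF1 : ∀ γ : Fin (D + 1) → K, γ 0 = 0 → ∑ k, γ k * e0 k = 0 →
      (∀ i, ∀ j, j + 1 < n → ∑ k, γ k * eval ![a0 i, b0 i] ((S17D_Der Φ)^[j] (A k)) = 0) →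
      γ = 0)
    (hcount : n * g + 2 ≤ D + 1 + g) :
    (∀ t, eval (Sum.elim (S17D_base D a0 b0) (Sum.elim e0 (fun _ => ξ0)))
        (S17D_eq (g := g) n Φ A t) = 0) ∧
    Function.Surjective (fun (v : S17D_U g D → K) (t : S17D_T g n) =>
      ∑ s, eval (Sum.elim (S17D_base D a0 b0) (Sum.elim e0 (fun _ => ξ0)))
        (pderiv (Sum.inl s) (S17D_eq (g := g) n Φ A t)) * v s) := by
  refine ⟨fun t => S17JA_base n Φ A a0 b0 e0 ξ0 hΦ hA0 he0 t, ?_⟩
  -- the Jacobian as a linear map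
  let J : (S17D_U g D → K) →ₗ[K] (S17D_T g n → K) :=
    { toFun := fun v t => S17JA_d (S17JA_p0 a0 b0 e0 ξ0) v (S17D_eq (g := g) n Φ A t)
      map_add' := by
        intro v w
        funext t
        simp only [S17JA_d, Pi.add_apply, mul_add, Finset.sum_add_distrib]
      map_smul' := by
        intro c v
        funext t
        simp only [S17JA_d, Pi.smul_apply, smul_eq_mul, RingHom.id_apply, Finset.mul_sum]
        exact Finset.sum_congr rfl fun s _ => by ring }
  have hinj : Function.Injective J := by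
    rw [injective_iff_map_eq_zero]
    intro v hv
    exact S17JA_injective n Φ A a0 b0 e0 ξ0 v hn hF3 hA0 hF2 hF1 (fun t => congrFun hv t)
  have hcardU : Module.finrank K (S17D_U g D → K) = D + 1 + (g + g) := by
    rw [Module.finrank_fintype_fun_eq_card]
    simp [Fintype.card_sum]
  have hcardT : Module.finrank K (S17D_T g n → K) = 1 + 1 + (g + g * n) := by
    rw [Module.finrank_fintype_fun_eq_card]
    simp [Fintype.card_sum, Fintype.card_prod]
  have hle := LinearMap.finrank_le_finrank_of_injective hinj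
  have heq : Module.finrank K (S17D_U g D → K) = Module.finrank K (S17D_T g n → K) := by
    rw [hcardU, hcardT] at hle ⊢
    have : g * n = n * g := mul_comm g n
    omega
  exact (LinearMap.injective_iff_surjective_of_finrank_eq_finrank heq).1 hinj

end Main

end Fermat.Agent.S17
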