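import Fermat.Agent.S17.DivDefs
import Fermat.Agent.S17.OrdIff

/-!
# TRACK 8 (S17), pillar DIV, package LIN (helper24): the hypotheses of JAC from the function field

`S17LI_main` (exact statement of `NOTES/items/16_DIV_iface.md`): for the data `d : S17D_Data M Q n`
the base point satisfies `Φ(a⁰, b⁰) = 0`, `Φ_Y ≠ 0`, `A_0` vanishes to order exactly `n` at the
`R_i`, the parameters are regular at `Q`, and the linearised system has trivial kernel
(non-speciality of `E = R_1 + … + R_g`).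
-/

set_option autoImplicit false

open AlgebraicCurve MvPolynomial IntermediateField WithZero

namespace Fermat.Agent.S17

open Fermat.Agent.Lib

variable {K F : Type*} [Field K] [Field F] [Algebra K F]

section residue

variable (P : Place K F) (hdeg : P.deg = 1)

/-- the residue map `O_P → K` at a place of degree one. -/
noncomputable def S17LI_res : P.toValuationSubring →+* K :=
  (PowerSeries.constantCoeff (R := K)).comp (FD_expHom P hdeg).toRingHom

theorem S17LI_res_apply (f : P.toValuationSubring) : S17LI_res P hdeg f = FD_c0 P (f : F) := by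
  show PowerSeries.constantCoeff (FD_expHom P hdeg f) = _
  rw [FD_expHom_apply, FD_constantCoeff]

theorem S17LI_mem_iff {f : F} : f ∈ P.toValuationSubring ↔ P.adicValuation f ≤ 1 :=
  (Fermat.Agent.S24.BL_adicValuation_le_one_iff P f).symm

include hdeg in
theorem S17LI_c0_add {f g : F} (hf : f ∈ P.toValuationSubring) (hg : g ∈ P.toValuationSubring) :
    FD_c0 P (f + g) = FD_c0 P f + FD_c0 P g := by
  have := map_add (S17LI_res P hdeg) ⟨f, hf⟩ ⟨g, hg⟩
  rwa [S17LI_res_apply, S17LI_res_apply, S17LI_res_apply] at this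

include hdeg in
theorem S17LI_c0_mul {f g : F} (hf : f ∈ P.toValuationSubring) (hg : g ∈ P.toValuationSubring) :
    FD_c0 P (f * g) = FD_c0 P f * FD_c0 P g := by
  have := map_mul (S17LI_res P hdeg) ⟨f, hf⟩ ⟨g, hg⟩
  rwa [S17LI_res_apply, S17LI_res_apply, S17LI_res_apply] at this

theorem S17LI_c0_algebraMap (c : K) : FD_c0 P (algebraMap K F c) = c :=
  FD_c0_unique P (by rw [sub_self, map_zero]; exact zero_lt_one)

include hdeg in
theorem S17LI_c0_sum {ι : Type*} (s : Finset ι) (γ : ι → K) (f : ι → F)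
    (hf : ∀ k ∈ s, f k ∈ P.toValuationSubring) :
    FD_c0 P (∑ k ∈ s, γ k • f k) = ∑ k ∈ s, γ k * FD_c0 P (f k) := by
  classical
  induction s using Finset.induction_on with
  | empty =>
    simp only [Finset.sum_empty]
    have := S17LI_c0_algebraMap P (0 : K)
    rwa [map_zero] at this
  | insert a s ha ih =>
    have h1 : γ a • f a ∈ P.toValuationSubring := by
      rw [Algebra.smul_def]
      exact mul_mem (P.algebraMap_mem' _) (hf a (Finset.mem_insert_self a s))
    have h2 : ∑ k ∈ s, γ k • f k ∈ P.toValuationSubring := by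
      refine sum_mem fun k hk => ?_
      rw [Algebra.smul_def]
      exact mul_mem (P.algebraMap_mem' _) (hf k (Finset.mem_insert_of_mem hk))
    rw [Finset.sum_insert ha, Finset.sum_insert ha, S17LI_c0_add P hdeg h1 h2,
      ih (fun k hk => hf k (Finset.mem_insert_of_mem hk)), Algebra.smul_def,
      S17LI_c0_mul P hdeg (P.algebraMap_mem' _) (hf a (Finset.mem_insert_self a s)),
      S17LI_c0_algebraMap]

include hdeg in
/-- the value of a polynomial in `x` at `P`. -/
theorem S17LI_c0_aeval {x : F} (hx : x ∈ P.toValuationSubring) (p : Polynomial K) :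
    Polynomial.aeval x p ∈ P.toValuationSubring ∧
      FD_c0 P (Polynomial.aeval x p) = p.eval (FD_c0 P x) := by
  induction p using Polynomial.induction_on' with
  | add p q hp hq =>
    rw [map_add, Polynomial.eval_add]
    exact ⟨add_mem hp.1 hq.1, by rw [S17LI_c0_add P hdeg hp.1 hq.1, hp.2, hq.2]⟩
  | monomial n a =>
    rw [Polynomial.aeval_monomial, Polynomial.eval_monomial]
    have h1 : x ^ n ∈ P.toValuationSubring := pow_mem hx n
    refine ⟨mul_mem (P.algebraMap_mem' _) h1, ?_⟩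
    rw [S17LI_c0_mul P hdeg (P.algebraMap_mem' _) h1, S17LI_c0_algebraMap]
    congr 1
    have := map_pow (S17LI_res P hdeg) ⟨x, hx⟩ n
    rw [S17LI_res_apply, S17LI_res_apply] at this
    exact this

include hdeg in
/-- an element of `O_P` with nonzero value is a unit at `P`. -/
theorem S17LI_val_eq_one {f : F} (hf : f ∈ P.toValuationSubring) (h0 : FD_c0 P f ≠ 0) :
    P.adicValuation f = 1 := by
  have h1 := (S17LI_mem_iff P).1 hf
  refine le_antisymm h1 (not_lt.1 fun h2 => h0 ?_)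
  exact (FD_c0_eq_zero_iff P hdeg h1).2 h2

end residue

section At

variable {x y : F} {P : Place K F} {a b : K}

theorem S17LI_At_c0 (hP : S17D_At x y P a b) : FD_c0 P x = a ∧ FD_c0 P y = b :=
  ⟨FD_c0_unique P hP.1, FD_c0_unique P hP.2⟩

/-- `x − a'` is a unit at a place centred at `a ≠ a'`. -/
theorem S17LI_val_sub (hdeg : P.deg = 1) (hP : S17D_At x y P a b) {a' : K} (ha : a ≠ a') :
    P.adicValuation (x - algebraMap K F a') = 1 := by
  have hx := (S17OR_At_mem hP).1
  have hm : x - algebraMap K F a' ∈ P.toValuationSubring := sub_mem hx (P.algebraMap_mem' _)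
  apply S17LI_val_eq_one P hdeg hm
  have h1 : FD_c0 P (x - algebraMap K F a') = a - a' := by
    apply FD_c0_unique
    rw [(algebraMap K F).map_sub, sub_sub_sub_cancel_right]
    exact hP.1
  rw [h1]
  exact sub_ne_zero.2 ha

end At

section data

variable [IsAlgClosed K] [CharZero K] (h : RR_Hyp K F) (M : S17D_Model K F)
  (Q : Place K F) (n : ℕ) (d : S17D_Data M Q n)

/-- the common factor `W₀ = δ(x) (x − a_Q) ∏ (x − a⁰_i)ⁿ` of the numerators. -/
noncomputable def S17LI_W : F :=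
  Polynomial.aeval M.x M.δ * (M.x - algebraMap K F d.aQ)
    * (∏ i, (M.x - algebraMap K F (d.a0 i))) ^ n

omit [IsAlgClosed K] [CharZero K] in
theorem S17LI_hA (k : Fin (d.D + 1)) :
    aeval ![M.x, M.y] (d.A k) = S17LI_W M Q n d * d.ψ k := d.hA k

include h in
omit [IsAlgClosed K] [CharZero K] in
/-- `W₀` has order exactly `n` at every `R_i`. -/
theorem S17LI_val_W (i : Fin d.g) :
    (d.R i).adicValuation (S17LI_W M Q n d) = exp (-(n : ℤ)) := by
  have hdeg := h.deg_one (d.R i)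
  have hR := d.hR i
  have hx := (S17OR_At_mem hR).1
  have h1 : (d.R i).adicValuation (Polynomial.aeval M.x M.δ) = 1 := by
    obtain ⟨hm, hc⟩ := S17LI_c0_aeval (d.R i) hdeg hx M.δ
    apply S17LI_val_eq_one (d.R i) hdeg hm
    rw [hc, (S17LI_At_c0 hR).1]
    exact d.hδ i
  have h2 : (d.R i).adicValuation (M.x - algebraMap K F d.aQ) = 1 :=
    S17LI_val_sub hdeg hR (d.haQ i)
  have h3 : (d.R i).adicValuation (∏ j, (M.x - algebraMap K F (d.a0 j))) = exp (-1 : ℤ) := by
    rw [map_prod, Finset.prod_eq_single i]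
    · have h4 := M.unram (d.a0 i) (d.R i) (d.hδ i) hR.1
      have h0 : M.x - algebraMap K F (d.a0 i) ≠ 0 := by
        intro h0
        rw [h0, Place.ord_zero] at h4
        exact zero_ne_one h4
      rw [(d.R i).adicValuation_eq_exp_neg_ord h0, h4]
    · intro j _ hji
      exact S17LI_val_sub hdeg hR (fun hij => hji (d.ha_inj hij.symm))
    · intro hi
      exact absurd (Finset.mem_univ i) hi
  rw [S17LI_W, map_mul, map_mul, map_pow, h1, h2, h3, one_mul, one_mul, ← exp_nsmul]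
  simp

include h in
/-- (hA0), (hF2): `A_0` vanishes to order exactly `n` at `R_i`. -/
theorem S17LI_A0 (i : Fin d.g) :
    (∀ j < n, eval ![d.a0 i, d.b0 i] ((S17D_Der M.Φ)^[j] (d.A 0)) = 0) ∧
      eval ![d.a0 i, d.b0 i] ((S17D_Der M.Φ)^[n] (d.A 0)) ≠ 0 := by
  have hval : (d.R i).adicValuation (aeval ![M.x, M.y] (d.A 0)) = exp (-(n : ℤ)) := by
    rw [S17LI_hA, d.hψ0, mul_one, S17LI_val_W h]
  have h1 := (S17OR_iff h M (d.R i) (d.a0 i) (d.b0 i) (d.hδ i) (d.hR i) (d.A 0) n).1 hval.le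
  refine ⟨h1, fun h2 => ?_⟩
  have h3 := (S17OR_iff h M (d.R i) (d.a0 i) (d.b0 i) (d.hδ i) (d.hR i) (d.A 0) (n + 1)).2
    (fun j hj => by
      rcases Nat.lt_succ_iff_lt_or_eq.1 hj with hj' | rfl
      · exact h1 j hj'
      · exact h2)
  rw [hval, exp_le_exp] at h3
  push_cast at h3
  omega

omit [IsAlgClosed K] [CharZero K] in
/-- `R_i ≠ Q`. -/
theorem S17LI_R_ne_Q (i : Fin d.g) : d.R i ≠ Q := by
  intro hRQ
  have h1 := (S17LI_At_c0 (d.hR i)).1
  rw [hRQ, FD_c0_unique Q d.hQx] at h1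
  exact d.haQ i h1.symm

omit [IsAlgClosed K] [CharZero K] in
/-- the `R_i` are distinct. -/
theorem S17LI_R_inj : Function.Injective d.R := by
  intro i j hij
  apply d.ha_inj
  rw [← (S17LI_At_c0 (d.hR i)).1, ← (S17LI_At_c0 (d.hR j)).1, hij]

omit [IsAlgClosed K] [CharZero K] in
theorem S17LI_E_R (i : Fin d.g) : S17D_E d.R (d.R i) = 1 := by
  classical
  rw [S17D_E, Finsupp.finsetSum_apply, Finset.sum_eq_single i]
  · rw [Finsupp.single_eq_same]
  · intro j _ hji
    rw [Finsupp.single_apply, if_neg (fun hh => hji (S17LI_R_inj M Q n d hh))]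
  · intro hi
    exact absurd (Finset.mem_univ i) hi

omit [IsAlgClosed K] [CharZero K] in
theorem S17LI_E_of_ne (v : Place K F) (hv : ∀ i, d.R i ≠ v) : S17D_E d.R v = 0 := by
  classical
  rw [S17D_E, Finsupp.finsetSum_apply]
  refine Finset.sum_eq_zero fun i _ => ?_
  rw [Finsupp.single_apply, if_neg (hv i)]

omit [IsAlgClosed K] [CharZero K] in
/-- `t_Q ψ_k ∈ O_Q`. -/
theorem S17LI_tQ_psi_mem (k : Fin (d.D + 1)) : d.tQ * d.ψ k ∈ Q.toValuationSubring := by
  rw [S17LI_mem_iff]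
  have h1 := d.hψ_mem k Q
  rw [Finsupp.add_apply, Finsupp.smul_apply,
    S17LI_E_of_ne M Q n d Q (fun i => S17LI_R_ne_Q M Q n d i), smul_zero, zero_add,
    Finsupp.single_eq_same] at h1
  have h0 : d.tQ ≠ 0 := by
    intro h0
    have := d.htQ
    rw [h0, Place.ord_zero] at this
    exact zero_ne_one this
  rw [map_mul, Q.adicValuation_eq_exp_neg_ord h0, d.htQ]
  calc exp (-1 : ℤ) * Q.adicValuation (d.ψ k) ≤ exp (-1 : ℤ) * exp (1 : ℤ) := by gcongr
    _ = 1 := by rw [← exp_add]; simp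

include h in
omit [IsAlgClosed K] [CharZero K] in
/-- the condition at `Q`: `∑ γ_k e⁰_k = 0` means that `∑ γ_k ψ_k` has no pole at `Q`. -/
theorem S17LI_at_Q (γ : Fin (d.D + 1) → K)
    (hQ : ∑ k, γ k * S17D_par M.x d.tQ d.ψ Q (Sum.inl k) = 0) :
    Q.adicValuation (∑ k, γ k • d.ψ k) ≤ 1 := by
  have hdeg := h.deg_one Q
  have h1 : FD_c0 Q (d.tQ * ∑ k, γ k • d.ψ k) = 0 := by
    have h2 : d.tQ * ∑ k, γ k • d.ψ k = ∑ k ∈ Finset.univ, γ k • (d.tQ * d.ψ k) := by
      rw [Finset.mul_sum]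
      refine Finset.sum_congr rfl fun k _ => ?_
      rw [mul_smul_comm]
    rw [h2, S17LI_c0_sum Q hdeg _ _ _ (fun k _ => S17LI_tQ_psi_mem M Q n d k)]
    exact hQ
  have hm : d.tQ * ∑ k, γ k • d.ψ k ∈ Q.toValuationSubring := by
    rw [Finset.mul_sum]
    refine sum_mem fun k _ => ?_
    rw [mul_smul_comm, Algebra.smul_def]
    exact mul_mem (Q.algebraMap_mem' _) (S17LI_tQ_psi_mem M Q n d k)
  have h3 := (FD_c0_eq_zero_iff Q hdeg ((S17LI_mem_iff Q).1 hm)).1 h1
  rw [FD_val_lt_one_iff] at h3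
  have h0 : d.tQ ≠ 0 := by
    intro h0
    have := d.htQ
    rw [h0, Place.ord_zero] at this
    exact zero_ne_one this
  rw [map_mul, Q.adicValuation_eq_exp_neg_ord h0, d.htQ] at h3
  by_contra hcon
  rw [not_le] at hcon
  have h4 : exp (-1 : ℤ) * 1 < exp (-1 : ℤ) * Q.adicValuation (∑ k, γ k • d.ψ k) := by
    apply mul_lt_mul_of_pos_left hcon
    exact zero_lt_iff.2 exp_ne_zero
  rw [mul_one] at h4
  exact absurd h3 (not_le.2 h4)

include h in
/-- the conditions at `R_i`: `∑ γ_k ψ_k` has at most a simple pole at `R_i`. -/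
theorem S17LI_at_R (hn : 0 < n) (γ : Fin (d.D + 1) → K) (i : Fin d.g)
    (hR : ∀ j, j + 1 < n →
      ∑ k, γ k * eval ![d.a0 i, d.b0 i] ((S17D_Der M.Φ)^[j] (d.A k)) = 0) :
    (d.R i).adicValuation (∑ k, γ k • d.ψ k) ≤ exp (1 : ℤ) := by
  set H : MvPolynomial (Fin 2) K := ∑ k ∈ Finset.univ, γ k • d.A k with hH
  have hev : aeval ![M.x, M.y] H = S17LI_W M Q n d * ∑ k, γ k • d.ψ k := by
    rw [hH, map_sum, Finset.mul_sum]
    refine Finset.sum_congr rfl fun k _ => ?_
    rw [map_smul, S17LI_hA, mul_smul_comm]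
  have hD : ∀ j, j < n - 1 → eval ![d.a0 i, d.b0 i] ((S17D_Der M.Φ)^[j] H) = 0 := by
    intro j hj
    rw [S17OR_Der_eq, hH, S17OR_iter_sum, map_sum, ← hR j (by omega)]
    refine Finset.sum_congr rfl fun k _ => ?_
    rw [smul_eval, S17OR_Der_eq]
  have h1 := (S17OR_iff h M (d.R i) (d.a0 i) (d.b0 i) (d.hδ i) (d.hR i) H (n - 1)).2 hD
  rw [hev, map_mul, S17LI_val_W h] at h1
  by_contra hcon
  rw [not_le] at hcon
  have h4 : exp (-(n : ℤ)) * exp (1 : ℤ) <
      exp (-(n : ℤ)) * (d.R i).adicValuation (∑ k, γ k • d.ψ k) := by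
    apply mul_lt_mul_of_pos_left hcon
    exact zero_lt_iff.2 exp_ne_zero
  have h5 := lt_of_lt_of_le h4 h1
  rw [← exp_add, exp_lt_exp] at h5
  have : ((n - 1 : ℕ) : ℤ) = (n : ℤ) - 1 := by
    rw [Nat.cast_sub hn]
    simp
  omega

include h in
/-- (F1): the linearised system has trivial kernel. -/
theorem S17LI_F1 (hn : 0 < n) (γ : Fin (d.D + 1) → K) (hγ0 : γ 0 = 0)
    (hQ : ∑ k, γ k * S17D_par M.x d.tQ d.ψ Q (Sum.inl k) = 0)
    (hR : ∀ i, ∀ j, j + 1 < n →
      ∑ k, γ k * eval ![d.a0 i, d.b0 i] ((S17D_Der M.Φ)^[j] (d.A k)) = 0) :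
    γ = 0 := by
  classical
  have hfL : ∑ k, γ k • d.ψ k ∈
      riemannRochSpace ((n : ℤ) • S17D_E d.R + Finsupp.single Q (1 : ℤ)) :=
    sum_mem fun k _ => Submodule.smul_mem _ _ (d.hψ_mem k)
  have hfE : ∑ k, γ k • d.ψ k ∈ riemannRochSpace (S17D_E d.R) := by
    intro v
    by_cases hv : ∃ i, d.R i = v
    · obtain ⟨i, rfl⟩ := hv
      rw [S17LI_E_R]
      exact S17LI_at_R h M Q n d hn γ i (hR i)
    · rw [not_exists] at hv
      rw [S17LI_E_of_ne M Q n d v hv]
      by_cases hvQ : v = Q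
      · subst hvQ
        simpa using S17LI_at_Q h M v n d γ hQ
      · have := hfL v
        rw [Finsupp.add_apply, Finsupp.smul_apply, S17LI_E_of_ne M Q n d v hv, smul_zero,
          zero_add, Finsupp.single_apply, if_neg (Ne.symm hvQ)] at this
        exact this
  obtain ⟨c, hc⟩ := d.hnonspecial _ hfE
  have hli := d.hψ_li
  rw [Fintype.linearIndependent_iff] at hli
  have h1 : ∑ k, (γ k - if k = 0 then c else 0) • d.ψ k = 0 := by
    simp only [sub_smul, Finset.sum_sub_distrib, ite_smul, zero_smul, Finset.sum_ite_eq',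
      Finset.mem_univ, if_true]
    rw [hc, d.hψ0, Algebra.smul_def, mul_one, sub_self]
  have h2 := hli _ h1
  have hc0 : c = 0 := by
    have := h2 0
    rw [if_pos rfl, hγ0, zero_sub, neg_eq_zero] at this
    exact this
  funext k
  have := h2 k
  rw [hc0] at this
  simpa using this

/-- **LIN** (interface statement). -/
theorem S17LI_main (h : RR_Hyp K F) (M : S17D_Model K F)
    (Q : Place K F) (n : ℕ) (hn : 0 < n) (d : S17D_Data M Q n) :
    (∀ i, eval ![d.a0 i, d.b0 i] M.Φ = 0) ∧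
    (∀ i, eval ![d.a0 i, d.b0 i] (pderiv 1 M.Φ) ≠ 0) ∧
    (∀ i, ∀ j < n, eval ![d.a0 i, d.b0 i] ((S17D_Der M.Φ)^[j] (d.A 0)) = 0) ∧
    (∀ i, eval ![d.a0 i, d.b0 i] ((S17D_Der M.Φ)^[n] (d.A 0)) ≠ 0) ∧
    (S17D_par M.x d.tQ d.ψ Q (Sum.inl 0) = 0) ∧
    (S17D_par M.x d.tQ d.ψ Q (Sum.inr ()) = d.aQ) ∧
    (∀ j, S17D_parF M.x d.tQ d.ψ j ∈ Q.toValuationSubring) ∧
    (∀ γ : Fin (d.D + 1) → K, γ 0 = 0 →
      ∑ k, γ k * S17D_par M.x d.tQ d.ψ Q (Sum.inl k) = 0 →
      (∀ i, ∀ j, j + 1 < n →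
        ∑ k, γ k * eval ![d.a0 i, d.b0 i] ((S17D_Der M.Φ)^[j] (d.A k)) = 0) →
      γ = 0) := by
  have hΦ : ∀ i, eval ![d.a0 i, d.b0 i] M.Φ = 0 := fun i =>
    S17OR_At_eval (d.R i) (h.deg_one _) (d.hR i) M.Φ M.hΦ
  have hxQ : M.x ∈ Q.toValuationSubring := by
    have h2 : M.x - algebraMap K F d.aQ ∈ Q.toValuationSubring :=
      (S17LI_mem_iff Q).2 d.hQx.le
    have := add_mem h2 (Q.algebraMap_mem' d.aQ)
    rwa [sub_add_cancel] at this
  refine ⟨hΦ, fun i => M.smooth _ _ (d.hδ i) (hΦ i), fun i => (S17LI_A0 h M Q n d i).1,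
    fun i => (S17LI_A0 h M Q n d i).2, ?_, FD_c0_unique Q d.hQx, ?_,
    fun γ hγ0 hQ hR => S17LI_F1 h M Q n d hn γ hγ0 hQ hR⟩
  · show FD_c0 Q (d.tQ * d.ψ 0) = 0
    rw [d.hψ0, mul_one]
    apply FD_c0_unique
    rw [map_zero, sub_zero]
    have h0 : d.tQ ≠ 0 := by
      intro h0
      have := d.htQ
      rw [h0, Place.ord_zero] at this
      exact zero_ne_one this
    rw [Q.adicValuation_eq_exp_neg_ord h0, d.htQ, ← exp_zero, exp_lt_exp]
    norm_num
  · rintro (k | u)
    · exact S17LI_tQ_psi_mem M Q n d k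
    · exact hxQ

end data

end Fermat.Agent.S17
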