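import Mathlib
import Fermat.Prelude.Def_AlgebraicCurve_DivisorClassGroup
import Fermat.Agent.Lib.RiemannThm

/-!
# TRACK 8 (S17), pillar DIV, package SOUND (helper3), abstract half

`F / K` a function field with `RR_Hyp`.  If `φ ≠ 0` lies in `L(n E₀ + Q)` and its divisor of zeros
(as a section of `n E₀ + Q`) contains `n E' + P` with `deg E' = deg E₀`, then
`div φ = n E' + P - n E₀ - Q`, i.e. `P - Q = n (E₀ - E') + div φ`: the class of `P - Q` is
divisible by `n` in `Pic⁰`.  This is the shape consumed by `S17MV_div_of_cofinite'`.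

* `S17SD_of_le`     : divisor form;
* `S17SD_sum`       : the divisor `∑ i, R i` of a finite family of places and its values;
* `S17SD_of_points` : pointwise form for families `R i` (base points) and distinct `P i`
  (moved points), `P ≠ P i`.
-/

set_option autoImplicit false

open AlgebraicCurve

namespace Fermat.Agent.S17

open Fermat.Agent.Lib

variable {K F : Type*} [Field K] [Field F] [Algebra K F]

/-- **SOUND, divisor form.** -/
theorem S17SD_of_le (h : RR_Hyp K F) (n : ℕ) (E₀ E' : Divisor K F)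
    (hdeg : E₀.degree = E'.degree) (P Q : Place K F) (φ : F)
    (hle : ∀ v : Place K F, (n : ℤ) * E' v + (Finsupp.single P (1 : ℤ) : Divisor K F) v ≤
      v.ord φ + (n : ℤ) * E₀ v + (Finsupp.single Q (1 : ℤ) : Divisor K F) v) :
    ∀ v : Place K F, (Finsupp.single P (1 : ℤ) - Finsupp.single Q (1 : ℤ) : Divisor K F) v =
      (n : ℤ) * (E₀ - E') v + v.ord φ := by
  set D : Divisor K F := RR_div h.principal φ + (n : ℤ) • E₀ + Finsupp.single Q (1 : ℤ) -
    ((n : ℤ) • E' + Finsupp.single P (1 : ℤ)) with hD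
  have hD0 : 0 ≤ D := by
    rw [Finsupp.le_def]
    intro v
    have := hle v
    simp only [hD, Finsupp.coe_sub, Finsupp.coe_add, Finsupp.coe_smul, Pi.sub_apply, Pi.add_apply,
      Pi.smul_apply, smul_eq_mul, RR_div_apply, Finsupp.coe_zero, Pi.zero_apply]
    linarith
  have hDdeg : D.degree = 0 := by
    simp only [hD, map_sub, map_add, map_zsmul, RR_div_degree, Divisor.degree_single, h.deg_one,
      hdeg]
    simp
  have hDz := RR_eq_zero_of_degree_eq_zero h.deg_one hD0 hDdeg
  intro v
  have hv := DFunLike.congr_fun hDz v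
  simp only [hD, Finsupp.coe_sub, Finsupp.coe_add, Finsupp.coe_smul, Pi.sub_apply, Pi.add_apply,
    Pi.smul_apply, smul_eq_mul, RR_div_apply, Finsupp.coe_zero, Pi.zero_apply] at hv
  simp only [Finsupp.coe_sub, Pi.sub_apply]
  linarith

/-- the divisor `∑ i, R i` of a finite family of places. -/
noncomputable def S17SD_sum {ι : Type*} [Fintype ι] (R : ι → Place K F) : Divisor K F :=
  ∑ i, Finsupp.single (R i) (1 : ℤ)

theorem S17SD_sum_degree (h : RR_Hyp K F) {ι : Type*} [Fintype ι] (R : ι → Place K F) :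
    (S17SD_sum R).degree = Fintype.card ι := by
  simp [S17SD_sum, Divisor.degree_single, h.deg_one]

theorem S17SD_sum_nonneg {ι : Type*} [Fintype ι] (R : ι → Place K F) (v : Place K F) :
    0 ≤ S17SD_sum R v := by
  classical
  simp only [S17SD_sum, Finsupp.coe_finsetSum, Finset.sum_apply]
  exact Finset.sum_nonneg fun i _ => by
    rw [Finsupp.single_apply]; split_ifs <;> simp

theorem S17SD_sum_apply_of_notMem {ι : Type*} [Fintype ι] (R : ι → Place K F) (v : Place K F)
    (hv : ∀ i, R i ≠ v) : S17SD_sum R v = 0 := by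
  classical
  simp only [S17SD_sum, Finsupp.coe_finsetSum, Finset.sum_apply]
  exact Finset.sum_eq_zero fun i _ => by
    rw [Finsupp.single_apply, if_neg (hv i)]

theorem S17SD_sum_apply_of_inj {ι : Type*} [Fintype ι] (R : ι → Place K F)
    (hR : Function.Injective R) (i : ι) : S17SD_sum R (R i) = 1 := by
  classical
  simp only [S17SD_sum, Finsupp.coe_finsetSum, Finset.sum_apply]
  rw [Finset.sum_eq_single i]
  · simp
  · intro j _ hj
    rw [Finsupp.single_apply, if_neg fun hji => hj (hR hji)]
  · intro hi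
    exact absurd (Finset.mem_univ i) hi

/-- **SOUND, pointwise form.**  `R i` the base points, `P' i` the moved points (pairwise
distinct, different from `P`).  If `φ ≠ 0` has at most the poles `n ∑ R i + Q`, vanishes at `P`
and to order `≥ n` at each `P' i` (as a section of `n ∑ R i + Q`), then
`P - Q = n (∑ R i - ∑ P' i) + div φ`. -/
theorem S17SD_of_points (h : RR_Hyp K F) (n : ℕ) {ι : Type*} [Fintype ι]
    (R P' : ι → Place K F) (hP' : Function.Injective P') (P Q : Place K F)
    (hPP' : ∀ i, P' i ≠ P) (φ : F)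
    (hpole : ∀ v : Place K F,
      0 ≤ v.ord φ + (n : ℤ) * S17SD_sum R v + (Finsupp.single Q (1 : ℤ) : Divisor K F) v)
    (hzero : ∀ i, (n : ℤ) ≤ (P' i).ord φ + (n : ℤ) * S17SD_sum R (P' i) +
      (Finsupp.single Q (1 : ℤ) : Divisor K F) (P' i))
    (hP : 1 ≤ P.ord φ + (n : ℤ) * S17SD_sum R P + (Finsupp.single Q (1 : ℤ) : Divisor K F) P) :
    ∃ E : Divisor K F, ∀ v : Place K F,
      (Finsupp.single P (1 : ℤ) - Finsupp.single Q (1 : ℤ) : Divisor K F) v =
        (n : ℤ) * E v + v.ord φ := by
  classical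
  refine ⟨S17SD_sum R - S17SD_sum P', S17SD_of_le h n (S17SD_sum R) (S17SD_sum P')
    (by rw [S17SD_sum_degree h, S17SD_sum_degree h]) P Q φ fun v => ?_⟩
  by_cases hvP : v = P
  · subst hvP
    rw [S17SD_sum_apply_of_notMem P' v hPP', Finsupp.single_eq_same]
    linarith
  · rw [Finsupp.single_apply, if_neg (Ne.symm hvP), add_zero]
    by_cases hv : ∃ i, P' i = v
    · obtain ⟨i, rfl⟩ := hv
      rw [S17SD_sum_apply_of_inj P' hP', mul_one]
      exact hzero i
    · rw [S17SD_sum_apply_of_notMem P' v fun i hi => hv ⟨i, hi⟩, mul_zero]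
      exact hpole v

end Fermat.Agent.S17
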