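import Mathlib
import Fermat.Agent.S17.DivDefs
import Fermat.Agent.S17.OrdIff
import Fermat.Agent.S17.Sound

/-!
# TRACK 8 (S17), pillar DIV, package SOUND (helper3), coordinate half: `S17SO_main`

Exact statement of `NOTES/items/16_DIV_iface.md`: a `K`-solution `y = (c̄, ā, b̄)` of the system
`S17D_eq` + inequation `S17D_ineq` at the parameter values of a place `P` gives
`P - Q = n E + div f` with `f = ∑ c̄_k ψ_k` and `E = ∑ R_i - ∑ P̄_i`, `P̄_i` the place at
`(ā_i, b̄_i)`.  Uses ORD (`S17OR_iff`, helper24) and the abstract half `S17SD_of_points`.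

* `S17SO_cong_*` : calculus of congruences `f ≡ a mod P` (`P.adicValuation (f - a) < 1`);
* `S17SO_main`   : the table statement.
-/

set_option autoImplicit false

open AlgebraicCurve MvPolynomial IntermediateField WithZero

namespace Fermat.Agent.S17

open Fermat.Agent.Lib

variable {K F : Type*} [Field K] [Field F] [Algebra K F]

/-! ### congruences modulo a place -/

theorem S17SO_cong_const (P : Place K F) (c : K) :
    P.adicValuation (algebraMap K F c - algebraMap K F c) < 1 := by
  rw [sub_self, map_zero]; exact zero_lt_one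

theorem S17SO_val_le_one (P : Place K F) {f : F} {a : K}
    (hf : P.adicValuation (f - algebraMap K F a) < 1) : P.adicValuation f ≤ 1 := by
  have : f = (f - algebraMap K F a) + algebraMap K F a := by ring
  rw [this]
  exact (Valuation.map_add _ _ _).trans (max_le hf.le (P.adicValuation_algebraMap_le_one a))

theorem S17SO_cong_add (P : Place K F) {f g : F} {a b : K}
    (hf : P.adicValuation (f - algebraMap K F a) < 1)
    (hg : P.adicValuation (g - algebraMap K F b) < 1) :
    P.adicValuation (f + g - algebraMap K F (a + b)) < 1 := by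
  have : f + g - algebraMap K F (a + b) = (f - algebraMap K F a) + (g - algebraMap K F b) := by
    rw [map_add]; ring
  rw [this]
  exact lt_of_le_of_lt (Valuation.map_add _ _ _) (max_lt hf hg)

theorem S17SO_cong_mul (P : Place K F) {f g : F} {a b : K}
    (hf : P.adicValuation (f - algebraMap K F a) < 1)
    (hg : P.adicValuation (g - algebraMap K F b) < 1) :
    P.adicValuation (f * g - algebraMap K F (a * b)) < 1 := by
  have : f * g - algebraMap K F (a * b) =
      (f - algebraMap K F a) * g + algebraMap K F a * (g - algebraMap K F b) := by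
    rw [map_mul]; ring
  rw [this]
  refine lt_of_le_of_lt (Valuation.map_add _ _ _) (max_lt ?_ ?_)
  · rw [map_mul]
    exact (mul_le_of_le_one_right' (S17SO_val_le_one P hg)).trans_lt hf
  · rw [map_mul]
    exact (mul_le_of_le_one_left' (P.adicValuation_algebraMap_le_one a)).trans_lt hg

theorem S17SO_cong_sub (P : Place K F) {f g : F} {a b : K}
    (hf : P.adicValuation (f - algebraMap K F a) < 1)
    (hg : P.adicValuation (g - algebraMap K F b) < 1) :
    P.adicValuation (f - g - algebraMap K F (a - b)) < 1 := by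
  have : f - g - algebraMap K F (a - b) = (f - algebraMap K F a) - (g - algebraMap K F b) := by
    rw [map_sub]; ring
  rw [this]
  exact lt_of_le_of_lt (Valuation.map_sub _ _ _) (max_lt hf hg)

theorem S17SO_cong_pow (P : Place K F) {f : F} {a : K}
    (hf : P.adicValuation (f - algebraMap K F a) < 1) (m : ℕ) :
    P.adicValuation (f ^ m - algebraMap K F (a ^ m)) < 1 := by
  induction m with
  | zero => simp
  | succ m ih =>
    rw [pow_succ, pow_succ]
    exact S17SO_cong_mul P ih hf

theorem S17SO_cong_sum (P : Place K F) {ι : Type*} (s : Finset ι) (f : ι → F) (a : ι → K)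
    (hf : ∀ i ∈ s, P.adicValuation (f i - algebraMap K F (a i)) < 1) :
    P.adicValuation (∑ i ∈ s, f i - algebraMap K F (∑ i ∈ s, a i)) < 1 := by
  classical
  induction s using Finset.induction_on with
  | empty => simp
  | insert i s hi ih =>
    rw [Finset.sum_insert hi, Finset.sum_insert hi]
    exact S17SO_cong_add P (hf i (Finset.mem_insert_self i s))
      (ih fun j hj => hf j (Finset.mem_insert_of_mem hj))

theorem S17SO_cong_poly (P : Place K F) {f : F} {a : K}
    (hf : P.adicValuation (f - algebraMap K F a) < 1) (p : Polynomial K) :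
    P.adicValuation (Polynomial.aeval f p - algebraMap K F (p.eval a)) < 1 := by
  induction p using Polynomial.induction_on' with
  | add p q hp hq =>
    rw [map_add, Polynomial.eval_add]
    exact S17SO_cong_add P hp hq
  | monomial m c =>
    rw [Polynomial.aeval_monomial, Polynomial.eval_monomial]
    exact S17SO_cong_mul P (S17SO_cong_const P c) (S17SO_cong_pow P hf m)

/-- a function congruent to a nonzero constant is a unit. -/
theorem S17SO_val_eq_one (P : Place K F) {f : F} {a : K}
    (hf : P.adicValuation (f - algebraMap K F a) < 1) (ha : a ≠ 0) : P.adicValuation f = 1 := by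
  have h1 : P.adicValuation (algebraMap K F a) = 1 := FD_val_algebraMap P ha
  have : f = (f - algebraMap K F a) + algebraMap K F a := by ring
  rw [this, Valuation.map_add_eq_of_lt_right _ (by rw [h1]; exact hf), h1]

/-- a function congruent to `0` has valuation `< 1`. -/
theorem S17SO_val_lt_one (P : Place K F) {f : F}
    (hf : P.adicValuation (f - algebraMap K F 0) < 1) : P.adicValuation f < 1 := by
  rwa [map_zero, sub_zero] at hf

/-! ### evaluation of the system -/

theorem S17SO_eval_aeval {σ : Type*} (v : σ → K) (q : MvPolynomial σ K) (δ : Polynomial K) :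
    eval v (Polynomial.aeval q δ) = δ.eval (eval v q) := by
  induction δ using Polynomial.induction_on' with
  | add p q' hp hq => rw [map_add, map_add, hp, hq, Polynomial.eval_add]
  | monomial m c =>
    rw [Polynomial.aeval_monomial, Polynomial.eval_monomial, map_mul, map_pow]
    simp [MvPolynomial.algebraMap_eq]

theorem S17SO_E_eq {g : ℕ} (R : Fin g → Place K F) : S17D_E R = S17SD_sum R := rfl

theorem S17SO_iterate_sum (Φ : MvPolynomial (Fin 2) K) {ι : Type*} (s : Finset ι) (c : ι → K)
    (A : ι → MvPolynomial (Fin 2) K) (m : ℕ) :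
    (S17D_Der Φ)^[m] (∑ k ∈ s, c k • A k) = ∑ k ∈ s, c k • (S17D_Der Φ)^[m] (A k) := by
  induction m with
  | zero => rfl
  | succ m ih =>
    rw [Function.iterate_succ_apply', ih, map_sum]
    refine Finset.sum_congr rfl fun k _ => ?_
    rw [Function.iterate_succ_apply', Derivation.map_smul]

/-- `val ≤ exp (-m)` to `ord ≥ m`. -/
theorem S17SO_ord_ge (P : Place K F) {f : F} (hf : f ≠ 0) {m : ℤ}
    (h : P.adicValuation f ≤ exp (-m)) : m ≤ P.ord f := by
  rcases P.adicValuation_le_exp_iff.1 h with h0 | h1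
  · exact absurd h0 hf
  · simpa using h1

/-- **SOUND** (table `NOTES/items/16_DIV_iface.md`): a `K`-solution of the system at the
parameter values of `P` gives `P - Q = n E + div f`. -/
theorem S17SO_main [IsAlgClosed K] [CharZero K] (h : RR_Hyp K F) (M : S17D_Model K F)
    (Q : Place K F) (n : ℕ) (hn : 0 < n) (d : S17D_Data M Q n) (P : Place K F)
    (hPx : P.adicValuation M.x ≤ 1) (hPQ : P ≠ Q) (hPR : ∀ i, P ≠ d.R i)
    (hPt : P.adicValuation d.tQ = 1)
    (y : S17D_U d.g d.D → K)
    (hy : ∀ t, eval (Sum.elim y (S17D_par M.x d.tQ d.ψ P)) (S17D_eq (g := d.g) n M.Φ d.A t) = 0)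
    (hN : eval (Sum.elim y (S17D_par M.x d.tQ d.ψ P))
      (S17D_ineq d.D M.δ d.Θ d.a0 d.aQ) ≠ 0) :
    ∃ (E : Divisor K F) (f : F), f ≠ 0 ∧ ∀ v : Place K F,
      (Finsupp.single P (1 : ℤ) - Finsupp.single Q (1 : ℤ) : Divisor K F) v =
        (n : ℤ) * E v + v.ord f := by
  classical
  set pv : S17D_V d.g d.D → K := Sum.elim y (S17D_par M.x d.tQ d.ψ P) with hpv
  set c : Fin (d.D + 1) → K := fun k => y (Sum.inl k) with hc
  set a : Fin d.g → K := fun i => y (Sum.inr (Sum.inl i)) with ha
  set b : Fin d.g → K := fun i => y (Sum.inr (Sum.inr i)) with hb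
  have hpt : ∀ i, pv ∘ S17D_pt d.D i = ![a i, b i] := by
    intro i
    funext k
    fin_cases k <;> rfl
  have hat : ∀ i (q : MvPolynomial (Fin 2) K),
      eval pv (S17D_at d.D i q) = eval ![a i, b i] q := by
    intro i q
    rw [S17D_at, eval_rename, hpt]
  have hvc : ∀ k, eval pv (S17D_c K d.g k) = c k := fun k => by
    rw [S17D_c, eval_X]; rfl
  have hva : ∀ i, eval pv (S17D_a K d.D i) = a i := fun i => by
    rw [S17D_a, eval_X]; rfl
  have hvb : ∀ i, eval pv (S17D_b K d.D i) = b i := fun i => by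
    rw [S17D_b, eval_X]; rfl
  have hve : ∀ k, eval pv (S17D_e K d.g k) = FD_c0 P (d.tQ * d.ψ k) := fun k => by
    rw [S17D_e, eval_X]; rfl
  have hvxi : eval pv (S17D_xi K d.g d.D) = FD_c0 P M.x := by
    rw [S17D_xi, eval_X]; rfl
  -- the equations
  have hc0 : c 0 = 1 := by
    have := hy (Sum.inl (Sum.inl ()))
    simp only [S17D_eq, map_sub, hvc, map_one] at this
    exact sub_eq_zero.1 this
  have hlin : ∑ k, c k * FD_c0 P (d.tQ * d.ψ k) = 0 := by
    have := hy (Sum.inl (Sum.inr ()))
    simpa only [S17D_eq, map_sum, map_mul, hvc, hve] using this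
  have hΦ : ∀ i, eval ![a i, b i] M.Φ = 0 := by
    intro i
    have := hy (Sum.inr (Sum.inl i))
    simpa only [S17D_eq, hat] using this
  have hD : ∀ i, ∀ j < n,
      ∑ k, c k * eval ![a i, b i] ((S17D_Der M.Φ)^[j] (d.A k)) = 0 := by
    intro i j hj
    have := hy (Sum.inr (Sum.inr (i, ⟨j, hj⟩)))
    simpa only [S17D_eq, map_sum, map_mul, hvc, hat] using this
  -- the inequation
  have hNi : ∀ i, M.δ.eval (a i) ≠ 0 ∧ a i ≠ FD_c0 P M.x ∧ a i ≠ d.aQ ∧
      (d.Θ i).eval (b i) ≠ 0 ∧ ∀ j, j ≠ i → a i ≠ d.a0 j ∧ a i ≠ a j := by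
    intro i
    have h1 := hN
    rw [S17D_ineq, map_prod, Finset.prod_ne_zero_iff] at h1
    have h2 := h1 i (Finset.mem_univ i)
    rw [map_mul, map_mul, map_mul, map_mul, S17SO_eval_aeval, S17SO_eval_aeval, map_sub, map_sub,
      hva, hvb, hvxi, eval_C, map_prod, mul_ne_zero_iff, mul_ne_zero_iff, mul_ne_zero_iff,
      mul_ne_zero_iff, Finset.prod_ne_zero_iff] at h2
    obtain ⟨⟨⟨⟨h3, h4⟩, h5⟩, h6⟩, h7⟩ := h2
    refine ⟨h3, sub_ne_zero.1 h4, sub_ne_zero.1 h5, h6, fun j hj => ?_⟩
    have h8 := h7 j (Finset.mem_univ j)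
    rw [if_neg hj, map_mul, map_sub, map_sub, hva, hva, eval_C, mul_ne_zero_iff] at h8
    exact ⟨sub_ne_zero.1 h8.1, sub_ne_zero.1 h8.2⟩
  -- the function
  set ψb : F := ∑ k, c k • d.ψ k with hψb
  have hψb0 : ψb ≠ 0 := by
    intro h0
    have := Fintype.linearIndependent_iff.1 d.hψ_li c h0 0
    rw [hc0] at this
    exact one_ne_zero this
  have hψmem : ψb ∈ riemannRochSpace ((n : ℤ) • S17D_E d.R + Finsupp.single Q (1 : ℤ)) :=
    Submodule.sum_mem _ fun k _ => Submodule.smul_mem _ _ (d.hψ_mem k)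
  -- the numerator
  set Ab : MvPolynomial (Fin 2) K := ∑ k, c k • d.A k with hAbdef
  have hAb : aeval ![M.x, M.y] Ab = Polynomial.aeval M.x M.δ * (M.x - algebraMap K F d.aQ)
      * (∏ i, (M.x - algebraMap K F (d.a0 i))) ^ n * ψb := by
    simp only [hAbdef, hψb, map_sum, map_smul, d.hA, Finset.mul_sum, mul_smul_comm]
  have hDAb : ∀ i, ∀ j < n, eval ![a i, b i] ((S17D_Der M.Φ)^[j] Ab) = 0 := by
    intro i j hj
    rw [hAbdef, S17SO_iterate_sum, map_sum]
    simpa only [smul_eval] using hD i j hj
  -- the places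
  choose Pb hPb using fun i => M.exists_place (a i) (b i) (hNi i).1 (hΦ i)
  have hPbinj : Function.Injective Pb := by
    intro i j hij
    by_contra hne
    have h1 := FD_c0_unique _ (hPb i).1
    have h2 := FD_c0_unique _ (hPb j).1
    rw [← hij, h1] at h2
    exact ((hNi i).2.2.2.2 j (Ne.symm hne)).2 h2
  have hPbP : ∀ i, Pb i ≠ P := by
    intro i hi
    have h1 := FD_c0_unique _ (hPb i).1
    rw [hi] at h1
    exact (hNi i).2.1 h1.symm
  have hRinj : Function.Injective d.R := by
    intro i j hij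
    have h1 := FD_c0_unique _ (d.hR i).1
    have h2 := FD_c0_unique _ (d.hR j).1
    rw [← hij, h1] at h2
    exact d.ha_inj h2
  -- the pole bound
  have hpole : ∀ v : Place K F,
      0 ≤ v.ord ψb + (n : ℤ) * S17SD_sum d.R v + (Finsupp.single Q (1 : ℤ) : Divisor K F) v := by
    intro v
    have h1 := S17SO_ord_ge v hψb0 (m := -((n : ℤ) * S17SD_sum d.R v +
      (Finsupp.single Q (1 : ℤ) : Divisor K F) v)) (by
        have := hψmem v
        simpa only [neg_neg, Finsupp.coe_add, Finsupp.coe_smul, Pi.add_apply, Pi.smul_apply,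
          smul_eq_mul, S17SO_E_eq] using this)
    linarith
  -- the zeros at the moving points
  have hzero : ∀ i, (n : ℤ) ≤ (Pb i).ord ψb + (n : ℤ) * S17SD_sum d.R (Pb i) +
      (Finsupp.single Q (1 : ℤ) : Divisor K F) (Pb i) := by
    intro i
    have hval := (S17OR_iff h M (Pb i) (a i) (b i) (hNi i).1 (hPb i) Ab n).2 (hDAb i)
    have hv1 : (Pb i).adicValuation (Polynomial.aeval M.x M.δ) = 1 :=
      S17SO_val_eq_one _ (S17SO_cong_poly _ (hPb i).1 M.δ) (hNi i).1
    have hv2 : (Pb i).adicValuation (M.x - algebraMap K F d.aQ) = 1 :=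
      S17SO_val_eq_one _ (S17SO_cong_sub _ (hPb i).1 (S17SO_cong_const _ d.aQ))
        (sub_ne_zero.2 (hNi i).2.2.1)
    have hv3 : ∀ j, j ≠ i → (Pb i).adicValuation (M.x - algebraMap K F (d.a0 j)) = 1 :=
      fun j hj => S17SO_val_eq_one _ (S17SO_cong_sub _ (hPb i).1 (S17SO_cong_const _ (d.a0 j)))
        (sub_ne_zero.2 ((hNi i).2.2.2.2 j hj).1)
    have hv4 : (Pb i).adicValuation (∏ j, (M.x - algebraMap K F (d.a0 j))) =
        (Pb i).adicValuation (M.x - algebraMap K F (d.a0 i)) := by
      rw [map_prod, Finset.prod_eq_single i (fun j _ hj => hv3 j hj)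
        (fun hi => absurd (Finset.mem_univ i) hi)]
    rw [hAb, map_mul, map_mul, map_mul, map_pow, hv1, hv2, hv4, one_mul, one_mul] at hval
    have hs1 : (0 : ℤ) ≤ S17SD_sum d.R (Pb i) := S17SD_sum_nonneg d.R (Pb i)
    have hs2 : (0 : ℤ) ≤ (Finsupp.single Q (1 : ℤ) : Divisor K F) (Pb i) := by
      rw [Finsupp.single_apply]; split_ifs <;> simp
    have hn0 : (0 : ℤ) ≤ n := Int.natCast_nonneg n
    by_cases hai : a i = d.a0 i
    · -- the moving point is the base point
      have hbi : b i = d.b0 i := d.hΘ i (b i) (by rw [← hai]; exact hΦ i) (hNi i).2.2.2.1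
      have hPR' : Pb i = d.R i :=
        M.unique_place (a i) (b i) _ _ (hNi i).1 (hPb i) (by rw [hai, hbi]; exact d.hR i)
      have hord : (Pb i).ord (M.x - algebraMap K F (d.a0 i)) = 1 := by
        rw [← hai]
        exact M.unram (a i) (Pb i) (hNi i).1 (hPb i).1
      have hne : M.x - algebraMap K F (d.a0 i) ≠ 0 := by
        intro h0
        rw [h0, Place.ord_zero] at hord
        exact zero_ne_one hord
      rw [(Pb i).adicValuation_eq_exp_neg_ord hne, hord, ← exp_nsmul, (Pb i).adicValuation_eq_exp_neg_ord hψb0,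
        ← exp_add, exp_le_exp] at hval
      have h5 : S17SD_sum d.R (Pb i) = 1 := by
        rw [hPR']
        exact S17SD_sum_apply_of_inj d.R hRinj i
      rw [h5]
      simp only [nsmul_eq_mul] at hval
      linarith
    · have hv5 : (Pb i).adicValuation (M.x - algebraMap K F (d.a0 i)) = 1 :=
        S17SO_val_eq_one _ (S17SO_cong_sub _ (hPb i).1 (S17SO_cong_const _ (d.a0 i)))
          (sub_ne_zero.2 hai)
      rw [hv5, one_pow, one_mul] at hval
      have := S17SO_ord_ge _ hψb0 hval
      nlinarith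
  -- the zero at `P`
  have hPzero : 1 ≤ P.ord ψb + (n : ℤ) * S17SD_sum d.R P +
      (Finsupp.single Q (1 : ℤ) : Divisor K F) P := by
    have hE0 : S17SD_sum d.R P = 0 := S17SD_sum_apply_of_notMem d.R P fun i hi => hPR i hi.symm
    have hQ0 : (Finsupp.single Q (1 : ℤ) : Divisor K F) P = 0 := by
      rw [Finsupp.single_apply, if_neg (Ne.symm hPQ)]
    rw [hE0, hQ0, mul_zero, add_zero, add_zero]
    have hψk : ∀ k, P.adicValuation (d.ψ k) ≤ 1 := by
      intro k
      have := d.hψ_mem k P
      rw [Finsupp.coe_add, Finsupp.coe_smul, Pi.add_apply, Pi.smul_apply, S17SO_E_eq, hE0, hQ0,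
        smul_zero, add_zero, exp_zero] at this
      exact this
    have htψ : ∀ k, P.adicValuation (d.tQ * d.ψ k) ≤ 1 := by
      intro k
      rw [map_mul, hPt, one_mul]
      exact hψk k
    have h1 := S17SO_cong_sum P Finset.univ (fun k => algebraMap K F (c k) * (d.tQ * d.ψ k))
      (fun k => c k * FD_c0 P (d.tQ * d.ψ k)) fun k _ =>
        S17SO_cong_mul P (S17SO_cong_const P (c k)) (FD_c0_spec P (h.deg_one P) (htψ k))
    rw [hlin, map_zero, sub_zero] at h1
    have h2 : ∑ k, algebraMap K F (c k) * (d.tQ * d.ψ k) = d.tQ * ψb := by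
      rw [hψb, Finset.mul_sum]
      refine Finset.sum_congr rfl fun k _ => ?_
      rw [Algebra.smul_def]
      ring
    rw [h2, map_mul, hPt, one_mul, FD_val_lt_one_iff] at h1
    have := S17SO_ord_ge P hψb0 (m := 1) h1
    exact this
  obtain ⟨E, hE⟩ := S17SD_of_points h n d.R Pb hPbinj P Q hPbP ψb hpole hzero hPzero
  exact ⟨E, ψb, hψb0, hE⟩

end Fermat.Agent.S17
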