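import Fermat.Agent.S17.GenIFT
import Fermat.Agent.S17.Spec
import Fermat.Agent.Lib.DiffExpand

/-!
# TRACK 8 (S17), pillar DIV, package TRANSFER (helper23) = GEN + SPEC glued

`K` algebraically closed, `F / K` with principal divisors, all places of degree one.
A polynomial system over `K` in unknowns `σ` and PARAMETERS `π`, the parameters being functions
`p j ∈ F` regular at a base place `Q`:  equations `G t = 0` (`t : τ`), inequation `N ≠ 0`.
If the system specialised at `Q` (parameters `↦ p j (Q)`) has a solution `y₀ : σ → K` at which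
the Jacobian with respect to the unknowns is surjective, then for all places `P` outside a finite
set the system specialised at `P` has a solution in `K`.

* `S17TR_sub`          : substitution of the parameters, `K[σ ⊕ π] → O_Q[σ]`
* `S17TR_eval₂_sub`    : evaluation of a substituted polynomial
* `S17TR_pderiv_sub`   : `∂/∂s` commutes with the substitution
* `S17TR_generic`      : the solution over the algebraic closure of `F` (from `S17G_gen`)
* `S17TR_specialise`   : specialisation of a solution over an algebraic extension (from SPEC)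
* `S17TR_main`         : the package statement (ruling v3 §3 of the DIV designer)
-/

set_option autoImplicit false

open AlgebraicCurve MvPolynomial Fermat.Agent.Lib

namespace Fermat.Agent.S17

section sub

variable {K R : Type*} [CommRing K] [CommRing R] {σ π : Type*}

/-- substitution of parameters: `K[σ ⊕ π] → R[σ]`, `X (inl s) ↦ X s`, `X (inr j) ↦ C (p j)`. -/
noncomputable def S17TR_sub (κ : K →+* R) (p : π → R) :
    MvPolynomial (σ ⊕ π) K →+* MvPolynomial σ R :=
  eval₂Hom ((C : R →+* MvPolynomial σ R).comp κ) (Sum.elim X (fun j => C (p j)))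

@[simp]
theorem S17TR_sub_C (κ : K →+* R) (p : π → R) (a : K) :
    S17TR_sub (σ := σ) κ p (C a) = C (κ a) := by
  simp [S17TR_sub]

@[simp]
theorem S17TR_sub_X_inl (κ : K →+* R) (p : π → R) (s : σ) :
    S17TR_sub κ p (X (Sum.inl s)) = X s := by
  simp [S17TR_sub]

@[simp]
theorem S17TR_sub_X_inr (κ : K →+* R) (p : π → R) (j : π) :
    S17TR_sub (σ := σ) κ p (X (Sum.inr j)) = C (p j) := by
  simp [S17TR_sub]

/-- evaluation of a substituted polynomial. -/
theorem S17TR_eval₂_sub {A : Type*} [CommRing A] (κ : K →+* R) (p : π → R) (φ : R →+* A)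
    (y : σ → A) (q : MvPolynomial (σ ⊕ π) K) :
    eval₂ φ y (S17TR_sub κ p q) = eval₂ (φ.comp κ) (Sum.elim y (fun j => φ (p j))) q := by
  induction q using MvPolynomial.induction_on with
  | C a => simp
  | add q₁ q₂ h₁ h₂ => rw [map_add, eval₂_add, eval₂_add, h₁, h₂]
  | mul_X q i h =>
    rw [map_mul, eval₂_mul, eval₂_mul, h]
    congr 1
    rcases i with s | j
    · simp
    · simp

/-- `∂/∂s` commutes with the substitution of the parameters. -/
theorem S17TR_pderiv_sub [DecidableEq σ] (κ : K →+* R) (p : π → R) (s : σ)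
    (q : MvPolynomial (σ ⊕ π) K) :
    pderiv s (S17TR_sub κ p q) = S17TR_sub κ p (pderiv (Sum.inl s) q) := by
  classical
  induction q using MvPolynomial.induction_on with
  | C a => simp
  | add q₁ q₂ h₁ h₂ => rw [map_add, map_add, map_add, map_add, h₁, h₂]
  | mul_X q i h =>
    rw [map_mul, Derivation.leibniz, Derivation.leibniz, h, map_add, smul_eq_mul, smul_eq_mul,
      smul_eq_mul, smul_eq_mul, map_mul, map_mul]
    congr 2
    rcases i with s' | j
    · rw [S17TR_sub_X_inl, pderiv_X, pderiv_X]
      by_cases h' : s' = s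
      · subst h'
        simp
      · have h'' : (Sum.inl s' : σ ⊕ π) ≠ Sum.inl s := fun h0 => h' (Sum.inl.inj h0)
        rw [Pi.single_eq_of_ne h', Pi.single_eq_of_ne h'', map_zero]
    · rw [S17TR_sub_X_inr, pderiv_C, pderiv_X]
      have h'' : (Sum.inr j : σ ⊕ π) ≠ Sum.inl s := fun h0 => by cases h0
      rw [Pi.single_eq_of_ne h'', map_zero]

end sub

section main

variable {K F : Type*} [Field K] [Field F] [Algebra K F]

/-- the value at `Q` of an element of `O_Q` is the constant term of its expansion. -/
theorem S17TR_eps_apply (Q : Place K F) (hdeg : Q.deg = 1) (a : Q.toValuationSubring) :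
    S17G_eps ((FD_expHom Q hdeg : Q.toValuationSubring →ₐ[K] PowerSeries K) :
      Q.toValuationSubring →+* PowerSeries K) a = FD_c0 Q (a : F) := by
  show PowerSeries.constantCoeff (FD_expHom Q hdeg a) = _
  rw [FD_expHom_apply, FD_constantCoeff]

theorem S17TR_eps_comp (Q : Place K F) (hdeg : Q.deg = 1) :
    (S17G_eps ((FD_expHom Q hdeg : Q.toValuationSubring →ₐ[K] PowerSeries K) :
      Q.toValuationSubring →+* PowerSeries K)).comp (algebraMap K Q.toValuationSubring)
      = RingHom.id K := by
  ext c
  show PowerSeries.constantCoeff (FD_expHom Q hdeg (algebraMap K Q.toValuationSubring c)) = c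
  rw [AlgHom.commutes]
  exact PowerSeries.constantCoeff_C c

variable {σ τ π : Type*} [Fintype σ] [Fintype τ] [DecidableEq σ] [DecidableEq τ]

omit [DecidableEq σ] in
/-- **TRANSFER, generic part**: the solution over the algebraic closure of `F`. -/
theorem S17TR_generic (Q : Place K F) (hdeg : Q.deg = 1)
    (G : τ → MvPolynomial (σ ⊕ π) K) (N : MvPolynomial (σ ⊕ π) K)
    (p : π → F) (hp : ∀ j, p j ∈ Q.toValuationSubring) (y₀ : σ → K)
    (hG : ∀ t, eval (Sum.elim y₀ (fun j => FD_c0 Q (p j))) (G t) = 0)
    (hN : eval (Sum.elim y₀ (fun j => FD_c0 Q (p j))) N ≠ 0)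
    (hJ : Function.Surjective (fun (v : σ → K) (t : τ) =>
      ∑ s, eval (Sum.elim y₀ (fun j => FD_c0 Q (p j))) (pderiv (Sum.inl s) (G t)) * v s)) :
    ∃ y : σ → AlgebraicClosure F,
      (∀ t, eval₂ ((algebraMap F (AlgebraicClosure F)).comp (algebraMap K F))
        (Sum.elim y (fun j => algebraMap F (AlgebraicClosure F) (p j))) (G t) = 0) ∧
      eval₂ ((algebraMap F (AlgebraicClosure F)).comp (algebraMap K F))
        (Sum.elim y (fun j => algebraMap F (AlgebraicClosure F) (p j))) N ≠ 0 := by
  classical
  set E : Q.toValuationSubring →+* PowerSeries K :=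
    ((FD_expHom Q hdeg : Q.toValuationSubring →ₐ[K] PowerSeries K) :
      Q.toValuationSubring →+* PowerSeries K) with hE
  have hEinj : Function.Injective E := FD_expHom_injective Q hdeg
  set pR : π → Q.toValuationSubring := fun j => ⟨p j, hp j⟩ with hpR
  set κ : K →+* Q.toValuationSubring := algebraMap K Q.toValuationSubring with hκ
  have hev : ∀ q : MvPolynomial (σ ⊕ π) K,
      eval₂ (S17G_eps E) y₀ (S17TR_sub κ pR q)
        = eval (Sum.elim y₀ (fun j => FD_c0 Q (p j))) q := by
    intro q
    rw [S17TR_eval₂_sub, S17TR_eps_comp Q hdeg]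
    have : (fun j => S17G_eps E (pR j)) = fun j => FD_c0 Q (p j) := by
      funext j
      exact S17TR_eps_apply Q hdeg (pR j)
    rw [this]
    rfl
  obtain ⟨y, hy, hyN⟩ := S17G_gen (F := F) E hEinj (fun t => S17TR_sub κ pR (G t))
    (S17TR_sub κ pR N) y₀ (fun t => by rw [hev, hG]) (by rw [hev]; exact hN)
    (by
      have : (fun (v : σ → K) (t : τ) =>
          ∑ s, eval₂ (S17G_eps E) y₀ (pderiv s (S17TR_sub κ pR (G t))) * v s)
          = (fun (v : σ → K) (t : τ) =>
            ∑ s, eval (Sum.elim y₀ (fun j => FD_c0 Q (p j))) (pderiv (Sum.inl s) (G t)) * v s) := by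
        funext v t
        refine Finset.sum_congr rfl fun s _ => ?_
        rw [S17TR_pderiv_sub, hev]
      rw [this]
      exact hJ)
  have hcomp : (((algebraMap F (AlgebraicClosure F)).comp
      (algebraMap Q.toValuationSubring F)).comp κ)
      = (algebraMap F (AlgebraicClosure F)).comp (algebraMap K F) := by
    ext c
    rfl
  have hpt : (fun j => ((algebraMap F (AlgebraicClosure F)).comp
      (algebraMap Q.toValuationSubring F)) (pR j))
      = fun j => algebraMap F (AlgebraicClosure F) (p j) := by
    funext j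
    rfl
  refine ⟨y, fun t => ?_, ?_⟩
  · have := hy t
    rwa [S17TR_eval₂_sub, hcomp, hpt] at this
  · rwa [S17TR_eval₂_sub, hcomp, hpt] at hyN

omit [Fintype τ] [DecidableEq σ] [DecidableEq τ] in
/-- **TRANSFER, specialisation part**: a solution over an algebraic extension `L / F` of a system
over `K` with parameters `p j ∈ F` specialises at almost all places. -/
theorem S17TR_specialise [IsAlgClosed K] {L : Type*} [Field L] [Algebra F L]
    [Algebra.IsAlgebraic F L] [Finite π]
    (hP : HasPrincipalDivisors K F) (hdeg : ∀ v : Place K F, v.deg = 1)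
    (G : τ → MvPolynomial (σ ⊕ π) K) (N : MvPolynomial (σ ⊕ π) K) (p : π → F)
    (y : σ → L)
    (hy : ∀ t, eval₂ ((algebraMap F L).comp (algebraMap K F))
        (Sum.elim y (fun j => algebraMap F L (p j))) (G t) = 0)
    (hyN : eval₂ ((algebraMap F L).comp (algebraMap K F))
        (Sum.elim y (fun j => algebraMap F L (p j))) N ≠ 0) :
    ∃ T : Finset (Place K F), ∀ P : Place K F, P ∉ T →
      (∀ j, p j ∈ P.toValuationSubring) ∧
      ∃ y' : σ → K, (∀ t, eval (Sum.elim y' (fun j => FD_c0 P (p j))) (G t) = 0) ∧
        eval (Sum.elim y' (fun j => FD_c0 P (p j))) N ≠ 0 := by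
  classical
  cases nonempty_fintype π
  -- the family to specialise: the solution and the inverse of `N (y)`
  set z : L := (eval₂ ((algebraMap F L).comp (algebraMap K F))
        (Sum.elim y (fun j => algebraMap F L (p j))) N)⁻¹ with hz
  obtain ⟨T₁, hT₁⟩ := S17SP_spec_closure (L := L) hP hdeg
    (fun o : Option σ => o.elim z y)
  obtain ⟨T₂, hT₂⟩ := S17SP_finite_bad_finset (K := K) hP (Finset.univ.image p)
  refine ⟨T₁ ∪ T₂, fun P hPT => ?_⟩
  rw [Finset.mem_union, not_or] at hPT
  obtain ⟨hmem, ρ, hρ, hρc⟩ := hT₁ P hPT.1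
  have hpP : ∀ j, p j ∈ P.toValuationSubring := fun j =>
    hT₂ P hPT.2 (p j) (Finset.mem_image_of_mem p (Finset.mem_univ j))
  refine ⟨hpP, ?_⟩
  -- notation
  set κ : K →+* integralClosure P.toValuationSubring L :=
    (algebraMap P.toValuationSubring (integralClosure P.toValuationSubring L)).comp
    (algebraMap K P.toValuationSubring) with hκ
  set incl : integralClosure P.toValuationSubring L →+* L :=
    ((integralClosure P.toValuationSubring L).val :
      integralClosure P.toValuationSubring L →+* L) with hincl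
  have hincl_inj : Function.Injective incl := Subtype.val_injective
  have hρκ : ρ.comp κ = RingHom.id K := by
    ext c
    exact hρc c
  have hinclκ : incl.comp κ = (algebraMap F L).comp (algebraMap K F) := by
    ext c
    rfl
  -- the point over `CP`
  set yC : σ ⊕ π → integralClosure P.toValuationSubring L :=
    Sum.elim (fun s => ⟨y s, hmem (some s)⟩)
      (fun j => algebraMap P.toValuationSubring (integralClosure P.toValuationSubring L)
        ⟨p j, hpP j⟩) with hyC
  have hinclpt : (fun i => incl (yC i)) = Sum.elim y (fun j => algebraMap F L (p j)) := by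
    funext i
    rcases i with s | j
    · rfl
    · rfl
  have hρpt : (fun i => ρ (yC i))
      = Sum.elim (fun s => ρ ⟨y s, hmem (some s)⟩) (fun j => FD_c0 P (p j)) := by
    funext i
    rcases i with s | j
    · rfl
    · exact (FD_c0_unique P (hρ ⟨p j, hpP j⟩)).symm
  have key1 : ∀ q : MvPolynomial (σ ⊕ π) K,
      incl (eval₂ κ yC q) = eval₂ ((algebraMap F L).comp (algebraMap K F))
        (Sum.elim y (fun j => algebraMap F L (p j))) q := by
    intro q
    rw [eval₂_comp_left incl κ yC q, hinclκ]
    have : (⇑incl ∘ yC) = Sum.elim y (fun j => algebraMap F L (p j)) := hinclpt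
    rw [this]
  have key2 : ∀ q : MvPolynomial (σ ⊕ π) K,
      ρ (eval₂ κ yC q)
        = eval (Sum.elim (fun s => ρ ⟨y s, hmem (some s)⟩) (fun j => FD_c0 P (p j))) q := by
    intro q
    rw [eval₂_comp_left ρ κ yC q, hρκ]
    have : (⇑ρ ∘ yC)
        = Sum.elim (fun s => ρ ⟨y s, hmem (some s)⟩) (fun j => FD_c0 P (p j)) := hρpt
    rw [this]
    rfl
  refine ⟨fun s => ρ ⟨y s, hmem (some s)⟩, fun t => ?_, ?_⟩
  · rw [← key2]
    have h0 : eval₂ κ yC (G t) = 0 := by
      apply hincl_inj
      rw [key1, hy t, map_zero]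
    rw [h0, map_zero]
  · rw [← key2]
    intro h0
    -- `z * N (y) = 1` in `CP`
    have h1 : (⟨z, hmem none⟩ : integralClosure P.toValuationSubring L) * eval₂ κ yC N = 1 := by
      apply hincl_inj
      rw [map_mul, key1, map_one]
      show z * _ = 1
      rw [hz]
      exact inv_mul_cancel₀ hyN
    have := congrArg ρ h1
    rw [map_mul, h0, mul_zero, map_one] at this
    exact zero_ne_one this

omit [DecidableEq σ] in
/-- **TRANSFER** (DIV designer's ruling v3 §3).  `K` algebraically closed, `F / K` with principal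
divisors and all places of degree one, `Q` a place; a polynomial system over `K` with unknowns
`σ`, parameters `p j ∈ O_Q`, equations `G t = 0` and inequation `N ≠ 0`.  If the system
specialised at `Q` has a solution `y₀` with surjective Jacobian (in the unknowns), then the system
specialised at `P` has a solution in `K` for all places `P` outside a finite set. -/
theorem S17TR_main [IsAlgClosed K] [Finite π]
    (hP : HasPrincipalDivisors K F) (hdeg : ∀ v : Place K F, v.deg = 1) (Q : Place K F)
    (G : τ → MvPolynomial (σ ⊕ π) K) (N : MvPolynomial (σ ⊕ π) K)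
    (p : π → F) (hp : ∀ j, p j ∈ Q.toValuationSubring) (y₀ : σ → K)
    (hG : ∀ t, eval (Sum.elim y₀ (fun j => FD_c0 Q (p j))) (G t) = 0)
    (hN : eval (Sum.elim y₀ (fun j => FD_c0 Q (p j))) N ≠ 0)
    (hJ : Function.Surjective (fun (v : σ → K) (t : τ) =>
      ∑ s, eval (Sum.elim y₀ (fun j => FD_c0 Q (p j))) (pderiv (Sum.inl s) (G t)) * v s)) :
    ∃ T : Finset (Place K F), ∀ P : Place K F, P ∉ T →
      (∀ j, p j ∈ P.toValuationSubring) ∧
      ∃ y : σ → K, (∀ t, eval (Sum.elim y (fun j => FD_c0 P (p j))) (G t) = 0) ∧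
        eval (Sum.elim y (fun j => FD_c0 P (p j))) N ≠ 0 := by
  obtain ⟨y, hy, hyN⟩ := S17TR_generic Q (hdeg Q) G N p hp y₀ hG hN hJ
  exact S17TR_specialise (L := AlgebraicClosure F) hP hdeg G N p y hy hyN

end main

end Fermat.Agent.S17
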