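import Mathlib
import Fermat.Agent.S17.DivDefs
import Fermat.Agent.S17.OrdIff
import Fermat.Agent.S17.Jac
import Fermat.Agent.S17.Lin
import Fermat.Agent.S17.Data
import Fermat.Agent.S17.SoundMain
import Fermat.Agent.S17.Transfer
import Fermat.Agent.S17.Move

/-!
# TRACK 8 "MW" (S17), pillar DIV, package ASM (helper15)

`Pic⁰` of a function field over an algebraically closed field of characteristic `0` is divisible,
given a plane model (`S17D_Model`, package PM):

* `S17D_ineq_base` : the inequation holds at the base point;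
* `S17D_main_of`   : `Nonempty (S17D_Model K F) → ∀ n ≠ 0, ∀ x : Pic0 K F, ∃ y, n • y = x`.
-/

set_option autoImplicit false

open AlgebraicCurve MvPolynomial IntermediateField WithZero

namespace Fermat.Agent.S17

open Fermat.Agent.Lib

variable {K F : Type*} [Field K] [Field F] [Algebra K F]

section ineq

variable {g : ℕ} (D : ℕ) (δ : Polynomial K) (Θ : Fin g → Polynomial K) (a0 : Fin g → K) (aQ : K)

/-- evaluation of `p(q)` for a univariate polynomial `p` and a multivariate `q`. -/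
theorem S17D_eval_aeval {σ : Type*} (φ : σ → K) (p : Polynomial K) (q : MvPolynomial σ K) :
    eval φ (Polynomial.aeval q p) = p.eval (eval φ q) := by
  have h := Polynomial.aeval_algHom_apply (MvPolynomial.aeval (R := K) φ) q p
  simp only [MvPolynomial.aeval_eq_eval] at h
  rw [← h]
  simp [Polynomial.aeval_def, Polynomial.eval₂_eq_eval_map]

/-- the value of the inequation at a point. -/
theorem S17D_eval_ineq (c : Fin (D + 1) → K) (a b : Fin g → K) (e : Fin (D + 1) → K) (ξ : K) :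
    eval (Sum.elim (S17D_pnt c a b) (Sum.elim e (fun _ => ξ))) (S17D_ineq D δ Θ a0 aQ) =
      ∏ i, (δ.eval (a i) * (a i - ξ) * (a i - aQ) * (Θ i).eval (b i)
        * ∏ j, if j = i then 1 else (a i - a0 j) * (a i - a j)) := by
  rw [S17D_ineq, map_prod]
  refine Finset.prod_congr rfl fun i _ => ?_
  simp only [map_mul, map_sub, map_prod, S17D_eval_aeval, S17D_a, S17D_b, S17D_xi, eval_X,
    eval_C, S17D_pnt, Sum.elim_inl, Sum.elim_inr]
  congr 1
  refine Finset.prod_congr rfl fun j _ => ?_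
  split_ifs
  · simp
  · simp

/-- the inequation holds at the base point. -/
theorem S17D_ineq_base (b0 : Fin g → K) (e : Fin (D + 1) → K)
    (hδ : ∀ i, δ.eval (a0 i) ≠ 0) (ha : Function.Injective a0) (haQ : ∀ i, a0 i ≠ aQ)
    (hΘ : ∀ i, (Θ i).eval (b0 i) ≠ 0) :
    eval (Sum.elim (S17D_base D a0 b0) (Sum.elim e (fun _ => aQ))) (S17D_ineq D δ Θ a0 aQ) ≠ 0 := by
  rw [S17D_base, S17D_eval_ineq]
  refine Finset.prod_ne_zero_iff.2 fun i _ => ?_
  refine mul_ne_zero (mul_ne_zero (mul_ne_zero (mul_ne_zero (hδ i) (sub_ne_zero.2 (haQ i)))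
    (sub_ne_zero.2 (haQ i))) (hΘ i)) (Finset.prod_ne_zero_iff.2 fun j _ => ?_)
  split_ifs with hji
  · exact one_ne_zero
  · have : a0 i ≠ a0 j := fun h => hji (ha h).symm
    exact mul_ne_zero (sub_ne_zero.2 this) (sub_ne_zero.2 this)

end ineq

/-- the set of zeros and poles of a function is finite. -/
theorem S17D_ord_ne_zero_finite (hP : HasPrincipalDivisors K F) (f : F) :
    {P : Place K F | P.ord f ≠ 0}.Finite := by
  refine (RR_div hP f).support.finite_toSet.subset fun P hPf => ?_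
  rw [Finset.mem_coe, Finsupp.mem_support_iff, RR_div_apply]
  exact hPf

/-- a function is a unit at a place where its order is `0`. -/
theorem S17D_val_eq_one_of_ord (P : Place K F) {f : F} (hf : f ≠ 0) (h0 : P.ord f = 0) :
    P.adicValuation f = 1 := by
  rw [P.adicValuation_eq_exp_neg_ord hf, h0, neg_zero, exp_zero]

/-- **ASM**: divisibility of `Pic⁰` from a plane model. -/
theorem S17D_main_of [IsAlgClosed K] [CharZero K] (h : RR_Hyp K F)
    (hPM : Nonempty (S17D_Model K F)) (n : ℕ) (hn : n ≠ 0) (x : Pic0 K F) :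
    ∃ y : Pic0 K F, n • y = x := by
  classical
  obtain ⟨M⟩ := hPM
  have hn' : 0 < n := Nat.pos_of_ne_zero hn
  obtain ⟨Q, ⟨d⟩⟩ := S17DA_exists h M n hn'
  obtain ⟨hΦ, hF3, hA0, hF2, he0, hξ, hp, hF1⟩ := S17LI_main h M Q n hn' d
  set e0 : Fin (d.D + 1) → K := fun k => S17D_par M.x d.tQ d.ψ Q (Sum.inl k) with he0def
  obtain ⟨hbase, hsurj⟩ :=
    S17JA_main n hn' M.Φ d.A d.a0 d.b0 e0 d.aQ hΦ hF3 hA0 hF2 he0 hF1 d.hcount
  have hpar : (fun j => FD_c0 Q (S17D_parF M.x d.tQ d.ψ j)) = Sum.elim e0 (fun _ => d.aQ) := by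
    funext j
    rcases j with k | u
    · rfl
    · exact hξ
  have hN := S17D_ineq_base d.D M.δ d.Θ d.a0 d.aQ d.b0 e0 d.hδ d.ha_inj d.haQ d.hΘ0
  obtain ⟨T, hT⟩ := S17TR_main h.principal h.deg_one Q (S17D_eq (g := d.g) n M.Φ d.A)
    (S17D_ineq d.D M.δ d.Θ d.a0 d.aQ) (S17D_parF M.x d.tQ d.ψ) hp (S17D_base d.D d.a0 d.b0)
    (by rw [hpar]; exact hbase) (by rw [hpar]; exact hN) (by rw [hpar]; exact hsurj)
  have hx0 : M.x ≠ 0 := fun h0 => M.trans (h0 ▸ isAlgebraic_zero)
  have ht0 : d.tQ ≠ 0 := by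
    intro h0
    have := d.htQ
    rw [h0, Place.ord_zero] at this
    exact zero_ne_one this
  set B : Set (Place K F) :=
    (((↑T ∪ {Q}) ∪ Set.range d.R) ∪ {P | P.ord M.x ≠ 0}) ∪ {P | P.ord d.tQ ≠ 0} with hB
  have hBfin : B.Finite :=
    ((((T.finite_toSet).union (Set.finite_singleton Q)).union (Set.finite_range d.R)).union
      (S17D_ord_ne_zero_finite h.principal M.x)).union
      (S17D_ord_ne_zero_finite h.principal d.tQ)
  refine S17MV_div_of_cofinite' h n hn Q B hBfin (fun P hP => ?_) x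
  simp only [hB, Set.mem_union, Finset.mem_coe, Set.mem_singleton_iff, Set.mem_range,
    Set.mem_ofPred_eq, not_or, not_exists, not_not] at hP
  obtain ⟨⟨⟨⟨hPT, hPQ⟩, hPR⟩, hPx⟩, hPt⟩ := hP
  obtain ⟨-, y, hy, hyN⟩ := hT P hPT
  exact S17SO_main h M Q n hn' d P (S17D_val_eq_one_of_ord P hx0 hPx).le hPQ
    (fun i hi => hPR i hi.symm) (S17D_val_eq_one_of_ord P ht0 hPt) y hy hyN

end Fermat.Agent.S17
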