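import Mathlib

/-!
# TRACK 8 (S17), heights, package DD1: the interpolation property (IP)

Replacement of "all divided differences lie in `𝒪`" (helper22's simplification of lead's
`NOTES/items/16_POS_lead.md`):

  `S17DD_IP τ c z`  :  the values `z i` (`i ∈ c`) are the values at the nodes `τ i` of ONE
  polynomial with coefficients in the commutative ring `R`.

This file: the definition, (a) closure under the ring operations, and (d) the Newton
determinant identity `S17DD_det`.  Everything is over an arbitrary commutative ring.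
-/

namespace Fermat.Agent.S17

open Polynomial

variable {R : Type*} [CommRing R] {ι : Type*}

/-- (IP): the values `z i` (`i ∈ c`) are the values at the nodes `τ i` of one polynomial
over `R`. -/
def S17DD_IP (τ : ι → R) (c : Set ι) (z : ι → R) : Prop :=
  ∃ p : R[X], ∀ i ∈ c, z i = p.eval (τ i)

theorem S17DD_IP_def (τ : ι → R) (c : Set ι) (z : ι → R) :
    S17DD_IP τ c z ↔ ∃ p : R[X], ∀ i ∈ c, z i = p.eval (τ i) := Iff.rfl

/-! ### (a) ring closure -/

theorem S17DD_IP_eval (τ : ι → R) (c : Set ι) (p : R[X]) :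
    S17DD_IP τ c (fun i => p.eval (τ i)) := ⟨p, fun _ _ => rfl⟩

theorem S17DD_IP_const (τ : ι → R) (c : Set ι) (a : R) : S17DD_IP τ c (fun _ => a) :=
  ⟨C a, fun _ _ => by simp⟩

theorem S17DD_IP_zero (τ : ι → R) (c : Set ι) : S17DD_IP τ c 0 :=
  ⟨0, fun _ _ => by simp⟩

theorem S17DD_IP_one (τ : ι → R) (c : Set ι) : S17DD_IP τ c 1 :=
  ⟨1, fun _ _ => by simp⟩

theorem S17DD_IP_node (τ : ι → R) (c : Set ι) : S17DD_IP τ c τ :=
  ⟨X, fun _ _ => by simp⟩

theorem S17DD_IP_congr {τ : ι → R} {c : Set ι} {z z' : ι → R} (h : ∀ i ∈ c, z i = z' i) :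
    S17DD_IP τ c z ↔ S17DD_IP τ c z' := by
  constructor
  · rintro ⟨p, hp⟩; exact ⟨p, fun i hi => by rw [← h i hi, hp i hi]⟩
  · rintro ⟨p, hp⟩; exact ⟨p, fun i hi => by rw [h i hi, hp i hi]⟩

theorem S17DD_IP_congr_nodes {τ τ' : ι → R} {c : Set ι} {z : ι → R}
    (h : ∀ i ∈ c, τ i = τ' i) : S17DD_IP τ c z ↔ S17DD_IP τ' c z := by
  constructor
  · rintro ⟨p, hp⟩; exact ⟨p, fun i hi => by rw [← h i hi, hp i hi]⟩
  · rintro ⟨p, hp⟩; exact ⟨p, fun i hi => by rw [h i hi, hp i hi]⟩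

theorem S17DD_IP_mono {τ : ι → R} {c c' : Set ι} {z : ι → R} (h : c' ⊆ c)
    (hz : S17DD_IP τ c z) : S17DD_IP τ c' z := by
  obtain ⟨p, hp⟩ := hz
  exact ⟨p, fun i hi => hp i (h hi)⟩

theorem S17DD_IP_empty (τ : ι → R) (z : ι → R) : S17DD_IP τ ∅ z :=
  ⟨0, fun _ hi => absurd hi (Set.notMem_empty _)⟩

theorem S17DD_IP_singleton (τ : ι → R) (z : ι → R) (i : ι) : S17DD_IP τ {i} z :=
  ⟨C (z i), fun j hj => by rw [Set.mem_singleton_iff.mp hj]; simp⟩

theorem S17DD_IP_add {τ : ι → R} {c : Set ι} {z w : ι → R} (hz : S17DD_IP τ c z)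
    (hw : S17DD_IP τ c w) : S17DD_IP τ c (z + w) := by
  obtain ⟨p, hp⟩ := hz
  obtain ⟨q, hq⟩ := hw
  exact ⟨p + q, fun i hi => by simp [hp i hi, hq i hi]⟩

theorem S17DD_IP_mul {τ : ι → R} {c : Set ι} {z w : ι → R} (hz : S17DD_IP τ c z)
    (hw : S17DD_IP τ c w) : S17DD_IP τ c (z * w) := by
  obtain ⟨p, hp⟩ := hz
  obtain ⟨q, hq⟩ := hw
  exact ⟨p * q, fun i hi => by simp [hp i hi, hq i hi]⟩

theorem S17DD_IP_neg {τ : ι → R} {c : Set ι} {z : ι → R} (hz : S17DD_IP τ c z) :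
    S17DD_IP τ c (-z) := by
  obtain ⟨p, hp⟩ := hz
  exact ⟨-p, fun i hi => by simp [hp i hi]⟩

theorem S17DD_IP_sub {τ : ι → R} {c : Set ι} {z w : ι → R} (hz : S17DD_IP τ c z)
    (hw : S17DD_IP τ c w) : S17DD_IP τ c (z - w) := by
  obtain ⟨p, hp⟩ := hz
  obtain ⟨q, hq⟩ := hw
  exact ⟨p - q, fun i hi => by simp [hp i hi, hq i hi]⟩

theorem S17DD_IP_smul {τ : ι → R} {c : Set ι} {z : ι → R} (a : R) (hz : S17DD_IP τ c z) :
    S17DD_IP τ c (a • z) := by
  obtain ⟨p, hp⟩ := hz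
  exact ⟨C a * p, fun i hi => by simp [hp i hi]⟩

theorem S17DD_IP_pow {τ : ι → R} {c : Set ι} {z : ι → R} (hz : S17DD_IP τ c z) (k : ℕ) :
    S17DD_IP τ c (z ^ k) := by
  obtain ⟨p, hp⟩ := hz
  exact ⟨p ^ k, fun i hi => by simp [hp i hi]⟩

theorem S17DD_IP_sum {τ : ι → R} {c : Set ι} {α : Type*} (s : Finset α) (z : α → ι → R)
    (hz : ∀ a ∈ s, S17DD_IP τ c (z a)) : S17DD_IP τ c (∑ a ∈ s, z a) := by
  classical
  induction s using Finset.induction_on with
  | empty => simpa using S17DD_IP_zero τ c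
  | insert a s ha ih =>
    rw [Finset.sum_insert ha]
    exact S17DD_IP_add (hz a (Finset.mem_insert_self a s))
      (ih fun b hb => hz b (Finset.mem_insert_of_mem hb))

theorem S17DD_IP_prod {τ : ι → R} {c : Set ι} {α : Type*} (s : Finset α) (z : α → ι → R)
    (hz : ∀ a ∈ s, S17DD_IP τ c (z a)) : S17DD_IP τ c (∏ a ∈ s, z a) := by
  classical
  induction s using Finset.induction_on with
  | empty => simpa using S17DD_IP_one τ c
  | insert a s ha ih =>
    rw [Finset.prod_insert ha]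
    exact S17DD_IP_mul (hz a (Finset.mem_insert_self a s))
      (ih fun b hb => hz b (Finset.mem_insert_of_mem hb))

/-- Composition: a polynomial (over `R`) in an (IP) family is an (IP) family. -/
theorem S17DD_IP_comp {τ : ι → R} {c : Set ι} {z : ι → R} (hz : S17DD_IP τ c z) (q : R[X]) :
    S17DD_IP τ c (fun i => q.eval (z i)) := by
  obtain ⟨p, hp⟩ := hz
  exact ⟨q.comp p, fun i hi => by simp [hp i hi, eval_comp]⟩

/-- A two-variable polynomial evaluated at `(τ, z)` with `z` an (IP) family is an (IP)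
family (`Ψ ∈ R[T][Y]`, `i ↦ Ψ(τ i, z i)`). -/
theorem S17DD_IP_eval₂ {τ : ι → R} {c : Set ι} {z : ι → R} (hz : S17DD_IP τ c z)
    (Ψ : R[X][X]) : S17DD_IP τ c (fun i => (Ψ.eval (C (z i))).eval (τ i)) := by
  obtain ⟨p, hp⟩ := hz
  refine ⟨Ψ.eval p, fun i hi => ?_⟩
  show (Ψ.eval (C (z i))).eval (τ i) = (Ψ.eval p).eval (τ i)
  rw [hp i hi]
  induction Ψ using Polynomial.induction_on' with
  | add f g hf hg => simp only [eval_add, hf, hg]
  | monomial k a =>
    simp only [eval_monomial, eval_mul, eval_pow, eval_C]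

/-- Functoriality along a ring homomorphism. -/
theorem S17DD_IP_map {S : Type*} [CommRing S] (φ : R →+* S) {τ : ι → R} {c : Set ι}
    {z : ι → R} (hz : S17DD_IP τ c z) : S17DD_IP (fun i => φ (τ i)) c (fun i => φ (z i)) := by
  obtain ⟨p, hp⟩ := hz
  refine ⟨p.map φ, fun i hi => ?_⟩
  show φ (z i) = (p.map φ).eval (φ (τ i))
  rw [hp i hi, eval_map, eval₂_at_apply]

/-- Reindexing. -/
theorem S17DD_IP_reindex {ι' : Type*} (e : ι' → ι) {τ : ι → R} {c : Set ι} {z : ι → R}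
    (hz : S17DD_IP τ c z) : S17DD_IP (fun i => τ (e i)) (e ⁻¹' c) (fun i => z (e i)) := by
  obtain ⟨p, hp⟩ := hz
  exact ⟨p, fun i hi => hp (e i) hi⟩

/-- The ring of (IP) families, as a subring of `ι → R`. -/
def S17DD_subring (τ : ι → R) (c : Set ι) : Subring (ι → R) where
  carrier := {z | S17DD_IP τ c z}
  mul_mem' := fun hz hw => S17DD_IP_mul hz hw
  one_mem' := S17DD_IP_one τ c
  add_mem' := fun hz hw => S17DD_IP_add hz hw
  zero_mem' := S17DD_IP_zero τ c
  neg_mem' := fun hz => S17DD_IP_neg hz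

theorem S17DD_mem_subring {τ : ι → R} {c : Set ι} {z : ι → R} :
    z ∈ S17DD_subring τ c ↔ S17DD_IP τ c z := Iff.rfl

end Fermat.Agent.S17
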