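import Mathlib
import Fermat.Agent.S17.Iface
import Fermat.Agent.S17.DivAsm
import Fermat.Agent.S24.EvDeg
import Fermat.Agent.Lib.RiemannCharZero

/-!
# TRACK 8 "MW" (S17), pillar DIV, package INST (helper15)

The abstract divisibility theorem `S17D_main_of` for `F = ℚ̄(X₀(N))`:
`S17DIV_main_of : Nonempty (S17D_Model ℚ̄ F_N) → S17_DIV N`.
-/

set_option autoImplicit false

open AlgebraicCurve ModularCurve

namespace Fermat.Agent.S17

open Fermat.Agent.Lib

variable (N : ℕ) [NeZero N]

/-- Riemann's theorem for `F = ℚ̄(X₀(N))`. -/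
theorem S17DIV_hRR : RR_Hyp (AlgebraicClosure ℚ) ↥(modularFunctionFieldBar N) := by
  have := Fermat.Agent.S24.finiteDimensional_jB N
  exact RR_hyp_of_charZero (Fermat.Agent.S24.transcendental_jB N)

/-- **DIV** for `J₀(N)` from a plane model of `F_N`. -/
theorem S17DIV_main_of
    (hPM : Nonempty (S17D_Model (AlgebraicClosure ℚ) ↥(modularFunctionFieldBar N))) :
    S17_DIV N :=
  fun n hn x => S17D_main_of (S17DIV_hRR N) hPM n hn x

end Fermat.Agent.S17
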