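import Mathlib
import Fermat.Agent.Lib.FFSep
import Fermat.Agent.Lib.FFBranch
import Fermat.Agent.Lib.RiemannBasic
import Fermat.Agent.S17.DivDefs

/-!
# TRACK 8 "MW" (S17), pillar DIV, package PM (plane model), part A (helper21)

`K` algebraically closed, `x : F` transcendental, `F / K(x)` finite separable, `A = K[x]`,
`y : F` integral over `A`, `m = minpoly A y`, `φ_a = S17PM_evA hx a : A → K` (`x ↦ a`).

* `S17PM_lying_over`   : (abstract) lying over for a point of `Spec A[y]`.
* `S17PM_exists_place` : a root `b` of `m^{φ_a}` gives a place over `(a, b)`.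
* `S17PM_value_unique` : the value of a function at a place is unique.
* `S17PM_count`        : if `m^{φ_a}` is separable of degree `[F : K(x)]`, all places over `a` are
                         unramified and determined by the value of `y`.
* `S17PM_exists_y`     : an integral primitive element exists.
* `S17PM_exists_delta` : `δ₁ ≠ 0` with `δ₁(a) ≠ 0 → m^{φ_a}` separable (resultant).
-/

set_option autoImplicit false
set_option linter.unusedSectionVars false

open AlgebraicCurve IntermediateField IsDedekindDomain Polynomial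
open scoped IntermediateField.algebraAdjoinAdjoin

universe u v

namespace Fermat.Agent.S17

open Fermat.Agent.S24 Fermat.Agent.Lib

/-- **lying over a point of the plane model** (abstract): `A` integrally closed, `B ⊇ A` an
integral domain extension, `y ∈ B`, `φ : A → k` a surjection onto a field and `b` a root of the
image of the minimal polynomial of `y`: there is a maximal ideal of `B` containing `ker φ` and
`y - c` for every `c` with `φ c = b`. -/
theorem S17PM_lying_over {A B k : Type*} [CommRing A] [IsDomain A] [IsIntegrallyClosed A]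
    [CommRing B] [IsDomain B] [Algebra A B] [Algebra.IsIntegral A B] [FaithfulSMul A B]
    [Field k] (φ : A →+* k) (hφ : Function.Surjective φ) (y : B) (b : k)
    (hb : Polynomial.eval₂ φ b (minpoly A y) = 0) :
    ∃ Q : Ideal B, Q.IsMaximal ∧ (∀ c : A, φ c = 0 → algebraMap A B c ∈ Q) ∧
      ∀ c : A, φ c = b → y - algebraMap A B c ∈ Q := by
  classical
  have hy : IsIntegral A y := Algebra.IsIntegral.isIntegral y
  set C : Subalgebra A B := Algebra.adjoin A ({y} : Set B) with hC
  let e : AdjoinRoot (minpoly A y) ≃ₐ[A] C := minpoly.equivAdjoin hy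
  let ρ₀ : AdjoinRoot (minpoly A y) →+* k := AdjoinRoot.lift φ b hb
  let ρ : C →+* k := ρ₀.comp (e.symm : C →+* AdjoinRoot (minpoly A y))
  have hρA : ∀ c : A, ρ (algebraMap A C c) = φ c := by
    intro c
    show ρ₀ (e.symm (algebraMap A C c)) = _
    rw [AlgEquiv.commutes]
    exact AdjoinRoot.lift_of hb
  have hρy : ρ ⟨y, Algebra.self_mem_adjoin_singleton A y⟩ = b := by
    show ρ₀ (e.symm _) = _
    have : e (AdjoinRoot.root (minpoly A y)) = ⟨y, Algebra.self_mem_adjoin_singleton A y⟩ := by
      apply Subtype.ext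
      show ((AdjoinRoot.Minpoly.toAdjoin A y) (AdjoinRoot.root (minpoly A y)) : B) = y
      rw [← AdjoinRoot.mk_X]
      exact AdjoinRoot.Minpoly.coe_toAdjoin_mk_X
    rw [← this, AlgEquiv.symm_apply_apply]
    exact AdjoinRoot.lift_root hb
  have hρsurj : Function.Surjective ρ := by
    intro c
    obtain ⟨c', rfl⟩ := hφ c
    exact ⟨algebraMap A C c', hρA c'⟩
  have hmax : (RingHom.ker ρ).IsMaximal := RingHom.ker_isMaximal_of_surjective ρ hρsurj
  have hint : Algebra.IsIntegral C B := Algebra.IsIntegral.tower_top (R := A) (S := C) (T := B)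
  have hker : RingHom.ker (algebraMap C B) ≤ RingHom.ker ρ := by
    intro c hc
    have : c = 0 := Subtype.val_injective (by simpa using hc)
    rw [this]; exact Ideal.zero_mem _
  obtain ⟨Q, hQmax, hQ⟩ :=
    Ideal.exists_ideal_over_maximal_of_isIntegral (S := B) (RingHom.ker ρ) hker
  refine ⟨Q, hQmax, fun c hc => ?_, fun c hc => ?_⟩
  · have h1 : algebraMap A C c ∈ RingHom.ker ρ := by
      rw [RingHom.mem_ker, hρA, hc]
    rw [← hQ, Ideal.mem_comap] at h1
    exact h1
  · have h1 : (⟨y, Algebra.self_mem_adjoin_singleton A y⟩ : C) - algebraMap A C c ∈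
        RingHom.ker ρ := by
      rw [RingHom.mem_ker, map_sub, hρy, hρA, hc, sub_self]
    rw [← hQ, Ideal.mem_comap] at h1
    exact h1

variable {K : Type u} {F : Type v} [Field K] [Field F] [Algebra K F]

/-- positivity of the order in terms of the adic valuation (also for `f = 0`). -/
theorem S17PM_val_lt_one_of_mem_nonunits (P : Place K F) {f : F}
    (hf : f ∈ P.toValuationSubring.nonunits) : P.adicValuation f < 1 := by
  rcases eq_or_ne f 0 with rfl | hf0
  · simp
  · rw [P.adicValuation_eq_exp_neg_ord hf0, ← WithZero.exp_zero, WithZero.exp_lt_exp]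
    have := (BG_mem_nonunits_iff_ord_pos P hf0).1 hf
    omega

section

variable {x : F} (hx : Transcendental K x)

/-- evaluation `K[x] → K`, `x ↦ a`. -/
noncomputable def S17PM_evA (a : K) : Algebra.adjoin K ({x} : Set F) →ₐ[K] K :=
  (Polynomial.aeval a).comp (BL_equiv hx).symm.toAlgHom

theorem S17PM_evA_gen (a : K) : S17PM_evA hx a (BL_gen (K := K) x) = a := by
  have h : BL_gen (K := K) x = BL_equiv hx Polynomial.X := by
    apply Subtype.ext
    rw [BL_equiv_coe]
    simp [BL_gen]
  rw [S17PM_evA, h]
  simp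

end

section

variable {x : F} (hx : Transcendental K x) [FiniteDimensional K⟮x⟯ F]
  [Algebra.IsSeparable K⟮x⟯ F]

include hx in
/-- **existence of a place over a point of the plane model** (lying over). -/
theorem S17PM_exists_place (y : F) (hy : IsIntegral (Algebra.adjoin K ({x} : Set F)) y) (a b : K)
    (hab : Polynomial.eval₂ (S17PM_evA hx a : Algebra.adjoin K ({x} : Set F) →+* K) b
      (minpoly (Algebra.adjoin K ({x} : Set F)) y) = 0) :
    ∃ P : Place K F, P.adicValuation (x - algebraMap K F a) < 1 ∧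
      P.adicValuation (y - algebraMap K F b) < 1 := by
  classical
  have := BG_isPrincipalIdealRing hx
  have := FFS_isDedekindDomain hx
  have := BG_isFractionRing (K := K) (x := x)
  have hmin : minpoly (Algebra.adjoin K ({x} : Set F))
      (⟨y, hy⟩ : integralClosure (Algebra.adjoin K ({x} : Set F)) F) =
      minpoly (Algebra.adjoin K ({x} : Set F)) y :=
    (minpoly.algebraMap_eq (A := Algebra.adjoin K ({x} : Set F))
      (B := integralClosure (Algebra.adjoin K ({x} : Set F)) F) (B' := F)
      (Subtype.val_injective) ⟨y, hy⟩).symm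
  have hφ : Function.Surjective (S17PM_evA hx a : Algebra.adjoin K ({x} : Set F) →+* K) := by
    intro c
    refine ⟨algebraMap K _ c, ?_⟩
    show S17PM_evA hx a (algebraMap K _ c) = c
    rw [AlgHom.commutes]
    rfl
  have hfaith : FaithfulSMul (Algebra.adjoin K ({x} : Set F))
      (integralClosure (Algebra.adjoin K ({x} : Set F)) F) := by
    rw [faithfulSMul_iff_algebraMap_injective]
    intro c c' hcc
    apply Subtype.ext
    have := congrArg (fun z : integralClosure (Algebra.adjoin K ({x} : Set F)) F => (z : F)) hcc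
    exact this
  obtain ⟨Q, hQmax, hQ1, hQ2⟩ := S17PM_lying_over
    (B := integralClosure (Algebra.adjoin K ({x} : Set F)) F)
    (S17PM_evA hx a : Algebra.adjoin K ({x} : Set F) →+* K) hφ ⟨y, hy⟩ b (by rw [hmin]; exact hab)
  have h1 := hQ1 (BL_gen (K := K) x - algebraMap K _ a) (by
    show S17PM_evA hx a (BL_gen (K := K) x - algebraMap K _ a) = 0
    rw [map_sub, S17PM_evA_gen hx a, AlgHom.commutes]
    exact sub_self a)
  have h2 := hQ2 (algebraMap K _ b) (by
    show S17PM_evA hx a (algebraMap K _ b) = b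
    rw [AlgHom.commutes]
    rfl)
  have hQbot : Q ≠ ⊥ := by
    intro hbot
    rw [hbot, Ideal.mem_bot] at h1
    have h3 := congrArg (fun z : integralClosure (Algebra.adjoin K ({x} : Set F)) F => (z : F)) h1
    exact FFS_sub_ne_zero hx a h3
  let w : HeightOneSpectrum (integralClosure (Algebra.adjoin K ({x} : Set F)) F) :=
    ⟨Q, hQmax.isPrime, hQbot⟩
  refine ⟨Place.ofHeightOneSpectrum (K := K) (F := F) w, ?_, ?_⟩
  · have := (BG_mem_asIdeal_iff (K := K) (F := F) w _).1 h1
    exact S17PM_val_lt_one_of_mem_nonunits _ this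
  · have := (BG_mem_asIdeal_iff (K := K) (F := F) w _).1 h2
    exact S17PM_val_lt_one_of_mem_nonunits _ this

end

section

variable {x : F}

theorem S17PM_evA_equiv {x : F} (hx : Transcendental K x) (a : K) (p : K[X]) : S17PM_evA hx a (BL_equiv hx p) = p.eval a := by
  rw [S17PM_evA]
  simp [Polynomial.coe_aeval_eq_eval]

end

/-- `K(x - a) = K(x)`. -/
theorem S17PM_adjoin_sub (x : F) (a : K) : K⟮x - algebraMap K F a⟯ = K⟮x⟯ := by
  apply le_antisymm
  · rw [IntermediateField.adjoin_simple_le_iff]
    exact sub_mem (IntermediateField.mem_adjoin_simple_self K x)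
      (IntermediateField.algebraMap_mem _ a)
  · rw [IntermediateField.adjoin_simple_le_iff]
    have h1 : (x - algebraMap K F a) + algebraMap K F a ∈ K⟮x - algebraMap K F a⟯ :=
      add_mem (IntermediateField.mem_adjoin_simple_self K _)
        (IntermediateField.algebraMap_mem _ a)
    rwa [sub_add_cancel] at h1

theorem S17PM_val_const (P : Place K F) {c : K} (hc : c ≠ 0) :
    P.adicValuation (algebraMap K F c) = 1 := by
  rw [P.adicValuation_eq_exp_neg_ord ((_root_.map_ne_zero _).mpr hc), (S24_isVal_ord P).const c hc]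
  simp

/-- the value of `y` at a place is unique. -/
theorem S17PM_value_unique (P : Place K F) {y : F} {b b' : K}
    (h : P.adicValuation (y - algebraMap K F b) < 1)
    (h' : P.adicValuation (y - algebraMap K F b') < 1) : b = b' := by
  by_contra hne
  have h1 : P.adicValuation (algebraMap K F (b' - b)) < 1 := by
    have : algebraMap K F (b' - b) = (y - algebraMap K F b) - (y - algebraMap K F b') := by
      rw [map_sub]; ring
    rw [this]
    exact lt_of_le_of_lt (Valuation.map_sub _ _ _) (max_lt h h')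
  rw [S17PM_val_const P (sub_ne_zero.2 (Ne.symm hne))] at h1
  exact lt_irrefl _ h1

theorem S17PM_val_lt_one_iff_ord_pos (P : Place K F) {f : F} (hf : f ≠ 0) :
    P.adicValuation f < 1 ↔ 0 < P.ord f := by
  rw [P.adicValuation_eq_exp_neg_ord hf, ← WithZero.exp_zero, WithZero.exp_lt_exp]
  omega

section

variable {x : F} (hx : Transcendental K x) [FiniteDimensional K⟮x⟯ F]
  [Algebra.IsSeparable K⟮x⟯ F]

include hx in
/-- **counting**: over a value `a` at which `Φ(a, Y)` is separable of degree `[F : K(x)]`, all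
places are unramified and determined by the value of `y`. -/
theorem S17PM_count [IsAlgClosed K] (y : F)
    (hy : IsIntegral (Algebra.adjoin K ({x} : Set F)) y)
    (hdeg : (minpoly (Algebra.adjoin K ({x} : Set F)) y).natDegree = Module.finrank K⟮x⟯ F)
    (a : K)
    (hsep : ((minpoly (Algebra.adjoin K ({x} : Set F)) y).map
      (S17PM_evA hx a : Algebra.adjoin K ({x} : Set F) →+* K)).Separable) :
    (∀ P : Place K F, P.adicValuation (x - algebraMap K F a) < 1 →
      P.ord (x - algebraMap K F a) = 1) ∧
    (∀ (b : K) (P P' : Place K F), S17D_At x y P a b → S17D_At x y P' a b → P = P') := by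
  classical
  set x₁ : F := x - algebraMap K F a with hx₁
  have hx₁0 : x₁ ≠ 0 := FFS_sub_ne_zero hx a
  have hx₁t : Transcendental K x₁ := by
    intro halg
    apply hx
    have : x = x₁ + algebraMap K F a := by rw [hx₁]; ring
    rw [this]
    exact halg.add (isAlgebraic_algebraMap a)
  have e : K⟮x₁⟯ = K⟮x⟯ := S17PM_adjoin_sub x a
  have : FiniteDimensional K⟮x₁⟯ F := e ▸ (inferInstance : FiniteDimensional K⟮x⟯ F)
  have : Algebra.IsSeparable K⟮x₁⟯ F := e ▸ (inferInstance : Algebra.IsSeparable K⟮x⟯ F)
  have hfr : Module.finrank K⟮x₁⟯ F = Module.finrank K⟮x⟯ F :=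
    congrArg (fun E : IntermediateField K F => Module.finrank E F) e
  set Z := FFS_zeros hx₁t with hZ
  have hZmem : ∀ v, v ∈ Z ↔ 0 < v.ord x₁ := FFS_mem_zeros hx₁t
  have hZsum : ∑ v ∈ Z, v.ord x₁ = (Module.finrank K⟮x⟯ F : ℤ) := by
    rw [← hfr]; exact FFS_sum_zeros hx₁t
  set m := minpoly (Algebra.adjoin K ({x} : Set F)) y with hm
  set ma : K[X] := m.map (S17PM_evA hx a : Algebra.adjoin K ({x} : Set F) →+* K) with hma
  have hmonic : ma.Monic := (minpoly.monic hy).map _
  have hma_deg : ma.natDegree = Module.finrank K⟮x⟯ F := by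
    rw [hma, (minpoly.monic hy).natDegree_map, hdeg]
  set R : Finset K := ma.roots.toFinset with hR
  have hRcard : R.card = Module.finrank K⟮x⟯ F := by
    rw [hR, Multiset.toFinset_card_of_nodup (Polynomial.nodup_roots hsep),
      IsAlgClosed.card_roots_eq_natDegree, hma_deg]
  have hex : ∀ b : K, ∃ P : Place K F, b ∈ R → S17D_At x y P a b := by
    intro b
    by_cases hb : b ∈ R
    · have hroot : ma.IsRoot b := by
        rw [hR, Multiset.mem_toFinset] at hb
        exact (Polynomial.mem_roots hmonic.ne_zero).1 hb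
      have hab : Polynomial.eval₂ (S17PM_evA hx a : Algebra.adjoin K ({x} : Set F) →+* K) b m
          = 0 := by
        rw [← Polynomial.eval_map]
        exact hroot
      obtain ⟨P, hP⟩ := S17PM_exists_place hx y hy a b hab
      exact ⟨P, fun _ => hP⟩
    · obtain ⟨P⟩ : Nonempty (Place K F) := by
        by_contra hne
        rw [not_nonempty_iff] at hne
        have : (∑ v ∈ Z, v.ord x₁) = 0 := Finset.sum_eq_zero (fun v _ => (hne.false v).elim)
        rw [hZsum] at this
        have hpos : 0 < Module.finrank K⟮x⟯ F := Module.finrank_pos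
        omega
      exact ⟨P, fun h => absurd h hb⟩
  choose f hf using hex
  have hinj : Set.InjOn f R := by
    intro b hb b' hb' hbb
    have h1 := (hf b hb).2
    have h2 := (hf b' hb').2
    rw [← hbb] at h2
    exact S17PM_value_unique (f b) h1 h2
  have himg : R.image f ⊆ Z := by
    intro P hP
    obtain ⟨b, hb, rfl⟩ := Finset.mem_image.1 hP
    rw [hZmem]
    exact (S17PM_val_lt_one_iff_ord_pos _ hx₁0).1 (hf b hb).1
  have hcard_img : (R.image f).card = Module.finrank K⟮x⟯ F := by
    rw [Finset.card_image_of_injOn hinj, hRcard]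
  have hge : ∀ v ∈ Z, (1 : ℤ) ≤ v.ord x₁ := fun v hv => (hZmem v).1 hv
  have hZle : (Z.card : ℤ) ≤ Module.finrank K⟮x⟯ F := by
    rw [← hZsum]
    have := Finset.sum_le_sum hge
    simpa using this
  have hZcard : Z.card = Module.finrank K⟮x⟯ F := by
    have h1 := Finset.card_le_card himg
    rw [hcard_img] at h1
    have h2 : Z.card ≤ Module.finrank K⟮x⟯ F := by exact_mod_cast hZle
    omega
  have hZeq : R.image f = Z :=
    Finset.eq_of_subset_of_card_le himg (by rw [hcard_img, hZcard])
  have hone : ∀ v ∈ Z, v.ord x₁ = 1 := by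
    have hsum0 : ∑ v ∈ Z, (v.ord x₁ - 1) = 0 := by
      rw [Finset.sum_sub_distrib, hZsum]
      simp [hZcard]
    have := (Finset.sum_eq_zero_iff_of_nonneg (fun v hv => by have := hge v hv; omega)).1 hsum0
    intro v hv
    have := this v hv
    omega
  refine ⟨fun P hP => ?_, fun b P P' hP hP' => ?_⟩
  · exact hone P ((hZmem P).2 ((S17PM_val_lt_one_iff_ord_pos _ hx₁0).1 hP))
  · have hPZ : P ∈ Z := (hZmem P).2 ((S17PM_val_lt_one_iff_ord_pos _ hx₁0).1 hP.1)
    have hPZ' : P' ∈ Z := (hZmem P').2 ((S17PM_val_lt_one_iff_ord_pos _ hx₁0).1 hP'.1)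
    rw [← hZeq] at hPZ hPZ'
    obtain ⟨b₁, hb₁, rfl⟩ := Finset.mem_image.1 hPZ
    obtain ⟨b₂, hb₂, rfl⟩ := Finset.mem_image.1 hPZ'
    have e1 : b₁ = b := S17PM_value_unique _ (hf b₁ hb₁).2 hP.2
    have e2 : b₂ = b := S17PM_value_unique _ (hf b₂ hb₂).2 hP'.2
    rw [e1, e2]

end

section

variable [CharZero K] {x : F} (hx : Transcendental K x) [FiniteDimensional K⟮x⟯ F]

omit [FiniteDimensional K⟮x⟯ F] [CharZero K] in
include hx in
/-- the minimal polynomial over `K[x]` and over `K(x)`. -/
theorem S17PM_minpoly_map {y : F} (hy : IsIntegral (Algebra.adjoin K ({x} : Set F)) y) :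
    minpoly K⟮x⟯ y = (minpoly (Algebra.adjoin K ({x} : Set F)) y).map
      (algebraMap (Algebra.adjoin K ({x} : Set F)) K⟮x⟯) := by
  have := BG_isPrincipalIdealRing hx
  exact minpoly.isIntegrallyClosed_eq_field_fractions' K⟮x⟯ hy

include hx in
/-- **existence of `y`**: an integral primitive element of `F / K(x)`. -/
theorem S17PM_exists_y :
    ∃ y : F, IsIntegral (Algebra.adjoin K ({x} : Set F)) y ∧
      (minpoly (Algebra.adjoin K ({x} : Set F)) y).natDegree = Module.finrank K⟮x⟯ F := by
  have := BG_isPrincipalIdealRing hx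
  have : CharZero K⟮x⟯ := charZero_of_injective_algebraMap (algebraMap K K⟮x⟯).injective
  obtain ⟨α, hα⟩ := Field.exists_primitive_element K⟮x⟯ F
  have halg : IsAlgebraic (Algebra.adjoin K ({x} : Set F)) α := by
    have h1 : IsAlgebraic K⟮x⟯ α := Algebra.IsAlgebraic.isAlgebraic α
    exact (IsFractionRing.isAlgebraic_iff (Algebra.adjoin K ({x} : Set F)) K⟮x⟯ F).2 h1
  obtain ⟨c, hc0, hc⟩ := halg.exists_integral_multiple
  refine ⟨c • α, hc, ?_⟩
  have hcF : algebraMap (Algebra.adjoin K ({x} : Set F)) K⟮x⟯ c ≠ 0 := by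
    intro h0
    apply hc0
    exact (IsFractionRing.injective (Algebra.adjoin K ({x} : Set F)) K⟮x⟯)
      (by rw [h0, map_zero])
  have hcα : c • α = (algebraMap (Algebra.adjoin K ({x} : Set F)) K⟮x⟯ c) • α := by
    rw [algebraMap_smul]
  have htop : K⟮x⟯⟮c • α⟯ = ⊤ := by
    rw [eq_top_iff, ← hα, IntermediateField.adjoin_simple_le_iff]
    have h1 : (algebraMap (Algebra.adjoin K ({x} : Set F)) K⟮x⟯ c)⁻¹ • (c • α) ∈ K⟮x⟯⟮c • α⟯ :=
      IntermediateField.smul_mem _ (IntermediateField.mem_adjoin_simple_self _ _)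
    rwa [hcα, smul_smul, inv_mul_cancel₀ hcF, one_smul] at h1
  have hint : IsIntegral K⟮x⟯ (c • α) := Algebra.IsIntegral.isIntegral _
  have h2 := IntermediateField.adjoin.finrank hint
  rw [htop, IntermediateField.finrank_top', S17PM_minpoly_map hx hc,
    (minpoly.monic hc).natDegree_map] at h2
  exact h2.symm

include hx in
/-- **the polynomial `δ₁`**: outside its zeros, `Φ(a, Y)` is separable. -/
theorem S17PM_exists_delta {y : F} (hy : IsIntegral (Algebra.adjoin K ({x} : Set F)) y) :
    ∃ δ₁ : Polynomial K, δ₁ ≠ 0 ∧ ∀ a : K, δ₁.eval a ≠ 0 →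
      ((minpoly (Algebra.adjoin K ({x} : Set F)) y).map
        (S17PM_evA hx a : Algebra.adjoin K ({x} : Set F) →+* K)).Separable := by
  have := BG_isPrincipalIdealRing hx
  have : CharZero K⟮x⟯ := charZero_of_injective_algebraMap (algebraMap K K⟮x⟯).injective
  set m := minpoly (Algebra.adjoin K ({x} : Set F)) y with hm
  have hmonic : m.Monic := minpoly.monic hy
  have hpos : m.natDegree ≠ 0 := (minpoly.natDegree_pos hy).ne'
  obtain ⟨p, q, -, -, hpq⟩ := Polynomial.exists_mul_add_mul_eq_C_resultant m (derivative m)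
    le_rfl le_rfl (Or.inl hpos)
  set r := m.resultant (derivative m) with hr
  have hinj : Function.Injective (algebraMap (Algebra.adjoin K ({x} : Set F)) K⟮x⟯) :=
    IsFractionRing.injective _ _
  have hr0 : r ≠ 0 := by
    intro h0
    have hsep : (minpoly K⟮x⟯ y).Separable := Algebra.IsSeparable.isSeparable K⟮x⟯ y
    rw [S17PM_minpoly_map hx hy] at hsep
    have hcop : IsCoprime (m.map (algebraMap (Algebra.adjoin K ({x} : Set F)) K⟮x⟯))
        ((derivative m).map (algebraMap (Algebra.adjoin K ({x} : Set F)) K⟮x⟯)) := by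
      rw [← Polynomial.derivative_map]
      exact hsep
    have hunit := (Polynomial.isUnit_resultant_iff_isCoprime (hmonic.map _)).2 hcop
    rw [Polynomial.natDegree_map_eq_of_injective hinj,
      Polynomial.natDegree_map_eq_of_injective hinj, Polynomial.resultant_map_map, ← hr, h0,
      map_zero] at hunit
    exact not_isUnit_zero hunit
  refine ⟨(BL_equiv hx).symm r, ?_, fun a ha => ?_⟩
  · intro h0
    apply hr0
    have := congrArg (BL_equiv hx) h0
    rwa [AlgEquiv.apply_symm_apply, map_zero] at this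
  · have hφr : (S17PM_evA hx a) r = ((BL_equiv hx).symm r).eval a := by
      conv_lhs => rw [← (BL_equiv hx).apply_symm_apply r]
      exact S17PM_evA_equiv hx a _
    rw [← hφr] at ha
    set φ : Algebra.adjoin K ({x} : Set F) →+* K :=
      (S17PM_evA hx a : Algebra.adjoin K ({x} : Set F) →+* K) with hφ
    have ha' : φ r ≠ 0 := ha
    have h1 := congrArg (Polynomial.map φ) hpq
    rw [Polynomial.map_add, Polynomial.map_mul, Polynomial.map_mul, Polynomial.map_C,
      ← Polynomial.derivative_map] at h1
    rw [Polynomial.separable_def]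
    refine ⟨C (φ r)⁻¹ * p.map φ, C (φ r)⁻¹ * q.map φ, ?_⟩
    have h2 : (C (φ r)⁻¹ : K[X]) * C (φ r) = 1 := by
      rw [← C_mul, inv_mul_cancel₀ ha', C_1]
    linear_combination (C (φ r)⁻¹ : K[X]) * h1 + h2

end

end Fermat.Agent.S17
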