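import Mathlib
import Fermat.Agent.Lib.FFSep

/-!
# TRACK 8 (S17), pillar DIV, package PM (plane model), part REPR (helper23)

`S17PR_repr`: `x` transcendental, `y` integral over `K[x]` and primitive for `F / K(x)`.  Then
there is `δ₂ ∈ K[X]`, `δ₂ ≠ 0`, such that `δ₂(x) · f ∈ K[x, y]` for every `f ∈ F` which is
integral over `K[x]` (Mathlib's `Algebra.discr_mul_isIntegral_mem_adjoin`; `δ₂(x)` is the
discriminant of the power basis `1, y, …, y^{d-1}`).
-/

set_option autoImplicit false

open IntermediateField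
open scoped IntermediateField.algebraAdjoinAdjoin

namespace Fermat.Agent.S17

open Fermat.Agent.S24 Fermat.Agent.Lib

variable {K F : Type*} [Field K] [Field F] [Algebra K F]

/-- `K[x][y] ⊆ K[x, y]`: an element of `Algebra.adjoin K[x] {y}` is a polynomial in `x, y`. -/
theorem S17PR_mem_range (x y : F) {z : F}
    (hz : z ∈ Algebra.adjoin (Algebra.adjoin K ({x} : Set F)) ({y} : Set F)) :
    ∃ p : MvPolynomial (Fin 2) K, MvPolynomial.aeval ![x, y] p = z := by
  have h1 : z ∈ (Algebra.adjoin (Algebra.adjoin K ({x} : Set F))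
      ({y} : Set F)).restrictScalars K := hz
  rw [← Algebra.adjoin_union_eq_adjoin_adjoin] at h1
  have h2 : ({x} ∪ {y} : Set F) = Set.range ![x, y] := by
    ext w
    simp only [Set.union_singleton, Set.mem_insert_iff, Set.mem_singleton_iff, Set.mem_range]
    constructor
    · rintro (rfl | rfl)
      · exact ⟨1, rfl⟩
      · exact ⟨0, rfl⟩
    · rintro ⟨i, rfl⟩
      fin_cases i
      · exact Or.inr rfl
      · exact Or.inl rfl
  rw [h2, Algebra.adjoin_range_eq_range_aeval] at h1
  exact h1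

/-- **REPR**. -/
theorem S17PR_repr [CharZero K] {x : F} (hx : Transcendental K x) [FiniteDimensional K⟮x⟯ F]
    (y : F) (hy : IsIntegral (Algebra.adjoin K ({x} : Set F)) y)
    (hgen : (minpoly (Algebra.adjoin K ({x} : Set F)) y).natDegree = Module.finrank K⟮x⟯ F) :
    ∃ δ₂ : Polynomial K, δ₂ ≠ 0 ∧ ∀ f : F, IsIntegral (Algebra.adjoin K ({x} : Set F)) f →
      ∃ p : MvPolynomial (Fin 2) K,
        MvPolynomial.aeval ![x, y] p = Polynomial.aeval x δ₂ * f := by
  classical
  have hPID := BG_isPrincipalIdealRing hx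
  have hchar : CharZero K⟮x⟯ := charZero_of_injective_algebraMap (algebraMap K K⟮x⟯).injective
  have hyL : IsIntegral K⟮x⟯ y := hy.tower_top
  have hmin : minpoly K⟮x⟯ y
      = (minpoly (Algebra.adjoin K ({x} : Set F)) y).map
        (algebraMap (Algebra.adjoin K ({x} : Set F)) K⟮x⟯) :=
    minpoly.isIntegrallyClosed_eq_field_fractions' K⟮x⟯ hy
  have hdeg : (minpoly K⟮x⟯ y).natDegree = Module.finrank K⟮x⟯ F := by
    rw [hmin, (minpoly.monic hy).natDegree_map, hgen]
  have htop : K⟮x⟯⟮y⟯ = ⊤ := (Field.primitive_element_iff_minpoly_natDegree_eq K⟮x⟯ y).2 hdeg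
  -- the power basis
  let pb : PowerBasis K⟮x⟯ F := (IntermediateField.adjoin.powerBasis hyL).map
    ((IntermediateField.equivOfEq htop).trans IntermediateField.topEquiv)
  have hpbgen : pb.gen = y := by
    simp [pb, IntermediateField.adjoin.powerBasis_gen]
  have hint : IsIntegral (Algebra.adjoin K ({x} : Set F)) pb.gen := by
    rw [hpbgen]
    exact hy
  -- the discriminant
  have hdint : IsIntegral (Algebra.adjoin K ({x} : Set F)) (Algebra.discr K⟮x⟯ pb.basis) := by
    refine Algebra.discr_isIntegral K⟮x⟯ fun i => ?_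
    rw [pb.basis_eq_pow]
    exact hint.pow _
  obtain ⟨d, hd⟩ := IsIntegrallyClosed.isIntegral_iff.1 hdint
  have hd0 : d ≠ 0 := by
    rintro rfl
    rw [map_zero] at hd
    exact Algebra.discr_not_zero_of_basis K⟮x⟯ pb.basis hd.symm
  obtain ⟨δ₂, hδ₂⟩ := BL_exists_aeval x d
  have hdF : algebraMap K⟮x⟯ F (Algebra.discr K⟮x⟯ pb.basis) = Polynomial.aeval x δ₂ := by
    rw [← hd, ← IsScalarTower.algebraMap_apply (Algebra.adjoin K ({x} : Set F)) K⟮x⟯ F, hδ₂]
    exact BL_aeval_gen_coe x δ₂
  refine ⟨δ₂, ?_, fun f hf => ?_⟩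
  · rintro rfl
    apply hd0
    rw [hδ₂, map_zero]
  · have h1 := Algebra.discr_mul_isIntegral_mem_adjoin (K := K⟮x⟯) (B := pb) hint hf
    rw [hpbgen, Algebra.smul_def, hdF] at h1
    exact S17PR_mem_range x y h1

end Fermat.Agent.S17
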