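import Mathlib
import Fermat.Agent.S17.PlaneA
import Fermat.Agent.S17.PlaneRepr
import Fermat.Agent.S18.SemiReg

/-!
# TRACK 8 "MW" (S17), pillar DIV, package PM (plane model), assembly (helper21)

* `S17PM_mv hx p`  : the polynomial of `K[X₀, X₁]` attached to `p ∈ K[x][Y]`.
* `S17PM_ReprStmt` : the statement of the sub-package REPR (helper23, `S17PR_repr`).
* `S17PM_exists_of_repr` : `Nonempty (S17D_Model K F)` from REPR.
-/

set_option autoImplicit false
set_option linter.unusedSectionVars false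

open AlgebraicCurve IntermediateField IsDedekindDomain Polynomial
open scoped IntermediateField.algebraAdjoinAdjoin

universe u v

namespace Fermat.Agent.S17

open Fermat.Agent.S24 Fermat.Agent.Lib Fermat.Agent.S18

variable {K : Type u} {F : Type v} [Field K] [Field F] [Algebra K F]

section

variable {x : F} (hx : Transcendental K x)

/-- `K[x] → K[X₀, X₁]`, `x ↦ X₀`. -/
noncomputable def S17PM_iota : Algebra.adjoin K ({x} : Set F) →+* MvPolynomial (Fin 2) K :=
  ((Polynomial.aeval (MvPolynomial.X 0 : MvPolynomial (Fin 2) K) :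
      K[X] →ₐ[K] MvPolynomial (Fin 2) K) : K[X] →+* MvPolynomial (Fin 2) K).comp
    ((BL_equiv hx).symm : Algebra.adjoin K ({x} : Set F) →+* K[X])

theorem S17PM_iota_equiv (q : K[X]) :
    S17PM_iota hx (BL_equiv hx q) =
      Polynomial.aeval (MvPolynomial.X 0 : MvPolynomial (Fin 2) K) q := by
  simp [S17PM_iota]

/-- the polynomial of `K[X₀, X₁]` attached to `p ∈ K[x][Y]`. -/
noncomputable def S17PM_mv (p : Polynomial (Algebra.adjoin K ({x} : Set F))) :
    MvPolynomial (Fin 2) K :=
  Polynomial.eval₂ (S17PM_iota hx) (MvPolynomial.X 1) p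

theorem S17PM_aeval_mv (y : F) (p : Polynomial (Algebra.adjoin K ({x} : Set F))) :
    MvPolynomial.aeval ![x, y] (S17PM_mv hx p) = Polynomial.aeval y p := by
  rw [S17PM_mv, Polynomial.aeval_def]
  have h := Polynomial.hom_eval₂ p (S17PM_iota hx)
    ((MvPolynomial.aeval ![x, y] : MvPolynomial (Fin 2) K →ₐ[K] F) :
      MvPolynomial (Fin 2) K →+* F) (MvPolynomial.X 1)
  have h1 : ((MvPolynomial.aeval ![x, y] : MvPolynomial (Fin 2) K →ₐ[K] F) :
      MvPolynomial (Fin 2) K →+* F) (MvPolynomial.X 1) = y := by simp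
  have h2 : (((MvPolynomial.aeval ![x, y] : MvPolynomial (Fin 2) K →ₐ[K] F) :
      MvPolynomial (Fin 2) K →+* F).comp (S17PM_iota hx)) =
      algebraMap (Algebra.adjoin K ({x} : Set F)) F := by
    ext c
    obtain ⟨q, rfl⟩ := (BL_equiv hx).surjective c
    rw [RingHom.comp_apply, S17PM_iota_equiv]
    have : (algebraMap (Algebra.adjoin K ({x} : Set F)) F) (BL_equiv hx q) =
        ((BL_equiv hx q : Algebra.adjoin K ({x} : Set F)) : F) := rfl
    rw [this, BL_equiv_coe]
    show (MvPolynomial.aeval ![x, y]) (Polynomial.aeval (MvPolynomial.X 0) q) = _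
    rw [← Polynomial.aeval_algHom_apply]
    simp
  rw [h1, h2] at h
  exact h

theorem S17PM_eval_mv (a b : K) (p : Polynomial (Algebra.adjoin K ({x} : Set F))) :
    MvPolynomial.eval ![a, b] (S17PM_mv hx p) =
      Polynomial.eval₂ (S17PM_evA hx a : Algebra.adjoin K ({x} : Set F) →+* K) b p := by
  rw [S17PM_mv]
  have h := Polynomial.hom_eval₂ p (S17PM_iota hx)
    (MvPolynomial.eval ![a, b] : MvPolynomial (Fin 2) K →+* K) (MvPolynomial.X 1)
  have h1 : (MvPolynomial.eval ![a, b] : MvPolynomial (Fin 2) K →+* K) (MvPolynomial.X 1) = b := by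
    simp
  have h2 : ((MvPolynomial.eval ![a, b] : MvPolynomial (Fin 2) K →+* K).comp (S17PM_iota hx)) =
      (S17PM_evA hx a : Algebra.adjoin K ({x} : Set F) →+* K) := by
    ext c
    obtain ⟨q, rfl⟩ := (BL_equiv hx).surjective c
    rw [RingHom.comp_apply, S17PM_iota_equiv]
    have : (S17PM_evA hx a : Algebra.adjoin K ({x} : Set F) →+* K) (BL_equiv hx q) =
        q.eval a := S17PM_evA_equiv hx a q
    rw [this]
    rw [Polynomial.aeval_def, Polynomial.hom_eval₂]
    have h4 : ((MvPolynomial.eval ![a, b] : MvPolynomial (Fin 2) K →+* K).comp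
        (algebraMap K (MvPolynomial (Fin 2) K))) = RingHom.id K := by
      ext c
      simp
    rw [h4, Polynomial.eval₂_id]
    simp
  rw [h1, h2] at h
  exact h

theorem S17PM_pderiv_iota (c : Algebra.adjoin K ({x} : Set F)) :
    MvPolynomial.pderiv (1 : Fin 2) (S17PM_iota hx c) = 0 := by
  obtain ⟨q, rfl⟩ := (BL_equiv hx).surjective c
  rw [S17PM_iota_equiv, Derivation.map_aeval]
  simp

theorem S17PM_pderiv_mv (p : Polynomial (Algebra.adjoin K ({x} : Set F))) :
    MvPolynomial.pderiv (1 : Fin 2) (S17PM_mv hx p) = S17PM_mv hx (derivative p) := by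
  induction p using Polynomial.induction_on' with
  | add p q hp hq =>
    simp only [S17PM_mv] at hp hq ⊢
    rw [Polynomial.eval₂_add, map_add, hp, hq, Polynomial.derivative_add, Polynomial.eval₂_add]
  | monomial n c =>
    simp only [S17PM_mv]
    rw [Polynomial.eval₂_monomial, Polynomial.derivative_monomial, Polynomial.eval₂_monomial,
      Derivation.leibniz, S17PM_pderiv_iota, smul_zero, add_zero, Derivation.leibniz_pow,
      MvPolynomial.pderiv_X_self]
    simp only [smul_eq_mul, nsmul_eq_mul, map_mul, map_natCast, mul_one]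
    ring

end

/-- the statement of the sub-package REPR (`S17PR_repr`, helper23). -/
def S17PM_ReprStmt (K : Type u) (F : Type v) [Field K] [Field F] [Algebra K F] : Prop :=
  ∀ {x : F} (_ : Transcendental K x) [FiniteDimensional K⟮x⟯ F] (y : F)
    (_ : IsIntegral (Algebra.adjoin K ({x} : Set F)) y)
    (_ : (minpoly (Algebra.adjoin K ({x} : Set F)) y).natDegree = Module.finrank K⟮x⟯ F),
    ∃ δ₂ : Polynomial K, δ₂ ≠ 0 ∧ ∀ f : F, IsIntegral (Algebra.adjoin K ({x} : Set F)) f →
      ∃ p : MvPolynomial (Fin 2) K,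
        MvPolynomial.aeval ![x, y] p = Polynomial.aeval x δ₂ * f

/-- **PM** from REPR. -/
theorem S17PM_exists_of_repr [IsAlgClosed K] [CharZero K] (h : RR_Hyp K F)
    (hrepr : S17PM_ReprStmt K F) : Nonempty (S17D_Model K F) := by
  classical
  obtain ⟨x, ⟨v₀, hv₀⟩, hfin, -⟩ := h.exists_x
  have hx : Transcendental K x := RR_transcendental_of_pole v₀ hv₀
  have hx0 : x ≠ 0 := fun h0 => hx (h0 ▸ isAlgebraic_zero)
  have : CharZero K⟮x⟯ := charZero_of_injective_algebraMap (algebraMap K K⟮x⟯).injective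
  obtain ⟨y, hy, hdeg⟩ := S17PM_exists_y hx
  obtain ⟨δ₁, hδ₁, hsep⟩ := S17PM_exists_delta hx hy
  obtain ⟨δ₂, hδ₂, hδ₂repr⟩ := hrepr hx y hy hdeg
  set m := minpoly (Algebra.adjoin K ({x} : Set F)) y with hm
  have hδa : ∀ a : K, (δ₁ * δ₂).eval a ≠ 0 → δ₁.eval a ≠ 0 := by
    intro a ha h0
    apply ha
    rw [Polynomial.eval_mul, h0, zero_mul]
  refine ⟨{
    x := x
    y := y
    Φ := S17PM_mv hx m
    δ := δ₁ * δ₂
    trans := hx
    fin := hfin
    hΦ := ?_
    hδ := mul_ne_zero hδ₁ hδ₂
    y_int := ?_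
    smooth := ?_
    exists_place := ?_
    unique_place := ?_
    unram := ?_
    repr := ?_ }⟩
  · rw [S17PM_aeval_mv]
    exact minpoly.aeval _ y
  · intro P hP
    rw [BL_adicValuation_le_one_iff] at hP ⊢
    exact BL_mem_of_isIntegral P hP hy
  · intro a b ha hab
    rw [S17PM_pderiv_mv, S17PM_eval_mv]
    rw [S17PM_eval_mv] at hab
    have h1 : (m.map (S17PM_evA hx a : Algebra.adjoin K ({x} : Set F) →+* K)).eval₂
        (RingHom.id K) b = 0 := by
      rw [Polynomial.eval₂_map, RingHom.id_comp]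
      exact hab
    have h2 := (hsep a (hδa a ha)).eval₂_derivative_ne_zero (RingHom.id K) h1
    rw [Polynomial.derivative_map, Polynomial.eval₂_map, RingHom.id_comp] at h2
    exact h2
  · intro a b _ hab
    rw [S17PM_eval_mv] at hab
    exact S17PM_exists_place hx y hy a b hab
  · intro a b P P' ha hP hP'
    exact (S17PM_count hx y hy hdeg a (hsep a (hδa a ha))).2 b P P' hP hP'
  · intro a P ha hP
    exact (S17PM_count hx y hy hdeg a (hsep a (hδa a ha))).1 P hP
  · intro f hf
    have hint : IsIntegral (Algebra.adjoin K ({x} : Set F)) f := by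
      apply S18_semi_isIntegral_of_regular hx f
      intro P hP
      have h1 : P.adicValuation x ≤ 1 := (P.adicValuation_le_one_iff).2 (Or.inr hP)
      rcases (P.adicValuation_le_one_iff).1 (hf P h1) with h2 | h2
      · rw [h2, Place.ord_zero]
      · exact h2
    obtain ⟨p, hp⟩ := hδ₂repr f hint
    refine ⟨Polynomial.aeval (MvPolynomial.X 0 : MvPolynomial (Fin 2) K) δ₁ * p, ?_⟩
    rw [map_mul, hp, ← Polynomial.aeval_algHom_apply, MvPolynomial.aeval_X, Polynomial.aeval_mul]
    simp only [Matrix.cons_val_zero]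
    ring

/-- **PM**: a plane model exists. -/
theorem S17PM_exists [IsAlgClosed K] [CharZero K] (h : RR_Hyp K F) :
    Nonempty (S17D_Model K F) :=
  S17PM_exists_of_repr h (fun hx _ y hy hgen => S17PR_repr hx y hy hgen)

end Fermat.Agent.S17
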