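import Mathlib
import Fermat.Agent.S17.DivInst
import Fermat.Agent.S17.Plane

/-!
# TRACK 8 "MW" (S17), PILLAR 1 (DIV): final theorems (helper15)

* `S17D_main`   : `Pic⁰` of a function field `F / K` (`RR_Hyp K F`, `K` algebraically closed of
                  characteristic `0`) is a divisible group.
* `S17DIV_main` : `J₀(N)(ℚ̄)` is divisible (`S17_DIV N`, the first pillar of `S17/Iface.lean`).

Chain: PM (helper21, helper23) · ORD, LIN (helper24) · DATA, GEN, TRANSFER (helper23) ·
IFT, SPEC, SOUND (helper3) · JAC (helper6) · MOVE (helper21) · design, ASM, INST (helper15).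
-/

set_option autoImplicit false

open AlgebraicCurve ModularCurve

namespace Fermat.Agent.S17

open Fermat.Agent.Lib

/-- **Divisibility of `Pic⁰`** of a function field over an algebraically closed field of
characteristic `0`. -/
theorem S17D_main {K F : Type*} [Field K] [Field F] [Algebra K F] [IsAlgClosed K] [CharZero K]
    (h : RR_Hyp K F) (n : ℕ) (hn : n ≠ 0) (x : Pic0 K F) : ∃ y : Pic0 K F, n • y = x :=
  S17D_main_of h (S17PM_exists h) n hn x

/-- **PILLAR 1 (DIV)**: `J₀(N)(ℚ̄)` is divisible. -/
theorem S17DIV_main (N : ℕ) [NeZero N] : S17_DIV N :=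
  S17DIV_main_of N (S17PM_exists (S17DIV_hRR N))

/-- the part used by the descent: `2`-divisibility. -/
theorem S17DIV_main2 (N : ℕ) [NeZero N] : S17_DIV2 N :=
  (S17DIV_main N).div2

end Fermat.Agent.S17
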