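import Fermat.Agent.S17.Model

/-!
# TRACK 8 (S17), heights pillar: GLUE 2 (hdisc) (helper5), prefix `S17G2_`

`S17G2_main` : for a model `M : S17H_Model Ω J Pl ι k g d1`,

  (A) + (DISC)  ⇒  `S17H_GlueDisc M`,

i.e. the hypothesis `hdisc` of `S17PO_dom`:  for every good `Z` of cardinality `4·d1 = k` and
class `0`,  `(2k + 2g − 2)/k · H(Z) − C_D ≤ 2Λ(Z)`.

Proof: enumerate `Z` as `P : Fin k → Pl`; `princ` gives a section `c ≠ 0` with zero cycle
`ev ∘ P`; (DISC) for `P` and for the reversed enumeration `P ∘ Fin.rev` bounds the two halves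
`∑_{i<j}` and `∑_{j<i}` of `2Λ(Z)` from below by `(k + g − 1)·h(c) − C`; the upper half of (A)
replaces `h(c)` by `H(Z)/k`.  (No symmetry of `λ` is used, so `Ω` need not be algebraic over `ℚ`.)
-/

set_option autoImplicit false
set_option linter.unusedSectionVars false

open MvPolynomial Finset

namespace Fermat.Agent.S17

section enum

variable {Pl : Type} [DecidableEq Pl] {k : ℕ}

/-- enumeration of a finite set of cardinality `k`. -/
theorem S17G2_enum (Z : Finset Pl) (h : Z.card = k) :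
    ∃ P : Fin k → Pl, Function.Injective P ∧ Finset.univ.image P = Z := by
  classical
  let e := (Z.equivFinOfCardEq h).symm
  refine ⟨fun i => (e i : Pl), ?_, ?_⟩
  · intro i j hij
    exact e.injective (Subtype.ext hij)
  · ext Q
    simp only [Finset.mem_image, Finset.mem_univ, true_and]
    constructor
    · rintro ⟨i, rfl⟩
      exact (e i).2
    · intro hQ
      exact ⟨e.symm ⟨Q, hQ⟩, by simp⟩

theorem S17G2_cyc_eq (P : Fin k → Pl) (hP : Function.Injective P) (Z : Finset Pl)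
    (hZ : Finset.univ.image P = Z) : S17H_cyc P = S17H_ind Z := by
  unfold S17H_cyc S17H_ind
  rw [← hZ, Finset.sum_image (fun i _ j _ h => hP h)]

theorem S17G2_H_eq (hk : Pl → ℝ) (P : Fin k → Pl) (hP : Function.Injective P) (Z : Finset Pl)
    (hZ : Finset.univ.image P = Z) : S17DI_H hk Z = ∑ i, hk (P i) := by
  unfold S17DI_H
  rw [← hZ, Finset.sum_image (fun i _ j _ h => hP h)]

/-- the sum over ordered pairs `i ≠ j` splits into `i < j` and `j < i`. -/
theorem S17G2_split (L : Fin k → Fin k → ℝ) :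
    S17DI_Lam2 L Finset.univ =
      ∑ i, ∑ j, (if i < j then L i j else 0) + ∑ i, ∑ j, (if j < i then L i j else 0) := by
  classical
  unfold S17DI_Lam2
  have h1 : ∀ i : Fin k, ∑ j ∈ Finset.univ.erase i, L i j =
      ∑ j, (if i < j then L i j else 0) + ∑ j, (if j < i then L i j else 0) := by
    intro i
    rw [← Finset.sum_add_distrib, ← Finset.filter_ne' Finset.univ i, Finset.sum_filter]
    refine Finset.sum_congr rfl fun j _ => ?_
    rcases lt_trichotomy i j with h | h | h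
    · rw [if_pos (ne_of_gt h), if_pos h, if_neg (not_lt.2 h.le), add_zero]
    · subst h
      simp
    · rw [if_pos (ne_of_lt h), if_neg (not_lt.2 h.le), if_pos h, zero_add]
  rw [Finset.sum_congr rfl fun i _ => h1 i, Finset.sum_add_distrib]

theorem S17G2_Lam2_eq (lam : Pl → Pl → ℝ) (P : Fin k → Pl) (hP : Function.Injective P)
    (Z : Finset Pl) (hZ : Finset.univ.image P = Z) :
    S17DI_Lam2 lam Z =
      ∑ i, ∑ j, (if i < j then lam (P i) (P j) else 0) +
        ∑ i, ∑ j, (if j < i then lam (P i) (P j) else 0) := by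
  classical
  rw [← S17G2_split (fun i j => lam (P i) (P j))]
  unfold S17DI_Lam2
  rw [← hZ, Finset.sum_image (fun i _ j _ h => hP h)]
  refine Finset.sum_congr rfl fun i _ => ?_
  rw [← Finset.image_erase hP, Finset.sum_image (fun i _ j _ h => hP h)]

/-- reversal of the enumeration exchanges the two halves. -/
theorem S17G2_rev (L : Fin k → Fin k → ℝ) :
    ∑ i, ∑ j, (if i < j then L (Fin.rev i) (Fin.rev j) else 0) =
      ∑ i, ∑ j, (if j < i then L i j else 0) := by
  classical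
  rw [← Equiv.sum_comp Fin.revPerm (fun i => ∑ j, (if j < i then L i j else 0))]
  refine Finset.sum_congr rfl fun i _ => ?_
  rw [← Equiv.sum_comp Fin.revPerm (fun j => (if j < Fin.revPerm i then L (Fin.revPerm i) j else 0))]
  refine Finset.sum_congr rfl fun j _ => ?_
  simp only [Fin.revPerm_apply, Fin.rev_lt_rev]

end enum

section main

variable {Ω : Type} [Field Ω] [CharZero Ω] {J : Type} [AddCommGroup J] {Pl : Type}
  [DecidableEq Pl] {ι : Type} [Fintype ι] {k g d1 : ℕ}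

/-- a zero cycle stays a zero cycle after re-enumeration. -/
theorem S17G2_fact_comp (chow : MvPolynomial (ι ⊕ ι) Ω) (c : ι → Ω) (v : Fin k → ι → Ω)
    (e : Equiv.Perm (Fin k)) (h : S17H_Fact chow c v) : S17H_Fact chow c (fun i => v (e i)) := by
  obtain ⟨κ, hκ, hX⟩ := h
  refine ⟨κ, hκ, fun X => ?_⟩
  rw [hX X, Equiv.prod_comp e (fun i => S17H_dot X (v i))]

/-- **GLUE 2 (hdisc)**: (A) + (DISC) ⇒ the hypothesis `hdisc` of `S17PO_dom` for a model. -/
theorem S17G2_main (M : S17H_Model Ω J Pl ι k g d1) (hA : S17H_StmtA M.X)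
    (hD : S17H_StmtDISC M.X g M.TanC) : S17H_GlueDisc M := by
  classical
  obtain ⟨CA, hA⟩ := hA
  obtain ⟨CD, hD⟩ := hD
  have hk := M.hk
  subst hk
  have hd1 : 1 ≤ d1 := le_trans (by omega) M.hd1
  have hK : (0 : ℝ) < ((4 * d1 : ℕ) : ℝ) := by
    have : 0 < 4 * d1 := by omega
    exact_mod_cast this
  have hG : (0 : ℝ) ≤ (g : ℝ) := Nat.cast_nonneg g
  have hK1 : (1 : ℝ) ≤ ((4 * d1 : ℕ) : ℝ) := by
    have : 1 ≤ 4 * d1 := by omega
    exact_mod_cast this
  refine ⟨2 * CD + (2 * ((4 * d1 : ℕ) : ℝ) + 2 * g - 2) / ((4 * d1 : ℕ) : ℝ) * CA, ?_⟩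
  intro Z hZ hcard hcl
  obtain ⟨P, hPinj, hPimg⟩ := S17G2_enum Z hcard
  have hPZ : ∀ i, P i ∈ Z := fun i => by
    rw [← hPimg]
    exact Finset.mem_image_of_mem P (Finset.mem_univ i)
  have hPB : ∀ i, P i ∉ M.B := fun i => Finset.disjoint_left.1 hZ.2.1 (hPZ i)
  have hPO : ∀ i, P i ≠ M.O := fun i h => hZ.2.2 (h ▸ hPZ i)
  have hcyc : M.cl (S17H_cyc P) = 0 := by
    rw [S17G2_cyc_eq P hPinj Z hPimg]
    exact hcl
  obtain ⟨c, hc, hF⟩ := M.princ P hcyc
  -- the points are nonzero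
  have hv : ∀ i, M.ev (P i) ≠ 0 := by
    intro i h0
    have h1 := M.ev_i0 (P i) (hPO i)
    rw [h0] at h1
    simp at h1
  have hred : ∀ i j, i ≠ j → S17H_wedge (M.ev (P i)) (M.ev (P j)) ≠ 0 :=
    fun i j hij => M.ev_inj (P i) (P j) (fun h => hij (hPinj h))
  have htan : ∀ i, M.TanC (M.ev (P i)) (M.tan (P i)) := fun i => ⟨P i, hPB i, rfl, rfl⟩
  -- (DISC) for `P` and for `P ∘ rev`
  have h1 := hD c (fun i => M.ev (P i)) (fun i => M.tan (P i)) hF htan hred
  have h2 := hD c (fun i => M.ev (P (Fin.revPerm i))) (fun i => M.tan (P (Fin.revPerm i)))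
    (S17G2_fact_comp M.X.chow c (fun i => M.ev (P i)) Fin.revPerm hF)
    (fun i => htan _) (fun i j hij => hred _ _ (fun h => hij (Fin.revPerm.injective h)))
  have h2' : ∑ i, ∑ j, (if i < j then
      S17H_lam (M.ev (P (Fin.revPerm i))) (M.ev (P (Fin.revPerm j))) else 0) =
      ∑ i, ∑ j, (if j < i then S17H_lam (M.ev (P i)) (M.ev (P j)) else 0) :=
    S17G2_rev (fun i j => S17H_lam (M.ev (P i)) (M.ev (P j)))
  rw [h2'] at h2
  -- (A)
  have h3 := hA c (fun i => M.ev (P i)) hc hv hF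
  rw [abs_le] at h3
  have hH : S17DI_H M.hk' Z = ∑ i, S17AH_h (M.ev (P i)) := S17G2_H_eq M.hk' P hPinj Z hPimg
  have hL : S17DI_Lam2 M.lam Z =
      ∑ i, ∑ j, (if i < j then S17H_lam (M.ev (P i)) (M.ev (P j)) else 0) +
        ∑ i, ∑ j, (if j < i then S17H_lam (M.ev (P i)) (M.ev (P j)) else 0) :=
    S17G2_Lam2_eq M.lam P hPinj Z hPimg
  rw [hH, hL]
  set H : ℝ := ∑ i, S17AH_h (M.ev (P i)) with hHdef
  set K : ℝ := ((4 * d1 : ℕ) : ℝ) with hKdef
  have hcoef : (0 : ℝ) ≤ (2 * K + 2 * g - 2) / K := by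
    apply div_nonneg _ hK.le
    linarith
  have e1 : (2 * K + 2 * g - 2) / K * H ≤
      (2 * K + 2 * g - 2) / K * (K * S17AH_h c + CA) :=
    mul_le_mul_of_nonneg_left (by linarith [h3.2]) hcoef
  have e2 : (2 * K + 2 * g - 2) / K * (K * S17AH_h c + CA) =
      (2 * K + 2 * g - 2) * S17AH_h c + (2 * K + 2 * g - 2) / K * CA := by
    field_simp
  linarith

end main

end Fermat.Agent.S17
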