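import Fermat.Agent.S17.HtDefs
import Fermat.Agent.S17.GMVar

/-!
# TRACK 8 (S17, Mordell–Weil), heights pillar, package A (helper10)

`S17A_main (X : S17H_Curve Ω ι k) : S17H_StmtA X` for `Ω` algebraically closed of characteristic
`0`, algebraic over `ℚ`:

  `∃ C, ∀ c ≠ 0, ∀ v : Fin k → ι → Ω, (∀ i, v i ≠ 0) → S17H_Fact X.chow c v →`
  `|∑ i, h (v i) − k · h c| ≤ C`.

It only uses `X.chow`, `X.chow_bihom`, `X.chow_ne`; the core statement `S17A_core` is for any
polynomial `chow` in two blocks of variables `ι₁ ⊕ ι₂` (any finite types), bihomogeneous of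
bidegree `(k, m)`, and any number `n` of linear factors.

Proof.  `q := S17A_iter chow` is `chow(c, X)` written as a polynomial in `X` with coefficients
in `Ω[c]` (`S17A_coeff_iter`, `S17A_eval_iter`); its coefficients `p γ` are homogeneous of degree
`k` (`S17A_iter_hom`) without common zero `c ≠ 0` (`chow_ne`), so the height machine
(`S17C_cert`, `S17AH_eval_ge'`, `S17AH_eval_le'`) gives `h (p γ (c))_γ = k · h c + O(1)`.  The left
side is the height of the polynomial `chow(c, ·) = κ ∏ i, ⟨·, v i⟩` (`S17GP_hpoly_eq`), which is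
`∑ i, h (v i) + O(1)` by Gauss–Mahler (`S17GP_prod_linear_var`).
-/

set_option autoImplicit false
set_option linter.style.haveILetI false

open MvPolynomial

namespace Fermat.Agent.S17

section iter

variable {R : Type*} [CommSemiring R] {ι₁ ι₂ : Type*}

theorem S17A_sumAlgEquiv_monomial (d : ι₁ ⊕ ι₂ →₀ ℕ) (r : R) :
    sumAlgEquiv R ι₁ ι₂ (monomial d r) =
      monomial (Finsupp.sumFinsuppAddEquivProdFinsupp d).1
        (monomial (Finsupp.sumFinsuppAddEquivProdFinsupp d).2 r) := by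
  simp [sumAlgEquiv, monomial]

theorem S17A_coeff_sumAlgEquiv (f : MvPolynomial (ι₁ ⊕ ι₂) R) (a : ι₁ →₀ ℕ) (b : ι₂ →₀ ℕ) :
    coeff b (coeff a (sumAlgEquiv R ι₁ ι₂ f)) = coeff (Finsupp.sumElim a b) f := by
  classical
  induction f using MvPolynomial.induction_on' with
  | monomial d r =>
    rw [S17A_sumAlgEquiv_monomial, coeff_monomial, coeff_monomial]
    by_cases h : d = Finsupp.sumElim a b
    · subst h
      simp
    · rw [if_neg h]
      split_ifs with h1
      · rw [coeff_monomial, if_neg]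
        intro h2
        apply h
        ext s
        rcases s with s | s
        · simp [← h1]
        · simp [← h2]
      · simp
  | add p q hp hq =>
    rw [map_add, coeff_add, coeff_add, coeff_add, hp, hq]

/-- `f(c, X)` as a polynomial in `X` whose coefficients are polynomials in `c`. -/
noncomputable def S17A_iter (f : MvPolynomial (ι₁ ⊕ ι₂) R) :
    MvPolynomial ι₂ (MvPolynomial ι₁ R) :=
  sumAlgEquiv R ι₂ ι₁ (rename Sum.swap f)

theorem S17A_swap_injective : Function.Injective (Sum.swap : ι₁ ⊕ ι₂ → ι₂ ⊕ ι₁) :=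
  fun x y h => by simpa using congrArg Sum.swap h

theorem S17A_mapDomain_swap (a : ι₁ →₀ ℕ) (γ : ι₂ →₀ ℕ) :
    Finsupp.mapDomain Sum.swap (Finsupp.sumElim a γ) = Finsupp.sumElim γ a := by
  ext s
  have h := Finsupp.mapDomain_apply (S17A_swap_injective (ι₁ := ι₁) (ι₂ := ι₂))
    (Finsupp.sumElim a γ) (Sum.swap s)
  rw [Sum.swap_swap] at h
  rw [h]
  rcases s with s | s <;> simp

theorem S17A_coeff_iter (f : MvPolynomial (ι₁ ⊕ ι₂) R) (a : ι₁ →₀ ℕ) (γ : ι₂ →₀ ℕ) :
    coeff a (coeff γ (S17A_iter f)) = coeff (Finsupp.sumElim a γ) f := by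
  unfold S17A_iter
  rw [S17A_coeff_sumAlgEquiv, ← S17A_mapDomain_swap,
    coeff_rename_mapDomain _ S17A_swap_injective]

theorem S17A_eval_iter (f : MvPolynomial (ι₁ ⊕ ι₂) R) (c : ι₁ → R) (x : ι₂ → R) :
    eval x (map (eval c) (S17A_iter f)) = eval (Sum.elim c x) f := by
  unfold S17A_iter
  induction f using MvPolynomial.induction_on with
  | C r => simp
  | add p q hp hq => simp only [map_add, hp, hq]
  | mul_X p s hp =>
    simp only [map_mul, hp, rename_X, eval_X]
    rcases s with s | s <;> simp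

theorem S17A_iter_hom [Fintype ι₁] [Fintype ι₂] (f : MvPolynomial (ι₁ ⊕ ι₂) R) {k m : ℕ}
    (hf : S17C_IsBihom f k m) (γ : ι₂ →₀ ℕ) : (coeff γ (S17A_iter f)).IsHomogeneous k := by
  intro a ha
  rw [S17A_coeff_iter] at ha
  have h := (hf _ ha).1
  simp only [Finsupp.sumElim_inl] at h
  rw [← h]
  simp [Finsupp.weight_apply, Finsupp.sum_fintype]

end iter

section main

variable {Ω : Type*} [Field Ω] [CharZero Ω] [Algebra.IsAlgebraic ℚ Ω] [IsAlgClosed Ω]

/-- **(A), core form**: `chow` homogeneous of degree `k` in the first block of variables `c`,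
`chow(c, ·) ≠ 0` for `c ≠ 0`.  If `chow(c, X) = κ ∏_{i < n} ⟨X, v i⟩` then
`|Σ_i h(v i) − k h(c)| ≤ C`, the constant depending on `chow` and `n` only. -/
theorem S17A_core {ι₁ ι₂ : Type*} [Fintype ι₁] [Fintype ι₂] (k m n : ℕ)
    (chow : MvPolynomial (ι₁ ⊕ ι₂) Ω) (hb : S17C_IsBihom chow k m)
    (hne : ∀ c : ι₁ → Ω, c ≠ 0 → ∃ X : ι₂ → Ω, eval (Sum.elim c X) chow ≠ 0) :
    ∃ C : ℝ, ∀ (c : ι₁ → Ω) (v : Fin n → ι₂ → Ω) (κ : Ω), c ≠ 0 → κ ≠ 0 → (∀ i, v i ≠ 0) →
      (∀ X : ι₂ → Ω, eval (Sum.elim c X) chow = κ * ∏ i, ∑ j, X j * v i j) →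
      |∑ i, S17AH_h (v i) - k * S17AH_h c| ≤ C := by
  classical
  obtain ⟨q, hq⟩ : ∃ q, q = S17A_iter chow := ⟨_, rfl⟩
  let p : q.support → MvPolynomial ι₁ Ω := fun γ => coeff γ.1 q
  have hhom : ∀ γ : ι₂ →₀ ℕ, (coeff γ q).IsHomogeneous k := fun γ => by
    rw [hq]
    exact S17A_iter_hom chow hb γ
  have hp : ∀ γ, (p γ).IsHomogeneous k := fun γ => hhom γ.1
  have hev : ∀ (c : ι₁ → Ω) (X : ι₂ → Ω), eval X (map (eval c) q) = eval (Sum.elim c X) chow :=
    fun c X => by rw [hq]; exact S17A_eval_iter chow c X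
  -- no common zero
  have hncz : ∀ x : ι₁ → Ω, x ≠ 0 →
      (∀ f ∈ (⊥ : Ideal (MvPolynomial ι₁ Ω)), aeval x f = 0) → ∃ γ, aeval x (p γ) ≠ 0 := by
    intro x hx _
    obtain ⟨X, hX⟩ := hne x hx
    by_contra hcon
    have hcon' : ∀ γ, aeval x (p γ) = 0 := fun γ => by
      by_contra h
      exact hcon ⟨γ, h⟩
    apply hX
    rw [← hev]
    have h0 : map (eval x) q = 0 := by
      ext γ
      rw [coeff_map, coeff_zero]
      by_cases hγ : γ ∈ q.support
      · have := hcon' ⟨γ, hγ⟩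
        rwa [aeval_eq_eval] at this
      · rw [notMem_support_iff.1 hγ, map_zero]
    rw [h0, map_zero]
  obtain ⟨M, Q, hQ, hcert⟩ := S17C_cert (k := Ω) (K := Ω) k p hp ⊥
    (by
      intro f hf d
      rw [Ideal.mem_bot] at hf ⊢
      rw [hf, map_zero]) hncz
  obtain ⟨C₁, hC₁⟩ := S17AH_eval_ge' (N := k) hQ
  obtain ⟨C₂, hC₂⟩ := S17AH_eval_le' hp
  refine ⟨max (-C₁) C₂ + n * Real.log (S17GM_const (Fintype.card ι₂) (n + 1)), ?_⟩
  intro c v κ hc hκ hv hF
  -- the polynomial `chow(c, ·)`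
  have hP : map (eval c) q = C κ * ∏ i, S17GP_lin (v i) := by
    apply MvPolynomial.funext
    intro X
    rw [hev, hF X, map_mul, eval_C, map_prod]
    congr 1
    refine Finset.prod_congr rfl fun i _ => ?_
    rw [S17GP_eval_lin]
    exact Finset.sum_congr rfl fun j _ => mul_comm _ _
  -- the height of the coefficient vector
  have h2 : S17AH_h (fun γ : q.support => eval c (p γ)) = S17AG_hpoly (map (eval c) q) := by
    rw [← S17GP_hpoly_eq (map (eval c) q) (fun γ : q.support => γ.1)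
      (fun s hs => ⟨⟨s, support_map_subset _ _ hs⟩, rfl⟩)]
    exact congrArg S17AH_h (funext fun γ => (coeff_map (eval c) q γ.1).symm)
  have h3 : S17AG_hpoly (map (eval c) q) = S17AG_hpoly (∏ i, S17GP_lin (v i)) := by
    rw [hP, S17GP_hpoly_C_mul _ hκ]
  have h4 := S17GP_prod_linear_var n v hv
  have h5 := hC₁ p c (fun i => S17C_eval_of_cert hcert c (by
    intro f hf
    rw [Ideal.mem_bot] at hf
    rw [hf, map_zero]) i)
  have h6 := hC₂ c
  rw [h2, h3] at h5 h6
  have e4 := abs_le.1 h4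
  have hm1 : -C₁ ≤ max (-C₁) C₂ := le_max_left _ _
  have hm2 : C₂ ≤ max (-C₁) C₂ := le_max_right _ _
  refine abs_le.2 ⟨?_, ?_⟩
  · linarith [e4.1, e4.2]
  · linarith [e4.1, e4.2]

end main

section contract

variable {Ω : Type} [Field Ω] [CharZero Ω] [Algebra.IsAlgebraic ℚ Ω] [IsAlgClosed Ω]
  {ι : Type} [Fintype ι] {k : ℕ}

/-- **(A)**, abstract form (contract `S17H_StmtA` of `S17/HtDefs.lean`). -/
theorem S17A_main (X : S17H_Curve Ω ι k) : S17H_StmtA X := by
  obtain ⟨C, hC⟩ := S17A_core k k k X.chow X.chow_bihom X.chow_ne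
  refine ⟨C, fun c v hc hv hF => ?_⟩
  obtain ⟨κ, hκ, hFκ⟩ := hF
  exact hC c v κ hc hκ hv hFκ

end contract

end Fermat.Agent.S17
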