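import Fermat.Agent.S17.Pos
import Fermat.Agent.S17.Iface

/-!
# TRACK 8 "MW" (S17), pillar HEIGHTS, package ASM-H, abstract part (helper17)

The formal glue  PAIRF (helper27) + POS-abs (helper5) + NORTH  ⇒  the height data of
`S17/Iface.lean`.

* `S17HM_abs`  : for a PAIRF datum `A : S17PF_Data J Pt`, a function `μ ≥ 0` on `J` with the
  hypotheses `hdisc`, `hum` of `S17PO_dom` and Northcott for `h x := μ x + μ (-x)`, there are
  `h`, `q` with: `h` Northcott, `q` satisfies the parallelogram law up to `O(1)`,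
  `h ≤ A'·q + B'` with `A' > 0`, `h ≥ 0`.
* `S17HM_main` : for `J = J₀(N)(ℚ)` this is `Nonempty (S17_Height2 N)`.
-/

set_option autoImplicit false
set_option linter.unusedSectionVars false

open Finset

namespace Fermat.Agent.S17

/-- **ASM-H, abstract**. -/
theorem S17HM_abs {J : Type*} [AddCommGroup J] {Pt : Type*} [DecidableEq Pt]
    (A : S17PF_Data J Pt) (g : ℕ) (μ : J → ℝ) (hμ : ∀ x, 0 ≤ μ x) (C_D C_U : ℝ)
    (hdisc : ∀ Z, A.Good Z → Z.card = 4 * A.d1 → A.cl Z = 0 →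
      (2 * ((4 * A.d1 : ℕ) : ℝ) + 2 * g - 2) / ((4 * A.d1 : ℕ) : ℝ) * S17DI_H A.hk Z - C_D ≤
        S17DI_Lam2 A.lam Z)
    (hum : ∀ D, A.Good D → D.card = 2 * A.d1 → ∃ HE : ℝ, μ (-A.cl D) ≤ HE ∧
      S17DI_Lam2 A.lam D ≤ 2 * S17DI_H A.hk D -
        2 * (((2 * A.d1 : ℕ) : ℝ) - g + 1) / ((4 * A.d1 : ℕ) : ℝ) * (S17DI_H A.hk D + HE) + C_U)
    (hg : g ≤ 2 * A.d1)
    (hN : Northcott fun x : J => μ x + μ (-x)) :
    ∃ (h q : J → ℝ) (C A' B' : ℝ), Northcott h ∧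
      (∀ x y, |q (x + y) + q (x - y) - 2 * (q x + q y)| ≤ C) ∧ 0 < A' ∧
      (∀ x, h x ≤ A' * q x + B') ∧ ∀ x, 0 ≤ h x := by
  classical
  have hd1 := A.hd1
  -- a chosen admissible pair for every class
  have hex : ∀ x : J, ∃ D D' : Finset Pt, A.Good D ∧ A.Good D' ∧ D.card = 2 * A.d1 ∧
      D'.card = 2 * A.d1 ∧ A.cl D = x ∧ A.cl D' = -x ∧ Disjoint D D' := by
    intro x
    obtain ⟨D, hD, hcD, hclD, -⟩ := A.move x ∅ (2 * A.d1) (by omega) (by omega)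
    obtain ⟨D', hD', hcD', hclD', hdis⟩ := A.move (-x) D (2 * A.d1) (by omega) (by omega)
    exact ⟨D, D', hD, hD', hcD, hcD', hclD, hclD', hdis.symm⟩
  choose D D' hD hD' hcD hcD' hclD hclD' hdis using hex
  obtain ⟨C, hC⟩ := S17PF_par A D D' (fun x => ⟨hD x, hcD x, hclD x⟩)
    (fun x => ⟨hD' x, hcD' x, hclD' x⟩) hdis
  obtain ⟨A', B', hA', hdom⟩ := S17PO_dom A g μ C_D C_U hdisc hum hg
  refine ⟨fun x => μ x + μ (-x), fun x => A.beta (D x) (D' x), C, A', B', hN, hC, hA', ?_, ?_⟩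
  · intro x
    exact hdom x (D x) (D' x) (hD x) (hD' x) (hcD x) (hcD' x) (hclD x) (hclD' x) (hdis x)
  · intro x
    exact add_nonneg (hμ x) (hμ (-x))

/-- **ASM-H** for `J = J₀(N)(ℚ)`: the third pillar from a PAIRF datum with (DISC), (U)+(M)+(A)
and Northcott. -/
theorem S17HM_main (N : ℕ) [NeZero N] {Pt : Type*} [DecidableEq Pt]
    (A : S17PF_Data ↥(S17_JQ N) Pt) (g : ℕ) (μ : ↥(S17_JQ N) → ℝ) (hμ : ∀ x, 0 ≤ μ x)
    (C_D C_U : ℝ)
    (hdisc : ∀ Z, A.Good Z → Z.card = 4 * A.d1 → A.cl Z = 0 →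
      (2 * ((4 * A.d1 : ℕ) : ℝ) + 2 * g - 2) / ((4 * A.d1 : ℕ) : ℝ) * S17DI_H A.hk Z - C_D ≤
        S17DI_Lam2 A.lam Z)
    (hum : ∀ D, A.Good D → D.card = 2 * A.d1 → ∃ HE : ℝ, μ (-A.cl D) ≤ HE ∧
      S17DI_Lam2 A.lam D ≤ 2 * S17DI_H A.hk D -
        2 * (((2 * A.d1 : ℕ) : ℝ) - g + 1) / ((4 * A.d1 : ℕ) : ℝ) * (S17DI_H A.hk D + HE) + C_U)
    (hg : g ≤ 2 * A.d1)
    (hN : Northcott fun x : ↥(S17_JQ N) => μ x + μ (-x)) :
    Nonempty (S17_Height2 N) := by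
  obtain ⟨h, q, C, A', B', hN', hpar, hA', hdom, hpos⟩ :=
    S17HM_abs A g μ hμ C_D C_U hdisc hum hg hN
  exact ⟨{ h := h, q := q, northcott := hN', C := C, par := hpar, A := A', B := B', hA := hA',
           dom := hdom, hpos := hpos }⟩

/-- the final assembly of S17 from the three pillars, with the third in `Nonempty` form. -/
theorem S17HM_of (N : ℕ) [NeZero N] (hW : S17_WMW N) (hH : Nonempty (S17_Height2 N)) :
    AddGroup.FG ↥(S17_JQ N) := by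
  obtain ⟨H⟩ := hH
  exact S17_of' N hW H

end Fermat.Agent.S17
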