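import Fermat.Agent.S17.Model
import Fermat.Agent.S17.HtAsm

/-!
# TRACK 8 (S17), heights pillar: from a MODEL to the final statement (helper7)

`M : S17H_Model Ω J Pl ι k g d1` together with the three glue statements
`S17H_GlueDeca M`, `S17H_GlueDisc M`, `S17H_GlueHum M` gives the PAIRF datum
`M.toPF : S17PF_Data ↥M.JQ Pl`, the hypotheses of `S17HM_abs` (helper17) and hence a Northcott
function `h` and a quasi-quadratic function `q` on `↥M.JQ` with `h ≤ A q + B`.
-/

set_option autoImplicit false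
set_option linter.unusedSectionVars false
set_option linter.unusedVariables false

open Finset

namespace Fermat.Agent.S17

section

variable {Ω : Type} [Field Ω] [CharZero Ω] {J : Type} [AddCommGroup J] {Pl : Type}
  [DecidableEq Pl] {ι : Type} [Fintype ι] {k g d1 : ℕ}

theorem S17MP_ind_apply (D : Finset Pl) (P : Pl) :
    S17H_ind D P = if P ∈ D then 1 else 0 := by
  classical
  unfold S17H_ind
  rw [Finsupp.finsetSum_apply]
  simp only [Finsupp.single_apply]
  rw [Finset.sum_ite_eq' D P]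

theorem S17MP_ind_union {D E : Finset Pl} (h : Disjoint D E) :
    S17H_ind (D ∪ E) = S17H_ind D + S17H_ind E := by
  unfold S17H_ind
  exact Finset.sum_union h

theorem S17MP_deg_ind (D : Finset Pl) : S17NO_deg (S17H_ind D) = D.card := by
  classical
  unfold S17H_ind
  induction D using Finset.induction_on with
  | empty => simp [S17NO_deg_zero]
  | insert a s ha ih =>
    rw [Finset.sum_insert ha, S17NO_deg_add, S17NO_deg_single, ih, Finset.card_insert_of_notMem ha]
    ring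

/-- Galois invariant finite sets of places. -/
def S17H_Model.Inv (M : S17H_Model Ω J Pl ι k g d1) (D : Finset Pl) : Prop :=
  ∀ σ P, M.act σ P ∈ D ↔ P ∈ D

theorem S17MP_ind_inv (M : S17H_Model Ω J Pl ι k g d1) {D : Finset Pl} (h : M.Inv D)
    (σ : Ω ≃ₐ[ℚ] Ω) (P : Pl) : S17H_ind D (M.act σ P) = S17H_ind D P := by
  rw [S17MP_ind_apply, S17MP_ind_apply]
  simp only [h σ P]

theorem S17MP_inv_union (M : S17H_Model Ω J Pl ι k g d1) {D E : Finset Pl} (hD : M.Inv D)
    (hE : M.Inv E) : M.Inv (D ∪ E) := by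
  intro σ P
  rw [Finset.mem_union, Finset.mem_union, hD σ P, hE σ P]

theorem S17MP_good_union (M : S17H_Model Ω J Pl ι k g d1) {D E : Finset Pl} (hD : M.Good D)
    (hE : M.Good E) : M.Good (D ∪ E) := by
  refine ⟨S17MP_inv_union M hD.1 hE.1, ?_, ?_⟩
  · rw [Finset.disjoint_union_left]
    exact ⟨hD.2.1, hE.2.1⟩
  · rw [Finset.mem_union]
    rintro (h | h)
    · exact hD.2.2 h
    · exact hE.2.2 h

open Classical in
/-- the class of a finite set of places in `J(ℚ)` (`0` if the set is not invariant). -/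
noncomputable def S17H_Model.clQ (M : S17H_Model Ω J Pl ι k g d1) (D : Finset Pl) : ↥M.JQ :=
  if h : M.Inv D then ⟨M.cl (S17H_ind D), M.cl_mem _ (S17MP_ind_inv M h)⟩ else 0

theorem S17MP_clQ_coe (M : S17H_Model Ω J Pl ι k g d1) {D : Finset Pl} (h : M.Inv D) :
    ((M.clQ D : ↥M.JQ) : J) = M.cl (S17H_ind D) := by
  unfold S17H_Model.clQ
  rw [dif_pos h]

theorem S17MP_clQ_union (M : S17H_Model Ω J Pl ι k g d1) {D E : Finset Pl} (hD : M.Inv D)
    (hE : M.Inv E) (h : Disjoint D E) : M.clQ (D ∪ E) = M.clQ D + M.clQ E := by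
  apply Subtype.ext
  rw [AddSubgroup.coe_add, S17MP_clQ_coe M hD, S17MP_clQ_coe M hE,
    S17MP_clQ_coe M (S17MP_inv_union M hD hE), S17MP_ind_union h, M.cl_add]

variable [Algebra.IsAlgebraic ℚ Ω]

/-- the PAIRF datum of a model. -/
noncomputable def S17H_Model.toPF (M : S17H_Model Ω J Pl ι k g d1) (h1 : S17H_GlueDeca M) :
    S17PF_Data ↥M.JQ Pl where
  lam := M.lam
  lam_symm := fun P Q => S17H_lam_comm (M.ev P) (M.ev Q)
  hk := M.hk'
  d1 := d1
  hd1 := by have := M.hd1; omega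
  Good := M.Good
  good_union := fun D E hD hE => S17MP_good_union M hD hE
  cl := M.clQ
  cl_union := fun D E hD hE h => S17MP_clQ_union M hD.1 hE.1 h
  move := by
    intro x S d hd hd'
    obtain ⟨D, hc, hinv, hS, hB, hO, hcl⟩ := M.move x.1 x.2 S d hd hd'
    refine ⟨D, ⟨hinv, hB, hO⟩, hc, ?_, hS⟩
    apply Subtype.ext
    rw [S17MP_clQ_coe M hinv, hcl]
  C0 := Classical.choose h1
  deca := by
    intro Z hZ hc hcl Q hQ
    have h0 : M.cl (S17H_ind Z) = 0 := by
      rw [← S17MP_clQ_coe M hZ.1, hcl]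
      rfl
    exact Classical.choose_spec h1 Z hZ hc h0 Q hQ

variable [IsAlgClosed Ω]

/-- Northcott for `μ(x) + μ(−x)` on `J(ℚ)`. -/
theorem S17MP_northcott (M : S17H_Model Ω J Pl ι k g d1) :
    Northcott fun x : ↥M.JQ => M.mu (x : J) + M.mu ((-x : ↥M.JQ) : J) := by
  have hA : ∀ x ∈ M.JQ, ∃ E : Pl →₀ ℕ, S17NO_Adm M.O M.act (2 * d1) E ∧ M.cl E = x := by
    intro x hx
    obtain ⟨D, hc, hinv, -, -, hO, hcl⟩ := M.move x hx ∅ d1 le_rfl (by omega)
    refine ⟨S17H_ind D, ⟨fun σ P => S17MP_ind_inv M hinv σ P, ?_, ?_⟩, hcl⟩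
    · rw [S17MP_ind_apply, if_neg hO]
    · rw [S17MP_deg_ind, hc]
      omega
  have hinj : ∀ P Q, P ≠ M.O → Q ≠ M.O → M.ev P = M.ev Q → P = Q := by
    intro P Q _ _ h
    by_contra hne
    apply M.ev_inj P Q hne
    rw [h]
    exact S17H_wedge_self _
  have key := S17NO_northcott (O := M.O) (act := M.act) (ev := M.ev) (d := 2 * d1) M.cl M.JQ hA
    M.i0 M.ev_i0 M.ev_act hinj
  have e : (fun x : ↥M.JQ => M.mu (x : J) + M.mu ((-x : ↥M.JQ) : J)) =
      fun x : ↥M.JQ => S17NO_h M.cl M.O M.act M.ev (2 * d1) (x : J) := by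
    funext x
    rfl
  rw [e]
  exact key

/-- **FINAL (abstract)**: a model and the three glue statements give the data of
`S17_Height2`. -/
theorem S17MP_final (M : S17H_Model Ω J Pl ι k g d1) (h1 : S17H_GlueDeca M)
    (h2 : S17H_GlueDisc M) (h3 : S17H_GlueHum M) :
    ∃ (h q : ↥M.JQ → ℝ) (C A' B' : ℝ), Northcott h ∧
      (∀ x y, |q (x + y) + q (x - y) - 2 * (q x + q y)| ≤ C) ∧ 0 < A' ∧
      (∀ x, h x ≤ A' * q x + B') ∧ ∀ x, 0 ≤ h x := by
  obtain ⟨C_D, hCD⟩ := h2
  obtain ⟨C_U, hCU⟩ := h3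
  refine S17HM_abs (M.toPF h1) g (fun x : ↥M.JQ => M.mu (x : J))
    (fun x => S17NO_mu_nonneg M.cl M.O M.act M.ev (2 * d1) _) C_D C_U ?_ ?_ ?_
    (S17MP_northcott M)
  · intro Z hZ hc hcl
    have h0 : M.cl (S17H_ind Z) = 0 := by
      have : ((M.clQ Z : ↥M.JQ) : J) = 0 := by
        have h' : M.clQ Z = 0 := hcl
        rw [h']
        rfl
      rw [← S17MP_clQ_coe M hZ.1, this]
    exact hCD Z hZ hc h0
  · intro D hD hc
    obtain ⟨HE, hHE, hU⟩ := hCU D hD hc
    refine ⟨HE, ?_, hU⟩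
    have e : (((-(M.toPF h1).cl D : ↥M.JQ)) : J) = -M.cl (S17H_ind D) := by
      rw [AddSubgroup.coe_neg]
      congr 1
      exact S17MP_clQ_coe M hD.1
    show M.mu _ ≤ HE
    rw [e]
    exact hHE
  · show g ≤ 2 * d1
    have := M.hd1
    omega

end

end Fermat.Agent.S17
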