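import Fermat.Agent.S17.Hum
import Fermat.Agent.S17.ModelPF

/-!
# TRACK 8 (S17), heights pillar, GLUE 3 = C6 HUM against the MODEL (helper1)

`S17HU_glue (M : S17H_Model Ω J Pl ι k g d1) (hA : S17H_StmtA M.X)
    (hUU : S17H_StmtUU M.X (2 * d1)) : S17H_GlueHum M`.

* `S17HU_zero_mem` : a point of the curve on the hyperplane `c` is (proportional to) a point of
  every zero cycle of `c`  (from `(H1)`; a vector space over an infinite field is not a finite
  union of proper subspaces).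
* `S17HU_dict` : for a rational section `c` vanishing on a good divisor `D` of degree `2·d1`: the
  zero cycle `Z` of `c` (field `zeros`) contains `D`, and `E := Z − D` without its part at `O` is
  admissible of class `−cl D` with `H(D) + H(E) ≤ Σ h(ev (Z i))`.
-/

set_option autoImplicit false
set_option linter.unusedSectionVars false
set_option linter.unusedVariables false
set_option linter.style.haveILetI false

open Finset

namespace Fermat.Agent.S17

section zero

variable {Ω : Type} [Field Ω] [CharZero Ω] {ι : Type} [Fintype ι]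

/-- the linear form `X ↦ ⟨X, y⟩`. -/
def S17HU_form (y : ι → Ω) : (ι → Ω) →ₗ[Ω] Ω where
  toFun := fun X => S17H_dot X y
  map_add' := by
    intro X X'
    simp only [S17H_dot, Pi.add_apply, add_mul, Finset.sum_add_distrib]
  map_smul' := by
    intro a X
    simp only [S17H_dot, Pi.smul_apply, smul_eq_mul, RingHom.id_apply, Finset.mul_sum, mul_assoc]

theorem S17HU_form_apply (y X : ι → Ω) : S17HU_form y X = S17H_dot X y := rfl

/-- the test vector `x_b ε_a − x_a ε_b` is orthogonal to `x`, and its product with `v` is a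
`2 × 2` minor. -/
theorem S17HU_dot_test [DecidableEq ι] (x v : ι → Ω) (a b : ι) :
    S17H_dot (fun j => x b * (if j = a then 1 else 0) - x a * (if j = b then 1 else 0)) v
      = x b * v a - x a * v b := by
  simp only [S17H_dot, sub_mul, Finset.sum_sub_distrib, mul_assoc, ← Finset.mul_sum]
  simp

/-- a point of the curve on the hyperplane `c` is one of the points of the zero cycle of `c`
(up to proportionality). -/
theorem S17HU_zero_mem {k : ℕ} (I : Ideal (MvPolynomial ι Ω)) (chow : MvPolynomial (ι ⊕ ι) Ω)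
    (h1 : S17H_H1 I chow) (c : ι → Ω) (v : Fin k → ι → Ω) (hF : S17H_Fact chow c v)
    (x : ι → Ω) (hx : x ∈ S17H_V I) (hx0 : x ≠ 0) (hcx : S17H_dot c x = 0) :
    ∃ i, S17H_wedge x (v i) = 0 := by
  classical
  obtain ⟨κ, hκ, hprod⟩ := hF
  let W : Submodule Ω (ι → Ω) := LinearMap.ker (S17HU_form x)
  let p : Fin k → Subspace Ω ↥W := fun i => (LinearMap.ker (S17HU_form (v i))).comap W.subtype
  have hcover : ⋃ i, (p i : Set ↥W) = Set.univ := by
    apply Set.eq_univ_of_forall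
    intro X
    have hX : S17H_dot X.1 x = 0 := X.2
    have h0 := h1 c x X.1 hx hx0 hcx hX
    rw [hprod X.1] at h0
    have h2 : ∏ i, S17H_dot X.1 (v i) = 0 := by
      rcases mul_eq_zero.mp h0 with h | h
      · exact absurd h hκ
      · exact h
    obtain ⟨i, -, hi⟩ := Finset.prod_eq_zero_iff.mp h2
    exact Set.mem_iUnion.mpr ⟨i, hi⟩
  obtain ⟨i, hi⟩ := Subspace.exists_eq_top_of_iUnion_eq_univ hcover
  refine ⟨i, ?_⟩
  funext ab
  obtain ⟨a, b⟩ := ab
  have hXW : (fun j => x b * (if j = a then 1 else 0) - x a * (if j = b then 1 else 0)) ∈ W := by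
    show S17H_dot _ x = 0
    rw [S17HU_dot_test]
    ring
  have hXp : (⟨_, hXW⟩ : ↥W) ∈ p i := by
    rw [hi]
    exact Submodule.mem_top
  have h3 : S17H_dot (fun j => x b * (if j = a then 1 else 0) - x a * (if j = b then 1 else 0))
      (v i) = 0 := hXp
  rw [S17HU_dot_test] at h3
  simp only [S17H_wedge, Pi.zero_apply]
  linear_combination -h3

end zero

section glue

variable {Ω : Type} [Field Ω] [CharZero Ω]
variable {J : Type} [AddCommGroup J] {Pl : Type} [DecidableEq Pl] {ι : Type} [Fintype ι]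
  {k g d1 : ℕ}

theorem S17HU_ev_ne_zero (M : S17H_Model Ω J Pl ι k g d1) (P : Pl) : M.ev P ≠ 0 := by
  intro h
  by_cases hP : P = M.O
  · have h1 := M.ev_O_il
    rw [← hP, h] at h1
    simp at h1
  · have h1 := M.ev_i0 P hP
    rw [h] at h1
    simp at h1

theorem S17HU_cl_zero (M : S17H_Model Ω J Pl ι k g d1) : M.cl 0 = 0 := by
  have h := M.cl_add 0 0
  rw [add_zero] at h
  exact left_eq_add.mp h

theorem S17HU_cl_single_O (M : S17H_Model Ω J Pl ι k g d1) (m : ℕ) :
    M.cl (Finsupp.single M.O m) = 0 := by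
  induction m with
  | zero => simp [S17HU_cl_zero]
  | succ m ih => rw [Finsupp.single_add, M.cl_add, ih, M.cl_O, add_zero]

theorem S17HU_act_eq_O (M : S17H_Model Ω J Pl ι k g d1) (σ : Ω ≃ₐ[ℚ] Ω) (P : Pl) :
    M.act σ P = M.O ↔ P = M.O := by
  constructor
  · intro h
    apply M.act_inj σ
    rw [h, M.act_O]
  · rintro rfl
    exact M.act_O σ

variable [Algebra.IsAlgebraic ℚ Ω] [IsAlgClosed Ω]

theorem S17HU_H_sum {α : Type*} (ev : Pl → ι → Ω) (s : Finset α) (f : α → Pl →₀ ℕ) :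
    S17NO_H ev (∑ a ∈ s, f a) = ∑ a ∈ s, S17NO_H ev (f a) := by
  classical
  induction s using Finset.induction_on with
  | empty =>
    rw [Finset.sum_empty, Finset.sum_empty]
    exact S17NO_H_zero ev
  | insert a s ha ih => rw [Finset.sum_insert ha, Finset.sum_insert ha, S17NO_H_add, ih]

theorem S17HU_deg_sum {α : Type*} (s : Finset α) (f : α → Pl →₀ ℕ) :
    S17NO_deg (∑ a ∈ s, f a) = ∑ a ∈ s, S17NO_deg (f a) := by
  classical
  induction s using Finset.induction_on with
  | empty =>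
    rw [Finset.sum_empty, Finset.sum_empty]
    exact S17NO_deg_zero
  | insert a s ha ih => rw [Finset.sum_insert ha, Finset.sum_insert ha, S17NO_deg_add, ih]

theorem S17HU_H_cyc (ev : Pl → ι → Ω) (P : Fin k → Pl) :
    S17NO_H ev (S17H_cyc P) = ∑ i, S17AH_h (ev (P i)) := by
  unfold S17H_cyc
  rw [S17HU_H_sum]
  refine Finset.sum_congr rfl fun i _ => ?_
  rw [S17NO_H_single]
  simp

theorem S17HU_H_ind (ev : Pl → ι → Ω) (D : Finset Pl) :
    S17NO_H ev (S17H_ind D) = ∑ P ∈ D, S17AH_h (ev P) := by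
  unfold S17H_ind
  rw [S17HU_H_sum]
  refine Finset.sum_congr rfl fun i _ => ?_
  rw [S17NO_H_single]
  simp

theorem S17HU_deg_cyc (P : Fin k → Pl) : S17NO_deg (S17H_cyc P) = k := by
  unfold S17H_cyc
  rw [S17HU_deg_sum]
  simp [S17NO_deg_single]

theorem S17HU_cyc_apply_pos (P : Fin k → Pl) (i : Fin k) : 1 ≤ S17H_cyc P (P i) := by
  classical
  unfold S17H_cyc
  rw [Finsupp.finsetSum_apply]
  calc 1 = (Finsupp.single (P i) 1 : Pl →₀ ℕ) (P i) := by simp
    _ ≤ ∑ j, (Finsupp.single (P j) 1 : Pl →₀ ℕ) (P i) :=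
        Finset.single_le_sum (f := fun j => (Finsupp.single (P j) 1 : Pl →₀ ℕ) (P i))
          (fun _ _ => Nat.zero_le _) (Finset.mem_univ i)

/-- the dictionary `hE` of `S17HU_main` from the fields of a model. -/
theorem S17HU_dict (M : S17H_Model Ω J Pl ι k g d1) (D : Finset Pl) (hD : M.Good D)
    (hDc : D.card = 2 * d1) (c : ι → ℚ) (hc : c ≠ 0)
    (hcD : ∀ P ∈ D, S17H_dot (fun j => algebraMap ℚ Ω (c j)) (M.ev P) = 0) :
    ∃ (Z : Fin k → Pl) (E : Pl →₀ ℕ),
      S17H_Fact M.X.chow (fun j => algebraMap ℚ Ω (c j)) (fun i => M.ev (Z i)) ∧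
      (∀ i, M.ev (Z i) ≠ 0) ∧ S17NO_Adm M.O M.act (2 * d1) E ∧
      M.cl E = - M.cl (S17H_ind D) ∧
      S17DI_H M.hk' D + S17NO_H M.ev E ≤ ∑ i, S17AH_h (M.ev (Z i)) := by
  classical
  have hcΩ : (fun j => algebraMap ℚ Ω (c j)) ≠ 0 := by
    intro h
    apply hc
    funext j
    have := congrFun h j
    simpa using this
  obtain ⟨Pz, hFact, hcl0, hinvz⟩ := M.zeros _ hcΩ
  have hinv' : ∀ σ Q, S17H_cyc Pz (M.act σ Q) = S17H_cyc Pz Q :=
    hinvz (fun σ j => by simp)
  have hmem : ∀ P ∈ D, ∃ i, Pz i = P := by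
    intro P hP
    obtain ⟨i, hi⟩ := S17HU_zero_mem M.X.I M.X.chow M.X.h1 _ (fun i => M.ev (Pz i)) hFact
      (M.ev P) (M.ev_mem P) (S17HU_ev_ne_zero M P) (hcD P hP)
    refine ⟨i, ?_⟩
    by_contra hne
    exact M.ev_inj P (Pz i) (fun h => hne h.symm) hi
  have hle : S17H_ind D ≤ S17H_cyc Pz := by
    intro P
    rw [S17MP_ind_apply]
    split_ifs with hP
    · obtain ⟨i, rfl⟩ := hmem P hP
      exact S17HU_cyc_apply_pos Pz i
    · exact Nat.zero_le _
  set R : Pl →₀ ℕ := S17H_cyc Pz - S17H_ind D with hR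
  have hZc : S17H_ind D + R = S17H_cyc Pz := add_tsub_cancel_of_le hle
  set E : Pl →₀ ℕ := Finsupp.erase M.O R with hEdef
  have hER : E + Finsupp.single M.O (R M.O) = R := Finsupp.erase_add_single M.O R
  have hdeg : S17NO_deg E ≤ 2 * d1 := by
    have h1 : S17NO_deg (S17H_cyc Pz) = k := S17HU_deg_cyc Pz
    rw [← hZc, S17NO_deg_add, S17MP_deg_ind, hDc, ← hER, S17NO_deg_add, S17NO_deg_single] at h1
    have hk := M.hk
    omega
  refine ⟨Pz, E, hFact, fun i => S17HU_ev_ne_zero M _, ⟨?_, ?_, hdeg⟩, ?_, ?_⟩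
  · intro σ P
    rw [hEdef, Finsupp.erase_apply, Finsupp.erase_apply]
    simp only [S17HU_act_eq_O M σ P]
    split_ifs with hP
    · rfl
    · rw [hR, Finsupp.tsub_apply, Finsupp.tsub_apply, hinv' σ P, S17MP_ind_inv M hD.1 σ P]
  · rw [hEdef, Finsupp.erase_same]
  · have h1 : M.cl (S17H_cyc Pz) = M.cl (S17H_ind D) + M.cl E := by
      rw [← hZc, M.cl_add, ← hER, M.cl_add, S17HU_cl_single_O, add_zero]
    rw [hcl0] at h1
    exact eq_neg_of_add_eq_zero_right h1.symm
  · have h1 : S17NO_H M.ev (S17H_cyc Pz) =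
        S17NO_H M.ev (S17H_ind D) + (S17NO_H M.ev E +
          S17NO_H M.ev (Finsupp.single M.O (R M.O))) := by
      rw [← S17NO_H_add, hER, ← S17NO_H_add, hZc]
    rw [S17HU_H_cyc, S17HU_H_ind] at h1
    have h2 := S17NO_H_nonneg M.ev (Finsupp.single M.O (R M.O))
    have h3 : S17DI_H M.hk' D = ∑ P ∈ D, S17AH_h (M.ev P) := rfl
    rw [h3, h1]
    linarith

/-- **GLUE 3 (C6 HUM)**: the hypothesis `hum` for a model, from (A) and (UU). -/
theorem S17HU_glue (M : S17H_Model Ω J Pl ι k g d1) (hA : S17H_StmtA M.X)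
    (hUU : S17H_StmtUU M.X (2 * d1)) : S17H_GlueHum M := by
  have hk := M.hk
  have hd1 := M.hd1
  have hcard := M.hcard
  have hinj : ∀ P Q, P ≠ M.O → Q ≠ M.O → M.ev P = M.ev Q → P = Q := by
    intro P Q _ _ h
    by_contra hne
    apply M.ev_inj P Q hne
    rw [h]
    exact S17H_wedge_self _
  obtain ⟨C_U, hCU⟩ := S17HU_main M.X M.O M.act M.ev M.cl (fun D => M.cl (S17H_ind D)) M.Good
    M.lam M.hk' (fun _ _ => rfl) (fun _ => rfl) (2 * d1) g (by omega) (by omega) (by omega)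
    (by omega) hUU hA M.ev_mem M.ev_act hinj
    (fun D hD => ⟨hD.2.2, fun σ P hP => (hD.1 σ P).mpr hP⟩)
    (fun D hD hDc P hPinj hPD => M.indep (2 * d1) P (by omega) hPinj (fun i h => by
      apply hD.2.2
      rw [← h, ← hPD]
      exact Finset.mem_image_of_mem P (Finset.mem_univ i)))
    (fun D hD hDc c hc hcD => S17HU_dict M D hD hDc c hc hcD)
  refine ⟨C_U, fun D hD hDc => ?_⟩
  obtain ⟨HE, h1, h2⟩ := hCU D hD hDc
  refine ⟨HE, h1, ?_⟩
  have e : (k : ℝ) = ((4 * d1 : ℕ) : ℝ) := by rw [hk]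
  rw [e] at h2
  exact h2

end glue

end Fermat.Agent.S17
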