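import Fermat.Agent.S17.UAbs1

/-!
# TRACK 8 (S17), heights pillar, package UABS (helper8), part 2: step (i) and the assembly

* `S17UA_factor`: for `x i ∈ V(I)` pairwise non-proportional and `⟨M_J, x i⟩ = 0`, the polynomial
  `P(s, X) = 𝒞(Σ_J s_J M_J, X)` factors as `(∏ i, ⟨X, x i⟩) · R` with `R` homogeneous of degree
  `k - d` in `X` (by (H1) and DIVL).
* `S17UA_main`: `S17UA_StmtP1 → S17UA_StmtP2 → S17UA_StmtLow → S17H_StmtU X d ν`.
-/

set_option autoImplicit false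
set_option linter.unusedSectionVars false
set_option linter.style.haveILetI false

open MvPolynomial

namespace Fermat.Agent.S17

section weights

/-- the weight on `α ⊕ β` which is `0` on the left and `1` on the right variables -/
def S17UA_wR (α β : Type*) : α ⊕ β → ℕ := Sum.elim (fun _ => 0) (fun _ => 1)

theorem S17UA_weight_wR {α β : Type*} [Fintype α] [Fintype β] (e : α ⊕ β →₀ ℕ) :
    Finsupp.weight (S17UA_wR α β) e = ∑ j, e (Sum.inr j) := by
  rw [Finsupp.weight_apply, Finsupp.sum_fintype _ _ (fun i => by simp), Fintype.sum_sum_type]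
  simp [S17UA_wR]

theorem S17UA_weight_one {α β : Type*} [Fintype α] [Fintype β] (e : α ⊕ β →₀ ℕ) :
    Finsupp.weight (1 : α ⊕ β → ℕ) e = ∑ i, e (Sum.inl i) + ∑ j, e (Sum.inr j) := by
  rw [Finsupp.weight_apply, Finsupp.sum_fintype _ _ (fun i => by simp), Fintype.sum_sum_type]
  simp

end weights

section hom

variable {Ω : Type} [Field Ω] {ι : Type} [Fintype ι] {ν : Type} [Fintype ν]

theorem S17UA_chow_wR {k : ℕ} (chow : MvPolynomial (ι ⊕ ι) Ω) (hchow : S17C_IsBihom chow k k) :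
    IsWeightedHomogeneous (S17UA_wR ι ι) chow k := by
  intro e he
  rw [S17UA_weight_wR]
  exact (hchow e he).2

theorem S17UA_chow_hom {k : ℕ} (chow : MvPolynomial (ι ⊕ ι) Ω) (hchow : S17C_IsBihom chow k k) :
    chow.IsHomogeneous (k + k) := by
  intro e he
  rw [S17UA_weight_one, (hchow e he).1, (hchow e he).2]

theorem S17UA_gM_wR (M : ν → ι → Ω) (v : ι ⊕ ι) :
    IsWeightedHomogeneous (S17UA_wR ν ι) (S17UA_gM M v) (S17UA_wR ι ι v) := by
  cases v with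
  | inl j =>
    refine IsWeightedHomogeneous.sum _ _ _ fun J _ => ?_
    have := (isWeightedHomogeneous_X Ω (S17UA_wR ν ι) (Sum.inl J)).C_mul (M J j)
    exact this
  | inr j => exact isWeightedHomogeneous_X Ω (S17UA_wR ν ι) (Sum.inr j)

theorem S17UA_gM_hom (M : ν → ι → Ω) (v : ι ⊕ ι) :
    IsWeightedHomogeneous (1 : ν ⊕ ι → ℕ) (S17UA_gM M v) ((1 : ι ⊕ ι → ℕ) v) := by
  cases v with
  | inl j =>
    refine IsWeightedHomogeneous.sum _ _ _ fun J _ => ?_
    exact (isWeightedHomogeneous_X Ω (1 : ν ⊕ ι → ℕ) (Sum.inl J)).C_mul (M J j)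
  | inr j => exact isWeightedHomogeneous_X Ω (1 : ν ⊕ ι → ℕ) (Sum.inr j)

theorem S17UA_P_wR {k : ℕ} (chow : MvPolynomial (ι ⊕ ι) Ω) (hchow : S17C_IsBihom chow k k)
    (M : ν → ι → Ω) : IsWeightedHomogeneous (S17UA_wR ν ι) (S17UA_P chow M) k :=
  S17UA_wh_aeval _ _ chow k (S17UA_chow_wR chow hchow) _ (S17UA_gM_wR M)

theorem S17UA_P_hom {k : ℕ} (chow : MvPolynomial (ι ⊕ ι) Ω) (hchow : S17C_IsBihom chow k k)
    (M : ν → ι → Ω) : (S17UA_P chow M).IsHomogeneous (k + k) :=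
  S17UA_wh_aeval _ _ chow (k + k) (S17UA_chow_hom chow hchow) _ (S17UA_gM_hom M)

theorem S17UA_theta_hom (y : ι → Ω) (v : ν ⊕ ι) :
    IsWeightedHomogeneous (1 : ν ⊕ ι × ι → ℕ) (S17UA_theta ν y v) ((1 : ν ⊕ ι → ℕ) v) := by
  cases v with
  | inl J => exact isWeightedHomogeneous_X Ω (1 : ν ⊕ ι × ι → ℕ) (Sum.inl J)
  | inr j =>
    refine IsWeightedHomogeneous.sum _ _ _ fun i _ => ?_
    have h1 : IsWeightedHomogeneous (1 : ν ⊕ ι × ι → ℕ)
        (X (Sum.inr (i, j)) - X (Sum.inr (j, i)) : MvPolynomial (ν ⊕ ι × ι) Ω) 1 :=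
      (isWeightedHomogeneous_X Ω _ _).sub (isWeightedHomogeneous_X Ω _ _)
    have h2 := h1.mul (isWeightedHomogeneous_C (1 : ν ⊕ ι × ι → ℕ) (y i))
    exact h2

theorem S17UA_G_hom {k : ℕ} (chow : MvPolynomial (ι ⊕ ι) Ω) (hchow : S17C_IsBihom chow k k)
    (M : ν → ι → Ω) (y : ι → Ω) : (S17UA_G chow M y).IsHomogeneous (k + k) :=
  S17UA_wh_aeval _ _ _ (k + k) (S17UA_P_hom chow hchow M) _ (S17UA_theta_hom y)

variable [CharZero Ω] [Algebra.IsAlgebraic ℚ Ω]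

theorem S17UA_lin_wR (x : ι → Ω) :
    IsWeightedHomogeneous (S17UA_wR ν ι) (S17GP_lin (Sum.elim (0 : ν → Ω) x)) 1 := by
  unfold S17GP_lin
  refine IsWeightedHomogeneous.sum _ _ _ fun v _ => ?_
  cases v with
  | inl J =>
    simp only [Sum.elim_inl, Pi.zero_apply, C_0, zero_mul]
    exact isWeightedHomogeneous_zero Ω _ _
  | inr j =>
    exact (isWeightedHomogeneous_X Ω (S17UA_wR ν ι) (Sum.inr j)).C_mul (x j)

theorem S17UA_theta_lin (y x : ι → Ω) :
    aeval (S17UA_theta ν y) (S17GP_lin (Sum.elim (0 : ν → Ω) x)) =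
      S17GP_lin (Sum.elim (0 : ν → Ω) (S17H_wedge y x)) := by
  apply MvPolynomial.funext
  intro z
  rw [S17UA_eval_theta, S17GP_eval_lin, S17GP_eval_lin, Fintype.sum_sum_type,
    Fintype.sum_sum_type]
  simp only [Sum.elim_inl, Sum.elim_inr, Pi.zero_apply, zero_mul, Finset.sum_const_zero,
    zero_add]
  have h1 := S17H_dot_hat (z ∘ Sum.inr) y x
  simp only [S17H_dot] at h1
  calc ∑ j, x j * S17H_hat (z ∘ Sum.inr) y j
      = ∑ j, S17H_hat (z ∘ Sum.inr) y j * x j := Finset.sum_congr rfl fun j _ => mul_comm _ _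
    _ = ∑ p : ι × ι, (z ∘ Sum.inr) p * S17H_wedge y x p := h1
    _ = ∑ p : ι × ι, S17H_wedge y x p * z (Sum.inr p) :=
        Finset.sum_congr rfl fun p _ => mul_comm _ _

theorem S17UA_h_elim (x : ι → Ω) : S17AH_h (Sum.elim (0 : ν → Ω) x) = S17AH_h x := by
  have := S17HA_h_pad (Sum.inr : ι → ν ⊕ ι) (Sum.elim (0 : ν → Ω) x) (by
    intro v hv
    cases v with
    | inl J => rfl
    | inr j => exact absurd ⟨j, rfl⟩ hv)
  rw [← this]
  rfl

theorem S17UA_h_elim' {κ : Type} [Fintype κ] (x : ν → Ω) :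
    S17AH_h (Sum.elim x (0 : κ → Ω)) = S17AH_h x := by
  have := S17HA_h_pad (Sum.inl : ν → ν ⊕ κ) (Sum.elim x (0 : κ → Ω)) (by
    intro v hv
    cases v with
    | inl J => exact absurd ⟨J, rfl⟩ hv
    | inr j => rfl)
  rw [← this]
  rfl

end hom

section stepI

variable {Ω : Type} [Field Ω] [CharZero Ω] [Algebra.IsAlgebraic ℚ Ω] {ι : Type} [Fintype ι]
  {ν : Type} [Fintype ν]

/-- the algebraic part of step (i): `P = (∏ i, ⟨X, x i⟩) · R` with `R` homogeneous of degree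
`k - d` in `X`. -/
theorem S17UA_factor {k : ℕ} (X : S17H_Curve Ω ι k) (d : ℕ) (x : Fin d → ι → Ω)
    (M : ν → ι → Ω) (hx : ∀ i, x i ∈ S17H_V X.I) (hx0 : ∀ i, x i ≠ 0)
    (hxx : ∀ i j, i ≠ j → S17H_wedge (x i) (x j) ≠ 0)
    (hM : ∀ J i, S17H_dot (M J) (x i) = 0) (hP : S17UA_P X.chow M ≠ 0) :
    d ≤ k ∧ ∃ R : MvPolynomial (ν ⊕ ι) Ω,
      S17UA_P X.chow M = (∏ i, S17GP_lin (Sum.elim (0 : ν → Ω) (x i))) * R ∧
      (∀ e ∈ R.support, ∑ j, e (Sum.inr j) = k - d) ∧ R.totalDegree ≤ k + k := by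
  classical
  -- divisibility
  have hdvd : (∏ i ∈ (Finset.univ : Finset (Fin d)), S17GP_lin (Sum.elim (0 : ν → Ω) (x i))) ∣
      S17UA_P X.chow M := by
    apply S17UA_prod_dvd
    · intro i _ j _ hij
      have h1 := hxx i j hij
      obtain ⟨p, hp⟩ := S17UA_exists_ne h1
      exact ⟨Sum.inr p.1, Sum.inr p.2, hp⟩
    · intro i _ h0
      apply hx0 i
      funext j
      exact congrFun h0 (Sum.inr j)
    · intro i _ z hz
      rw [S17UA_eval_P]
      rw [Fintype.sum_sum_type] at hz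
      simp only [Sum.elim_inl, Sum.elim_inr, Pi.zero_apply, zero_mul, Finset.sum_const_zero,
        zero_add] at hz
      apply X.h1 _ (x i) _ (hx i) (hx0 i)
      · rw [S17UA_dot_c]
        exact Finset.sum_eq_zero fun J _ => by rw [hM J i, mul_zero]
      · rw [S17H_dot, ← hz]
        exact Finset.sum_congr rfl fun j _ => mul_comm _ _
  obtain ⟨R₀, hR₀⟩ := hdvd
  -- homogeneity of the product of linear forms
  have hCh : IsWeightedHomogeneous (S17UA_wR ν ι)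
      (∏ i, S17GP_lin (Sum.elim (0 : ν → Ω) (x i))) d := by
    have := IsWeightedHomogeneous.prod (Finset.univ : Finset (Fin d))
      (fun i => S17GP_lin (Sum.elim (0 : ν → Ω) (x i))) (fun _ => 1) (w := S17UA_wR ν ι)
      (fun i _ => S17UA_lin_wR (x i))
    simpa using this
  have hPw := S17UA_P_wR X.chow X.chow_bihom M
  -- `d ≤ k`
  have hdk : d ≤ k := by
    obtain ⟨m, hm⟩ := MvPolynomial.ne_zero_iff.1 hP
    have h1 : Finsupp.weight (S17UA_wR ν ι) m = k := hPw hm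
    have h2 : m ∈ (S17UA_P X.chow M).support := mem_support_iff.2 hm
    rw [hR₀] at h2
    have h3 := MvPolynomial.support_mul _ _ h2
    obtain ⟨m₁, hm₁, m₂, hm₂, h4⟩ := Finset.mem_add.1 h3
    have h5 : Finsupp.weight (S17UA_wR ν ι) m₁ = d := hCh (mem_support_iff.1 hm₁)
    rw [← h4, map_add, h5] at h1
    omega
  have hP' : S17UA_P X.chow M = (∏ i, S17GP_lin (Sum.elim (0 : ν → Ω) (x i))) *
      weightedHomogeneousComponent (S17UA_wR ν ι) (k - d) R₀ := by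
    have h1 : S17UA_P X.chow M =
        weightedHomogeneousComponent (S17UA_wR ν ι) ((k - d) + d) (R₀ * ∏ i, S17GP_lin
          (Sum.elim (0 : ν → Ω) (x i))) := by
      rw [Nat.sub_add_cancel hdk, mul_comm, ← hR₀]
      exact (IsWeightedHomogeneous.weightedHomogeneousComponent_same hPw).symm
    rw [h1, S17C_whc_mul _ _ _ hCh, mul_comm]
  refine ⟨hdk, weightedHomogeneousComponent (S17UA_wR ν ι) (k - d) R₀, hP', ?_, ?_⟩
  · intro e he
    have := weightedHomogeneousComponent_isWeightedHomogeneous (w := S17UA_wR ν ι) (k - d) R₀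
      (mem_support_iff.1 he)
    rwa [S17UA_weight_wR] at this
  · have h2 : (S17UA_P X.chow M).totalDegree ≤ k + k :=
      (S17UA_P_hom X.chow X.chow_bihom M).totalDegree_le
    have hne : (∏ i, S17GP_lin (Sum.elim (0 : ν → Ω) (x i))) *
        weightedHomogeneousComponent (S17UA_wR ν ι) (k - d) R₀ ≠ 0 := by
      rw [← hP']; exact hP
    have h3 := MvPolynomial.totalDegree_mul_of_isDomain (left_ne_zero_of_mul hne)
      (right_ne_zero_of_mul hne)
    rw [hP', h3] at h2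
    omega

end stepI

section main

variable {Ω : Type} [Field Ω] [CharZero Ω] [Algebra.IsAlgebraic ℚ Ω] {ι : Type} [Fintype ι]
  {ν : Type} [Fintype ν]

/-- **(UABS) from its three analytic inputs.** -/
theorem S17UA_main {k : ℕ} (X : S17H_Curve Ω ι k) (d : ℕ)
    (hP1 : S17UA_StmtP1 X.chow k ν) (hP2 : S17UA_StmtP2 Ω ι ν (k - d) (k + k))
    (hLow : S17UA_StmtLow X ν) : S17H_StmtU X d ν := by
  classical
  obtain ⟨C₁, hC₁⟩ := hP1
  obtain ⟨C₂, hC₂⟩ := hP2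
  obtain ⟨C₃, hC₃⟩ := hLow
  -- constants of Gauss–Mahler
  obtain ⟨c₁, hc₁⟩ : ∃ c : ℝ, c = Real.log (S17GM_const (Fintype.card (ν ⊕ ι)) (k + k + 1)) :=
    ⟨_, rfl⟩
  obtain ⟨c₁', hc₁'⟩ : ∃ c : ℝ, c = Real.log (S17GM_const (Fintype.card (ν ⊕ ι)) (d + 1)) :=
    ⟨_, rfl⟩
  obtain ⟨c₂, hc₂⟩ : ∃ c : ℝ,
      c = Real.log (S17GM_const (Fintype.card (ν ⊕ ι × ι)) (k + k + 1)) := ⟨_, rfl⟩
  obtain ⟨c₂', hc₂'⟩ : ∃ c : ℝ,
      c = Real.log (S17GM_const (Fintype.card (ν ⊕ ι × ι)) (d + 1)) := ⟨_, rfl⟩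
  refine ⟨C₁ + C₂ + C₃ + 2 * c₁ + d * c₁' + 2 * c₂ + d * c₂', ?_⟩
  intro x y M hx hy hxx hxy hM hMy
  obtain ⟨hk, hG, hlow⟩ := hC₃ M y hy hMy
  have hx0 : ∀ i, x i ≠ 0 := by
    intro i h0
    apply hxy i
    rw [h0]
    funext p
    simp [S17H_wedge]
  have hP : S17UA_P X.chow M ≠ 0 := by
    intro h0
    apply hG
    unfold S17UA_G
    rw [h0, map_zero]
  obtain ⟨hdk, R, hPR, hRhom, hRdeg⟩ := S17UA_factor X d x M hx hx0 hxx hM hP
  -- step (i)
  have hCh0 : (∏ i, S17GP_lin (Sum.elim (0 : ν → Ω) (x i))) ≠ 0 := by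
    intro h0
    apply hP
    rw [hPR, h0, zero_mul]
  have hR0 : R ≠ 0 := by
    intro h0
    apply hP
    rw [hPR, h0, mul_zero]
  have hgm1 := S17GP_gm_var (k + k) _ R hCh0 hR0 (by
    rw [← hPR]
    exact (S17UA_P_hom X.chow X.chow_bihom M).totalDegree_le)
  rw [← hPR, ← hc₁] at hgm1
  have hlin1 := S17GP_prod_linear_var d (fun i => Sum.elim (0 : ν → Ω) (x i))
    (fun i h0 => hx0 i (by funext j; exact congrFun h0 (Sum.inr j)))
  have hh1 : ∑ i, S17AH_h (Sum.elim (0 : ν → Ω) (x i)) = ∑ i, S17AH_h (x i) :=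
    Finset.sum_congr rfl fun i _ => S17UA_h_elim (x i)
  rw [hh1, ← hc₁'] at hlin1
  have hp1 := hC₁ M
  -- step (ii)
  have hGeq : S17UA_G X.chow M y =
      (∏ i, S17GP_lin (Sum.elim (0 : ν → Ω) (S17H_wedge y (x i)))) *
        aeval (S17UA_theta ν y) R := by
    unfold S17UA_G
    rw [hPR, map_mul, map_prod]
    congr 1
    exact Finset.prod_congr rfl fun i _ => S17UA_theta_lin y (x i)
  have hB0 : (∏ i, S17GP_lin (Sum.elim (0 : ν → Ω) (S17H_wedge y (x i)))) ≠ 0 := by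
    intro h0
    apply hG
    rw [hGeq, h0, zero_mul]
  have hS0 : aeval (S17UA_theta ν y) R ≠ 0 := by
    intro h0
    apply hG
    rw [hGeq, h0, mul_zero]
  have hgm2 := S17GP_gm_var (k + k) _ _ hB0 hS0 (by
    rw [← hGeq]
    exact (S17UA_G_hom X.chow X.chow_bihom M y).totalDegree_le)
  rw [← hGeq, ← hc₂] at hgm2
  have hwy : ∀ i, S17H_wedge y (x i) ≠ 0 := by
    intro i h0
    apply hxy i
    rw [S17H_wedge_swap, h0, neg_zero]
  have hlin2 := S17GP_prod_linear_var d (fun i => Sum.elim (0 : ν → Ω) (S17H_wedge y (x i)))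
    (fun i h0 => hwy i (by funext j; exact congrFun h0 (Sum.inr j)))
  have hh2 : ∑ i, S17AH_h (Sum.elim (0 : ν → Ω) (S17H_wedge y (x i))) =
      ∑ i, S17H_w (x i) y := by
    refine Finset.sum_congr rfl fun i _ => ?_
    rw [S17UA_h_elim, S17H_w_comm]
    rfl
  rw [hh2, ← hc₂'] at hlin2
  have hp2 := hC₂ R y hRhom hRdeg
  -- combine
  have hkd : ((k - d : ℕ) : ℝ) = (k : ℝ) - d := by rw [Nat.cast_sub hdk]
  rw [hkd] at hp2
  have e1 := abs_le.1 hgm1
  have e2 := abs_le.1 hlin1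
  have e3 := abs_le.1 hgm2
  have e4 := abs_le.1 hlin2
  linarith [e1.1, e1.2, e2.1, e2.2, e3.1, e3.2, e4.1, e4.2, hp1, hp2, hlow]

end main

end Fermat.Agent.S17
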