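import Fermat.Agent.S17.UAbs1

/-!
# TRACK 8 (S17), heights pillar, package UABS, split-off (LOW) (helper9)

`S17UL_main (X : S17H_Curve Ω ι k) (ν) : S17UA_StmtLow X ν`
for `Ω` algebraically closed of characteristic `0`, algebraic over `ℚ`.

For `y ∈ V(I)` (H2) gives the factorisation `G = L · Ψ` in `Ω[s, T]` (`S17UL_G_eq`), where
`L = Σ_J ⟨M_J, y⟩ s_J` and `Ψ = Σ_γ ψ̃_γ(s) T^{mon γ}`, `ψ̃_γ(s) = psi_γ(Σ_J s_J M_J, y)`
homogeneous of degree `k − 1` in `s`.  The coefficient of `s_J^{k−1} T^{mon γ}` in `Ψ` is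
`psi_γ(M_J, y)` (`S17UL_coeff_Psi`), so `h(Ψ) ≥ h((psi_γ(M_J, y))_{γ,J}) ≥ (k−1)(h M + h y) − C`
by the block form of the bihomogeneous height machine; Gauss–Mahler gives
`h(G) ≥ h(L) + h(Ψ) − C`, and `h(L) = h((⟨M_J, y⟩)_J)`.
-/

set_option autoImplicit false
set_option linter.unusedSectionVars false
set_option linter.style.haveILetI false

open MvPolynomial

namespace Fermat.Agent.S17

section alg

variable {Ω : Type} [Field Ω] [CharZero Ω] [Algebra.IsAlgebraic ℚ Ω]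
  {ι : Type} [Fintype ι] {ν : Type} [Fintype ν]

/-- the substitution `c_j ↦ Σ_J M_J(j) s_J`, `x_j ↦ y_j`. -/
noncomputable def S17UL_sub (M : ν → ι → Ω) (y : ι → Ω) : ι ⊕ ι → MvPolynomial ν Ω :=
  Sum.elim (fun j => ∑ J, C (M J j) * X J) (fun j => C (y j))

/-- `ψ̃(s) = f(Σ_J s_J M_J, y)`. -/
noncomputable def S17UL_psi (M : ν → ι → Ω) (y : ι → Ω) (f : MvPolynomial (ι ⊕ ι) Ω) :
    MvPolynomial ν Ω :=
  aeval (S17UL_sub M y) f

theorem S17UL_eval_psi (M : ν → ι → Ω) (y : ι → Ω) (f : MvPolynomial (ι ⊕ ι) Ω) (s : ν → Ω) :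
    eval s (S17UL_psi M y f) = eval (Sum.elim (S17UA_c M s) y) f := by
  unfold S17UL_psi
  rw [S17UA_eval_aeval]
  congr 2
  funext v
  cases v with
  | inl j => simp [S17UL_sub, S17UA_c]
  | inr j => simp [S17UL_sub]

theorem S17UL_c_single [DecidableEq ν] (M : ν → ι → Ω) (J : ν) :
    S17UA_c M (Pi.single J (1 : Ω)) = M J := by
  funext j
  simp [S17UA_c, Pi.single_apply]

/-- `Ψ = Σ_γ ψ̃_γ(s) T^{mon γ}`. -/
noncomputable def S17UL_Psi {Γ : Type} [Fintype Γ] (psi : Γ → MvPolynomial (ι ⊕ ι) Ω)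
    (mon : Γ → (ι × ι →₀ ℕ)) (M : ν → ι → Ω) (y : ι → Ω) : MvPolynomial (ν ⊕ ι × ι) Ω :=
  ∑ γ, rename Sum.inl (S17UL_psi M y (psi γ)) * rename Sum.inr (monomial (mon γ) (1 : Ω))

/-- `L = Σ_J ⟨M_J, y⟩ s_J`. -/
noncomputable def S17UL_L (M : ν → ι → Ω) (y : ι → Ω) : MvPolynomial (ν ⊕ ι × ι) Ω :=
  S17GP_lin (Sum.elim (fun J => S17H_dot (M J) y) (0 : ι × ι → Ω))

theorem S17UL_eval_L (M : ν → ι → Ω) (y : ι → Ω) (z : ν ⊕ ι × ι → Ω) :
    eval z (S17UL_L M y) = S17H_dot (S17UA_c M (z ∘ Sum.inl)) y := by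
  rw [S17UA_dot_c]
  unfold S17UL_L
  rw [S17GP_eval_lin, Fintype.sum_sum_type]
  simp only [Sum.elim_inl, Sum.elim_inr, Pi.zero_apply, zero_mul, Finset.sum_const_zero,
    add_zero, Function.comp_apply]
  exact Finset.sum_congr rfl fun J _ => mul_comm _ _

theorem S17UL_eval_Psi {Γ : Type} [Fintype Γ] (psi : Γ → MvPolynomial (ι ⊕ ι) Ω)
    (mon : Γ → (ι × ι →₀ ℕ)) (M : ν → ι → Ω) (y : ι → Ω) (z : ν ⊕ ι × ι → Ω) :
    eval z (S17UL_Psi psi mon M y) =
      eval (z ∘ Sum.inr) (S17H_psiT psi mon (S17UA_c M (z ∘ Sum.inl)) y) := by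
  unfold S17UL_Psi S17H_psiT
  simp only [map_sum, map_mul, eval_C, eval_rename]
  exact Finset.sum_congr rfl fun γ _ => by rw [S17UL_eval_psi]

/-- the factorisation `G = L · Ψ` for `y` on the curve. -/
theorem S17UL_G_eq {k : ℕ} (X : S17H_Curve Ω ι k) (M : ν → ι → Ω) (y : ι → Ω)
    (hy : y ∈ S17H_V X.I) :
    letI := X.instΓ
    S17UA_G X.chow M y = S17UL_L M y * S17UL_Psi X.psi X.mon M y := by
  letI := X.instΓ
  apply MvPolynomial.funext
  intro z
  rw [S17UA_eval_G, map_mul, S17UL_eval_L, S17UL_eval_Psi]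
  exact X.h2 _ y _ hy

/-- `ψ̃` is homogeneous in `s` of the left degree of `f`. -/
theorem S17UL_psi_hom (M : ν → ι → Ω) (y : ι → Ω) {f : MvPolynomial (ι ⊕ ι) Ω} {a b : ℕ}
    (hf : S17C_IsBihom f a b) : (S17UL_psi M y f).IsHomogeneous a := by
  classical
  unfold S17UL_psi
  refine S17UA_wh_aeval (Sum.elim (fun _ => 1) (fun _ => 0) : ι ⊕ ι → ℕ) (1 : ν → ℕ) f a ?_
    (S17UL_sub M y) ?_
  · intro d hd
    obtain ⟨h1, -⟩ := hf d hd
    rw [Finsupp.weight_apply, Finsupp.sum_fintype _ _ (fun i => by simp), Fintype.sum_sum_type]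
    simpa using h1
  · intro v
    cases v with
    | inl j =>
      show IsHomogeneous (∑ J, C (M J j) * X J) 1
      exact IsHomogeneous.sum _ _ _ (fun J _ => isHomogeneous_C_mul_X _ _)
    | inr j => exact isHomogeneous_C _ _

/-- the coefficient of `s_J^n T^{mon γ}` in `Ψ` is `psi_γ(M_J, y)`. -/
theorem S17UL_coeff_Psi {Γ : Type} [Fintype Γ] [DecidableEq ν]
    (psi : Γ → MvPolynomial (ι ⊕ ι) Ω)
    (mon : Γ → (ι × ι →₀ ℕ)) (hmon : Function.Injective mon) (M : ν → ι → Ω) (y : ι → Ω)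
    (n : ℕ) (hpsi : ∀ γ, (S17UL_psi M y (psi γ)).IsHomogeneous n) (γ : Γ) (J : ν) :
    coeff (Finsupp.mapDomain Sum.inl (Finsupp.single J n) + Finsupp.mapDomain Sum.inr (mon γ))
      (S17UL_Psi psi mon M y) = eval (Sum.elim (M J) y) (psi γ) := by
  classical
  unfold S17UL_Psi
  rw [coeff_sum]
  simp only [S17UA_coeff_ext, coeff_monomial]
  rw [Finset.sum_eq_single γ]
  · rw [if_pos rfl, mul_one, S17UA_coeff_single _ n (hpsi γ), S17UL_eval_psi, S17UL_c_single]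
  · intro γ' _ hγ'
    rw [if_neg (fun h => hγ' (hmon h)), mul_zero]
  · intro h
    exact absurd (Finset.mem_univ γ) h

theorem S17UL_totalDegree_Psi {Γ : Type} [Fintype Γ] (psi : Γ → MvPolynomial (ι ⊕ ι) Ω)
    (mon : Γ → (ι × ι →₀ ℕ)) (M : ν → ι → Ω) (y : ι → Ω)
    (n : ℕ) (hpsi : ∀ γ, (S17UL_psi M y (psi γ)).IsHomogeneous n) :
    (S17UL_Psi psi mon M y).totalDegree ≤ n + ∑ γ, (mon γ).sum fun _ e => e := by
  classical
  unfold S17UL_Psi
  refine totalDegree_finsetSum_le fun γ _ => ?_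
  refine (totalDegree_mul _ _).trans ?_
  refine add_le_add ((totalDegree_rename_le _ _).trans (hpsi γ).totalDegree_le) ?_
  refine (totalDegree_rename_le _ _).trans ?_
  rw [totalDegree_monomial _ one_ne_zero]
  exact Finset.single_le_sum (f := fun γ => (mon γ).sum fun _ e => e)
    (fun _ _ => Nat.zero_le _) (Finset.mem_univ γ)

/-- `k ≥ 1` as soon as some `⟨c, y⟩ ≠ 0` with `y` on the curve. -/
theorem S17UL_k_pos {k : ℕ} (X : S17H_Curve Ω ι k) (c y : ι → Ω)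
    (hy : y ∈ S17H_V X.I) (hcy : S17H_dot c y ≠ 0) : 0 < k := by
  classical
  letI := X.instΓ
  by_contra hk
  have hk0 : k = 0 := by omega
  subst hk0
  have hconst : ∀ (f : MvPolynomial (ι ⊕ ι) Ω), S17C_IsBihom f 0 0 →
      ∀ z : ι ⊕ ι → Ω, eval z f = coeff 0 f := by
    intro f hf z
    have hf' : f = C (coeff 0 f) := by
      ext d
      rw [coeff_C]
      by_cases hd : 0 = d
      · rw [if_pos hd, hd]
      · rw [if_neg hd]
        by_contra h0
        obtain ⟨h1, h2⟩ := hf d h0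
        apply hd
        ext s
        rcases s with s | s
        · have := (Finset.sum_eq_zero_iff.1 h1) s (Finset.mem_univ s)
          simpa using this.symm
        · have := (Finset.sum_eq_zero_iff.1 h2) s (Finset.mem_univ s)
          simpa using this.symm
    rw [hf', eval_C, coeff_C, if_pos rfl]
  have hc1 := X.h2 c y 0 hy
  have hc2 := X.h2 ((2 : Ω) • c) y 0 hy
  have hpsi : S17H_psiT X.psi X.mon ((2 : Ω) • c) y = S17H_psiT X.psi X.mon c y := by
    unfold S17H_psiT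
    refine Finset.sum_congr rfl fun γ _ => ?_
    rw [hconst _ (by simpa using X.psi_bihom γ), hconst _ (by simpa using X.psi_bihom γ)]
  rw [hconst _ X.chow_bihom] at hc1 hc2
  rw [hpsi] at hc2
  have hdot : S17H_dot ((2 : Ω) • c) y = 2 * S17H_dot c y := by
    simp only [S17H_dot, Pi.smul_apply, smul_eq_mul, Finset.mul_sum]
    exact Finset.sum_congr rfl fun j _ => by ring
  rw [hdot, mul_assoc, ← hc1] at hc2
  have h0 : coeff 0 X.chow = 0 := by linear_combination -hc2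
  have hc : c ≠ 0 := by
    rintro rfl
    exact hcy (by simp [S17H_dot])
  obtain ⟨X₀, hX₀⟩ := X.chow_ne c hc
  exact hX₀ (by rw [hconst _ X.chow_bihom, h0])

end alg

section main

variable {Ω : Type} [Field Ω] [CharZero Ω] [Algebra.IsAlgebraic ℚ Ω] [IsAlgClosed Ω]
  {ι : Type} [Fintype ι] {k : ℕ}

/-- **(LOW)** of the U-step. -/
theorem S17UL_main (X : S17H_Curve Ω ι k) (ν : Type) [Fintype ν] : S17UA_StmtLow X ν := by
  classical
  letI := X.instΓ
  obtain ⟨C₁, hC₁⟩ := S17C_block (S17AH_api.{0} Ω) (Ω := Ω) (ν := ν) (k - 1) (k - 1) X.psi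
    X.psi_bihom X.I X.I_hom (by
      intro c x hc hx hxI
      obtain ⟨γ, hγ⟩ := X.ncz c x hc hx (fun f hf => by
        have := hxI f hf
        rwa [aeval_eq_eval] at this)
      exact ⟨γ, by rwa [aeval_eq_eval]⟩)
  refine ⟨C₁ + 2 * Real.log (S17GM_const (Fintype.card (ν ⊕ ι × ι))
    (1 + ((k - 1) + ∑ γ, (X.mon γ).sum fun _ e => e) + 1)), ?_⟩
  rintro M y hy ⟨J₀, hJ₀⟩
  have hk : 0 < k := S17UL_k_pos X (M J₀) y hy hJ₀
  have hMJ : M J₀ ≠ 0 := by
    intro h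
    exact hJ₀ (by simp [S17H_dot, h])
  have hy0 : y ≠ 0 := by
    rintro rfl
    exact hJ₀ (by simp [S17H_dot])
  have hG := S17UL_G_eq X M y hy
  have hL : S17UL_L M y ≠ 0 := by
    refine S17GP_lin_ne_zero (fun h => hJ₀ ?_)
    simpa using congrFun h (Sum.inl J₀)
  have hhom : ∀ γ, (S17UL_psi M y (X.psi γ)).IsHomogeneous (k - 1) :=
    fun γ => S17UL_psi_hom M y (X.psi_bihom γ)
  have hcoeff := S17UL_coeff_Psi X.psi X.mon X.mon_inj M y (k - 1) hhom
  obtain ⟨γ₀, hγ₀⟩ := X.ncz (M J₀) y hMJ hy0 hy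
  have hPsi : S17UL_Psi X.psi X.mon M y ≠ 0 := by
    intro h0
    apply hγ₀
    rw [← hcoeff γ₀ J₀, h0, coeff_zero]
  refine ⟨hk, ?_, ?_⟩
  · rw [hG]
    exact mul_ne_zero hL hPsi
  -- the block height machine
  have h1 := hC₁ M y ⟨J₀, hMJ⟩ hy0 hy
  -- a sub-family of the coefficients of `Ψ`
  have h2 : S17AH_h (fun a : X.Γ × ν => eval (Sum.elim (M a.2) y) (X.psi a.1)) ≤
      S17AG_hpoly (S17UL_Psi X.psi X.mon M y) := by
    let m : X.Γ × ν → (ν ⊕ ι × ι →₀ ℕ) := fun a =>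
      Finsupp.mapDomain Sum.inl (Finsupp.single a.2 (k - 1)) +
        Finsupp.mapDomain Sum.inr (X.mon a.1)
    let B : Finset (ν ⊕ ι × ι →₀ ℕ) :=
      (S17UL_Psi X.psi X.mon M y).support ∪ Finset.univ.image m
    have hmB : ∀ a, m a ∈ B := fun a =>
      Finset.mem_union_right _ (Finset.mem_image_of_mem m (Finset.mem_univ a))
    rw [S17HA_hpoly_eq (S17UL_Psi X.psi X.mon M y) B Finset.subset_union_left]
    have e : (fun a : X.Γ × ν => eval (Sum.elim (M a.2) y) (X.psi a.1)) =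
        (fun β : B => coeff β.1 (S17UL_Psi X.psi X.mon M y)) ∘
          (fun a => (⟨m a, hmB a⟩ : B)) := by
      funext a
      exact (hcoeff a.1 a.2).symm
    rw [e]
    exact S17AH_h_comp_le _ _
  -- the linear factor
  have h3 : S17AG_hpoly (S17UL_L M y) = S17AH_h (fun J => S17H_dot (M J) y) := by
    unfold S17UL_L S17GP_lin
    rw [S17GP_hpoly_linear]
    have := S17HA_h_pad (Sum.inl : ν → ν ⊕ ι × ι)
      (Sum.elim (fun J => S17H_dot (M J) y) (0 : ι × ι → Ω)) (by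
        rintro (j | p) hj
        · exact absurd ⟨j, rfl⟩ hj
        · rfl)
    rw [← this]
    rfl
  -- Gauss–Mahler
  have h4 := S17GP_gm_var (1 + ((k - 1) + ∑ γ, (X.mon γ).sum fun _ e => e))
    (S17UL_L M y) (S17UL_Psi X.psi X.mon M y) hL hPsi (by
      refine (totalDegree_mul _ _).trans (add_le_add ?_ ?_)
      · exact S17GP_totalDegree_lin_le _
      · exact S17UL_totalDegree_Psi X.psi X.mon M y (k - 1) hhom)
  rw [← hG, h3] at h4
  have h6 : (((k - 1 : ℕ) : ℝ)) = (k : ℝ) - 1 := by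
    rw [Nat.cast_sub hk, Nat.cast_one]
  rw [h6] at h1
  have h7 : (S17AH_api.{0} Ω).h (fun a : X.Γ × ν => eval (Sum.elim (M a.2) y) (X.psi a.1)) =
      S17AH_h (fun a : X.Γ × ν => eval (Sum.elim (M a.2) y) (X.psi a.1)) := rfl
  have h8 : (S17AH_api.{0} Ω).h (fun a : ν × ι => M a.1 a.2) =
      S17AH_h (fun a : ν × ι => M a.1 a.2) := rfl
  have h9 : (S17AH_api.{0} Ω).h y = S17AH_h y := rfl
  rw [h7, h8, h9] at h1
  have e1 := abs_le.1 h1
  have e4 := abs_le.1 h4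
  nlinarith [e1.1, e1.2, e4.1, e4.2, h2]

end main

end Fermat.Agent.S17
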