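import Fermat.Agent.S17.UAbsParam

/-!
# TRACK 8 (S17), heights pillar, package UABS, part PARAM 2 (helper17)

* `S17UP_univ2_le` : the height of the specialisation of a universal polynomial whose
  coefficients are bihomogeneous of bidegree `(N₁, N₂)` in two blocks of parameters is
  `≤ C + N₁ · h(m₁) + N₂ · h(m₂)`.
* `S17UP_P2`       : **(PARAM 2)** `S17UA_StmtP2 Ω ι ν n D`:
  `h(R(s, T̂ y)) ≤ h(R) + n · h(y) + C` for `R` homogeneous of degree `n` in `X`, of total degree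
  `≤ D`.
-/

set_option autoImplicit false
set_option linter.unusedSectionVars false
set_option linter.style.haveILetI false
set_option linter.unusedVariables false

open MvPolynomial

namespace Fermat.Agent.S17

section univ2

variable {Ω : Type} [Field Ω] [CharZero Ω] [Algebra.IsAlgebraic ℚ Ω]

/-- the height of a specialisation of a universal polynomial with bihomogeneous coefficients. -/
theorem S17UP_univ2_le {π₁ π₂ τ : Type} [Fintype π₁] [Fintype π₂] (N₁ N₂ : ℕ)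
    (U : MvPolynomial τ (MvPolynomial (π₁ ⊕ π₂) Ω))
    (hU : S17UP_HC (S17C_bw (S17C_b2 π₁ π₂)) (S17C_N2 N₁ N₂) U) :
    ∃ C : ℝ, ∀ (m₁ : π₁ → Ω) (m₂ : π₂ → Ω),
      S17AG_hpoly (map (eval (Sum.elim m₁ m₂)) U) ≤
        C + N₁ * S17AH_h m₁ + N₂ * S17AH_h m₂ := by
  classical
  let p : ↥U.support → MvPolynomial (π₁ ⊕ π₂) Ω := fun β => coeff β.1 U
  have hp : ∀ β, IsWeightedHomogeneous (S17C_bw (S17C_b2 π₁ π₂)) (p β) (S17C_N2 N₁ N₂) :=
    fun β => hU β.1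
  obtain ⟨C, hC⟩ := S17C_machine_le (S17AH_api.{0} Ω) (S17C_b2 π₁ π₂) (S17C_N2 N₁ N₂) p hp
  refine ⟨C, fun m₁ m₂ => ?_⟩
  have h1 := S17HA_hpoly_eq (map (eval (Sum.elim m₁ m₂)) U) U.support (support_map_subset _ _)
  rw [h1]
  have h2 : (fun β : ↥U.support => coeff β.1 (map (eval (Sum.elim m₁ m₂)) U)) =
      fun β => (p β).eval (Sum.elim m₁ m₂) := by
    funext β
    rw [coeff_map]
  rw [h2]
  have h3 := hC (Sum.elim m₁ m₂)
  rw [S17C_sum_ulift_bool] at h3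
  simp only [S17AH_api_h] at h3
  -- the two blocks
  have hb1 : S17AH_h (fun s : {s : π₁ ⊕ π₂ // S17C_b2 π₁ π₂ s = ⟨false⟩} =>
      (Sum.elim m₁ m₂) s.1) = S17AH_h m₁ := by
    have := S17C_h_comp_bij (S17AH_api.{0} Ω)
      (fun i : π₁ => (⟨Sum.inl i, rfl⟩ : {s : π₁ ⊕ π₂ // S17C_b2 π₁ π₂ s = ⟨false⟩}))
      ⟨fun i j h => Sum.inl_injective (congrArg Subtype.val h), by
        rintro ⟨s | s, hs⟩
        · exact ⟨s, rfl⟩
        · simp [S17C_b2] at hs⟩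
      (fun s : {s : π₁ ⊕ π₂ // S17C_b2 π₁ π₂ s = ⟨false⟩} => (Sum.elim m₁ m₂) s.1)
    simp only [S17AH_api_h] at this
    rw [← this]
    rfl
  have hb2 : S17AH_h (fun s : {s : π₁ ⊕ π₂ // S17C_b2 π₁ π₂ s = ⟨true⟩} =>
      (Sum.elim m₁ m₂) s.1) = S17AH_h m₂ := by
    have := S17C_h_comp_bij (S17AH_api.{0} Ω)
      (fun i : π₂ => (⟨Sum.inr i, rfl⟩ : {s : π₁ ⊕ π₂ // S17C_b2 π₁ π₂ s = ⟨true⟩}))
      ⟨fun i j h => Sum.inr_injective (congrArg Subtype.val h), by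
        rintro ⟨s | s, hs⟩
        · simp [S17C_b2] at hs
        · exact ⟨s, rfl⟩⟩
      (fun s : {s : π₁ ⊕ π₂ // S17C_b2 π₁ π₂ s = ⟨true⟩} => (Sum.elim m₁ m₂) s.1)
    simp only [S17AH_api_h] at this
    rw [← this]
    rfl
  rw [hb1, hb2] at h3
  have e1 : S17C_N2 N₁ N₂ (⟨false⟩ : ULift.{0} Bool) = N₁ := rfl
  have e2 : S17C_N2 N₁ N₂ (⟨true⟩ : ULift.{0} Bool) = N₂ := rfl
  rw [e1, e2] at h3
  linarith

end univ2

/-! ### (PARAM 2) -/

section p2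

variable {Ω : Type} [Field Ω] [CharZero Ω] {ι : Type} [Fintype ι] {ν : Type} [Fintype ν]

/-- the exponent vectors with entries `≤ D` and `X`-degree `n`. -/
abbrev S17UP_E (ν ι : Type) [Fintype ι] (n D : ℕ) : Type :=
  {f : ν ⊕ ι → Fin (D + 1) // ∑ j, ((f (Sum.inr j) : Fin (D + 1)) : ℕ) = n}

noncomputable instance S17UP_E_fintype (n D : ℕ) : Fintype (S17UP_E ν ι n D) :=
  Fintype.ofFinite _

/-- the exponent vector as a `Finsupp`. -/
noncomputable def S17UP_toF {n D : ℕ} (e : S17UP_E ν ι n D) : ν ⊕ ι →₀ ℕ :=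
  Finsupp.equivFunOnFinite.symm fun x => ((e.1 x : Fin (D + 1)) : ℕ)

theorem S17UP_toF_apply {n D : ℕ} (e : S17UP_E ν ι n D) (x : ν ⊕ ι) :
    S17UP_toF e x = ((e.1 x : Fin (D + 1)) : ℕ) := rfl

theorem S17UP_toF_injective (n D : ℕ) :
    Function.Injective (S17UP_toF : S17UP_E ν ι n D → (ν ⊕ ι →₀ ℕ)) := by
  intro e e' h
  apply Subtype.ext
  funext x
  apply Fin.ext
  have := DFunLike.congr_fun h x
  rwa [S17UP_toF_apply, S17UP_toF_apply] at this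

/-- every exponent of `R` comes from `E`. -/
theorem S17UP_exists_toF {n D : ℕ} (R : MvPolynomial (ν ⊕ ι) Ω)
    (hn : ∀ e ∈ R.support, ∑ j, e (Sum.inr j) = n) (hD : R.totalDegree ≤ D)
    (d : ν ⊕ ι →₀ ℕ) (hd : d ∈ R.support) :
    ∃ e : S17UP_E ν ι n D, S17UP_toF e = d := by
  have hle : ∀ x, d x ≤ D := by
    intro x
    have h1 : (d.sum fun _ a => a) ≤ R.totalDegree := le_totalDegree hd
    have h2 : d x ≤ d.sum fun _ a => a := by
      rw [Finsupp.sum_fintype _ _ (fun _ => rfl)]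
      exact Finset.single_le_sum (f := fun x => d x) (fun _ _ => Nat.zero_le _)
        (Finset.mem_univ x)
    omega
  refine ⟨⟨fun x => ⟨d x, Nat.lt_succ_of_le (hle x)⟩, hn d hd⟩, ?_⟩
  ext x
  rfl

/-- the universal substitution `s_J ↦ s_J`, `X_j ↦ Σ_i (T (i,j) − T (j,i)) y_i`
(`y` = parameters of the second block). -/
noncomputable def S17UP_th (Ω : Type) [Field Ω] (ι ν : Type) [Fintype ι] (n D : ℕ) :
    ν ⊕ ι → MvPolynomial (ν ⊕ ι × ι) (MvPolynomial (S17UP_E ν ι n D ⊕ ι) Ω) :=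
  Sum.elim (fun J => X (Sum.inl J))
    (fun j => ∑ i, (X (Sum.inr (i, j)) - X (Sum.inr (j, i))) * C (X (Sum.inr i)))

/-- the universal polynomial of (PARAM 2). -/
noncomputable def S17UP_U2 (Ω : Type) [Field Ω] (ι ν : Type) [Fintype ι] [Fintype ν]
    (n D : ℕ) : MvPolynomial (ν ⊕ ι × ι) (MvPolynomial (S17UP_E ν ι n D ⊕ ι) Ω) :=
  ∑ e : S17UP_E ν ι n D, C (X (Sum.inl e)) * ∏ x, (S17UP_th Ω ι ν n D x) ^ (S17UP_toF e x)

theorem S17UP_map_th (n D : ℕ) (ρ : S17UP_E ν ι n D → Ω) (y : ι → Ω) (x : ν ⊕ ι) :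
    map (eval (Sum.elim ρ y)) (S17UP_th Ω ι ν n D x) = S17UA_theta ν y x := by
  rcases x with J | j
  · simp [S17UP_th, S17UA_theta]
  · simp [S17UP_th, S17UA_theta]

/-- the specialisation of the universal polynomial is `R(s, T̂ y)`. -/
theorem S17UP_map_U2 {n D : ℕ} (R : MvPolynomial (ν ⊕ ι) Ω)
    (hn : ∀ e ∈ R.support, ∑ j, e (Sum.inr j) = n) (hD : R.totalDegree ≤ D) (y : ι → Ω) :
    map (eval (Sum.elim (fun e : S17UP_E ν ι n D => coeff (S17UP_toF e) R) y))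
      (S17UP_U2 Ω ι ν n D) = aeval (S17UA_theta ν y) R := by
  classical
  unfold S17UP_U2
  rw [aeval_def, eval₂_eq', map_sum]
  have h1 : ∀ e : S17UP_E ν ι n D,
      map (eval (Sum.elim (fun e : S17UP_E ν ι n D => coeff (S17UP_toF e) R) y))
        (C (X (Sum.inl e)) * ∏ x, (S17UP_th Ω ι ν n D x) ^ (S17UP_toF e x)) =
      (fun d : ν ⊕ ι →₀ ℕ => algebraMap Ω (MvPolynomial (ν ⊕ ι × ι) Ω) (coeff d R) *
        ∏ x, (S17UA_theta ν y x) ^ (d x)) (S17UP_toF e) := by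
    intro e
    rw [map_mul, map_prod, map_C, eval_X]
    simp only [Sum.elim_inl, map_pow, S17UP_map_th]
    rfl
  rw [Finset.sum_congr rfl fun e _ => h1 e]
  rw [← Finset.sum_image (s := Finset.univ) (g := S17UP_toF)
    (f := fun d : ν ⊕ ι →₀ ℕ => algebraMap Ω (MvPolynomial (ν ⊕ ι × ι) Ω) (coeff d R) *
        ∏ x, (S17UA_theta ν y x) ^ (d x))
    (fun e _ e' _ h => S17UP_toF_injective n D h)]
  symm
  refine Finset.sum_subset ?_ ?_
  · intro d hd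
    obtain ⟨e, he⟩ := S17UP_exists_toF R hn hD d hd
    exact Finset.mem_image.2 ⟨e, Finset.mem_univ _, he⟩
  · intro d _ hd
    rw [notMem_support_iff.1 hd, map_zero, zero_mul]

theorem S17UP_hc_th (n D : ℕ) (x : ν ⊕ ι) :
    S17UP_HC (S17C_bw (S17C_b2 (S17UP_E ν ι n D) ι))
      (Sum.elim (fun _ : ν => (0 : ULift.{0} Bool → ℕ))
        (fun _ : ι => S17C_N2 0 1) x)
      (S17UP_th Ω ι ν n D x) := by
  rcases x with J | j
  · exact S17UP_hc_X _ _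
  · show S17UP_HC _ (S17C_N2 0 1)
      (∑ i, (X (Sum.inr (i, j)) - X (Sum.inr (j, i))) * C (X (Sum.inr i)))
    refine S17UP_hc_sum _ _ fun i _ => ?_
    have hX : IsWeightedHomogeneous (S17C_bw (S17C_b2 (S17UP_E ν ι n D) ι))
        (X (Sum.inr i) : MvPolynomial (S17UP_E ν ι n D ⊕ ι) Ω) (S17C_N2 0 1) := by
      have h := isWeightedHomogeneous_X (R := Ω) (S17C_bw (S17C_b2 (S17UP_E ν ι n D) ι))
        (Sum.inr i)
      have e : S17C_bw (S17C_b2 (S17UP_E ν ι n D) ι) (Sum.inr i) = S17C_N2 0 1 := by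
        funext a
        rcases a with ⟨_ | _⟩
        · simp [S17C_bw, S17C_b2, S17C_N2]
        · simp [S17C_bw, S17C_b2, S17C_N2]
      rwa [e] at h
    have h := S17UP_hc_mul (S17UP_hc_sub
      (S17UP_hc_X (R := Ω) (S17C_bw (S17C_b2 (S17UP_E ν ι n D) ι))
        (Sum.inr (i, j) : ν ⊕ ι × ι))
      (S17UP_hc_X (R := Ω) (S17C_bw (S17C_b2 (S17UP_E ν ι n D) ι))
        (Sum.inr (j, i) : ν ⊕ ι × ι)))
      (S17UP_hc_C (τ := ν ⊕ ι × ι) _ hX)
    rwa [zero_add] at h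

theorem S17UP_hc_U2 (n D : ℕ) :
    S17UP_HC (S17C_bw (S17C_b2 (S17UP_E ν ι n D) ι)) (S17C_N2 1 n)
      (S17UP_U2 Ω ι ν n D) := by
  classical
  unfold S17UP_U2
  refine S17UP_hc_sum _ _ fun e _ => ?_
  have h1 : S17UP_HC (S17C_bw (S17C_b2 (S17UP_E ν ι n D) ι))
      (∑ x ∈ Finset.univ, S17UP_toF e x • Sum.elim (fun _ : ν => (0 : ULift.{0} Bool → ℕ))
        (fun _ : ι => S17C_N2 0 1) x)
      (∏ x ∈ Finset.univ, (S17UP_th Ω ι ν n D x) ^ (S17UP_toF e x)) :=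
    S17UP_hc_prod _ _ _ fun x _ => S17UP_hc_pow (S17UP_hc_th n D x) (S17UP_toF e x)
  have hX : IsWeightedHomogeneous (S17C_bw (S17C_b2 (S17UP_E ν ι n D) ι))
      (X (Sum.inl e) : MvPolynomial (S17UP_E ν ι n D ⊕ ι) Ω) (S17C_N2 1 0) := by
    have h := isWeightedHomogeneous_X (R := Ω) (S17C_bw (S17C_b2 (S17UP_E ν ι n D) ι))
      (Sum.inl e)
    have e' : S17C_bw (S17C_b2 (S17UP_E ν ι n D) ι) (Sum.inl e) = S17C_N2 1 0 := by
      funext a
      rcases a with ⟨_ | _⟩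
      · simp [S17C_bw, S17C_b2, S17C_N2]
      · simp [S17C_bw, S17C_b2, S17C_N2]
    rwa [e'] at h
  have h2 := S17UP_hc_mul (S17UP_hc_C (τ := ν ⊕ ι × ι) _ hX) h1
  have h3 : S17C_N2 1 0 + ∑ x ∈ Finset.univ, S17UP_toF e x •
      Sum.elim (fun _ : ν => (0 : ULift.{0} Bool → ℕ)) (fun _ : ι => S17C_N2 0 1) x =
      S17C_N2 1 n := by
    rw [Fintype.sum_sum_type]
    simp only [Sum.elim_inl, Sum.elim_inr, smul_zero, Finset.sum_const_zero, zero_add]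
    funext a
    rw [Pi.add_apply, Finset.sum_apply]
    have hsum : ∑ j, S17UP_toF e (Sum.inr j) = n := e.2
    rcases a with ⟨_ | _⟩
    · simp [S17C_N2]
    · simp only [S17C_N2, Pi.smul_apply, smul_eq_mul, cond_true, mul_one, zero_add]
      exact hsum
  rwa [h3] at h2

variable [Algebra.IsAlgebraic ℚ Ω]

/-- **(PARAM 2)**: `h(R(s, T̂ y)) ≤ h(R) + n · h(y) + C`. -/
theorem S17UP_P2 (Ω : Type) [Field Ω] [CharZero Ω] [Algebra.IsAlgebraic ℚ Ω] (ι : Type)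
    [Fintype ι] (ν : Type) [Fintype ν] (n D : ℕ) : S17UA_StmtP2 Ω ι ν n D := by
  obtain ⟨C, hC⟩ := S17UP_univ2_le 1 n (S17UP_U2 Ω ι ν n D) (S17UP_hc_U2 n D)
  refine ⟨C, fun R y hn hD => ?_⟩
  have h := hC (fun e : S17UP_E ν ι n D => coeff (S17UP_toF e) R) y
  rw [S17UP_map_U2 R hn hD y] at h
  have h2 : S17AH_h (fun e : S17UP_E ν ι n D => coeff (S17UP_toF e) R) = S17AG_hpoly R :=
    S17GP_hpoly_eq R S17UP_toF fun d hd => S17UP_exists_toF R hn hD d hd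
  rw [h2] at h
  push_cast at h
  linarith

end p2

end Fermat.Agent.S17
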