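import Fermat.Agent.S17.AbsAPI
import Fermat.Agent.S17.AbsGM

/-!
# TRACK 8 (S17), heights pillar: padding lemmas for the absolute height (helper26)

* `S17HA_logHeight_pad`, `S17HA_h_pad` : `h (y ∘ f) = h y` if `y` vanishes outside the range of `f`
  (zero entries and repetitions do not change the height).
* `S17HA_hpoly_eq` : `S17AG_hpoly f = S17AH_h (fun β : B => coeff β f)` for every finite set
  `B ⊇ f.support`.
* `S17HA_hpoly_C_mul` : `S17AG_hpoly (C κ * f) = S17AG_hpoly f` for `κ ≠ 0`.
-/

set_option autoImplicit false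
set_option linter.style.haveILetI false

open NumberField Height Module IntermediateField MvPolynomial

namespace Fermat.Agent.S17

theorem S17HA_logHeight_pad {K : Type*} [Field K] [AdmissibleAbsValues K] {ι ι' : Type*}
    [Finite ι] [Finite ι'] (f : ι → ι') (y : ι' → K) (hy : ∀ j, j ∉ Set.range f → y j = 0) :
    logHeight (y ∘ f) = logHeight y := by
  classical
  refine le_antisymm (logHeight_comp_le f y) ?_
  let g : ι' → ι ⊕ PUnit.{1} := fun j =>
    if h : ∃ i, f i = j then Sum.inl h.choose else Sum.inr PUnit.unit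
  have h1 : y = (Sum.elim (y ∘ f) (0 : PUnit.{1} → K)) ∘ g := by
    funext j
    simp only [Function.comp_apply, g]
    split_ifs with h
    · simp only [Sum.elim_inl, Function.comp_apply, h.choose_spec]
    · simp only [Sum.elim_inr, Pi.zero_apply]
      exact hy j (fun ⟨i, hi⟩ => h ⟨i, hi⟩)
  calc logHeight y = logHeight ((Sum.elim (y ∘ f) (0 : PUnit.{1} → K)) ∘ g) := by rw [← h1]
    _ ≤ logHeight (Sum.elim (y ∘ f) (0 : PUnit.{1} → K)) := logHeight_comp_le _ _
    _ = logHeight (y ∘ f) := logHeight_sumElim_zero_eq _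

section abs

variable {Ω : Type*} [Field Ω] [CharZero Ω] [Algebra.IsAlgebraic ℚ Ω]

/-- zero entries and repetitions do not change the absolute height -/
theorem S17HA_h_pad {ι ι' : Type*} [Finite ι] [Finite ι'] (f : ι → ι') (y : ι' → Ω)
    (hy : ∀ j, j ∉ Set.range f → y j = 0) : S17AH_h (y ∘ f) = S17AH_h y := by
  have h1 : S17AH_h (y ∘ f) =
      S17AH_h (fun i => algebraMap (S17AH_field y) Ω ((S17AH_lift y ∘ f) i)) := by
    congr 1
  rw [h1, S17AH_h_eq, S17AH_h_def]
  congr 1
  apply S17HA_logHeight_pad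
  intro j hj
  exact Subtype.ext (hy j hj)

/-- the height of a polynomial is the height of its coefficient vector over any finite set of
exponents containing the support -/
theorem S17HA_hpoly_eq {σ : Type*} (f : MvPolynomial σ Ω) (B : Finset (σ →₀ ℕ))
    (hB : f.support ⊆ B) : S17AG_hpoly f = S17AH_h (fun β : B => coeff β.1 f) := by
  have := S17HA_h_pad (fun m : f.support => (⟨m.1, hB m.2⟩ : B)) (fun β : B => coeff β.1 f)
    (fun β hβ => by
      by_contra h
      exact hβ ⟨⟨β.1, MvPolynomial.mem_support_iff.2 h⟩, rfl⟩)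
  rw [← this]
  rfl

theorem S17HA_hpoly_C_mul {σ : Type*} (f : MvPolynomial σ Ω) {κ : Ω} (hκ : κ ≠ 0) :
    S17AG_hpoly (C κ * f) = S17AG_hpoly f := by
  have hsub : (C κ * f).support ⊆ f.support := by
    intro m hm
    rw [MvPolynomial.mem_support_iff, coeff_C_mul] at hm
    exact MvPolynomial.mem_support_iff.2 (right_ne_zero_of_mul hm)
  rw [S17HA_hpoly_eq (C κ * f) f.support hsub, S17HA_hpoly_eq f f.support (subset_refl _)]
  have : (fun β : f.support => coeff β.1 (C κ * f)) = κ • (fun β : f.support => coeff β.1 f) := by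
    funext β
    simp [coeff_C_mul]
  rw [this, S17AH_h_smul _ hκ]

end abs

end Fermat.Agent.S17
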