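import Fermat.Agent.S17.HtDefs
import Fermat.Agent.S17.GMVar
import Fermat.Agent.S17.HtPad
import Fermat.Agent.S17.AbsAPI

/-!
# TRACK 8 (S17), heights pillar, package UU-abs (helper26)

`S17UU_main (X : S17H_Curve Ω ι k) (hU : ∀ d ≥ 1, S17H_StmtU X d (Fin (d+1) → ι)) (d) :
  S17H_StmtUU X d`:
the wedge bound `Σ_{i<j} λ(x i, x j) ≤ Σ_i h(x i) − h(W x) + C` by induction on the number of
points from the abstract (U-step).

Linear algebra: for `x' : Fin d → ι → Ω` and `f : Fin (d+1) → ι` the circuit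
`u_f = Σ_j (−1)^(d+j) W(x')(f ∖ j) ε_{f j}` satisfies `⟨u_f, z⟩ = W(x', z)(f)` (Laplace expansion
along the last row); its coordinates are `0` or `±` coordinates of `W(x')`.
-/

set_option autoImplicit false
set_option linter.style.haveILetI false

open MvPolynomial

namespace Fermat.Agent.S17

section linalg

variable {Ω : Type} [Field Ω] {ι : Type}

/-- the circuit vector `u_f` -/
noncomputable def S17UU_u [DecidableEq ι] {d : ℕ} (x' : Fin d → ι → Ω) (f : Fin (d + 1) → ι) :
    ι → Ω :=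
  fun a => ∑ j : Fin (d + 1),
    if f j = a then (-1) ^ (d + (j : ℕ)) * S17H_W x' (f ∘ j.succAbove) else 0

/-- Laplace expansion of `W(x', z)(f)` along the last row -/
theorem S17UU_W_snoc {d : ℕ} (x' : Fin d → ι → Ω) (z : ι → Ω) (f : Fin (d + 1) → ι) :
    S17H_W (Fin.snoc (α := fun _ => ι → Ω) x' z) f =
      ∑ j : Fin (d + 1), (-1) ^ (d + (j : ℕ)) * z (f j) * S17H_W x' (f ∘ j.succAbove) := by
  unfold S17H_W
  rw [Matrix.det_succ_row _ (Fin.last d)]
  refine Finset.sum_congr rfl fun j _ => ?_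
  congr 1
  · simp [Fin.snoc_last]
  · congr 1
    ext i j'
    simp [Matrix.submatrix_apply, Fin.succAbove_last, Fin.snoc_castSucc]

theorem S17UU_dot_u [Fintype ι] [DecidableEq ι] {d : ℕ} (x' : Fin d → ι → Ω) (z : ι → Ω)
    (f : Fin (d + 1) → ι) :
    S17H_dot (S17UU_u x' f) z = S17H_W (Fin.snoc (α := fun _ => ι → Ω) x' z) f := by
  rw [S17UU_W_snoc]
  unfold S17H_dot S17UU_u
  simp only [Finset.sum_mul]
  rw [Finset.sum_comm]
  refine Finset.sum_congr rfl fun j _ => ?_
  rw [Finset.sum_eq_single (f j)]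
  · rw [if_pos rfl]; ring
  · intro a _ ha
    rw [if_neg (fun h => ha h.symm), zero_mul]
  · intro h; exact absurd (Finset.mem_univ _) h

/-- the circuits are orthogonal to the rows `x' i` -/
theorem S17UU_dot_u_row [Fintype ι] [DecidableEq ι] {d : ℕ} (x' : Fin d → ι → Ω) (i : Fin d)
    (f : Fin (d + 1) → ι) : S17H_dot (S17UU_u x' f) (x' i) = 0 := by
  rw [S17UU_dot_u]
  unfold S17H_W
  refine Matrix.det_zero_of_row_eq (i := i.castSucc) (j := Fin.last d)
    (Fin.castSucc_lt_last i).ne ?_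
  funext j
  simp [Fin.snoc_castSucc, Fin.snoc_last]

theorem S17UU_dot_single [Fintype ι] [DecidableEq ι] (u : ι → Ω) (a : ι) :
    S17H_dot u (Pi.single a 1) = u a := by
  unfold S17H_dot
  rw [Finset.sum_eq_single a]
  · simp
  · intro b _ hb
    simp [hb]
  · intro h; exact absurd (Finset.mem_univ _) h

/-- for a non-injective `f` the circuit vanishes -/
theorem S17UU_u_of_not_inj [Fintype ι] [DecidableEq ι] {d : ℕ} (x' : Fin d → ι → Ω)
    (f : Fin (d + 1) → ι) (hf : ¬ Function.Injective f) : S17UU_u x' f = 0 := by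
  funext a
  rw [← S17UU_dot_single (S17UU_u x' f) a, S17UU_dot_u]
  unfold Function.Injective at hf
  push Not at hf
  obtain ⟨j₁, j₂, hj, hne⟩ := hf
  unfold S17H_W
  refine Matrix.det_zero_of_column_eq hne ?_
  intro i
  simp [hj]

/-- every coordinate of a circuit is `0` or `±` a coordinate of `W(x')` -/
theorem S17UU_u_entry [Fintype ι] [DecidableEq ι] {d : ℕ} (x' : Fin d → ι → Ω)
    (f : Fin (d + 1) → ι) (a : ι) :
    S17UU_u x' f a = 0 ∨ ∃ g : Fin d → ι, S17UU_u x' f a = S17H_W x' g ∨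
      S17UU_u x' f a = -S17H_W x' g := by
  by_cases hf : Function.Injective f
  · by_cases ha : ∃ j, f j = a
    · obtain ⟨j₀, hj₀⟩ := ha
      right
      refine ⟨f ∘ j₀.succAbove, ?_⟩
      have h1 : S17UU_u x' f a = (-1) ^ (d + (j₀ : ℕ)) * S17H_W x' (f ∘ j₀.succAbove) := by
        unfold S17UU_u
        rw [Finset.sum_eq_single j₀]
        · rw [if_pos hj₀]
        · intro j _ hj
          rw [if_neg (fun h => hj (hf (h.trans hj₀.symm)))]
        · intro h; exact absurd (Finset.mem_univ _) h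
      rw [h1]
      rcases neg_one_pow_eq_or Ω (d + (j₀ : ℕ)) with h | h
      · left; rw [h, one_mul]
      · right; rw [h, neg_one_mul]
    · left
      unfold S17UU_u
      refine Finset.sum_eq_zero fun j _ => ?_
      rw [if_neg (fun h => ha ⟨j, h⟩)]
  · left
    rw [S17UU_u_of_not_inj x' f hf]
    rfl

/-- vanishing of the `2 × 2` minors: proportionality -/
theorem S17UU_wedge_eq_zero {u v : ι → Ω} (h : S17H_wedge u v = 0) :
    u = 0 ∨ ∃ t : Ω, v = t • u := by
  by_cases hu : u = 0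
  · exact Or.inl hu
  · right
    obtain ⟨p, hp⟩ := Function.ne_iff.1 hu
    refine ⟨v p / u p, ?_⟩
    funext q
    have := congrFun h (p, q)
    simp only [S17H_wedge, Pi.zero_apply] at this
    simp only [Pi.smul_apply, smul_eq_mul]
    simp only [Pi.zero_apply] at hp
    field_simp
    linear_combination this

/-- if two rows are proportional, all maximal minors vanish -/
theorem S17UU_W_eq_zero_of_wedge {n : ℕ} (x : Fin n → ι → Ω) {i j : Fin n} (hij : i ≠ j)
    (h : S17H_wedge (x i) (x j) = 0) : S17H_W x = 0 := by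
  funext f
  unfold S17H_W
  rcases S17UU_wedge_eq_zero h with h0 | ⟨t, ht⟩
  · refine Matrix.det_eq_zero_of_row_eq_zero i ?_
    intro j'
    simp [h0]
  · have h1 : (Matrix.of fun i' j' => x i' (f j')) =
        Matrix.updateRow (Matrix.of fun i' j' => x i' (f j')) j
          (t • (fun j' => x i (f j'))) := by
      ext i' j'
      by_cases hi' : i' = j
      · subst hi'
        simp [Matrix.updateRow_self, ht]
      · simp [Matrix.updateRow_ne hi']
    rw [h1, Matrix.det_updateRow_smul]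
    have h2 : (Matrix.updateRow (Matrix.of fun i' j' => x i' (f j')) j
        (fun j' => x i (f j'))).det = 0 := by
      refine Matrix.det_zero_of_row_eq hij ?_
      funext j'
      simp [Matrix.updateRow_self, Matrix.updateRow_ne hij]
    rw [h2, mul_zero]
    rfl

/-- `W(x', y) ≠ 0 ⇒ W(x') ≠ 0` -/
theorem S17UU_W_front_ne_zero {d : ℕ} (x : Fin (d + 1) → ι → Ω) (h : S17H_W x ≠ 0) :
    S17H_W (fun i : Fin d => x i.castSucc) ≠ 0 := by
  intro h0
  apply h
  funext f
  have hx : x = Fin.snoc (α := fun _ => ι → Ω) (fun i : Fin d => x i.castSucc)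
      (x (Fin.last d)) := by
    funext i
    refine Fin.lastCases ?_ (fun i' => ?_) i
    · simp [Fin.snoc_last]
    · simp [Fin.snoc_castSucc]
  rw [hx, S17UU_W_snoc, h0]
  simp

end linalg

section height

variable {Ω : Type} [Field Ω] [CharZero Ω] [Algebra.IsAlgebraic ℚ Ω] {ι : Type}

/-- if every entry of `M` is `0` or `±` an entry of `W'`, then `h(M) ≤ h(W')` -/
theorem S17UU_h_le_of_entries {A B : Type*} [Finite A] [Finite B] (M : A → Ω) (W' : B → Ω)
    (h : ∀ α, M α = 0 ∨ ∃ β, M α = W' β ∨ M α = -W' β) : S17AH_h M ≤ S17AH_h W' := by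
  classical
  obtain ⟨Wp, hWp⟩ : ∃ Wp : Option B → Ω, Wp = fun o => o.elim 0 W' := ⟨_, rfl⟩
  have hm : ∀ α, ∃ o : Option B, M α = Wp o ∨ M α = -Wp o := by
    intro α
    rcases h α with h0 | ⟨β, hβ⟩
    · exact ⟨none, Or.inl (by rw [h0, hWp]; rfl)⟩
    · exact ⟨some β, by rw [hWp]; exact hβ⟩
  choose m hm using hm
  have h1 : S17AH_h M = S17AH_h (Wp ∘ m) := S17GP_h_sign (Wp ∘ m) M hm
  have h2 : S17AH_h (Wp ∘ m) ≤ S17AH_h Wp := S17AH_h_comp_le m Wp
  have h3 : S17AH_h (Wp ∘ (some : B → Option B)) = S17AH_h Wp :=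
    S17HA_h_pad some Wp (by
      intro j hj
      cases j with
      | none => rw [hWp]; rfl
      | some b => exact absurd ⟨b, rfl⟩ hj)
  have h4 : Wp ∘ (some : B → Option B) = W' := by
    funext b
    rw [hWp]
    rfl
  rw [h4] at h3
  rw [h1, h3]
  exact h2

variable [Fintype ι] {k : ℕ}

theorem S17UU_base0 (X : S17H_Curve Ω ι k) : S17H_StmtUU X 0 := by
  refine ⟨0, fun x _ _ => ?_⟩
  have h1 : S17H_W x = 1 := by
    funext f
    unfold S17H_W
    exact Matrix.det_isEmpty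
  have h2 : S17AH_h (1 : (Fin 0 → ι) → Ω) = 0 := S17C_h_one (S17AH_api.{0} Ω)
  rw [h1, h2]
  simp

theorem S17UU_base1 (X : S17H_Curve Ω ι k) : S17H_StmtUU X 1 := by
  refine ⟨0, fun x _ _ => ?_⟩
  have h1 : S17H_W x = (x 0) ∘ (fun f : Fin 1 → ι => f 0) := by
    funext f
    unfold S17H_W
    rw [Matrix.det_fin_one]
    rfl
  have h2 : S17AH_h ((x 0) ∘ (fun f : Fin 1 → ι => f 0)) = S17AH_h (x 0) :=
    S17GP_h_reindex (x 0) (fun f : Fin 1 → ι => f 0) (fun i _ => ⟨fun _ => i, rfl⟩)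
  rw [h1, h2]
  simp

/-- the induction step: (U-step) for `d` points and (U) for `d` points give (U) for `d + 1`
points. -/
theorem S17UU_step (X : S17H_Curve Ω ι k) (d : ℕ)
    (hU : S17H_StmtU X d (Fin (d + 1) → ι)) (hUU : S17H_StmtUU X d) :
    S17H_StmtUU X (d + 1) := by
  classical
  obtain ⟨C₁, hC₁⟩ := hUU
  obtain ⟨C₂, hC₂⟩ := hU
  refine ⟨C₁ + C₂, fun x hx hW => ?_⟩
  obtain ⟨x', hx'⟩ : ∃ x' : Fin d → ι → Ω, x' = fun i => x i.castSucc := ⟨_, rfl⟩
  obtain ⟨y, hy⟩ : ∃ y : ι → Ω, y = x (Fin.last d) := ⟨_, rfl⟩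
  have hsnoc : Fin.snoc (α := fun _ => ι → Ω) x' y = x := by
    funext i
    refine Fin.lastCases ?_ (fun i' => ?_) i
    · simp [Fin.snoc_last, hy]
    · simp [Fin.snoc_castSucc, hx']
  have hW' : S17H_W x' ≠ 0 := by
    rw [hx']
    exact S17UU_W_front_ne_zero x hW
  have hxV : ∀ i, x' i ∈ S17H_V X.I := fun i => by rw [hx']; exact hx _
  have hyV : y ∈ S17H_V X.I := by rw [hy]; exact hx _
  have hIH := hC₁ x' hxV hW'
  have hw1 : ∀ i j, i ≠ j → S17H_wedge (x' i) (x' j) ≠ 0 := by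
    intro i j hij h0
    apply hW
    rw [hx'] at h0
    exact S17UU_W_eq_zero_of_wedge x (fun h => hij (Fin.castSucc_injective _ h)) h0
  have hw2 : ∀ i, S17H_wedge (x' i) y ≠ 0 := by
    intro i h0
    apply hW
    rw [hx', hy] at h0
    exact S17UU_W_eq_zero_of_wedge x (Fin.castSucc_lt_last i).ne h0
  have hdotM : (fun f : Fin (d + 1) → ι => S17H_dot (S17UU_u x' f) y) = S17H_W x := by
    funext f
    rw [S17UU_dot_u, hsnoc]
  have hex : ∃ f : Fin (d + 1) → ι, S17H_dot (S17UU_u x' f) y ≠ 0 := by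
    obtain ⟨f, hf⟩ := Function.ne_iff.1 hW
    exact ⟨f, by rw [congrFun hdotM f]; exact hf⟩
  have hUstep := hC₂ x' y (fun f => S17UU_u x' f) hxV hyV hw1 hw2
    (fun f i => S17UU_dot_u_row x' i f) hex
  rw [hdotM] at hUstep
  have hM : S17AH_h (fun a : (Fin (d + 1) → ι) × ι => S17UU_u x' a.1 a.2) ≤
      S17AH_h (S17H_W x') :=
    S17UU_h_le_of_entries _ _ (fun a => S17UU_u_entry x' a.1 a.2)
  -- splitting the sums
  have hs1 : ∑ i : Fin (d + 1), S17AH_h (x i) = ∑ i : Fin d, S17AH_h (x' i) + S17AH_h y := by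
    rw [Fin.sum_univ_castSucc, hx', hy]
  have hs2 : ∑ i : Fin (d + 1), ∑ j : Fin (d + 1),
      (if i < j then S17H_lam (x i) (x j) else 0) =
      ∑ i : Fin d, ∑ j : Fin d, (if i < j then S17H_lam (x' i) (x' j) else 0) +
        ∑ i : Fin d, S17H_lam (x' i) y := by
    rw [Fin.sum_univ_castSucc]
    have hlast : ∑ j : Fin (d + 1),
        (if Fin.last d < j then S17H_lam (x (Fin.last d)) (x j) else 0) = 0 := by
      refine Finset.sum_eq_zero fun j _ => ?_
      rw [if_neg (not_lt.2 (Fin.le_last j))]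
    rw [hlast, add_zero, ← Finset.sum_add_distrib]
    refine Finset.sum_congr rfl fun i _ => ?_
    rw [Fin.sum_univ_castSucc, if_pos (Fin.castSucc_lt_last i), hx', hy]
    congr 1
  have hs3 : ∑ i : Fin d, S17H_lam (x' i) y =
      ∑ i : Fin d, S17AH_h (x' i) + d * S17AH_h y - ∑ i : Fin d, S17H_w (x' i) y := by
    simp only [S17H_lam, Finset.sum_sub_distrib, Finset.sum_add_distrib, Finset.sum_const,
      Finset.card_univ, Fintype.card_fin, nsmul_eq_mul]
  rw [hs1, hs2, hs3]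
  linarith

/-- **(U)**, the wedge bound for `d` points of the curve, from the abstract (U-step). -/
theorem S17UU_main (X : S17H_Curve Ω ι k)
    (hU : ∀ d, 1 ≤ d → S17H_StmtU X d (Fin (d + 1) → ι)) : ∀ d, S17H_StmtUU X d
  | 0 => S17UU_base0 X
  | 1 => S17UU_base1 X
  | (d + 2) => S17UU_step X (d + 1) (hU (d + 1) (by omega)) (S17UU_main X hU (d + 1))

end height

end Fermat.Agent.S17
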