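import Fermat.Agent.S18
import Fermat.Agent.S37.Main

/-!
# TRACK 8 (S17), package UNR: inertia at `ℓ ∤ nN` acts trivially on the `n`-division points

* `S17U_inertia`: for `ℓ ∤ N`, `A | ℓ` and `τ` in the inertia group of `A`, the reduction map
  `reductionModL A N` does not see `τ` (this is `S37_red_inertia` with the reduction inputs
  supplied by `RI_main`; NO divisibility hypothesis is needed);
* `S17U_unram`: if moreover `ℓ ∤ n` and `τ` fixes `n • y`, then `τ` fixes `y` (S18);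
* `S17U_unram_fixed`: the same for `n • y` in `J(ℚ)`;
* `S17U_cocycle_inertia`: the Kummer cocycle `σ ↦ σ • y - y` vanishes on inertia.
-/

set_option autoImplicit false

open ModularCurve

namespace Fermat.Agent.S17

/-- **UNR 1**: inertia at `ℓ ∤ N` acts trivially after reduction mod `ℓ`. -/
theorem S17U_inertia (N : ℕ) [NeZero N] {ℓ : ℕ} (hℓ : ℓ.Prime) (hℓN : ¬ ℓ ∣ N)
    (A : ValuationSubring (AlgebraicClosure ℚ)) (hA : A.LiesOverPrime ℓ)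
    (τ : AlgebraicClosure ℚ ≃ₐ[ℚ] AlgebraicClosure ℚ) (hτ : τ ∈ A.inertiaSubgroupIn ℚ)
    (z : JZero N) : reductionModL A N (τ • z) = reductionModL A N z :=
  Fermat.Agent.S37.S37_red_inertia (Fermat.Agent.S18.RI_main N A hℓ hA hℓN) τ hτ z

/-- **UNR 2**: for `ℓ ∤ nN`, an element of the inertia group at `ℓ` which fixes `n • y` fixes
`y`. -/
theorem S17U_unram (N : ℕ) [NeZero N] {ℓ : ℕ} (hℓ : ℓ.Prime) (hℓN : ¬ ℓ ∣ N)
    (A : ValuationSubring (AlgebraicClosure ℚ)) (hA : A.LiesOverPrime ℓ)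
    (τ : AlgebraicClosure ℚ ≃ₐ[ℚ] AlgebraicClosure ℚ) (hτ : τ ∈ A.inertiaSubgroupIn ℚ)
    (n : ℕ) (hn : ¬ ℓ ∣ n) (y : JZero N) (hy : τ • (n • y) = n • y) : τ • y = y := by
  have hF : Fact ℓ.Prime := ⟨hℓ⟩
  have h := Fermat.Agent.S18.RI_main N A hℓ hA hℓN
  have hz : τ • y - y = 0 := by
    refine Fermat.Agent.S18.result N hℓN A hA h n hn (τ • y - y) ?_ ?_
    · have e : n • (τ • y) = τ • (n • y) :=
        (map_nsmul (DistribSMul.toAddMonoidHom (JZero N) τ) n y).symm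
      rw [nsmul_sub, e, hy, sub_self]
    · rw [map_sub, S17U_inertia N hℓ hℓN A hA τ hτ y, sub_self]
  exact sub_eq_zero.1 hz

/-- **UNR 2'**: the same when `n • y` is a rational point. -/
theorem S17U_unram_fixed (N : ℕ) [NeZero N] {ℓ : ℕ} (hℓ : ℓ.Prime) (hℓN : ¬ ℓ ∣ N)
    (A : ValuationSubring (AlgebraicClosure ℚ)) (hA : A.LiesOverPrime ℓ)
    (τ : AlgebraicClosure ℚ ≃ₐ[ℚ] AlgebraicClosure ℚ) (hτ : τ ∈ A.inertiaSubgroupIn ℚ)
    (n : ℕ) (hn : ¬ ℓ ∣ n) (y : JZero N)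
    (hy : ∀ g : AlgebraicClosure ℚ ≃ₐ[ℚ] AlgebraicClosure ℚ, g • (n • y) = n • y) :
    τ • y = y :=
  S17U_unram N hℓ hℓN A hA τ hτ n hn y (hy τ)

/-- **UNR 3**: the Kummer cocycle of `y` vanishes on the inertia groups at `ℓ ∤ nN`. -/
theorem S17U_cocycle_inertia (N : ℕ) [NeZero N] {ℓ : ℕ} (hℓ : ℓ.Prime) (hℓN : ¬ ℓ ∣ N)
    (A : ValuationSubring (AlgebraicClosure ℚ)) (hA : A.LiesOverPrime ℓ)
    (τ : AlgebraicClosure ℚ ≃ₐ[ℚ] AlgebraicClosure ℚ) (hτ : τ ∈ A.inertiaSubgroupIn ℚ)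
    (n : ℕ) (hn : ¬ ℓ ∣ n) (y : JZero N)
    (hy : ∀ g : AlgebraicClosure ℚ ≃ₐ[ℚ] AlgebraicClosure ℚ, g • (n • y) = n • y) :
    τ • y - y = 0 :=
  sub_eq_zero.2 (S17U_unram_fixed N hℓ hℓN A hA τ hτ n hn y hy)

/-- the exceptional set of UNR for `n = 2` is finite. -/
theorem S17U_finite (N : ℕ) [NeZero N] : {ℓ : ℕ | ℓ ∣ 2 * N}.Finite :=
  Set.Finite.subset (Set.finite_Iic (2 * N)) fun _ hℓ =>
    Nat.le_of_dvd (Nat.mul_pos (by norm_num) (Nat.pos_of_ne_zero (NeZero.ne N))) hℓ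

/-- **UNR**, in the exact shape of `S17W_UnrStmt N {ℓ | ℓ ∣ 2 * N}` (unfolded). -/
theorem S17U_stmt (N : ℕ) [NeZero N] :
    ∀ ℓ : ℕ, ℓ.Prime → ℓ ∉ {ℓ : ℕ | ℓ ∣ 2 * N} →
      ∀ A : ValuationSubring (AlgebraicClosure ℚ), A.LiesOverPrime ℓ →
        ∀ τ ∈ A.inertiaSubgroupIn ℚ, ∀ y : JZero N, τ • (2 • y) = 2 • y → τ • y = y := by
  intro ℓ hℓ hℓS A hA τ hτ y hy
  have hℓN : ¬ ℓ ∣ N := fun hd => hℓS (Dvd.dvd.mul_left hd 2)
  have hℓ2 : ¬ ℓ ∣ 2 := fun hd => hℓS (Dvd.dvd.mul_right hd N)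
  exact S17U_unram N hℓ hℓN A hA τ hτ 2 hℓ2 y hy

end Fermat.Agent.S17
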