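import Fermat.Agent.S17.WMW
import Fermat.Agent.S17.Unram
import Fermat.Agent.S17.DivMain

/-!
# TRACK 8 "MW" (S17), PILLAR 2 complete (helper17): weak Mordell–Weil for `J₀(N)`

`S17W_main N : S17_WMW N`, i.e. `J(ℚ)/2J(ℚ)` is finite, from
* `S17W_main_of` (ASM-W: STAB + KUM + KA),
* `S17U_stmt` (UNR, helper4),
* `S17DIV_main` (PILLAR 1, helper15 et al.).
-/

set_option autoImplicit false

namespace Fermat.Agent.S17

/-- **PILLAR 2 (WMW)**: `J₀(N)(ℚ)/2J₀(N)(ℚ)` is finite. -/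
theorem S17W_main (N : ℕ) [NeZero N] : S17_WMW N :=
  S17W_main_of N (S17U_finite N) (S17U_stmt N) (S17DIV_main N).div2

end Fermat.Agent.S17
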