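import Fermat.Agent.S17.ModelPF
import Fermat.Agent.S17.GlueDeca
import Fermat.Agent.S17.GlueDisc
import Fermat.Agent.S17.HeightA
import Fermat.Agent.S17.DecAbs
import Fermat.Agent.S17.DecPrime
import Fermat.Agent.S17.DiscVec
import Fermat.Agent.S17.UUAbs
import Fermat.Agent.S17.UAbs2
import Fermat.Agent.S17.UAbsLow
import Fermat.Agent.S17.UAbsParam2
import Fermat.Agent.S17.HumGlue
import Fermat.Agent.S17.HtAsm
import Fermat.Agent.S17.HtInst
import Fermat.Agent.S17.WMW2
import Fermat.Agent.S17.GenusZero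

/-!
# TRACK 8 "MW" (S17): the FINAL ASSEMBLY against the still open pieces (helper17, captain)

Everything that is on main is plugged in; the ONLY hypothesis left is the concrete model `M_N`:

* `S17F_heights_abs` : a model `M : S17H_Model Ω J Pl ι k g d1`  ⇒  the height data on `M.JQ`
  [(A) = `S17A_main`, (DEC) = `S17DB_main`, (DEC λ) = `S17DB_lam`, (DEC′) = `S17DP_main`,
  (DISC) = `S17DV_main` from `M.tan_ok`, `M.tanS`, (U) = `S17UA_main` from `S17UP_P1`,
  `S17UP_P2`, `S17UL_main`, (UU) = `S17UU_main`, GLUE1 = `S17G1_main`, GLUE2 = `S17G2_main`,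
  GLUE3 = `S17HU_glue`, FINAL = `S17MP_final`];
* `S17F_heights_of` : for `J = JZero N` and `M.JQ = S17_JQ N` this is `Nonempty (S17_Height2 N)`;
* `S17F_result_of`  : S17 from a concrete model for every `N` of positive genus.
-/

set_option autoImplicit false
set_option linter.unusedSectionVars false
set_option linter.unusedVariables false

open ModularCurve AlgebraicCurve

namespace Fermat.Agent.S17

open Fermat.Agent.Lib

section abs

variable {Ω : Type} [Field Ω] [CharZero Ω] [Algebra.IsAlgebraic ℚ Ω] [IsAlgClosed Ω]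
  {J : Type} [AddCommGroup J] {Pl : Type} [DecidableEq Pl] {ι : Type} [Fintype ι] {k g d1 : ℕ}

/-- (DISC) for the curve of a model, from (DEC′). -/
theorem S17F_disc (M : S17H_Model Ω J Pl ι k g d1) :
    S17H_StmtDISC M.X g M.TanC := by
  have hk : 1 ≤ k := by
    have h1 := M.hk
    have h2 := M.hd1
    omega
  refine S17DV_main M.X g M.TanC hk ?_ (S17A_main M.X) (S17DP_main M.X) M.tanS
  rintro x x' ⟨Q, hQ, rfl, rfl⟩
  exact M.tan_ok Q hQ

/-- (U) for every `d`. -/
theorem S17F_U (X : S17H_Curve Ω ι k) (d : ℕ) : S17H_StmtU X d (Fin (d + 1) → ι) :=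
  S17UA_main X d (S17UP_P1 X.chow k k X.chow_bihom (Fin (d + 1) → ι))
    (S17UP_P2 Ω ι (Fin (d + 1) → ι) (k - d) (k + k)) (S17UL_main X (Fin (d + 1) → ι))

/-- (UU) for every `d`. -/
theorem S17F_UU (X : S17H_Curve Ω ι k) (d : ℕ) : S17H_StmtUU X d :=
  S17UU_main X (fun d _ => S17F_U X d) d

/-- GLUE3 for a model. -/
theorem S17F_hum (M : S17H_Model Ω J Pl ι k g d1) : S17H_GlueHum M :=
  S17HU_glue M (S17A_main M.X) (S17F_UU M.X (2 * d1))

/-- the heights pillar on `M.JQ` from a model. -/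
theorem S17F_heights_abs (M : S17H_Model Ω J Pl ι k g d1) :
    ∃ (h q : ↥M.JQ → ℝ) (C A' B' : ℝ), Northcott h ∧
      (∀ x y, |q (x + y) + q (x - y) - 2 * (q x + q y)| ≤ C) ∧ 0 < A' ∧
      (∀ x, h x ≤ A' * q x + B') ∧ ∀ x, 0 ≤ h x :=
  S17MP_final M (S17G1_main M (S17A_main M.X) (S17DB_lam M.X (S17A_main M.X)))
    (S17G2_main M (S17A_main M.X) (S17F_disc M)) (S17F_hum M)

end abs

section concrete

variable (N : ℕ) [NeZero N] {Pl : Type} [DecidableEq Pl] {ι : Type} [Fintype ι] {k g d1 : ℕ}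

/-- the heights pillar for `J₀(N)` from a model with `M.JQ = J₀(N)(ℚ)`. -/
theorem S17F_heights_of (M : S17H_Model (AlgebraicClosure ℚ) (JZero N) Pl ι k g d1)
    (hJQ : M.JQ = S17_JQ N) : Nonempty (S17_Height2 N) := by
  haveI : Algebra.IsAlgebraic ℚ (AlgebraicClosure ℚ) := S17AH_isAlgebraic_Qbar
  obtain ⟨h, q, C, A', B', hN, hpar, hA', hdom, hpos⟩ := S17F_heights_abs M
  -- transport along `M.JQ = S17_JQ N`
  let φ : ↥(S17_JQ N) → ↥M.JQ := fun x => ⟨(x : JZero N), by rw [hJQ]; exact x.2⟩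
  have hφadd : ∀ x y, φ (x + y) = φ x + φ y := fun x y => Subtype.ext rfl
  have hφsub : ∀ x y, φ (x - y) = φ x - φ y := fun x y => Subtype.ext rfl
  have hφinj : Function.Injective φ := fun x y hxy =>
    Subtype.ext (congrArg (fun z : ↥M.JQ => (z : JZero N)) hxy)
  refine ⟨{ h := fun x => h (φ x), q := fun x => q (φ x), northcott := ⟨fun B => ?_⟩, C := C,
            par := fun x y => ?_, A := A', B := B', hA := hA', dom := fun x => hdom (φ x),
            hpos := fun x => hpos (φ x) }⟩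
  · exact Set.Finite.preimage (hφinj.injOn) (hN.finite_le B)
  · rw [hφadd, hφsub]
    exact hpar (φ x) (φ y)

/-- **S17 from a concrete model** (positive genus), and from G0 (genus `0`). -/
theorem S17F_result_of
    (hM : RR_genus (AlgebraicClosure ℚ) ↥(modularFunctionFieldBar N) ≠ 0 →
      ∃ (ι : Type) (_ : Fintype ι) (k g d1 : ℕ)
        (M : S17H_Model (AlgebraicClosure ℚ) (JZero N) (S17HI_Pl N) ι k g d1),
        M.JQ = S17_JQ N) :
    AddGroup.FG ↥(FixedPoints.addSubgroup ((AlgebraicClosure ℚ) ≃ₐ[ℚ] (AlgebraicClosure ℚ))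
      (JZero N)) := by
  by_cases hg : RR_genus (AlgebraicClosure ℚ) ↥(modularFunctionFieldBar N) = 0
  · exact S17G0_fg N hg
  · obtain ⟨ι, hι, k, g, d1, M, hJQ⟩ := hM hg
    exact S17HM_of N (S17W_main N) (S17F_heights_of N M hJQ)

end concrete

end Fermat.Agent.S17
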