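import Fermat.Agent.S17.NGLast

/-!
# TRACK 8 (S17), heights: general position (field `indep` of `S17H_Model`) (helper11)

`F / K` a function field with `RR_Hyp`, `K` infinite, `g = RR_genus K F`, `O` a place,
`B` a divisor supported at `O` (e.g. `B = k • single O 1`), `e : ι → F` a spanning family of
`L(B)`, `P : Fin d → Place K F` injective with `P i ≠ O` and `d + 2g ≤ deg B`.  Then the
`d × ι` matrix `(e j (P i))` has rank `d`: some `d × d` minor is non zero.

* `S17IN_det_mul_eq_zero` : (Cauchy–Binet, weak form) if all `d × d` minors of `A` vanish then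
  `det (A * B) = 0`;
* `S17IN_exists_dual`     : `∃ f ∈ L(B)`, `f (P i₀) ≠ 0`, `f (P i) = 0` for `i ≠ i₀`;
* `S17IN_indep_c0`, `S17IN_indep_ngz`, `S17IN_indep` : `S17H_W (ev ∘ P) ≠ 0` for the three
  spellings of `ev` (`FD_c0`, `S17NGZ_ev`, `S17NGL_ev`);
* `S17IN_indep_smul`      : the same for `B = k • single O 1`, `d + 2 g ≤ k`.
-/

set_option autoImplicit false

open AlgebraicCurve WithZero

namespace Fermat.Agent.S17

open Fermat.Agent.Lib

/-- weak Cauchy–Binet: if all `d × d` minors of `A` vanish then `det (A * B) = 0`. -/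
theorem S17IN_det_mul_eq_zero {R : Type*} [CommRing R] {ι : Type*} [Fintype ι] {d : ℕ}
    (A : Matrix (Fin d) ι R) (B : Matrix ι (Fin d) R)
    (hA : ∀ f : Fin d → ι, (A.submatrix id f).det = 0) : (A * B).det = 0 := by
  classical
  rw [← Matrix.det_transpose]
  have h1 : (A * B).transpose = fun j => ∑ l, B l j • (fun i => A i l) := by
    funext j i
    simp only [Matrix.transpose_apply, Matrix.mul_apply, Finset.sum_apply, Pi.smul_apply,
      smul_eq_mul]
    exact Finset.sum_congr rfl fun l _ => mul_comm _ _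
  have h2 : ((A * B).transpose).det =
      (Matrix.detRowAlternating : (Fin d → R) [⋀^Fin d]→ₗ[R] R)
        (fun j => ∑ l, B l j • (fun i => A i l)) := by
    rw [h1]; rfl
  rw [h2]
  have h3 := MultilinearMap.map_sum
    ((Matrix.detRowAlternating : (Fin d → R) [⋀^Fin d]→ₗ[R] R).toMultilinearMap)
    (fun (j : Fin d) (l : ι) => B l j • (fun i => A i l))
  rw [AlternatingMap.coe_multilinearMap] at h3
  rw [h3]
  apply Finset.sum_eq_zero
  intro r _
  have h4 := MultilinearMap.map_smul_univ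
    ((Matrix.detRowAlternating : (Fin d → R) [⋀^Fin d]→ₗ[R] R).toMultilinearMap)
    (fun j => B (r j) j) (fun j => (fun i => A i (r j)))
  rw [AlternatingMap.coe_multilinearMap] at h4
  rw [h4]
  have h5 : (Matrix.detRowAlternating : (Fin d → R) [⋀^Fin d]→ₗ[R] R)
      (fun j => (fun i => A i (r j))) = ((A.submatrix id r).transpose).det := rfl
  rw [h5, Matrix.det_transpose, hA r, smul_zero]

variable {K : Type} {F : Type*} [Field K] [Field F] [Algebra K F] {ι : Type}

section

variable [Infinite K] (h : RR_Hyp K F) {O : Place K F} {B : Divisor K F}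
  (hB : ∀ P : Place K F, P ≠ O → B P = 0) {d : ℕ}
  (hd : (d : ℤ) + 2 * (RR_genus K F : ℤ) ≤ B.degree)
  (P : Fin d → Place K F) (hP : Function.Injective P) (hPO : ∀ i, P i ≠ O)

include h hB hd hP hPO in
/-- a function of `L(B)` vanishing at all `P i`, `i ≠ i₀`, and not at `P i₀`. -/
theorem S17IN_exists_dual (i₀ : Fin d) :
    ∃ f : F, f ∈ riemannRochSpace B ∧ FD_c0 (P i₀) f ≠ 0 ∧ ∀ i, i ≠ i₀ → FD_c0 (P i) f = 0 := by
  classical
  set E : Divisor K F := ∑ i ∈ Finset.univ.erase i₀, Finsupp.single (P i) (1 : ℤ) with hE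
  have hEdeg : E.degree = (d : ℤ) - 1 := by
    rw [hE, map_sum]
    simp only [Divisor.degree_single, h.deg_one, Nat.cast_one, mul_one]
    rw [Finset.sum_const, Finset.card_erase_of_mem (Finset.mem_univ _), Finset.card_univ,
      Fintype.card_fin]
    have : 1 ≤ d := Nat.succ_le_of_lt (lt_of_le_of_lt (Nat.zero_le _) i₀.2)
    simp [Nat.cast_sub this]
  have hE0 : E (P i₀) = 0 := by
    rw [hE, Finsupp.finsetSum_apply]
    apply Finset.sum_eq_zero
    intro i hi
    rw [Finsupp.single_apply, if_neg]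
    exact fun hh => (Finset.ne_of_mem_erase hi) (hP hh)
  have hE1 : ∀ i, i ≠ i₀ → E (P i) = 1 := by
    intro i hi
    rw [hE, Finsupp.finsetSum_apply]
    rw [Finset.sum_eq_single i]
    · rw [Finsupp.single_apply, if_pos rfl]
    · intro j _ hji
      rw [Finsupp.single_apply, if_neg]
      exact fun hh => hji (hP hh)
    · intro hi'
      exact absurd (Finset.mem_erase.2 ⟨hi, Finset.mem_univ _⟩) hi'
  have hE_nonneg : 0 ≤ E := by
    rw [hE]
    exact Finset.sum_nonneg fun i _ => RR_single_nonneg (P i) 1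
  have hdeg : 2 * (RR_genus K F : ℤ) + 1 ≤ (B - E).degree := by
    rw [map_sub, hEdeg]; linarith
  obtain ⟨f, hf, hfv⟩ := S17NGS_exists_exact h (B - E) (P i₀) hdeg
  have hfB : f ∈ riemannRochSpace B := RR_mono (sub_le_self B hE_nonneg) hf
  refine ⟨f, hfB, ?_, ?_⟩
  · have hle : (P i₀).adicValuation f ≤ 1 := S17NGS_val_le_one hB (hPO i₀) hfB
    rw [Ne, FD_c0_eq_zero_iff (P i₀) (h.deg_one _) hle, hfv, Finsupp.sub_apply, hE0,
      hB _ (hPO i₀), sub_zero, exp_zero]
    exact lt_irrefl _
  · intro i hi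
    have hle : (P i).adicValuation f ≤ 1 := S17NGS_val_le_one hB (hPO i) hfB
    rw [FD_c0_eq_zero_iff (P i) (h.deg_one _) hle]
    refine lt_of_le_of_lt (hf (P i)) ?_
    rw [Finsupp.sub_apply, hE1 i hi, hB _ (hPO i), zero_sub, ← exp_zero, exp_lt_exp]
    norm_num

variable [Fintype ι] {e : ι → F}
  (hspan : Submodule.span K (Set.range e) = riemannRochSpace B)

include h hB hd hP hPO hspan in
/-- **general position**: the matrix `(e j (P i))` has a non zero `d × d` minor. -/
theorem S17IN_indep_c0 : S17H_W (fun i j => FD_c0 (P i) (e j)) ≠ 0 := by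
  classical
  have hex : ∀ i₀ : Fin d, ∃ b : ι → K, FD_c0 (P i₀) (∑ j, b j • e j) ≠ 0 ∧
      ∀ i, i ≠ i₀ → FD_c0 (P i) (∑ j, b j • e j) = 0 := by
    intro i₀
    obtain ⟨f, hf, h1, h2⟩ := S17IN_exists_dual h hB hd P hP hPO i₀
    obtain ⟨b, rfl⟩ := S17NGS_exists_coeff hspan hf
    exact ⟨b, h1, h2⟩
  choose b hb1 hb2 using hex
  set A : Matrix (Fin d) ι K := Matrix.of fun i j => FD_c0 (P i) (e j) with hA
  set Bm : Matrix ι (Fin d) K := Matrix.of fun j i => b i j with hBm
  have he : ∀ j, e j ∈ riemannRochSpace B := S17NGS_mem hspan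
  have hmul : A * Bm = Matrix.diagonal fun i => FD_c0 (P i) (∑ j, b i j • e j) := by
    ext i i'
    rw [Matrix.mul_apply, Matrix.diagonal_apply]
    have h1 := S17NGS_c0_sum h hB he (hPO i) (b i')
    have h2 : ∑ j, A i j * Bm j i' = FD_c0 (P i) (∑ j, b i' j • e j) := by
      rw [h1]
      exact Finset.sum_congr rfl fun j _ => mul_comm _ _
    rw [h2]
    by_cases hii : i = i'
    · rw [if_pos hii, hii]
    · rw [if_neg hii]
      exact hb2 i' i hii
  have hdet : (A * Bm).det ≠ 0 := by
    rw [hmul, Matrix.det_diagonal]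
    exact Finset.prod_ne_zero_iff.2 fun i _ => hb1 i
  intro hW
  apply hdet
  apply S17IN_det_mul_eq_zero
  intro f
  exact congrFun hW f

include h hB hd hP hPO hspan in
/-- general position, in terms of `S17NGZ_ev`. -/
theorem S17IN_indep_ngz : S17H_W (fun i => S17NGZ_ev (P i) e) ≠ 0 :=
  S17IN_indep_c0 h hB hd P hP hPO hspan

include h hB hd hP hPO hspan in
/-- **field `indep` of `S17H_Model`**: general position, in terms of `S17NGL_ev`. -/
theorem S17IN_indep (il : ι) : S17H_W (fun i => S17NGL_ev O e il (P i)) ≠ 0 := by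
  have h1 : (fun i => S17NGL_ev O e il (P i)) = fun i => S17NGZ_ev (P i) e :=
    funext fun i => S17NGL_ev_of_ne O e il (hPO i)
  rw [h1]
  exact S17IN_indep_ngz h hB hd P hP hPO hspan

end

/-- **field `indep`** for `B = k • single O 1`: `d + 2 g ≤ k`. -/
theorem S17IN_indep_smul [Infinite K] [Fintype ι] (h : RR_Hyp K F) (O : Place K F) (k : ℕ)
    {e : ι → F}
    (hspan : Submodule.span K (Set.range e) =
      riemannRochSpace (k • (Finsupp.single O (1 : ℤ) : Divisor K F)))
    (il : ι) (d : ℕ) (P : Fin d → Place K F) (hd : d + 2 * RR_genus K F ≤ k)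
    (hP : Function.Injective P) (hPO : ∀ i, P i ≠ O) :
    S17H_W (fun i => S17NGL_ev O e il (P i)) ≠ 0 := by
  refine S17IN_indep h (B := k • (Finsupp.single O (1 : ℤ) : Divisor K F))
    (fun Q hQ => S17NGS_smul_single_apply_of_ne k hQ) ?_ P hP hPO hspan il
  rw [S17NGS_smul_single_degree h k]
  exact_mod_cast hd

end Fermat.Agent.S17
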