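import Fermat.Agent.S17.MoveHPencil
import Fermat.Agent.S17.Model
import Fermat.Prelude.Def_ModularCurve_ArithmeticGalois

/-!
# TRACK 8 (S17), heights: the third part of the field `zeros` of `S17H_Model` (helper23)

A rational section `φ_c = ∑ c_j e_j` (`c_j` Galois-invariant constants, `e_j` Galois-invariant
functions) has a Galois-invariant zero cycle.

* `S17ZI_comb_smul` : `g • ∑ c_j e_j = ∑ c_j e_j` (abstract, semilinear `g`);
* `S17ZI_eff_inv`   : an effective divisor `E = div φ + k O` with `g • φ = φ`, `g • O = O` is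
  `g`-invariant (pointwise form `E (g • Q) = E Q`);
* `S17ZI_zeros_inv` : the model shape: `(∀ σ j, σ (c j) = c j) → ∀ σ Q, cyc P (act σ Q) = cyc P Q`
  for `cyc P = div φ_c + k O`.
-/

set_option autoImplicit false

open AlgebraicCurve ModularCurve

namespace Fermat.Agent.S17

open Fermat.Agent.Lib

section abs

variable {K F : Type*} [Field K] [Field F] [Algebra K F]

theorem S17ZI_smul_smul (g : SemilinearAut K F) (a : K) (z : F) :
    g • (a • z) = SemilinearAut.baseAut g a • (g • z) := by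
  rw [Algebra.smul_def, Algebra.smul_def, smul_mul', SemilinearAut.smul_algebraMap]

theorem S17ZI_comb_smul (g : SemilinearAut K F) {ι : Type*} (s : Finset ι) (c : ι → K)
    (e : ι → F) (hc : ∀ j ∈ s, SemilinearAut.baseAut g (c j) = c j)
    (he : ∀ j ∈ s, g • e j = e j) :
    g • (∑ j ∈ s, c j • e j) = ∑ j ∈ s, c j • e j := by
  rw [Finset.smul_sum]
  refine Finset.sum_congr rfl fun j hj => ?_
  rw [S17ZI_smul_smul, hc j hj, he j hj]

theorem S17ZI_ord_smul_of_fixed (g : SemilinearAut K F) {φ : F} (hφ : g • φ = φ)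
    (Q : Place K F) : (g • Q).ord φ = Q.ord φ := by
  have := SemilinearAut.ord_smul g Q φ
  rwa [hφ] at this

theorem S17ZI_single_smul (g : SemilinearAut K F) (O : Place K F) (hO : g • O = O)
    (Q : Place K F) (n : ℤ) :
    (Finsupp.single O n : Divisor K F) (g • Q) = (Finsupp.single O n : Divisor K F) Q := by
  classical
  rw [Finsupp.single_apply, Finsupp.single_apply]
  have : O = g • Q ↔ O = Q := by
    constructor
    · intro h
      rw [← hO] at h
      exact MulAction.injective g h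
    · intro h
      rw [← h, hO]
  simp only [this]

/-- an effective divisor `E = div φ + k O` with `φ` and `O` invariant is invariant. -/
theorem S17ZI_eff_inv (g : SemilinearAut K F) (O : Place K F) (hO : g • O = O) {φ : F}
    (hφ : g • φ = φ) (k : ℤ) (E : Place K F →₀ ℕ)
    (hE : ∀ Q, (E Q : ℤ) = Q.ord φ + k * (Finsupp.single O (1 : ℤ) : Divisor K F) Q)
    (Q : Place K F) : E (g • Q) = E Q := by
  have h1 := hE (g • Q)
  rw [S17ZI_ord_smul_of_fixed g hφ, S17ZI_single_smul g O hO, ← hE Q] at h1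
  exact_mod_cast h1

end abs

/-- **zeros, third part**: the zero cycle `cyc P = div φ_c + k O` of a rational section
`φ_c = ∑ c_j e_j` is Galois invariant. -/
theorem S17ZI_zeros_inv (N : ℕ) [NeZero N] {ι : Type} [Fintype ι]
    (e : ι → ↥(modularFunctionFieldBar N))
    (he : ∀ (σ : AlgebraicClosure ℚ ≃ₐ[ℚ] AlgebraicClosure ℚ) j,
      arithmeticGalois (modularFunctionFieldFull N) σ • e j = e j)
    (O : Place (AlgebraicClosure ℚ) ↥(modularFunctionFieldBar N))
    (hO : ∀ σ : AlgebraicClosure ℚ ≃ₐ[ℚ] AlgebraicClosure ℚ,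
      arithmeticGalois (modularFunctionFieldFull N) σ • O = O)
    (k : ℕ) (c : ι → AlgebraicClosure ℚ)
    (P : Fin k → Place (AlgebraicClosure ℚ) ↥(modularFunctionFieldBar N))
    (hP : ∀ Q : Place (AlgebraicClosure ℚ) ↥(modularFunctionFieldBar N),
      (S17H_cyc P Q : ℤ) = Q.ord (∑ j, c j • e j) +
        (k : ℤ) * (Finsupp.single O (1 : ℤ) :
          Divisor (AlgebraicClosure ℚ) ↥(modularFunctionFieldBar N)) Q)
    (hc : ∀ (σ : AlgebraicClosure ℚ ≃ₐ[ℚ] AlgebraicClosure ℚ) j, σ (c j) = c j)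
    (σ : AlgebraicClosure ℚ ≃ₐ[ℚ] AlgebraicClosure ℚ)
    (Q : Place (AlgebraicClosure ℚ) ↥(modularFunctionFieldBar N)) :
    S17H_cyc P (arithmeticGalois (modularFunctionFieldFull N) σ • Q) = S17H_cyc P Q := by
  refine S17ZI_eff_inv (arithmeticGalois (modularFunctionFieldFull N) σ) O (hO σ) ?_ (k : ℤ)
    (S17H_cyc P) hP Q
  exact S17ZI_comb_smul _ Finset.univ c e (fun j _ => hc σ j) (fun j _ => he σ j)

end Fermat.Agent.S17
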