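import Fermat.Agent.S17.ModelInst
import Fermat.Agent.S17.Emb3
import Fermat.Agent.S17.Indep
import Fermat.Agent.S17.Princ
import Fermat.Agent.S17.Dict
import Fermat.Agent.S17.ZerosInv

/-!
# TRACK 8 (S17), heights pillar, package C1 (helper4), part 2: the concrete model from fewer inputs

`S17MI_In2 N d1` keeps only the inputs of `S17MI_In` which come from CHOW / DECC / TAN:

* `X`, `hXI`  : the abstract curve data with `X.I = S17NGZ_I e`;
* `fact`      : (CHOW + DICT) every list `P` of `k` places whose cycle is `div φ_c + kO` is a zero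
                cycle of `c` for the Chow form (`S17H_Fact`);
* `B`, `tan`, `tan_ok`, `tanS` : (TAN).

Everything else is proved here from landed files:
`hcard`, `hel`, `helow`, `hereg`, `ev_act` (EMB3, helper20), `indep` (INDEP, helper11),
`zeros`, `princ` (PRINC, helper6; DICT, helper14; zeros-invariance, helper23).
-/

set_option autoImplicit false
set_option linter.style.haveILetI false
set_option linter.unusedSectionVars false

open ModularCurve AlgebraicCurve MvPolynomial WithZero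

namespace Fermat.Agent.S17

open Fermat.Agent.Lib

noncomputable section

variable (N : ℕ) [NeZero N]

/-- `φ_c = ∑ c_j e_j`. -/
def S17MI_phi (d1 : ℕ) (c : S17MI_ι N d1 → AlgebraicClosure ℚ) : ↥(modularFunctionFieldBar N) :=
  ∑ j, c j • S17MI_e N d1 j

theorem S17MI_phi_ne_zero (d1 : ℕ) {c : S17MI_ι N d1 → AlgebraicClosure ℚ} (hc : c ≠ 0) :
    S17MI_phi N d1 c ≠ 0 := by
  intro h0
  apply hc
  funext j
  exact (Fintype.linearIndependent_iff.1 (S17EM_e_linearIndependent N (4 * d1))) c h0 j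

/-- the integral divisor of the cycle of a list of places. -/
theorem S17MI_toDiv_cyc {k : ℕ} (P : Fin k → S17HI_Pl N) :
    S17HI_toDiv N (S17H_cyc P) = ∑ i, Finsupp.single (P i) (1 : ℤ) := by
  ext Q
  rw [S17HI_toDiv_apply]
  exact S17DT_cyc_coe P Q

theorem S17MI_clE_cyc {k : ℕ} (P : Fin k → S17HI_Pl N) :
    S17HI_clE N (S17H_cyc P) =
      S17MV_psi (S17ST_hRR N) (S17EM_O N) (∑ i, Finsupp.single (P i) (1 : ℤ)) := by
  unfold S17HI_clE S17HI_psi
  rw [S17MI_toDiv_cyc]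

/-- the inputs of the concrete model coming from CHOW, DECC and TAN. -/
structure S17MI_In2 (d1 : ℕ) where
  /-- CHOW + DECC + NG(d): the abstract curve data, with `I` the ideal of relations of `e`. -/
  X : S17H_Curve (AlgebraicClosure ℚ) (S17MI_ι N d1) (4 * d1)
  hXI : X.I = S17NGZ_I (K := AlgebraicClosure ℚ) (S17MI_e N d1)
  /-- CHOW + DICT: lists of places with cycle `div φ_c + kO` are zero cycles of `c`. -/
  fact : ∀ (c : S17MI_ι N d1 → AlgebraicClosure ℚ) (P : Fin (4 * d1) → S17HI_Pl N),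
    S17MI_phi N d1 c ≠ 0 →
    (∀ Q : S17HI_Pl N, (∑ i, Finsupp.single (P i) (1 : ℤ) :
        Divisor (AlgebraicClosure ℚ) ↥(modularFunctionFieldBar N)) Q =
      Q.ord (S17MI_phi N d1 c) + S17EM_D N (4 * d1) Q) →
    S17H_Fact X.chow c (fun i => S17MI_ev N d1 (P i))
  /-- TAN: the bad set. -/
  B : Finset (S17HI_Pl N)
  /-- TAN: the tangent vectors. -/
  tan : S17HI_Pl N → S17MI_ι N d1 → AlgebraicClosure ℚ
  tan_ok : ∀ Q, Q ∉ B →
    S17H_Tan X.I (S17MI_ev N d1 Q) (tan Q) ∧ S17H_wedge (S17MI_ev N d1 Q) (tan Q) ≠ 0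
  tanS : S17H_StmtTAN X (S17MI_g N) (fun x x' => ∃ Q, Q ∉ B ∧ x = S17MI_ev N d1 Q ∧ x' = tan Q)

variable {N}

/-- the field `zeros`. -/
theorem S17MI_zeros {d1 : ℕ} (I : S17MI_In2 N d1)
    (c : S17MI_ι N d1 → AlgebraicClosure ℚ) (hc : c ≠ 0) :
    ∃ P : Fin (4 * d1) → S17HI_Pl N, S17H_Fact I.X.chow c (fun i => S17MI_ev N d1 (P i)) ∧
      S17HI_clE N (S17H_cyc P) = 0 ∧
      ((∀ (σ : S17_GQ) j, σ (c j) = c j) →
        ∀ σ Q, S17H_cyc P (S17HI_act N σ Q) = S17H_cyc P Q) := by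
  have hφ := S17MI_phi_ne_zero N d1 hc
  obtain ⟨P, hP, hpsi⟩ := S17PC_zeros_cyc (O := S17EM_O N) (B := S17EM_D N (4 * d1))
    (e := S17MI_e N d1) (S17ST_hRR N) (fun Q hQ => S17EM_D_apply_ne N (4 * d1) hQ)
    (S17EM_e_mem N (4 * d1)) (S17EM_D_degree N (4 * d1)) c hφ
  refine ⟨P, I.fact c P hφ hP, ?_, fun hcσ σ Q => ?_⟩
  · rw [S17MI_clE_cyc]
    exact hpsi
  · refine S17ZI_zeros_inv N (S17MI_e N d1) (fun σ j => S17EM_e_rational N (4 * d1) σ j)
      (S17EM_O N) (S17EM_smul_O N) (4 * d1) c P (fun Q' => ?_) hcσ σ Q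
    rw [S17DT_cyc_coe, hP Q']
    congr 1
    unfold S17EM_D
    classical
    rw [Finsupp.single_apply, Finsupp.single_apply]
    split_ifs <;> simp

/-- the field `princ`. -/
theorem S17MI_princ {d1 : ℕ} (I : S17MI_In2 N d1)
    (P : Fin (4 * d1) → S17HI_Pl N) (hP : S17HI_clE N (S17H_cyc P) = 0) :
    ∃ c : S17MI_ι N d1 → AlgebraicClosure ℚ, c ≠ 0 ∧
      S17H_Fact I.X.chow c (fun i => S17MI_ev N d1 (P i)) := by
  rw [S17MI_clE_cyc] at hP
  obtain ⟨c, hc, hφ, hcyc⟩ := S17PC_princ_cyc (O := S17EM_O N) (B := S17EM_D N (4 * d1))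
    (e := S17MI_e N d1) (S17ST_hRR N) (fun Q hQ => S17EM_D_apply_ne N (4 * d1) hQ)
    (S17EM_span_e N (4 * d1)) (S17EM_D_degree N (4 * d1)) P hP
  exact ⟨c, hc, I.fact c P hφ hcyc⟩

/-- the inputs of `S17MI_model` from CHOW, DECC, TAN. -/
def S17MI_In2.toIn {d1 : ℕ} (hd1 : 2 * S17MI_g N + 1 ≤ d1) (I : S17MI_In2 N d1) :
    S17MI_In N d1 where
  X := I.X
  hXI := I.hXI
  hcard := S17EM_card_iota N (4 * d1) (by unfold S17MI_g at hd1; omega)
  hel := S17EM_val_last N (4 * d1) (by unfold S17MI_g at hd1; omega)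
  helow := fun j hj => S17EM_val_low N (4 * d1) (by unfold S17MI_g at hd1; omega) j hj
  hereg := fun j P hP => S17EM_val_off N (4 * d1) j P hP
  ev_act := fun σ P hP => S17EM_ev_act N (4 * d1) σ P hP
  indep := fun d P hd hP hPO =>
    S17IN_indep_smul (S17ST_hRR N) (S17EM_O N) (4 * d1)
      (by rw [← S17EM_D_eq]; exact S17EM_span_e N (4 * d1)) (S17MI_il N d1) d P hd hP hPO
  zeros := S17MI_zeros I
  princ := S17MI_princ I
  B := I.B
  tan := I.tan
  tan_ok := I.tan_ok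
  tanS := I.tanS

/-- **C1**: the concrete model `M_N` from the CHOW / DECC / TAN inputs. -/
def S17MI_model2 {d1 : ℕ} (hd1 : 2 * S17MI_g N + 1 ≤ d1) (I : S17MI_In2 N d1) :
    S17H_Model (AlgebraicClosure ℚ) (JZero N) (S17HI_Pl N) (S17MI_ι N d1) (4 * d1)
      (S17MI_g N) d1 :=
  S17MI_model hd1 (I.toIn hd1)

theorem S17MI_model2_JQ {d1 : ℕ} (hd1 : 2 * S17MI_g N + 1 ≤ d1) (I : S17MI_In2 N d1) :
    (S17MI_model2 hd1 I).JQ = S17_JQ N := rfl

theorem S17MI_model2_X {d1 : ℕ} (hd1 : 2 * S17MI_g N + 1 ≤ d1) (I : S17MI_In2 N d1) :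
    (S17MI_model2 hd1 I).X = I.X := rfl

end

end Fermat.Agent.S17
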