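import Fermat.Agent.S17.Final
import Fermat.Agent.S17.ModelInst2

/-!
# TRACK 8 "MW" (S17): the FINAL ASSEMBLY, second part (helper17, captain)

`S17F_result_of_in2` : S17 from the CHOW / DECC / TAN inputs `S17MI_In2 N d1` of the concrete
model (helper4's `S17MI_model2`), for one `d1 ≥ 2 g + 1`, whenever the genus is positive.
-/

set_option autoImplicit false

open ModularCurve AlgebraicCurve

namespace Fermat.Agent.S17

open Fermat.Agent.Lib

/-- **S17 from the inputs `S17MI_In2`** of the concrete model. -/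
theorem S17F_result_of_in2 (N : ℕ) [NeZero N]
    (hI : RR_genus (AlgebraicClosure ℚ) ↥(modularFunctionFieldBar N) ≠ 0 →
      ∃ d1 : ℕ, 2 * S17MI_g N + 1 ≤ d1 ∧ Nonempty (S17MI_In2 N d1)) :
    AddGroup.FG ↥(FixedPoints.addSubgroup ((AlgebraicClosure ℚ) ≃ₐ[ℚ] (AlgebraicClosure ℚ))
      (JZero N)) :=
  S17F_result_of N fun hg => by
    obtain ⟨d1, hd1, ⟨I⟩⟩ := hI hg
    exact ⟨_, inferInstance, _, _, _, S17MI_model2 hd1 I, S17MI_model2_JQ hd1 I⟩

end Fermat.Agent.S17
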