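import Mathlib

/-!
# TRACK 8 (S17), pillar DIV, package (a) (helper3): the formal implicit function theorem

Mathlib only.  Prefix `S17IFT_`.

`A` a commutative ring which is `I`-adically complete, `G : τ → MvPolynomial σ A` a polynomial
system, `y₀` an approximate solution (`G(y₀) ≡ 0 mod I`) at which the Jacobian has a right
inverse modulo `I`.  Then there is an exact solution `y ≡ y₀ mod I` (`S17IFT_main`).

The proof is the (linearly convergent) Newton iteration `y ↦ y − M·G(y)`.
-/

set_option autoImplicit false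

namespace Fermat.Agent.S17

open MvPolynomial

section congr

variable {A : Type*} [CommRing A] {σ : Type*}

/-- polynomials preserve congruences. -/
theorem S17IFT_eval_congr (𝔞 : Ideal A) (p : MvPolynomial σ A) (y y' : σ → A)
    (h : ∀ s, y s - y' s ∈ 𝔞) : eval y p - eval y' p ∈ 𝔞 := by
  induction p using MvPolynomial.induction_on with
  | C a => simp
  | add p q hp hq =>
    have : eval y (p + q) - eval y' (p + q) = (eval y p - eval y' p) + (eval y q - eval y' q) := by
      simp only [map_add]; ring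
    rw [this]
    exact 𝔞.add_mem hp hq
  | mul_X p i hp =>
    have : eval y (p * X i) - eval y' (p * X i)
        = (eval y p - eval y' p) * y i + eval y' p * (y i - y' i) := by
      simp only [map_mul, eval_X]; ring
    rw [this]
    exact 𝔞.add_mem (𝔞.mul_mem_right _ hp) (𝔞.mul_mem_left _ (h i))

variable [Fintype σ]

/-- first order Taylor expansion modulo `𝔞²`. -/
theorem S17IFT_taylor (𝔞 : Ideal A) (p : MvPolynomial σ A) (y h : σ → A)
    (hh : ∀ s, h s ∈ 𝔞) :
    eval (fun s => y s + h s) p - eval y p - ∑ s, eval y (pderiv s p) * h s ∈ 𝔞 ^ 2 := by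
  classical
  induction p using MvPolynomial.induction_on with
  | C a => simp
  | add p q hp hq =>
    have : eval (fun s => y s + h s) (p + q) - eval y (p + q)
          - ∑ s, eval y (pderiv s (p + q)) * h s
        = (eval (fun s => y s + h s) p - eval y p - ∑ s, eval y (pderiv s p) * h s)
          + (eval (fun s => y s + h s) q - eval y q - ∑ s, eval y (pderiv s q) * h s) := by
      simp only [map_add, add_mul, Finset.sum_add_distrib]; ring
    rw [this]
    exact (𝔞 ^ 2).add_mem hp hq
  | mul_X p i hp =>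
    set T := eval (fun s => y s + h s) p - eval y p - ∑ s, eval y (pderiv s p) * h s with hT
    set Lp := ∑ s, eval y (pderiv s p) * h s with hLp
    have hL : Lp ∈ 𝔞 := 𝔞.sum_mem fun s _ => 𝔞.mul_mem_left _ (hh s)
    have hsum : ∑ s, eval y (pderiv s (p * X i)) * h s = Lp * y i + eval y p * h i := by
      have : ∀ s, eval y (pderiv s (p * X i)) * h s
          = (eval y (pderiv s p) * h s) * y i + eval y p * (if i = s then h s else 0) := by
        intro s
        rw [pderiv_mul, pderiv_X]
        simp only [map_add, map_mul, eval_X, Pi.single_apply]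
        split_ifs with hs
        · simp; ring
        · simp; ring
      simp only [this, Finset.sum_add_distrib, ← Finset.sum_mul, ← Finset.mul_sum]
      rw [Finset.sum_ite_eq]
      simp [hLp]
    have : eval (fun s => y s + h s) (p * X i) - eval y (p * X i)
          - ∑ s, eval y (pderiv s (p * X i)) * h s
        = T * y i + (T + Lp) * h i := by
      rw [hsum, hT]
      simp only [map_mul, eval_X]
      ring
    rw [this]
    refine (𝔞 ^ 2).add_mem ((𝔞 ^ 2).mul_mem_right _ hp) ?_
    rw [add_mul]
    refine (𝔞 ^ 2).add_mem ((𝔞 ^ 2).mul_mem_right _ hp) ?_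
    rw [pow_two]
    exact Ideal.mul_mem_mul hL (hh i)

end congr

section newton

variable {A : Type*} [CommRing A] (I : Ideal A) {σ τ : Type*} [Fintype σ] [Fintype τ]
  [DecidableEq τ]

/-- the Newton step `y ↦ y − M·G(y)`. -/
noncomputable def S17IFT_step (G : τ → MvPolynomial σ A) (M : σ → τ → A) (y : σ → A) :
    σ → A :=
  fun s => y s + (-∑ t, M s t * eval y (G t))

/-- the Newton sequence. -/
noncomputable def S17IFT_seq (G : τ → MvPolynomial σ A) (M : σ → τ → A) (y₀ : σ → A) :
    ℕ → σ → A
  | 0 => y₀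
  | k + 1 => S17IFT_step G M (S17IFT_seq G M y₀ k)

/-- one Newton step improves the approximation by one power of `I`. -/
theorem S17IFT_step_spec (G : τ → MvPolynomial σ A) (y₀ : σ → A) (M : σ → τ → A)
    (hM : ∀ t t', (∑ s, eval y₀ (pderiv s (G t)) * M s t') - (if t = t' then 1 else 0) ∈ I)
    (k : ℕ) (y : σ → A) (hy : ∀ s, y s - y₀ s ∈ I) (hG : ∀ t, eval y (G t) ∈ I ^ (k + 1)) :
    (∀ s, S17IFT_step G M y s - y s ∈ I ^ (k + 1)) ∧
    (∀ s, S17IFT_step G M y s - y₀ s ∈ I) ∧
    (∀ t, eval (S17IFT_step G M y) (G t) ∈ I ^ (k + 2)) := by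
  classical
  set h : σ → A := fun s => -∑ t, M s t * eval y (G t) with hh
  have hhmem : ∀ s, h s ∈ I ^ (k + 1) := fun s =>
    (I ^ (k + 1)).neg_mem ((I ^ (k + 1)).sum_mem fun t _ => (I ^ (k + 1)).mul_mem_left _ (hG t))
  have hle : I ^ (k + 1) ≤ I := Ideal.pow_le_self (by omega)
  have hstep : S17IFT_step G M y = fun s => y s + h s := rfl
  refine ⟨?_, ?_, ?_⟩
  · intro s
    have : S17IFT_step G M y s - y s = h s := by rw [hstep]; ring
    rw [this]
    exact hhmem s
  · intro s
    have : S17IFT_step G M y s - y₀ s = (y s - y₀ s) + h s := by rw [hstep]; ring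
    rw [this]
    exact I.add_mem (hy s) (hle (hhmem s))
  · intro t
    have htay := S17IFT_taylor (I ^ (k + 1)) (G t) y h hhmem
    have hpow : (I ^ (k + 1)) ^ 2 ≤ I ^ (k + 2) := by
      rw [← pow_mul]
      exact Ideal.pow_le_pow_right (by omega)
    -- the linear term
    have hlin : ∑ s, eval y (pderiv s (G t)) * h s
        = -∑ t', (∑ s, eval y (pderiv s (G t)) * M s t') * eval y (G t') := by
      simp only [hh, mul_neg, Finset.sum_neg_distrib, Finset.mul_sum, Finset.sum_mul]
      rw [Finset.sum_comm]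
      congr 1
      refine Finset.sum_congr rfl fun t' _ => Finset.sum_congr rfl fun s _ => ?_
      ring
    -- the Jacobian at `y` is congruent to the Jacobian at `y₀`
    have hJ : ∀ t', (∑ s, eval y (pderiv s (G t)) * M s t') - (if t = t' then 1 else 0) ∈ I := by
      intro t'
      have h1 : (∑ s, eval y (pderiv s (G t)) * M s t')
          - ∑ s, eval y₀ (pderiv s (G t)) * M s t' ∈ I := by
        rw [← Finset.sum_sub_distrib]
        refine I.sum_mem fun s _ => ?_
        rw [← sub_mul]
        exact I.mul_mem_right _ (S17IFT_eval_congr I _ y y₀ hy)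
      have := I.add_mem h1 (hM t t')
      convert this using 1
      ring
    have hcorr : (∑ t', (∑ s, eval y (pderiv s (G t)) * M s t') * eval y (G t'))
        - eval y (G t) ∈ I ^ (k + 2) := by
      have : (∑ t', (∑ s, eval y (pderiv s (G t)) * M s t') * eval y (G t')) - eval y (G t)
          = ∑ t', ((∑ s, eval y (pderiv s (G t)) * M s t') - (if t = t' then 1 else 0))
              * eval y (G t') := by
        simp only [sub_mul, Finset.sum_sub_distrib, ite_mul, one_mul, zero_mul,
          Finset.sum_ite_eq, Finset.mem_univ, if_true]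
      rw [this]
      refine (I ^ (k + 2)).sum_mem fun t' _ => ?_
      have h2 : k + 2 = 1 + (k + 1) := by omega
      rw [h2, pow_add, pow_one]
      exact Ideal.mul_mem_mul (hJ t') (hG t')
    have : eval (S17IFT_step G M y) (G t)
        = (eval (fun s => y s + h s) (G t) - eval y (G t) - ∑ s, eval y (pderiv s (G t)) * h s)
          - ((∑ t', (∑ s, eval y (pderiv s (G t)) * M s t') * eval y (G t')) - eval y (G t)) := by
      rw [hlin, hstep]
      ring
    rw [this]
    exact (I ^ (k + 2)).sub_mem (hpow htay) hcorr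

theorem S17IFT_seq_spec (G : τ → MvPolynomial σ A) (y₀ : σ → A) (M : σ → τ → A)
    (h₀ : ∀ t, eval y₀ (G t) ∈ I)
    (hM : ∀ t t', (∑ s, eval y₀ (pderiv s (G t)) * M s t') - (if t = t' then 1 else 0) ∈ I)
    (k : ℕ) :
    (∀ s, S17IFT_seq G M y₀ k s - y₀ s ∈ I) ∧
    (∀ t, eval (S17IFT_seq G M y₀ k) (G t) ∈ I ^ (k + 1)) ∧
    (∀ s, S17IFT_seq G M y₀ (k + 1) s - S17IFT_seq G M y₀ k s ∈ I ^ (k + 1)) := by
  induction k with
  | zero =>
    have hy : ∀ s, S17IFT_seq G M y₀ 0 s - y₀ s ∈ I := fun s => by
      simp [S17IFT_seq]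
    have hG : ∀ t, eval (S17IFT_seq G M y₀ 0) (G t) ∈ I ^ (0 + 1) := fun t => by
      simpa [S17IFT_seq] using h₀ t
    exact ⟨hy, hG, (S17IFT_step_spec I G y₀ M hM 0 _ hy hG).1⟩
  | succ k ih =>
    obtain ⟨hy, hG, _⟩ := ih
    obtain ⟨_, h2, h3⟩ := S17IFT_step_spec I G y₀ M hM k _ hy hG
    have hy' : ∀ s, S17IFT_seq G M y₀ (k + 1) s - y₀ s ∈ I := h2
    have hG' : ∀ t, eval (S17IFT_seq G M y₀ (k + 1)) (G t) ∈ I ^ (k + 1 + 1) := h3
    exact ⟨hy', hG', (S17IFT_step_spec I G y₀ M hM (k + 1) _ hy' hG').1⟩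

/-- **Formal implicit function theorem.**  `A` is `I`-adically complete, `G(y₀) ≡ 0 mod I` and
the Jacobian of `G` at `y₀` has a right inverse `M` modulo `I`.  Then `G` has an exact zero
`y ≡ y₀ mod I`. -/
theorem S17IFT_main [IsAdicComplete I A] (G : τ → MvPolynomial σ A) (y₀ : σ → A)
    (h₀ : ∀ t, eval y₀ (G t) ∈ I) (M : σ → τ → A)
    (hM : ∀ t t', (∑ s, eval y₀ (pderiv s (G t)) * M s t') - (if t = t' then 1 else 0) ∈ I) :
    ∃ y : σ → A, (∀ s, y s - y₀ s ∈ I) ∧ ∀ t, eval y (G t) = 0 := by
  classical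
  set y := S17IFT_seq G M y₀ with hy
  have hspec := S17IFT_seq_spec I G y₀ M h₀ hM
  have hsmul : ∀ n : ℕ, (I ^ n • ⊤ : Submodule A A) = I ^ n := fun n => by
    rw [smul_eq_mul, Ideal.mul_top]
  -- Cauchy
  have hcau : ∀ s, ∀ m n, m ≤ n → y n s - y m s ∈ I ^ m := by
    intro s m n hmn
    induction n, hmn using Nat.le_induction with
    | base => simp
    | succ n hmn ih =>
      have h1 := (hspec n).2.2 s
      have h2 : I ^ (n + 1) ≤ I ^ m := Ideal.pow_le_pow_right (by omega)
      have : y (n + 1) s - y m s = (y (n + 1) s - y n s) + (y n s - y m s) := by ring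
      rw [this]
      exact (I ^ m).add_mem (h2 h1) ih
  -- limits
  have hlim : ∀ s, ∃ L : A, ∀ n, y n s - L ∈ I ^ n := by
    intro s
    obtain ⟨L, hL⟩ := IsPrecomplete.prec (I := I) (M := A) inferInstance
      (f := fun n => y n s) (by
        intro m n hmn
        rw [SModEq.sub_mem, hsmul]
        have := hcau s m n hmn
        have h' : y m s - y n s = -(y n s - y m s) := by ring
        rw [h']
        exact (I ^ m).neg_mem this)
    refine ⟨L, fun n => ?_⟩
    have := hL n
    rwa [SModEq.sub_mem, hsmul] at this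
  choose L hL using hlim
  refine ⟨L, fun s => ?_, fun t => ?_⟩
  · have h1 := hL s 1
    rw [pow_one] at h1
    have h2 := (hspec 1).1 s
    have : L s - y₀ s = (y 1 s - y₀ s) - (y 1 s - L s) := by ring
    rw [this]
    exact I.sub_mem h2 h1
  · apply IsHausdorff.haus (I := I) (M := A) inferInstance
    intro n
    rw [SModEq.sub_mem, hsmul, sub_zero]
    have h1 : eval (y n) (G t) - eval L (G t) ∈ I ^ n :=
      S17IFT_eval_congr (I ^ n) (G t) (y n) L (fun s => hL s n)
    have h2 : eval (y n) (G t) ∈ I ^ n :=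
      (Ideal.pow_le_pow_right (by omega) : I ^ (n + 1) ≤ I ^ n) ((hspec n).2.1 t)
    have : eval L (G t) = eval (y n) (G t) - (eval (y n) (G t) - eval L (G t)) := by ring
    rw [this]
    exact (I ^ n).sub_mem h2 h1

/-- **Formal implicit function theorem, local form.**  `A` is a local ring, complete for its
maximal ideal; the Jacobian of `G` at `y₀` is SURJECTIVE over the residue field. -/
theorem S17IFT_local [IsLocalRing A] [IsAdicComplete (IsLocalRing.maximalIdeal A) A]
    (G : τ → MvPolynomial σ A) (y₀ : σ → A)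
    (h₀ : ∀ t, eval y₀ (G t) ∈ IsLocalRing.maximalIdeal A)
    (hsurj : Function.Surjective (fun (v : σ → IsLocalRing.ResidueField A) (t : τ) =>
      ∑ s, IsLocalRing.residue A (eval y₀ (pderiv s (G t))) * v s)) :
    ∃ y : σ → A, (∀ s, y s - y₀ s ∈ IsLocalRing.maximalIdeal A) ∧ ∀ t, eval y (G t) = 0 := by
  classical
  -- a right inverse over the residue field, lifted to `A`
  have hv : ∀ t' : τ, ∃ v : σ → IsLocalRing.ResidueField A, ∀ t,
      ∑ s, IsLocalRing.residue A (eval y₀ (pderiv s (G t))) * v s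
        = if t = t' then 1 else 0 := by
    intro t'
    obtain ⟨v, hv⟩ := hsurj (fun t => if t = t' then 1 else 0)
    exact ⟨v, fun t => congrFun hv t⟩
  choose v hv using hv
  have hlift : ∀ (s : σ) (t' : τ), ∃ a : A, IsLocalRing.residue A a = v t' s :=
    fun s t' => IsLocalRing.residue_surjective _
  choose M hMres using hlift
  refine S17IFT_main (IsLocalRing.maximalIdeal A) G y₀ h₀ M ?_
  intro t t'
  rw [← IsLocalRing.residue_eq_zero_iff, map_sub, map_sum]
  simp only [map_mul, hMres, hv t' t]
  split_ifs <;> simp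

/-- **Formal implicit function theorem over `K⟦X⟧`**, with the Jacobian condition stated for the
constant coefficients. -/
theorem S17IFT_powerSeries {K : Type*} [Field K] (G : τ → MvPolynomial σ (PowerSeries K))
    (y₀ : σ → PowerSeries K)
    (h₀ : ∀ t, PowerSeries.constantCoeff (eval y₀ (G t)) = 0)
    (hsurj : Function.Surjective (fun (v : σ → K) (t : τ) =>
      ∑ s, PowerSeries.constantCoeff (eval y₀ (pderiv s (G t))) * v s)) :
    ∃ y : σ → PowerSeries K, (∀ s, PowerSeries.constantCoeff (y s - y₀ s) = 0) ∧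
      ∀ t, eval y (G t) = 0 := by
  classical
  have hmem : ∀ f : PowerSeries K, f ∈ (Ideal.span {PowerSeries.X} : Ideal (PowerSeries K)) ↔
      PowerSeries.constantCoeff f = 0 := by
    intro f
    rw [Ideal.mem_span_singleton, PowerSeries.X_dvd_iff]
  have hv : ∀ t' : τ, ∃ v : σ → K, ∀ t,
      ∑ s, PowerSeries.constantCoeff (eval y₀ (pderiv s (G t))) * v s
        = if t = t' then 1 else 0 := by
    intro t'
    obtain ⟨v, hv⟩ := hsurj (fun t => if t = t' then 1 else 0)
    exact ⟨v, fun t => congrFun hv t⟩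
  choose v hv using hv
  obtain ⟨y, hy, hG⟩ := S17IFT_main (Ideal.span {PowerSeries.X} : Ideal (PowerSeries K)) G y₀
    (fun t => (hmem _).2 (h₀ t)) (fun s t' => PowerSeries.C (v t' s)) (by
      intro t t'
      rw [hmem, map_sub, map_sum]
      simp only [map_mul, PowerSeries.constantCoeff_C, hv t' t]
      split_ifs <;> simp)
  exact ⟨y, fun s => (hmem _).1 (hy s), hG⟩

end newton

end Fermat.Agent.S17
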