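import Fermat.Agent.S17.AbsGM
import Fermat.Agent.S17.AbsHeight2

/-!
# TRACK 8 (S17, Mordell–Weil), heights: shared lemmas on heights of polynomials (helper8)

`Ω` : a field of characteristic `0`, algebraic over `ℚ`; `h = S17AH_h`, `hpoly = S17AG_hpoly`
(helper1: the height of the coefficient family indexed by the support).

* `S17GP_h_restrict`, `S17GP_h_reindex` : the height of a tuple only depends on its nonzero
  entries: `h (x ∘ m) = h x` if every index with `x i ≠ 0` is in the range of `m`.
* `S17GP_hpoly_eq` : `hpoly f = h (fun k => f.coeff (m k))` for ANY finite list `m` of monomials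
  containing the support of `f`.
* `S17GP_hpoly_C_mul` : `hpoly (C κ * f) = hpoly f` (`κ ≠ 0`).
* `S17GP_hpoly_linear` : `hpoly (Σ_j v_j X_j) = h v`.
* `S17GP_gm_prod` : **Gauss–Mahler for a product of many factors**,
  `|hpoly (∏_{i ∈ s} f_i) − Σ_{i ∈ s} hpoly (f_i)| ≤ #s · log (S17GM_const n (d + 1))`.
* `S17GP_prod_linear` : for linear forms `ℓ_i = Σ_j v_i j X_j`, `v_i ≠ 0`, `i < k`:
  `|hpoly (∏ ℓ_i) − Σ_i h (v_i)| ≤ k · log (S17GM_const n (k + 1))`.
-/

set_option autoImplicit false
set_option linter.style.haveILetI false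
set_option linter.unusedSectionVars false

open NumberField Height Module IntermediateField MvPolynomial

namespace Fermat.Agent.S17

section

variable {Ω : Type*} [Field Ω] [CharZero Ω] [Algebra.IsAlgebraic ℚ Ω]

/-- restriction to the support does not change the height. -/
theorem S17GP_h_restrict {ι : Type*} [Finite ι] (x : ι → Ω) :
    S17AH_h x = S17AH_h (fun i : Function.support x => x i.1) := by
  have hsupp : Function.support (S17AH_lift x) = Function.support x := by
    ext i
    simp only [Function.mem_support, ne_eq]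
    constructor
    · intro h h0
      apply h
      exact Subtype.ext h0
    · intro h h0
      apply h
      exact congrArg (fun a : S17AH_field x => (a : Ω)) h0
  let e : Function.support x ≃ Function.support (S17AH_lift x) := Equiv.setCongr hsupp.symm
  have h1 : S17AH_h x = S17AH_h (fun i => ((S17AH_lift x) i : Ω)) := rfl
  have h2 : (fun i : Function.support x => x i.1) =
      fun i : Function.support x =>
        (((fun j : Function.support (S17AH_lift x) => S17AH_lift x j.1) ∘ e) i : Ω) := by
    funext i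
    rfl
  rw [h2, S17AH_h_sub x, h1, S17AH_h_sub x, logHeight_comp_equiv e,
    ← logHeight_eq_logHeight_restrict_support]

/-- the height only depends on the nonzero entries. -/
theorem S17GP_h_reindex {ι κ : Type*} [Finite ι] [Finite κ] (x : ι → Ω) (m : κ → ι)
    (hx : ∀ i, x i ≠ 0 → ∃ k, m k = i) : S17AH_h (x ∘ m) = S17AH_h x := by
  refine le_antisymm (S17AH_h_comp_le m x) ?_
  rw [S17GP_h_restrict x]
  have hs : ∀ i : Function.support x, ∃ k, m k = i.1 := fun i => hx i.1 i.2
  choose s hs using hs
  have : (fun i : Function.support x => x i.1) = (x ∘ m) ∘ s := by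
    funext i
    simp only [Function.comp_apply, hs i]
  rw [this]
  exact S17AH_h_comp_le s (x ∘ m)

/-- the height of a polynomial is the height of any finite tuple of coefficients containing all
nonzero ones. -/
theorem S17GP_hpoly_eq {σ κ : Type*} [Finite κ] (f : MvPolynomial σ Ω) (m : κ → σ →₀ ℕ)
    (hm : ∀ s ∈ f.support, ∃ k, m k = s) :
    S17AH_h (fun k => f.coeff (m k)) = S17AG_hpoly f := by
  classical
  unfold S17AG_hpoly
  -- `≤`
  have h1 : S17AH_h (fun k => f.coeff (m k)) ≤ S17AH_h (S17GM_cf f) := by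
    rw [S17GP_h_restrict (fun k => f.coeff (m k))]
    have hk : ∀ k : Function.support (fun k => f.coeff (m k)), m k.1 ∈ f.support := by
      intro k
      rw [MvPolynomial.mem_support_iff]
      exact k.2
    have : (fun k : Function.support (fun k => f.coeff (m k)) => f.coeff (m k.1)) =
        S17GM_cf f ∘ (fun k => (⟨m k.1, hk k⟩ : f.support)) := by
      funext k
      rfl
    rw [this]
    exact S17AH_h_comp_le _ _
  -- `≥`
  have h2 : S17AH_h (S17GM_cf f) ≤ S17AH_h (fun k => f.coeff (m k)) := by
    have hs : ∀ s : f.support, ∃ k, m k = s.1 := fun s => hm s.1 s.2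
    choose t ht using hs
    have : S17GM_cf f = (fun k => f.coeff (m k)) ∘ t := by
      funext s
      simp only [S17GM_cf, Function.comp_apply, ht s]
    rw [this]
    exact S17AH_h_comp_le _ _
  exact le_antisymm h1 h2

/-- scaling a polynomial does not change its height. -/
theorem S17GP_hpoly_C_mul {σ : Type*} (f : MvPolynomial σ Ω) {κ : Ω} (hκ : κ ≠ 0) :
    S17AG_hpoly (C κ * f) = S17AG_hpoly f := by
  classical
  have hsupp : ∀ s ∈ (C κ * f).support, ∃ k : f.support, (k : σ →₀ ℕ) = s := by
    intro s hs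
    rw [MvPolynomial.mem_support_iff, MvPolynomial.coeff_C_mul] at hs
    have : f.coeff s ≠ 0 := fun h => hs (by rw [h, mul_zero])
    exact ⟨⟨s, MvPolynomial.mem_support_iff.mpr this⟩, rfl⟩
  rw [← S17GP_hpoly_eq (C κ * f) (fun k : f.support => (k : σ →₀ ℕ)) hsupp]
  have : (fun k : f.support => (C κ * f).coeff (k : σ →₀ ℕ)) = κ • S17GM_cf f := by
    funext k
    simp [S17GM_cf, MvPolynomial.coeff_C_mul]
  rw [this, S17AH_h_smul _ hκ]
  rfl

/-- the height of the constant polynomial `1` is `0`. -/
theorem S17GP_hpoly_one {σ : Type*} : S17AG_hpoly (1 : MvPolynomial σ Ω) = 0 := by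
  classical
  have h := S17GP_hpoly_eq (1 : MvPolynomial σ Ω) (fun _ : Unit => (0 : σ →₀ ℕ))
    (fun s hs => by
      rw [MvPolynomial.mem_support_iff, MvPolynomial.coeff_one] at hs
      by_cases h0 : 0 = s
      · exact ⟨(), h0⟩
      · rw [if_neg h0] at hs
        exact absurd rfl hs)
  rw [← h]
  have : (fun _ : Unit => (1 : MvPolynomial σ Ω).coeff (0 : σ →₀ ℕ)) =
      fun i => algebraMap ℚ Ω ((fun _ : Unit => (1 : ℚ)) i) := by
    funext i
    simp
  rw [this, S17AH_h_rat]
  exact logHeight_eq_zero_of_subsingleton _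

/-- the height of a linear form is the height of its coefficient vector. -/
theorem S17GP_hpoly_linear {σ : Type*} [Fintype σ] (v : σ → Ω) :
    S17AG_hpoly (∑ j, C (v j) * X j : MvPolynomial σ Ω) = S17AH_h v := by
  classical
  have hco : ∀ i : σ, (∑ j, C (v j) * X j : MvPolynomial σ Ω).coeff (Finsupp.single i 1) = v i := by
    intro i
    rw [MvPolynomial.coeff_sum]
    simp only [MvPolynomial.coeff_C_mul, MvPolynomial.coeff_X]
    rw [Finset.sum_eq_single i]
    · simp
    · intro j _ hji
      have : Finsupp.single j 1 ≠ Finsupp.single i 1 := by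
        intro h
        exact hji (Finsupp.single_left_injective one_ne_zero h)
      simp [this]
    · intro h
      exact absurd (Finset.mem_univ i) h
  have hsupp : ∀ s ∈ (∑ j, C (v j) * X j : MvPolynomial σ Ω).support,
      ∃ i : σ, Finsupp.single i 1 = s := by
    intro s hs
    rw [MvPolynomial.mem_support_iff, MvPolynomial.coeff_sum] at hs
    by_contra hne
    apply hs
    refine Finset.sum_eq_zero fun j _ => ?_
    rw [MvPolynomial.coeff_C_mul, MvPolynomial.coeff_X]
    have : Finsupp.single j 1 ≠ s := fun h => hne ⟨j, h⟩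
    simp [this]
  rw [← S17GP_hpoly_eq _ (fun i : σ => Finsupp.single i 1) hsupp]
  congr 1
  funext i
  exact hco i

/-- **Gauss–Mahler for a product of many factors.** -/
theorem S17GP_gm_prod (n d : ℕ) {α : Type*} (s : Finset α) (f : α → MvPolynomial (Fin n) Ω)
    (hf : ∀ i ∈ s, f i ≠ 0) (hd : (∏ i ∈ s, f i).totalDegree ≤ d) :
    |S17AG_hpoly (∏ i ∈ s, f i) - ∑ i ∈ s, S17AG_hpoly (f i)| ≤
      s.card * Real.log (S17GM_const n (d + 1)) := by
  classical
  induction s using Finset.induction_on with
  | empty =>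
    simp [S17GP_hpoly_one]
  | insert a t hat ih =>
    have hfa : f a ≠ 0 := hf a (Finset.mem_insert_self a t)
    have hft : ∀ i ∈ t, f i ≠ 0 := fun i hi => hf i (Finset.mem_insert_of_mem hi)
    have hPt : (∏ i ∈ t, f i) ≠ 0 := Finset.prod_ne_zero_iff.mpr hft
    rw [Finset.prod_insert hat] at hd
    rw [MvPolynomial.totalDegree_mul_of_isDomain hfa hPt] at hd
    have hda : (f a).totalDegree ≤ d := by omega
    have hdt : (∏ i ∈ t, f i).totalDegree ≤ d := by omega
    have h1 := S17AG_gm n d (f a) (∏ i ∈ t, f i) hfa hPt hda hdt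
    have h2 := ih hft hdt
    rw [Finset.prod_insert hat, Finset.sum_insert hat, Finset.card_insert_of_notMem hat]
    have e : S17AG_hpoly (f a * ∏ i ∈ t, f i) - (S17AG_hpoly (f a) + ∑ i ∈ t, S17AG_hpoly (f i)) =
        (S17AG_hpoly (f a * ∏ i ∈ t, f i) - S17AG_hpoly (f a) - S17AG_hpoly (∏ i ∈ t, f i)) +
        (S17AG_hpoly (∏ i ∈ t, f i) - ∑ i ∈ t, S17AG_hpoly (f i)) := by ring
    rw [e]
    refine (abs_add_le _ _).trans ?_
    push_cast
    linarith

/-- the linear form with coefficient vector `v`. -/
noncomputable def S17GP_lin {σ : Type*} [Fintype σ] (v : σ → Ω) : MvPolynomial σ Ω :=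
  ∑ j, C (v j) * X j

theorem S17GP_lin_ne_zero {σ : Type*} [Fintype σ] {v : σ → Ω} (hv : v ≠ 0) :
    S17GP_lin v ≠ 0 := by
  classical
  obtain ⟨i, hi⟩ := Function.ne_iff.mp hv
  intro h
  apply hi
  have h1 : (S17GP_lin v).coeff (Finsupp.single i 1) = v i := by
    unfold S17GP_lin
    rw [MvPolynomial.coeff_sum]
    simp only [MvPolynomial.coeff_C_mul, MvPolynomial.coeff_X]
    rw [Finset.sum_eq_single i]
    · simp
    · intro j _ hji
      have : Finsupp.single j 1 ≠ Finsupp.single i 1 := by
        intro h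
        exact hji (Finsupp.single_left_injective one_ne_zero h)
      simp [this]
    · intro h
      exact absurd (Finset.mem_univ i) h
  rw [h] at h1
  simpa using h1.symm

theorem S17GP_eval_lin {σ : Type*} [Fintype σ] (v x : σ → Ω) :
    MvPolynomial.eval x (S17GP_lin v) = ∑ j, v j * x j := by
  simp [S17GP_lin]

theorem S17GP_totalDegree_lin_le {σ : Type*} [Fintype σ] (v : σ → Ω) :
    (S17GP_lin v).totalDegree ≤ 1 := by
  unfold S17GP_lin
  refine (MvPolynomial.totalDegree_finsetSum_le (fun j _ => ?_))
  exact (MvPolynomial.totalDegree_mul _ _).trans (by simp)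

/-- **Gauss–Mahler for a product of `k` linear forms.** -/
theorem S17GP_prod_linear (n k : ℕ) (v : Fin k → Fin n → Ω) (hv : ∀ i, v i ≠ 0) :
    |S17AG_hpoly (∏ i, S17GP_lin (v i)) - ∑ i, S17AH_h (v i)| ≤
      k * Real.log (S17GM_const n (k + 1)) := by
  have hd : (∏ i, S17GP_lin (v i)).totalDegree ≤ k := by
    refine (MvPolynomial.totalDegree_finsetProd _ _).trans ?_
    calc ∑ i : Fin k, (S17GP_lin (v i)).totalDegree ≤ ∑ _i : Fin k, 1 :=
          Finset.sum_le_sum fun i _ => S17GP_totalDegree_lin_le (v i)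
      _ = k := by simp
  have h := S17GP_gm_prod n k Finset.univ (fun i => S17GP_lin (v i))
    (fun i _ => S17GP_lin_ne_zero (hv i)) hd
  have e : ∀ i, S17AG_hpoly (S17GP_lin (v i)) = S17AH_h (v i) := fun i =>
    S17GP_hpoly_linear (v i)
  simp only [e, Finset.card_univ, Fintype.card_fin] at h
  exact h

end

end Fermat.Agent.S17
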