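import Mathlib

/-!
# TRACK 8 (S17), package GM (helper1): Gauss–Mahler / Gelfond for products of polynomials

Mathlib only.  All declarations carry the prefix `S17GM_`.

* `S17GM_gelfond_C` : for `p q : ℂ[X]`,
  `‖p‖·‖q‖ ≤ 2^deg(pq)·(deg(pq)+1)·‖pq‖` (sup norms of the coefficients), from Mathlib's Mahler
  measure.
* `S17GM_kron D` : Kronecker substitution `MvPolynomial (Fin n) R → R[X]`, `X_i ↦ X^(D^i)`; it
  preserves the coefficients of polynomials all of whose exponents are `< D`.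
* `S17GM_norm f` : the sup norm `max |coeff|` of `f : MvPolynomial σ ℤ`.
* `S17GM_gelfond` : `‖f‖·‖g‖ ≤ C(n, D)·‖f g‖` for `f g : MvPolynomial (Fin n) ℤ`, exponents of
  `f·g` `< D`.
* `S17GM_gauss`   : a prime dividing all coefficients of `f·g` divides all coefficients of `f` or
  all coefficients of `g`.
-/

set_option autoImplicit false

open Polynomial

namespace Fermat.Agent.S17

/-- **Gelfond's inequality** over `ℂ`, one variable. -/
theorem S17GM_gelfond_C (p q : ℂ[X]) :
    p.supNorm * q.supNorm ≤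
      2 ^ (p * q).natDegree * ((p * q).natDegree + 1) * (p * q).supNorm := by
  by_cases hp : p = 0
  · subst hp
    simp [Polynomial.supNorm_zero]
  by_cases hq : q = 0
  · subst hq
    simp [Polynomial.supNorm_zero]
  have hd : (p * q).natDegree = p.natDegree + q.natDegree := natDegree_mul hp hq
  have h1 : p.supNorm ≤ 2 ^ p.natDegree * p.mahlerMeasure := by
    refine (p.supNorm_le_choose_natDegree_div_two_mul_mahlerMeasure).trans ?_
    gcongr
    · exact p.mahlerMeasure_nonneg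
    · exact_mod_cast Nat.choose_le_two_pow _ _
  have h2 : q.supNorm ≤ 2 ^ q.natDegree * q.mahlerMeasure := by
    refine (q.supNorm_le_choose_natDegree_div_two_mul_mahlerMeasure).trans ?_
    gcongr
    · exact q.mahlerMeasure_nonneg
    · exact_mod_cast Nat.choose_le_two_pow _ _
  have h3 : (p * q).mahlerMeasure ≤ ((p * q).natDegree + 1) * (p * q).supNorm := by
    refine ((p * q).mahlerMeasure_le_sqrt_natDegree_add_one_mul_supNorm).trans ?_
    gcongr
    · exact (p * q).supNorm_nonneg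
    · have h0 : (0 : ℝ) ≤ ((p * q).natDegree : ℝ) + 1 := by positivity
      have h1' : (1 : ℝ) ≤ ((p * q).natDegree : ℝ) + 1 := by
        have : (0 : ℝ) ≤ ((p * q).natDegree : ℝ) := by positivity
        linarith
      calc √(((p * q).natDegree : ℝ) + 1) ≤ √((((p * q).natDegree : ℝ) + 1) ^ 2) := by
            apply Real.sqrt_le_sqrt
            nlinarith
        _ = ((p * q).natDegree : ℝ) + 1 := Real.sqrt_sq h0
  calc p.supNorm * q.supNorm
      ≤ (2 ^ p.natDegree * p.mahlerMeasure) * (2 ^ q.natDegree * q.mahlerMeasure) := by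
        exact mul_le_mul h1 h2 q.supNorm_nonneg
          (mul_nonneg (by positivity) p.mahlerMeasure_nonneg)
    _ = 2 ^ (p * q).natDegree * (p * q).mahlerMeasure := by
        rw [hd, pow_add, mahlerMeasure_mul]; ring
    _ ≤ 2 ^ (p * q).natDegree * (((p * q).natDegree + 1) * (p * q).supNorm) := by
        gcongr
    _ = _ := by ring

section kron

variable {R : Type*} [CommSemiring R] (n D : ℕ)

/-- the exponent of the Kronecker substitution. -/
def S17GM_e (m : Fin n →₀ ℕ) : ℕ := ∑ i : Fin n, m i * D ^ (i : ℕ)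

/-- **Kronecker substitution** `X_i ↦ X^(D^i)`. -/
noncomputable def S17GM_kron : MvPolynomial (Fin n) R →ₐ[R] R[X] :=
  MvPolynomial.aeval (fun i : Fin n => (X : R[X]) ^ (D ^ (i : ℕ)))

theorem S17GM_kron_monomial (m : Fin n →₀ ℕ) (a : R) :
    S17GM_kron (R := R) n D (MvPolynomial.monomial m a) = C a * X ^ (S17GM_e n D m) := by
  rw [S17GM_kron, MvPolynomial.aeval_monomial, Finsupp.prod_fintype _ _ (fun i => by simp)]
  congr 1
  simp_rw [← pow_mul]
  rw [Finset.prod_pow_eq_pow_sum, S17GM_e]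
  congr 1
  exact Finset.sum_congr rfl fun i _ => mul_comm _ _

theorem S17GM_e_lt {m : Fin n →₀ ℕ} (hm : ∀ i, m i < D) : S17GM_e n D m < D ^ n := by
  have h := (finFunctionFinEquiv (fun i : Fin n => (⟨m i, hm i⟩ : Fin D))).2
  rw [finFunctionFinEquiv_apply] at h
  exact h

theorem S17GM_e_inj {m m' : Fin n →₀ ℕ} (hm : ∀ i, m i < D) (hm' : ∀ i, m' i < D)
    (h : S17GM_e n D m = S17GM_e n D m') : m = m' := by
  have h1 : finFunctionFinEquiv (fun i : Fin n => (⟨m i, hm i⟩ : Fin D))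
      = finFunctionFinEquiv (fun i : Fin n => (⟨m' i, hm' i⟩ : Fin D)) := by
    apply Fin.ext
    rw [finFunctionFinEquiv_apply, finFunctionFinEquiv_apply]
    exact h
  have h2 := finFunctionFinEquiv.injective h1
  ext i
  have := congrFun h2 i
  exact congrArg Fin.val this

theorem S17GM_kron_eq_sum (f : MvPolynomial (Fin n) R) :
    S17GM_kron (R := R) n D f = ∑ m ∈ f.support, C (f.coeff m) * X ^ (S17GM_e n D m) := by
  conv_lhs => rw [f.as_sum]
  rw [map_sum]
  exact Finset.sum_congr rfl fun m _ => S17GM_kron_monomial n D m _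

/-- coefficients of the Kronecker substitution, inside the box. -/
theorem S17GM_kron_coeff (f : MvPolynomial (Fin n) R)
    (hbox : ∀ m ∈ f.support, ∀ i, m i < D) (m : Fin n →₀ ℕ) (hm : ∀ i, m i < D) :
    (S17GM_kron (R := R) n D f).coeff (S17GM_e n D m) = f.coeff m := by
  classical
  rw [S17GM_kron_eq_sum, finsetSum_coeff]
  simp_rw [coeff_C_mul_X_pow]
  by_cases hmem : m ∈ f.support
  · rw [Finset.sum_eq_single m]
    · simp
    · intro m' hm' hne
      rw [if_neg]
      intro h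
      exact hne (S17GM_e_inj n D (hbox m' hm') hm h.symm)
    · intro h
      exact absurd hmem h
  · rw [Finset.sum_eq_zero]
    · exact (MvPolynomial.notMem_support_iff.mp hmem).symm
    · intro m' hm'
      rw [if_neg]
      intro h
      have := S17GM_e_inj n D hm (hbox m' hm') h
      exact hmem (this ▸ hm')

/-- every nonzero coefficient of the Kronecker substitution is a coefficient of `f`. -/
theorem S17GM_kron_coeff_ne_zero (f : MvPolynomial (Fin n) R)
    (hbox : ∀ m ∈ f.support, ∀ i, m i < D) (j : ℕ)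
    (hj : (S17GM_kron (R := R) n D f).coeff j ≠ 0) :
    ∃ m ∈ f.support, S17GM_e n D m = j ∧
      (S17GM_kron (R := R) n D f).coeff j = f.coeff m := by
  classical
  have h1 : ∃ m ∈ f.support, j = S17GM_e n D m := by
    by_contra hcon
    push Not at hcon
    apply hj
    rw [S17GM_kron_eq_sum, finsetSum_coeff]
    refine Finset.sum_eq_zero fun m hm => ?_
    rw [coeff_C_mul_X_pow, if_neg (hcon m hm)]
  obtain ⟨m, hm, rfl⟩ := h1
  exact ⟨m, hm, rfl, S17GM_kron_coeff n D f hbox m (hbox m hm)⟩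

theorem S17GM_kron_natDegree_lt (f : MvPolynomial (Fin n) R)
    (hbox : ∀ m ∈ f.support, ∀ i, m i < D) :
    (S17GM_kron (R := R) n D f).natDegree ≤ D ^ n := by
  rw [natDegree_le_iff_coeff_eq_zero]
  intro N hN
  by_contra hne
  obtain ⟨m, hm, rfl, -⟩ := S17GM_kron_coeff_ne_zero n D f hbox N hne
  exact absurd (S17GM_e_lt n D (hbox m hm)) (by omega)

end kron

section norm

variable {σ : Type*}

/-- the sup norm `max |coeff|` of an integer polynomial in several variables. -/
noncomputable def S17GM_norm (f : MvPolynomial σ ℤ) : ℕ :=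
  f.support.sup fun m => (f.coeff m).natAbs

theorem S17GM_le_norm (f : MvPolynomial σ ℤ) (m : σ →₀ ℕ) :
    (f.coeff m).natAbs ≤ S17GM_norm f := by
  by_cases hm : m ∈ f.support
  · exact Finset.le_sup (f := fun m => (f.coeff m).natAbs) hm
  · rw [MvPolynomial.notMem_support_iff.mp hm]
    simp

theorem S17GM_exists_eq_norm (f : MvPolynomial σ ℤ) (hf : f ≠ 0) :
    ∃ m ∈ f.support, (f.coeff m).natAbs = S17GM_norm f := by
  have hne : f.support.Nonempty := by
    rw [Finset.nonempty_iff_ne_empty]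
    intro h
    exact hf (MvPolynomial.support_eq_empty.mp h)
  obtain ⟨m, hm, h⟩ := Finset.exists_mem_eq_sup f.support hne fun m => (f.coeff m).natAbs
  exact ⟨m, hm, h.symm⟩

theorem S17GM_norm_zero : S17GM_norm (0 : MvPolynomial σ ℤ) = 0 := by
  simp [S17GM_norm]

theorem S17GM_norm_pos {f : MvPolynomial σ ℤ} (hf : f ≠ 0) : 0 < S17GM_norm f := by
  obtain ⟨m, hm, h⟩ := S17GM_exists_eq_norm f hf
  rw [← h]
  exact Int.natAbs_pos.mpr (MvPolynomial.mem_support_iff.mp hm)

end norm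

section gelfond

variable (n D : ℕ)

/-- the sup norm of the Kronecker substitution is the sup norm of `f`. -/
theorem S17GM_supNorm_kron (f : MvPolynomial (Fin n) ℤ)
    (hbox : ∀ m ∈ f.support, ∀ i, m i < D) :
    ((S17GM_kron (R := ℤ) n D f).map (Int.castRingHom ℂ)).supNorm = (S17GM_norm f : ℝ) := by
  set P := (S17GM_kron (R := ℤ) n D f).map (Int.castRingHom ℂ) with hP
  have hcoeff : ∀ j, ‖P.coeff j‖ = (((S17GM_kron (R := ℤ) n D f).coeff j).natAbs : ℝ) := by
    intro j
    rw [hP, coeff_map, eq_intCast, Complex.norm_intCast, Nat.cast_natAbs, Int.cast_abs]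
  apply le_antisymm
  · obtain ⟨j, hj⟩ := P.exists_eq_supNorm
    rw [hj, hcoeff]
    by_cases h0 : (S17GM_kron (R := ℤ) n D f).coeff j = 0
    · rw [h0]
      simp
    · obtain ⟨m, hm, -, hc⟩ := S17GM_kron_coeff_ne_zero n D f hbox j h0
      rw [hc]
      exact_mod_cast S17GM_le_norm f m
  · by_cases hf : f = 0
    · subst hf
      rw [S17GM_norm_zero]
      simpa using P.supNorm_nonneg
    · obtain ⟨m, hm, h⟩ := S17GM_exists_eq_norm f hf
      rw [← h, ← S17GM_kron_coeff n D f hbox m (hbox m hm), ← hcoeff]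
      exact P.le_supNorm _

/-- **Gelfond's inequality** for integer polynomials in `n` variables: if all exponents of `f`
and of `g` are `< D₁`, then `‖f‖·‖g‖ ≤ 2^((2D₁)^n)·((2D₁)^n + 1)·‖f·g‖`. -/
theorem S17GM_gelfond (D₁ : ℕ) (f g : MvPolynomial (Fin n) ℤ)
    (hf : ∀ m ∈ f.support, ∀ i, m i < D₁) (hg : ∀ m ∈ g.support, ∀ i, m i < D₁) :
    (S17GM_norm f : ℝ) * S17GM_norm g ≤
      2 ^ ((2 * D₁) ^ n) * (((2 * D₁) ^ n : ℕ) + 1) * S17GM_norm (f * g) := by
  classical
  have hf' : ∀ m ∈ f.support, ∀ i, m i < 2 * D₁ := fun m hm i => by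
    have := hf m hm i; omega
  have hg' : ∀ m ∈ g.support, ∀ i, m i < 2 * D₁ := fun m hm i => by
    have := hg m hm i; omega
  have hfg : ∀ m ∈ (f * g).support, ∀ i, m i < 2 * D₁ := by
    intro m hm i
    have h1 := MvPolynomial.support_mul f g hm
    rw [Finset.mem_add] at h1
    obtain ⟨a, ha, b, hb, rfl⟩ := h1
    have := hf a ha i
    have := hg b hb i
    simp only [Finsupp.coe_add, Pi.add_apply]
    omega
  set P := (S17GM_kron (R := ℤ) n (2 * D₁) f).map (Int.castRingHom ℂ) with hP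
  set Q := (S17GM_kron (R := ℤ) n (2 * D₁) g).map (Int.castRingHom ℂ) with hQ
  have hPQ : P * Q = (S17GM_kron (R := ℤ) n (2 * D₁) (f * g)).map (Int.castRingHom ℂ) := by
    rw [hP, hQ, map_mul, Polynomial.map_mul]
  have hdeg : (P * Q).natDegree ≤ (2 * D₁) ^ n := by
    rw [hPQ]
    exact (natDegree_map_le).trans (S17GM_kron_natDegree_lt n (2 * D₁) (f * g) hfg)
  have key := S17GM_gelfond_C P Q
  rw [S17GM_supNorm_kron n (2 * D₁) f hf', S17GM_supNorm_kron n (2 * D₁) g hg', hPQ,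
    S17GM_supNorm_kron n (2 * D₁) (f * g) hfg, ← hPQ] at key
  refine key.trans ?_
  have h2 : (2 : ℝ) ^ (P * Q).natDegree ≤ 2 ^ ((2 * D₁) ^ n) :=
    pow_le_pow_right₀ (by norm_num) hdeg
  have h3 : (((P * Q).natDegree : ℝ) + 1) ≤ (((2 * D₁) ^ n : ℕ) : ℝ) + 1 := by
    have : ((P * Q).natDegree : ℝ) ≤ (((2 * D₁) ^ n : ℕ) : ℝ) := by exact_mod_cast hdeg
    linarith
  have h4 : (0 : ℝ) ≤ (S17GM_norm (f * g) : ℝ) := by positivity
  have h5 : (0 : ℝ) ≤ ((P * Q).natDegree : ℝ) + 1 := by positivity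
  have h6 : (0 : ℝ) ≤ (2 : ℝ) ^ ((2 * D₁) ^ n) := by positivity
  exact mul_le_mul_of_nonneg_right (mul_le_mul h2 h3 h5 h6) h4

end gelfond

section places

variable {K : Type*} [Field K] (n D : ℕ)

/-- the Gauss norm (radius `1`) of the Kronecker substitution is the sup of the absolute values
of the coefficients of `f`. -/
theorem S17GM_gaussNorm_kron (v : AbsoluteValue K ℝ) (f : MvPolynomial (Fin n) K)
    (hbox : ∀ m ∈ f.support, ∀ i, m i < D) :
    (S17GM_kron (R := K) n D f).gaussNorm v 1 = ⨆ m : f.support, v (f.coeff m) := by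
  set P := S17GM_kron (R := K) n D f with hP
  apply le_antisymm
  · obtain ⟨j, hj⟩ := P.exists_eq_gaussNorm v 1
    rw [hj, one_pow, mul_one]
    by_cases h0 : P.coeff j = 0
    · rw [h0, map_zero]
      exact Real.iSup_nonneg fun m => v.nonneg _
    · obtain ⟨m, hm, -, hc⟩ := S17GM_kron_coeff_ne_zero n D f hbox j h0
      rw [hc]
      exact le_ciSup (f := fun m : f.support => v (f.coeff m)) (Finite.bddAbove_range _) ⟨m, hm⟩
  · apply Real.iSup_le _ (P.gaussNorm_nonneg v zero_le_one)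
    rintro ⟨m, hm⟩
    have := P.le_gaussNorm v zero_le_one (S17GM_e n D m)
    rw [one_pow, mul_one, hP, S17GM_kron_coeff n D f hbox m (hbox m hm)] at this
    exact this

/-- sup norm of the image under a complex embedding = Gauss norm for the induced absolute
value. -/
theorem S17GM_supNorm_map (v : AbsoluteValue K ℝ) (φ : K →+* ℂ) (hφ : ∀ x, v x = ‖φ x‖)
    (p : K[X]) : (p.map φ).supNorm = p.gaussNorm v 1 := by
  apply le_antisymm
  · obtain ⟨i, hi⟩ := (p.map φ).exists_eq_supNorm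
    rw [hi, coeff_map, ← hφ]
    have := p.le_gaussNorm v zero_le_one i
    rwa [one_pow, mul_one] at this
  · obtain ⟨i, hi⟩ := p.exists_eq_gaussNorm v 1
    rw [hi, one_pow, mul_one, hφ, ← coeff_map]
    exact (p.map φ).le_supNorm i

/-- trivial upper bound for the sup norm of a product over `ℂ`. -/
theorem S17GM_supNorm_mul_le (p q : ℂ[X]) :
    (p * q).supNorm ≤ ((p * q).natDegree + 1) * (p.supNorm * q.supNorm) := by
  obtain ⟨i, hi⟩ := (p * q).exists_eq_supNorm
  rw [hi]
  by_cases hdeg : (p * q).natDegree < i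
  · rw [coeff_eq_zero_of_natDegree_lt hdeg, norm_zero]
    exact mul_nonneg (by positivity) (mul_nonneg p.supNorm_nonneg q.supNorm_nonneg)
  · rw [coeff_mul]
    refine (norm_sum_le _ _).trans ?_
    have h1 : ∀ x ∈ Finset.HasAntidiagonal.antidiagonal i, ‖p.coeff x.1 * q.coeff x.2‖ ≤
        p.supNorm * q.supNorm := by
      intro x _
      rw [norm_mul]
      exact mul_le_mul (p.le_supNorm _) (q.le_supNorm _) (norm_nonneg _) p.supNorm_nonneg
    refine (Finset.sum_le_card_nsmul _ _ _ h1).trans ?_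
    rw [Finset.Nat.card_antidiagonal, nsmul_eq_mul]
    have h2 : ((i + 1 : ℕ) : ℝ) ≤ ((p * q).natDegree : ℝ) + 1 := by
      have : i ≤ (p * q).natDegree := not_lt.mp hdeg
      exact_mod_cast Nat.succ_le_succ this
    exact mul_le_mul_of_nonneg_right h2 (mul_nonneg p.supNorm_nonneg q.supNorm_nonneg)

/-- box condition for a product. -/
theorem S17GM_box_mul (D₁ : ℕ) (f g : MvPolynomial (Fin n) K)
    (hf : ∀ m ∈ f.support, ∀ i, m i < D₁) (hg : ∀ m ∈ g.support, ∀ i, m i < D₁) :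
    ∀ m ∈ (f * g).support, ∀ i, m i < 2 * D₁ := by
  classical
  intro m hm i
  have h1 := MvPolynomial.support_mul f g hm
  rw [Finset.mem_add] at h1
  obtain ⟨a, ha, b, hb, rfl⟩ := h1
  have := hf a ha i
  have := hg b hb i
  simp only [Finsupp.coe_add, Pi.add_apply]
  omega

/-- **nonarchimedean place (Gauss)**: the sup of the absolute values of the coefficients is
multiplicative. -/
theorem S17GM_nonarch (v : AbsoluteValue K ℝ) (hv : IsNonarchimedean v) (D₁ : ℕ)
    (f g : MvPolynomial (Fin n) K)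
    (hf : ∀ m ∈ f.support, ∀ i, m i < D₁) (hg : ∀ m ∈ g.support, ∀ i, m i < D₁) :
    (⨆ m : (f * g).support, v ((f * g).coeff m)) =
      (⨆ m : f.support, v (f.coeff m)) * ⨆ m : g.support, v (g.coeff m) := by
  have hf' : ∀ m ∈ f.support, ∀ i, m i < 2 * D₁ := fun m hm i => by
    have := hf m hm i; omega
  have hg' : ∀ m ∈ g.support, ∀ i, m i < 2 * D₁ := fun m hm i => by
    have := hg m hm i; omega
  rw [← S17GM_gaussNorm_kron n (2 * D₁) v f hf', ← S17GM_gaussNorm_kron n (2 * D₁) v g hg',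
    ← S17GM_gaussNorm_kron n (2 * D₁) v (f * g) (S17GM_box_mul n D₁ f g hf hg), map_mul]
  exact Polynomial.gaussNorm_mul hv one_pos _ _

/-- **archimedean place (Gelfond)**: two-sided comparison. -/
theorem S17GM_arch (v : AbsoluteValue K ℝ) (φ : K →+* ℂ) (hφ : ∀ x, v x = ‖φ x‖) (D₁ : ℕ)
    (f g : MvPolynomial (Fin n) K)
    (hf : ∀ m ∈ f.support, ∀ i, m i < D₁) (hg : ∀ m ∈ g.support, ∀ i, m i < D₁) :
    (⨆ m : f.support, v (f.coeff m)) * (⨆ m : g.support, v (g.coeff m)) ≤
        2 ^ ((2 * D₁) ^ n) * (((2 * D₁) ^ n : ℕ) + 1) * (⨆ m : (f * g).support, v ((f * g).coeff m))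
      ∧ (⨆ m : (f * g).support, v ((f * g).coeff m)) ≤
        (((2 * D₁) ^ n : ℕ) + 1) *
          ((⨆ m : f.support, v (f.coeff m)) * ⨆ m : g.support, v (g.coeff m)) := by
  have hf' : ∀ m ∈ f.support, ∀ i, m i < 2 * D₁ := fun m hm i => by
    have := hf m hm i; omega
  have hg' : ∀ m ∈ g.support, ∀ i, m i < 2 * D₁ := fun m hm i => by
    have := hg m hm i; omega
  have hfg := S17GM_box_mul n D₁ f g hf hg
  rw [← S17GM_gaussNorm_kron n (2 * D₁) v f hf', ← S17GM_gaussNorm_kron n (2 * D₁) v g hg',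
    ← S17GM_gaussNorm_kron n (2 * D₁) v (f * g) hfg,
    ← S17GM_supNorm_map v φ hφ, ← S17GM_supNorm_map v φ hφ, ← S17GM_supNorm_map v φ hφ]
  set P := (S17GM_kron (R := K) n (2 * D₁) f).map φ with hP
  set Q := (S17GM_kron (R := K) n (2 * D₁) g).map φ with hQ
  have hPQ : (S17GM_kron (R := K) n (2 * D₁) (f * g)).map φ = P * Q := by
    rw [hP, hQ, map_mul, Polynomial.map_mul]
  rw [hPQ]
  have hdeg : (P * Q).natDegree ≤ (2 * D₁) ^ n := by
    rw [← hPQ]
    exact (natDegree_map_le).trans (S17GM_kron_natDegree_lt n (2 * D₁) (f * g) hfg)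
  have h2 : (2 : ℝ) ^ (P * Q).natDegree ≤ 2 ^ ((2 * D₁) ^ n) :=
    pow_le_pow_right₀ (by norm_num) hdeg
  have h3 : (((P * Q).natDegree : ℝ) + 1) ≤ (((2 * D₁) ^ n : ℕ) : ℝ) + 1 := by
    have : ((P * Q).natDegree : ℝ) ≤ (((2 * D₁) ^ n : ℕ) : ℝ) := by exact_mod_cast hdeg
    linarith
  have h4 : (0 : ℝ) ≤ (P * Q).supNorm := (P * Q).supNorm_nonneg
  have h5 : (0 : ℝ) ≤ ((P * Q).natDegree : ℝ) + 1 := by positivity
  have h6 : (0 : ℝ) ≤ (2 : ℝ) ^ ((2 * D₁) ^ n) := by positivity
  refine ⟨(S17GM_gelfond_C P Q).trans ?_, (S17GM_supNorm_mul_le P Q).trans ?_⟩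
  · exact mul_le_mul_of_nonneg_right (mul_le_mul h2 h3 h5 h6) h4
  · exact mul_le_mul_of_nonneg_right h3 (mul_nonneg P.supNorm_nonneg Q.supNorm_nonneg)

end places

section height

open Height AdmissibleAbsValues

variable {K : Type*} [Field K] [AdmissibleAbsValues K]

/-- the coefficient family of a polynomial in several variables (indexed by its support, as in
`Finsupp.mulHeight`). -/
def S17GM_cf {σ : Type*} (f : MvPolynomial σ K) : f.support → K := fun m => f.coeff m

omit [AdmissibleAbsValues K] in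
theorem S17GM_cf_ne_zero {σ : Type*} {f : MvPolynomial σ K} (hf : f ≠ 0) : S17GM_cf f ≠ 0 := by
  have hne : f.support.Nonempty := by
    rw [Finset.nonempty_iff_ne_empty]
    intro h
    exact hf (MvPolynomial.support_eq_empty.mp h)
  obtain ⟨m, hm⟩ := hne
  intro h0
  have := congrFun h0 ⟨m, hm⟩
  exact (MvPolynomial.mem_support_iff.mp hm) this

/-- constant power extracted from a product over a multiset. -/
theorem S17GM_prod_map_const_mul {α : Type*} (s : Multiset α) (C : ℝ) (c : α → ℝ) :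
    (s.map fun v => C * c v).prod = C ^ (Multiset.card s) * (s.map c).prod := by
  rw [Multiset.prod_map_mul, Multiset.map_const', Multiset.prod_replicate]

/-- **Gauss–Mahler**, multiplicative form: the height of the coefficient vector of `f·g` is the
product of the heights of `f` and `g` up to the factor `C^[K:ℚ]`. -/
theorem S17GM_mulHeight
    (harch : ∀ v ∈ archAbsVal (K := K), ∃ φ : K →+* ℂ, ∀ x, v x = ‖φ x‖)
    (n D₁ : ℕ) (f g : MvPolynomial (Fin n) K) (hf0 : f ≠ 0) (hg0 : g ≠ 0)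
    (hf : ∀ m ∈ f.support, ∀ i, m i < D₁) (hg : ∀ m ∈ g.support, ∀ i, m i < D₁) :
    mulHeight (S17GM_cf f) * mulHeight (S17GM_cf g) ≤
        ((2 : ℝ) ^ ((2 * D₁) ^ n) * (((2 * D₁) ^ n : ℕ) + 1)) ^ totalWeight K
          * mulHeight (S17GM_cf (f * g))
      ∧ mulHeight (S17GM_cf (f * g)) ≤
        ((((2 * D₁) ^ n : ℕ) : ℝ) + 1) ^ totalWeight K
          * (mulHeight (S17GM_cf f) * mulHeight (S17GM_cf g)) := by
  have hfg0 : f * g ≠ 0 := mul_ne_zero hf0 hg0
  have hx := S17GM_cf_ne_zero hf0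
  have hy := S17GM_cf_ne_zero hg0
  have hz := S17GM_cf_ne_zero hfg0
  rw [← mulHeight_fun_mul_eq hx hy]
  have hxy : (fun a : f.support × g.support => S17GM_cf f a.1 * S17GM_cf g a.2) ≠ 0 := by
    obtain ⟨i, hi⟩ := Function.ne_iff.mp hx
    obtain ⟨j, hj⟩ := Function.ne_iff.mp hy
    exact Function.ne_iff.mpr ⟨⟨i, j⟩, mul_ne_zero hi hj⟩
  rw [mulHeight_eq hxy, mulHeight_eq hz]
  -- the nonarchimedean parts agree
  have hfin : (∏ᶠ v : nonarchAbsVal (K := K),
        ⨆ a : f.support × g.support, v.val (S17GM_cf f a.1 * S17GM_cf g a.2))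
      = ∏ᶠ v : nonarchAbsVal (K := K), ⨆ m : (f * g).support, v.val (S17GM_cf (f * g) m) := by
    refine finprod_congr fun v => ?_
    rw [Real.iSup_fun_mul_eq_iSup_mul_iSup_of_nonneg v.val (S17GM_cf f) (S17GM_cf g)]
    exact (S17GM_nonarch n v.val (isNonarchimedean v.val v.2) D₁ f g hf hg).symm
  rw [hfin]
  set Pf : ℝ := ∏ᶠ v : nonarchAbsVal (K := K), ⨆ m : (f * g).support,
    v.val (S17GM_cf (f * g) m) with hPf
  have hPf0 : 0 ≤ Pf := finprod_nonneg fun v => Real.iSup_nonneg fun m => v.val.nonneg _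
  have harchv : ∀ v ∈ archAbsVal (K := K),
      (⨆ a : f.support × g.support, v (S17GM_cf f a.1 * S17GM_cf g a.2)) ≤
          2 ^ ((2 * D₁) ^ n) * (((2 * D₁) ^ n : ℕ) + 1)
            * (⨆ m : (f * g).support, v (S17GM_cf (f * g) m))
        ∧ (⨆ m : (f * g).support, v (S17GM_cf (f * g) m)) ≤
          (((2 * D₁) ^ n : ℕ) + 1) *
            (⨆ a : f.support × g.support, v (S17GM_cf f a.1 * S17GM_cf g a.2)) := by
    intro v hv
    obtain ⟨φ, hφ⟩ := harch v hv
    rw [Real.iSup_fun_mul_eq_iSup_mul_iSup_of_nonneg v (S17GM_cf f) (S17GM_cf g)]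
    exact S17GM_arch n v φ hφ D₁ f g hf hg
  constructor
  · rw [totalWeight, ← mul_assoc, ← S17GM_prod_map_const_mul]
    refine mul_le_mul_of_nonneg_right ?_ hPf0
    exact Multiset.prod_map_le_prod_map₀ _ _
      (fun v _ => Real.iSup_nonneg fun m => v.nonneg _) fun v hv => (harchv v hv).1
  · rw [totalWeight, ← mul_assoc, ← S17GM_prod_map_const_mul]
    refine mul_le_mul_of_nonneg_right ?_ hPf0
    exact Multiset.prod_map_le_prod_map₀ _ _
      (fun v _ => Real.iSup_nonneg fun m => v.nonneg _) fun v hv => (harchv v hv).2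

/-- the Gauss–Mahler constant for `n` variables and exponents `< D₁`. -/
noncomputable def S17GM_const (n D₁ : ℕ) : ℝ :=
  (2 : ℝ) ^ ((2 * D₁) ^ n) * (((2 * D₁) ^ n : ℕ) + 1)

theorem S17GM_one_le_const (n D₁ : ℕ) : 1 ≤ S17GM_const n D₁ := by
  unfold S17GM_const
  have h1 : (1 : ℝ) ≤ (2 : ℝ) ^ ((2 * D₁) ^ n) := one_le_pow₀ (by norm_num)
  have h2 : (1 : ℝ) ≤ (((2 * D₁) ^ n : ℕ) : ℝ) + 1 := by
    have : (0 : ℝ) ≤ (((2 * D₁) ^ n : ℕ) : ℝ) := by positivity
    linarith
  calc (1 : ℝ) = 1 * 1 := by ring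
    _ ≤ _ := mul_le_mul h1 h2 (by norm_num) (by positivity)

/-- **Gauss–Mahler**, logarithmic form (exponents `< D₁`, `n` variables). -/
theorem S17GM_logHeight
    (harch : ∀ v ∈ archAbsVal (K := K), ∃ φ : K →+* ℂ, ∀ x, v x = ‖φ x‖)
    (n D₁ : ℕ) (f g : MvPolynomial (Fin n) K) (hf0 : f ≠ 0) (hg0 : g ≠ 0)
    (hf : ∀ m ∈ f.support, ∀ i, m i < D₁) (hg : ∀ m ∈ g.support, ∀ i, m i < D₁) :
    |logHeight (S17GM_cf (f * g)) - logHeight (S17GM_cf f) - logHeight (S17GM_cf g)| ≤
      totalWeight K * Real.log (S17GM_const n D₁) := by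
  obtain ⟨h1, h2⟩ := S17GM_mulHeight harch n D₁ f g hf0 hg0 hf hg
  have hC1 := S17GM_one_le_const n D₁
  have hC0 : 0 < S17GM_const n D₁ := lt_of_lt_of_le one_pos hC1
  have hHf := mulHeight_pos (S17GM_cf f)
  have hHg := mulHeight_pos (S17GM_cf g)
  have hHfg := mulHeight_pos (S17GM_cf (f * g))
  have hC2 : (((2 * D₁) ^ n : ℕ) : ℝ) + 1 ≤ S17GM_const n D₁ := by
    unfold S17GM_const
    have h1 : (1 : ℝ) ≤ (2 : ℝ) ^ ((2 * D₁) ^ n) := one_le_pow₀ (by norm_num)
    have h0 : (0 : ℝ) ≤ (((2 * D₁) ^ n : ℕ) : ℝ) + 1 := by positivity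
    calc (((2 * D₁) ^ n : ℕ) : ℝ) + 1 = 1 * ((((2 * D₁) ^ n : ℕ) : ℝ) + 1) := by ring
      _ ≤ _ := mul_le_mul_of_nonneg_right h1 h0
  have h2' : mulHeight (S17GM_cf (f * g)) ≤
      S17GM_const n D₁ ^ totalWeight K * (mulHeight (S17GM_cf f) * mulHeight (S17GM_cf g)) := by
    refine h2.trans ?_
    refine mul_le_mul_of_nonneg_right ?_ (mul_nonneg hHf.le hHg.le)
    exact pow_le_pow_left₀ (by positivity) hC2 _
  have h1' : mulHeight (S17GM_cf f) * mulHeight (S17GM_cf g) ≤
      S17GM_const n D₁ ^ totalWeight K * mulHeight (S17GM_cf (f * g)) := h1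
  simp only [logHeight_eq_log_mulHeight]
  have e1 := Real.log_le_log (mul_pos hHf hHg) h1'
  have e2 := Real.log_le_log hHfg h2'
  rw [Real.log_mul (pow_pos hC0 _).ne' hHfg.ne', Real.log_pow,
    Real.log_mul hHf.ne' hHg.ne'] at e1
  rw [Real.log_mul (pow_pos hC0 _).ne' (mul_pos hHf hHg).ne', Real.log_pow,
    Real.log_mul hHf.ne' hHg.ne'] at e2
  rw [abs_le]
  constructor <;> linarith

/-- a total-degree bound gives the box condition. -/
theorem S17GM_box_of_totalDegree {R : Type*} [CommSemiring R] {n : ℕ}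
    (f : MvPolynomial (Fin n) R) (d : ℕ) (hd : f.totalDegree ≤ d) :
    ∀ m ∈ f.support, ∀ i, m i < d + 1 := by
  intro m hm i
  have h1 := MvPolynomial.le_totalDegree hm
  rw [Finsupp.sum_fintype _ _ (fun _ => rfl)] at h1
  have h2 : m i ≤ ∑ j, m j := Finset.single_le_sum (fun _ _ => Nat.zero_le _) (Finset.mem_univ i)
  omega

/-- **Gauss–Mahler** for polynomials of total degree `≤ d` in `n` variables. -/
theorem S17GM_logHeight_totalDegree
    (harch : ∀ v ∈ archAbsVal (K := K), ∃ φ : K →+* ℂ, ∀ x, v x = ‖φ x‖)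
    (n d : ℕ) (f g : MvPolynomial (Fin n) K) (hf0 : f ≠ 0) (hg0 : g ≠ 0)
    (hf : f.totalDegree ≤ d) (hg : g.totalDegree ≤ d) :
    |logHeight (S17GM_cf (f * g)) - logHeight (S17GM_cf f) - logHeight (S17GM_cf g)| ≤
      totalWeight K * Real.log (S17GM_const n (d + 1)) :=
  S17GM_logHeight harch n (d + 1) f g hf0 hg0 (S17GM_box_of_totalDegree f d hf)
    (S17GM_box_of_totalDegree g d hg)

end height

section numberField

open Height AdmissibleAbsValues NumberField

/-- the archimedean absolute values of a number field come from complex embeddings. -/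
theorem S17GM_harch_numberField (K : Type*) [Field K] [NumberField K] :
    ∀ v ∈ archAbsVal (K := K), ∃ φ : K →+* ℂ, ∀ x, v x = ‖φ x‖ := by
  intro v hv
  have h1 : IsInfinitePlace v := mem_multisetInfinitePlace.mp hv
  obtain ⟨φ, hφ⟩ := h1
  exact ⟨φ, fun x => by rw [← hφ]; rfl⟩

/-- **Gauss–Mahler over a number field** (Mathlib's relative height; the constant is
`[K : ℚ]·log C(n, d)`). -/
theorem S17GM_numberField (K : Type*) [Field K] [NumberField K]
    (n d : ℕ) (f g : MvPolynomial (Fin n) K) (hf0 : f ≠ 0) (hg0 : g ≠ 0)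
    (hf : f.totalDegree ≤ d) (hg : g.totalDegree ≤ d) :
    |logHeight (S17GM_cf (f * g)) - logHeight (S17GM_cf f) - logHeight (S17GM_cf g)| ≤
      Module.finrank ℚ K * Real.log (S17GM_const n (d + 1)) := by
  have := S17GM_logHeight_totalDegree (S17GM_harch_numberField K) n d f g hf0 hg0 hf hg
  rwa [totalWeight_eq_finrank] at this

/-- **Gauss–Mahler over `ℚ`**. -/
theorem S17GM_rat (n d : ℕ) (f g : MvPolynomial (Fin n) ℚ) (hf0 : f ≠ 0) (hg0 : g ≠ 0)
    (hf : f.totalDegree ≤ d) (hg : g.totalDegree ≤ d) :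
    |logHeight (S17GM_cf (f * g)) - logHeight (S17GM_cf f) - logHeight (S17GM_cf g)| ≤
      Real.log (S17GM_const n (d + 1)) := by
  have := S17GM_numberField ℚ n d f g hf0 hg0 hf hg
  simpa using this

end numberField

end Fermat.Agent.S17
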