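import Mathlib

/-!
# TRACK 8 (S17), pillar DIV, package P6 GEN (helper23): Nullstellensatz transfer

A finite polynomial system with one inequation over a field `F` which has a solution in SOME
field `Ω` receiving `F` has a solution in the algebraic closure of `F` (Rabinowitsch trick +
Zariski's lemma).  In the application `F` is the function field, `Ω` is the fraction field of
`K⟦τ⟧` (the completion of `F` at the base point `Q`), and the solution over `K⟦τ⟧` comes from the
formal implicit function theorem.

* `S17G_transfer_field` : the statement for a ring homomorphism `φ : F →+* Ω` of fields;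
* `S17G_transfer`       : the statement for a domain `R` with fraction field `F` and an injective
                          expansion map `E : R →+* K⟦τ⟧`.

Mathlib only.  Prefix `S17G_`.
-/

set_option autoImplicit false

open MvPolynomial

namespace Fermat.Agent.S17

section field

variable {F Ω : Type*} [Field F] [Field Ω]

/-- **Nullstellensatz transfer** (Rabinowitsch + Zariski's lemma): a polynomial system
`G k = 0`, `P ≠ 0` over `F` with a solution in a field `Ω ⊇ F` has a solution in the algebraic
closure of `F`. -/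
theorem S17G_transfer_field (φ : F →+* Ω) {ι κ : Type*} [Finite ι]
    (G : κ → MvPolynomial ι F) (P : MvPolynomial ι F) (y' : ι → Ω)
    (hG : ∀ k, eval₂ φ y' (G k) = 0) (hP : eval₂ φ y' P ≠ 0) :
    ∃ y : ι → AlgebraicClosure F, (∀ k, aeval y (G k) = 0) ∧ aeval y P ≠ 0 := by
  classical
  -- the Rabinowitsch ring
  let r : MvPolynomial ι F →ₐ[F] MvPolynomial (Option ι) F := rename Option.some
  let Z : MvPolynomial (Option ι) F := X none * r P - 1
  let I : Ideal (MvPolynomial (Option ι) F) :=
    Ideal.span (Set.range (fun k => r (G k)) ∪ {Z})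
  -- the `Ω`-point
  let pt : Option ι → Ω := fun o => o.elim (eval₂ φ y' P)⁻¹ y'
  let ev : MvPolynomial (Option ι) F →+* Ω := eval₂Hom φ pt
  have hev_r : ∀ p : MvPolynomial ι F, ev (r p) = eval₂ φ y' p := by
    intro p
    show eval₂ φ pt (rename Option.some p) = eval₂ φ y' p
    rw [eval₂_rename]
    rfl
  have hevI : I ≤ RingHom.ker ev := by
    rw [Ideal.span_le]
    rintro x (⟨k, rfl⟩ | hx)
    · show ev (r (G k)) = 0
      rw [hev_r, hG]
    · rw [Set.mem_singleton_iff] at hx
      subst hx
      show ev (X none * r P - 1) = 0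
      rw [map_sub, map_mul, hev_r, map_one]
      have : ev (X none) = (eval₂ φ y' P)⁻¹ := by
        show eval₂ φ pt (X none) = _
        rw [eval₂_X]
        rfl
      rw [this, inv_mul_cancel₀ hP, sub_self]
  have hI : I ≠ ⊤ := by
    intro h
    have h1 : (1 : MvPolynomial (Option ι) F) ∈ RingHom.ker ev := hevI (h ▸ Submodule.mem_top)
    rw [RingHom.mem_ker, map_one] at h1
    exact one_ne_zero h1
  obtain ⟨𝔐, h𝔐, hI𝔐⟩ := Ideal.exists_le_maximal I hI
  let _ : Field (MvPolynomial (Option ι) F ⧸ 𝔐) := Ideal.Quotient.field 𝔐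
  have hft : Algebra.FiniteType F (MvPolynomial (Option ι) F ⧸ 𝔐) :=
    Algebra.FiniteType.of_surjective (Ideal.Quotient.mkₐ F 𝔐) Ideal.Quotient.mk_surjective
  have hfin : Module.Finite F (MvPolynomial (Option ι) F ⧸ 𝔐) :=
    finite_of_finite_type_of_isJacobsonRing F _
  have halg : Algebra.IsAlgebraic F (MvPolynomial (Option ι) F ⧸ 𝔐) :=
    Algebra.IsAlgebraic.of_finite F _
  let f : (MvPolynomial (Option ι) F ⧸ 𝔐) →ₐ[F] AlgebraicClosure F := IsAlgClosed.lift
  let q : MvPolynomial (Option ι) F →ₐ[F] AlgebraicClosure F := f.comp (Ideal.Quotient.mkₐ F 𝔐)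
  have hq0 : ∀ x ∈ I, q x = 0 := by
    intro x hx
    show f (Ideal.Quotient.mk 𝔐 x) = 0
    rw [Ideal.Quotient.eq_zero_iff_mem.mpr (hI𝔐 hx), map_zero]
  let y : ι → AlgebraicClosure F := fun i => q (X (some i))
  have hqr : ∀ p : MvPolynomial ι F, q (r p) = aeval y p := by
    intro p
    have : (q.comp r) = aeval y := by
      apply MvPolynomial.algHom_ext
      intro i
      show q (rename Option.some (X i)) = aeval y (X i)
      rw [rename_X, aeval_X]
    rw [← this]
    rfl
  refine ⟨y, fun k => ?_, ?_⟩
  · rw [← hqr]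
    exact hq0 _ (Ideal.subset_span (Or.inl ⟨k, rfl⟩))
  · intro h0
    have h1 : q Z = 0 := hq0 _ (Ideal.subset_span (Or.inr rfl))
    have h2 : q Z = q (X none) * aeval y P - 1 := by
      show q (X none * r P - 1) = _
      rw [map_sub, map_mul, hqr, map_one]
    rw [h2, h0, mul_zero, zero_sub] at h1
    exact one_ne_zero (neg_eq_zero.mp h1)

end field

section domain

variable {A R F Ω : Type*} [CommRing A] [CommRing R] [Field F] [Algebra R F]
  [IsFractionRing R F] [Field Ω]

/-- transfer along `R → A → Ω`, `Ω` a field, `R → Ω` injective. -/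
theorem S17G_transfer_aux (E : R →+* A) (ψ : A →+* Ω) (hψ : Function.Injective ψ)
    (hE : Function.Injective E)
    {ι κ : Type*} [Finite ι] (G : κ → MvPolynomial ι R) (P : MvPolynomial ι R)
    (yhat : ι → A)
    (hG : ∀ k, eval₂ E yhat (G k) = 0) (hP : eval₂ E yhat P ≠ 0) :
    ∃ y : ι → AlgebraicClosure F,
      (∀ k, eval₂ ((algebraMap F (AlgebraicClosure F)).comp (algebraMap R F)) y (G k) = 0) ∧
      eval₂ ((algebraMap F (AlgebraicClosure F)).comp (algebraMap R F)) y P ≠ 0 := by
  classical
  have hg : Function.Injective (ψ.comp E) := hψ.comp hE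
  have hφ : (IsFractionRing.lift hg : F →+* Ω).comp (algebraMap R F) = ψ.comp E := by
    ext x
    exact IsFractionRing.lift_algebraMap hg x
  have key : ∀ p : MvPolynomial ι R,
      eval₂ (IsFractionRing.lift hg : F →+* Ω) (fun i => ψ (yhat i)) (map (algebraMap R F) p)
        = ψ (eval₂ E yhat p) := by
    intro p
    rw [eval₂_map, hφ]
    exact (eval₂_comp_left ψ E yhat p).symm
  obtain ⟨y, hy, hyP⟩ := S17G_transfer_field (IsFractionRing.lift hg : F →+* Ω)
    (fun k => map (algebraMap R F) (G k)) (map (algebraMap R F) P) (fun i => ψ (yhat i))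
    (fun k => by rw [key, hG, map_zero])
    (by
      rw [key]
      intro h0
      exact hP (hψ (h0.trans (map_zero ψ).symm)))
  have key2 : ∀ p : MvPolynomial ι R,
      aeval y (map (algebraMap R F) p) =
        eval₂ ((algebraMap F (AlgebraicClosure F)).comp (algebraMap R F)) y p := by
    intro p
    rw [aeval_def, eval₂_map]
  refine ⟨y, fun k => ?_, ?_⟩
  · rw [← key2]
    exact hy k
  · rw [← key2]
    exact hyP

/-- **P6, transfer part**: a polynomial system over a domain `R` with fraction field `F` which
has a solution in `K⟦τ⟧` along an injective expansion map `E : R →+* K⟦τ⟧` has a solution in the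
algebraic closure of `F`. -/
theorem S17G_transfer {K : Type*} [Field K] (E : R →+* PowerSeries K)
    (hE : Function.Injective E)
    {ι κ : Type*} [Finite ι] (G : κ → MvPolynomial ι R) (P : MvPolynomial ι R)
    (yhat : ι → PowerSeries K)
    (hG : ∀ k, eval₂ E yhat (G k) = 0) (hP : eval₂ E yhat P ≠ 0) :
    ∃ y : ι → AlgebraicClosure F,
      (∀ k, eval₂ ((algebraMap F (AlgebraicClosure F)).comp (algebraMap R F)) y (G k) = 0) ∧
      eval₂ ((algebraMap F (AlgebraicClosure F)).comp (algebraMap R F)) y P ≠ 0 :=
  S17G_transfer_aux E (algebraMap (PowerSeries K) (FractionRing (PowerSeries K)))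
    (IsFractionRing.injective (PowerSeries K) (FractionRing (PowerSeries K))) hE G P yhat hG hP

end domain

end Fermat.Agent.S17
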