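import Fermat.Agent.S17.Gen
import Fermat.Agent.S17.FormalIFT

/-!
# TRACK 8 (S17), pillar DIV, package P6 GEN (helper23): from a base solution to a generic solution

`S17G_gen`: let `R` be a domain with fraction field `F`, `E : R →+* K⟦τ⟧` an injective expansion
map (the completion at the base point `Q`), `ε := constantCoeff ∘ E : R →+* K` (evaluation at
`Q`).  Let `G t` (`t : τ`) be polynomials over `R` in the unknowns `σ`, `P` a further polynomial
(the product of all inequations), and `y₀ : σ → K` a solution of the system specialised at `Q`:
`G t (y₀) = 0`, `P (y₀) ≠ 0`, at which the Jacobian (over `K`) is surjective.  Then the system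
`G t = 0`, `P ≠ 0` has a solution in the algebraic closure of `F`.

Proof: formal implicit function theorem (`S17IFT_powerSeries`, helper3) over `K⟦τ⟧`, then the
Nullstellensatz transfer `S17G_transfer`.
-/

set_option autoImplicit false

open MvPolynomial

namespace Fermat.Agent.S17

variable {K R F : Type*} [Field K] [CommRing R] [Field F] [Algebra R F] [IsFractionRing R F]
  {σ τ : Type*} [Fintype σ] [Fintype τ] [DecidableEq σ] [DecidableEq τ]

/-- evaluation at the base point: `ε = constantCoeff ∘ E`. -/
noncomputable def S17G_eps (E : R →+* PowerSeries K) : R →+* K :=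
  (PowerSeries.constantCoeff (R := K)).comp E

omit [DecidableEq σ] [Fintype σ] in
theorem S17G_constantCoeff_eval₂ (E : R →+* PowerSeries K) (y : σ → PowerSeries K)
    (p : MvPolynomial σ R) :
    PowerSeries.constantCoeff (eval₂ E y p)
      = eval₂ (S17G_eps E) (fun s => PowerSeries.constantCoeff (y s)) p := by
  rw [S17G_eps]
  exact eval₂_comp_left (PowerSeries.constantCoeff (R := K)) E y p

omit [DecidableEq σ] in
/-- **P6 GEN**: a nondegenerate solution at the base point gives a solution over the algebraic
closure of the function field. -/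
theorem S17G_gen (E : R →+* PowerSeries K) (hE : Function.Injective E)
    (G : τ → MvPolynomial σ R) (P : MvPolynomial σ R) (y₀ : σ → K)
    (hG : ∀ t, eval₂ (S17G_eps E) y₀ (G t) = 0)
    (hP : eval₂ (S17G_eps E) y₀ P ≠ 0)
    (hJ : Function.Surjective (fun (v : σ → K) (t : τ) =>
      ∑ s, eval₂ (S17G_eps E) y₀ (pderiv s (G t)) * v s)) :
    ∃ y : σ → AlgebraicClosure F,
      (∀ t, eval₂ ((algebraMap F (AlgebraicClosure F)).comp (algebraMap R F)) y (G t) = 0) ∧
      eval₂ ((algebraMap F (AlgebraicClosure F)).comp (algebraMap R F)) y P ≠ 0 := by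
  classical
  -- the constant power series
  set yc : σ → PowerSeries K := fun s => PowerSeries.C (y₀ s) with hyc
  have hcc : (fun s => PowerSeries.constantCoeff (yc s)) = y₀ := by
    funext s
    simp [hyc]
  have hev : ∀ p : MvPolynomial σ R,
      PowerSeries.constantCoeff (eval yc (map E p)) = eval₂ (S17G_eps E) y₀ p := by
    intro p
    rw [eval_map, S17G_constantCoeff_eval₂, hcc]
  obtain ⟨yhat, hy0, hy⟩ := S17IFT_powerSeries (fun t => map E (G t)) yc
    (fun t => by rw [hev, hG])
    (by
      have : (fun (v : σ → K) (t : τ) =>
          ∑ s, PowerSeries.constantCoeff (eval yc (pderiv s (map E (G t)))) * v s)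
          = (fun (v : σ → K) (t : τ) =>
            ∑ s, eval₂ (S17G_eps E) y₀ (pderiv s (G t)) * v s) := by
        funext v t
        refine Finset.sum_congr rfl fun s _ => ?_
        rw [pderiv_map, hev]
      rw [this]
      exact hJ)
  have hcc' : (fun s => PowerSeries.constantCoeff (yhat s)) = y₀ := by
    funext s
    have := hy0 s
    rw [map_sub, sub_eq_zero] at this
    rw [this]
    simp [hyc]
  refine S17G_transfer E hE G P yhat (fun t => ?_) ?_
  · have := hy t
    rwa [eval_map] at this
  · intro h0
    apply hP
    have := S17G_constantCoeff_eval₂ E yhat P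
    rw [h0, map_zero, hcc'] at this
    exact this.symm

end Fermat.Agent.S17
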