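import Mathlib
import Fermat.Agent.S17.Iface
import Fermat.Agent.Lib.RiemannThm
import Fermat.Agent.Lib.RiemannCharZero
import Fermat.Agent.S24.EvDeg

/-!
# TRACK 8 "MW" (S17), package G0 (lead): the genus-zero case

If the function field `F / K` satisfies Riemann's theorem (`RR_Hyp`) and has genus `0`, then
every divisor of degree `0` is principal, so `Pic⁰(F) = 0`.  For `F = ℚ̄(X₀(N))` this gives
`AddGroup.FG (J₀(N)(ℚ̄)^{G_ℚ})` when the genus is `0` (`N = 5, 7, 13` among the primes `≥ 5`), so
that the heights packages of the track may assume `g ≥ 1`.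

* `S17G0_principal`   : `RR_Hyp`, `RR_genus = 0`, `deg D = 0` ⇒ `D` is principal.
* `S17G0_subsingleton`: `RR_Hyp`, `RR_genus = 0` ⇒ `Subsingleton (Pic0 K F)`.
* `S17G0_fg`          : `RR_genus ℚ̄ F_N = 0 ⇒ AddGroup.FG ↥(S17_JQ N)`.
-/

set_option autoImplicit false

open AlgebraicCurve ModularCurve

namespace Fermat.Agent.S17

open Fermat.Agent.Lib

section Abstract

variable {K F : Type*} [Field K] [Field F] [Algebra K F]

/-- genus `0`: a divisor of degree `0` is principal. -/
theorem S17G0_principal (h : RR_Hyp K F) (hg : RR_genus K F = 0) (D : Divisor K F)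
    (hD : D.degree = 0) : D ∈ Divisor.principal (K := K) (F := F) := by
  have hP := h.principal
  have hdeg := h.deg_one
  -- `ℓ(-D) ≥ deg(-D) + 1 - g = 1`
  have h1 := RR_riemann_ineq h (-D)
  rw [map_neg, hD, hg] at h1
  have hpos : 0 < Module.finrank K (riemannRochSpace (-D)) := by
    have : (0 : ℤ) < Module.finrank K (riemannRochSpace (-D)) := by
      simp only [neg_zero, zero_add, Nat.cast_zero, sub_zero] at h1
      linarith
    exact_mod_cast this
  obtain ⟨z, hz0, hz⟩ := RR_exists_ne_zero_of_finrank_pos hpos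
  have hnn : 0 ≤ -D + RR_div hP z := (RR_mem_iff_div hP hz0).1 hz
  have hdz : (-D + RR_div hP z).degree = 0 := by
    rw [map_add, map_neg, hD, RR_div_degree]; simp
  have hzero : -D + RR_div hP z = 0 := RR_eq_zero_of_degree_eq_zero hdeg hnn hdz
  have hDz : D = RR_div hP z := by
    have := congrArg (fun E => D + E) hzero
    simpa using this.symm
  refine ⟨z, hz0, fun v => ?_⟩
  rw [hDz, RR_div_apply]

/-- genus `0`: `Pic⁰(F)` is trivial. -/
theorem S17G0_subsingleton (h : RR_Hyp K F) (hg : RR_genus K F = 0) :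
    Subsingleton (Pic0 K F) := by
  refine ⟨fun x y => ?_⟩
  have key : ∀ x : Pic0 K F, x = 0 := by
    intro x
    obtain ⟨D, rfl⟩ := Pic0.mk_surjective x
    have hD : (D : Divisor K F).degree = 0 := Divisor.mem_degZero.1 D.2
    have hp := S17G0_principal h hg (D : Divisor K F) hD
    exact (QuotientAddGroup.eq_zero_iff D).2 (AddSubgroup.mem_addSubgroupOf.2 hp)
  rw [key x, key y]

end Abstract

/-- **G0**: if `X₀(N)` has genus `0`, then `J₀(N)(ℚ̄)^{G_ℚ}` is finitely generated (it is `0`). -/
theorem S17G0_fg (N : ℕ) [NeZero N]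
    (hg : RR_genus (AlgebraicClosure ℚ) ↥(modularFunctionFieldBar N) = 0) :
    AddGroup.FG ↥(S17_JQ N) := by
  have hRR : RR_Hyp (AlgebraicClosure ℚ) ↥(modularFunctionFieldBar N) := by
    have := Fermat.Agent.S24.finiteDimensional_jB N
    exact RR_hyp_of_charZero (Fermat.Agent.S24.transcendental_jB N)
  have : Subsingleton (JZero N) := S17G0_subsingleton hRR hg
  have : Subsingleton ↥(S17_JQ N) := ⟨fun a b => Subtype.ext (Subsingleton.elim _ _)⟩
  have : Finite ↥(S17_JQ N) := Finite.of_subsingleton
  exact AddGroup.fg_of_finite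

end Fermat.Agent.S17
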