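import Mathlib
import Fermat.Prelude.Def_AlgebraicCurve_BaseChangeGalois

/-!
# TRACK 8 (S17), heights, package MOVEH (helper23), part 0: Galois descent

`Ω` algebraically closed and algebraic over `k` (characteristic `0`), `G = Aut(Ω / k)` acting
semilinearly on an `Ω`-algebra `F` (a field).

* `S17MH_exists_lift` : every `k`-embedding `E → Ω` of an intermediate field extends to `G`;
* `S17MH_descent` : if `f ∈ F` is fixed by the subgroup fixing a finite extension `E / k`, then
  `f` is an `Ω`-linear combination of `G`-invariant elements `T j` ("Artin traces"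
  `∑_τ τ(b_j) · σ_τ f`), each in the `Ω`-span of the conjugates of `f`.
-/

set_option autoImplicit false

open AlgebraicCurve

namespace Fermat.Agent.S17

section lift

variable {k Ω : Type*} [Field k] [Field Ω] [Algebra k Ω] [IsAlgClosed Ω]
  [Algebra.IsAlgebraic k Ω]

/-- every embedding of an intermediate field into `Ω` extends to an automorphism of `Ω`. -/
theorem S17MH_exists_lift (E : IntermediateField k Ω) (τ : E →ₐ[k] Ω) :
    ∃ σ : Ω ≃ₐ[k] Ω, ∀ a : E, σ (a : Ω) = τ a := by
  have : IsAlgClosure k Ω := ⟨inferInstance, inferInstance⟩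
  have : Normal k Ω := IsAlgClosure.normal k Ω
  refine ⟨AlgEquiv.ofBijective (τ.liftNormal Ω)
    (Algebra.IsAlgebraic.algHom_bijective _), fun a => ?_⟩
  exact τ.liftNormal_commutes Ω a

end lift

section descent

variable {k Ω F : Type*} [Field k] [Field Ω] [Algebra k Ω] [IsAlgClosed Ω]
  [Algebra.IsAlgebraic k Ω] [CharZero k] [Field F] [Algebra Ω F]

/-- **Galois descent** (Artin's traces).  `G = Aut(Ω / k)` acts semilinearly on `F`; if `f` is
fixed by the subgroup fixing a finite extension `E / k`, then `f` is an `Ω`-linear combination of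
`G`-invariant elements, each of which is an `Ω`-linear combination of conjugates of `f`. -/
theorem S17MH_descent (ρ : (Ω ≃ₐ[k] Ω) →* SemilinearAut Ω F)
    (hρ : ∀ (σ : Ω ≃ₐ[k] Ω) (a : Ω), SemilinearAut.baseAut (ρ σ) a = σ a)
    (f : F) (E : IntermediateField k Ω) [FiniteDimensional k E]
    (hf : ∀ σ : Ω ≃ₐ[k] Ω, (∀ a ∈ E, σ a = a) → ρ σ • f = f) :
    ∃ (n : ℕ) (T : Fin n → F), (∀ j σ, ρ σ • T j = T j) ∧
      f ∈ Submodule.span Ω (Set.range T) ∧
      ∀ j, T j ∈ Submodule.span Ω (Set.range fun σ : Ω ≃ₐ[k] Ω => ρ σ • f) := by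
  classical
  -- semilinearity
  have hsl : ∀ (σ : Ω ≃ₐ[k] Ω) (a : Ω) (z : F), ρ σ • (a • z) = σ a • (ρ σ • z) := by
    intro σ a z
    rw [Algebra.smul_def, Algebra.smul_def, smul_mul', SemilinearAut.smul_algebraMap, hρ]
  -- lifts of the embeddings
  choose lift hlift using S17MH_exists_lift (k := k) (Ω := Ω) E
  -- `ρ σ (a f)` depends only on `σ|E`
  have hdep : ∀ (σ σ' : Ω ≃ₐ[k] Ω) (a : E), (∀ b : E, σ (b : Ω) = σ' (b : Ω)) →
      ρ σ • ((a : Ω) • f) = ρ σ' • ((a : Ω) • f) := by
    intro σ σ' a h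
    have hη : ∀ b ∈ E, (σ'⁻¹ * σ) b = b := by
      intro b hb
      show σ'.symm (σ b) = b
      rw [h ⟨b, hb⟩]
      exact σ'.symm_apply_apply b
    have h1 : ρ (σ'⁻¹ * σ) • ((a : Ω) • f) = (a : Ω) • f := by
      rw [hsl, hf _ hη, hη a a.2]
    have h2 : σ = σ' * (σ'⁻¹ * σ) := by group
    rw [h2, map_mul, mul_smul, h1]
  -- the traces
  let T : E → F := fun a => ∑ τ : E →ₐ[k] Ω, ρ (lift τ) • ((a : Ω) • f)
  have hT : ∀ (a : E) (σ : Ω ≃ₐ[k] Ω), ρ σ • T a = T a := by
    intro a σ
    show ρ σ • ∑ τ : E →ₐ[k] Ω, ρ (lift τ) • ((a : Ω) • f) = _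
    rw [Finset.smul_sum]
    let e : (E →ₐ[k] Ω) ≃ (E →ₐ[k] Ω) :=
      { toFun := fun τ => (σ : Ω →ₐ[k] Ω).comp τ
        invFun := fun τ => (σ.symm : Ω →ₐ[k] Ω).comp τ
        left_inv := fun τ => by
          ext b
          simp
        right_inv := fun τ => by
          ext b
          simp }
    refine Fintype.sum_equiv e _ _ fun τ => ?_
    rw [← mul_smul, ← map_mul]
    refine hdep _ _ a fun b => ?_
    show σ (lift τ (b : Ω)) = lift (e τ) (b : Ω)
    rw [hlift, hlift]
    rfl
  have hTspan : ∀ a : E, T a ∈ Submodule.span Ω (Set.range fun σ : Ω ≃ₐ[k] Ω => ρ σ • f) := by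
    intro a
    refine Submodule.sum_mem _ fun τ _ => ?_
    rw [hsl]
    exact Submodule.smul_mem _ _ (Submodule.subset_span ⟨lift τ, rfl⟩)
  -- the matrix of embeddings
  have hcard : Fintype.card (Fin (Module.finrank k E)) = Fintype.card (E →ₐ[k] Ω) := by
    rw [Fintype.card_fin, AlgHom.card]
  let e : Fin (Module.finrank k E) ≃ (E →ₐ[k] Ω) := Fintype.equivOfCardEq hcard
  let b := Module.finBasis k E
  let M := Algebra.embeddingsMatrixReindex k Ω b e
  have hdet : M.det ≠ 0 := by
    intro h0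
    have h1 := Algebra.discr_eq_det_embeddingsMatrixReindex_pow_two k Ω b e
    rw [show (Algebra.embeddingsMatrixReindex k Ω b e).det = 0 from h0] at h1
    simp only [ne_eq, OfNat.ofNat_ne_zero, not_false_eq_true, zero_pow] at h1
    rw [map_eq_zero] at h1
    exact Algebra.discr_not_zero_of_basis k b h1
  have hMinv : M⁻¹ * M = 1 := Matrix.nonsing_inv_mul M (Ne.isUnit hdet)
  have hMapp : ∀ i j, M i j = e j (b i) := fun i j => by
    simp [M, Algebra.embeddingsMatrixReindex, Algebra.embeddingsMatrix]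
  -- `T (b j) = ∑ i, M j i • w i`
  let w : Fin (Module.finrank k E) → F := fun i => ρ (lift (e i)) • f
  have hTw : ∀ j, T (b j) = ∑ i, M j i • w i := by
    intro j
    show ∑ τ : E →ₐ[k] Ω, ρ (lift τ) • (((b j : E) : Ω) • f) = _
    rw [← Equiv.sum_comp e]
    refine Finset.sum_congr rfl fun i _ => ?_
    rw [hsl, hlift, hMapp]
  have hw : ∀ i, w i = ∑ j, (M⁻¹) i j • T (b j) := by
    intro i
    simp_rw [hTw, Finset.smul_sum, smul_smul]
    rw [Finset.sum_comm]
    simp_rw [← Finset.sum_smul, ← Matrix.mul_apply, hMinv, Matrix.one_apply, ite_smul, one_smul,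
      zero_smul]
    simp
  -- `f = w i₀`
  have hf0 : f = w (e.symm E.val) := by
    show f = ρ (lift (e (e.symm E.val))) • f
    rw [Equiv.apply_symm_apply]
    refine (hf _ fun a ha => ?_).symm
    exact hlift E.val ⟨a, ha⟩
  refine ⟨Module.finrank k E, fun j => T (b j), fun j σ => hT _ σ, ?_, fun j => hTspan _⟩
  rw [hf0, hw]
  exact Submodule.sum_mem _ fun j _ => Submodule.smul_mem _ _ (Submodule.subset_span ⟨j, rfl⟩)

end descent

end Fermat.Agent.S17
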