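import Fermat.Agent.S17.MoveHPencil
import Fermat.Agent.S17.MoveHDesc
import Fermat.Agent.S17.RRSharp
import Fermat.Agent.S17.Stab

/-!
# TRACK 8 (S17), heights, package MOVEH (helper23): generic `G`-invariant representatives

* `S17MH_main_abs` (abstract): `F / K` with `RR_Hyp`, `K` algebraically closed of characteristic
  `0`, `G` acting semilinearly with Galois descent (`hHD`), `O` a `G`-invariant place, `c₀` a
  bound beyond which Riemann's theorem is an equality.  For every `G`-invariant class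
  `x ∈ Pic⁰`, every finite set `S` of places and every `d ≥ max (c₀ + 1) g 1` there is a
  `G`-stable set `D` of exactly `d` places, disjoint from `S ∪ {O}`, with
  `[∑_{P ∈ D} P - d O] = x`.
* `S17MH_hHD` : Galois descent for `F = modularFunctionFieldBar N`.
* `S17MH_main_sharp` (abstract): the same with `d ≥ 2 g + 1` (helper6's sharp Riemann).
* `S17MH_main` (concrete): the same for `J₀(N)`, `G = Gal(ℚ̄ / ℚ)`, for all `d ≥ 2 g + 1`.
* `S17MH_psi_eq_mk` : `ψ_O (D) = Pic0.mk ⟨D - d • O, _⟩` for `deg D = d`.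
-/

set_option autoImplicit false

open AlgebraicCurve ModularCurve WithZero

namespace Fermat.Agent.S17

open Fermat.Agent.Lib Fermat.Agent.GalRep

section abs

variable {K F : Type*} [Field K] [Field F] [Algebra K F]

theorem S17MH_sub_mem (h : RR_Hyp K F) (O : Place K F) (D : Divisor K F) (d : ℤ)
    (hd : D.degree = d) :
    D - d • Finsupp.single O (1 : ℤ) ∈ Divisor.degZero (K := K) (F := F) := by
  rw [Divisor.mem_degZero, map_sub, map_zsmul, Divisor.degree_single, h.deg_one, hd]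
  simp

theorem S17MH_psi_eq_mk (h : RR_Hyp K F) (O : Place K F) (D : Divisor K F) (d : ℤ)
    (hd : D.degree = d) :
    S17MV_psi h O D = Pic0.mk ⟨D - d • Finsupp.single O (1 : ℤ), S17MH_sub_mem h O D d hd⟩ := by
  rw [S17MV_psi_apply]
  congr 1
  apply Subtype.ext
  rw [S17MV_proj_coe, hd]

theorem S17MH_sum_degree (h : RR_Hyp K F) (Z : Finset (Place K F)) :
    (∑ P ∈ Z, Finsupp.single P (1 : ℤ) : Divisor K F).degree = Z.card := by
  have := RR_degree_add_sum_single h 0 Z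
  rwa [zero_add, map_zero, zero_add] at this

/-- **MOVEH, abstract form.** -/
theorem S17MH_main_abs [IsAlgClosed K] [CharZero K] (h : RR_Hyp K F) {G : Type*} [Group G]
    (ρ : G →* SemilinearAut K F)
    (hHD : ∀ f : F, ∃ (n : ℕ) (T : Fin n → F), (∀ j g, ρ g • T j = T j) ∧
      f ∈ Submodule.span K (Set.range T) ∧
      ∀ j, T j ∈ Submodule.span K (Set.range fun g : G => ρ g • f))
    (O : Place K F) (hO : ∀ g, ρ g • O = O) (c₀ : ℤ)
    (hc₀ : ∀ D : Divisor K F, c₀ ≤ D.degree →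
      (Module.finrank K (riemannRochSpace D) : ℤ) = D.degree + 1 - RR_genus K F)
    (x : Pic0 K F) (hx : ∀ g, ρ g • x = x) (S : Finset (Place K F)) (d : ℕ)
    (hd : c₀ + 1 ≤ d) (hdg : RR_genus K F ≤ d) (hd1 : 1 ≤ d) :
    ∃ D : Finset (Place K F), D.card = d ∧ (∀ g, ∀ P ∈ D, ρ g • P ∈ D) ∧
      (∀ P ∈ D, P ∉ S ∧ P ≠ O) ∧
      S17MV_psi h O (∑ P ∈ D, Finsupp.single P (1 : ℤ)) = x := by
  classical
  obtain ⟨R, hR0, hRdeg, hRinv, hRpsi⟩ := S17MH_exists_Rx h ρ O hO x hx
  have hm : 0 ≤ (d : ℤ) - R.degree := by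
    have : (RR_genus K F : ℤ) ≤ d := by exact_mod_cast hdg
    linarith
  set D₀ : Divisor K F := R + Finsupp.single O ((d : ℤ) - R.degree) with hD₀
  have hD₀0 : 0 ≤ D₀ := by
    refine add_nonneg hR0 ?_
    rw [Finsupp.le_def]
    intro v
    rw [Finsupp.single_apply]
    split_ifs
    · exact hm
    · exact le_rfl
  have hD₀deg : D₀.degree = d := by
    rw [hD₀, map_add, Divisor.degree_single, h.deg_one]
    push_cast
    ring
  have hD₀inv : ∀ g, ρ g • D₀ = D₀ := by
    intro g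
    rw [hD₀, smul_add, hRinv, SemilinearAut.smul_single, hO]
  have hbpf : ∀ P : Place K F,
      ¬ riemannRochSpace D₀ ≤ riemannRochSpace (D₀ - Finsupp.single P (1 : ℤ)) := by
    intro P hle
    have hfin := RR_finite h (D₀ - Finsupp.single P (1 : ℤ))
    have h1 := Submodule.finrank_mono hle
    have h2 := hc₀ D₀ (by rw [hD₀deg]; linarith)
    have hdeg' : (D₀ - Finsupp.single P (1 : ℤ)).degree = d - 1 := by
      rw [map_sub, hD₀deg, Divisor.degree_single, h.deg_one]
      simp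
    have h3 := hc₀ (D₀ - Finsupp.single P (1 : ℤ)) (by rw [hdeg']; linarith)
    rw [hD₀deg] at h2
    rw [hdeg'] at h3
    have h4 : (Module.finrank K (riemannRochSpace D₀) : ℤ) ≤
        Module.finrank K (riemannRochSpace (D₀ - Finsupp.single P (1 : ℤ))) := by
      exact_mod_cast h1
    linarith
  obtain ⟨Z, u, hu0, hZinv, hZS, hZ⟩ := S17MH_pencil h ρ hHD D₀ hD₀0
    (by rw [hD₀deg]; exact_mod_cast hd1) hD₀inv hbpf (insert O S)
  refine ⟨Z, ?_, hZinv, fun P hP => ⟨fun hPS => hZS P hP (Finset.mem_insert_of_mem hPS),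
    fun hPO => hZS P hP (hPO ▸ Finset.mem_insert_self _ _)⟩, ?_⟩
  · have := congrArg Divisor.degree hZ
    rw [map_add, RR_div_degree, add_zero, hD₀deg, S17MH_sum_degree h] at this
    exact_mod_cast this
  · rw [hZ, map_add, S17MH_psi_div h O u hu0, add_zero, hD₀, map_add, hRpsi, S17MH_psi_single,
      add_zero]

/-- **MOVEH, abstract form with the sharp bound** `d ≥ 2 g + 1`. -/
theorem S17MH_main_sharp [IsAlgClosed K] [CharZero K] (h : RR_Hyp K F) {G : Type*} [Group G]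
    (ρ : G →* SemilinearAut K F)
    (hHD : ∀ f : F, ∃ (n : ℕ) (T : Fin n → F), (∀ j g, ρ g • T j = T j) ∧
      f ∈ Submodule.span K (Set.range T) ∧
      ∀ j, T j ∈ Submodule.span K (Set.range fun g : G => ρ g • f))
    (O : Place K F) (hO : ∀ g, ρ g • O = O)
    (x : Pic0 K F) (hx : ∀ g, ρ g • x = x) (S : Finset (Place K F)) (d : ℕ)
    (hd : 2 * RR_genus K F + 1 ≤ d) :
    ∃ D : Finset (Place K F), D.card = d ∧ (∀ g, ∀ P ∈ D, ρ g • P ∈ D) ∧
      (∀ P ∈ D, P ∉ S ∧ P ≠ O) ∧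
      S17MV_psi h O (∑ P ∈ D, Finsupp.single P (1 : ℤ)) = x :=
  S17MH_main_abs h ρ hHD O hO (2 * (RR_genus K F : ℤ)) (fun D hD => S17RS_riemann_eq h D hD)
    x hx S d (by exact_mod_cast hd) (by omega) (by omega)

end abs

/-! ### the modular case -/

/-- Galois descent for the modular function field. -/
theorem S17MH_hHD (N : ℕ) [NeZero N] (f : ↥(modularFunctionFieldBar N)) :
    ∃ (n : ℕ) (T : Fin n → ↥(modularFunctionFieldBar N)),
      (∀ j (σ : S17_GQ), arithmeticGalois (modularFunctionFieldFull N) σ • T j = T j) ∧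
      f ∈ Submodule.span (AlgebraicClosure ℚ) (Set.range T) ∧
      ∀ j, T j ∈ Submodule.span (AlgebraicClosure ℚ)
        (Set.range fun σ : S17_GQ => arithmeticGalois (modularFunctionFieldFull N) σ • f) := by
  obtain ⟨L, hL, hLσ⟩ := GRF_exists_level N f
  have halg : Algebra.IsAlgebraic ℚ (AlgebraicClosure ℚ) := AlgebraicClosure.isAlgebraic ℚ
  exact S17MH_descent (k := ℚ) (arithmeticGalois (modularFunctionFieldFull N))
    (fun σ a => rfl) f L hLσ

/-- **MOVEH** for `J₀(N)`: for every `d ≥ 2 g + 1`, every rational point `x` and every finite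
set `S` of places there is a Galois-stable set `D` of exactly `d` places, disjoint from
`S ∪ {O}`, with `[∑_{P ∈ D} P - d O] = x`.  (`O` any Galois-invariant place.) -/
theorem S17MH_main (N : ℕ) [NeZero N]
    (O : Place (AlgebraicClosure ℚ) ↥(modularFunctionFieldBar N))
    (hO : ∀ σ : S17_GQ, arithmeticGalois (modularFunctionFieldFull N) σ • O = O)
    (x : JZero N) (hx : ∀ σ : S17_GQ, σ • x = x)
    (S : Finset (Place (AlgebraicClosure ℚ) ↥(modularFunctionFieldBar N))) (d : ℕ)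
    (hd : 2 * RR_genus (AlgebraicClosure ℚ) ↥(modularFunctionFieldBar N) + 1 ≤ d) :
    ∃ D : Finset (Place (AlgebraicClosure ℚ) ↥(modularFunctionFieldBar N)),
      D.card = d ∧
      (∀ σ : S17_GQ, ∀ P ∈ D, arithmeticGalois (modularFunctionFieldFull N) σ • P ∈ D) ∧
      (∀ P ∈ D, P ∉ S ∧ P ≠ O) ∧
      S17MV_psi (S17ST_hRR N) O (∑ P ∈ D, Finsupp.single P (1 : ℤ)) = x :=
  S17MH_main_sharp (S17ST_hRR N) (arithmeticGalois (modularFunctionFieldFull N))
    (S17MH_hHD N) O hO x hx S d hd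

/-- the same in the form `Pic0.mk ⟨∑_{P ∈ D} P - d • O, _⟩ = x`. -/
theorem S17MH_main' (N : ℕ) [NeZero N]
    (O : Place (AlgebraicClosure ℚ) ↥(modularFunctionFieldBar N))
    (hO : ∀ σ : S17_GQ, arithmeticGalois (modularFunctionFieldFull N) σ • O = O)
    (x : JZero N) (hx : ∀ σ : S17_GQ, σ • x = x)
    (S : Finset (Place (AlgebraicClosure ℚ) ↥(modularFunctionFieldBar N))) (d : ℕ)
    (hd : 2 * RR_genus (AlgebraicClosure ℚ) ↥(modularFunctionFieldBar N) + 1 ≤ d) :
    ∃ (D : Finset (Place (AlgebraicClosure ℚ) ↥(modularFunctionFieldBar N)))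
      (hdeg : (∑ P ∈ D, Finsupp.single P (1 : ℤ) :
        Divisor (AlgebraicClosure ℚ) ↥(modularFunctionFieldBar N)).degree = (d : ℤ)),
      D.card = d ∧
      (∀ σ : S17_GQ, ∀ P ∈ D, arithmeticGalois (modularFunctionFieldFull N) σ • P ∈ D) ∧
      (∀ P ∈ D, P ∉ S ∧ P ≠ O) ∧
      Pic0.mk ⟨(∑ P ∈ D, Finsupp.single P (1 : ℤ)) - (d : ℤ) • Finsupp.single O (1 : ℤ),
        S17MH_sub_mem (S17ST_hRR N) O _ (d : ℤ) hdeg⟩ = x := by
  obtain ⟨D, hcard, hinv, hS, hpsi⟩ := S17MH_main N O hO x hx S d hd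
  have hdeg : (∑ P ∈ D, Finsupp.single P (1 : ℤ) :
      Divisor (AlgebraicClosure ℚ) ↥(modularFunctionFieldBar N)).degree = (d : ℤ) := by
    rw [S17MH_sum_degree (S17ST_hRR N), hcard]
  refine ⟨D, hdeg, hcard, hinv, hS, ?_⟩
  rw [← S17MH_psi_eq_mk (S17ST_hRR N) O _ (d : ℤ) hdeg]
  exact hpsi

end Fermat.Agent.S17
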