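import Mathlib
import Fermat.Agent.S17.HtInst
import Fermat.Agent.S17.MoveH
import Fermat.Agent.S17.Model

/-!
# TRACK 8 "MW" (S17), pillar HEIGHTS, package HT-INST part 2 (helper17):
fields of the concrete model `M_N : S17H_Model ℚ̄ (JZero N) (Place ℚ̄ F_N) ι k g d1`

With `M.JQ := S17_JQ N`, `M.O := S17EM_O N`, `M.act := S17HI_act N`, `M.cl := S17HI_clE N`:

* `S17HI_cl_add`  : field `cl_add`;
* `S17HI_cl_O`    : field `cl_O`;
* `S17HI_cl_mem`  : field `cl_mem`;
* `S17HI_move`    : field `move` (for ANY finite `B`), from MOVEH (helper23, `S17MH_main`);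
* `S17HI_clE_ind` : `cl (S17H_ind D) = S17HI_cls N D`.
-/

set_option autoImplicit false
set_option linter.style.haveILetI false
set_option linter.unusedSectionVars false
set_option linter.unusedVariables false

open ModularCurve AlgebraicCurve

namespace Fermat.Agent.S17

open Fermat.Agent.Lib

noncomputable section

variable (N : ℕ) [NeZero N]

theorem S17HI_toDiv_add (E E' : S17HI_Pl N →₀ ℕ) :
    S17HI_toDiv N (E + E') = S17HI_toDiv N E + S17HI_toDiv N E' := by
  unfold S17HI_toDiv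
  exact Finsupp.mapRange_add (fun x y => Nat.cast_add x y) E E'

theorem S17HI_toDiv_apply (E : S17HI_Pl N →₀ ℕ) (P : S17HI_Pl N) :
    S17HI_toDiv N E P = (E P : ℤ) := by
  unfold S17HI_toDiv
  rw [Finsupp.mapRange_apply]

/-- field `cl_add`. -/
theorem S17HI_cl_add (E E' : S17HI_Pl N →₀ ℕ) :
    S17HI_clE N (E + E') = S17HI_clE N E + S17HI_clE N E' := by
  unfold S17HI_clE
  rw [S17HI_toDiv_add, map_add]

/-- field `cl_O`. -/
theorem S17HI_cl_O : S17HI_clE N (Finsupp.single (S17EM_O N) 1) = 0 := by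
  unfold S17HI_clE S17HI_toDiv S17HI_psi
  rw [Finsupp.mapRange_single, S17MV_psi_apply]
  have h0 : S17MV_proj (S17ST_hRR N) (S17EM_O N)
      (Finsupp.single (S17EM_O N) ((1 : ℕ) : ℤ)) = 0 := by
    apply Subtype.ext
    rw [S17MV_proj_coe, Divisor.degree_single, (S17ST_hRR N).deg_one]
    simp
  rw [h0]
  rfl

/-- an invariant effective divisor has an invariant integral divisor. -/
theorem S17HI_smul_toDiv {E : S17HI_Pl N →₀ ℕ} (hE : ∀ σ P, E (S17HI_act N σ P) = E P)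
    (σ : S17_GQ) :
    arithmeticGalois (modularFunctionFieldFull N) σ • S17HI_toDiv N E = S17HI_toDiv N E := by
  ext w
  rw [SemilinearAut.divisor_smul_apply, S17HI_toDiv_apply, S17HI_toDiv_apply]
  have h := hE σ ((arithmeticGalois (modularFunctionFieldFull N) σ)⁻¹ • w)
  unfold S17HI_act at h
  rw [smul_inv_smul] at h
  rw [h]

/-- field `cl_mem`. -/
theorem S17HI_cl_mem (E : S17HI_Pl N →₀ ℕ) (hE : ∀ σ P, E (S17HI_act N σ P) = E P) :
    S17HI_clE N E ∈ S17_JQ N := by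
  intro σ
  unfold S17HI_clE
  rw [S17HI_psi_smul, S17HI_smul_toDiv N hE]

theorem S17HI_ind_eq (D : Finset (S17HI_Pl N)) : S17H_ind D = S17HI_ofFinset N D := rfl

theorem S17HI_clE_ind (D : Finset (S17HI_Pl N)) :
    S17HI_clE N (S17H_ind D) = S17HI_cls N D := by
  rw [S17HI_ind_eq, S17HI_clE_ofFinset]

/-- field `move`, for any finite bad set `B` and any `d1 ≥ 2g + 1`. -/
theorem S17HI_move (B : Finset (S17HI_Pl N)) (d1 : ℕ)
    (hd1 : 2 * RR_genus (AlgebraicClosure ℚ) ↥(modularFunctionFieldBar N) + 1 ≤ d1) :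
    ∀ y ∈ S17_JQ N, ∀ (S : Finset (S17HI_Pl N)) (d : ℕ), d1 ≤ d → d ≤ 3 * d1 →
      ∃ D : Finset (S17HI_Pl N), D.card = d ∧ (∀ σ P, S17HI_act N σ P ∈ D ↔ P ∈ D) ∧
        Disjoint D S ∧ Disjoint D B ∧ S17EM_O N ∉ D ∧ S17HI_clE N (S17H_ind D) = y := by
  intro y hy S d hd _
  obtain ⟨D, hcard, hinv, hoff, hcl⟩ := S17MH_main N (S17EM_O N) (S17EM_smul_O N) y
    (fun σ => hy σ) (S ∪ B) d (hd1.trans hd)
  have hInv : S17HI_Inv N D := hinv
  refine ⟨D, hcard, fun σ P => S17HI_act_mem_iff N hInv σ P, ?_, ?_, ?_, ?_⟩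
  · rw [Finset.disjoint_left]
    intro P hP hPS
    exact (hoff P hP).1 (Finset.mem_union_left _ hPS)
  · rw [Finset.disjoint_left]
    intro P hP hPB
    exact (hoff P hP).1 (Finset.mem_union_right _ hPB)
  · intro hO
    exact (hoff _ hO).2 rfl
  · rw [S17HI_clE_ind]
    exact hcl

end

end Fermat.Agent.S17
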