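import Fermat.Agent.S17.MinkW
import Fermat.Agent.S17.North
import Fermat.Agent.S17.Disc

/-!
# TRACK 8 (S17), heights pillar, package C6 HUM (helper1)

The hypothesis `hum` of `S17PO_dom` (helper5, `S17/Pos.lean`):  for every good divisor `D` of degree
`d` there is `HE ≥ μ(−cl D)` with

  `2Λ(D) ≤ 2·H(D) − 2(d − g + 1)/k · (H(D) + HE) + C_U`,       `k = 2d`, `card ι + g = k + 1`,

from
* `hUU`  (U)  `S17H_StmtUU X d`                      (helper24 `S17UI_main` + helper8 UABS),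
* (M)    Siegel's lemma `S17MK_siegel_H`              (MINK, proved),
* `hA`   (A)  `S17H_StmtA X`                          (helper10),
* `hGP`  general position: `S17H_W (ev ∘ P) ≠ 0` for an enumeration `P` of `D`   (PRINC/GP),
* `hE`   the divisor dictionary for a RATIONAL section `c` vanishing on `D`: a zero cycle `Z` of `c`
         and an admissible effective divisor `E` (`= Z(c) − D` without its part at `O`) of class
         `−cl D` with `H(D) + H(E) ≤ Σ_i h(ev (Z i))`                              (DICT).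

* `S17HU_Lam2_enum`, `S17HU_H_enum` : `2Λ(D)` and `H(D)` in terms of an enumeration of `D`.
* `S17HU_perm` : the Galois group permutes the rows `ev (P i)` of an invariant divisor.
* `S17HU_one`  : the inequality for one divisor `D` (explicit constant).
* `S17HU_main` : the statement `hum`.
-/

set_option autoImplicit false
set_option linter.unusedSectionVars false
set_option linter.unusedVariables false
set_option linter.style.haveILetI false

open Finset

namespace Fermat.Agent.S17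

section enum

variable {Pt : Type*} [DecidableEq Pt] {d : ℕ}

/-- `H(D)` in terms of an enumeration of `D`. -/
theorem S17HU_H_enum (hk : Pt → ℝ) (D : Finset Pt) (P : Fin d → Pt)
    (hP : Function.Injective P) (hD : Finset.univ.image P = D) :
    S17DI_H hk D = ∑ i, hk (P i) := by
  unfold S17DI_H
  rw [← hD, Finset.sum_image (fun a _ b _ h => hP h)]

/-- `2Λ(D)` in terms of an enumeration of `D`. -/
theorem S17HU_Lam2_enum (lam : Pt → Pt → ℝ) (hs : ∀ P Q, lam P Q = lam Q P) (D : Finset Pt)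
    (P : Fin d → Pt) (hP : Function.Injective P) (hD : Finset.univ.image P = D) :
    S17DI_Lam2 lam D = 2 * ∑ i, ∑ j, (if i < j then lam (P i) (P j) else 0) := by
  unfold S17DI_Lam2
  have h1 : ∀ i, ∑ Q ∈ D.erase (P i), lam (P i) Q =
      ∑ j, (if j = i then 0 else lam (P i) (P j)) := by
    intro i
    have e1 : D.erase (P i) = (Finset.univ.erase i).image P := by
      rw [← hD, Finset.image_erase hP]
    rw [e1, Finset.sum_image (fun a _ b _ h => hP h)]
    rw [← Finset.sum_erase_add (s := Finset.univ) (a := i) _ (Finset.mem_univ i)]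
    simp only [if_true, add_zero]
    exact Finset.sum_congr rfl fun j hj => by rw [if_neg (Finset.ne_of_mem_erase hj)]
  rw [← hD, Finset.sum_image (fun a _ b _ h => hP h)]
  simp_rw [hD, h1]
  have h2 : ∀ i j : Fin d, (if j = i then 0 else lam (P i) (P j)) =
      (if i < j then lam (P i) (P j) else 0) + (if j < i then lam (P j) (P i) else 0) := by
    intro i j
    rcases lt_trichotomy i j with h | h | h
    · rw [if_neg (ne_of_gt h), if_pos h, if_neg (not_lt.mpr h.le), add_zero]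
    · subst h
      simp
    · rw [if_neg (ne_of_lt h), if_neg (not_lt.mpr h.le), if_pos h, zero_add, hs]
  simp_rw [h2, Finset.sum_add_distrib]
  rw [two_mul]
  congr 1
  rw [Finset.sum_comm]

end enum

section perm

variable {Ω : Type*} [Field Ω] [CharZero Ω] {ι : Type*} {Pt : Type*} [DecidableEq Pt] {d : ℕ}

/-- the Galois group permutes the rows `ev (P i)` of an invariant divisor. -/
theorem S17HU_perm (O : Pt) (act : (Ω ≃ₐ[ℚ] Ω) → Pt → Pt) (ev : Pt → ι → Ω)
    (hevσ : ∀ σ P, P ≠ O → ev (act σ P) = fun j => σ (ev P j))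
    (hinj : ∀ P Q, P ≠ O → Q ≠ O → ev P = ev Q → P = Q)
    (D : Finset Pt) (hO : O ∉ D) (hinv : ∀ σ, ∀ P ∈ D, act σ P ∈ D)
    (P : Fin d → Pt) (hP : Function.Injective P) (hD : Finset.univ.image P = D)
    (σ : Ω ≃ₐ[ℚ] Ω) :
    ∃ π : Equiv.Perm (Fin d), ∀ i j, σ (ev (P i) j) = ev (P (π i)) j := by
  classical
  have hmem : ∀ i, P i ∈ D := fun i => by
    rw [← hD]
    exact Finset.mem_image_of_mem P (Finset.mem_univ i)
  have hne : ∀ i, P i ≠ O := fun i h => hO (h ▸ hmem i)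
  have hex : ∀ i, ∃ i', P i' = act σ (P i) := by
    intro i
    have := hinv σ (P i) (hmem i)
    rw [← hD, Finset.mem_image] at this
    obtain ⟨i', -, hi'⟩ := this
    exact ⟨i', hi'⟩
  choose π hπ using hex
  have hπinj : Function.Injective π := by
    intro a b hab
    apply hP
    apply hinj _ _ (hne a) (hne b)
    have h1 : ev (act σ (P a)) = ev (act σ (P b)) := by
      rw [← hπ a, ← hπ b, hab]
    rw [hevσ σ _ (hne a), hevσ σ _ (hne b)] at h1
    funext j
    exact σ.injective (congrFun h1 j)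
  refine ⟨Equiv.ofBijective π (Finite.injective_iff_bijective.mp hπinj), fun i j => ?_⟩
  simp only [Equiv.ofBijective_apply]
  rw [hπ i, hevσ σ _ (hne i)]

end perm

section main

variable {Ω : Type} [Field Ω] [CharZero Ω] [Algebra.IsAlgebraic ℚ Ω] [IsAlgClosed Ω]
variable {ι : Type} [Fintype ι] {k : ℕ}
variable {Pt : Type*} [DecidableEq Pt] {J : Type*} [AddCommGroup J]

/-- **C6 HUM for one divisor**, explicit constant. -/
theorem S17HU_one (X : S17H_Curve Ω ι k)
    (O : Pt) (act : (Ω ≃ₐ[ℚ] Ω) → Pt → Pt) (ev : Pt → ι → Ω)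
    (clE : (Pt →₀ ℕ) → J) (y : J)
    (lam : Pt → Pt → ℝ) (hk : Pt → ℝ)
    (hlam : ∀ P Q, lam P Q = S17H_lam (ev P) (ev Q)) (hhk : ∀ P, hk P = S17AH_h (ev P))
    (d g : ℕ) (hd : 0 < d) (hkd : k = 2 * d) (hcard : Fintype.card ι + g = k + 1) (hg : g ≤ d)
    (C₁ C₃ : ℝ)
    (hUU : ∀ (x : Fin d → ι → Ω), (∀ i, x i ∈ S17H_V X.I) → S17H_W x ≠ 0 →
      ∑ i, ∑ j, (if i < j then S17H_lam (x i) (x j) else 0)
        ≤ ∑ i, S17AH_h (x i) - S17AH_h (S17H_W x) + C₁)
    (hA : ∀ (c : ι → Ω) (v : Fin k → ι → Ω), c ≠ 0 → (∀ i, v i ≠ 0) → S17H_Fact X.chow c v →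
      |∑ i, S17AH_h (v i) - k * S17AH_h c| ≤ C₃)
    (hV : ∀ P, ev P ∈ S17H_V X.I)
    (hevσ : ∀ σ P, P ≠ O → ev (act σ P) = fun j => σ (ev P j))
    (hinj : ∀ P Q, P ≠ O → Q ≠ O → ev P = ev Q → P = Q)
    (D : Finset Pt) (hDc : D.card = d) (hO : O ∉ D) (hinv : ∀ σ, ∀ P ∈ D, act σ P ∈ D)
    (hGP : ∀ P : Fin d → Pt, Function.Injective P → Finset.univ.image P = D →
      S17H_W (fun i => ev (P i)) ≠ 0)
    (hE : ∀ c : ι → ℚ, c ≠ 0 →
      (∀ P ∈ D, S17H_dot (fun j => algebraMap ℚ Ω (c j)) (ev P) = 0) →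
      ∃ (Z : Fin k → Pt) (E : Pt →₀ ℕ),
        S17H_Fact X.chow (fun j => algebraMap ℚ Ω (c j)) (fun i => ev (Z i)) ∧
        (∀ i, ev (Z i) ≠ 0) ∧ S17NO_Adm O act d E ∧ clE E = y ∧
        S17DI_H hk D + S17NO_H ev E ≤ ∑ i, S17AH_h (ev (Z i))) :
    ∃ HE : ℝ, S17NO_mu clE O act ev d y ≤ HE ∧
      S17DI_Lam2 lam D ≤ 2 * S17DI_H hk D
        - 2 * ((d : ℝ) - g + 1) / (k : ℝ) * (S17DI_H hk D + HE)
        + 2 * (C₁ + ((d : ℝ) - g + 1) * Real.log ((d : ℝ) - g + 1)
            + ((d : ℝ) - g + 1) / (k : ℝ) * C₃) := by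
  classical
  haveI : IsAlgClosure ℚ Ω := ⟨inferInstance, inferInstance⟩
  haveI : IsGalois ℚ Ω := IsAlgClosure.isGalois ℚ Ω
  -- enumeration of `D`
  let e : ↥D ≃ Fin d := Finset.equivFinOfCardEq hDc
  let P : Fin d → Pt := fun i => ((e.symm i : ↥D) : Pt)
  have hPinj : Function.Injective P := fun a b h => e.symm.injective (Subtype.ext h)
  have hPD : Finset.univ.image P = D := by
    ext Q
    simp only [Finset.mem_image, Finset.mem_univ, true_and]
    constructor
    · rintro ⟨i, rfl⟩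
      exact (e.symm i).2
    · intro hQ
      exact ⟨e ⟨Q, hQ⟩, by simp [P]⟩
  set x : Fin d → ι → Ω := fun i => ev (P i) with hx
  have hW : S17H_W x ≠ 0 := hGP P hPinj hPD
  have hG := S17HU_perm O act ev hevσ hinj D hO hinv P hPinj hPD
  -- dimension count
  have hn : Fintype.card ι = d + (d - g + 1) := by omega
  have hdn : d < Fintype.card ι := by omega
  have hm : Fintype.card ι - d = d - g + 1 := by omega
  have hmR : ((Fintype.card ι - d : ℕ) : ℝ) = (d : ℝ) - g + 1 := by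
    rw [hm]
    push_cast [Nat.cast_sub hg]
    ring
  -- (M)
  obtain ⟨v, hv0, hv, hM⟩ := S17MK_siegel_H hdn x hW hG
  rw [hmR] at hM
  -- the dictionary
  have hvD : ∀ Q ∈ D, S17H_dot (fun j => algebraMap ℚ Ω (v j)) (ev Q) = 0 := by
    intro Q hQ
    have := hv (e ⟨Q, hQ⟩)
    simpa [x, P] using this
  obtain ⟨Z, E, hFact, hZne, hAdm, hcl, hH⟩ := hE v hv0 hvD
  -- (A)
  have hc0 : (fun j => algebraMap ℚ Ω (v j)) ≠ 0 := by
    intro h
    apply hv0
    funext j
    have := congrFun h j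
    simpa using this
  have hAv := hA (fun j => algebraMap ℚ Ω (v j)) (fun i => ev (Z i)) hc0 hZne hFact
  have hAv' : ∑ i, S17AH_h (ev (Z i)) ≤ k * S17AH_h (fun j => algebraMap ℚ Ω (v j)) + C₃ := by
    have := (abs_le.mp hAv).2
    linarith
  -- (U)
  have hU := hUU x (fun i => hV (P i)) hW
  -- translation
  have hL : S17DI_Lam2 lam D = 2 * ∑ i, ∑ j, (if i < j then S17H_lam (x i) (x j) else 0) := by
    rw [S17HU_Lam2_enum lam (fun A B => by rw [hlam, hlam, S17H_lam_comm]) D P hPinj hPD]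
    congr 1
    refine Finset.sum_congr rfl fun i _ => Finset.sum_congr rfl fun j _ => ?_
    rw [hlam]
  have hHD : S17DI_H hk D = ∑ i, S17AH_h (x i) := by
    rw [S17HU_H_enum hk D P hPinj hPD]
    exact Finset.sum_congr rfl fun i _ => hhk _
  refine ⟨S17NO_H ev E, S17NO_mu_le' clE O act ev d hAdm hcl, ?_⟩
  rw [hL]
  rw [← hHD] at hU
  set HD := S17DI_H hk D with hHDdef
  set HE := S17NO_H ev E with hHEdef
  set hv' := S17AH_h (fun j => algebraMap ℚ Ω (v j)) with hhv'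
  set hWx := S17AH_h (S17H_W x) with hhWx
  set m : ℝ := (d : ℝ) - g + 1 with hmdef
  have hm0 : 0 ≤ m := by
    have : (g : ℝ) ≤ d := by exact_mod_cast hg
    linarith
  have hkpos : (0 : ℝ) < k := by
    rw [hkd]
    push_cast
    have : (0 : ℝ) < d := by exact_mod_cast hd
    linarith
  -- `h(v) ≥ (HD + HE − C₃)/k`
  have h1 : (HD + HE - C₃) / k ≤ hv' := by
    rw [div_le_iff₀ hkpos]
    linarith
  have h2 : m * ((HD + HE - C₃) / k) ≤ m * hv' := mul_le_mul_of_nonneg_left h1 hm0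
  have h3 : m * ((HD + HE - C₃) / k) = m / k * (HD + HE) - m / k * C₃ := by
    field_simp
  have h4 : 2 * m / k * (HD + HE) = 2 * (m / k * (HD + HE)) := by ring
  rw [h4]
  linarith

/-- **C6 HUM**: the hypothesis `hum` of `S17PO_dom`. -/
theorem S17HU_main (X : S17H_Curve Ω ι k)
    (O : Pt) (act : (Ω ≃ₐ[ℚ] Ω) → Pt → Pt) (ev : Pt → ι → Ω)
    (clE : (Pt →₀ ℕ) → J) (cl : Finset Pt → J) (Good : Finset Pt → Prop)
    (lam : Pt → Pt → ℝ) (hk : Pt → ℝ)
    (hlam : ∀ P Q, lam P Q = S17H_lam (ev P) (ev Q)) (hhk : ∀ P, hk P = S17AH_h (ev P))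
    (d g : ℕ) (hd : 0 < d) (hkd : k = 2 * d) (hcard : Fintype.card ι + g = k + 1) (hg : g ≤ d)
    (hUU : S17H_StmtUU X d) (hA : S17H_StmtA X)
    (hV : ∀ P, ev P ∈ S17H_V X.I)
    (hevσ : ∀ σ P, P ≠ O → ev (act σ P) = fun j => σ (ev P j))
    (hinj : ∀ P Q, P ≠ O → Q ≠ O → ev P = ev Q → P = Q)
    (hGood : ∀ D, Good D → O ∉ D ∧ ∀ σ, ∀ P ∈ D, act σ P ∈ D)
    (hGP : ∀ D, Good D → D.card = d → ∀ P : Fin d → Pt, Function.Injective P →
      Finset.univ.image P = D → S17H_W (fun i => ev (P i)) ≠ 0)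
    (hE : ∀ D, Good D → D.card = d → ∀ c : ι → ℚ, c ≠ 0 →
      (∀ P ∈ D, S17H_dot (fun j => algebraMap ℚ Ω (c j)) (ev P) = 0) →
      ∃ (Z : Fin k → Pt) (E : Pt →₀ ℕ),
        S17H_Fact X.chow (fun j => algebraMap ℚ Ω (c j)) (fun i => ev (Z i)) ∧
        (∀ i, ev (Z i) ≠ 0) ∧ S17NO_Adm O act d E ∧ clE E = - cl D ∧
        S17DI_H hk D + S17NO_H ev E ≤ ∑ i, S17AH_h (ev (Z i))) :
    ∃ C_U : ℝ, ∀ D, Good D → D.card = d → ∃ HE : ℝ,
      S17NO_mu clE O act ev d (- cl D) ≤ HE ∧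
      S17DI_Lam2 lam D ≤ 2 * S17DI_H hk D
        - 2 * ((d : ℝ) - g + 1) / (k : ℝ) * (S17DI_H hk D + HE) + C_U := by
  obtain ⟨C₁, hC₁⟩ := hUU
  obtain ⟨C₃, hC₃⟩ := hA
  refine ⟨2 * (C₁ + ((d : ℝ) - g + 1) * Real.log ((d : ℝ) - g + 1)
      + ((d : ℝ) - g + 1) / (k : ℝ) * C₃), fun D hD hDc => ?_⟩
  exact S17HU_one X O act ev clE (- cl D) lam hk hlam hhk d g hd hkd hcard hg C₁ C₃ hC₁ hC₃ hV
    hevσ hinj D hDc (hGood D hD).1 (hGood D hD).2 (hGP D hD hDc) (hE D hD hDc)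

end main

end Fermat.Agent.S17
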