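import Fermat.Agent.S17.Model
import Fermat.Agent.S17.HtInst2
import Fermat.Agent.S17.NGLast
import Fermat.Agent.S17.Emb2

/-!
# TRACK 8 (S17), heights pillar, package C1 (helper4): the concrete model `M_N`

`F = modularFunctionFieldBar N`, `Pl = Place ℚ̄ F`, `O = S17EM_O N` (the cusp `∞`),
`g = RR_genus ℚ̄ F`, `d1 ≥ 2g + 1`, `k = 4·d1`, `e = S17EM_e N k` (the rational basis of `L(kO)`,
helper20), `ι = Fin (r + 1)`, `i0 = 0`, `il = Fin.last r`,

* `ev  := S17NGL_ev O e il` (helper24),   `act := S17HI_act N`,   `cl := S17HI_clE N` (helper17),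
  `JQ := S17_JQ N`.

`S17MI_In N d1` collects the inputs which come from the other concrete packages, each in the
EXACT shape of the corresponding field of `S17H_Model` (or of the lemma that proves the field);
`S17MI_model` is the model `M_N`.  Fields proved here from landed files: `ev_O_il`, `ev_O_ne`,
`ev_i0`, `ev_mem`, `ev_inj` (NGLast), `act_O`, `act_inj`, `cl_add`, `cl_O`, `cl_mem`, `move`
(HtInst, HtInst2).
-/

set_option autoImplicit false
set_option linter.style.haveILetI false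
set_option linter.unusedSectionVars false

open ModularCurve AlgebraicCurve MvPolynomial WithZero

namespace Fermat.Agent.S17

open Fermat.Agent.Lib

noncomputable section

variable (N : ℕ) [NeZero N]

/-- the genus of `X₀(N)`. -/
def S17MI_g : ℕ := RR_genus (AlgebraicClosure ℚ) ↥(modularFunctionFieldBar N)

/-- the index type of the basis of `L(kO)`, `k = 4·d1`. -/
abbrev S17MI_ι (d1 : ℕ) : Type := Fin (S17EM_r N (4 * d1) + 1)

/-- the rational basis of `L(kO)`, `k = 4·d1`. -/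
def S17MI_e (d1 : ℕ) : S17MI_ι N d1 → ↥(modularFunctionFieldBar N) := S17EM_e N (4 * d1)

/-- the index of `1`. -/
def S17MI_i0 (d1 : ℕ) : S17MI_ι N d1 := 0

/-- the index of the element of pole order `k`. -/
def S17MI_il (d1 : ℕ) : S17MI_ι N d1 := Fin.last _

/-- the evaluation vectors. -/
def S17MI_ev (d1 : ℕ) : S17HI_Pl N → S17MI_ι N d1 → AlgebraicClosure ℚ :=
  S17NGL_ev (S17EM_O N) (S17MI_e N d1) (S17MI_il N d1)

theorem S17MI_e_i0 (d1 : ℕ) : S17MI_e N d1 (S17MI_i0 N d1) = 1 := S17EM_e_zero N (4 * d1)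

theorem S17MI_span (d1 : ℕ) :
    Submodule.span (AlgebraicClosure ℚ) (Set.range (S17MI_e N d1)) =
      riemannRochSpace (S17EM_D N (4 * d1)) := S17EM_span_e N (4 * d1)

theorem S17MI_D_off (d1 : ℕ) (P : S17HI_Pl N) (hP : P ≠ S17EM_O N) :
    S17EM_D N (4 * d1) P = 0 := by
  unfold S17EM_D
  rw [Finsupp.single_apply, if_neg (Ne.symm hP)]

theorem S17MI_D_degree (d1 : ℕ) : (S17EM_D N (4 * d1)).degree = ((4 * d1 : ℕ) : ℤ) := by
  unfold S17EM_D
  rw [Divisor.degree_single, (S17ST_hRR N).deg_one]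
  simp

/-- the inputs of the concrete model coming from the other concrete packages. -/
structure S17MI_In (d1 : ℕ) where
  /-- CHOW + DECC + NG(d): the abstract curve data, with `I` the ideal of relations of `e`. -/
  X : S17H_Curve (AlgebraicClosure ℚ) (S17MI_ι N d1) (4 * d1)
  hXI : X.I = S17NGZ_I (K := AlgebraicClosure ℚ) (S17MI_e N d1)
  /-- EMB3: the number of basis elements. -/
  hcard : Fintype.card (S17MI_ι N d1) = 4 * d1 - S17MI_g N + 1
  /-- EMB3: the last basis element has exact pole order `k` at `O`. -/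
  hel : (S17EM_O N).adicValuation (S17MI_e N d1 (S17MI_il N d1)) = exp ((4 * d1 : ℕ) : ℤ)
  /-- EMB3: the other basis elements have pole order `≤ k - 1` at `O`. -/
  helow : ∀ j, j ≠ S17MI_il N d1 →
    (S17EM_O N).adicValuation (S17MI_e N d1 j) ≤ exp (((4 * d1 : ℕ) : ℤ) - 1)
  /-- EMB3: the basis elements are regular off `O`. -/
  hereg : ∀ j, ∀ P : S17HI_Pl N, P ≠ S17EM_O N → P.adicValuation (S17MI_e N d1 j) ≤ 1
  /-- EMB3: Galois equivariance of the evaluation. -/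
  ev_act : ∀ (σ : S17_GQ) (P : S17HI_Pl N), P ≠ S17EM_O N →
    S17MI_ev N d1 (S17HI_act N σ P) = fun j => σ (S17MI_ev N d1 P j)
  /-- INDEP: points in general position. -/
  indep : ∀ (d : ℕ) (P : Fin d → S17HI_Pl N), d + 2 * S17MI_g N ≤ 4 * d1 →
    Function.Injective P → (∀ i, P i ≠ S17EM_O N) → S17H_W (fun i => S17MI_ev N d1 (P i)) ≠ 0
  /-- DICT: zero cycles of sections. -/
  zeros : ∀ c : S17MI_ι N d1 → AlgebraicClosure ℚ, c ≠ 0 →
    ∃ P : Fin (4 * d1) → S17HI_Pl N, S17H_Fact X.chow c (fun i => S17MI_ev N d1 (P i)) ∧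
      S17HI_clE N (S17H_cyc P) = 0 ∧
      ((∀ (σ : S17_GQ) j, σ (c j) = c j) →
        ∀ σ Q, S17H_cyc P (S17HI_act N σ Q) = S17H_cyc P Q)
  /-- PRINC: effective divisors of degree `k` and class `0` are zero cycles. -/
  princ : ∀ P : Fin (4 * d1) → S17HI_Pl N, S17HI_clE N (S17H_cyc P) = 0 →
    ∃ c : S17MI_ι N d1 → AlgebraicClosure ℚ, c ≠ 0 ∧
      S17H_Fact X.chow c (fun i => S17MI_ev N d1 (P i))
  /-- TAN: the bad set. -/
  B : Finset (S17HI_Pl N)
  /-- TAN: the tangent vectors. -/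
  tan : S17HI_Pl N → S17MI_ι N d1 → AlgebraicClosure ℚ
  tan_ok : ∀ Q, Q ∉ B →
    S17H_Tan X.I (S17MI_ev N d1 Q) (tan Q) ∧ S17H_wedge (S17MI_ev N d1 Q) (tan Q) ≠ 0
  tanS : S17H_StmtTAN X (S17MI_g N) (fun x x' => ∃ Q, Q ∉ B ∧ x = S17MI_ev N d1 Q ∧ x' = tan Q)

variable {N}

/-- **C1**: the concrete model `M_N`. -/
def S17MI_model {d1 : ℕ} (hd1 : 2 * S17MI_g N + 1 ≤ d1) (I : S17MI_In N d1) :
    S17H_Model (AlgebraicClosure ℚ) (JZero N) (S17HI_Pl N) (S17MI_ι N d1) (4 * d1)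
      (S17MI_g N) d1 where
  X := I.X
  JQ := S17_JQ N
  O := S17EM_O N
  act := S17HI_act N
  ev := S17MI_ev N d1
  i0 := S17MI_i0 N d1
  il := S17MI_il N d1
  cl := S17HI_clE N
  hk := rfl
  hd1 := hd1
  hcard := I.hcard
  ev_O_il := S17NGL_ev_O_il _ _ _
  ev_O_ne := fun j hj => S17NGL_ev_O_ne _ _ _ j hj
  ev_i0 := fun P hP => S17NGL_ev_i0 _ _ _ _ (S17MI_e_i0 N d1) hP
  ev_mem := fun P => by
    rw [I.hXI]
    exact S17NGL_ev_mem (S17ST_hRR N) (S17EM_O N) (4 * d1) (S17MI_e N d1) (S17MI_il N d1)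
      I.hel I.helow I.hereg P
  ev_act := I.ev_act
  act_O := S17HI_act_O N
  act_inj := S17HI_act_injective N
  ev_inj := fun P Q hPQ => by
    have hk1 : 1 ≤ 4 * d1 := by omega
    refine S17NGL_ev_inj (S17ST_hRR N) (S17EM_O N) (4 * d1) (S17MI_e N d1) (S17MI_i0 N d1)
      (S17MI_il N d1) (S17MI_e_i0 N d1) I.hel hk1 (S17EM_D N (4 * d1)) (S17MI_D_off N d1) ?_
      (S17MI_span N d1) P Q hPQ
    rw [S17MI_D_degree]
    have : 2 * S17MI_g N + 2 ≤ 4 * d1 := by omega
    unfold S17MI_g at this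
    exact_mod_cast this
  indep := I.indep
  cl_add := S17HI_cl_add N
  cl_O := S17HI_cl_O N
  cl_mem := S17HI_cl_mem N
  zeros := I.zeros
  princ := I.princ
  B := I.B
  tan := I.tan
  tan_ok := I.tan_ok
  tanS := I.tanS
  move := S17HI_move N I.B d1 hd1

@[simp] theorem S17MI_model_JQ {d1 : ℕ} (hd1 : 2 * S17MI_g N + 1 ≤ d1) (I : S17MI_In N d1) :
    (S17MI_model hd1 I).JQ = S17_JQ N := rfl

@[simp] theorem S17MI_model_X {d1 : ℕ} (hd1 : 2 * S17MI_g N + 1 ≤ d1) (I : S17MI_In N d1) :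
    (S17MI_model hd1 I).X = I.X := rfl

end

end Fermat.Agent.S17
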