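import Fermat.Agent.S17.Indep
import Fermat.Agent.S17.ModelInst

/-!
# TRACK 8 (S17), heights: the input `indep` of `S17MI_In` (helper11)

`S17IN_inst N d1` is the field `indep` of `S17MI_In N d1` (helper4, `S17/ModelInst.lean`) in its
exact shape, from `S17IN_indep` (`S17/Indep.lean`).
-/

set_option autoImplicit false

open ModularCurve AlgebraicCurve WithZero

namespace Fermat.Agent.S17

open Fermat.Agent.Lib

/-- **INDEP** for `X₀(N)`: the field `indep` of `S17MI_In N d1`. -/
theorem S17IN_inst (N : ℕ) [NeZero N] (d1 : ℕ) :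
    ∀ (d : ℕ) (P : Fin d → S17HI_Pl N), d + 2 * S17MI_g N ≤ 4 * d1 →
      Function.Injective P → (∀ i, P i ≠ S17EM_O N) →
      S17H_W (fun i => S17MI_ev N d1 (P i)) ≠ 0 := by
  intro d P hd hP hPO
  refine S17IN_indep (S17ST_hRR N) (B := S17EM_D N (4 * d1)) (S17MI_D_off N d1) ?_ P hP hPO
    (S17MI_span N d1) (S17MI_il N d1)
  rw [S17MI_D_degree]
  unfold S17MI_g at hd
  exact_mod_cast hd

end Fermat.Agent.S17
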