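import Mathlib

/-!
# TRACK 8 (S17), pillar WMW, package KUM part K2a (helper19): Kummer theory of degree 2

`K' ⊆ ℚ̄` a subfield, `H = K'.fixingSubgroup = Gal(ℚ̄/K')`, `χ : H →* Multiplicative (ZMod 2)` a
character which is *continuous* (`S17K2_Cont`: trivial on the fixing subgroup of a finite
extension of `ℚ`).

* `S17K2_IsRoot K' χ β` : `β ≠ 0` and `σ β = β` if `χ σ = 1`, `σ β = -β` otherwise (`σ ∈ H`);
* `S17K2_kummer`  : a continuous `χ` has a root `β` (no Hilbert 90: `β = θ - σ₀ θ` for `θ` in the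
  fixed field of `ker χ`);
* `S17K2_sq_mem`  : `β ^ 2 ∈ K'`;
* `S17K2_decomp`  : every element fixed by `ker χ` is `x + y β` with `x, y ∈ K'`;
* `S17K2_root_unique` : two characters with roots `β`, `β'` such that `β = c β'`, `c ∈ K'`,
  are equal.

Mathlib only.
-/

set_option autoImplicit false
set_option linter.style.haveILetI false

open IntermediateField

namespace Fermat.Agent.S17

local notation "ℚbar" => AlgebraicClosure ℚ
local notation "Gℚ" => (AlgebraicClosure ℚ ≃ₐ[ℚ] AlgebraicClosure ℚ)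

theorem S17K2_isGalois : IsGalois ℚ ℚbar :=
  haveI : IsAlgClosure ℚ ℚbar := ⟨inferInstance, AlgebraicClosure.isAlgebraic ℚ⟩
  IsAlgClosure.isGalois ℚ ℚbar

/-- an element fixed by `Gal(ℚ̄/K')` lies in `K'`. -/
theorem S17K2_mem_of_fixed (K' : IntermediateField ℚ ℚbar) (x : ℚbar)
    (h : ∀ σ ∈ K'.fixingSubgroup, σ x = x) : x ∈ K' := by
  haveI := S17K2_isGalois
  have h1 : x ∈ fixedField K'.fixingSubgroup := (mem_fixedField_iff _ _).mpr h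
  rwa [InfiniteGalois.fixedField_fixingSubgroup] at h1

/-- elements of `K'` are fixed by `Gal(ℚ̄/K')`. -/
theorem S17K2_fixed_of_mem (K' : IntermediateField ℚ ℚbar) {x : ℚbar} (hx : x ∈ K')
    (σ : ↥K'.fixingSubgroup) : (σ : Gℚ) x = x :=
  (IntermediateField.mem_fixingSubgroup_iff K' σ).mp σ.2 x hx

/-- continuity of a character of `Gal(ℚ̄/K')`. -/
def S17K2_Cont (K' : IntermediateField ℚ ℚbar)
    (χ : ↥K'.fixingSubgroup →* Multiplicative (ZMod 2)) : Prop :=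
  ∃ L : IntermediateField ℚ ℚbar, FiniteDimensional ℚ L ∧
    ∀ σ : ↥K'.fixingSubgroup, (∀ x ∈ L, (σ : Gℚ) x = x) → χ σ = 1

/-- `β` is a Kummer root of `χ`. -/
def S17K2_IsRoot (K' : IntermediateField ℚ ℚbar)
    (χ : ↥K'.fixingSubgroup →* Multiplicative (ZMod 2)) (β : ℚbar) : Prop :=
  β ≠ 0 ∧ ∀ σ : ↥K'.fixingSubgroup, (σ : Gℚ) β = if χ σ = 1 then β else -β

theorem S17K2_zmod2_mul_self (x : Multiplicative (ZMod 2)) : x * x = 1 := by
  revert x; decide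

theorem S17K2_zmod2_mul_ne (x y : Multiplicative (ZMod 2)) (hx : x ≠ 1) (hy : y ≠ 1) :
    x * y = 1 := by
  revert x y; decide

theorem S17K2_zmod2_eq (x y : Multiplicative (ZMod 2)) (hx : x ≠ 1) (hy : y ≠ 1) : x = y := by
  revert x y; decide

section

variable (K' : IntermediateField ℚ ℚbar) (χ : ↥K'.fixingSubgroup →* Multiplicative (ZMod 2))

/-- the kernel of `χ` as a subgroup of `G_ℚ`. -/
noncomputable def S17K2_ker : Subgroup Gℚ := χ.ker.map K'.fixingSubgroup.subtype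

theorem S17K2_mem_ker {σ : Gℚ} :
    σ ∈ S17K2_ker K' χ ↔ ∃ h : σ ∈ K'.fixingSubgroup, χ ⟨σ, h⟩ = 1 := by
  constructor
  · rintro ⟨τ, hτ, rfl⟩
    exact ⟨τ.2, hτ⟩
  · rintro ⟨h, hχ⟩
    exact ⟨⟨σ, h⟩, hχ, rfl⟩

theorem S17K2_ker_isOpen [FiniteDimensional ℚ K'] (hc : S17K2_Cont K' χ) :
    IsOpen (S17K2_ker K' χ : Set Gℚ) := by
  obtain ⟨L, hL, hLχ⟩ := hc
  haveI := hL
  have h1 : IsOpen ((L ⊔ K').fixingSubgroup : Set Gℚ) :=
    IntermediateField.fixingSubgroup_isOpen (L ⊔ K')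
  refine Subgroup.isOpen_mono ?_ h1
  intro σ hσ
  rw [IntermediateField.mem_fixingSubgroup_iff] at hσ
  have hK : σ ∈ K'.fixingSubgroup :=
    (IntermediateField.mem_fixingSubgroup_iff K' σ).mpr
      (fun x hx => hσ x ((le_sup_right : K' ≤ L ⊔ K') hx))
  exact (S17K2_mem_ker K' χ).mpr
    ⟨hK, hLχ ⟨σ, hK⟩ (fun x hx => hσ x ((le_sup_left : L ≤ L ⊔ K') hx))⟩

/-- **Kummer theory in degree 2**: a continuous quadratic character has a root. -/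
theorem S17K2_kummer [FiniteDimensional ℚ K'] (hc : S17K2_Cont K' χ) :
    ∃ β : ℚbar, S17K2_IsRoot K' χ β := by
  haveI := S17K2_isGalois
  by_cases htriv : ∀ σ, χ σ = 1
  · exact ⟨1, one_ne_zero, fun σ => by rw [if_pos (htriv σ)]; exact map_one _⟩
  push Not at htriv
  obtain ⟨σ₀, hσ₀⟩ := htriv
  have hopen := S17K2_ker_isOpen K' χ hc
  have hclosed : IsClosed (S17K2_ker K' χ : Set Gℚ) := Subgroup.isClosed_of_isOpen _ hopen
  have hfix : (fixedField (S17K2_ker K' χ)).fixingSubgroup = S17K2_ker K' χ :=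
    InfiniteGalois.fixingSubgroup_fixedField ⟨S17K2_ker K' χ, hclosed⟩
  -- `σ₀` moves some element of the fixed field of the kernel
  have hσ₀' : (σ₀ : Gℚ) ∉ (fixedField (S17K2_ker K' χ)).fixingSubgroup := by
    rw [hfix, S17K2_mem_ker]
    rintro ⟨h, hχ⟩
    exact hσ₀ hχ
  rw [IntermediateField.mem_fixingSubgroup_iff] at hσ₀'
  push Not at hσ₀'
  obtain ⟨θ, hθ, hθσ⟩ := hσ₀'
  rw [mem_fixedField_iff] at hθ
  have hθ' : ∀ σ : ↥K'.fixingSubgroup, χ σ = 1 → (σ : Gℚ) θ = θ := fun σ hσ =>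
    hθ σ ((S17K2_mem_ker K' χ).mpr ⟨σ.2, hσ⟩)
  refine ⟨θ - (σ₀ : Gℚ) θ, sub_ne_zero.mpr (Ne.symm hθσ), fun σ => ?_⟩
  by_cases hσ : χ σ = 1
  · rw [if_pos hσ, map_sub, hθ' σ hσ]
    -- `σ σ₀ = σ₀ (σ₀⁻¹ σ σ₀)`
    have h1 : χ (σ₀⁻¹ * σ * σ₀) = 1 := by
      rw [map_mul, map_mul, hσ, mul_one, map_inv, inv_mul_cancel]
    have h2 := hθ' _ h1
    have h3 : (σ : Gℚ) ((σ₀ : Gℚ) θ) = (σ₀ : Gℚ) (((σ₀⁻¹ * σ * σ₀ : ↥K'.fixingSubgroup) : Gℚ) θ) := by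
      simp [AlgEquiv.mul_apply]
    rw [h3, h2]
  · rw [if_neg hσ]
    have h1 : χ (σ₀⁻¹ * σ) = 1 := by
      rw [map_mul, map_inv]
      have := S17K2_zmod2_eq _ _ hσ hσ₀
      rw [this, inv_mul_cancel]
    have h2 : χ (σ * σ₀) = 1 := by
      rw [map_mul]; exact S17K2_zmod2_mul_ne _ _ hσ hσ₀
    have h3 := hθ' _ h1
    have h4 := hθ' _ h2
    have h5 : (σ : Gℚ) θ = (σ₀ : Gℚ) θ := by
      have : (σ : Gℚ) θ = (σ₀ : Gℚ) (((σ₀⁻¹ * σ : ↥K'.fixingSubgroup) : Gℚ) θ) := by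
        simp [AlgEquiv.mul_apply]
      rw [this, h3]
    have h6 : (σ : Gℚ) ((σ₀ : Gℚ) θ) = θ := by
      have : (σ : Gℚ) ((σ₀ : Gℚ) θ) = ((σ * σ₀ : ↥K'.fixingSubgroup) : Gℚ) θ := by
        simp [AlgEquiv.mul_apply]
      rw [this, h4]
    rw [map_sub, h5, h6]
    ring

variable {K' χ}

/-- the square of a root lies in `K'`. -/
theorem S17K2_sq_mem {β : ℚbar} (hβ : S17K2_IsRoot K' χ β) : β ^ 2 ∈ K' := by
  refine S17K2_mem_of_fixed K' _ (fun σ hσ => ?_)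
  have := hβ.2 ⟨σ, hσ⟩
  rw [map_pow]
  show (σ β) ^ 2 = β ^ 2
  have h' : σ β = if χ ⟨σ, hσ⟩ = 1 then β else -β := this
  rw [h']
  split_ifs
  · rfl
  · ring

/-- a root is moved by exactly the elements outside the kernel. -/
theorem S17K2_root_eq_iff {β : ℚbar} (hβ : S17K2_IsRoot K' χ β) (σ : ↥K'.fixingSubgroup) :
    (σ : Gℚ) β = β ↔ χ σ = 1 := by
  rw [hβ.2 σ]
  constructor
  · intro h
    by_contra hne
    rw [if_neg hne] at h
    have : (2 : ℚbar) * β = 0 := by linear_combination -h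
    rcases mul_eq_zero.mp this with h2 | h2
    · exact two_ne_zero h2
    · exact hβ.1 h2
  · intro h
    rw [if_pos h]

/-- two characters whose roots differ by a factor in `K'` are equal. -/
theorem S17K2_root_unique {χ' : ↥K'.fixingSubgroup →* Multiplicative (ZMod 2)} {β β' c : ℚbar}
    (hβ : S17K2_IsRoot K' χ β) (hβ' : S17K2_IsRoot K' χ' β') (hc : c ∈ K')
    (h : β = c * β') : χ = χ' := by
  have hc0 : c ≠ 0 := by
    rintro rfl
    rw [zero_mul] at h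
    exact hβ.1 h
  ext1 σ
  have h1 := S17K2_root_eq_iff hβ σ
  have h2 := S17K2_root_eq_iff hβ' σ
  have h3 : (σ : Gℚ) β = β ↔ (σ : Gℚ) β' = β' := by
    rw [h, map_mul, S17K2_fixed_of_mem K' hc σ]
    constructor
    · intro h4
      exact mul_left_cancel₀ hc0 h4
    · intro h4
      rw [h4]
  by_cases hσ : χ σ = 1
  · rw [hσ, (h2.mp (h3.mp (h1.mpr hσ)))]
  · have hσ' : χ' σ ≠ 1 := fun h5 => hσ (h1.mp (h3.mpr (h2.mpr h5)))
    exact S17K2_zmod2_eq _ _ hσ hσ'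

/-- **the fixed field of `ker χ` is `K' + K' β`**. -/
theorem S17K2_decomp {β : ℚbar} (hβ : S17K2_IsRoot K' χ β) (b : ℚbar)
    (hb : ∀ σ : ↥K'.fixingSubgroup, χ σ = 1 → (σ : Gℚ) b = b) :
    ∃ x y : ℚbar, x ∈ K' ∧ y ∈ K' ∧ b = x + y * β := by
  by_cases htriv : ∀ σ, χ σ = 1
  · refine ⟨b, 0, S17K2_mem_of_fixed K' _ (fun σ hσ => hb ⟨σ, hσ⟩ (htriv _)), zero_mem _, ?_⟩
    simp
  push Not at htriv
  obtain ⟨σ₀, hσ₀⟩ := htriv
  -- the conjugate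
  set b' : ℚbar := (σ₀ : Gℚ) b with hb'
  have hswap : ∀ σ : ↥K'.fixingSubgroup, χ σ ≠ 1 → (σ : Gℚ) b = b' ∧ (σ : Gℚ) b' = b := by
    intro σ hσ
    have h1 : χ (σ₀⁻¹ * σ) = 1 := by
      rw [map_mul, map_inv]
      have := S17K2_zmod2_eq _ _ hσ hσ₀
      rw [this, inv_mul_cancel]
    have h2 : χ (σ * σ₀) = 1 := by
      rw [map_mul]; exact S17K2_zmod2_mul_ne _ _ hσ hσ₀
    constructor
    · have : (σ : Gℚ) b = (σ₀ : Gℚ) (((σ₀⁻¹ * σ : ↥K'.fixingSubgroup) : Gℚ) b) := by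
        simp [AlgEquiv.mul_apply]
      rw [this, hb _ h1]
    · have : (σ : Gℚ) b' = ((σ * σ₀ : ↥K'.fixingSubgroup) : Gℚ) b := by
        simp [hb', AlgEquiv.mul_apply]
      rw [this, hb _ h2]
  have hkeep : ∀ σ : ↥K'.fixingSubgroup, χ σ = 1 → (σ : Gℚ) b' = b' := by
    intro σ hσ
    have h1 : χ (σ₀⁻¹ * σ * σ₀) = 1 := by
      rw [map_mul, map_mul, hσ, mul_one, map_inv, inv_mul_cancel]
    have : (σ : Gℚ) b' = (σ₀ : Gℚ) (((σ₀⁻¹ * σ * σ₀ : ↥K'.fixingSubgroup) : Gℚ) b) := by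
      simp [hb', AlgEquiv.mul_apply]
    rw [this, hb _ h1]
  have hx : (b + b') / 2 ∈ K' := by
    refine S17K2_mem_of_fixed K' _ (fun σ hσ => ?_)
    by_cases hχ : χ ⟨σ, hσ⟩ = 1
    · have e1 : σ b = b := hb ⟨σ, hσ⟩ hχ
      have e2 : σ b' = b' := hkeep ⟨σ, hσ⟩ hχ
      rw [map_div₀, map_add, e1, e2, map_ofNat]
    · obtain ⟨e1, e2⟩ := hswap ⟨σ, hσ⟩ hχ
      have e1' : σ b = b' := e1
      have e2' : σ b' = b := e2
      rw [map_div₀, map_add, e1', e2', map_ofNat, add_comm]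
  have hy : (b - b') / 2 / β ∈ K' := by
    refine S17K2_mem_of_fixed K' _ (fun σ hσ => ?_)
    have hβσ : σ β = if χ ⟨σ, hσ⟩ = 1 then β else -β := hβ.2 ⟨σ, hσ⟩
    by_cases hχ : χ ⟨σ, hσ⟩ = 1
    · have e1 : σ b = b := hb ⟨σ, hσ⟩ hχ
      have e2 : σ b' = b' := hkeep ⟨σ, hσ⟩ hχ
      rw [if_pos hχ] at hβσ
      rw [map_div₀, map_div₀, map_sub, e1, e2, map_ofNat, hβσ]
    · obtain ⟨e1, e2⟩ := hswap ⟨σ, hσ⟩ hχ
      have e1' : σ b = b' := e1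
      have e2' : σ b' = b := e2
      rw [if_neg hχ] at hβσ
      rw [map_div₀, map_div₀, map_sub, e1', e2', map_ofNat, hβσ]
      have := hβ.1
      field_simp
      ring
  refine ⟨(b + b') / 2, (b - b') / 2 / β, hx, hy, ?_⟩
  have := hβ.1
  field_simp
  ring

end

end Fermat.Agent.S17
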