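import Mathlib
import Fermat.Prelude.Def_FLTPrelim_Ramification
import Fermat.Agent.Lib.InertiaCriterion
import Fermat.Agent.Lib.InertiaLift
import Fermat.Agent.S17.Kum2a

/-!
# TRACK 8 (S17), pillar WMW, package KUM part K2b (helper19): unramified ⇒ even valuation

`K' ⊆ ℚ̄` finite over `ℚ`, `χ` a continuous quadratic character of `H = Gal(ℚ̄/K')` with Kummer
root `β` (`β² = a ∈ K'`), `A` a valuation subring of `ℚ̄` over the prime `ℓ`.

* `S17K2_parity` : if `χ` is trivial on `I_A ∩ H` then the `A`-valuation of `a = β²` is the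
  valuation of a square of `K'`:  `∃ c ∈ K', c ≠ 0 ∧ A.valuation (β² c²) = 1`.

Proof.  Otherwise `v(K'^×)` and `v(β) v(K'^×)` are disjoint, so for an algebraic integer
`b = x + y β` (`x, y ∈ K'`, `S17K2_decomp`) one has `v(y β) < 1`; hence `σ₀ b − b = −2 y β ∈ 𝔪_A`
for `σ₀ ∈ H` with `χ σ₀ ≠ 1`.  By `inertiaLift_exists` (profinite group `H`, closed normal subgroup
`ker χ`) some `τ' σ₀`, `τ' ∈ ker χ`, lies in the inertia group of `A`; but `χ (τ' σ₀) ≠ 1`.
No hypothesis on `ℓ` (the statement holds for `ℓ = 2` as well).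
-/

set_option autoImplicit false
set_option linter.style.haveILetI false

open IntermediateField Fermat.Agent.Lib

namespace Fermat.Agent.S17

local notation "ℚbar" => AlgebraicClosure ℚ
local notation "Gℚ" => (AlgebraicClosure ℚ ≃ₐ[ℚ] AlgebraicClosure ℚ)

noncomputable section

/-- the ring of all algebraic integers. -/
abbrev S17K2_Zbar : Subalgebra ℤ ℚbar := integralClosure ℤ ℚbar

/-- the Galois action on algebraic integers. -/
local instance S17K2_zbarAction : MulSemiringAction Gℚ S17K2_Zbar where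
  smul σ b := ⟨σ b.1, b.2.map (σ.toAlgHom.restrictScalars ℤ)⟩
  one_smul _ := rfl
  mul_smul _ _ _ := rfl
  smul_zero σ := Subtype.ext (map_zero σ)
  smul_add σ _ _ := Subtype.ext (map_add σ _ _)
  smul_one σ := Subtype.ext (map_one σ)
  smul_mul σ _ _ := Subtype.ext (map_mul σ _ _)

local instance S17K2_zbarTop : TopologicalSpace S17K2_Zbar := ⊥

local instance S17K2_zbarDisc : DiscreteTopology S17K2_Zbar := ⟨rfl⟩

local instance S17K2_zbarCont : ContinuousSMul Gℚ S17K2_Zbar := by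
  have : Algebra.IsAlgebraic ℚ ℚbar := AlgebraicClosure.isAlgebraic ℚ
  have : Algebra.IsIntegral ℚ ℚbar := Algebra.IsAlgebraic.isIntegral
  rw [continuousSMul_iff_stabilizer_isOpen]
  intro b
  convert stabilizer_isOpen_of_isIntegral (K := ℚ) (L := ℚbar) b.1 using 1
  ext σ
  simp only [SetLike.mem_coe, MulAction.mem_stabilizer_iff]
  exact ⟨fun h => congrArg Subtype.val h, fun h => Subtype.ext h⟩

/-- the valuation estimate: if no `β² c²` (`c ∈ K'^×`) is an `A`-unit, then for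
`b = x + y β ∈ A` with `x, y ∈ K'` the element `y β` is a non-unit. -/
theorem S17K2_val_aux (K' : IntermediateField ℚ ℚbar) (A : ValuationSubring ℚbar) {β : ℚbar}
    (hno : ∀ c : ℚbar, c ∈ K' → c ≠ 0 → A.valuation (β ^ 2 * c ^ 2) ≠ 1)
    {x y : ℚbar} (hx : x ∈ K') (hy : y ∈ K') (hb : x + y * β ∈ A) :
    A.valuation (y * β) < 1 := by
  by_cases hy0 : y = 0
  · rw [hy0, zero_mul, map_zero]; exact zero_lt_one
  have h1 : A.valuation (y * β) ≠ 1 := by
    intro h
    apply hno y hy hy0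
    have : β ^ 2 * y ^ 2 = (y * β) ^ 2 := by ring
    rw [this, map_pow, h, one_pow]
  have h2 : A.valuation (y * β) ≤ 1 := by
    by_cases hx0 : x = 0
    · rw [hx0, zero_add] at hb
      exact (A.valuation_le_one_iff _).mpr hb
    have hne : A.valuation x ≠ A.valuation (y * β) := by
      intro h
      apply hno (y / x) (div_mem hy hx) (div_ne_zero hy0 hx0)
      have e : β ^ 2 * (y / x) ^ 2 = ((y * β) / x) ^ 2 := by
        field_simp
      rw [e, map_pow, map_div₀, ← h, div_self, one_pow]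
      exact (Valuation.ne_zero_iff _).mpr hx0
    have h3 := Valuation.map_add_of_distinct_val A.valuation hne
    have h4 : A.valuation (x + y * β) ≤ 1 := (A.valuation_le_one_iff _).mpr hb
    rw [h3] at h4
    exact (le_max_right _ _).trans h4
  exact lt_of_le_of_ne h2 h1

/-- **K2b**: a quadratic character which is unramified at `A` has a root whose square has the
`A`-valuation of a square of `K'`. -/
theorem S17K2_parity (K' : IntermediateField ℚ ℚbar) [FiniteDimensional ℚ K']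
    (χ : ↥K'.fixingSubgroup →* Multiplicative (ZMod 2)) (hc : S17K2_Cont K' χ)
    {β : ℚbar} (hβ : S17K2_IsRoot K' χ β)
    (A : ValuationSubring ℚbar) {ℓ : ℕ} (hℓ : ℓ.Prime) (hA : A.LiesOverPrime ℓ)
    (hunr : ∀ τ ∈ A.inertiaSubgroupIn ℚ, ∀ hτ : τ ∈ K'.fixingSubgroup, χ ⟨τ, hτ⟩ = 1) :
    ∃ c : ℚbar, c ∈ K' ∧ c ≠ 0 ∧ A.valuation (β ^ 2 * c ^ 2) = 1 := by
  classical
  by_contra hno
  push Not at hno
  have hgal : IsGalois ℚ ℚbar := S17K2_isGalois
  have halg' : Algebra.IsAlgebraic ℚ ℚbar := AlgebraicClosure.isAlgebraic ℚ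
  have hint' : Algebra.IsIntegral ℚ ℚbar := Algebra.IsAlgebraic.isIntegral
  have hβ0 := hβ.1
  -- `β ∉ K'`
  have hβK : β ∉ K' := by
    intro h
    apply hno β⁻¹ (inv_mem h) (inv_ne_zero hβ0)
    have : β ^ 2 * β⁻¹ ^ 2 = 1 := by field_simp
    rw [this, map_one]
  -- some `σ₀ ∈ H` moves `β`
  obtain ⟨σ₀, hσ₀⟩ : ∃ σ₀ : ↥K'.fixingSubgroup, χ σ₀ ≠ 1 := by
    by_contra h
    push Not at h
    apply hβK
    refine S17K2_mem_of_fixed K' β (fun σ hσ => ?_)
    exact (S17K2_root_eq_iff hβ ⟨σ, hσ⟩).mpr (h _)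
  have hσ₀β : (σ₀ : Gℚ) β = -β := by
    rw [hβ.2 σ₀, if_neg hσ₀]
  -- the prime of `ℤ̄` below `A`
  let ι : S17K2_Zbar →+* A :=
    { toFun := fun b => ⟨b.1, inertiaCrit_mem_of_isIntegral A b.2⟩
      map_one' := rfl
      map_mul' := fun _ _ => rfl
      map_zero' := rfl
      map_add' := fun _ _ => rfl }
  let Q : Ideal S17K2_Zbar := Ideal.comap ι (IsLocalRing.maximalIdeal A)
  have hQmem : ∀ b : S17K2_Zbar, b ∈ Q ↔ (b : ℚbar) ∈ A.nonunits := by
    intro b
    rw [Ideal.mem_comap, ← ValuationSubring.coe_mem_nonunits_iff]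
    rfl
  have hQprime : Q.IsPrime := Ideal.comap_isPrime ι _
  -- the profinite group `H` and its closed normal subgroup `ker χ`
  have hHclosed : IsClosed (K'.fixingSubgroup : Set Gℚ) :=
    IntermediateField.fixingSubgroup_isClosed K'
  haveI : CompactSpace ↥K'.fixingSubgroup := isCompact_iff_compactSpace.mp hHclosed.isCompact
  have hkerclosed : IsClosed ((χ.ker : Subgroup ↥K'.fixingSubgroup) : Set ↥K'.fixingSubgroup) := by
    have h1 : IsClosed (S17K2_ker K' χ : Set Gℚ) :=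
      Subgroup.isClosed_of_isOpen _ (S17K2_ker_isOpen K' χ hc)
    have h2 : ((χ.ker : Subgroup ↥K'.fixingSubgroup) : Set ↥K'.fixingSubgroup)
        = (fun σ : ↥K'.fixingSubgroup => (σ : Gℚ)) ⁻¹' (S17K2_ker K' χ : Set Gℚ) := by
      ext σ
      simp only [SetLike.mem_coe, MonoidHom.mem_ker, Set.mem_preimage]
      rw [S17K2_mem_ker]
      exact ⟨fun h => ⟨σ.2, h⟩, fun ⟨_, h⟩ => h⟩
    rw [h2]
    exact h1.preimage continuous_subtype_val
  -- the hypothesis of the lifting lemma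
  have hσ : ∀ a : S17K2_Zbar, (∀ h : (χ.ker : Subgroup ↥K'.fixingSubgroup), h • a = a) →
      σ₀ • a - a ∈ Q := by
    intro a ha
    have ha' : ∀ σ : ↥K'.fixingSubgroup, χ σ = 1 → (σ : Gℚ) (a : ℚbar) = (a : ℚbar) := by
      intro σ hσ1
      exact congrArg Subtype.val (ha ⟨σ, hσ1⟩)
    obtain ⟨x, y, hx, hy, hxy⟩ := S17K2_decomp hβ (a : ℚbar) ha'
    rw [hQmem]
    have hcoe : ((σ₀ • a - a : S17K2_Zbar) : ℚbar) = (σ₀ : Gℚ) (a : ℚbar) - (a : ℚbar) := rfl
    rw [hcoe, hxy, map_add, map_mul, S17K2_fixed_of_mem K' hx σ₀, S17K2_fixed_of_mem K' hy σ₀,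
      hσ₀β]
    have hbA : x + y * β ∈ A := by
      rw [← hxy]; exact inertiaCrit_mem_of_isIntegral A a.2
    have hv := S17K2_val_aux K' A hno hx hy hbA
    rw [A.mem_nonunits_iff]
    have e : x + y * -β - (x + y * β) = (-2 : ℚbar) * (y * β) := by ring
    rw [e, map_mul]
    have h2 : A.valuation (-2 : ℚbar) ≤ 1 := by
      rw [A.valuation_le_one_iff]
      exact neg_mem (by exact_mod_cast natCast_mem A 2)
    calc A.valuation (-2 : ℚbar) * A.valuation (y * β)
        ≤ 1 * A.valuation (y * β) := by gcongr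
      _ = A.valuation (y * β) := one_mul _
      _ < 1 := hv
  obtain ⟨τ', hτ'ker, hτ'⟩ := inertiaLift_exists (G := ↥K'.fixingSubgroup) (B := S17K2_Zbar)
    (χ.ker) hkerclosed Q σ₀ hσ
  have halg : ∀ x : ℚbar, IsAlgebraic ℤ x := fun x =>
    (IsFractionRing.isAlgebraic_iff ℤ ℚ ℚbar).mpr
      ((AlgebraicClosure.isAlgebraic ℚ).isAlgebraic x)
  have hmemI : ((τ' * σ₀ : ↥K'.fixingSubgroup) : Gℚ) ∈ A.inertiaSubgroupIn ℚ := by
    refine inertiaCrit_mem_inertia_of_forall_isIntegral A hℓ hA halg _ ?_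
    intro b hb
    have := hτ' ⟨b, hb⟩
    rw [hQmem] at this
    exact this
  have h1 := hunr _ hmemI (τ' * σ₀).2
  have h2 : χ (τ' * σ₀) = χ σ₀ := by
    rw [map_mul, MonoidHom.mem_ker.mp hτ'ker, one_mul]
  exact hσ₀ (h2 ▸ h1)

end

end Fermat.Agent.S17
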