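import Mathlib.RingTheory.DedekindDomain.SelmerGroup
import Mathlib.RingTheory.DedekindDomain.Factorization
import Mathlib.RingTheory.ClassGroup.Basic
import Mathlib.GroupTheory.FiniteAbelian.Basic
import Mathlib.GroupTheory.Finiteness
import Mathlib.NumberTheory.NumberField.Units.DirichletTheorem
import Mathlib.NumberTheory.NumberField.ClassNumber

/-!
# TRACK 8 (S17), package SEL: finiteness of the Selmer group `K⟮S, n⟯`

For a Dedekind domain `R` with fraction field `K`, finite class group and finitely generated unit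
group, a finite set `S` of primes and `n > 0`, the Selmer group
`K⟮S, n⟯ = {x ∈ Kˣ/(Kˣ)ⁿ | n ∣ ord_v x for all v ∉ S}` is finite (`S17SEL_finite`).
For the ring of integers of a number field this is `S17SEL_finite_numberField`.
-/

set_option autoImplicit false

open IsDedekindDomain HeightOneSpectrum FractionalIdeal
open scoped nonZeroDivisors

namespace Fermat.Agent.S17

universe u v

variable {R : Type u} [CommRing R] [IsDedekindDomain R] {K : Type v} [Field K]
  [Algebra R K] [IsFractionRing R K]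

/-- the `v`-adic valuation of `x ∈ Kˣ` is minus the multiplicity of `v` in the fractional ideal
`(x)`. -/
theorem S17SEL_valuationOfNeZero_eq_count (v : HeightOneSpectrum R) (x : Kˣ) :
    Multiplicative.toAdd (v.valuationOfNeZero x) =
      - FractionalIdeal.count K v (spanSingleton R⁰ (x : K)) := by
  classical
  have hx0 : spanSingleton R⁰ (x : K) ≠ 0 := by
    rw [Ne, spanSingleton_eq_zero_iff]; exact x.ne_zero
  have hsec := IsLocalization.sec_spec R⁰ (x : K)
  set ab := IsLocalization.sec R⁰ (x : K) with hab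
  have hb0 : algebraMap R K (ab.2 : R) ≠ 0 :=
    IsFractionRing.to_map_ne_zero_of_mem_nonZeroDivisors ab.2.2
  have key : spanSingleton R⁰ (x : K) =
      spanSingleton R⁰ ((algebraMap R K) (ab.2 : R))⁻¹ * ((Ideal.span {ab.1} : Ideal R) :
        FractionalIdeal R⁰ K) := by
    rw [coeIdeal_span_singleton, spanSingleton_mul_spanSingleton]
    congr 1
    rw [← hsec]
    field_simp
  rw [count_well_defined K v hx0 key]
  change Multiplicative.toAdd (v.valuationOfNeZeroToFun x) = _
  simp only [valuationOfNeZeroToFun, toAdd_ofAdd]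
  ring

/-- membership in the Selmer group in terms of divisibility of valuations. -/
theorem S17SEL_valuationOfNeZeroMod_eq_one_iff (v : HeightOneSpectrum R) (n : ℕ) (x : Kˣ) :
    v.valuationOfNeZeroMod n (QuotientGroup.mk x : Kˣ ⧸ (powMonoidHom n : Kˣ →* Kˣ).range) = 1 ↔
      (n : ℤ) ∣ FractionalIdeal.count K v (spanSingleton R⁰ (x : K)) := by
  have h1 : v.valuationOfNeZeroMod n
      (QuotientGroup.mk x : Kˣ ⧸ (powMonoidHom n : Kˣ →* Kˣ).range) =
      Multiplicative.ofAdd ((Int.quotientZMultiplesNatEquivZMod n)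
        (QuotientAddGroup.mk (Multiplicative.toAdd (v.valuationOfNeZero x)))) := rfl
  rw [h1, ofAdd_eq_one, map_eq_zero_iff _ (AddEquiv.injective _), QuotientAddGroup.eq_zero_iff,
    Int.mem_zmultiples_iff, S17SEL_valuationOfNeZero_eq_count, dvd_neg]

/-- if `n ∣ ord_v x` for all `v`, then `(x) = Jⁿ` for an invertible fractional ideal `J`. -/
theorem S17SEL_exists_root (n : ℕ) (hn : 0 < n) (x : Kˣ)
    (h : ∀ v : HeightOneSpectrum R,
      (n : ℤ) ∣ FractionalIdeal.count K v (spanSingleton R⁰ (x : K))) :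
    ∃ J : (FractionalIdeal R⁰ K)ˣ, J ^ n = toPrincipalIdeal R K x := by
  classical
  set I : FractionalIdeal R⁰ K := spanSingleton R⁰ (x : K) with hI
  have hI0 : I ≠ 0 := by
    rw [hI, Ne, spanSingleton_eq_zero_iff]; exact x.ne_zero
  set f : HeightOneSpectrum R → FractionalIdeal R⁰ K :=
    fun v => (v.asIdeal : FractionalIdeal R⁰ K) ^ (count K v I / (n : ℤ)) with hf
  have hfin : (Function.mulSupport f).Finite := by
    have h1 := finite_factors (K := K) I
    rw [Filter.eventually_cofinite] at h1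
    refine h1.subset ?_
    intro v hv
    simp only [Function.mem_mulSupport] at hv
    intro h0
    apply hv
    simp only [hf, h0, Int.zero_ediv, zpow_zero]
  have hJ : (∏ᶠ v, f v) ^ n = I := by
    rw [finprod_pow hfin]
    conv_rhs => rw [← finprod_heightOneSpectrum_factorization' K hI0]
    apply finprod_congr
    intro v
    simp only [hf]
    rw [← zpow_natCast, ← zpow_mul, Int.ediv_mul_cancel (h v)]
  have hJ0 : (∏ᶠ v, f v) ≠ 0 := by
    intro h0
    rw [h0, zero_pow hn.ne'] at hJ
    exact hI0 hJ.symm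
  refine ⟨Units.mk0 _ hJ0, ?_⟩
  apply Units.ext
  rw [Units.val_pow_eq_pow_val, Units.val_mk0, hJ, coe_toPrincipalIdeal]

/-- two elements whose principal ideals are `n`-th powers of ideals in the same class differ by
an `n`-th power and a unit of `R`. -/
theorem S17SEL_same_class (n : ℕ) (x y : Kˣ) (J₁ J₂ : (FractionalIdeal R⁰ K)ˣ)
    (h₁ : J₁ ^ n = toPrincipalIdeal R K x) (h₂ : J₂ ^ n = toPrincipalIdeal R K y)
    (hc : ClassGroup.mk K J₁ = ClassGroup.mk K J₂) :
    ∃ (u : Rˣ) (z : Kˣ), x = y * z ^ n * Units.map (algebraMap R K : R →* K) u := by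
  have h1 : ClassGroup.mk K (J₁ * J₂⁻¹) = 1 := by
    rw [map_mul, map_inv, hc, mul_inv_cancel]
  rw [ClassGroup.mk_eq_one_iff, isPrincipal_iff] at h1
  obtain ⟨z0, hz0⟩ := h1
  have hz0' : z0 ≠ 0 := by
    rintro rfl
    rw [spanSingleton_zero] at hz0
    exact (J₁ * J₂⁻¹).ne_zero hz0
  set z : Kˣ := Units.mk0 z0 hz0' with hzdef
  have hz : toPrincipalIdeal R K z = J₁ * J₂⁻¹ := by
    rw [toPrincipalIdeal_eq_iff]; exact hz0.symm
  have hJ : J₁ = J₂ * toPrincipalIdeal R K z := by
    rw [hz, mul_comm J₁, ← mul_assoc, mul_inv_cancel, one_mul]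
  have hP : toPrincipalIdeal R K x = toPrincipalIdeal R K (y * z ^ n) := by
    rw [← h₁, hJ, mul_pow, h₂, map_mul, map_pow]
  have hP' : spanSingleton R⁰ (x : K) = spanSingleton R⁰ ((y * z ^ n : Kˣ) : K) := by
    rw [← coe_toPrincipalIdeal, ← coe_toPrincipalIdeal, hP]
  rw [spanSingleton_eq_spanSingleton] at hP'
  obtain ⟨u, hu⟩ := hP'
  refine ⟨u⁻¹, z, ?_⟩
  apply Units.ext
  have hu' : algebraMap R K (u : R) * (x : K) = ((y * z ^ n : Kˣ) : K) := by
    rw [← hu, Units.smul_def, Algebra.smul_def]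
  have hinv : algebraMap R K ((u⁻¹ : Rˣ) : R) * algebraMap R K (u : R) = 1 := by
    rw [← map_mul, Units.inv_mul, map_one]
  rw [Units.val_mul, Units.coe_map, ← hu']
  change (x : K) = algebraMap R K (u : R) * (x : K) * algebraMap R K ((u⁻¹ : Rˣ) : R)
  rw [mul_comm (algebraMap R K (u : R)), mul_assoc, mul_comm (algebraMap R K (u : R)), hinv,
    mul_one]

/-- `Rˣ/(Rˣ)ⁿ` is finite when `Rˣ` is finitely generated. -/
theorem S17SEL_finite_units_mod_pow (G : Type*) [CommGroup G] [Group.FG G] (n : ℕ) (hn : 0 < n) :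
    Finite (G ⧸ (powMonoidHom n : G →* G).range) := by
  have : Group.FG (G ⧸ (powMonoidHom n : G →* G).range) := QuotientGroup.fg _
  apply CommGroup.finite_of_fg_isMulTorsion
  intro q
  rw [isOfFinOrder_iff_pow_eq_one]
  refine ⟨n, hn, ?_⟩
  induction q using QuotientGroup.induction_on with
  | H g =>
    rw [← QuotientGroup.mk_pow, QuotientGroup.eq_one_iff]
    exact ⟨g, rfl⟩

/-- the image of the units of `R` in the Selmer group is finite. -/
theorem S17SEL_finite_range_fromUnit [Group.FG Rˣ] (n : ℕ) (hn : 0 < n) :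
    (Set.range (selmerGroup.fromUnit (R := R) (K := K) (n := n))).Finite := by
  have : Fact (0 < n) := ⟨hn⟩
  have := S17SEL_finite_units_mod_pow Rˣ n hn
  have hsub : Set.range (selmerGroup.fromUnit (R := R) (K := K) (n := n)) ⊆
      Set.range (selmerGroup.fromUnitLift (R := R) (K := K) (n := n)) := by
    rintro _ ⟨u, rfl⟩
    exact ⟨QuotientGroup.mk u, rfl⟩
  exact (Set.finite_range _).subset hsub

/-- **the unramified Selmer group `K⟮∅, n⟯` is finite**. -/
theorem S17SEL_finite_empty [Finite (ClassGroup R)] [Group.FG Rˣ] (n : ℕ) (hn : 0 < n) :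
    Finite ↥(selmerGroup (R := R) (K := K) (S := (∅ : Set (HeightOneSpectrum R))) (n := n)) := by
  classical
  have hrep : ∀ a : ↥(selmerGroup (R := R) (K := K) (S := (∅ : Set (HeightOneSpectrum R)))
      (n := n)), ∃ (x : Kˣ) (J : (FractionalIdeal R⁰ K)ˣ),
      (QuotientGroup.mk x : Kˣ ⧸ (powMonoidHom n : Kˣ →* Kˣ).range) = a.1 ∧
        J ^ n = toPrincipalIdeal R K x := by
    rintro ⟨a, ha⟩
    induction a using QuotientGroup.induction_on with
    | H x =>
      obtain ⟨J, hJ⟩ := S17SEL_exists_root (R := R) n hn x (fun v =>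
        (S17SEL_valuationOfNeZeroMod_eq_one_iff v n x).mp (ha v (Set.notMem_empty v)))
      exact ⟨x, J, rfl, hJ⟩
  choose X J hX hJ using hrep
  let φ : ↥(selmerGroup (R := R) (K := K) (S := (∅ : Set (HeightOneSpectrum R))) (n := n)) →
      ClassGroup R := fun a => ClassGroup.mk K (J a)
  rw [← Set.finite_univ_iff]
  have huniv : (Set.univ : Set ↥(selmerGroup (R := R) (K := K)
      (S := (∅ : Set (HeightOneSpectrum R))) (n := n))) = φ ⁻¹' Set.univ := rfl
  rw [huniv]
  apply Set.Finite.preimage' Set.finite_univ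
  intro c _
  by_cases hne : (φ ⁻¹' {c}).Nonempty
  · obtain ⟨b, hb⟩ := hne
    refine ((S17SEL_finite_range_fromUnit (R := R) (K := K) n hn).image
      (fun t => b * t)).subset ?_
    intro a ha
    have hab : ClassGroup.mk K (J a) = ClassGroup.mk K (J b) := ha.trans hb.symm
    obtain ⟨u, z, huz⟩ := S17SEL_same_class n (X a) (X b) (J a) (J b) (hJ a) (hJ b) hab
    refine ⟨selmerGroup.fromUnit u, ⟨u, rfl⟩, ?_⟩
    apply Subtype.ext
    rw [Subgroup.coe_mul, ← hX a, ← hX b, huz]
    change (QuotientGroup.mk (X b) : Kˣ ⧸ (powMonoidHom n : Kˣ →* Kˣ).range) *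
      QuotientGroup.mk (Units.map (algebraMap R K : R →* K) u) = _
    have hz1 : (QuotientGroup.mk (z ^ n) : Kˣ ⧸ (powMonoidHom n : Kˣ →* Kˣ).range) = 1 :=
      (QuotientGroup.eq_one_iff _).mpr ⟨z, rfl⟩
    rw [QuotientGroup.mk_mul, QuotientGroup.mk_mul, hz1]
    exact congrArg (fun t => t * (QuotientGroup.mk (Units.map (algebraMap R K : R →* K) u) :
      Kˣ ⧸ (powMonoidHom n : Kˣ →* Kˣ).range))
      (mul_one (QuotientGroup.mk (X b) : Kˣ ⧸ (powMonoidHom n : Kˣ →* Kˣ).range)).symm
  · rw [Set.not_nonempty_iff_eq_empty] at hne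
    rw [hne]
    exact Set.finite_empty

/-- **finiteness of the Selmer group `K⟮S, n⟯`** for a finite set `S` of primes and `n > 0`, over a
Dedekind domain with finite class group and finitely generated unit group. -/
theorem S17SEL_finite [Finite (ClassGroup R)] [Group.FG Rˣ] (S : Set (HeightOneSpectrum R))
    (hS : S.Finite) (n : ℕ) (hn : 0 < n) :
    Finite ↥(selmerGroup (R := R) (K := K) (S := S) (n := n)) := by
  have : NeZero n := ⟨hn.ne'⟩
  have : Finite ↥S := hS
  have := S17SEL_finite_empty (R := R) (K := K) n hn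
  rw [(selmerGroup.valuation (R := R) (K := K) (S := S) (n := n)).finite_iff_finite_ker_range]
  refine ⟨?_, Finite.of_injective _ Subtype.val_injective⟩
  rw [selmerGroup.valuation_ker_eq]
  refine Finite.of_injective
    (fun x : ↥((selmerGroup (R := R) (K := K) (S := (∅ : Set (HeightOneSpectrum R)))
      (n := n)).subgroupOf (selmerGroup (R := R) (K := K) (S := S) (n := n))) =>
      (⟨x.1.1, x.2⟩ : ↥(selmerGroup (R := R) (K := K) (S := (∅ : Set (HeightOneSpectrum R)))
        (n := n)))) ?_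
  intro x y hxy
  apply Subtype.ext
  apply Subtype.ext
  have h := congrArg Subtype.val hxy
  exact h

/-- **SEL**: for a number field `K`, a finite set `S` of primes of `𝓞 K` and `n > 0`, the Selmer
group `K⟮S, n⟯` is finite. -/
theorem S17SEL_finite_numberField (K : Type*) [Field K] [NumberField K]
    (S : Set (HeightOneSpectrum (NumberField.RingOfIntegers K))) (hS : S.Finite) (n : ℕ)
    (hn : 0 < n) :
    Finite ↥(selmerGroup (R := NumberField.RingOfIntegers K) (K := K) (S := S) (n := n)) := by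
  have : Group.FG (NumberField.RingOfIntegers K)ˣ := Group.fg_iff_monoid_fg.mpr inferInstance
  exact S17SEL_finite S hS n hn

/-- explicit form of `S17SEL_finite`: finitely many `t ∈ Kˣ` represent, modulo `n`-th powers, all
`x ∈ Kˣ` whose valuations outside `S` are divisible by `n`. -/
theorem S17SEL_exists_finset [Finite (ClassGroup R)] [Group.FG Rˣ]
    (S : Set (HeightOneSpectrum R)) (hS : S.Finite) (n : ℕ) (hn : 0 < n) :
    ∃ T : Finset Kˣ, ∀ x : Kˣ,
      (∀ v : HeightOneSpectrum R, v ∉ S →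
        (n : ℤ) ∣ FractionalIdeal.count K v (spanSingleton R⁰ (x : K))) →
      ∃ t ∈ T, ∃ y : Kˣ, x = t * y ^ n := by
  classical
  have hfin := S17SEL_finite (R := R) (K := K) S hS n hn
  have hrange : (Set.range (fun a : ↥(selmerGroup (R := R) (K := K) (S := S) (n := n)) =>
      (Quotient.out a.1 : Kˣ))).Finite := Set.finite_range _
  refine ⟨hrange.toFinset, fun x hx => ?_⟩
  have hmem : (QuotientGroup.mk x : Kˣ ⧸ (powMonoidHom n : Kˣ →* Kˣ).range) ∈
      selmerGroup (R := R) (K := K) (S := S) (n := n) := fun v hv =>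
    (S17SEL_valuationOfNeZeroMod_eq_one_iff v n x).mpr (hx v hv)
  refine ⟨Quotient.out (QuotientGroup.mk x : Kˣ ⧸ (powMonoidHom n : Kˣ →* Kˣ).range), ?_, ?_⟩
  · rw [Set.Finite.mem_toFinset]
    exact ⟨⟨_, hmem⟩, rfl⟩
  · have h1 : (QuotientGroup.mk
        (Quotient.out (QuotientGroup.mk x : Kˣ ⧸ (powMonoidHom n : Kˣ →* Kˣ).range)) :
        Kˣ ⧸ (powMonoidHom n : Kˣ →* Kˣ).range) = QuotientGroup.mk x :=
      QuotientGroup.out_eq' _
    rw [QuotientGroup.eq] at h1
    obtain ⟨y, hy⟩ := h1
    refine ⟨y, ?_⟩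
    have hy' : y ^ n = (Quotient.out
        (QuotientGroup.mk x : Kˣ ⧸ (powMonoidHom n : Kˣ →* Kˣ).range))⁻¹ * x := hy
    rw [hy', mul_inv_cancel_left]

/-- the same over the ring of integers of a number field. -/
theorem S17SEL_exists_finset_numberField (K : Type*) [Field K] [NumberField K]
    (S : Set (HeightOneSpectrum (NumberField.RingOfIntegers K))) (hS : S.Finite) (n : ℕ)
    (hn : 0 < n) :
    ∃ T : Finset Kˣ, ∀ x : Kˣ,
      (∀ v : HeightOneSpectrum (NumberField.RingOfIntegers K), v ∉ S →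
        (n : ℤ) ∣ FractionalIdeal.count K v
          (spanSingleton (NumberField.RingOfIntegers K)⁰ (x : K))) →
      ∃ t ∈ T, ∃ y : Kˣ, x = t * y ^ n := by
  have : Group.FG (NumberField.RingOfIntegers K)ˣ := Group.fg_iff_monoid_fg.mpr inferInstance
  exact S17SEL_exists_finset S hS n hn

/-- the `v`-adic valuation of `x ∈ Kˣ` in terms of the multiplicity of `v` in `(x)`. -/
theorem S17SEL_valuation_eq_exp_count (v : HeightOneSpectrum R) (x : Kˣ) :
    v.valuation K (x : K) =
      WithZero.exp (- FractionalIdeal.count K v (spanSingleton R⁰ (x : K))) := by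
  rw [← valuationOfNeZero_eq, ← S17SEL_valuationOfNeZero_eq_count]
  rfl

end Fermat.Agent.S17
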