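import Mathlib
import Fermat.Prelude.Def_FLTPrelim_Ramification
import Fermat.Agent.S17.Kum2b
import Fermat.Agent.S17.Selmer

/-!
# TRACK 8 (S17), pillar WMW, package KUM part K2c (helper19): finiteness

`K' ⊆ ℚ̄` finite over `ℚ`, `H = Gal(ℚ̄/K')`, `S` a finite set of rational primes.

* `S17K2_exists_val`   : every prime `v` of `𝓞 K'` is induced by a valuation subring `A` of `ℚ̄`;
* `S17K2_exists_prime` : every prime `v` of `𝓞 K'` contains a rational prime;
* `S17K2_Unr K' S χ`   : `χ` is trivial on `I_A ∩ H` for every `A` over a prime `ℓ ∉ S`;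
* `S17K2_even`         : for `χ` continuous and unramified outside `S` with root `β`, the element
  `β² ∈ K'` has even valuation at every prime of `𝓞 K'` which does not lie over `S`;
* `S17K2_finite_chars` : **the set of continuous quadratic characters of `H` unramified outside
  `S` is finite** (Kummer + parity + finiteness of the Selmer group, `S17SEL_*`);
* `S17K2_finite_cocycles` : the same for additive maps `c : H → J` into the `2`-torsion of an
  additive group `J` with finite `2`-torsion — this is the finite set `Φ` of `S17KA_finiteIndex`.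
-/

set_option autoImplicit false
set_option linter.style.haveILetI false

open IntermediateField IsDedekindDomain NumberField FractionalIdeal
open scoped nonZeroDivisors

namespace Fermat.Agent.S17

local notation "ℚbar" => AlgebraicClosure ℚ
local notation "Gℚ" => (AlgebraicClosure ℚ ≃ₐ[ℚ] AlgebraicClosure ℚ)

noncomputable section

/-- every prime `v` of `𝓞 K'` is induced by a valuation subring of `ℚ̄`. -/
theorem S17K2_exists_val (K' : IntermediateField ℚ ℚbar) [NumberField ↥K']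
    (v : HeightOneSpectrum (𝓞 ↥K')) :
    ∃ A : ValuationSubring ℚbar,
      (∀ z : ↥K', z ≠ 0 → A.valuation (z : ℚbar) = 1 → v.valuation ↥K' z = 1) ∧
      (∀ z : ↥K', v.valuation ↥K' z < 1 → (z : ℚbar) ∈ A.nonunits) := by
  let V : ValuationSubring ↥K' := (v.valuation ↥K').valuationSubring
  let R₀ : LocalSubring ℚbar := LocalSubring.map (algebraMap ↥K' ℚbar) V.toLocalSubring
  obtain ⟨A, hA⟩ := R₀.exists_le_valuationSubring
  rw [LocalSubring.le_def] at hA
  obtain ⟨hle, hloc⟩ := hA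
  have hmemR : ∀ z : ↥K', v.valuation ↥K' z ≤ 1 → (z : ℚbar) ∈ R₀.toSubring := by
    intro z hz
    exact ⟨z, (Valuation.mem_valuationSubring_iff _ z).mpr hz, rfl⟩
  have key : ∀ z : ↥K', v.valuation ↥K' z ≤ 1 → A.valuation (z : ℚbar) = 1 →
      v.valuation ↥K' z = 1 := by
    intro z hz hAz
    have hzR := hmemR z hz
    have hzA : (z : ℚbar) ∈ A := hle hzR
    have hunitA : IsUnit (⟨(z : ℚbar), hzA⟩ : A) :=
      (A.valuation_eq_one_iff ⟨(z : ℚbar), hzA⟩).mpr hAz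
    have hunitR : IsUnit (⟨(z : ℚbar), hzR⟩ : R₀.toSubring) := by
      apply hloc.map_nonunit
      exact hunitA
    obtain ⟨⟨w, hw⟩, hzw⟩ := isUnit_iff_exists_inv.mp hunitR
    obtain ⟨w', hw'V, rfl⟩ := hw
    have h1 : (z : ℚbar) * ((w' : ↥K') : ℚbar) = 1 := congrArg Subtype.val hzw
    have h2 : z * w' = 1 := by
      apply Subtype.ext
      exact h1
    have h3 : v.valuation ↥K' z * v.valuation ↥K' w' = 1 := by
      rw [← map_mul, h2, map_one]
    have h4 : v.valuation ↥K' w' ≤ 1 := (Valuation.mem_valuationSubring_iff _ w').mp hw'V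
    refine le_antisymm hz ?_
    calc (1 : WithZero (Multiplicative ℤ)) = v.valuation ↥K' z * v.valuation ↥K' w' := h3.symm
      _ ≤ v.valuation ↥K' z * 1 := by gcongr
      _ = v.valuation ↥K' z := mul_one _
  refine ⟨A, fun z hz0 hAz => ?_, fun z hz => ?_⟩
  · rcases le_or_gt (v.valuation ↥K' z) 1 with h | h
    · exact key z h hAz
    · -- `z⁻¹` has valuation `< 1` but is an `A`-unit
      exfalso
      have h1 : v.valuation ↥K' z⁻¹ < 1 := by
        rw [map_inv₀]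
        exact inv_lt_one_of_one_lt₀ h
      have h2 : A.valuation ((z⁻¹ : ↥K') : ℚbar) = 1 := by
        have : ((z⁻¹ : ↥K') : ℚbar) = ((z : ↥K') : ℚbar)⁻¹ := rfl
        rw [this, map_inv₀, hAz, inv_one]
      have h3 := key z⁻¹ h1.le h2
      exact h1.ne h3
  · rw [A.mem_nonunits_iff]
    have hzA : (z : ℚbar) ∈ A := hle (hmemR z hz.le)
    have h1 : A.valuation (z : ℚbar) ≤ 1 := (A.valuation_le_one_iff _).mpr hzA
    refine lt_of_le_of_ne h1 (fun h2 => ?_)
    exact hz.ne (key z hz.le h2)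

/-- every prime of `𝓞 K'` contains a rational prime. -/
theorem S17K2_exists_prime (K : Type*) [Field K] [NumberField K]
    (v : HeightOneSpectrum (𝓞 K)) : ∃ ℓ : ℕ, ℓ.Prime ∧ ((ℓ : ℕ) : 𝓞 K) ∈ v.asIdeal := by
  have hprime := v.isPrime
  have hmem : ((Ideal.absNorm v.asIdeal : ℕ) : 𝓞 K) ∈ v.asIdeal := by
    have := Ideal.absNorm_mem v.asIdeal
    exact_mod_cast this
  have hne0 : Ideal.absNorm v.asIdeal ≠ 0 := by
    rw [Ne, Ideal.absNorm_eq_zero_iff]
    exact v.ne_bot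
  have hprod := Nat.prod_primeFactorsList hne0
  rw [← hprod] at hmem
  have hcast : (((Ideal.absNorm v.asIdeal).primeFactorsList.prod : ℕ) : 𝓞 K)
      = (((Ideal.absNorm v.asIdeal).primeFactorsList.map (fun n : ℕ => (n : 𝓞 K))).prod) := by
    rw [Nat.cast_list_prod]
  rw [hcast] at hmem
  have h2 := (Ideal.IsPrime.multiset_prod_mem_iff_exists_mem hprime
    (((Ideal.absNorm v.asIdeal).primeFactorsList.map (fun n : ℕ => (n : 𝓞 K)) : List (𝓞 K)) :
      Multiset (𝓞 K))).mp (by simpa using hmem)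
  obtain ⟨p, hp, hpv⟩ := h2
  rw [Multiset.mem_coe, List.mem_map] at hp
  obtain ⟨ℓ, hℓ, rfl⟩ := hp
  exact ⟨ℓ, Nat.prime_of_mem_primeFactorsList hℓ, hpv⟩

/-- the primes of `𝓞 K` over a set `S` of rational primes. -/
def S17K2_primesOver (K : Type*) [Field K] [NumberField K] (S : Set ℕ) :
    Set (HeightOneSpectrum (𝓞 K)) :=
  {v | ∃ ℓ ∈ S, ((ℓ : ℕ) : 𝓞 K) ∈ v.asIdeal ∧ ℓ ≠ 0}

theorem S17K2_primesOver_finite (K : Type*) [Field K] [NumberField K] {S : Set ℕ}
    (hS : S.Finite) : (S17K2_primesOver K S).Finite := by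
  have h1 : (⋃ ℓ ∈ S, {v : HeightOneSpectrum (𝓞 K) | ((ℓ : ℕ) : 𝓞 K) ∈ v.asIdeal ∧ ℓ ≠ 0}).Finite := by
    refine hS.biUnion (fun ℓ _ => ?_)
    by_cases hℓ : ℓ = 0
    · refine Set.Finite.subset Set.finite_empty ?_
      rintro v ⟨-, h⟩
      exact absurd hℓ h
    · have hne : Ideal.span {((ℓ : ℕ) : 𝓞 K)} ≠ 0 := by
        rw [Ne, Ideal.zero_eq_bot, Ideal.span_singleton_eq_bot]
        exact_mod_cast hℓ
      refine (Ideal.finite_factors hne).subset ?_
      rintro v ⟨hv, -⟩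
      show v.asIdeal ∣ Ideal.span {((ℓ : ℕ) : 𝓞 K)}
      rw [Ideal.dvd_iff_le, Ideal.span_singleton_le_iff_mem]
      exact hv
  refine h1.subset ?_
  rintro v ⟨ℓ, hℓS, hv⟩
  exact Set.mem_biUnion hℓS hv

/-- `χ` is unramified outside `S`. -/
def S17K2_Unr (K' : IntermediateField ℚ ℚbar) (S : Set ℕ)
    (χ : ↥K'.fixingSubgroup →* Multiplicative (ZMod 2)) : Prop :=
  ∀ ℓ : ℕ, ℓ.Prime → ℓ ∉ S → ∀ A : ValuationSubring ℚbar, A.LiesOverPrime ℓ →
    ∀ τ ∈ A.inertiaSubgroupIn ℚ, ∀ hτ : τ ∈ K'.fixingSubgroup, χ ⟨τ, hτ⟩ = 1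

/-- **parity**: the square of a root of a character unramified outside `S` has even valuation at
every prime of `𝓞 K'` not over `S`. -/
theorem S17K2_even (K' : IntermediateField ℚ ℚbar) [FiniteDimensional ℚ K'] [NumberField ↥K']
    (S : Set ℕ) (χ : ↥K'.fixingSubgroup →* Multiplicative (ZMod 2))
    (hc : S17K2_Cont K' χ) (hu : S17K2_Unr K' S χ) {β : ℚbar} (hβ : S17K2_IsRoot K' χ β)
    (a : (↥K')ˣ) (ha : (((a : (↥K')ˣ) : ↥K') : ℚbar) = β ^ 2)
    (v : HeightOneSpectrum (𝓞 ↥K')) (hv : v ∉ S17K2_primesOver ↥K' S) :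
    (2 : ℤ) ∣ FractionalIdeal.count ↥K' v (spanSingleton (𝓞 ↥K')⁰ ((a : (↥K')ˣ) : ↥K')) := by
  obtain ⟨ℓ, hℓ, hℓv⟩ := S17K2_exists_prime ↥K' v
  have hℓS : ℓ ∉ S := fun h => hv ⟨ℓ, h, hℓv, hℓ.ne_zero⟩
  obtain ⟨A, hA1, hA2⟩ := S17K2_exists_val K' v
  have hAℓ : A.LiesOverPrime ℓ := by
    have h1 : v.valuation ↥K' ((ℓ : ℕ) : ↥K') < 1 := by
      have := (v.valuation_lt_one_iff_mem (K := ↥K') ((ℓ : ℕ) : 𝓞 ↥K')).mpr hℓv
      simpa using this
    have h2 := hA2 _ h1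
    show ((ℓ : ℕ) : ℚbar) ∈ A.nonunits
    simpa using h2
  obtain ⟨c, hcK, hc0, hval⟩ := S17K2_parity K' χ hc hβ A hℓ hAℓ (hu ℓ hℓ hℓS A hAℓ)
  -- the element `a c²` of `K'`
  let c' : (↥K')ˣ := Units.mk0 ⟨c, hcK⟩ (fun h => hc0 (congrArg Subtype.val h))
  have hz : A.valuation ((((a * c' ^ 2 : (↥K')ˣ) : ↥K')) : ℚbar) = 1 := by
    have : ((((a * c' ^ 2 : (↥K')ˣ) : ↥K')) : ℚbar) = β ^ 2 * c ^ 2 := by
      simp only [Units.val_mul, Units.val_pow_eq_pow_val, MulMemClass.coe_mul,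
        SubmonoidClass.coe_pow, ha]
      rfl
    rw [this]; exact hval
  have h1 := hA1 _ (Units.ne_zero _) hz
  rw [S17SEL_valuation_eq_exp_count, ← WithZero.exp_zero, WithZero.exp_inj, neg_eq_zero] at h1
  have hne : ∀ x : (↥K')ˣ, spanSingleton (𝓞 ↥K')⁰ ((x : (↥K')ˣ) : ↥K') ≠ 0 := by
    intro x
    rw [Ne, spanSingleton_eq_zero_iff]
    exact x.ne_zero
  have h2 : spanSingleton (𝓞 ↥K')⁰ (((a * c' ^ 2 : (↥K')ˣ)) : ↥K')
      = spanSingleton (𝓞 ↥K')⁰ ((a : (↥K')ˣ) : ↥K')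
        * (spanSingleton (𝓞 ↥K')⁰ ((c' : (↥K')ˣ) : ↥K')
          * spanSingleton (𝓞 ↥K')⁰ ((c' : (↥K')ˣ) : ↥K')) := by
    rw [spanSingleton_mul_spanSingleton, spanSingleton_mul_spanSingleton]
    congr 1
    simp only [Units.val_mul, Units.val_pow_eq_pow_val]
    ring
  rw [h2, FractionalIdeal.count_mul _ _ (hne a) (mul_ne_zero (hne c') (hne c')),
    FractionalIdeal.count_mul _ _ (hne c') (hne c')] at h1
  exact ⟨-FractionalIdeal.count ↥K' v (spanSingleton (𝓞 ↥K')⁰ ((c' : (↥K')ˣ) : ↥K')), by omega⟩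

/-- **KUM**: the continuous quadratic characters of `Gal(ℚ̄/K')` unramified outside a finite set
`S` of primes form a finite set. -/
theorem S17K2_finite_chars (K' : IntermediateField ℚ ℚbar) [FiniteDimensional ℚ K']
    {S : Set ℕ} (hS : S.Finite) :
    {χ : ↥K'.fixingSubgroup →* Multiplicative (ZMod 2) |
      S17K2_Cont K' χ ∧ S17K2_Unr K' S χ}.Finite := by
  classical
  haveI : NumberField ↥K' := ⟨⟩
  obtain ⟨T, hT⟩ := S17SEL_exists_finset_numberField ↥K' (S17K2_primesOver ↥K' S)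
    (S17K2_primesOver_finite ↥K' hS) 2 (by norm_num)
  -- for every character of the set: a root, its square, and a representative in `T`
  have hex : ∀ χ : {χ : ↥K'.fixingSubgroup →* Multiplicative (ZMod 2) |
      S17K2_Cont K' χ ∧ S17K2_Unr K' S χ}, ∃ (β : ℚbar) (t : (↥K')ˣ) (y : (↥K')ˣ),
      S17K2_IsRoot K' χ.1 β ∧ t ∈ T ∧ β ^ 2 = ((((t * y ^ 2 : (↥K')ˣ)) : ↥K') : ℚbar) := by
    rintro ⟨χ, hc, hu⟩
    obtain ⟨β, hβ⟩ := S17K2_kummer K' χ hc
    have hβ2 : β ^ 2 ≠ 0 := pow_ne_zero _ hβ.1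
    let a : (↥K')ˣ := Units.mk0 ⟨β ^ 2, S17K2_sq_mem hβ⟩ (fun h => hβ2 (congrArg Subtype.val h))
    obtain ⟨t, ht, y, hy⟩ := hT a (fun v hv => S17K2_even K' S χ hc hu hβ a rfl v hv)
    refine ⟨β, t, y, hβ, ht, ?_⟩
    rw [← hy]
    rfl
  choose β t y hβ ht hy using hex
  have hinj : Function.Injective (fun χ => (⟨t χ, ht χ⟩ : ↥T)) := by
    intro χ χ' h
    have ht' : t χ = t χ' := congrArg Subtype.val h
    apply Subtype.ext
    -- `β χ = ± (y χ / y χ') β χ'`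
    have h1 := hy χ
    have h2 := hy χ'
    have hy0 : (((y χ' : (↥K')ˣ) : ↥K') : ℚbar) ≠ 0 := by
      intro h0
      exact (y χ').ne_zero (Subtype.ext h0)
    have h3 : (β χ) ^ 2 = ((((y χ : (↥K')ˣ) : ↥K') : ℚbar) / (((y χ' : (↥K')ˣ) : ↥K') : ℚbar)
        * β χ') ^ 2 := by
      rw [mul_pow, div_pow, h1, h2, ht']
      simp only [Units.val_mul, Units.val_pow_eq_pow_val, MulMemClass.coe_mul,
        SubmonoidClass.coe_pow]
      field_simp
    have hq : (((y χ : (↥K')ˣ) : ↥K') : ℚbar) / (((y χ' : (↥K')ˣ) : ↥K') : ℚbar) ∈ K' :=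
      div_mem (y χ).1.2 (y χ').1.2
    rcases sq_eq_sq_iff_eq_or_eq_neg.mp h3 with h4 | h4
    · exact S17K2_root_unique (hβ χ) (hβ χ') hq h4
    · refine S17K2_root_unique (hβ χ) (hβ χ') (neg_mem hq) ?_
      rw [h4]; ring
  have hfin : Finite {χ : ↥K'.fixingSubgroup →* Multiplicative (ZMod 2) |
      S17K2_Cont K' χ ∧ S17K2_Unr K' S χ} := Finite.of_injective _ hinj
  exact Set.toFinite _

end

end Fermat.Agent.S17
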