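import Mathlib
import Fermat.Agent.S17.Kum2c

/-!
# TRACK 8 (S17), pillar WMW, package KUM part K2d (helper20): the cocycle form

`K' ⊆ ℚ̄` finite over `ℚ`, `H = K'.fixingSubgroup = Gal(ℚ̄/K')`, `S` a finite set of primes, `J` an
abelian group with finite `2`-torsion.  The homomorphisms `c : H → J[2]` which are continuous and
trivial on the inertia groups at all primes outside `S` form a finite set
(`S17K2_finite_cocycles`).

Proof: the linear forms `φ : J[2] → 𝔽₂` separate the points of `J[2]`, so `c` is determined by the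
finitely many characters `φ ∘ c`, which lie in the finite set of `S17K2_finite_chars`.
-/

set_option autoImplicit false
set_option linter.style.haveILetI false
set_option linter.unusedVariables false

namespace Fermat.Agent.S17

local notation "ℚbar" => AlgebraicClosure ℚ
local notation "Gℚ" => (AlgebraicClosure ℚ ≃ₐ[ℚ] AlgebraicClosure ℚ)

section abstract

variable {H : Type*} [Group H] {J : Type*} [AddCommGroup J]

/-- the character `σ ↦ φ (c σ)` attached to an additive map `c : H → J` and an additive form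
`φ : J →+ ZMod 2`. -/
noncomputable def S17K2_char (c : H → J) (hc : ∀ σ τ, c (σ * τ) = c σ + c τ) (φ : J →+ ZMod 2) :
    H →* Multiplicative (ZMod 2) where
  toFun σ := Multiplicative.ofAdd (φ (c σ))
  map_one' := by
    have h1 : c 1 = 0 := by
      have := hc 1 1
      rw [mul_one] at this
      exact left_eq_add.mp this
    rw [h1, map_zero]; rfl
  map_mul' σ τ := by
    rw [hc, map_add]; rfl

theorem S17K2_char_apply (c : H → J) (hc : ∀ σ τ, c (σ * τ) = c σ + c τ) (φ : J →+ ZMod 2)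
    (σ : H) : S17K2_char c hc φ σ = Multiplicative.ofAdd (φ (c σ)) := rfl

theorem S17K2_char_eq_one_iff (c : H → J) (hc : ∀ σ τ, c (σ * τ) = c σ + c τ) (φ : J →+ ZMod 2)
    (σ : H) : S17K2_char c hc φ σ = 1 ↔ φ (c σ) = 0 := by
  rw [S17K2_char_apply]
  exact ofAdd_eq_one

/-- additive forms separate the points of an abelian group of exponent `2`. -/
theorem S17K2_exists_form {T : Type*} [AddCommGroup T] (hT2 : ∀ z : T, 2 • z = 0) {z : T}
    (hz : z ≠ 0) : ∃ φ : T →+ ZMod 2, φ z ≠ 0 := by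
  letI : Module (ZMod 2) T := AddCommGroup.zmodModule hT2
  obtain ⟨f, hf⟩ := Module.Projective.exists_dual_ne_zero (ZMod 2) hz
  exact ⟨f.toAddMonoidHom, hf⟩

/-- **abstract K2d**: additive maps from a group `H` to a finite abelian group `T` of exponent
`2` all of whose characters `φ ∘ c` lie in a finite set `X` form a finite set. -/
theorem S17K2_finite_homs {T : Type*} [AddCommGroup T] [Finite T] (hT2 : ∀ z : T, 2 • z = 0)
    (X : Set (H →* Multiplicative (ZMod 2))) (hX : X.Finite) :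
    {c : H → T | ∃ hc : (∀ σ τ, c (σ * τ) = c σ + c τ),
      ∀ φ : T →+ ZMod 2, S17K2_char c hc φ ∈ X}.Finite := by
  classical
  have hXf : Finite ↥X := hX
  have hΦ : Finite (T →+ ZMod 2) :=
    Finite.of_injective (fun φ : T →+ ZMod 2 => (φ : T → ZMod 2)) DFunLike.coe_injective
  rw [← Set.finite_coe_iff]
  let F : ↥{c : H → T | ∃ hc : (∀ σ τ, c (σ * τ) = c σ + c τ),
      ∀ φ : T →+ ZMod 2, S17K2_char c hc φ ∈ X} → ((T →+ ZMod 2) → ↥X) :=
    fun c φ => ⟨S17K2_char c.1 c.2.choose φ, c.2.choose_spec φ⟩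
  refine Finite.of_injective F ?_
  intro c₁ c₂ h
  apply Subtype.ext
  funext σ
  by_contra hne
  have hne' : c₁.1 σ - c₂.1 σ ≠ 0 := sub_ne_zero.mpr hne
  obtain ⟨φ, hφ⟩ := S17K2_exists_form hT2 hne'
  apply hφ
  have h1 := congrArg (fun f => ((f φ : ↥X) : H →* Multiplicative (ZMod 2)) σ) h
  simp only [F, S17K2_char_apply] at h1
  have h2 : φ (c₁.1 σ) = φ (c₂.1 σ) := Multiplicative.ofAdd.injective h1
  rw [map_sub, h2, sub_self]

end abstract

section concrete

/-- **K2d**: the continuous homomorphisms `Gal(ℚ̄/K') → J[2]` which are unramified outside a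
finite set `S` of primes form a finite set. -/
theorem S17K2_finite_cocycles (K' : IntermediateField ℚ ℚbar) [FiniteDimensional ℚ K']
    {S : Set ℕ} (hS : S.Finite) {J : Type*} [AddCommGroup J]
    (hT : {z : J | 2 • z = 0}.Finite) :
    {c : ↥K'.fixingSubgroup → J |
      (∀ σ, 2 • c σ = 0) ∧ (∀ σ τ, c (σ * τ) = c σ + c τ) ∧
      (∃ L : IntermediateField ℚ ℚbar, FiniteDimensional ℚ L ∧
        ∀ σ : ↥K'.fixingSubgroup, (∀ x ∈ L, (σ : Gℚ) x = x) → c σ = 0) ∧
      (∀ ℓ : ℕ, ℓ.Prime → ℓ ∉ S → ∀ A : ValuationSubring ℚbar, A.LiesOverPrime ℓ →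
        ∀ τ ∈ A.inertiaSubgroupIn ℚ, ∀ hτ : τ ∈ K'.fixingSubgroup, c ⟨τ, hτ⟩ = 0)}.Finite := by
  classical
  -- the `2`-torsion subgroup
  let T : AddSubgroup J :=
    { carrier := {z : J | 2 • z = 0}
      zero_mem' := smul_zero _
      add_mem' := fun {a b} ha hb => by
        show 2 • (a + b) = 0
        rw [smul_add, ha, hb, add_zero]
      neg_mem' := fun {a} ha => by
        show 2 • (-a) = 0
        rw [smul_neg, ha, neg_zero] }
  have hTmem : ∀ z : J, z ∈ T ↔ 2 • z = 0 := fun _ => Iff.rfl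
  haveI hTfin : Finite ↥T := hT
  have hT2 : ∀ z : ↥T, 2 • z = 0 := fun z => Subtype.ext z.2
  have hX := S17K2_finite_chars K' hS
  have hfin := S17K2_finite_homs (H := ↥K'.fixingSubgroup) hT2 _ hX
  -- the comparison map
  let G : (↥K'.fixingSubgroup → J) → (↥K'.fixingSubgroup → ↥T) :=
    fun c σ => if h : 2 • c σ = 0 then ⟨c σ, h⟩ else 0
  have hG : ∀ c : ↥K'.fixingSubgroup → J, (∀ σ, 2 • c σ = 0) → ∀ σ, ((G c σ : ↥T) : J) = c σ := by
    intro c h2 σ
    simp only [G, dif_pos (h2 σ)]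
  refine Set.Finite.of_finite_image (f := G) (hfin.subset ?_) ?_
  · rintro _ ⟨c, ⟨h2, hadd, ⟨L, hL, hcL⟩, hunr⟩, rfl⟩
    have hadd' : ∀ σ τ, G c (σ * τ) = G c σ + G c τ := by
      intro σ τ
      apply Subtype.ext
      rw [AddSubgroup.coe_add, hG c h2, hG c h2, hG c h2, hadd]
    refine ⟨hadd', fun φ => ⟨⟨L, hL, fun σ hσ => ?_⟩, fun ℓ hℓ hℓS A hA τ hτ hτK => ?_⟩⟩
    · rw [S17K2_char_eq_one_iff]
      have h0 : G c σ = 0 := by
        apply Subtype.ext
        rw [hG c h2, hcL σ hσ]; rfl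
      rw [h0, map_zero]
    · rw [S17K2_char_eq_one_iff]
      have h0 : G c ⟨τ, hτK⟩ = 0 := by
        apply Subtype.ext
        rw [hG c h2, hunr ℓ hℓ hℓS A hA τ hτ hτK]; rfl
      rw [h0, map_zero]
  · intro c₁ hc₁ c₂ hc₂ h
    funext σ
    rw [← hG c₁ hc₁.1 σ, ← hG c₂ hc₂.1 σ, h]

end concrete

end Fermat.Agent.S17
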