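import Mathlib

/-!
# TRACK 8 (S17, Mordell–Weil), pillar WMW, package KA (helper19): abstract Kummer descent

`G` a group acting on an additive commutative group `J` (think `G = Gal(ℚ̄/ℚ)`, `J = J₀(N)(ℚ̄)`),
`A = J^G = FixedPoints.addSubgroup G J`, `n > 0`.

For `y : J` the *Kummer cocycle* is `S17KA_coc y σ = σ • y - y`.

* `S17KA_coc_mul`     : `coc y (σ * τ) = σ • coc y τ + coc y σ`;
* `S17KA_coc_nsmul`   : if `n • y` is `G`-fixed then `n • coc y σ = 0`;
* `S17KA_coc_add_on`  : on a subgroup `H` acting trivially on `J[n]`, `σ ↦ coc y σ` is additive;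
* `S17KA_finiteIndex` : **weak Mordell–Weil, abstract form**.  If every fixed point is divisible
  by `n` in `J` (DIV), `J[n]` is finite, `H ≤ G` has finite index, and the restricted Kummer
  cocycles `(σ : H) ↦ σ • y - y` (`n • y` fixed) all lie in a FINITE set `Φ` of functions, then
  `n • A` has finite index in `A`, in exactly the form needed by Mathlib's
  `AddCommGroup.fg_of_descent`.

Mathlib only.
-/

set_option autoImplicit false

namespace Fermat.Agent.S17

variable {G J : Type*} [Group G] [AddCommGroup J] [DistribMulAction G J]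

/-- the Kummer cocycle `σ ↦ σ • y - y`. -/
def S17KA_coc (y : J) (σ : G) : J := σ • y - y

theorem S17KA_coc_def (y : J) (σ : G) : S17KA_coc y σ = σ • y - y := rfl

theorem S17KA_coc_one (y : J) : S17KA_coc y (1 : G) = 0 := by
  simp [S17KA_coc]

/-- the cocycle relation. -/
theorem S17KA_coc_mul (y : J) (σ τ : G) :
    S17KA_coc y (σ * τ) = σ • S17KA_coc y τ + S17KA_coc y σ := by
  simp only [S17KA_coc, mul_smul, smul_sub]
  abel

/-- if `n • y` is fixed by `σ` then the cocycle value at `σ` is `n`-torsion. -/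
theorem S17KA_coc_nsmul (n : ℕ) (y : J) (σ : G) (h : σ • (n • y) = n • y) :
    n • S17KA_coc y σ = 0 := by
  rw [S17KA_coc, smul_sub, ← smul_comm σ n y, h, sub_self]

/-- the cocycle of a sum. -/
theorem S17KA_coc_add (y y' : J) (σ : G) :
    S17KA_coc (y + y') σ = S17KA_coc y σ + S17KA_coc y' σ := by
  simp only [S17KA_coc, smul_add]
  abel

/-- the cocycle of a difference. -/
theorem S17KA_coc_sub (y y' : J) (σ : G) :
    S17KA_coc (y - y') σ = S17KA_coc y σ - S17KA_coc y' σ := by
  simp only [S17KA_coc, smul_sub]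
  abel

/-- the cocycle of a fixed point vanishes. -/
theorem S17KA_coc_eq_zero_iff (y : J) (σ : G) : S17KA_coc y σ = 0 ↔ σ • y = y := by
  rw [S17KA_coc, sub_eq_zero]

/-- on elements acting trivially on `J[n]` the Kummer cocycle is additive. -/
theorem S17KA_coc_add_on (n : ℕ) (y : J) (hy : ∀ σ : G, σ • (n • y) = n • y)
    (σ τ : G) (hσ : ∀ t : J, n • t = 0 → σ • t = t) :
    S17KA_coc y (σ * τ) = S17KA_coc y σ + S17KA_coc y τ := by
  rw [S17KA_coc_mul, hσ _ (S17KA_coc_nsmul n y τ (hy τ)), add_comm]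

/-- a subgroup `K` of `A` has finite index as soon as there is a map `f` from `A` to a finite
type whose fibres lie in single cosets of `K`. -/
theorem S17KA_finiteIndex_of_map {A : Type*} [AddCommGroup A] (K : AddSubgroup A)
    {Ω : Type*} [Finite Ω] (f : A → Ω) (hf : ∀ x x' : A, f x = f x' → x - x' ∈ K) :
    K.FiniteIndex := by
  classical
  have hfin : Finite (A ⧸ K) := by
    let g : Set.range f → A ⧸ K := fun ω => QuotientAddGroup.mk (Classical.choose ω.2)
    refine Finite.of_surjective g ?_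
    intro z
    induction z using QuotientAddGroup.induction_on with
    | H x =>
      refine ⟨⟨f x, x, rfl⟩, ?_⟩
      show (QuotientAddGroup.mk (Classical.choose (⟨x, rfl⟩ : ∃ x', f x' = f x)) : A ⧸ K)
        = QuotientAddGroup.mk x
      have h := Classical.choose_spec (⟨x, rfl⟩ : ∃ x', f x' = f x)
      rw [QuotientAddGroup.eq]
      have := hf _ _ h
      have h2 : -Classical.choose (⟨x, rfl⟩ : ∃ x', f x' = f x) + x
          = -(Classical.choose (⟨x, rfl⟩ : ∃ x', f x' = f x) - x) := by abel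
      rw [h2]
      exact K.neg_mem this
  exact AddSubgroup.finiteIndex_of_finite_quotient

/-- **Abstract weak Mordell–Weil**: `n • J^G` has finite index in `J^G`. -/
theorem S17KA_finiteIndex (n : ℕ)
    (hdiv : ∀ x ∈ FixedPoints.addSubgroup G J, ∃ y : J, n • y = x)
    (hfin : Set.Finite {t : J | n • t = 0})
    (H : Subgroup G) [H.FiniteIndex]
    (Φ : Set (H → J)) (hΦ : Φ.Finite)
    (hc : ∀ y : J, n • y ∈ FixedPoints.addSubgroup G J →
      (fun σ : H => S17KA_coc y (σ : G)) ∈ Φ) :
    (nsmulAddMonoidHom (α := ↥(FixedPoints.addSubgroup G J)) n).range.FiniteIndex := by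
  classical
  have : Finite (G ⧸ H) := Subgroup.finite_quotient_of_finiteIndex
  have : Finite Φ := hΦ
  have : Finite {t : J | n • t = 0} := hfin
  -- a chosen `n`-th part
  choose! y hy using hdiv
  have hyfix : ∀ x : ↥(FixedPoints.addSubgroup G J), ∀ σ : G,
      σ • (n • y (x : J)) = n • y (x : J) := by
    intro x σ
    rw [hy _ x.2]
    exact x.2 σ
  -- the invariant of `x`
  let f : ↥(FixedPoints.addSubgroup G J) → Φ × (G ⧸ H → {t : J | n • t = 0}) := fun x =>
    (⟨fun σ : H => S17KA_coc (y (x : J)) (σ : G), hc _ (by rw [hy _ x.2]; exact x.2)⟩,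
      fun q => ⟨S17KA_coc (y (x : J)) (Quotient.out q),
        S17KA_coc_nsmul n _ _ (hyfix x _)⟩)
  refine S17KA_finiteIndex_of_map _ f ?_
  intro x x' hxx'
  have h1 : ∀ σ : H, S17KA_coc (y (x : J)) (σ : G) = S17KA_coc (y (x' : J)) (σ : G) := by
    intro σ
    have := congrArg (fun p => (p.1 : H → J) σ) hxx'
    exact this
  have h2 : ∀ q : G ⧸ H, S17KA_coc (y (x : J)) (Quotient.out q)
      = S17KA_coc (y (x' : J)) (Quotient.out q) := by
    intro q
    have := congrArg (fun p => ((p.2 q : {t : J | n • t = 0}) : J)) hxx'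
    exact this
  -- the cocycles agree on all of `G`
  have h3 : ∀ σ : G, S17KA_coc (y (x : J)) σ = S17KA_coc (y (x' : J)) σ := by
    intro σ
    obtain ⟨h, hh⟩ : ∃ h : H, σ = Quotient.out (QuotientGroup.mk σ : G ⧸ H) * (h : G) := by
      refine ⟨⟨(Quotient.out (QuotientGroup.mk σ : G ⧸ H))⁻¹ * σ, ?_⟩, by simp⟩
      have : (QuotientGroup.mk (Quotient.out (QuotientGroup.mk σ : G ⧸ H)) : G ⧸ H)
          = QuotientGroup.mk σ := Quotient.out_eq _
      exact QuotientGroup.eq.mp this
    rw [hh, S17KA_coc_mul, S17KA_coc_mul, h1 h, h2]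
  -- hence `y x - y x'` is fixed
  have hfix : y (x : J) - y (x' : J) ∈ FixedPoints.addSubgroup G J := by
    intro σ
    have := h3 σ
    rw [S17KA_coc, S17KA_coc] at this
    rw [smul_sub]
    have h4 : σ • y (x : J) - σ • y (x' : J)
        = (σ • y (x : J) - y (x : J)) - (σ • y (x' : J) - y (x' : J))
          + (y (x : J) - y (x' : J)) := by abel
    rw [h4, this, sub_self, zero_add]
  refine ⟨⟨y (x : J) - y (x' : J), hfix⟩, ?_⟩
  apply Subtype.ext
  show n • (y (x : J) - y (x' : J)) = ((x - x' : ↥(FixedPoints.addSubgroup G J)) : J)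
  rw [smul_sub, hy _ x.2, hy _ x'.2]
  rfl

end Fermat.Agent.S17
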