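import Fermat.Agent.S17.AbsHeight

/-!
# TRACK 8 (S17), package MINK (helper1): Siegel's lemma in Plücker form

`Ω` a field of characteristic `0`, algebraic over `ℚ`.  For a `d × n` matrix `E` over `Ω` (`d < n`)
whose Plücker point (the vector of maximal minors, `S17MK_minors E`) is nonzero and rational, the
kernel of `E` contains a nonzero rational vector `v` with

  `(n − d) · logHeight v ≤ S17AH_h (S17MK_minors E) + (n − d) · log (n − d)`     (`S17MK_siegel`).

Proof (elementary, pigeonhole):
* `S17MK_det_cases`, `S17MK_adj_mul` : every `d × d` minor is `0` or `±` a Plücker coordinate; Cramer.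
* `S17MK_exists_good` : an integer matrix `A₀` with the same kernel and Plücker point (`S17MK_good`).
* `S17MK_sat_step`, `S17MK_saturate` : saturation — an integer matrix `A` with the same kernel and
  Plücker point whose maximal minors have gcd `1`.
* `S17MK_card_quot`, `S17MK_pigeon`, `S17MK_cramer_bound`, `S17MK_kernel_vector` : pigeonhole in
  `ℤ^d / A_I ℤ^d` (of cardinality `|det A_I|`) on a box in the coordinates outside `I`.
-/

set_option autoImplicit false
set_option linter.style.haveILetI false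

open Matrix

namespace Fermat.Agent.S17

/-- index type of the Plücker coordinates: `d`-element subsets of `Fin n`. -/
abbrev S17MK_Idx (d n : ℕ) := {S : Finset (Fin n) // S.card = d}

/-- the maximal minors of a `d × n` matrix (columns in increasing order). -/
def S17MK_minors {R : Type*} [CommRing R] {d n : ℕ} (E : Matrix (Fin d) (Fin n) R) :
    S17MK_Idx d n → R := fun S => (E.submatrix id (S.1.orderEmbOfFin S.2)).det

theorem S17MK_minors_map {R R' : Type*} [CommRing R] [CommRing R'] (f : R →+* R') {d n : ℕ}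
    (E : Matrix (Fin d) (Fin n) R) (S : S17MK_Idx d n) :
    S17MK_minors (E.map f) S = f (S17MK_minors E S) := by
  unfold S17MK_minors
  rw [RingHom.map_det]
  rfl

/-- every `d × d` minor with an arbitrary choice of columns is `0` or `±` a Plücker coordinate. -/
theorem S17MK_det_cases {R : Type*} [CommRing R] {d n : ℕ} (E : Matrix (Fin d) (Fin n) R)
    (g : Fin d → Fin n) :
    (E.submatrix id g).det = 0 ∨ ∃ S : S17MK_Idx d n,
      (E.submatrix id g).det = S17MK_minors E S ∨ (E.submatrix id g).det = - S17MK_minors E S := by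
  classical
  by_cases hg : Function.Injective g
  · right
    have hcard : (Finset.univ.image g).card = d := by
      rw [Finset.card_image_of_injective _ hg, Finset.card_univ, Fintype.card_fin]
    let S : S17MK_Idx d n := ⟨Finset.univ.image g, hcard⟩
    have hmem : ∀ i, ∃ k, S.1.orderEmbOfFin S.2 k = g i := by
      intro i
      have h1 : g i ∈ S.1 := Finset.mem_image_of_mem g (Finset.mem_univ i)
      have h2 : g i ∈ Set.range (S.1.orderEmbOfFin S.2) := by
        rw [Finset.range_orderEmbOfFin]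
        exact h1
      exact h2
    choose σ hσ using hmem
    have hσinj : Function.Injective σ := by
      intro a b hab
      apply hg
      rw [← hσ a, ← hσ b, hab]
    have hσbij : Function.Bijective σ := Finite.injective_iff_bijective.mp hσinj
    let τ : Equiv.Perm (Fin d) := Equiv.ofBijective σ hσbij
    have hE : E.submatrix id g = (E.submatrix id (S.1.orderEmbOfFin S.2)).submatrix id τ := by
      ext r c
      simp only [submatrix_apply, id_eq]
      rw [← hσ c]
      rfl
    refine ⟨S, ?_⟩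
    rw [hE, Matrix.det_permute']
    rcases Int.units_eq_one_or (Equiv.Perm.sign τ) with h | h
    · left
      rw [h]
      simp [S17MK_minors]
    · right
      rw [h]
      simp [S17MK_minors]
  · left
    rw [Function.Injective] at hg
    push Not at hg
    obtain ⟨i, j, hij, hne⟩ := hg
    exact Matrix.det_zero_of_column_eq hne (fun k => by simp [hij])

/-- Cramer: the entries of `adj(E_I) · E` are minors of `E`. -/
theorem S17MK_adj_mul {R : Type*} [CommRing R] {d n : ℕ} (E : Matrix (Fin d) (Fin n) R)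
    (e : Fin d → Fin n) (i : Fin d) (j : Fin n) :
    ((E.submatrix id e).adjugate * E) i j = (E.submatrix id (Function.update e i j)).det := by
  classical
  have h1 : ((E.submatrix id e).adjugate * E) i j =
      ((E.submatrix id e).adjugate *ᵥ (fun k => E k j)) i := rfl
  rw [h1, ← Matrix.cramer_eq_adjugate_mulVec, Matrix.cramer_apply]
  congr 1
  ext r c
  simp only [updateCol_apply, submatrix_apply, id_eq, Function.update_apply]
  split_ifs <;> rfl

/-- a matrix with linearly independent rows over a field has an invertible maximal square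
submatrix. -/
theorem S17MK_exists_det_ne_zero {k : Type*} [Field k] {d n : ℕ} (A : Matrix (Fin d) (Fin n) k)
    (h : LinearIndependent k A.row) : ∃ g : Fin d → Fin n, (A.submatrix id g).det ≠ 0 := by
  classical
  have hrank : A.rank = d := by
    rw [h.rank_matrix, Fintype.card_fin]
  rw [Matrix.rank_eq_finrank_span_cols] at hrank
  obtain ⟨κ, a, ha, hsp, hli⟩ := exists_linearIndependent' k A.col
  haveI : Finite κ := Finite.of_injective a ha
  haveI : Fintype κ := Fintype.ofFinite κ
  have hcard : Fintype.card κ = d := by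
    rw [linearIndependent_iff_card_eq_finrank_span.mp hli, Set.finrank, hsp, hrank]
  let e : Fin d ≃ κ := (Fintype.equivFinOfCardEq hcard).symm
  refine ⟨a ∘ e, ?_⟩
  have hli2 : LinearIndependent k (A.col ∘ (a ∘ e)) := by
    have := hli.comp e e.injective
    exact this
  have hcol : (A.submatrix id (a ∘ e)).col = A.col ∘ (a ∘ e) := by
    ext c r
    rfl
  have hunit : IsUnit (A.submatrix id (a ∘ e)) := by
    rw [← Matrix.linearIndependent_cols_iff_isUnit, hcol]
    exact hli2
  exact ((Matrix.isUnit_iff_isUnit_det _).mp hunit).ne_zero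

/-- if all Plücker coordinates of a matrix over a field vanish, its rows are dependent. -/
theorem S17MK_exists_vecMul_eq_zero {k : Type*} [Field k] {d n : ℕ}
    (A : Matrix (Fin d) (Fin n) k) (h : ∀ S, S17MK_minors A S = 0) :
    ∃ y : Fin d → k, y ≠ 0 ∧ y ᵥ* A = 0 := by
  by_contra hcon
  push Not at hcon
  have hinj : Function.Injective A.vecMul := by
    intro y y' hyy'
    have hyy'' : y ᵥ* A = y' ᵥ* A := hyy'
    have h1 : (y - y') ᵥ* A = 0 := by
      rw [Matrix.sub_vecMul, hyy'', sub_self]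
    have h2 : y - y' = 0 := by
      by_contra h3
      exact hcon _ h3 h1
    exact sub_eq_zero.mp h2
  obtain ⟨g, hg⟩ := S17MK_exists_det_ne_zero A (Matrix.vecMul_injective_iff.mp hinj)
  rcases S17MK_det_cases A g with h0 | ⟨S, h0 | h0⟩
  · exact hg h0
  · exact hg (h0.trans (h S))
  · exact hg (h0.trans (by rw [h S, neg_zero]))

/-- one step of the saturation: if a prime divides all maximal minors of an integer matrix, one
row can be replaced by an integer combination of the rows divided by `p`. -/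
theorem S17MK_sat_step {d n : ℕ} (A : Matrix (Fin d) (Fin n) ℤ) (p : ℕ) (hp : p.Prime)
    (hdiv : ∀ S, (p : ℤ) ∣ S17MK_minors A S) :
    ∃ A' : Matrix (Fin d) (Fin n) ℤ,
      (∀ g : Fin d → Fin n, (p : ℤ) * (A'.submatrix id g).det = (A.submatrix id g).det) ∧
      (∀ v : Fin n → ℤ, A' *ᵥ v = 0 → A *ᵥ v = 0) := by
  classical
  haveI : Fact p.Prime := ⟨hp⟩
  let Abar : Matrix (Fin d) (Fin n) (ZMod p) := A.map (Int.castRingHom (ZMod p))
  have hbar : ∀ S, S17MK_minors Abar S = 0 := by
    intro S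
    rw [S17MK_minors_map]
    exact (ZMod.intCast_zmod_eq_zero_iff_dvd _ p).mpr (hdiv S)
  obtain ⟨y, hy0, hy⟩ := S17MK_exists_vecMul_eq_zero Abar hbar
  obtain ⟨i, hi⟩ : ∃ i, y i ≠ 0 := by
    by_contra hcon
    push Not at hcon
    exact hy0 (funext hcon)
  -- normalise `y i = 1` and lift to `ℤ`
  let yt : Fin d → ℤ := fun k => if k = i then 1 else ((((y i)⁻¹ * y k).val : ℕ) : ℤ)
  have hyt : ∀ k, ((yt k : ℤ) : ZMod p) = (y i)⁻¹ * y k := by
    intro k
    by_cases hk : k = i
    · subst hk
      simp [yt, inv_mul_cancel₀ hi]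
    · simp [yt, hk]
  have hyti : yt i = 1 := by simp [yt]
  have hcomb : ∀ j, (p : ℤ) ∣ ∑ k, yt k * A k j := by
    intro j
    rw [← ZMod.intCast_zmod_eq_zero_iff_dvd]
    push_cast
    simp_rw [hyt, mul_assoc]
    rw [← Finset.mul_sum]
    have := congrFun hy j
    simp only [Matrix.vecMul, dotProduct, Pi.zero_apply] at this
    have h2 : (∑ k, y k * ((A k j : ℤ) : ZMod p)) = 0 := this
    rw [h2, mul_zero]
  choose r hr using hcomb
  refine ⟨A.updateRow i r, ?_, ?_⟩
  · intro g
    have h1 : (A.updateRow i r).submatrix id g = (A.submatrix id g).updateRow i (r ∘ g) := by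
      ext a b
      simp only [submatrix_apply, id_eq, updateRow_apply, Function.comp_apply]
    rw [h1, ← Matrix.det_updateRow_smul]
    have h2 : ((p : ℤ) • (r ∘ g)) = ∑ k, yt k • (A.submatrix id g) k := by
      funext b
      simp only [Pi.smul_apply, Function.comp_apply, smul_eq_mul, Finset.sum_apply,
        submatrix_apply, id_eq]
      rw [← hr]
    rw [h2, Matrix.det_updateRow_sum, hyti, one_smul]
  · intro v hv
    have hk : ∀ k, k ≠ i → (A *ᵥ v) k = 0 := by
      intro k hk
      have := congrFun hv k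
      simp only [Matrix.mulVec, dotProduct, Pi.zero_apply, updateRow_apply, if_neg hk] at this
      simpa [Matrix.mulVec, dotProduct] using this
    have hi0 : ∑ j, r j * v j = 0 := by
      have := congrFun hv i
      simpa [Matrix.mulVec, dotProduct, updateRow_apply] using this
    have hsum : ∑ k, yt k * (A *ᵥ v) k = 0 := by
      have h3 : ∑ k, yt k * (A *ᵥ v) k = ∑ j, (∑ k, yt k * A k j) * v j := by
        simp only [Matrix.mulVec, dotProduct, Finset.mul_sum, Finset.sum_mul]
        rw [Finset.sum_comm]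
        refine Finset.sum_congr rfl fun j _ => Finset.sum_congr rfl fun k _ => ?_
        ring
      rw [h3]
      simp_rw [hr, mul_assoc]
      rw [← Finset.mul_sum, hi0, mul_zero]
    funext k
    by_cases hki : k = i
    · subst hki
      rw [Finset.sum_eq_single k] at hsum
      · rw [hyti, one_mul] at hsum
        exact hsum
      · intro b _ hb
        rw [hk b hb, mul_zero]
      · intro h
        exact absurd (Finset.mem_univ _) h
    · exact hk k hki

/-- the quotient of `ℤ^d` by the image of a nonsingular integer matrix has `|det|` elements. -/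
theorem S17MK_card_quot {d : ℕ} (B : Matrix (Fin d) (Fin d) ℤ) (hB : B.det ≠ 0) :
    Nat.card ((Fin d → ℤ) ⧸ LinearMap.range B.mulVecLin) = B.det.natAbs := by
  classical
  have hinj : Function.Injective B.mulVecLin := by
    rw [← LinearMap.ker_eq_bot, LinearMap.ker_eq_bot']
    intro v hv
    exact Matrix.eq_zero_of_mulVec_eq_zero hB hv
  let e : (Fin d → ℤ) ≃ₗ[ℤ] LinearMap.range B.mulVecLin := LinearEquiv.ofInjective _ hinj
  have h := Submodule.natAbs_det_equiv (LinearMap.range B.mulVecLin) e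
  rw [← h]
  congr 1
  have h2 : (LinearMap.range B.mulVecLin).subtype ∘ₗ
      AddMonoidHom.toIntLinearMap ((e : (Fin d → ℤ) →+ LinearMap.range B.mulVecLin)) =
      Matrix.toLin' B := by
    ext v i
    rfl
  rw [h2, LinearMap.det_toLin']

/-- the box used in the pigeonhole argument. -/
noncomputable def S17MK_box {d n : ℕ} (I : S17MK_Idx d n) (m : ℕ) : Finset (Fin n → ℤ) :=
  Fintype.piFinset (fun j => if j ∈ I.1 then {0} else Finset.Icc 0 (m : ℤ))

theorem S17MK_card_box {d n : ℕ} (I : S17MK_Idx d n) (m : ℕ) :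
    (S17MK_box I m).card = (m + 1) ^ (n - d) := by
  classical
  unfold S17MK_box
  rw [Fintype.card_piFinset]
  have h1 : ∀ j : Fin n, (if j ∈ I.1 then ({0} : Finset ℤ) else Finset.Icc 0 (m : ℤ)).card =
      if j ∈ I.1 then 1 else (m + 1) := by
    intro j
    split_ifs
    · simp
    · simp
  simp_rw [h1]
  rw [Finset.prod_ite]
  simp only [Finset.prod_const_one, one_mul, Finset.prod_const]
  congr 1
  rw [Finset.filter_not, Finset.card_sdiff_of_subset (Finset.filter_subset _ _)]
  simp [I.2]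

theorem S17MK_mem_box {d n : ℕ} (I : S17MK_Idx d n) (m : ℕ) (z : Fin n → ℤ) :
    z ∈ S17MK_box I m ↔ (∀ j ∈ I.1, z j = 0) ∧ ∀ j, 0 ≤ z j ∧ z j ≤ m := by
  classical
  unfold S17MK_box
  rw [Fintype.mem_piFinset]
  constructor
  · intro h
    refine ⟨fun j hj => ?_, fun j => ?_⟩
    · have := h j
      rw [if_pos hj] at this
      simpa using this
    · have := h j
      split_ifs at this with hj
      · have h0 : z j = 0 := by simpa using this
        rw [h0]
        exact ⟨le_refl _, by positivity⟩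
      · simpa using this
  · rintro ⟨h1, h2⟩ j
    split_ifs with hj
    · simp [h1 j hj]
    · simpa using h2 j

theorem S17MK_pigeon {d n : ℕ} (A : Matrix (Fin d) (Fin n) ℤ) (I : S17MK_Idx d n)
    (hI : S17MK_minors A I ≠ 0) (m : ℕ)
    (hm : (S17MK_minors A I).natAbs < (m + 1) ^ (n - d)) :
    ∃ w : Fin n → ℤ, w ≠ 0 ∧ (∀ j ∈ I.1, w j = 0) ∧ (∀ j, |w j| ≤ m) ∧
      ∃ x : Fin d → ℤ, (A.submatrix id (I.1.orderEmbOfFin I.2)) *ᵥ x = A *ᵥ w := by
  classical
  set B := A.submatrix id (I.1.orderEmbOfFin I.2) with hBdef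
  have hB : B.det ≠ 0 := hI
  have hcard := S17MK_card_quot B hB
  haveI : Finite ((Fin d → ℤ) ⧸ LinearMap.range B.mulVecLin) := by
    apply Nat.finite_of_card_ne_zero
    rw [hcard]
    exact Int.natAbs_ne_zero.mpr hB
  haveI : Fintype ((Fin d → ℤ) ⧸ LinearMap.range B.mulVecLin) := Fintype.ofFinite _
  let φ : S17MK_box I m → ((Fin d → ℤ) ⧸ LinearMap.range B.mulVecLin) :=
    fun z => Submodule.Quotient.mk (A *ᵥ z.1)
  have hlt : Fintype.card ((Fin d → ℤ) ⧸ LinearMap.range B.mulVecLin) <
      Fintype.card (S17MK_box I m) := by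
    rw [Fintype.card_coe, S17MK_card_box, ← Nat.card_eq_fintype_card, hcard]
    exact hm
  obtain ⟨z, z', hne, heq⟩ := Fintype.exists_ne_map_eq_of_card_lt φ hlt
  have hmem : A *ᵥ z.1 - A *ᵥ z'.1 ∈ LinearMap.range B.mulVecLin :=
    (Submodule.Quotient.eq _).mp heq
  obtain ⟨x, hx⟩ := hmem
  have hz := (S17MK_mem_box I m z.1).mp z.2
  have hz' := (S17MK_mem_box I m z'.1).mp z'.2
  refine ⟨z.1 - z'.1, ?_, ?_, ?_, x, ?_⟩
  · intro h
    apply hne
    exact Subtype.ext (sub_eq_zero.mp h)
  · intro j hj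
    simp [hz.1 j hj, hz'.1 j hj]
  · intro j
    have h1 := hz.2 j
    have h2 := hz'.2 j
    simp only [Pi.sub_apply]
    rw [abs_le]
    constructor <;> linarith
  · rw [Matrix.mulVec_sub]
    exact hx

/-- bound for all minors in terms of the Plücker coordinates. -/
theorem S17MK_abs_det_le {d n : ℕ} (A : Matrix (Fin d) (Fin n) ℤ) (I : S17MK_Idx d n)
    (hmax : ∀ S, |S17MK_minors A S| ≤ |S17MK_minors A I|) (g : Fin d → Fin n) :
    |(A.submatrix id g).det| ≤ |S17MK_minors A I| := by
  rcases S17MK_det_cases A g with h | ⟨S, h | h⟩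
  · rw [h, abs_zero]
    exact abs_nonneg _
  · rw [h]
    exact hmax S
  · rw [h, abs_neg]
    exact hmax S

/-- Cramer's bound for the solution of `A_I x = A w`. -/
theorem S17MK_cramer_bound {d n : ℕ} (A : Matrix (Fin d) (Fin n) ℤ) (I : S17MK_Idx d n)
    (hI : S17MK_minors A I ≠ 0)
    (hmax : ∀ S, |S17MK_minors A S| ≤ |S17MK_minors A I|)
    (m : ℕ) (w : Fin n → ℤ) (hw0 : ∀ j ∈ I.1, w j = 0) (hw : ∀ j, |w j| ≤ m)
    (x : Fin d → ℤ) (hx : (A.submatrix id (I.1.orderEmbOfFin I.2)) *ᵥ x = A *ᵥ w) (i : Fin d) :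
    |x i| ≤ ((n - d : ℕ) : ℤ) * m := by
  classical
  set B := A.submatrix id (I.1.orderEmbOfFin I.2) with hBdef
  set D := S17MK_minors A I with hD
  have hBD : B.det = D := rfl
  have h1 : B.adjugate *ᵥ (B *ᵥ x) = D • x := by
    rw [Matrix.mulVec_mulVec, Matrix.adjugate_mul, Matrix.smul_mulVec, Matrix.one_mulVec, hBD]
  have h2 : B.adjugate *ᵥ (A *ᵥ w) = (B.adjugate * A) *ᵥ w := by
    rw [Matrix.mulVec_mulVec]
  have h3 : D * x i = ∑ j, (A.submatrix id (Function.update (I.1.orderEmbOfFin I.2) i j)).det * w j := by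
    have := congrFun (h1.symm.trans ((congrArg _ hx).trans h2)) i
    simp only [Pi.smul_apply, smul_eq_mul] at this
    rw [this]
    simp only [Matrix.mulVec, dotProduct]
    refine Finset.sum_congr rfl fun j _ => ?_
    rw [S17MK_adj_mul]
  have h4 : |D * x i| ≤ ∑ j : Fin n, if j ∈ I.1 then 0 else |D| * m := by
    rw [h3]
    refine (Finset.abs_sum_le_sum_abs _ _).trans (Finset.sum_le_sum fun j _ => ?_)
    split_ifs with hj
    · rw [hw0 j hj, mul_zero, abs_zero]
    · rw [abs_mul]
      exact mul_le_mul (S17MK_abs_det_le A I hmax _) (hw j) (abs_nonneg _) (abs_nonneg _)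
  have h5 : (∑ j : Fin n, if j ∈ I.1 then (0 : ℤ) else |D| * m) = ((n - d : ℕ) : ℤ) * (|D| * m) := by
    rw [Finset.sum_ite, Finset.sum_const_zero, zero_add, Finset.sum_const, Finset.filter_not,
      Finset.card_sdiff_of_subset (Finset.filter_subset _ _)]
    simp [I.2]
  rw [h5, abs_mul] at h4
  have hDpos : 0 < |D| := abs_pos.mpr hI
  have h6 : |D| * |x i| ≤ |D| * (((n - d : ℕ) : ℤ) * m) := by
    calc |D| * |x i| ≤ ((n - d : ℕ) : ℤ) * (|D| * m) := h4
      _ = |D| * (((n - d : ℕ) : ℤ) * m) := by ring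
  exact le_of_mul_le_mul_left h6 hDpos

/-- **pigeonhole**: a small nonzero integer vector in the kernel of an integer matrix, in terms of
a maximal minor of maximal absolute value. -/
theorem S17MK_kernel_vector {d n : ℕ} (hdn : d < n) (A : Matrix (Fin d) (Fin n) ℤ)
    (I : S17MK_Idx d n) (hI : S17MK_minors A I ≠ 0)
    (hmax : ∀ S, |S17MK_minors A S| ≤ |S17MK_minors A I|) (m : ℕ)
    (hm : (S17MK_minors A I).natAbs < (m + 1) ^ (n - d)) :
    ∃ v : Fin n → ℤ, v ≠ 0 ∧ A *ᵥ v = 0 ∧ ∀ j, |v j| ≤ ((n - d : ℕ) : ℤ) * m := by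
  classical
  obtain ⟨w, hw_ne, hw0, hw, x, hx⟩ := S17MK_pigeon A I hI m hm
  have hxb := S17MK_cramer_bound A I hI hmax m w hw0 hw x hx
  set e := I.1.orderEmbOfFin I.2 with he
  let xt : Fin n → ℤ := fun j => ∑ i, if e i = j then x i else 0
  have hxt_mem : ∀ i, xt (e i) = x i := by
    intro i
    show (∑ i', if e i' = e i then x i' else 0) = x i
    rw [Finset.sum_eq_single i]
    · simp
    · intro b _ hb
      rw [if_neg]
      intro h
      exact hb (e.injective h)
    · intro h
      exact absurd (Finset.mem_univ i) h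
  have hxt_not : ∀ j, j ∉ I.1 → xt j = 0 := by
    intro j hj
    show (∑ i', if e i' = j then x i' else 0) = 0
    apply Finset.sum_eq_zero
    intro i _
    rw [if_neg]
    intro h
    apply hj
    rw [← h]
    exact Finset.orderEmbOfFin_mem I.1 I.2 i
  have hmem : ∀ j, j ∈ I.1 → ∃ i, e i = j := by
    intro j hj
    have : j ∈ Set.range e := by
      rw [he, Finset.range_orderEmbOfFin]
      exact hj
    exact this
  have hAxt : A *ᵥ xt = (A.submatrix id e) *ᵥ x := by
    funext r
    simp only [Matrix.mulVec, dotProduct, submatrix_apply, id_eq]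
    show (∑ j, A r j * ∑ i, if e i = j then x i else 0) = ∑ i, A r (e i) * x i
    simp_rw [Finset.mul_sum]
    rw [Finset.sum_comm]
    refine Finset.sum_congr rfl fun i _ => ?_
    rw [Finset.sum_eq_single (e i)]
    · simp
    · intro b _ hb
      rw [if_neg (fun h => hb h.symm), mul_zero]
    · intro h
      exact absurd (Finset.mem_univ _) h
  have hnd : (1 : ℤ) ≤ ((n - d : ℕ) : ℤ) := by
    have : 1 ≤ n - d := by omega
    exact_mod_cast this
  refine ⟨w - xt, ?_, ?_, ?_⟩
  · intro h
    apply hw_ne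
    funext j
    by_cases hj : j ∈ I.1
    · exact hw0 j hj
    · have := congrFun h j
      simp only [Pi.sub_apply, Pi.zero_apply, hxt_not j hj, sub_zero] at this
      exact this
  · rw [Matrix.mulVec_sub, hAxt, hx, sub_self]
  · intro j
    by_cases hj : j ∈ I.1
    · obtain ⟨i, rfl⟩ := hmem j hj
      simp only [Pi.sub_apply]
      rw [hw0 _ hj, hxt_mem, zero_sub, abs_neg]
      exact hxb i
    · simp only [Pi.sub_apply]
      rw [hxt_not j hj, sub_zero]
      calc |w j| ≤ (m : ℤ) := hw j
        _ = 1 * m := (one_mul _).symm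
        _ ≤ ((n - d : ℕ) : ℤ) * m := by
            apply mul_le_mul_of_nonneg_right hnd
            positivity

section good

variable {Ω : Type*} [Field Ω] [CharZero Ω] {d n : ℕ}

/-- an integer matrix with the same kernel and the same Plücker point as `E`. -/
def S17MK_good (E : Matrix (Fin d) (Fin n) Ω) (A : Matrix (Fin d) (Fin n) ℤ) : Prop :=
  (∃ c : Ω, c ≠ 0 ∧ ∀ S, ((S17MK_minors A S : ℤ) : Ω) = c * S17MK_minors E S) ∧
  (∀ v : Fin n → ℤ, A *ᵥ v = 0 → ∀ i, ∑ j, E i j * ((v j : ℤ) : Ω) = 0)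

theorem S17MK_saturate (E : Matrix (Fin d) (Fin n) Ω) (I : S17MK_Idx d n)
    (hI : S17MK_minors E I ≠ 0) (A₀ : Matrix (Fin d) (Fin n) ℤ) (h₀ : S17MK_good E A₀) :
    ∃ A, S17MK_good E A ∧ Finset.univ.gcd (S17MK_minors A) = 1 := by
  classical
  suffices H : ∀ k : ℕ, ∀ A : Matrix (Fin d) (Fin n) ℤ, S17MK_good E A →
      (S17MK_minors A I).natAbs = k →
      ∃ A', S17MK_good E A' ∧ Finset.univ.gcd (S17MK_minors A') = 1 from
    H _ A₀ h₀ rfl
  intro k
  induction k using Nat.strong_induction_on with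
  | _ k ih =>
    intro A hA hk
    by_cases hg : Finset.univ.gcd (S17MK_minors A) = 1
    · exact ⟨A, hA, hg⟩
    obtain ⟨⟨c, hc0, hc⟩, hker⟩ := hA
    have hAI : S17MK_minors A I ≠ 0 := by
      intro h
      have := hc I
      rw [h, Int.cast_zero] at this
      exact (mul_ne_zero hc0 hI) this.symm
    have hg0 : Finset.univ.gcd (S17MK_minors A) ≠ 0 := by
      intro h
      rw [Finset.gcd_eq_zero_iff] at h
      exact hAI (h I (Finset.mem_univ _))
    have hg1 : (Finset.univ.gcd (S17MK_minors A)).natAbs ≠ 1 := by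
      intro h
      apply hg
      have hnn : 0 ≤ Finset.univ.gcd (S17MK_minors A) := by
        rw [← Finset.normalize_gcd]
        exact Int.nonneg_of_normalize_eq_self (by rw [normalize_idem])
      have := Int.natAbs_of_nonneg hnn
      rw [h] at this
      exact_mod_cast this.symm
    obtain ⟨p, hp, hpd⟩ := Nat.exists_prime_and_dvd hg1
    have hdiv : ∀ S, (p : ℤ) ∣ S17MK_minors A S := by
      intro S
      exact (Int.natCast_dvd.mpr hpd).trans (Finset.gcd_dvd (Finset.mem_univ S))
    obtain ⟨A', hA'1, hA'2⟩ := S17MK_sat_step A p hp hdiv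
    have hmin : ∀ S, (p : ℤ) * S17MK_minors A' S = S17MK_minors A S := fun S => hA'1 _
    have hp0 : (p : Ω) ≠ 0 := Nat.cast_ne_zero.mpr hp.ne_zero
    have hgood : S17MK_good E A' := by
      refine ⟨⟨c / p, div_ne_zero hc0 hp0, fun S => ?_⟩, fun v hv => hker v (hA'2 v hv)⟩
      have h1 := hc S
      rw [← hmin S] at h1
      push_cast at h1
      field_simp
      rw [← h1]
      ring
    have hlt : (S17MK_minors A' I).natAbs < k := by
      have h1 := congrArg Int.natAbs (hmin I)
      rw [Int.natAbs_mul, Int.natAbs_natCast, hk] at h1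
      have hA'I : (S17MK_minors A' I).natAbs ≠ 0 := by
        intro h
        rw [h, mul_zero] at h1
        exact hAI (Int.natAbs_eq_zero.mp (hk.trans h1.symm))
      have h2 := hp.two_le
      rw [← h1]
      nlinarith [Nat.pos_of_ne_zero hA'I]
    exact ih _ hlt A' hgood rfl

theorem S17MK_exists_good (E : Matrix (Fin d) (Fin n) Ω) (I : S17MK_Idx d n)
    (hI : S17MK_minors E I ≠ 0)
    (hrat : ∀ S, ∃ a : ℚ, S17MK_minors E S / S17MK_minors E I = algebraMap ℚ Ω a) :
    ∃ A₀, S17MK_good E A₀ := by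
  classical
  set e := I.1.orderEmbOfFin I.2 with he
  set W := S17MK_minors E I with hW
  have hq : ∀ ij : Fin d × Fin n, ∃ q : ℚ,
      ((E.submatrix id e).adjugate * E) ij.1 ij.2 / W = algebraMap ℚ Ω q := by
    rintro ⟨i, j⟩
    simp only
    rw [S17MK_adj_mul]
    rcases S17MK_det_cases E (Function.update e i j) with h | ⟨S, h | h⟩
    · exact ⟨0, by rw [h, zero_div, map_zero]⟩
    · obtain ⟨a, ha⟩ := hrat S
      exact ⟨a, by rw [h, ha]⟩
    · obtain ⟨a, ha⟩ := hrat S
      exact ⟨-a, by rw [h, neg_div, ha, map_neg]⟩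
  choose q hq using hq
  obtain ⟨b, hb⟩ := IsLocalization.exist_integer_multiples_of_finite (nonZeroDivisors ℤ) q
  choose a ha using hb
  have hb0 : ((b : ℤ) : Ω) ≠ 0 := by
    have := nonZeroDivisors.ne_zero b.2
    exact_mod_cast this
  let A₀ : Matrix (Fin d) (Fin n) ℤ := Matrix.of fun i j => a (i, j)
  let T : Matrix (Fin d) (Fin d) Ω := (((b : ℤ) : Ω) / W) • (E.submatrix id e).adjugate
  have hA₀ : A₀.map (Int.castRingHom Ω) = T * E := by
    ext i j
    simp only [Matrix.map_apply, Matrix.of_apply, Int.coe_castRingHom, A₀, T, Matrix.smul_mul,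
      Matrix.smul_apply, smul_eq_mul]
    have h1 := ha (i, j)
    have h2 := hq (i, j)
    simp only at h2
    have h3 : ((a (i, j) : ℤ) : Ω) = algebraMap ℚ Ω ((b : ℤ) • q (i, j)) := by
      rw [← h1]
      simp
    rw [h3, zsmul_eq_mul, map_mul, ← h2]
    simp only [map_intCast]
    field_simp
  have hTB : T * (E.submatrix id e) = ((b : ℤ) : Ω) • (1 : Matrix (Fin d) (Fin d) Ω) := by
    simp only [T, Matrix.smul_mul, Matrix.adjugate_mul]
    rw [smul_smul]
    congr 1
    have : (E.submatrix id e).det = W := rfl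
    rw [this]
    field_simp
  have hdetT : T.det ≠ 0 := by
    intro h
    have h1 := congrArg Matrix.det hTB
    rw [Matrix.det_mul, h, zero_mul, Matrix.det_smul, Matrix.det_one, mul_one] at h1
    exact (pow_ne_zero _ hb0) h1.symm
  refine ⟨A₀, ⟨T.det, hdetT, fun S => ?_⟩, fun v hv => ?_⟩
  · have h1 := S17MK_minors_map (Int.castRingHom Ω) A₀ S
    rw [hA₀] at h1
    simp only [Int.coe_castRingHom] at h1
    rw [← h1]
    unfold S17MK_minors
    rw [← Matrix.det_mul]
    congr 1
  · have h1 : (A₀.map (Int.castRingHom Ω)) *ᵥ (fun j => ((v j : ℤ) : Ω)) = 0 := by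
      funext r
      have := congrFun hv r
      simp only [Matrix.mulVec, dotProduct, Pi.zero_apply] at this ⊢
      have h2 := congrArg (Int.castRingHom Ω) this
      simpa using h2
    rw [hA₀, ← Matrix.mulVec_mulVec] at h1
    have h2 := Matrix.eq_zero_of_mulVec_eq_zero hdetT h1
    intro i
    have := congrFun h2 i
    simpa [Matrix.mulVec, dotProduct] using this

end good


section final

open Height

/-- the logarithmic height of a nonzero integer vector is at most the logarithm of a bound for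
its entries. -/
theorem S17MK_logHeight_int_le {ι : Type*} [Fintype ι] (v : ι → ℤ) (hv : v ≠ 0) (B : ℕ)
    (hB : ∀ j, |v j| ≤ B) : logHeight (fun j => ((v j : ℤ) : ℚ)) ≤ Real.log B := by
  classical
  obtain ⟨j₀, hj₀⟩ : ∃ j, v j ≠ 0 := by
    by_contra hcon
    push Not at hcon
    exact hv (funext hcon)
  haveI : Nonempty ι := ⟨j₀⟩
  obtain ⟨g', hg', hgcd⟩ := Finset.extract_gcd v (Finset.univ_nonempty (α := ι))
  set G := Finset.univ.gcd v with hG
  have hG0 : G ≠ 0 := by
    intro h
    rw [hG, Finset.gcd_eq_zero_iff] at h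
    exact hj₀ (h j₀ (Finset.mem_univ _))
  have hGQ : ((G : ℤ) : ℚ) ≠ 0 := by exact_mod_cast hG0
  have h1 : (fun j => ((v j : ℤ) : ℚ)) = ((G : ℤ) : ℚ) • (((↑) : ℤ → ℚ) ∘ g') := by
    funext j
    simp only [Pi.smul_apply, Function.comp_apply, smul_eq_mul]
    rw [hg' j (Finset.mem_univ _)]
    push_cast
    rfl
  rw [h1, logHeight_smul_eq_logHeight _ hGQ, Rat.logHeight_eq_max_abs_of_gcd_eq_one hgcd]
  have hle : ∀ j, |g' j| ≤ (B : ℤ) := by
    intro j
    have h2 := hB j
    rw [hg' j (Finset.mem_univ _), abs_mul] at h2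
    have h3 : 1 ≤ |G| := Int.one_le_abs hG0
    calc |g' j| = 1 * |g' j| := (one_mul _).symm
      _ ≤ |G| * |g' j| := mul_le_mul_of_nonneg_right h3 (abs_nonneg _)
      _ ≤ B := h2
  have hsup_le : (⨆ j, |g' j|) ≤ (B : ℤ) := ciSup_le hle
  have hg'j₀ : g' j₀ ≠ 0 := by
    intro h
    apply hj₀
    rw [hg' j₀ (Finset.mem_univ _), h, mul_zero]
  have hsup_pos : 1 ≤ (⨆ j, |g' j|) :=
    (Int.one_le_abs hg'j₀).trans (le_ciSup (f := fun j => |g' j|) (Finite.bddAbove_range _) j₀)
  have hpos : (0 : ℝ) < ((⨆ j, |g' j| : ℤ) : ℝ) := by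
    have : (0 : ℤ) < (⨆ j, |g' j|) := by linarith
    exact_mod_cast this
  have hle' : ((⨆ j, |g' j| : ℤ) : ℝ) ≤ (B : ℝ) := by
    exact_mod_cast hsup_le
  exact Real.log_le_log hpos hle'

variable {Ω : Type*} [Field Ω] [CharZero Ω] [Algebra.IsAlgebraic ℚ Ω]

/-- the absolute height of the Plücker vector, computed by a saturated integer matrix. -/
theorem S17MK_h_minors {d n : ℕ} (E : Matrix (Fin d) (Fin n) Ω) (A : Matrix (Fin d) (Fin n) ℤ)
    (hA : S17MK_good E A) (hgcd : Finset.univ.gcd (S17MK_minors A) = 1)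
    (I : S17MK_Idx d n) (hmax : ∀ S, |S17MK_minors A S| ≤ |S17MK_minors A I|) :
    S17AH_h (S17MK_minors E) = Real.log ((S17MK_minors A I).natAbs : ℝ) := by
  classical
  obtain ⟨⟨c, hc0, hc⟩, -⟩ := hA
  haveI : Nonempty (S17MK_Idx d n) := ⟨I⟩
  have h1 : S17MK_minors E =
      c⁻¹ • (fun S => algebraMap ℚ Ω (((S17MK_minors A S : ℤ) : ℚ))) := by
    funext S
    simp only [Pi.smul_apply, smul_eq_mul, map_intCast]
    rw [hc S]
    field_simp
  rw [h1, S17AH_h_smul _ (inv_ne_zero hc0), S17AH_h_rat]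
  have h2 : (fun S => ((S17MK_minors A S : ℤ) : ℚ)) = ((↑) : ℤ → ℚ) ∘ (S17MK_minors A) := rfl
  rw [h2, Rat.logHeight_eq_max_abs_of_gcd_eq_one hgcd]
  have h3 : (⨆ S, |S17MK_minors A S|) = |S17MK_minors A I| :=
    le_antisymm (ciSup_le hmax)
      (le_ciSup (f := fun S => |S17MK_minors A S|) (Finite.bddAbove_range _) I)
  rw [h3]
  congr 1
  rw [Nat.cast_natAbs]

/-- **Siegel's lemma in Plücker form** (explicit constant). -/
theorem S17MK_siegel_explicit {d n : ℕ} (hdn : d < n) (E : Matrix (Fin d) (Fin n) Ω)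
    (hW : S17MK_minors E ≠ 0)
    (hrat : ∀ S S', S17MK_minors E S' ≠ 0 →
      ∃ a : ℚ, S17MK_minors E S / S17MK_minors E S' = algebraMap ℚ Ω a) :
    ∃ v : Fin n → ℚ, v ≠ 0 ∧ (∀ i, ∑ j, E i j * algebraMap ℚ Ω (v j) = 0) ∧
      ((n - d : ℕ) : ℝ) * logHeight v ≤
        S17AH_h (S17MK_minors E) + ((n - d : ℕ) : ℝ) * Real.log ((n - d : ℕ) : ℝ) := by
  classical
  obtain ⟨I, hI⟩ : ∃ I, S17MK_minors E I ≠ 0 := by
    by_contra hcon
    push Not at hcon
    exact hW (funext hcon)
  obtain ⟨A₀, hA₀⟩ := S17MK_exists_good E I hI (fun S => hrat S I hI)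
  obtain ⟨A, hA, hgcd⟩ := S17MK_saturate E I hI A₀ hA₀
  haveI : Nonempty (S17MK_Idx d n) := ⟨I⟩
  obtain ⟨I₀, hmax⟩ := Finite.exists_max (fun S => |S17MK_minors A S|)
  have hI₀ : S17MK_minors A I₀ ≠ 0 := by
    intro h
    have h0 : ∀ S, S17MK_minors A S = 0 := by
      intro S
      have := hmax S
      simp only [h, abs_zero] at this
      exact abs_eq_zero.mp (le_antisymm this (abs_nonneg _))
    have : Finset.univ.gcd (S17MK_minors A) = 0 := by
      rw [Finset.gcd_eq_zero_iff]
      intro S _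
      exact h0 S
    rw [this] at hgcd
    exact zero_ne_one hgcd
  have hh := S17MK_h_minors E A hA hgcd I₀ hmax
  set H := (S17MK_minors A I₀).natAbs with hH
  have hH1 : 1 ≤ H := Nat.one_le_iff_ne_zero.mpr (Int.natAbs_ne_zero.mpr hI₀)
  set k := n - d with hk
  have hk1 : 1 ≤ k := by omega
  set m := Nat.findGreatest (fun m => m ^ k ≤ H) H with hm
  have hP1 : (fun m => m ^ k ≤ H) 1 := by simp [hH1]
  have hm1 : 1 ≤ m := Nat.le_findGreatest hH1 hP1
  have hmH : m ^ k ≤ H := Nat.findGreatest_spec (P := fun m => m ^ k ≤ H) hH1 hP1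
  have hlt : H < (m + 1) ^ k := by
    by_cases h : m + 1 ≤ H
    · have := Nat.findGreatest_is_greatest (P := fun m => m ^ k ≤ H) (n := H) (k := m + 1)
        (Nat.lt_succ_self _) h
      exact not_le.mp this
    · have h1 : H < m + 1 := not_le.mp h
      exact h1.trans_le (Nat.le_self_pow (by omega) _)
  obtain ⟨v, hv0, hAv, hvb⟩ := S17MK_kernel_vector hdn A I₀ hI₀ hmax m hlt
  have hvb' : ∀ j, |v j| ≤ ((k * m : ℕ) : ℤ) := by
    intro j
    have := hvb j
    push_cast
    exact this
  have hlog := S17MK_logHeight_int_le v hv0 (k * m) hvb'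
  refine ⟨fun j => ((v j : ℤ) : ℚ), ?_, ?_, ?_⟩
  · intro h
    apply hv0
    funext j
    have := congrFun h j
    simpa using this
  · intro i
    have := hA.2 v hAv i
    simpa using this
  · rw [hh]
    have hkpos : (0 : ℝ) < (k : ℝ) := by exact_mod_cast hk1
    have hmpos : (0 : ℝ) < (m : ℝ) := by exact_mod_cast hm1
    have h1 : Real.log ((k * m : ℕ) : ℝ) = Real.log k + Real.log m := by
      push_cast
      exact Real.log_mul hkpos.ne' hmpos.ne'
    have h2 : (k : ℝ) * Real.log m ≤ Real.log H := by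
      rw [← Real.log_pow]
      apply Real.log_le_log (by positivity)
      exact_mod_cast hmH
    calc (k : ℝ) * logHeight (fun j => ((v j : ℤ) : ℚ))
        ≤ (k : ℝ) * Real.log ((k * m : ℕ) : ℝ) := mul_le_mul_of_nonneg_left hlog hkpos.le
      _ = (k : ℝ) * Real.log m + (k : ℝ) * Real.log k := by rw [h1]; ring
      _ ≤ Real.log H + (k : ℝ) * Real.log k := by linarith

/-- **Siegel's lemma in Plücker form** (Bombieri–Vaaler type, over `ℚ`, elementary): the kernel of
a `d × n` matrix with rational Plücker point contains a nonzero rational vector `v` with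
`(n − d) · h(v) ≤ h(W) + C`, `W` the vector of maximal minors, `C` depending only on `d, n`. -/
theorem S17MK_siegel (Ω : Type*) [Field Ω] [CharZero Ω] [Algebra.IsAlgebraic ℚ Ω]
    (d n : ℕ) (hdn : d < n) :
    ∃ C : ℝ, ∀ E : Matrix (Fin d) (Fin n) Ω, S17MK_minors E ≠ 0 →
      (∀ S S', S17MK_minors E S' ≠ 0 →
        ∃ a : ℚ, S17MK_minors E S / S17MK_minors E S' = algebraMap ℚ Ω a) →
      ∃ v : Fin n → ℚ, v ≠ 0 ∧ (∀ i, ∑ j, E i j * algebraMap ℚ Ω (v j) = 0) ∧
        ((n - d : ℕ) : ℝ) * logHeight v ≤ S17AH_h (S17MK_minors E) + C :=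
  ⟨((n - d : ℕ) : ℝ) * Real.log ((n - d : ℕ) : ℝ), fun E hW hrat =>
    S17MK_siegel_explicit hdn E hW hrat⟩

end final

end Fermat.Agent.S17
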