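import Fermat.Agent.S17.Mink

/-!
# TRACK 8 (S17), package MINK, Galois form (helper1)

* `S17MK_minors_of_perm` : a ring homomorphism which permutes the rows of `E` multiplies all
  Plücker coordinates by the sign of the permutation.
* `S17MK_hrat_of_galois` : if every `σ ∈ Gal(Ω/ℚ)` permutes the rows of `E`, the Plücker point of
  `E` is rational (the hypothesis `hrat` of `S17MK_siegel`).
* `S17MK_siegel_galois` : Siegel's lemma for such `E`, with the absolute height of `v`.
-/

set_option autoImplicit false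
set_option linter.unusedSectionVars false

open Matrix

namespace Fermat.Agent.S17

section galois

open Height

variable {Ω : Type*} [Field Ω] [CharZero Ω] [Algebra.IsAlgebraic ℚ Ω] {d n : ℕ}

/-- a ring homomorphism which permutes the rows of `E` multiplies all Plücker coordinates by the
same sign. -/
theorem S17MK_minors_of_perm {R : Type*} [CommRing R] (E : Matrix (Fin d) (Fin n) R)
    (σ : R →+* R) (π : Equiv.Perm (Fin d)) (h : ∀ i j, σ (E i j) = E (π i) j) (S : S17MK_Idx d n) :
    σ (S17MK_minors E S) = (Equiv.Perm.sign π : ℤ) * S17MK_minors E S := by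
  rw [← S17MK_minors_map]
  unfold S17MK_minors
  have h1 : (E.map σ).submatrix id (S.1.orderEmbOfFin S.2) =
      (E.submatrix id (S.1.orderEmbOfFin S.2)).submatrix π id := by
    ext i j
    simp only [submatrix_apply, id_eq, map_apply]
    exact h i _
  rw [h1, Matrix.det_permute]

/-- **rationality of the Plücker point** of a matrix whose rows are permuted by the Galois
group. -/
theorem S17MK_hrat_of_galois [IsGalois ℚ Ω] (E : Matrix (Fin d) (Fin n) Ω)
    (hG : ∀ σ : Ω ≃ₐ[ℚ] Ω, ∃ π : Equiv.Perm (Fin d), ∀ i j, σ (E i j) = E (π i) j) :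
    ∀ S S', S17MK_minors E S' ≠ 0 →
      ∃ a : ℚ, S17MK_minors E S / S17MK_minors E S' = algebraMap ℚ Ω a := by
  intro S S' hS'
  have hfix : ∀ σ : Ω ≃ₐ[ℚ] Ω, σ (S17MK_minors E S / S17MK_minors E S') =
      S17MK_minors E S / S17MK_minors E S' := by
    intro σ
    obtain ⟨π, hπ⟩ := hG σ
    have h1 := S17MK_minors_of_perm E (σ : Ω →+* Ω) π hπ S
    have h2 := S17MK_minors_of_perm E (σ : Ω →+* Ω) π hπ S'
    simp only [RingHom.coe_coe] at h1 h2
    rw [map_div₀, h1, h2]
    have hs : ((Equiv.Perm.sign π : ℤ) : Ω) ≠ 0 := by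
      rcases Int.units_eq_one_or (Equiv.Perm.sign π) with h | h <;> simp [h]
    field_simp
  obtain ⟨a, ha⟩ := (InfiniteGalois.mem_range_algebraMap_iff_fixed
    (S17MK_minors E S / S17MK_minors E S')).mpr hfix
  exact ⟨a, ha.symm⟩

/-- **Siegel's lemma in Plücker form**, Galois version, with the absolute height of `v`. -/
theorem S17MK_siegel_galois [IsGalois ℚ Ω] (hdn : d < n) (E : Matrix (Fin d) (Fin n) Ω)
    (hW : S17MK_minors E ≠ 0)
    (hG : ∀ σ : Ω ≃ₐ[ℚ] Ω, ∃ π : Equiv.Perm (Fin d), ∀ i j, σ (E i j) = E (π i) j) :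
    ∃ v : Fin n → ℚ, v ≠ 0 ∧ (∀ i, ∑ j, E i j * algebraMap ℚ Ω (v j) = 0) ∧
      ((n - d : ℕ) : ℝ) * S17AH_h (fun j => algebraMap ℚ Ω (v j)) ≤
        S17AH_h (S17MK_minors E) + ((n - d : ℕ) : ℝ) * Real.log ((n - d : ℕ) : ℝ) := by
  obtain ⟨v, hv0, hv, hh⟩ := S17MK_siegel_explicit hdn E hW (S17MK_hrat_of_galois E hG)
  refine ⟨v, hv0, hv, ?_⟩
  rw [S17AH_h_rat]
  exact hh

end galois

end Fermat.Agent.S17
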