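import Fermat.Agent.S17.MinkGal
import Fermat.Agent.S17.HtDefs
import Fermat.Agent.S17.GMVar
import Fermat.Agent.S17.HtPad

/-!
# TRACK 8 (S17), package MINK in the shape of `S17/HtDefs.lean` (helper1)

`S17H_W x` (helper7, `HtDefs.lean`) is the vector of ALL `d × d` minors of the matrix with rows
`x i`, indexed by all index functions `Fin d → ι`; `S17MK_minors` (MINK) is indexed by the
`d`-element subsets.  The two vectors have the same absolute height.

* `S17MK_h_W_fin`  : `S17AH_h (S17H_W x) = S17AH_h (S17MK_minors (Matrix.of x))`  (`ι = Fin n`).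
* `S17MK_siegel_H` : **Siegel's lemma (M)** for `x : Fin d → ι → Ω` (any `Fintype ι`) whose rows are
  permuted by the Galois group: a nonzero rational `v` orthogonal to all `x i` with
  `(card ι − d) · h(v) ≤ h(S17H_W x) + (card ι − d) · log (card ι − d)`.
-/

set_option autoImplicit false
set_option linter.unusedSectionVars false

open Matrix

namespace Fermat.Agent.S17

section bridge

variable {Ω : Type} [Field Ω] [CharZero Ω] [Algebra.IsAlgebraic ℚ Ω] {d n : ℕ}

theorem S17MK_W_apply (x : Fin d → Fin n → Ω) (f : Fin d → Fin n) :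
    S17H_W x f = ((Matrix.of x).submatrix id f).det := rfl

theorem S17MK_minors_eq_W (x : Fin d → Fin n → Ω) (S : S17MK_Idx d n) :
    S17MK_minors (Matrix.of x) S = S17H_W x (S.1.orderEmbOfFin S.2) := rfl

theorem S17MK_minors_ne_zero_of_W (x : Fin d → Fin n → Ω) (hW : S17H_W x ≠ 0) :
    S17MK_minors (Matrix.of x) ≠ 0 := by
  intro h
  apply hW
  funext f
  rw [S17MK_W_apply]
  rcases S17MK_det_cases (Matrix.of x) f with h0 | ⟨S, h0 | h0⟩
  · exact h0
  · rw [h0, h]; rfl
  · rw [h0, h]; simp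

/-- the two Plücker vectors have the same height. -/
theorem S17MK_h_W_fin (x : Fin d → Fin n → Ω) :
    S17AH_h (S17H_W x) = S17AH_h (S17MK_minors (Matrix.of x)) := by
  classical
  apply le_antisymm
  · -- every entry of `S17H_W x` is `0` or `±` a Plücker coordinate
    let mo : Option (S17MK_Idx d n) → Ω := fun o => o.elim 0 (S17MK_minors (Matrix.of x))
    have hex : ∀ f : Fin d → Fin n, ∃ o : Option (S17MK_Idx d n),
        S17H_W x f = mo o ∨ S17H_W x f = - mo o := by
      intro f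
      rw [S17MK_W_apply]
      rcases S17MK_det_cases (Matrix.of x) f with h0 | ⟨S, h0 | h0⟩
      · exact ⟨none, Or.inl h0⟩
      · exact ⟨some S, Or.inl h0⟩
      · exact ⟨some S, Or.inr h0⟩
    choose s hs using hex
    have h1 : S17AH_h (S17H_W x) = S17AH_h (mo ∘ s) :=
      S17GP_h_sign (mo ∘ s) (S17H_W x) hs
    have h2 : S17AH_h (mo ∘ s) ≤ S17AH_h mo := S17AH_h_comp_le s mo
    have h3 : S17AH_h (mo ∘ (some : S17MK_Idx d n → Option (S17MK_Idx d n))) = S17AH_h mo := by
      apply S17HA_h_pad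
      intro o ho
      cases o with
      | none => rfl
      | some S => exact absurd ⟨S, rfl⟩ ho
    have h4 : mo ∘ (some : S17MK_Idx d n → Option (S17MK_Idx d n)) =
        S17MK_minors (Matrix.of x) := rfl
    rw [h1, ← h4, h3]
    exact h2
  · have h1 : S17MK_minors (Matrix.of x) =
        S17H_W x ∘ (fun S : S17MK_Idx d n => (S.1.orderEmbOfFin S.2 : Fin d → Fin n)) := rfl
    rw [h1]
    exact S17AH_h_comp_le _ _

end bridge

section siegel

variable {Ω : Type} [Field Ω] [CharZero Ω] [Algebra.IsAlgebraic ℚ Ω] [IsGalois ℚ Ω]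

/-- **Siegel's lemma (M)** in the shape of `HtDefs.lean`, `ι = Fin n`. -/
theorem S17MK_siegel_H_fin {d n : ℕ} (hdn : d < n) (x : Fin d → Fin n → Ω)
    (hW : S17H_W x ≠ 0)
    (hG : ∀ σ : Ω ≃ₐ[ℚ] Ω, ∃ π : Equiv.Perm (Fin d), ∀ i j, σ (x i j) = x (π i) j) :
    ∃ v : Fin n → ℚ, v ≠ 0 ∧
      (∀ i, S17H_dot (fun j => algebraMap ℚ Ω (v j)) (x i) = 0) ∧
      ((n - d : ℕ) : ℝ) * S17AH_h (fun j => algebraMap ℚ Ω (v j)) ≤
        S17AH_h (S17H_W x) + ((n - d : ℕ) : ℝ) * Real.log ((n - d : ℕ) : ℝ) := by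
  obtain ⟨v, hv0, hv, hh⟩ := S17MK_siegel_galois hdn (Matrix.of x)
    (S17MK_minors_ne_zero_of_W x hW) (fun σ => by
      obtain ⟨π, hπ⟩ := hG σ
      exact ⟨π, fun i j => hπ i j⟩)
  refine ⟨v, hv0, fun i => ?_, ?_⟩
  · have := hv i
    simp only [Matrix.of_apply] at this
    unfold S17H_dot
    rw [← this]
    exact Finset.sum_congr rfl fun j _ => mul_comm _ _
  · rw [S17MK_h_W_fin]
    exact hh

/-- **Siegel's lemma (M)** in the shape of `HtDefs.lean`: `x i` (`i : Fin d`) vectors in `Ω^ι`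
whose set is stable under the Galois group (every `σ` permutes the `x i`), `S17H_W x ≠ 0`,
`d < card ι`.  Then there is a nonzero RATIONAL vector `v` orthogonal to all `x i` with
`(card ι − d) · h(v) ≤ h(S17H_W x) + (card ι − d) · log (card ι − d)`. -/
theorem S17MK_siegel_H {ι : Type} [Fintype ι] {d : ℕ} (hd : d < Fintype.card ι)
    (x : Fin d → ι → Ω) (hW : S17H_W x ≠ 0)
    (hG : ∀ σ : Ω ≃ₐ[ℚ] Ω, ∃ π : Equiv.Perm (Fin d), ∀ i j, σ (x i j) = x (π i) j) :
    ∃ v : ι → ℚ, v ≠ 0 ∧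
      (∀ i, S17H_dot (fun j => algebraMap ℚ Ω (v j)) (x i) = 0) ∧
      ((Fintype.card ι - d : ℕ) : ℝ) * S17AH_h (fun j => algebraMap ℚ Ω (v j)) ≤
        S17AH_h (S17H_W x) +
          ((Fintype.card ι - d : ℕ) : ℝ) * Real.log ((Fintype.card ι - d : ℕ) : ℝ) := by
  classical
  let e : ι ≃ Fin (Fintype.card ι) := Fintype.equivFin ι
  let xe : Fin d → Fin (Fintype.card ι) → Ω := fun i j => x i (e.symm j)
  let E : (Fin d → Fin (Fintype.card ι)) ≃ (Fin d → ι) :=
    Equiv.arrowCongr (Equiv.refl _) e.symm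
  have hWe : S17H_W xe = S17H_W x ∘ E := by
    funext f
    rfl
  have hhW : S17AH_h (S17H_W xe) = S17AH_h (S17H_W x) := by
    rw [hWe]
    exact S17AH_h_comp_equiv E (S17H_W x)
  have hWe0 : S17H_W xe ≠ 0 := by
    intro h
    apply hW
    funext f
    have := congrFun h (E.symm f)
    rw [hWe] at this
    simpa using this
  obtain ⟨v, hv0, hv, hh⟩ := S17MK_siegel_H_fin hd xe hWe0
    (fun σ => by
      obtain ⟨π, hπ⟩ := hG σ
      exact ⟨π, fun i j => hπ i (e.symm j)⟩)
  refine ⟨v ∘ e, ?_, fun i => ?_, ?_⟩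
  · intro h
    apply hv0
    funext j
    have := congrFun h (e.symm j)
    simpa using this
  · have := hv i
    unfold S17H_dot at this ⊢
    rw [← this]
    exact Fintype.sum_equiv e _ _ (fun j => by simp [xe])
  · rw [← hhW]
    have h1 : (fun j => algebraMap ℚ Ω ((v ∘ e) j)) =
        (fun j => algebraMap ℚ Ω (v j)) ∘ e := rfl
    rw [h1, S17AH_h_comp_equiv e]
    exact hh

end siegel

end Fermat.Agent.S17
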