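import Fermat.Agent.S17.ModelInst2
import Fermat.Agent.S17.ChowCurve
import Fermat.Agent.S17.ChowFact

/-!
# TRACK 8 (S17), heights pillar, package C1 (helper4), part 3: the CHOW data of `X₀(N)` and the
input `fact` of `S17MI_In2`

* `S17MI_D hd1`    : the CHOW data `S17CC_data` (helper22) of `F_N`, `e = S17EM_e N (4·d1)`;
* `S17MI_chow hd1` : its Chow form (helper2);
* `S17MI_chow_spec`: bihomogeneity, `chow_ne`, (H1) at the points `a • ev P` (incl. `P = O`);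
* `S17MI_fact`     : every list `P` of `k` places with cycle `div φ_c + kO` is a zero cycle of `c`
                     (the input `fact` of `S17MI_In2`, for `X.chow = S17MI_chow hd1`).
-/

set_option autoImplicit false
set_option linter.style.haveILetI false
set_option linter.unusedSectionVars false

open ModularCurve AlgebraicCurve MvPolynomial WithZero

namespace Fermat.Agent.S17

open Fermat.Agent.Lib

noncomputable section

variable {N : ℕ} [NeZero N]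

theorem S17MI_hk1 {d1 : ℕ} (hd1 : 2 * S17MI_g N + 1 ≤ d1) : 1 ≤ 4 * d1 := by omega

theorem S17MI_hk2 {d1 : ℕ} (hd1 : 2 * S17MI_g N + 1 ≤ d1) :
    2 * RR_genus (AlgebraicClosure ℚ) ↥(modularFunctionFieldBar N) + 1 ≤ 4 * d1 := by
  unfold S17MI_g at hd1
  omega

/-- the CHOW data of `X₀(N)` for the embedding by `L(kO)`, `k = 4·d1`. -/
def S17MI_D {d1 : ℕ} (hd1 : 2 * S17MI_g N + 1 ≤ d1) :
    S17CH_Data (AlgebraicClosure ℚ) (S17MI_ι N d1) (S17MI_ι N d1)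
      {P : S17HI_Pl N // P ≠ S17EM_O N} :=
  S17CC_data (S17ST_hRR N) (S17EM_O N) (4 * d1) (S17MI_e N d1) (S17MI_i0 N d1) (S17MI_il N d1)
    (S17MI_e_i0 N d1) (fun j P hP => S17EM_val_off N (4 * d1) j P hP)
    (S17EM_val_last N (4 * d1) (S17MI_hk2 hd1))
    (fun j hj => S17EM_val_low N (4 * d1) (S17MI_hk2 hd1) j hj) (S17MI_hk1 hd1)
    (S17EM_e_linearIndependent N (4 * d1))

/-- the Chow form of `X₀(N)`. -/
def S17MI_chow {d1 : ℕ} (hd1 : 2 * S17MI_g N + 1 ≤ d1) :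
    MvPolynomial (S17MI_ι N d1 ⊕ S17MI_ι N d1) (AlgebraicClosure ℚ) :=
  (S17MI_D hd1).chowForm

theorem S17MI_D_k {d1 : ℕ} (hd1 : 2 * S17MI_g N + 1 ≤ d1) : (S17MI_D hd1).k = 4 * d1 := rfl

theorem S17MI_D_last {d1 : ℕ} (hd1 : 2 * S17MI_g N + 1 ≤ d1) :
    (S17MI_D hd1).last = S17MI_il N d1 := rfl

theorem S17MI_D_Z {d1 : ℕ} (hd1 : 2 * S17MI_g N + 1 ≤ d1)
    (c : S17MI_ι N d1 → AlgebraicClosure ℚ) :
    (S17MI_D hd1).Z c = S17CC_Z (S17ST_hRR N) (S17EM_O N) (S17MI_e N d1) c := rfl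

/-- the output of CHOW for `X₀(N)`. -/
theorem S17MI_chow_spec {d1 : ℕ} (hd1 : 2 * S17MI_g N + 1 ≤ d1) :
    S17C_IsBihom (S17MI_chow hd1) (4 * d1) (4 * d1) ∧
      (∀ c : S17MI_ι N d1 → AlgebraicClosure ℚ, c ≠ 0 →
        ∃ X : S17MI_ι N d1 → AlgebraicClosure ℚ, eval (Sum.elim c X) (S17MI_chow hd1) ≠ 0) ∧
      (∀ (c X : S17MI_ι N d1 → AlgebraicClosure ℚ) (a : AlgebraicClosure ℚ)
        (w : Option {P : S17HI_Pl N // P ≠ S17EM_O N}), a ≠ 0 →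
        S17H_dot c (a • S17CF_evO (S17MI_D hd1) w) = 0 →
        S17H_dot X (a • S17CF_evO (S17MI_D hd1) w) = 0 →
        eval (Sum.elim c X) (S17MI_chow hd1) = 0) ∧
      (∀ c : S17MI_ι N d1 → AlgebraicClosure ℚ, c ≠ 0 →
        Multiset.card ((S17MI_D hd1).Z c) ≤ 4 * d1 ∧
        ∃ w : Fin (4 * d1) → Option {P : S17HI_Pl N // P ≠ S17EM_O N},
          Finset.univ.val.map w = S17CF_cycle (S17MI_D hd1) c ∧
          S17H_Fact (S17MI_chow hd1) c (fun i => S17CF_evO (S17MI_D hd1) (w i))) ∧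
      (∀ X : S17MI_ι N d1 → AlgebraicClosure ℚ, X (S17MI_il N d1) ≠ 0 →
        ∀ c : S17MI_ι N d1 → AlgebraicClosure ℚ,
        eval (Sum.elim c X) (S17MI_chow hd1) =
          X (S17MI_il N d1) ^ (4 * d1) * eval c ((S17MI_D hd1).G X)) :=
  S17CF_main (S17MI_D hd1) rfl (S17MI_hk1 hd1)
    (fun c hc P h0 => S17CC_data_M1 _ _ _ _ _ _ _ _ _ _ _ _ c hc P h0)
    (fun c hc hl => S17CC_data_M2 _ _ _ _ _ _ _ _ _ _ _ _ c hc hl)

/-- the coordinates of the points of the completed curve are the `ev`. -/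
theorem S17MI_evO {d1 : ℕ} (hd1 : 2 * S17MI_g N + 1 ≤ d1)
    (o : Option {P : S17HI_Pl N // P ≠ S17EM_O N}) :
    S17CF_evO (S17MI_D hd1) o = S17MI_ev N d1 (S17DT_pt (S17EM_O N) o) := by
  cases o with
  | none =>
    show Pi.single (S17MI_il N d1) 1 = S17NGL_ev _ _ _ (S17DT_pt (S17EM_O N) none)
    rw [S17DT_ev_pt_none]
  | some P =>
    show S17NGZ_ev P.1 (S17MI_e N d1) = S17NGL_ev _ _ _ (S17DT_pt (S17EM_O N) (some P))
    rw [S17DT_ev_pt_some]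

theorem S17MI_phi_mem (d1 : ℕ) (c : S17MI_ι N d1 → AlgebraicClosure ℚ) :
    S17MI_phi N d1 c ∈ riemannRochSpace
      ((4 * d1) • (Finsupp.single (S17EM_O N) (1 : ℤ) :
        Divisor (AlgebraicClosure ℚ) ↥(modularFunctionFieldBar N))) := by
  rw [← S17EM_D_eq]
  exact Submodule.sum_mem _ fun j _ => Submodule.smul_mem _ _ (S17EM_e_mem N (4 * d1) j)

/-- **the input `fact` of `S17MI_In2`** for the Chow form `S17MI_chow`. -/
theorem S17MI_fact {d1 : ℕ} (hd1 : 2 * S17MI_g N + 1 ≤ d1)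
    (c : S17MI_ι N d1 → AlgebraicClosure ℚ) (P : Fin (4 * d1) → S17HI_Pl N)
    (hφ : S17MI_phi N d1 c ≠ 0)
    (hP : ∀ Q : S17HI_Pl N, (∑ i, Finsupp.single (P i) (1 : ℤ) :
        Divisor (AlgebraicClosure ℚ) ↥(modularFunctionFieldBar N)) Q =
      Q.ord (S17MI_phi N d1 c) + S17EM_D N (4 * d1) Q) :
    S17H_Fact (S17MI_chow hd1) c (fun i => S17MI_ev N d1 (P i)) := by
  have hc : c ≠ 0 := by
    rintro rfl
    apply hφ
    unfold S17MI_phi
    simp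
  obtain ⟨-, w, hw, hF⟩ := (S17MI_chow_spec hd1).2.2.2.1 c hc
  refine S17DT_fact (S17ST_hRR N) (S17EM_O N) (4 * d1) (S17MI_e N d1) (S17MI_il N d1)
    (S17MI_chow hd1) c hφ (S17MI_phi_mem d1 c)
    (S17CC_Z (S17ST_hRR N) (S17EM_O N) (S17MI_e N d1) c)
    (fun Q => S17CC_Z1 (S17ST_hRR N) (S17EM_O N) (S17MI_e N d1) c Q)
    (S17CC_Z2 (S17ST_hRR N) (S17EM_O N) (4 * d1) (S17MI_e N d1) (S17MI_il N d1)
      (fun j P hP => S17EM_val_off N (4 * d1) j P hP)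
      (S17EM_val_last N (4 * d1) (S17MI_hk2 hd1))
      (fun j hj => S17EM_val_low N (4 * d1) (S17MI_hk2 hd1) j hj) (S17MI_hk1 hd1)
      (S17EM_e_linearIndependent N (4 * d1)) c hc)
    w hw (S17CF_evO (S17MI_D hd1)) (fun o => S17MI_evO hd1 o) hF P (fun Q => ?_)
  rw [hP Q, ← S17EM_D_eq]

end

end Fermat.Agent.S17
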