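import Fermat.Agent.S17.ModelInst4
import Fermat.Agent.S17.CurveInst2
import Fermat.Agent.S17.TanRecFinal
import Fermat.Agent.S17.RRAvoid

/-!
# TRACK 8 (S17), heights pillar, package C1 (helper4), part 5: the concrete model `M_N`,
UNCONDITIONAL

* `S17MI_curve`        : CURVE-INST for `X₀(N)` (helper7's `S17CV_main`);
* `S17MI_exists_i1`    : a basis element of pole order `k - 1` at `O`;
* `S17MI_imm`          : NG (c), immersion (helper3's `S17NGS_immersion`);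
* `S17MI_model_exists` : **the model** `M_N : S17H_Model ℚ̄ (JZero N) (Place ℚ̄ F_N) ι (4·d1) g d1`
  with `M.JQ = S17_JQ N`, for every `d1 ≥ 2g + 1` — no hypothesis.
-/

set_option autoImplicit false
set_option linter.style.haveILetI false
set_option linter.unusedSectionVars false

open ModularCurve AlgebraicCurve MvPolynomial WithZero

namespace Fermat.Agent.S17

open Fermat.Agent.Lib

noncomputable section

variable {N : ℕ} [NeZero N]

/-- CURVE-INST for `X₀(N)`. -/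
theorem S17MI_curve {d1 : ℕ} (hd1 : 2 * S17MI_g N + 1 ≤ d1) : S17MI_CurveStmt hd1 := by
  haveI : Algebra.IsAlgebraic ℚ (AlgebraicClosure ℚ) := S17AH_isAlgebraic_Qbar
  have hk4 : 4 * RR_genus (AlgebraicClosure ℚ) ↥(modularFunctionFieldBar N) + 2 ≤ 4 * d1 := by
    unfold S17MI_g at hd1
    omega
  exact S17CV_main (S17ST_hRR N) (S17EM_O N) (4 * d1) (S17MI_e N d1) (S17MI_i0 N d1)
    (S17MI_il N d1) (S17MI_e_i0 N d1) (fun j P hP => S17EM_val_off N (4 * d1) j P hP)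
    (S17EM_val_last N (4 * d1) (S17MI_hk2 hd1))
    (fun j hj => S17EM_val_low N (4 * d1) (S17MI_hk2 hd1) j hj) (S17MI_hk1 hd1)
    (S17EM_e_linearIndependent N (4 * d1)) hk4 (S17EM_span_e N (4 * d1))

/-- a basis element of pole order `k - 1` at `O`. -/
theorem S17MI_exists_i1 {d1 : ℕ} (hd1 : 2 * S17MI_g N + 1 ≤ d1) :
    ∃ i1 : S17MI_ι N d1, (S17EM_O N).ord (S17MI_e N d1 i1) = -(((4 * d1 : ℕ) : ℤ) - 1) := by
  have hn : 2 * RR_genus (AlgebraicClosure ℚ) ↥(modularFunctionFieldBar N) + 1 ≤ 4 * d1 - 1 := by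
    unfold S17MI_g at hd1
    omega
  obtain ⟨f, hf0, hford, hfreg⟩ :=
    S17RS_exists_pole_order (S17ST_hRR N) (S17EM_O N) (4 * d1 - 1) hn
  have hcast : ((4 * d1 - 1 : ℕ) : ℤ) = ((4 * d1 : ℕ) : ℤ) - 1 := by
    have : 1 ≤ 4 * d1 := S17MI_hk1 hd1
    omega
  have hmem : f ∈ riemannRochSpace (S17EM_D N (4 * d1)) := by
    rw [S17EM_mem_iff]
    refine ⟨fun P hP => (Place.adicValuation_le_one_iff P).2 (Or.inr (hfreg P hP)), ?_⟩
    rw [Place.adicValuation_eq_exp_neg_ord _ hf0, hford, WithZero.exp_le_exp]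
    omega
  have hOrd : -(((4 * d1 : ℕ) : ℤ) - 1) ∈ S17EM_Ords N (4 * d1) :=
    ⟨f, hmem, hf0, by rw [hford, hcast]⟩
  obtain ⟨j, hj⟩ := S17EM_exists_emb N (4 * d1) hOrd
  refine ⟨Fin.rev j, ?_⟩
  show (S17EM_O N).ord (S17EM_e N (4 * d1) (Fin.rev j)) = _
  rw [S17EM_e_ord, Fin.rev_rev, hj]

/-- NG (c): immersion. -/
theorem S17MI_imm {d1 : ℕ} (hd1 : 2 * S17MI_g N + 1 ≤ d1) (R : S17HI_Pl N)
    (hR : R ≠ S17EM_O N) :
    ∃ j, R.ord (S17MI_e N d1 j -
      algebraMap (AlgebraicClosure ℚ) ↥(modularFunctionFieldBar N)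
        (FD_c0 R (S17MI_e N d1 j))) = 1 := by
  refine S17NGS_immersion (S17ST_hRR N) (B := S17EM_D N (4 * d1)) (S17MI_D_off N d1) ?_
    (S17MI_span N d1) hR
  rw [S17MI_D_degree]
  have : 2 * S17MI_g N + 2 ≤ 4 * d1 := by omega
  unfold S17MI_g at this
  exact_mod_cast this

/-- **the inputs of the model**, unconditional. -/
theorem S17MI_exists_in2_final {d1 : ℕ} (hd1 : 2 * S17MI_g N + 1 ≤ d1) :
    Nonempty (S17MI_In2 N d1) := by
  haveI : Algebra.IsAlgebraic ℚ (AlgebraicClosure ℚ) := S17AH_isAlgebraic_Qbar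
  obtain ⟨X, hXI, hchow⟩ := S17MI_curve hd1
  obtain ⟨i1, hi1⟩ := S17MI_exists_i1 hd1
  have hk2 : 2 ≤ 4 * d1 := by omega
  obtain ⟨B, -, htan, htanS⟩ := S17RC_tan_final (S17ST_hRR N) (S17EM_O N) (4 * d1) hk2
    (S17MI_e N d1) (S17MI_i0 N d1) i1 (S17MI_il N d1) (S17MI_e_i0 N d1)
    (S17EM_val_last N (4 * d1) (S17MI_hk2 hd1))
    (fun j hj => S17EM_val_low N (4 * d1) (S17MI_hk2 hd1) j hj)
    (fun j P hP => S17EM_val_off N (4 * d1) j P hP) hi1 (S17MI_imm hd1)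
    (S17EM_e_linearIndependent N (4 * d1)) (S17MI_ev_inj hd1) X hXI
    (fun c hc => by rw [hchow]; exact S17MI_hzeros hd1 c hc)
  exact ⟨{ X := X
           hXI := hXI
           fact := fun c P hφ hP => by rw [hchow]; exact S17MI_fact hd1 c P hφ hP
           B := B
           tan := S17TN_tan (S17TN_Dt (K := AlgebraicClosure ℚ) (S17MI_e N d1 (S17MI_il N d1)))
             (S17MI_e N d1)
           tan_ok := htan
           tanS := htanS }⟩

/-- **C1, FINAL**: the concrete model `M_N` of `X₀(N)`, for every `d1 ≥ 2g + 1`. -/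
theorem S17MI_model_exists {d1 : ℕ} (hd1 : 2 * S17MI_g N + 1 ≤ d1) :
    ∃ M : S17H_Model (AlgebraicClosure ℚ) (JZero N) (S17HI_Pl N) (S17MI_ι N d1) (4 * d1)
      (S17MI_g N) d1, M.JQ = S17_JQ N := by
  obtain ⟨I⟩ := S17MI_exists_in2_final hd1
  exact ⟨S17MI_model2 hd1 I, rfl⟩

/-- the same with `d1 = 2g + 1`, in the shape of the hypothesis of `S17F_result_of` (without
GLUE 3). -/
theorem S17MI_model_exists' (N : ℕ) [NeZero N] :
    ∃ (ι : Type) (_ : Fintype ι) (k g d1 : ℕ)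
      (M : S17H_Model (AlgebraicClosure ℚ) (JZero N) (S17HI_Pl N) ι k g d1),
      M.JQ = S17_JQ N := by
  obtain ⟨M, hM⟩ := S17MI_model_exists (N := N) (d1 := 2 * S17MI_g N + 1) le_rfl
  exact ⟨_, inferInstance, _, _, _, M, hM⟩

end

end Fermat.Agent.S17
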