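import Fermat.Agent.S17.MoveH
import Fermat.Agent.S17.Model

/-!
# TRACK 8 (S17), heights, package MOVEH (helper23), part 4: the field `move` of `S17H_Model`

`Pl = Place ℚ̄ F_N`, `act σ P = arithmeticGalois σ • P`, `O` a Galois-invariant place,
`cl = S17MH_cl h O : (Pl →₀ ℕ) →+ Pic⁰`, `E ↦ [E - deg(E) O]`.

* `S17MH_cl`, `S17MH_cl_single_O`, `S17MH_cl_ind`, `S17MH_cl_smul`, `S17MH_cl_mem` :
  the class map on effective divisors and the fields `cl_add` (it is an `AddMonoidHom`),
  `cl_O`, `cl_mem` of the model;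
* `S17MH_move` : the field `move` (for any finite set `B`, all `d ≥ 2 g + 1`).
-/

set_option autoImplicit false

open AlgebraicCurve ModularCurve

namespace Fermat.Agent.S17

open Fermat.Agent.Lib

section abs

variable {K F : Type*} [Field K] [Field F] [Algebra K F]

/-- an effective divisor as a divisor. -/
noncomputable def S17MH_toDiv : (Place K F →₀ ℕ) →+ Divisor K F :=
  Finsupp.mapRange.addMonoidHom (Nat.castAddMonoidHom ℤ)

theorem S17MH_toDiv_apply (E : Place K F →₀ ℕ) (v : Place K F) :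
    S17MH_toDiv E v = (E v : ℤ) := rfl

theorem S17MH_toDiv_single (P : Place K F) (n : ℕ) :
    S17MH_toDiv (Finsupp.single P n) = Finsupp.single P (n : ℤ) := by
  ext v
  classical
  rw [S17MH_toDiv_apply, Finsupp.single_apply, Finsupp.single_apply]
  split_ifs <;> simp

/-- the class of `E - deg(E) O` for an effective divisor `E`. -/
noncomputable def S17MH_cl (h : RR_Hyp K F) (O : Place K F) : (Place K F →₀ ℕ) →+ Pic0 K F :=
  (S17MV_psi h O).comp S17MH_toDiv

theorem S17MH_cl_apply (h : RR_Hyp K F) (O : Place K F) (E : Place K F →₀ ℕ) :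
    S17MH_cl h O E = S17MV_psi h O (S17MH_toDiv E) := rfl

theorem S17MH_cl_single_O (h : RR_Hyp K F) (O : Place K F) (n : ℕ) :
    S17MH_cl h O (Finsupp.single O n) = 0 := by
  rw [S17MH_cl_apply, S17MH_toDiv_single, S17MH_psi_single]

theorem S17MH_cl_ind (h : RR_Hyp K F) (O : Place K F) (D : Finset (Place K F)) :
    S17MH_cl h O (∑ P ∈ D, Finsupp.single P 1) =
      S17MV_psi h O (∑ P ∈ D, Finsupp.single P (1 : ℤ)) := by
  rw [S17MH_cl_apply, map_sum]
  congr 1
  refine Finset.sum_congr rfl fun P _ => ?_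
  rw [S17MH_toDiv_single]
  rfl

/-- the class of an invariant effective divisor is invariant. -/
theorem S17MH_cl_smul (h : RR_Hyp K F) (O : Place K F) (g : SemilinearAut K F)
    (hO : g • O = O) (E : Place K F →₀ ℕ) (hE : ∀ P, E (g • P) = E P) :
    g • S17MH_cl h O E = S17MH_cl h O E := by
  rw [S17MH_cl_apply, S17MH_psi_smul h O g hO]
  congr 1
  ext v
  rw [SemilinearAut.divisor_smul_apply, S17MH_toDiv_apply, S17MH_toDiv_apply]
  have := hE (g⁻¹ • v)
  rw [smul_inv_smul] at this
  rw [this]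

end abs

section modular

variable (N : ℕ) [NeZero N]

/-- the field `cl_mem` of the model. -/
theorem S17MH_cl_mem (O : Place (AlgebraicClosure ℚ) ↥(modularFunctionFieldBar N))
    (hO : ∀ σ : S17_GQ, arithmeticGalois (modularFunctionFieldFull N) σ • O = O)
    (E : Place (AlgebraicClosure ℚ) ↥(modularFunctionFieldBar N) →₀ ℕ)
    (hE : ∀ (σ : S17_GQ) P, E (arithmeticGalois (modularFunctionFieldFull N) σ • P) = E P) :
    S17MH_cl (S17ST_hRR N) O E ∈ S17_JQ N := by
  rw [FixedPoints.mem_addSubgroup]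
  intro σ
  rw [galois_smul_pic0_def]
  exact S17MH_cl_smul (S17ST_hRR N) O _ (hO σ) E (hE σ)

/-- **the field `move` of the model** (MOVEH). -/
theorem S17MH_move (O : Place (AlgebraicClosure ℚ) ↥(modularFunctionFieldBar N))
    (hO : ∀ σ : S17_GQ, arithmeticGalois (modularFunctionFieldFull N) σ • O = O)
    (B : Finset (Place (AlgebraicClosure ℚ) ↥(modularFunctionFieldBar N)))
    (y : JZero N) (hy : y ∈ S17_JQ N)
    (S : Finset (Place (AlgebraicClosure ℚ) ↥(modularFunctionFieldBar N))) (d : ℕ)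
    (hd : 2 * RR_genus (AlgebraicClosure ℚ) ↥(modularFunctionFieldBar N) + 1 ≤ d) :
    ∃ D : Finset (Place (AlgebraicClosure ℚ) ↥(modularFunctionFieldBar N)),
      D.card = d ∧
      (∀ (σ : S17_GQ) P, arithmeticGalois (modularFunctionFieldFull N) σ • P ∈ D ↔ P ∈ D) ∧
      Disjoint D S ∧ Disjoint D B ∧ O ∉ D ∧
      S17MH_cl (S17ST_hRR N) O (S17H_ind D) = y := by
  classical
  have hy' : ∀ σ : S17_GQ, σ • y = y := (FixedPoints.mem_addSubgroup _ _ _).1 hy
  obtain ⟨D, hcard, hinv, hS, hpsi⟩ := S17MH_main N O hO y hy' (S ∪ B) d hd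
  refine ⟨D, hcard, fun σ P => ⟨fun h => ?_, fun h => hinv σ P h⟩, ?_, ?_, ?_, ?_⟩
  · have := hinv σ⁻¹ _ h
    rwa [← mul_smul, ← map_mul, inv_mul_cancel, map_one, one_smul] at this
  · rw [Finset.disjoint_left]
    exact fun P hP hPS => (hS P hP).1 (Finset.mem_union_left _ hPS)
  · rw [Finset.disjoint_left]
    exact fun P hP hPB => (hS P hP).1 (Finset.mem_union_right _ hPB)
  · exact fun hOD => (hS O hOD).2 rfl
  · rw [S17H_ind, S17MH_cl_ind]
    exact hpsi

end modular

end Fermat.Agent.S17
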