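import Fermat.Agent.S17.MoveHRx
import Fermat.Agent.S17.Data
import Fermat.Agent.Lib.FFBranch

/-!
# TRACK 8 (S17), heights, package MOVEH (helper23), part 2: the rational pencil

Abstract: `K` algebraically closed of characteristic `0`, `F / K` with `RR_Hyp`, a group `G`
acting by semilinear automorphisms such that every `f ∈ F` is a `K`-linear combination of
`G`-invariant `K`-linear combinations of its conjugates (Galois descent, `hHD`).

* `S17MH_inv ρ D₀` : the `ℚ`-vector space of `G`-invariant elements of `L(D₀)`;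
* `S17MH_le_span`  : `L(D₀)` is spanned by its invariants (`D₀` invariant);
* `S17MH_exists_avoid` : an invariant element of `L(D₀)` outside finitely many `L(D₀ - P)`;
* `S17MH_pencil`   : a reduced, `G`-stable member `Z = D₀ + div u` of `|D₀|` avoiding `S`;
* `S17MH_main_abs` : MOVEH, abstract form.
-/

set_option autoImplicit false

open AlgebraicCurve WithZero IntermediateField

namespace Fermat.Agent.S17

open Fermat.Agent.Lib Fermat.Agent.S24

variable {K F : Type*} [Field K] [Field F] [Algebra K F]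

/-! ### invariants -/

theorem S17MH_val_smul (g : SemilinearAut K F) (v : Place K F) (f : F) :
    (g • v).adicValuation (g • f) = v.adicValuation f := by
  by_cases hf : f = 0
  · subst hf
    simp
  · have hgf : g • f ≠ 0 := by
      intro h0
      apply hf
      have := congrArg (fun z => g⁻¹ • z) h0
      simpa using this
    rw [Place.adicValuation_eq_exp_neg_ord _ hgf, Place.adicValuation_eq_exp_neg_ord _ hf,
      SemilinearAut.ord_smul]

theorem S17MH_val_smul' (g : SemilinearAut K F) (v : Place K F) {f : F} (hf : g • f = f) :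
    (g • v).adicValuation f = v.adicValuation f := by
  have := S17MH_val_smul g v f
  rwa [hf] at this

theorem S17MH_smul_mem (g : SemilinearAut K F) {D₀ : Divisor K F} (hD : g • D₀ = D₀) {f : F}
    (hf : f ∈ riemannRochSpace D₀) : g • f ∈ riemannRochSpace D₀ := by
  intro v
  have h1 := hf (g⁻¹ • v)
  have h2 := S17MH_val_smul g (g⁻¹ • v) f
  rw [smul_inv_smul] at h2
  rw [h2]
  have h3 : D₀ (g⁻¹ • v) = D₀ v := by
    conv_rhs => rw [← hD]
    rw [SemilinearAut.divisor_smul_apply]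
  rw [← h3]
  exact h1

section inv

variable [CharZero F]

/-- a `K`-subspace of `F` as a `ℚ`-subspace. -/
def S17MH_ratSub (V : Submodule K F) : Submodule ℚ F where
  carrier := V
  zero_mem' := V.zero_mem
  add_mem' := V.add_mem
  smul_mem' := fun c f hf => by
    show c • f ∈ V
    have : c • f = (c : K) • f := by
      rw [Rat.smul_def, Algebra.smul_def, map_ratCast]
    rw [this]
    exact V.smul_mem _ hf

theorem S17MH_mem_ratSub {V : Submodule K F} {f : F} : f ∈ S17MH_ratSub V ↔ f ∈ V := Iff.rfl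

/-- the `G`-invariant elements of `L(D₀)`, a `ℚ`-vector space. -/
def S17MH_inv {G : Type*} [Group G] (ρ : G →* SemilinearAut K F) (D₀ : Divisor K F) :
    Submodule ℚ F where
  carrier := {f | f ∈ riemannRochSpace D₀ ∧ ∀ g, ρ g • f = f}
  zero_mem' := ⟨Submodule.zero_mem _, fun g => smul_zero _⟩
  add_mem' := fun {a b} ha hb =>
    ⟨Submodule.add_mem _ ha.1 hb.1, fun g => by rw [smul_add, ha.2 g, hb.2 g]⟩
  smul_mem' := fun c f hf =>
    ⟨(S17MH_ratSub (riemannRochSpace D₀)).smul_mem c hf.1, fun g => by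
      rw [Rat.smul_def, smul_mul', hf.2 g]
      congr 1
      rw [SemilinearAut.smul_def, map_ratCast]⟩

theorem S17MH_mem_inv {G : Type*} [Group G] {ρ : G →* SemilinearAut K F} {D₀ : Divisor K F}
    {f : F} : f ∈ S17MH_inv ρ D₀ ↔ f ∈ riemannRochSpace D₀ ∧ ∀ g, ρ g • f = f := Iff.rfl

variable {G : Type*} [Group G] (ρ : G →* SemilinearAut K F)
  (hHD : ∀ f : F, ∃ (n : ℕ) (T : Fin n → F), (∀ j g, ρ g • T j = T j) ∧
    f ∈ Submodule.span K (Set.range T) ∧
    ∀ j, T j ∈ Submodule.span K (Set.range fun g : G => ρ g • f))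

include hHD in
/-- `L(D₀)` is spanned by its `G`-invariant elements. -/
theorem S17MH_le_span (D₀ : Divisor K F) (hD₀ : ∀ g, ρ g • D₀ = D₀) (W : Submodule K F)
    (hW : ∀ f ∈ S17MH_inv ρ D₀, f ∈ W) : riemannRochSpace D₀ ≤ W := by
  intro f hf
  obtain ⟨n, T, hTinv, hfT, hTorb⟩ := hHD f
  have hTV : ∀ j, T j ∈ riemannRochSpace D₀ := fun j => by
    refine (Submodule.span_le.2 ?_) (hTorb j)
    rintro _ ⟨g, rfl⟩
    exact S17MH_smul_mem (ρ g) (hD₀ g) hf
  refine (Submodule.span_le.2 ?_) hfT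
  rintro _ ⟨j, rfl⟩
  exact hW _ ⟨hTV j, fun g => hTinv j g⟩

include hHD in
/-- an invariant element of `L(D₀)` outside finitely many `L(D₀ - P)`. -/
theorem S17MH_exists_avoid (D₀ : Divisor K F) (hD₀ : ∀ g, ρ g • D₀ = D₀)
    (hbpf : ∀ P : Place K F,
      ¬ riemannRochSpace D₀ ≤ riemannRochSpace (D₀ - Finsupp.single P (1 : ℤ)))
    (T : Finset (Place K F)) :
    ∃ f ∈ S17MH_inv ρ D₀, ∀ P ∈ T, f ∉ riemannRochSpace (D₀ - Finsupp.single P (1 : ℤ)) := by
  classical
  let p : T → Submodule ℚ (S17MH_inv ρ D₀) := fun P =>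
    Submodule.comap (S17MH_inv ρ D₀).subtype
      (S17MH_ratSub (riemannRochSpace (D₀ - Finsupp.single P.1 (1 : ℤ))))
  have hp : ∀ P, p P ≠ ⊤ := by
    intro P htop
    apply hbpf P.1
    refine S17MH_le_span ρ hHD D₀ hD₀ _ fun f hf => ?_
    have : (⟨f, hf⟩ : S17MH_inv ρ D₀) ∈ p P := by
      rw [htop]
      trivial
    exact this
  obtain ⟨f, hf⟩ := Submodule.exists_forall_notMem_of_forall_ne_top p hp
  exact ⟨f.1, f.2, fun P hP hmem => hf ⟨P, hP⟩ hmem⟩

end inv

/-- an element of `L(D₀)` outside `L(D₀ - P)` has `ord_P = - D₀ P` exactly. -/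
theorem S17MH_ord_of_notMem (P : Place K F) (D₀ : Divisor K F) {f : F}
    (hf : f ∈ riemannRochSpace D₀)
    (hf' : f ∉ riemannRochSpace (D₀ - Finsupp.single P (1 : ℤ))) :
    f ≠ 0 ∧ D₀ P + P.ord f = 0 := by
  have hf0 : f ≠ 0 := fun h0 => hf' (h0 ▸ Submodule.zero_mem _)
  refine ⟨hf0, ?_⟩
  have hmem : f ∈ riemannRochSpace ((D₀ - Finsupp.single P (1 : ℤ)) + Finsupp.single P 1) := by
    rw [sub_add_cancel]
    exact hf
  have hval := RR_val_eq_of_mem_of_not_mem P (D₀ - Finsupp.single P 1) hmem hf'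
  rw [P.adicValuation_eq_exp_neg_ord hf0, exp_inj, Finsupp.sub_apply,
    Finsupp.single_eq_same] at hval
  linarith


/-! ### the pencil -/

theorem S17MH_ord_sub_const_of_pole (v : Place K F) {φ : F} (hφ : v.ord φ < 0) (c : K)
    (hne : φ - algebraMap K F c ≠ 0) : v.ord (φ - algebraMap K F c) = v.ord φ := by
  have hφ0 : φ ≠ 0 := by
    rintro rfl
    simp at hφ
  have h1 : v.adicValuation (algebraMap K F c) < v.adicValuation φ := by
    refine lt_of_le_of_lt (v.adicValuation_algebraMap_le_one c) ?_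
    rw [v.adicValuation_eq_exp_neg_ord hφ0, ← exp_zero, exp_lt_exp]
    omega
  have h2 := Valuation.map_sub_eq_of_lt_left v.adicValuation h1
  rw [v.adicValuation_eq_exp_neg_ord hne, v.adicValuation_eq_exp_neg_ord hφ0, exp_inj] at h2
  omega

theorem S17MH_val_lt_one_iff (v : Place K F) {f : F} (hf : f ≠ 0) :
    v.adicValuation f < 1 ↔ 0 < v.ord f := by
  rw [v.adicValuation_eq_exp_neg_ord hf, ← exp_zero, exp_lt_exp]
  omega

theorem S17MH_smul_algebraMap_rat [CharZero K] (g : SemilinearAut K F) (c : ℚ) :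
    g • (algebraMap K F (c : K)) = algebraMap K F (c : K) := by
  rw [SemilinearAut.smul_algebraMap, map_ratCast]

/-- **the rational pencil**: `D₀ ≥ 0` a `G`-invariant divisor of positive degree such that
`|D₀|` has no base point.  Then there is a REDUCED `G`-stable divisor `∑_{P ∈ Z} P = D₀ + div u`
whose support avoids a given finite set `S`. -/
theorem S17MH_pencil [IsAlgClosed K] [CharZero K] (h : RR_Hyp K F) {G : Type*} [Group G]
    (ρ : G →* SemilinearAut K F)
    (hHD : ∀ f : F, ∃ (n : ℕ) (T : Fin n → F), (∀ j g, ρ g • T j = T j) ∧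
      f ∈ Submodule.span K (Set.range T) ∧
      ∀ j, T j ∈ Submodule.span K (Set.range fun g : G => ρ g • f))
    (D₀ : Divisor K F) (hD₀0 : 0 ≤ D₀) (hdeg : 0 < D₀.degree) (hD₀ : ∀ g, ρ g • D₀ = D₀)
    (hbpf : ∀ P : Place K F,
      ¬ riemannRochSpace D₀ ≤ riemannRochSpace (D₀ - Finsupp.single P (1 : ℤ)))
    (S : Finset (Place K F)) :
    ∃ (Z : Finset (Place K F)) (u : F), u ≠ 0 ∧ (∀ g, ∀ P ∈ Z, ρ g • P ∈ Z) ∧
      (∀ P ∈ Z, P ∉ S) ∧
      ∑ P ∈ Z, Finsupp.single P (1 : ℤ) = D₀ + RR_div h.principal u := by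
  classical
  have hP := h.principal
  have hcF : CharZero F := charZero_of_injective_algebraMap (algebraMap K F).injective
  -- the denominator
  obtain ⟨f₁, hf₁inv, hf₁⟩ := S17MH_exists_avoid ρ hHD D₀ hD₀ hbpf (insert h.nonempty.some S)
  obtain ⟨hf₁0, -⟩ := S17MH_ord_of_notMem _ D₀ hf₁inv.1
    (hf₁ _ (Finset.mem_insert_self _ _))
  set D₁ : Divisor K F := D₀ + RR_div hP f₁ with hD₁
  have hD₁0 : 0 ≤ D₁ := (RR_mem_iff_div hP hf₁0).1 hf₁inv.1
  have hD₁deg : D₁.degree = D₀.degree := by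
    rw [hD₁, map_add, RR_div_degree, add_zero]
  have hD₁S : ∀ P ∈ S, D₁ P = 0 := by
    intro P hPS
    have := (S17MH_ord_of_notMem P D₀ hf₁inv.1 (hf₁ P (Finset.mem_insert_of_mem hPS))).2
    rw [hD₁, Finsupp.add_apply, RR_div_apply]
    exact this
  -- a pole
  have hex : ∃ P₁ : Place K F, 0 < D₁ P₁ := by
    by_contra hcon
    simp only [not_exists, not_lt] at hcon
    have hz : D₁ = 0 := by
      ext v
      exact le_antisymm (hcon v) (hD₁0 v)
    rw [hz, map_zero] at hD₁deg
    omega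
  obtain ⟨P₁, hP₁⟩ := hex
  -- the numerator
  obtain ⟨f₀, hf₀inv, hf₀⟩ := S17MH_exists_avoid ρ hHD D₀ hD₀ hbpf (D₁.support ∪ S)
  have hP₁supp : P₁ ∈ D₁.support := Finsupp.mem_support_iff.2 (ne_of_gt hP₁)
  obtain ⟨hf₀0, -⟩ := S17MH_ord_of_notMem _ D₀ hf₀inv.1
    (hf₀ _ (Finset.mem_union_left _ hP₁supp))
  have hE0 : ∀ v : Place K F, 0 ≤ D₀ v + v.ord f₀ := by
    intro v
    have := (RR_mem_iff_div hP hf₀0).1 hf₀inv.1 v
    rwa [Finsupp.add_apply, RR_div_apply] at this
  have hE1 : ∀ v : Place K F, D₁ v ≠ 0 → D₀ v + v.ord f₀ = 0 := by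
    intro v hv
    exact (S17MH_ord_of_notMem v D₀ hf₀inv.1
      (hf₀ v (Finset.mem_union_left _ (Finsupp.mem_support_iff.2 hv)))).2
  -- the function `φ = f₀ / f₁`
  set φ : F := f₀ * f₁⁻¹ with hφ
  have hφ0 : φ ≠ 0 := mul_ne_zero hf₀0 (inv_ne_zero hf₁0)
  have hφord : ∀ v : Place K F, v.ord φ = (D₀ v + v.ord f₀) - D₁ v := by
    intro v
    rw [hφ, v.ord_mul hf₀0 (inv_ne_zero hf₁0), v.ord_inv, hD₁, Finsupp.add_apply, RR_div_apply]
    ring
  have hφinv : ∀ g, ρ g • φ = φ := by
    intro g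
    rw [hφ, smul_mul', smul_inv'', hf₀inv.2 g, hf₁inv.2 g]
  have hpole : P₁.ord φ < 0 := by
    rw [hφord, hE1 P₁ (ne_of_gt hP₁)]
    omega
  have htr : Transcendental K φ := RR_transcendental_of_pole P₁ hpole
  obtain ⟨x, -, hxfin, -⟩ := h.exists_x
  have hfin : FiniteDimensional K⟮φ⟯ F := BL_finite_of_transcendental hxfin htr
  have hcK : CharZero K⟮φ⟯ := charZero_of_injective_algebraMap (algebraMap K K⟮φ⟯).injective
  obtain ⟨T₀, hT₀⟩ := FFS_exists_branch_finset htr
  -- the rational value `c`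
  let B : Finset K := (T₀ ∪ S).image fun Q => FD_c0 Q φ
  have hBfin : {c : ℚ | (c : K) ∈ B}.Finite :=
    Set.Finite.preimage (Rat.cast_injective.injOn) B.finite_toSet
  obtain ⟨c, hc⟩ := Infinite.exists_notMem_finset hBfin.toFinset
  rw [Set.Finite.mem_toFinset, Set.mem_ofPred_eq] at hc
  have hcB : ∀ Q : Place K F, Q ∈ T₀ ∪ S →
      ¬ Q.adicValuation (φ - algebraMap K F (c : K)) < 1 := by
    intro Q hQ hval
    apply hc
    rw [Finset.mem_image]
    exact ⟨Q, hQ, FD_c0_unique Q hval⟩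
  set ψ : F := φ - algebraMap K F (c : K) with hψ
  have hψ0 : ψ ≠ 0 := by
    intro h0
    apply htr
    rw [sub_eq_zero] at h0
    rw [h0]
    exact isAlgebraic_algebraMap _
  have hψinv : ∀ g, ρ g • ψ = ψ := by
    intro g
    rw [hψ, smul_sub, hφinv g, S17MH_smul_algebraMap_rat]
  have hZfin := S17DA_zeros_finite hP hψ0
  -- orders of `ψ`
  have hkey : ∀ v : Place K F,
      (if v ∈ hZfin.toFinset then (1 : ℤ) else 0) = D₁ v + v.ord ψ := by
    intro v
    by_cases hv : v ∈ hZfin.toFinset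
    · rw [if_pos hv]
      rw [Set.Finite.mem_toFinset, Set.mem_ofPred_eq] at hv
      have hvT : v ∉ T₀ := fun hvT => hcB v (Finset.mem_union_left _ hvT) hv
      obtain ⟨-, c', hc'⟩ := hT₀ v hvT
      have hne' : φ - algebraMap K F c' ≠ 0 := by
        intro h0
        rw [h0, Place.ord_zero] at hc'
        omega
      have hc'' : v.adicValuation (φ - algebraMap K F c') < 1 := by
        rw [S17MH_val_lt_one_iff v hne', hc']
        omega
      have hcc : (c : K) = c' := S17SP_residue_unique v hv hc''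
      have hord : v.ord ψ = 1 := by
        rw [hψ, hcc]
        exact hc'
      -- no pole of `φ` at `v`
      have hD₁v : D₁ v = 0 := by
        by_contra hne
        have hpos : 0 < D₁ v := lt_of_le_of_ne (hD₁0 v) (Ne.symm hne)
        have hφv : v.ord φ < 0 := by
          rw [hφord, hE1 v hne]
          omega
        have := S17MH_ord_sub_const_of_pole v hφv (c : K) hψ0
        rw [← hψ, hord] at this
        omega
      rw [hD₁v, hord]
      rfl
    · rw [if_neg hv]
      rw [Set.Finite.mem_toFinset, Set.mem_ofPred_eq, S17MH_val_lt_one_iff v hψ0, not_lt] at hv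
      by_cases hD₁v : D₁ v = 0
      · have hφv : 0 ≤ v.ord φ := by
          rw [hφord, hD₁v]
          have := hE0 v
          omega
        have h1 : v.adicValuation φ ≤ 1 := v.adicValuation_le_one_iff.2 (Or.inr hφv)
        have h2 : v.adicValuation ψ ≤ 1 :=
          (Valuation.map_sub _ _ _).trans (max_le h1 (v.adicValuation_algebraMap_le_one _))
        have h3 := (v.adicValuation_le_one_iff.1 h2).resolve_left hψ0
        rw [hD₁v]
        omega
      · have hpos : 0 < D₁ v := lt_of_le_of_ne (hD₁0 v) (Ne.symm hD₁v)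
        have hφv : v.ord φ < 0 := by
          rw [hφord, hE1 v hD₁v]
          omega
        have := S17MH_ord_sub_const_of_pole v hφv (c : K) hψ0
        rw [← hψ, hφord, hE1 v hD₁v] at this
        omega
  refine ⟨hZfin.toFinset, f₁ * ψ, mul_ne_zero hf₁0 hψ0, ?_, ?_, ?_⟩
  · intro g P hPZ
    rw [Set.Finite.mem_toFinset, Set.mem_ofPred_eq] at hPZ ⊢
    rw [S17MH_val_smul' (ρ g) P (hψinv g)]
    exact hPZ
  · intro P hPZ hPS
    rw [Set.Finite.mem_toFinset, Set.mem_ofPred_eq] at hPZ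
    exact hcB P (Finset.mem_union_right _ hPS) hPZ
  · ext v
    rw [Finsupp.finsetSum_apply, Finsupp.add_apply, RR_div_apply, v.ord_mul hf₁0 hψ0]
    have h1 : ∑ P ∈ hZfin.toFinset, (Finsupp.single P (1 : ℤ) : Divisor K F) v
        = if v ∈ hZfin.toFinset then (1 : ℤ) else 0 := by
      simp_rw [Finsupp.single_apply]
      rw [Finset.sum_ite_eq']
    rw [h1, hkey v, hD₁, Finsupp.add_apply, RR_div_apply]
    ring

end Fermat.Agent.S17
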