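import Fermat.Agent.S17.Move
import Fermat.Prelude.Def_AlgebraicCurve_BaseChangeGalois

/-!
# TRACK 8 (S17), heights, package MOVEH (helper23), part 1: the canonical representative

Abstract: `F / K` with `RR_Hyp`, a group `G` acting by semilinear automorphisms, `O` a
`G`-invariant place.

* `S17MH_psi_div`, `S17MH_psi_single`, `S17MH_psi_mk`, `S17MH_psi_smul`,
  `S17MH_exists_of_psi_eq_zero` : the map `ψ_O = S17MV_psi h O : D ↦ [D - deg(D) O]`;
* `S17MH_exists_Rx` : a `G`-invariant class `x` is `ψ_O (R)` for a `G`-invariant effective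
  divisor `R` of degree `≤ g` (the unique effective divisor in `|x + m₀ O|`, `m₀` minimal).
-/

set_option autoImplicit false

open AlgebraicCurve WithZero

namespace Fermat.Agent.S17

open Fermat.Agent.Lib

variable {K F : Type*} [Field K] [Field F] [Algebra K F]

/-! ### the map `ψ_O : D ↦ [D - deg(D) O]` -/

theorem S17MH_psi_div (h : RR_Hyp K F) (O : Place K F) (f : F) (hf : f ≠ 0) :
    S17MV_psi h O (RR_div h.principal f) = 0 := by
  have hd : RR_div h.principal f ∈ Divisor.degZero (K := K) (F := F) := by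
    rw [Divisor.mem_degZero, RR_div_degree]
  have := S17MV_proj_of_degZero h O ⟨RR_div h.principal f, hd⟩
  rw [S17MV_psi_apply]
  show Pic0.mk (S17MV_proj h O ((⟨RR_div h.principal f, hd⟩ :
    Divisor.degZero (K := K) (F := F)) : Divisor K F)) = 0
  rw [this]
  exact S17MV_mk_div h f hf hd

theorem S17MH_psi_single (h : RR_Hyp K F) (O : Place K F) (n : ℤ) :
    S17MV_psi h O (Finsupp.single O n) = 0 := by
  rw [S17MV_psi_apply]
  have : S17MV_proj h O (Finsupp.single O n) = 0 := by
    apply Subtype.ext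
    rw [S17MV_proj_coe, Divisor.degree_single, h.deg_one]
    simp
  rw [this]
  rfl

theorem S17MH_psi_mk (h : RR_Hyp K F) (O : Place K F)
    (A : Divisor.degZero (K := K) (F := F)) : S17MV_psi h O (A : Divisor K F) = Pic0.mk A := by
  rw [S17MV_psi_apply, S17MV_proj_of_degZero]

/-- a divisor of degree `0` with trivial class is principal. -/
theorem S17MH_exists_of_psi_eq_zero (h : RR_Hyp K F) (O : Place K F) (A : Divisor K F)
    (hA : A.degree = 0) (hpsi : S17MV_psi h O A = 0) :
    ∃ u : F, u ≠ 0 ∧ A = RR_div h.principal u := by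
  have hmem : A ∈ Divisor.degZero (K := K) (F := F) := Divisor.mem_degZero.2 hA
  have h1 := S17MH_psi_mk h O ⟨A, hmem⟩
  rw [show ((⟨A, hmem⟩ : Divisor.degZero (K := K) (F := F)) : Divisor K F) = A from rfl,
    hpsi] at h1
  have h2 : ((⟨A, hmem⟩ : Divisor.degZero (K := K) (F := F)) : Pic0 K F) = 0 := h1.symm
  rw [QuotientAddGroup.eq_zero_iff, AddSubgroup.mem_addSubgroupOf, Divisor.mem_principal] at h2
  obtain ⟨u, hu, hAu⟩ := h2
  refine ⟨u, hu, ?_⟩
  ext v
  rw [RR_div_apply]
  exact hAu v

theorem S17MH_psi_smul (h : RR_Hyp K F) (O : Place K F) (g : SemilinearAut K F)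
    (hO : g • O = O) (D : Divisor K F) :
    g • S17MV_psi h O D = S17MV_psi h O (g • D) := by
  rw [S17MV_psi_apply, S17MV_psi_apply, SemilinearAut.pic0_smul_mk]
  congr 1
  apply Subtype.ext
  rw [SemilinearAut.coe_degZeroSMulHom, S17MV_proj_coe, S17MV_proj_coe, smul_sub,
    SemilinearAut.degree_smul, smul_comm, SemilinearAut.smul_single, hO]

theorem S17MH_smul_nonneg (g : SemilinearAut K F) {D : Divisor K F} (hD : 0 ≤ D) :
    0 ≤ g • D := by
  rw [Finsupp.le_def]
  intro v
  rw [SemilinearAut.divisor_smul_apply]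
  exact hD _

/-! ### the canonical effective representative `R_x` -/

/-- `dim L(D + P) ≤ dim L(D) + 1`. -/
theorem S17MH_finrank_add_single_le (h : RR_Hyp K F) (D : Divisor K F) (P : Place K F) :
    Module.finrank K (riemannRochSpace (D + Finsupp.single P (1 : ℤ))) ≤
      Module.finrank K (riemannRochSpace D) + 1 := by
  have := RR_finite_add_single P (h.deg_one P) D (RR_finite h D)
  exact this.2


theorem S17MH_div_mul (hP : HasPrincipalDivisors K F) {u f : F} (hu : u ≠ 0) (hf : f ≠ 0) :
    RR_div hP (u * f) = RR_div hP u + RR_div hP f := by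
  ext v
  rw [Finsupp.add_apply, RR_div_apply, RR_div_apply, RR_div_apply, v.ord_mul hu hf]

theorem S17MH_div_algebraMap (hP : HasPrincipalDivisors K F) (c : K) :
    RR_div hP (algebraMap K F c) = 0 := by
  ext v
  rw [RR_div_apply, Fermat.Agent.S24.BL_ord_algebraMap]
  rfl

/-- **the canonical representative**: a `G`-invariant class of `Pic⁰` contains `R - deg(R) O`
for a `G`-invariant effective divisor `R` of degree `≤ g` (`O` a `G`-invariant place). -/
theorem S17MH_exists_Rx (h : RR_Hyp K F) {G : Type*} [Group G] (ρ : G →* SemilinearAut K F)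
    (O : Place K F) (hO : ∀ g, ρ g • O = O) (x : Pic0 K F) (hx : ∀ g, ρ g • x = x) :
    ∃ R : Divisor K F, 0 ≤ R ∧ R.degree ≤ RR_genus K F ∧ (∀ g, ρ g • R = R) ∧
      S17MV_psi h O R = x := by
  classical
  obtain ⟨A, rfl⟩ := Pic0.mk_surjective x
  have hA : (A : Divisor K F).degree = 0 := Divisor.mem_degZero.1 A.2
  have hdegn : ∀ n : ℕ, ((A : Divisor K F) + Finsupp.single O (n : ℤ)).degree = n := by
    intro n
    rw [map_add, hA, Divisor.degree_single, h.deg_one]
    simp
  have hex : ∃ n : ℕ, ∃ f : F, f ≠ 0 ∧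
      f ∈ riemannRochSpace ((A : Divisor K F) + Finsupp.single O (n : ℤ)) := by
    refine ⟨RR_genus K F, ?_⟩
    have h1 := RR_riemann_ineq h ((A : Divisor K F) + Finsupp.single O ((RR_genus K F : ℕ) : ℤ))
    rw [hdegn] at h1
    have hpos : 0 < Module.finrank K (riemannRochSpace
        ((A : Divisor K F) + Finsupp.single O ((RR_genus K F : ℕ) : ℤ))) := by
      have : (0 : ℤ) < Module.finrank K (riemannRochSpace
        ((A : Divisor K F) + Finsupp.single O ((RR_genus K F : ℕ) : ℤ))) := by linarith
      exact_mod_cast this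
    exact RR_exists_ne_zero_of_finrank_pos hpos
  obtain ⟨f, hf0, hf⟩ := Nat.find_spec hex
  have hm_le : Nat.find hex ≤ RR_genus K F := by
    obtain ⟨f', hf'⟩ := hex.choose_spec
    exact Nat.find_min' hex (by
      obtain ⟨n, hn⟩ := hex
      exact (by
        have h1 := RR_riemann_ineq h
          ((A : Divisor K F) + Finsupp.single O ((RR_genus K F : ℕ) : ℤ))
        rw [hdegn] at h1
        have hpos : 0 < Module.finrank K (riemannRochSpace
            ((A : Divisor K F) + Finsupp.single O ((RR_genus K F : ℕ) : ℤ))) := by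
          have : (0 : ℤ) < Module.finrank K (riemannRochSpace
            ((A : Divisor K F) + Finsupp.single O ((RR_genus K F : ℕ) : ℤ))) := by linarith
          exact_mod_cast this
        exact RR_exists_ne_zero_of_finrank_pos hpos))
  set m := Nat.find hex with hm
  set Dm : Divisor K F := (A : Divisor K F) + Finsupp.single O (m : ℤ) with hDm
  have hfin := RR_finite h Dm
  -- `dim L(Dm) ≤ 1`
  have h1 : Module.finrank K (riemannRochSpace Dm) ≤ 1 := by
    rcases Nat.eq_zero_or_pos m with h0 | hpos
    · have h2 := RR_finrank_le_degree_add_one h Dm (by rw [hDm, hdegn]; positivity)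
      rw [hDm, hdegn, h0] at h2
      have : (Module.finrank K (riemannRochSpace
          ((A : Divisor K F) + Finsupp.single O ((0 : ℕ) : ℤ))) : ℤ) ≤ 1 := by simpa using h2
      rw [hDm, h0]
      exact_mod_cast this
    · have hbot : riemannRochSpace ((A : Divisor K F) + Finsupp.single O ((m - 1 : ℕ) : ℤ))
          = ⊥ := by
        rw [eq_bot_iff]
        intro f' hf'
        rw [Submodule.mem_bot]
        by_contra hne
        exact Nat.find_min hex (Nat.sub_lt hpos Nat.one_pos) ⟨f', hne, hf'⟩
      have h2 := S17MH_finrank_add_single_le h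
        ((A : Divisor K F) + Finsupp.single O ((m - 1 : ℕ) : ℤ)) O
      have h3 : (A : Divisor K F) + Finsupp.single O ((m - 1 : ℕ) : ℤ) + Finsupp.single O (1 : ℤ)
          = Dm := by
        rw [hDm, add_assoc, ← Finsupp.single_add]
        congr 2
        omega
      rw [h3, hbot, finrank_bot] at h2
      exact h2
  have hne : (⟨f, hf⟩ : riemannRochSpace Dm) ≠ 0 := fun h0 => hf0 (congrArg Subtype.val h0)
  have hfr : Module.finrank K (riemannRochSpace Dm) = 1 :=
    le_antisymm h1 (Nat.succ_le_of_lt (Module.finrank_pos_iff_exists_ne_zero.2 ⟨_, hne⟩))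
  have hdim : ∀ f' ∈ riemannRochSpace Dm, ∃ c : K, c • f = f' := by
    intro f' hf'
    obtain ⟨c, hc⟩ := (finrank_eq_one_iff_of_nonzero' _ hne).1 hfr ⟨f', hf'⟩
    exact ⟨c, congrArg Subtype.val hc⟩
  -- the divisor `R`
  set R : Divisor K F := Dm + RR_div h.principal f with hR
  have hR0 : 0 ≤ R := (RR_mem_iff_div h.principal hf0).1 hf
  have hRdeg : R.degree = m := by
    rw [hR, map_add, RR_div_degree, add_zero, hDm, hdegn]
  have hpsi : S17MV_psi h O R = Pic0.mk A := by
    rw [hR, hDm, map_add, map_add, S17MH_psi_mk, S17MH_psi_single, S17MH_psi_div h O f hf0,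
      add_zero, add_zero]
  refine ⟨R, hR0, ?_, fun g => ?_, hpsi⟩
  · rw [hRdeg]
    exact_mod_cast hm_le
  · have h2 : S17MV_psi h O (ρ g • R - R) = 0 := by
      rw [map_sub, ← S17MH_psi_smul h O _ (hO g), hpsi, hx g, sub_self]
    obtain ⟨u, hu0, hu⟩ := S17MH_exists_of_psi_eq_zero h O (ρ g • R - R)
      (by rw [map_sub, SemilinearAut.degree_smul, sub_self]) h2
    have huf : u * f ∈ riemannRochSpace Dm := by
      rw [RR_mem_iff_div h.principal (mul_ne_zero hu0 hf0), S17MH_div_mul h.principal hu0 hf0]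
      have : Dm + (RR_div h.principal u + RR_div h.principal f) = ρ g • R := by
        rw [← hu, hR]
        abel
      rw [this]
      exact S17MH_smul_nonneg _ hR0
    obtain ⟨c, hc⟩ := hdim _ huf
    have huc : u = algebraMap K F c := by
      rw [Algebra.smul_def] at hc
      exact (mul_right_cancel₀ hf0 hc).symm
    rw [huc, S17MH_div_algebraMap, sub_eq_zero] at hu
    exact hu

end Fermat.Agent.S17
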