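import Mathlib
import Fermat.Agent.S17.NormFibO

/-!
# TRACK 8 (S17), heights, package NORMFIB part 3 (helper22): the VALUE form

Setting of `S17/NormFib.lean`.  For `a : K` such that the fibre `t = a` is unramified
(`ord_P (t - a) = 1` at every place `P` over `a`):

  `(N φ)(a) = ∏_{P over a} φ(P)`      (`S17NF_eval_norm`).

* `S17NF_ev P hdeg hP : B →+* K` : evaluation at a place `P` with `0 ≤ ord_P t`;
* `S17NF_ev_algebraMap`          : `ev_P (r) = r(a)` for `r ∈ K[t]`, `a = t(P)`;
* `S17NF_card_fibre`             : an unramified fibre has `rank_R B` points;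
* `S17NF_eval_norm`              : the value form.
-/

set_option autoImplicit false
set_option linter.unusedSectionVars false
set_option linter.style.haveILetI false

open AlgebraicCurve IntermediateField IsDedekindDomain Polynomial
open scoped IntermediateField.algebraAdjoinAdjoin

universe u v

namespace Fermat.Agent.S17

open Fermat.Agent.S24 Fermat.Agent.Lib Fermat.Agent.S18

variable {K : Type u} {F : Type v} [Field K] [Field F] [Algebra K F] [CharZero K]
  {t : F} (ht : Transcendental K t) [FiniteDimensional K⟮t⟯ F]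

omit [CharZero K] [FiniteDimensional K⟮t⟯ F] in
include ht in
theorem S17NF_val_le_one (P : Place K F) (hP : 0 ≤ P.ord t)
    (b : integralClosure (Algebra.adjoin K ({t} : Set F)) F) :
    P.adicValuation (b : F) ≤ 1 :=
  P.adicValuation_le_one_of_mem
    (BL_mem_of_isIntegral P ((BG_mem_iff_ord_nonneg P (S17NF_t_ne_zero ht)).mpr hP) b.2)

/-- evaluation at a place `P` of degree one with `0 ≤ ord_P t`. -/
noncomputable def S17NF_ev (P : Place K F) (hdeg : P.deg = 1) (hP : 0 ≤ P.ord t) :
    integralClosure (Algebra.adjoin K ({t} : Set F)) F →+* K where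
  toFun b := FD_c0 P (b : F)
  map_one' := FD_c0_unique P (by simp)
  map_zero' := FD_c0_unique P (by simp)
  map_mul' x y := (FD_c0_mul P hdeg (S17NF_val_le_one ht P hP x) (S17NF_val_le_one ht P hP y)).1
  map_add' x y := (FD_c0_add P hdeg (S17NF_val_le_one ht P hP x) (S17NF_val_le_one ht P hP y)).1

omit [CharZero K] [FiniteDimensional K⟮t⟯ F] in
theorem S17NF_ev_apply (P : Place K F) (hdeg : P.deg = 1) (hP : 0 ≤ P.ord t)
    (b : integralClosure (Algebra.adjoin K ({t} : Set F)) F) :
    S17NF_ev ht P hdeg hP b = FD_c0 P (b : F) := rfl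

omit [CharZero K] [FiniteDimensional K⟮t⟯ F] in
theorem S17NF_ev_const (P : Place K F) (hdeg : P.deg = 1) (hP : 0 ≤ P.ord t) (c : K) :
    S17NF_ev ht P hdeg hP (algebraMap K _ c) = c :=
  FD_c0_unique P (by
    rw [show ((algebraMap K (integralClosure (Algebra.adjoin K ({t} : Set F)) F) c :
      integralClosure (Algebra.adjoin K ({t} : Set F)) F) : F) = algebraMap K F c from rfl]
    simp)

omit [CharZero K] [FiniteDimensional K⟮t⟯ F] in
/-- `ev_P (r) = r(a)` for `r ∈ K[t]`, where `a = t(P)`. -/
theorem S17NF_ev_algebraMap (P : Place K F) (hdeg : P.deg = 1) (hP : 0 ≤ P.ord t) (p : K[X]) :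
    S17NF_ev ht P hdeg hP (algebraMap (Algebra.adjoin K ({t} : Set F)) _ (BL_equiv ht p)) =
      p.eval (FD_c0 P t) := by
  have h : ((S17NF_ev ht P hdeg hP).comp
      ((algebraMap (Algebra.adjoin K ({t} : Set F))
        (integralClosure (Algebra.adjoin K ({t} : Set F)) F)).comp
        (BL_equiv ht).toRingEquiv.toRingHom)) = Polynomial.evalRingHom (FD_c0 P t) := by
    apply Polynomial.ringHom_ext
    · intro c
      have e : (algebraMap (Algebra.adjoin K ({t} : Set F))
          (integralClosure (Algebra.adjoin K ({t} : Set F)) F))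
          ((BL_equiv ht) (C c)) = algebraMap K _ c := by
        apply Subtype.ext
        show ((BL_equiv ht (C c) : Algebra.adjoin K ({t} : Set F)) : F) = algebraMap K F c
        rw [BL_equiv_coe]
        simp
      show S17NF_ev ht P hdeg hP (algebraMap (Algebra.adjoin K ({t} : Set F)) _
        (BL_equiv ht (C c))) = eval (FD_c0 P t) (C c)
      rw [e, S17NF_ev_const, eval_C]
    · show S17NF_ev ht P hdeg hP (algebraMap (Algebra.adjoin K ({t} : Set F)) _
        (BL_equiv ht X)) = eval (FD_c0 P t) X
      rw [S17NF_ev_apply, eval_X]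
      congr 1
      show ((BL_equiv ht X : Algebra.adjoin K ({t} : Set F)) : F) = t
      rw [BL_equiv_coe]
      simp
  exact congrArg (fun f => f p) h

end Fermat.Agent.S17
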