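import Mathlib

/-!
# TRACK 8 (S17), pillar DIV, package ORD (helper24): order at a good point via a derivation

`K` a field of characteristic `0`, `Φ, h ∈ K[X, Y] = MvPolynomial (Fin 2) K`,
`D h := h_X Φ_Y − h_Y Φ_X` (`= Φ_Y · dh/dx` on the curve `Φ = 0`).

If `ξ, η ∈ K⟦T⟧` satisfy `Φ(ξ, η) = 0`, `Φ_Y(ξ(0), η(0)) ≠ 0` and `ξ'(0) ≠ 0`
(a local parametrisation of the curve at the good point `(a, b) = (ξ(0), η(0))`), then

  `T ^ n ∣ h(ξ, η)  ↔  ∀ j < n, (D^j h)(a, b) = 0`        (`S17OR_dvd_iff`).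

Mathlib only.
-/

set_option autoImplicit false

open MvPolynomial PowerSeries

namespace Fermat.Agent.S17

variable {K : Type*} [Field K]

/-- the derivation `D h = h_X Φ_Y − h_Y Φ_X` of `K[X, Y]` (tangent to the curve `Φ = 0`). -/
noncomputable def S17OR_D (Φ : MvPolynomial (Fin 2) K) :
    MvPolynomial (Fin 2) K →ₗ[K] MvPolynomial (Fin 2) K :=
  (LinearMap.mulRight K (pderiv 1 Φ)).comp (pderiv (R := K) (0 : Fin 2)).toLinearMap -
    (LinearMap.mulRight K (pderiv 0 Φ)).comp (pderiv (R := K) (1 : Fin 2)).toLinearMap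

theorem S17OR_D_apply (Φ h : MvPolynomial (Fin 2) K) :
    S17OR_D Φ h = pderiv 0 h * pderiv 1 Φ - pderiv 1 h * pderiv 0 Φ := rfl

/-- the evaluation `h ↦ h(ξ, η)`. -/
noncomputable abbrev S17OR_ev {A : Type*} [CommRing A] [Algebra K A] (ξ η : A) :
    MvPolynomial (Fin 2) K →ₐ[K] A := aeval ![ξ, η]

/-- chain rule for `h(ξ, η)`. -/
theorem S17OR_chain (p : MvPolynomial (Fin 2) K) (ξ η : K⟦X⟧) :
    d⁄dX K (S17OR_ev ξ η p) =
      S17OR_ev ξ η (pderiv 0 p) * d⁄dX K ξ + S17OR_ev ξ η (pderiv 1 p) * d⁄dX K η := by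
  induction p using MvPolynomial.induction_on with
  | C a =>
    simp [S17OR_ev]
  | add p q hp hq =>
    simp only [map_add, hp, hq]
    ring
  | mul_X p i hp =>
    simp only [map_mul, Derivation.leibniz, hp, smul_eq_mul, aeval_X, pderiv_X]
    fin_cases i
    · simp
      ring
    · simp
      ring

/-- `constantCoeff (h(ξ, η)) = h(ξ(0), η(0))`. -/
theorem S17OR_constantCoeff_ev (p : MvPolynomial (Fin 2) K) (ξ η : K⟦X⟧) :
    constantCoeff (S17OR_ev ξ η p) =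
      MvPolynomial.eval ![constantCoeff ξ, constantCoeff η] p := by
  induction p using MvPolynomial.induction_on with
  | C a => simp [S17OR_ev]
  | add p q hp hq => simp only [map_add, hp, hq]
  | mul_X p i hp =>
    simp only [map_mul, hp, aeval_X, eval_X]
    fin_cases i <;> simp

/-- in characteristic `0`: `T^(n+1) ∣ g ↔ g(0) = 0 ∧ T^n ∣ g'`. -/
theorem S17OR_X_pow_succ_dvd_iff [CharZero K] (g : K⟦X⟧) (n : ℕ) :
    (X : K⟦X⟧) ^ (n + 1) ∣ g ↔ constantCoeff g = 0 ∧ (X : K⟦X⟧) ^ n ∣ d⁄dX K g := by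
  rw [X_pow_dvd_iff, X_pow_dvd_iff]
  constructor
  · intro h
    refine ⟨by simpa using h 0 (Nat.succ_pos n), fun m hm => ?_⟩
    rw [coeff_derivative, h (m + 1) (by omega), zero_mul]
  · rintro ⟨h0, h⟩ m hm
    rcases m with _ | m
    · simpa using h0
    · have := h m (by omega)
      rw [coeff_derivative] at this
      rcases mul_eq_zero.1 this with h1 | h1
      · exact h1
      · exfalso
        have h2 : ((m + 1 : ℕ) : K) = 0 := by exact_mod_cast h1
        exact absurd (Nat.cast_eq_zero.1 h2) (Nat.succ_ne_zero m)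

/-- a power series with nonzero constant coefficient does not change divisibility by `T^n`. -/
theorem S17OR_X_pow_dvd_mul_iff (u g : K⟦X⟧) (hu : constantCoeff u ≠ 0) (n : ℕ) :
    (X : K⟦X⟧) ^ n ∣ u * g ↔ (X : K⟦X⟧) ^ n ∣ g := by
  have hunit : IsUnit u := by
    rw [PowerSeries.isUnit_iff_constantCoeff]
    exact isUnit_iff_ne_zero.2 hu
  exact hunit.dvd_mul_left

section main

variable [CharZero K] (Φ : MvPolynomial (Fin 2) K) (ξ η : K⟦X⟧)

omit [CharZero K] in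
/-- the key identity `Φ_Y(ξ,η) · d/dT h(ξ,η) = ξ' · (D h)(ξ,η)` on the curve `Φ(ξ,η) = 0`. -/
theorem S17OR_key (hΦ : S17OR_ev ξ η Φ = 0) (h : MvPolynomial (Fin 2) K) :
    S17OR_ev ξ η (pderiv 1 Φ) * d⁄dX K (S17OR_ev ξ η h) =
      d⁄dX K ξ * S17OR_ev ξ η (S17OR_D Φ h) := by
  have h1 := S17OR_chain Φ ξ η
  rw [hΦ, map_zero] at h1
  rw [S17OR_chain h ξ η, S17OR_D_apply, map_sub, map_mul, map_mul]
  linear_combination (- S17OR_ev ξ η (pderiv 1 h)) * h1

/-- **ORD, power series form**: for a local parametrisation `(ξ, η)` of the curve `Φ = 0` at a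
good point (`Φ_Y ≠ 0`, `ξ'(0) ≠ 0`), `T^n ∣ h(ξ, η)` iff `(D^j h)(ξ(0), η(0)) = 0` for all
`j < n`. -/
theorem S17OR_dvd_iff (hΦ : S17OR_ev ξ η Φ = 0)
    (hY : MvPolynomial.eval ![constantCoeff ξ, constantCoeff η] (pderiv 1 Φ) ≠ 0)
    (hξ : coeff 1 ξ ≠ 0) (n : ℕ) (h : MvPolynomial (Fin 2) K) :
    (X : K⟦X⟧) ^ n ∣ S17OR_ev ξ η h ↔
      ∀ j < n, MvPolynomial.eval ![constantCoeff ξ, constantCoeff η]
        ((S17OR_D Φ)^[j] h) = 0 := by
  induction n generalizing h with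
  | zero => simp
  | succ n ih =>
    have hu1 : constantCoeff (S17OR_ev ξ η (pderiv 1 Φ)) ≠ 0 := by
      rwa [S17OR_constantCoeff_ev]
    have hu2 : constantCoeff (d⁄dX K ξ) ≠ 0 := by
      rw [← coeff_zero_eq_constantCoeff_apply, coeff_derivative]
      simpa using hξ
    rw [S17OR_X_pow_succ_dvd_iff, ← S17OR_X_pow_dvd_mul_iff _ _ hu1, S17OR_key Φ ξ η hΦ,
      S17OR_X_pow_dvd_mul_iff _ _ hu2, ih, S17OR_constantCoeff_ev]
    constructor
    · rintro ⟨h0, hj⟩ j hjn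
      rcases j with _ | j
      · simpa using h0
      · rw [Function.iterate_succ_apply]
        exact hj j (by omega)
    · intro hj
      refine ⟨by simpa using hj 0 (Nat.succ_pos n), fun j hjn => ?_⟩
      have := hj (j + 1) (by omega)
      rwa [Function.iterate_succ_apply] at this

/-- `h(ξ, η) = 0` iff all `(D^j h)(ξ(0), η(0))` vanish. -/
theorem S17OR_eq_zero_iff (hΦ : S17OR_ev ξ η Φ = 0)
    (hY : MvPolynomial.eval ![constantCoeff ξ, constantCoeff η] (pderiv 1 Φ) ≠ 0)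
    (hξ : coeff 1 ξ ≠ 0) (h : MvPolynomial (Fin 2) K) :
    S17OR_ev ξ η h = 0 ↔
      ∀ j, MvPolynomial.eval ![constantCoeff ξ, constantCoeff η] ((S17OR_D Φ)^[j] h) = 0 := by
  constructor
  · intro h0 j
    refine (S17OR_dvd_iff Φ ξ η hΦ hY hξ (j + 1) h).1 ?_ j (Nat.lt_succ_self j)
    rw [h0]
    exact dvd_zero _
  · intro hj
    ext m
    have := (S17OR_dvd_iff Φ ξ η hΦ hY hξ (m + 1) h).2 (fun j _ => hj j)
    rw [X_pow_dvd_iff] at this
    simpa using this m (Nat.lt_succ_self m)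

end main

/-- linearity of the iterates of `D` (for the system: `D^j (∑ c_k A_k) = ∑ c_k D^j A_k`). -/
theorem S17OR_iter_sum (Φ : MvPolynomial (Fin 2) K) {ι : Type*} (s : Finset ι) (c : ι → K)
    (A : ι → MvPolynomial (Fin 2) K) (j : ℕ) :
    (S17OR_D Φ)^[j] (∑ k ∈ s, c k • A k) = ∑ k ∈ s, c k • (S17OR_D Φ)^[j] (A k) := by
  have : ∀ p, (S17OR_D Φ)^[j] p = ((S17OR_D Φ) ^ j) p := fun p => by
    rw [Module.End.pow_apply]
  rw [this, map_sum]
  refine Finset.sum_congr rfl fun k _ => ?_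
  rw [map_smul, this]

end Fermat.Agent.S17
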