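import Fermat.Agent.S17.HtDefs
import Fermat.Agent.S17.AbsAPI
import Fermat.Agent.S17.CertM

/-!
# TRACK 8 (S17), heights pillar, package TAN, abstract part (helper3)

`S17TA_main`: the statement `S17H_StmtTAN X g TanC` of `S17/HtDefs.lean` from a *reciprocity datum*:

* a finite family `T a` (`a : α`) of skew forms, i.e. of vectors `ι × ι → Ω`;
* forms `G a : MvPolynomial ι Ω`, homogeneous of degree `m = 2k + 2g − 2`, without common zero;
* for every zero cycle `v` of `c` (`S17H_Fact X.chow c v`), reduced, with tangent vectors `v' i`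
  singled out by `TanC`, a scalar `ρ ≠ 0` with
  `∏ i, ⟨T a, v i ∧ v' i⟩ = ρ · G a (c)` for all `a`.

Proof.  `m · h(c) − C₁ ≤ h((G a (c))_a)` (height machine, Nullstellensatz certificate `S17C_cert`),
`h((G a (c))_a) = h((∏ i, ⟨T a, w i⟩)_a) ≤ ∑ i, h((⟨T a, w i⟩)_a)` (`S17C_h_prod_le`) and
`h((⟨T a, w⟩)_a) ≤ h(w) + C_T` (`S17AH_linearMap_le`), with `w i = v i ∧ v' i`.
-/

set_option autoImplicit false

open MvPolynomial

namespace Fermat.Agent.S17

section abs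

variable {Ω : Type} [Field Ω] [CharZero Ω] [Algebra.IsAlgebraic ℚ Ω] [IsAlgClosed Ω]
  {ι : Type} [Fintype ι]

/-- the core of (TAN-abs): `n` vectors `w i`, a finite family `T a` of linear forms, forms `G a` of
degree `m` without common zero: `∏ i, ⟨T a, w i⟩ = ρ · G a (c)` for all `a` (with `ρ ≠ 0`) implies
`m · h(c) ≤ ∑ i, h(w i) + C`, the constant depending on `T`, `G`, `n` only. -/
theorem S17TA_core {π α : Type} [Fintype π] [Fintype α] (n m : ℕ) (T : α → π → Ω)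
    (G : α → MvPolynomial ι Ω) (hG : ∀ a, (G a).IsHomogeneous m)
    (hncz : ∀ c : ι → Ω, c ≠ 0 → ∃ a, eval c (G a) ≠ 0) :
    ∃ C : ℝ, ∀ (c : ι → Ω) (w : Fin n → π → Ω) (ρ : Ω), ρ ≠ 0 →
      (∀ a, ∏ i, (∑ p, T a p * w i p) = ρ * eval c (G a)) →
      (m : ℝ) * S17AH_h c ≤ ∑ i, S17AH_h (w i) + C := by
  classical
  have hncz' : ∀ x : ι → Ω, x ≠ 0 →
      (∀ f ∈ (⊥ : Ideal (MvPolynomial ι Ω)), aeval x f = 0) → ∃ a, aeval x (G a) ≠ 0 := by
    intro x hx _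
    obtain ⟨a, ha⟩ := hncz x hx
    exact ⟨a, by rwa [aeval_eq_eval]⟩
  obtain ⟨M, Q, hQ, hcert⟩ := S17C_cert (k := Ω) (K := Ω) m G hG ⊥
    (by
      intro f hf d
      rw [Ideal.mem_bot] at hf ⊢
      rw [hf, map_zero]) hncz'
  obtain ⟨C₁, hC₁⟩ := S17AH_eval_ge' (N := m) hQ
  refine ⟨n * (Real.log (Nat.card π) + S17AH_h (fun a : α × π => T a.1 a.2)) - C₁, ?_⟩
  intro c w ρ hρ hrec
  have h1 := hC₁ G c (fun i => S17C_eval_of_cert hcert c (by
    intro f hf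
    rw [Ideal.mem_bot] at hf
    rw [hf, map_zero]) i)
  -- the product vector
  have h2 : (fun a => eval c (G a)) = ρ⁻¹ • ∏ i, (fun a => ∑ p, T a p * w i p) := by
    funext a
    rw [Pi.smul_apply, Finset.prod_apply, hrec a, smul_eq_mul, ← mul_assoc, inv_mul_cancel₀ hρ,
      one_mul]
  have h3 : S17AH_h (fun a => eval c (G a)) =
      S17AH_h (∏ i, (fun a => ∑ p, T a p * w i p)) := by
    rw [h2]
    exact S17AH_h_smul _ (inv_ne_zero hρ)
  have h4 : S17AH_h (∏ i, (fun a => ∑ p, T a p * w i p)) ≤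
      ∑ i, S17AH_h (fun a => ∑ p, T a p * w i p) :=
    S17C_h_prod_le (S17AH_api Ω) Finset.univ (fun i : Fin n => fun a => ∑ p, T a p * w i p)
  have h5 : ∀ i, S17AH_h (fun a => ∑ p, T a p * w i p) ≤
      Real.log (Nat.card π) + S17AH_h (fun a : α × π => T a.1 a.2) + S17AH_h (w i) := fun i =>
    S17AH_linearMap_le (fun a : α × π => T a.1 a.2) (w i)
  have h6 : ∑ i, S17AH_h (fun a => ∑ p, T a p * w i p) ≤
      ∑ i : Fin n, (Real.log (Nat.card π) + S17AH_h (fun a : α × π => T a.1 a.2)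
        + S17AH_h (w i)) := Finset.sum_le_sum fun i _ => h5 i
  rw [Finset.sum_add_distrib, Finset.sum_const, Finset.card_univ, Fintype.card_fin,
    nsmul_eq_mul] at h6
  rw [h3] at h1
  linarith

variable {k : ℕ}

/-- **(TAN), abstract form**: the contract `S17H_StmtTAN X g TanC` from a reciprocity datum
`(T, G)`. -/
theorem S17TA_main (X : S17H_Curve Ω ι k) (g : ℕ) (TanC : (ι → Ω) → (ι → Ω) → Prop)
    {α : Type} [Fintype α] (T : α → ι × ι → Ω) (G : α → MvPolynomial ι Ω) (m : ℕ)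
    (hm : (m : ℝ) = 2 * (k : ℝ) + 2 * g - 2)
    (hG : ∀ a, (G a).IsHomogeneous m)
    (hncz : ∀ c : ι → Ω, c ≠ 0 → ∃ a, eval c (G a) ≠ 0)
    (hrecip : ∀ (c : ι → Ω) (v v' : Fin k → ι → Ω), S17H_Fact X.chow c v →
      (∀ i, TanC (v i) (v' i)) → (∀ i j, i ≠ j → S17H_wedge (v i) (v j) ≠ 0) →
      ∃ ρ : Ω, ρ ≠ 0 ∧
        ∀ a, ∏ i, (∑ p, T a p * S17H_wedge (v i) (v' i) p) = ρ * eval c (G a)) :
    S17H_StmtTAN X g TanC := by
  obtain ⟨C, hC⟩ := S17TA_core (π := ι × ι) k m T G hG hncz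
  refine ⟨C, fun c v v' hF hT hred => ?_⟩
  obtain ⟨ρ, hρ, hrec⟩ := hrecip c v v' hF hT hred
  have h := hC c (fun i => S17H_wedge (v i) (v' i)) ρ hρ hrec
  rw [hm] at h
  exact h

end abs

end Fermat.Agent.S17
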