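import Fermat.Agent.S17.Chow

/-!
# TRACK 8 (S17), heights pillar, TAN-curve, piece T6 (helper3): the forms `G_a`

`S17T6_G ev κ Z := C κ * ∏_{R ∈ supp Z} ⟨ev R, X⟩ ^ Z R` for an effective divisor `Z : Pl →₀ ℕ`:
homogeneous of degree `deg Z = Z.sum fun _ n => n` (`S17T6_G_isHomogeneous`), with
`eval c G = κ * ∏_R ⟨c, ev R⟩ ^ Z R` (`S17T6_G_eval`).
-/

set_option autoImplicit false

open MvPolynomial

namespace Fermat.Agent.S17

variable {K : Type*} [CommRing K] {ι : Type*} [Fintype ι] {Pl : Type*}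

/-- the form `κ · ∏_R ⟨ev R, X⟩ ^ Z R`. -/
noncomputable def S17T6_G (ev : Pl → ι → K) (κ : K) (Z : Pl →₀ ℕ) : MvPolynomial ι K :=
  C κ * Z.prod fun R n => S17CH_lin (ev R) ^ n

theorem S17T6_G_isHomogeneous (ev : Pl → ι → K) (κ : K) (Z : Pl →₀ ℕ) :
    (S17T6_G ev κ Z).IsHomogeneous (Z.sum fun _ n => n) := by
  unfold S17T6_G
  have h1 : (Z.prod fun R n => S17CH_lin (ev R) ^ n).IsHomogeneous (Z.sum fun _ n => n) := by
    unfold Finsupp.prod Finsupp.sum
    refine IsHomogeneous.prod _ _ _ fun R _ => ?_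
    have := (S17CH_lin_isHomogeneous (ev R)).pow (Z R)
    simpa using this
  have h2 := (isHomogeneous_C ι κ).mul h1
  simpa using h2

theorem S17T6_G_eval (ev : Pl → ι → K) (κ : K) (Z : Pl →₀ ℕ) (c : ι → K) :
    eval c (S17T6_G ev κ Z) = κ * Z.prod fun R n => (∑ j, c j * ev R j) ^ n := by
  unfold S17T6_G
  rw [map_mul, eval_C]
  congr 1
  unfold Finsupp.prod
  rw [map_prod]
  refine Finset.prod_congr rfl fun R _ => ?_
  rw [map_pow, S17CH_eval_lin]

end Fermat.Agent.S17
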