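import Fermat.Agent.S17.TanAbs
import Fermat.Agent.S17.TanG
import Fermat.Agent.S17.TanDer

/-!
# TRACK 8 (S17), heights pillar, TAN-curve, piece T6 (helper3): the assembly, core form

`S17T6_core`: the model fields `B`, `tan`, `tan_ok`, `tanS` from the outputs of the pieces
T1 (DER, `S17/TanDer.lean`), T2 (W2), T3 (REC = FIB + lc + NORMFIB), T4 (GEN), T5 (DEG), DICT-CONV
and the no-common-zero statement, all taken as hypotheses in their exact output shapes.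

Notation: `t = e il`, `δ = d/dt`, `s_T = Σ_p T_p (e_i δ e_j − e_j δ e_i)` (`S17TN_s`),
`w_a = w₂ · s_{T a}` (regular off `O`), `E₂ = Σ_{R ≠ O} (ord_R w₂ − W R)·R`,
`Z a = Σ_{R ≠ O} (ord_R w_a − E₂ R)·R`, `G a = κ a · ∏_R ⟨ev R, X⟩ ^ Z a R` (`S17T6_G`).

Reciprocity (`hrec`) gives, for a hyperplane `c` with simple zeros `Q i ∉ B`,
`c_il^(μk) · ∏_i w_a(Q i) = κ a · ∏_R ⟨c, ev R⟩ ^ ord_R w_a`, hence
`∏_i ⟨T a, ev (Q i) ∧ tan (Q i)⟩ = ρ · G a (c)` with
`ρ = ∏_R ⟨c, ev R⟩ ^ E₂ R / (c_il^(μk) · ∏_i w₂(Q i))` independent of `a`, and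
`S17TA_main` applies.
-/

set_option autoImplicit false

open MvPolynomial AlgebraicCurve WithZero

namespace Fermat.Agent.S17

open Fermat.Agent.Lib

section core

variable {K F : Type} [Field K] [Field F] [Algebra K F] {ι : Type} [Fintype ι]

/-- evaluation at a place of degree one is `K`-linear on functions regular at the place. -/
theorem S17T6_c0_sum (P : Place K F) (hdeg : P.deg = 1) (e : ι → F)
    (he : ∀ j, P.adicValuation (e j) ≤ 1) (c : ι → K) :
    P.adicValuation (∑ j, c j • e j) ≤ 1 ∧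
      FD_c0 P (∑ j, c j • e j) = ∑ j, c j * FD_c0 P (e j) := by
  classical
  have key : ∀ s : Finset ι, P.adicValuation (∑ j ∈ s, c j • e j) ≤ 1 ∧
      FD_c0 P (∑ j ∈ s, c j • e j) = ∑ j ∈ s, c j * FD_c0 P (e j) := by
    intro s
    induction s using Finset.induction_on with
    | empty =>
      refine ⟨by simp, ?_⟩
      rw [Finset.sum_empty, Finset.sum_empty]
      exact S17TN_c0_zero P
    | insert a s ha ih =>
      have h1 : P.adicValuation (c a • e a) ≤ 1 := by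
        rw [Algebra.smul_def, map_mul]
        exact mul_le_one' (P.adicValuation_algebraMap_le_one _) (he a)
      rw [Finset.sum_insert ha, Finset.sum_insert ha]
      refine ⟨(Valuation.map_add _ _ _).trans (max_le h1 ih.1), ?_⟩
      rw [(FD_c0_add P hdeg h1 ih.1).1, (FD_c0_smul P hdeg (c a) (he a)).1, ih.2]
  exact key Finset.univ

/-- a product over a finite set of powers with exponents given by a finitely supported function
supported in the set. -/
theorem S17T6_prod_finsupp {Pl : Type} (S : Finset Pl) (Z : Pl →₀ ℕ) (hZ : Z.support ⊆ S)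
    (x : Pl → K) : ∏ P ∈ S, x P ^ Z P = Z.prod fun P n => x P ^ n := by
  classical
  unfold Finsupp.prod
  refine (Finset.prod_subset hZ fun P _ hP => ?_).symm
  rw [Finsupp.notMem_support_iff.1 hP, pow_zero]

end core

section main

variable {K F : Type} [Field K] [Field F] [Algebra K F] [IsAlgClosed K] [CharZero K]
  [Algebra.IsAlgebraic ℚ K] {ι : Type} [Fintype ι]

/-- **T6, core form**: the model fields `B`, `tan_ok`, `tanS` (with `tan = S17TN_tan δ e`) from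
the outputs of the pieces T1–T5, REC, NCZ and DICT-CONV. -/
theorem S17T6_core (h : RR_Hyp K F) (O : Place K F) (k : ℕ) (hk : 1 ≤ k)
    (e : ι → F) (i0 il : ι) (he0 : e i0 = 1)
    (hereg : ∀ j, ∀ P : Place K F, P ≠ O → P.adicValuation (e j) ≤ 1)
    (X : S17H_Curve K ι k) (hXI : X.I = S17NGZ_I (K := K) e)
    (δ : Derivation K F F) (hδl : δ (e il) = 1)
    (W : Place K F → ℤ) (hW0 : ∀ R, R ≠ O → 0 ≤ W R)
    (w₂ : F) (hw₂ : w₂ ≠ 0)
    (μ : ℕ) (T : Fin (k + 1) → ι × ι → K)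
    (E₂ : Place K F →₀ ℕ) (hE₂O : E₂ O = 0)
    (hE₂ : ∀ v : Place K F, v ≠ O → (E₂ v : ℤ) = v.ord w₂ - W v)
    (Z : Fin (k + 1) → Place K F →₀ ℕ) (hZO : ∀ a, Z a O = 0)
    (hZ : ∀ a (v : Place K F), v ≠ O →
      (Z a v : ℤ) = v.ord (w₂ * S17TN_s δ e (T a)) - E₂ v)
    (hZdeg : ∀ a, ((Z a).sum fun _ n => n) = 2 * k + 2 * RR_genus K F - 2)
    (κ : Fin (k + 1) → K)
    (hrec : ∀ a, ∃ S : Finset (Place K F),
      (∀ P, P ∈ S ↔ P ≠ O ∧ 0 < P.ord (w₂ * S17TN_s δ e (T a))) ∧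
      ∀ (c : ι → K) (Q : Fin k → Place K F), c il ≠ 0 → Function.Injective Q →
        (∀ P : Place K F, 0 < P.ord (∑ j, c j • e j) ↔ ∃ i, P = Q i) →
        (c il) ^ (μ * k) * ∏ i, FD_c0 (Q i) (w₂ * S17TN_s δ e (T a))
          = κ a * ∏ P ∈ S, (∑ j, c j * FD_c0 P (e j)) ^
              (P.ord (w₂ * S17TN_s δ e (T a))).toNat)
    (hncz : ∀ c : ι → K, c ≠ 0 →
      ∃ a, eval c (S17T6_G (S17NGL_ev O e il) (κ a) (Z a)) ≠ 0)
    (hdict : ∀ (c : ι → K) (Q : Fin k → Place K F),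
      S17H_Fact X.chow c (fun i => S17NGL_ev O e il (Q i)) → (∀ i, Q i ≠ O) →
      (∀ i j, i ≠ j →
        S17H_wedge (S17NGL_ev O e il (Q i)) (S17NGL_ev O e il (Q j)) ≠ 0) →
      c il ≠ 0 ∧ Function.Injective Q ∧
        ∀ P : Place K F, 0 < P.ord (∑ j, c j • e j) ↔ ∃ i, P = Q i) :
    ∃ B : Finset (Place K F), O ∈ B ∧
      (∀ Q, Q ∉ B → S17H_Tan X.I (S17NGL_ev O e il Q) (S17TN_tan δ e Q) ∧
        S17H_wedge (S17NGL_ev O e il Q) (S17TN_tan δ e Q) ≠ 0) ∧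
      S17H_StmtTAN X (RR_genus K F)
        (fun x x' => ∃ Q, Q ∉ B ∧ x = S17NGL_ev O e il Q ∧ x' = S17TN_tan δ e Q) := by
  classical
  obtain ⟨B₁, hOB₁, hB₁, hB₁ok⟩ := S17TN_tan_ok h O δ e i0 il he0 hδl hereg
  refine ⟨B₁ ∪ (RR_div h.principal w₂).support, Finset.mem_union_left _ hOB₁, ?_, ?_⟩
  · intro Q hQ
    rw [Finset.mem_union, not_or] at hQ
    rw [hXI]
    exact hB₁ok Q hQ.1
  -- the statement (TAN)
  have hm : ((2 * k + 2 * RR_genus K F - 2 : ℕ) : ℝ) = 2 * (k : ℝ) + 2 * (RR_genus K F : ℕ) - 2 := by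
    have : 2 ≤ 2 * k + 2 * RR_genus K F := by omega
    rw [Nat.cast_sub this]
    push_cast
    ring
  refine S17TA_main X (RR_genus K F) _ T
    (fun a => S17T6_G (S17NGL_ev O e il) (κ a) (Z a)) (2 * k + 2 * RR_genus K F - 2) hm
    (fun a => by
      have := S17T6_G_isHomogeneous (S17NGL_ev O e il) (κ a) (Z a)
      rwa [hZdeg a] at this) hncz ?_
  intro c v v' hF hT hred
  choose Q hQB hv hv' using hT
  have hveq : v = fun i => S17NGL_ev O e il (Q i) := funext hv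
  have hv'eq : v' = fun i => S17TN_tan δ e (Q i) := funext hv'
  subst hveq
  subst hv'eq
  have hQ1 : ∀ i, Q i ∉ B₁ := fun i hi => hQB i (Finset.mem_union_left _ hi)
  have hQ2 : ∀ i, (Q i).ord w₂ = 0 := fun i => by
    by_contra hne
    apply hQB i
    refine Finset.mem_union_right _ ?_
    rw [Finsupp.mem_support_iff, RR_div_apply]
    exact hne
  have hQO : ∀ i, Q i ≠ O := fun i hi => hQ1 i (hi ▸ hOB₁)
  obtain ⟨hcil, hQinj, hzero⟩ := hdict c Q hF hQO hred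
  -- the values `x P = ⟨c, ev P⟩ = t_c (P)`
  set x : Place K F → K := fun P => ∑ j, c j * FD_c0 P (e j) with hx
  have hxP : ∀ P : Place K F, P ≠ O → x P = 0 → ∃ i, P = Q i := by
    intro P hP hxP0
    have h1 := S17T6_c0_sum P (h.deg_one P) e (fun j => hereg j P hP) c
    rw [← hzero]
    have h2 : FD_c0 P (∑ j, c j • e j) = 0 := by rw [h1.2]; exact hxP0
    have h3 := (FD_c0_eq_zero_iff P (h.deg_one P) h1.1).1 h2
    by_contra hle
    have h4 : (∑ j, c j • e j) ≠ 0 := by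
      intro h0
      have := (hzero (Q ⟨0, hk⟩)).2 ⟨⟨0, hk⟩, rfl⟩
      rw [h0, Place.ord_zero] at this
      exact lt_irrefl _ this
    rw [P.adicValuation_eq_exp_neg_ord h4, ← exp_zero, exp_lt_exp] at h3
    omega
  -- `∏_R x_R ^ E₂ R ≠ 0`
  have hE₂supp : ∀ P ∈ E₂.support, P ≠ O ∧ P.ord w₂ ≠ 0 := by
    intro P hP
    rw [Finsupp.mem_support_iff] at hP
    have hPO : P ≠ O := fun h0 => hP (h0 ▸ hE₂O)
    refine ⟨hPO, ?_⟩
    have h1 := hE₂ P hPO
    have h2 := hW0 P hPO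
    have h3 : 0 < E₂ P := Nat.pos_of_ne_zero hP
    omega
  have hE₂prod : (E₂.prod fun P n => x P ^ n) ≠ 0 := by
    unfold Finsupp.prod
    rw [Finset.prod_ne_zero_iff]
    intro P hP
    apply pow_ne_zero
    intro hx0
    obtain ⟨hPO, hPw⟩ := hE₂supp P hP
    obtain ⟨i, rfl⟩ := hxP P hPO hx0
    exact hPw (hQ2 i)
  -- `∏_i w₂ (Q i) ≠ 0`
  have hw₂val : ∀ i, (Q i).adicValuation w₂ ≤ 1 := fun i => by
    rw [Place.adicValuation_le_one_iff]
    right
    rw [hQ2 i]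
  have hw₂Q : ∀ i, FD_c0 (Q i) w₂ ≠ 0 := fun i => by
    intro h0
    have h3 := (FD_c0_eq_zero_iff (Q i) (h.deg_one _) (hw₂val i)).1 h0
    rw [(Q i).adicValuation_eq_exp_neg_ord hw₂, hQ2 i, neg_zero, exp_zero] at h3
    exact lt_irrefl _ h3
  have hA : (c il) ^ (μ * k) * ∏ i, FD_c0 (Q i) w₂ ≠ 0 :=
    mul_ne_zero (pow_ne_zero _ hcil) (Finset.prod_ne_zero_iff.2 fun i _ => hw₂Q i)
  refine ⟨(E₂.prod fun P n => x P ^ n) * ((c il) ^ (μ * k) * ∏ i, FD_c0 (Q i) w₂)⁻¹,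
    mul_ne_zero hE₂prod (inv_ne_zero hA), fun a => ?_⟩
  obtain ⟨S, hS, hSrec⟩ := hrec a
  have hrec' := hSrec c Q hcil hQinj hzero
  -- the left side
  have hsQ : ∀ i, (Q i).adicValuation (S17TN_s δ e (T a)) ≤ 1 ∧
      FD_c0 (Q i) (S17TN_s δ e (T a)) =
        ∑ p : ι × ι, T a p * S17H_wedge (S17NGL_ev O e il (Q i)) (S17TN_tan δ e (Q i)) p :=
    fun i => by
      have := S17TN_c0_s δ e (Q i) (h.deg_one _) (fun j => hereg j (Q i) (hQO i))
        (hB₁ (Q i) (hQ1 i)) (T a)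
      rwa [← S17NGL_ev_of_ne O e il (hQO i)] at this
  have hL : ∏ i, FD_c0 (Q i) (w₂ * S17TN_s δ e (T a)) =
      (∏ i, FD_c0 (Q i) w₂) *
        ∏ i, ∑ p : ι × ι, T a p *
          S17H_wedge (S17NGL_ev O e il (Q i)) (S17TN_tan δ e (Q i)) p := by
    rw [← Finset.prod_mul_distrib]
    refine Finset.prod_congr rfl fun i _ => ?_
    rw [(FD_c0_mul (Q i) (h.deg_one _) (hw₂val i) (hsQ i).1).1, (hsQ i).2]
  -- the right side
  have hexp : ∀ P ∈ S, (P.ord (w₂ * S17TN_s δ e (T a))).toNat = E₂ P + Z a P := by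
    intro P hP
    have hPO := ((hS P).1 hP).1
    have h1 := hZ a P hPO
    omega
  have hE₂S : E₂.support ⊆ S := by
    intro P hP
    obtain ⟨hPO, -⟩ := hE₂supp P hP
    rw [Finsupp.mem_support_iff] at hP
    have h1 := hZ a P hPO
    have h3 : 0 < E₂ P := Nat.pos_of_ne_zero hP
    exact (hS P).2 ⟨hPO, by omega⟩
  have hZS : (Z a).support ⊆ S := by
    intro P hP
    rw [Finsupp.mem_support_iff] at hP
    have hPO : P ≠ O := fun h0 => hP (h0 ▸ hZO a)
    have h1 := hZ a P hPO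
    have h3 : 0 < Z a P := Nat.pos_of_ne_zero hP
    exact (hS P).2 ⟨hPO, by omega⟩
  have hR : ∏ P ∈ S, x P ^ (P.ord (w₂ * S17TN_s δ e (T a))).toNat =
      (E₂.prod fun P n => x P ^ n) * ((Z a).prod fun P n => x P ^ n) := by
    rw [← S17T6_prod_finsupp S E₂ hE₂S x, ← S17T6_prod_finsupp S (Z a) hZS x,
      ← Finset.prod_mul_distrib]
    refine Finset.prod_congr rfl fun P hP => ?_
    rw [hexp P hP, pow_add]
  have hG : eval c (S17T6_G (S17NGL_ev O e il) (κ a) (Z a)) =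
      κ a * ((Z a).prod fun P n => x P ^ n) := by
    rw [S17T6_G_eval]
    congr 1
    unfold Finsupp.prod
    refine Finset.prod_congr rfl fun P hP => ?_
    rw [Finsupp.mem_support_iff] at hP
    have hPO : P ≠ O := fun h0 => hP (h0 ▸ hZO a)
    show (∑ j, c j * S17NGL_ev O e il P j) ^ (Z a P) = x P ^ (Z a P)
    rw [S17NGL_ev_of_ne O e il hPO]
    rfl
  rw [hL, hR] at hrec'
  rw [hG]
  apply mul_left_cancel₀ hA
  have hAA := mul_inv_cancel₀ hA
  linear_combination hrec' -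
    ((E₂.prod fun P n => x P ^ n) * κ a * ((Z a).prod fun P n => x P ^ n)) * hAA

end main

end Fermat.Agent.S17
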