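import Fermat.Agent.Lib.RiemannThm

/-!
# TRACK 8 (S17), heights pillar, TAN-curve, piece T2 "W2" (helper21), prefix `S17T2_`

Abstract, against `RR_Hyp K F` and a place `O`.

* `S17T2_exists h O E` : for every divisor `E` there are `n` and `w ≠ 0` with
  `E R ≤ ord_R w` for all `R ≠ O` and `-n ≤ ord_O w`  (Riemann: `L(n'·O − E) ≠ 0`).
* `S17T2_w2 h O W` : the same with `max (W R) 0 ≤ ord_R w`; for `W = div (dt)` this is the function
  `w₂`, regular off `O`, which kills the poles of `D_t f` (`f` regular off `O`).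
* `S17T2_val_w2` : the valuation form: `v_R(w) ≤ exp (−W R)` and `v_R(w) ≤ 1` for `R ≠ O`.
* `S17T2_gamma_val` : local bound: `v(w) ≤ exp (−n)`, `v(a), v(b) ≤ 1`, `v(a'), v(b') ≤ exp n`
  ⇒ `v (w · (a b' − b a')) ≤ 1`   (`γ_p = w₂ (e_i D_t e_j − e_j D_t e_i)` is regular off `O`).
* `S17T2_gamma_regular` : `γ_p` is regular at every `R ≠ O`, from the local bounds
  `v_R(e_j) ≤ 1`, `v_R(D_t e_j) ≤ exp (W R)`.
-/

set_option autoImplicit false

open AlgebraicCurve Fermat.Agent.Lib WithZero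

namespace Fermat.Agent.S17

variable {K F : Type*} [Field K] [Field F] [Algebra K F]

/-- for every divisor `E` there is `w ≠ 0` with `ord_R w ≥ E R` for all `R ≠ O`
(and pole order at most `n` at `O`). -/
theorem S17T2_exists (h : RR_Hyp K F) (O : Place K F) (E : Divisor K F) :
    ∃ (n : ℕ) (w : F), w ≠ 0 ∧ (∀ R : Place K F, R ≠ O → E R ≤ R.ord w) ∧
      -(n : ℤ) ≤ O.ord w := by
  classical
  set n : ℕ := (E.degree - E O + (RR_genus K F : ℤ)).toNat with hn
  set D : Divisor K F := Finsupp.single O ((n : ℤ) + E O) - E with hD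
  have hDdeg : D.degree = (n : ℤ) + E O - E.degree := by
    rw [hD, map_sub, Divisor.degree_single, h.deg_one O]
    push_cast
    ring
  have hnge : E.degree - E O + (RR_genus K F : ℤ) ≤ (n : ℤ) := Int.self_le_toNat _
  have h1 := RR_riemann_ineq h D
  rw [hDdeg] at h1
  have hpos : 0 < Module.finrank K (riemannRochSpace D) := by
    have : (1 : ℤ) ≤ Module.finrank K (riemannRochSpace D) := by linarith
    exact_mod_cast this
  obtain ⟨w, hw0, hw⟩ := RR_exists_ne_zero_of_finrank_pos hpos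
  rw [mem_riemannRochSpace_iff] at hw
  refine ⟨n, w, hw0, fun R hR => ?_, ?_⟩
  · rcases hw R with h' | h'
    · exact absurd h' hw0
    · rw [hD, Finsupp.sub_apply, Finsupp.single_apply, if_neg (fun e => hR e.symm)] at h'
      linarith
  · rcases hw O with h' | h'
    · exact absurd h' hw0
    · rw [hD, Finsupp.sub_apply, Finsupp.single_apply, if_pos rfl] at h'
      linarith

/-- **T2**: there is `w₂ ≠ 0`, regular off `O`, with `ord_R w₂ ≥ W R` for all `R ≠ O`. -/
theorem S17T2_w2 (h : RR_Hyp K F) (O : Place K F) (W : Divisor K F) :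
    ∃ (n : ℕ) (w : F), w ≠ 0 ∧ (∀ R : Place K F, R ≠ O → W R ≤ R.ord w ∧ 0 ≤ R.ord w) ∧
      -(n : ℤ) ≤ O.ord w := by
  classical
  set E : Divisor K F := Finsupp.mapRange (fun a : ℤ => max a 0) (by simp) W with hE
  obtain ⟨n, w, hw0, hw, hO⟩ := S17T2_exists h O E
  refine ⟨n, w, hw0, fun R hR => ?_, hO⟩
  have := hw R hR
  rw [hE, Finsupp.mapRange_apply] at this
  exact ⟨(le_max_left _ _).trans this, (le_max_right _ _).trans this⟩

/-- **T2**, valuation form. -/
theorem S17T2_val_w2 (h : RR_Hyp K F) (O : Place K F) (W : Divisor K F) :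
    ∃ (n : ℕ) (w : F), w ≠ 0 ∧
      (∀ R : Place K F, R ≠ O → R.adicValuation w ≤ exp (-(W R)) ∧ R.adicValuation w ≤ 1) ∧
      O.adicValuation w ≤ exp (n : ℤ) := by
  obtain ⟨n, w, hw0, hw, hO⟩ := S17T2_w2 h O W
  refine ⟨n, w, hw0, fun R hR => ⟨?_, ?_⟩, ?_⟩
  · rw [Place.adicValuation_le_exp_iff]
    right
    rw [neg_neg]
    exact (hw R hR).1
  · rw [Place.adicValuation_le_one_iff]
    exact Or.inr (hw R hR).2
  · rw [Place.adicValuation_le_exp_iff]
    exact Or.inr hO

/-- the local bound for `γ = w · (a b' − b a')`. -/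
theorem S17T2_gamma_val (R : Place K F) (n : ℤ) (w a b a' b' : F)
    (hw : R.adicValuation w ≤ exp (-n)) (ha : R.adicValuation a ≤ 1)
    (hb : R.adicValuation b ≤ 1) (ha' : R.adicValuation a' ≤ exp n)
    (hb' : R.adicValuation b' ≤ exp n) :
    R.adicValuation (w * (a * b' - b * a')) ≤ 1 := by
  have h1 : R.adicValuation (a * b') ≤ exp n := by
    rw [map_mul]
    calc R.adicValuation a * R.adicValuation b' ≤ 1 * exp n := mul_le_mul' ha hb'
      _ = exp n := one_mul _
  have h2 : R.adicValuation (b * a') ≤ exp n := by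
    rw [map_mul]
    calc R.adicValuation b * R.adicValuation a' ≤ 1 * exp n := mul_le_mul' hb ha'
      _ = exp n := one_mul _
  have h3 : R.adicValuation (a * b' - b * a') ≤ exp n :=
    (Valuation.map_sub _ _ _).trans (max_le h1 h2)
  rw [map_mul]
  calc R.adicValuation w * R.adicValuation (a * b' - b * a') ≤ exp (-n) * exp n :=
        mul_le_mul' hw h3
    _ = 1 := by rw [← exp_add]; simp

/-- `γ_{ij} = w₂ · (e_i · D e_j − e_j · D e_i)` is regular off `O`. -/
theorem S17T2_gamma_regular {ι : Type*} (O : Place K F) (W : Divisor K F) (w : F)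
    (hw : ∀ R : Place K F, R ≠ O → R.adicValuation w ≤ exp (-(W R)))
    (e De : ι → F) (he : ∀ j (R : Place K F), R ≠ O → R.adicValuation (e j) ≤ 1)
    (hDe : ∀ j (R : Place K F), R ≠ O → R.adicValuation (De j) ≤ exp (W R))
    (i j : ι) (R : Place K F) (hR : R ≠ O) :
    R.adicValuation (w * (e i * De j - e j * De i)) ≤ 1 :=
  S17T2_gamma_val R (W R) w (e i) (e j) (De i) (De j) (hw R hR) (he i R hR) (he j R hR)
    (hDe i R hR) (hDe j R hR)

end Fermat.Agent.S17
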