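import Fermat.Agent.S17.Transfer
import Fermat.Agent.Lib.RiemannThm

/-!
# TRACK 8 (S17), pillar DIV, package TRANSFER: the statement in the exact shape of the interface
table `NOTES/items/16_DIV_iface.md` (helper23).  See `S17TR_main` in `S17/Transfer.lean`.
-/

set_option autoImplicit false

open AlgebraicCurve MvPolynomial Fermat.Agent.Lib

namespace Fermat.Agent.S17

variable {K F : Type*} [Field K] [Field F] [Algebra K F]

/-- **TRANSFER** (interface shape). -/
theorem S17TR_transfer [IsAlgClosed K] [CharZero K] (h : RR_Hyp K F) (Q : Place K F)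
    {σ τ π : Type} [Fintype σ] [Fintype τ] [Finite π] [DecidableEq σ] [DecidableEq τ]
    (G : τ → MvPolynomial (σ ⊕ π) K) (N : MvPolynomial (σ ⊕ π) K)
    (p : π → F) (hp : ∀ j, p j ∈ Q.toValuationSubring) (y₀ : σ → K)
    (hG : ∀ t, eval (Sum.elim y₀ (fun j => FD_c0 Q (p j))) (G t) = 0)
    (hN : eval (Sum.elim y₀ (fun j => FD_c0 Q (p j))) N ≠ 0)
    (hJ : Function.Surjective (fun (v : σ → K) (t : τ) =>
      ∑ s, eval (Sum.elim y₀ (fun j => FD_c0 Q (p j))) (pderiv (Sum.inl s) (G t)) * v s)) :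
    ∃ T : Finset (Place K F), ∀ P : Place K F, P ∉ T →
      (∀ j, p j ∈ P.toValuationSubring) ∧
      ∃ y : σ → K, (∀ t, eval (Sum.elim y (fun j => FD_c0 P (p j))) (G t) = 0) ∧
        eval (Sum.elim y (fun j => FD_c0 P (p j))) N ≠ 0 :=
  S17TR_main h.principal h.deg_one Q G N p hp y₀ hG hN hJ

end Fermat.Agent.S17
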