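import Fermat.Agent.S17.UAbs1

/-!
# TRACK 8 (S17), heights pillar, package UABS, part PARAM (helper17)

* `S17UP_HC w n U` : all coefficients of `U : MvPolynomial τ (MvPolynomial π R)` are weighted
  homogeneous of degree `n` (in the parameters `π`); closure under `C`, `X`, `+`, `*`, `^`, `Σ`, `∏`.
* `S17UP_univ_le`  : the height of the specialisation `map (eval m) U` is `≤ C + n · h(m)`.
* `S17UP_P1`       : **(PARAM 1)** `S17UA_StmtP1 chow k ν` for `chow` bihomogeneous of bidegree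
  `(k, k')`.
-/

set_option autoImplicit false
set_option linter.unusedSectionVars false
set_option linter.style.haveILetI false
set_option linter.unusedVariables false

open MvPolynomial

namespace Fermat.Agent.S17

section hc

variable {R : Type*} [CommSemiring R] {π τ : Type*} {M : Type*} [AddCommMonoid M]

/-- all coefficients of `U` are weighted homogeneous of degree `n`. -/
def S17UP_HC (w : π → M) (n : M) (U : MvPolynomial τ (MvPolynomial π R)) : Prop :=
  ∀ β, IsWeightedHomogeneous w (coeff β U) n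

theorem S17UP_hc_C (w : π → M) {n : M} {r : MvPolynomial π R}
    (hr : IsWeightedHomogeneous w r n) :
    S17UP_HC w n (C r : MvPolynomial τ (MvPolynomial π R)) := by
  classical
  intro β
  rw [coeff_C]
  split_ifs
  · exact hr
  · exact isWeightedHomogeneous_zero _ _ _

theorem S17UP_hc_X (w : π → M) (t : τ) :
    S17UP_HC w 0 (X t : MvPolynomial τ (MvPolynomial π R)) := by
  classical
  intro β
  rw [coeff_X']
  split_ifs
  · exact isWeightedHomogeneous_one _ _
  · exact isWeightedHomogeneous_zero _ _ _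

theorem S17UP_hc_zero (w : π → M) (n : M) :
    S17UP_HC w n (0 : MvPolynomial τ (MvPolynomial π R)) := by
  intro β
  rw [coeff_zero]
  exact isWeightedHomogeneous_zero _ _ _

theorem S17UP_hc_one (w : π → M) :
    S17UP_HC w 0 (1 : MvPolynomial τ (MvPolynomial π R)) := by
  have h := S17UP_hc_C (τ := τ) w (isWeightedHomogeneous_one (R := R) w)
  rwa [C_1] at h

theorem S17UP_hc_add {w : π → M} {n : M} {U V : MvPolynomial τ (MvPolynomial π R)}
    (hU : S17UP_HC w n U) (hV : S17UP_HC w n V) : S17UP_HC w n (U + V) := by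
  intro β
  rw [coeff_add]
  exact (hU β).add (hV β)

theorem S17UP_hc_sum {w : π → M} {n : M} {α : Type*} (s : Finset α)
    (U : α → MvPolynomial τ (MvPolynomial π R)) (hU : ∀ a ∈ s, S17UP_HC w n (U a)) :
    S17UP_HC w n (∑ a ∈ s, U a) := by
  intro β
  rw [coeff_sum]
  exact IsWeightedHomogeneous.sum _ _ _ fun a ha => hU a ha β

theorem S17UP_hc_mul {w : π → M} {m n : M} {U V : MvPolynomial τ (MvPolynomial π R)}
    (hU : S17UP_HC w m U) (hV : S17UP_HC w n V) : S17UP_HC w (m + n) (U * V) := by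
  classical
  intro β
  rw [coeff_mul]
  exact IsWeightedHomogeneous.sum _ _ _ fun x _ => (hU x.1).mul (hV x.2)

theorem S17UP_hc_pow {w : π → M} {n : M} {U : MvPolynomial τ (MvPolynomial π R)}
    (hU : S17UP_HC w n U) (k : ℕ) : S17UP_HC w (k • n) (U ^ k) := by
  induction k with
  | zero =>
    rw [pow_zero, zero_smul]
    exact S17UP_hc_one w
  | succ k ih =>
    rw [pow_succ, succ_nsmul]
    exact S17UP_hc_mul ih hU

theorem S17UP_hc_prod {w : π → M} {α : Type*} (s : Finset α)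
    (U : α → MvPolynomial τ (MvPolynomial π R)) (n : α → M)
    (hU : ∀ a ∈ s, S17UP_HC w (n a) (U a)) :
    S17UP_HC w (∑ a ∈ s, n a) (∏ a ∈ s, U a) := by
  classical
  induction s using Finset.induction_on with
  | empty =>
    rw [Finset.prod_empty, Finset.sum_empty]
    exact S17UP_hc_one w
  | insert a s ha ih =>
    rw [Finset.prod_insert ha, Finset.sum_insert ha]
    exact S17UP_hc_mul (hU a (Finset.mem_insert_self a s))
      (ih fun b hb => hU b (Finset.mem_insert_of_mem hb))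

end hc

section hcring

variable {R : Type*} [CommRing R] {π τ : Type*} {M : Type*} [AddCommMonoid M]

theorem S17UP_hc_sub {w : π → M} {n : M} {U V : MvPolynomial τ (MvPolynomial π R)}
    (hU : S17UP_HC w n U) (hV : S17UP_HC w n V) : S17UP_HC w n (U - V) := by
  intro β
  rw [coeff_sub]
  exact (hU β).sub (hV β)

end hcring

section univ

variable {Ω : Type} [Field Ω] [CharZero Ω] [Algebra.IsAlgebraic ℚ Ω]

/-- the height of a specialisation of a universal polynomial with homogeneous coefficients. -/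
theorem S17UP_univ_le {π τ : Type} [Fintype π] (n : ℕ)
    (U : MvPolynomial τ (MvPolynomial π Ω)) (hU : S17UP_HC (1 : π → ℕ) n U) :
    ∃ C : ℝ, ∀ m : π → Ω, S17AG_hpoly (map (eval m) U) ≤ C + n * S17AH_h m := by
  classical
  let p : ↥U.support → MvPolynomial π Ω := fun β => coeff β.1 U
  have hp : ∀ β, (p β).IsHomogeneous n := fun β => hU β.1
  refine ⟨S17AH_const p, fun m => ?_⟩
  have h1 := S17HA_hpoly_eq (map (eval m) U) U.support (support_map_subset _ _)
  rw [h1]
  have h2 : (fun β : ↥U.support => coeff β.1 (map (eval m) U)) =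
      fun β => (p β).eval m := by
    funext β
    rw [coeff_map]
  rw [h2]
  exact S17AH_eval_le hp m

end univ

/-! ### (PARAM 1) -/

section p1

variable {Ω : Type} [Field Ω] [CharZero Ω] [Algebra.IsAlgebraic ℚ Ω] {ι : Type} [Fintype ι]
  {ν : Type} [Fintype ν]

/-- the universal substitution `c_j ↦ Σ_J m_{J,j} s_J`, `X_j ↦ X_j` (`m` = parameters). -/
noncomputable def S17UP_g1 (Ω : Type) [Field Ω] (ι ν : Type) [Fintype ν] :
    ι ⊕ ι → MvPolynomial (ν ⊕ ι) (MvPolynomial (ν × ι) Ω) :=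
  Sum.elim (fun j => ∑ J, C (X (J, j)) * X (Sum.inl J)) (fun j => X (Sum.inr j))

/-- the universal polynomial of (PARAM 1). -/
noncomputable def S17UP_U1 (ν : Type) [Fintype ν] (chow : MvPolynomial (ι ⊕ ι) Ω) :
    MvPolynomial (ν ⊕ ι) (MvPolynomial (ν × ι) Ω) :=
  ∑ d ∈ chow.support, C (C (coeff d chow)) * ∏ x, (S17UP_g1 Ω ι ν x) ^ (d x)

theorem S17UP_map_g1 (M : ν → ι → Ω) (x : ι ⊕ ι) :
    map (eval fun a : ν × ι => M a.1 a.2) (S17UP_g1 Ω ι ν x) = S17UA_gM M x := by
  rcases x with j | j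
  · simp [S17UP_g1, S17UA_gM]
  · simp [S17UP_g1, S17UA_gM]

/-- the specialisation of the universal polynomial is `P`. -/
theorem S17UP_map_U1 (chow : MvPolynomial (ι ⊕ ι) Ω) (M : ν → ι → Ω) :
    map (eval fun a : ν × ι => M a.1 a.2) (S17UP_U1 ν chow) = S17UA_P chow M := by
  unfold S17UP_U1 S17UA_P
  rw [aeval_def, eval₂_eq', map_sum]
  refine Finset.sum_congr rfl fun d _ => ?_
  rw [map_mul, map_prod, map_C, eval_C]
  congr 1
  refine Finset.prod_congr rfl fun x _ => ?_
  rw [map_pow, S17UP_map_g1]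

theorem S17UP_hc_g1 (x : ι ⊕ ι) :
    S17UP_HC (1 : ν × ι → ℕ) (Sum.elim (fun _ : ι => 1) (fun _ : ι => 0) x)
      (S17UP_g1 Ω ι ν x) := by
  rcases x with j | j
  · show S17UP_HC (1 : ν × ι → ℕ) 1 (∑ J, C (X (J, j)) * X (Sum.inl J))
    refine S17UP_hc_sum _ _ fun J _ => ?_
    have h := S17UP_hc_mul (S17UP_hc_C (τ := ν ⊕ ι) (1 : ν × ι → ℕ)
      (isWeightedHomogeneous_X (R := Ω) (1 : ν × ι → ℕ) (J, j)))
      (S17UP_hc_X (R := Ω) (1 : ν × ι → ℕ) (Sum.inl J : ν ⊕ ι))
    simpa using h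
  · exact S17UP_hc_X _ _

theorem S17UP_hc_U1 (chow : MvPolynomial (ι ⊕ ι) Ω) (k k' : ℕ) (hchow : S17C_IsBihom chow k k') :
    S17UP_HC (1 : ν × ι → ℕ) k (S17UP_U1 ν chow) := by
  classical
  unfold S17UP_U1
  refine S17UP_hc_sum _ _ fun d hd => ?_
  have hk : ∑ i, d (Sum.inl i) = k := (hchow d (mem_support_iff.1 hd)).1
  have h1 : S17UP_HC (1 : ν × ι → ℕ)
      (∑ x ∈ Finset.univ, d x • Sum.elim (fun _ : ι => 1) (fun _ : ι => 0) x)
      (∏ x ∈ Finset.univ, (S17UP_g1 Ω ι ν x) ^ (d x)) :=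
    S17UP_hc_prod _ _ _ fun x _ => S17UP_hc_pow (S17UP_hc_g1 x) (d x)
  have h2 : ∑ x ∈ Finset.univ, d x • Sum.elim (fun _ : ι => 1) (fun _ : ι => 0) x = k := by
    rw [Fintype.sum_sum_type]
    simp [hk]
  rw [h2] at h1
  have h3 := S17UP_hc_mul (S17UP_hc_C (τ := ν ⊕ ι) (1 : ν × ι → ℕ)
    (isWeightedHomogeneous_C (1 : ν × ι → ℕ) (coeff d chow))) h1
  rwa [zero_add] at h3

/-- **(PARAM 1)**: `h(P) ≤ k · h(M) + C`. -/
theorem S17UP_P1 (chow : MvPolynomial (ι ⊕ ι) Ω) (k k' : ℕ) (hchow : S17C_IsBihom chow k k')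
    (ν : Type) [Fintype ν] : S17UA_StmtP1 chow k ν := by
  obtain ⟨C, hC⟩ := S17UP_univ_le k (S17UP_U1 ν chow) (S17UP_hc_U1 chow k k' hchow)
  refine ⟨C, fun M => ?_⟩
  have h := hC (fun a : ν × ι => M a.1 a.2)
  rw [S17UP_map_U1] at h
  linarith

end p1

end Fermat.Agent.S17
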