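import Fermat.Agent.S17.HtDefs
import Fermat.Agent.S17.HtPad
import Fermat.Agent.S17.AbsAPI
import Fermat.Agent.S17.AbsNorth

/-!
# TRACK 8 (S17), heights pillar, package UU (helper24): the wedge bound by induction on `d`

`S17UI_main` : if the abstract (U-step) `S17H_StmtU X d' (Fin (d'+1) → ι)` holds for all `d' < d`,
then the wedge bound `S17H_StmtUU X d` holds:
`Σ_{i<j} λ(x_i, x_j) ≤ Σ_i h(x_i) − h(W(x)) + C` for `d` points of the curve with `W(x) ≠ 0`.

Induction step `d → d+1`: `x' = (x, y)`; the circuit vectors `S17UI_M x f` (`f : Fin (d+1) → ι`)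
are the Laplace cofactors along the last row, so that `⟨M_f, z⟩ = W(x, z)(f)` for ALL `z`
(`S17UI_dot_M`); hence `⟨M_f, x_i⟩ = 0`, `⟨M_f, y⟩ = W(x')(f)`, and every entry of `M` is `0` or
`±` an entry of `W(x)`, so `h(M) ≤ h(W(x))` (`S17UI_h_M_le`).
-/

set_option autoImplicit false

namespace Fermat.Agent.S17

section signed

variable {Ω : Type*} [Field Ω] [CharZero Ω] [Algebra.IsAlgebraic ℚ Ω]

/-- the height of `(1, -1)` is `0`. -/
theorem S17UI_h_sign : S17AH_h (fun b : Bool => if b then (1 : Ω) else -1) = 0 := by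
  have h1 := S17AH_h_pow (fun b : Bool => if b then (1 : Ω) else -1) 2
  have h2 : ((fun b : Bool => if b then (1 : Ω) else -1) ^ 2) = fun _ => (1 : Ω) := by
    funext b
    cases b <;> simp
  rw [h2, S17AN_h_zero_one_valued _ (fun _ => Or.inr rfl)] at h1
  push_cast at h1
  linarith

/-- if every entry of `y` is `0` or `±` an entry of `x`, then `h y ≤ h x`. -/
theorem S17UI_h_le_of_signed {α β : Type*} [Finite α] [Finite β] (x : α → Ω) (y : β → Ω)
    (hy : ∀ b, y b = 0 ∨ ∃ a, y b = x a ∨ y b = -x a) : S17AH_h y ≤ S17AH_h x := by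
  classical
  by_cases hx : x = 0
  · have hy0 : y = 0 := by
      funext b
      rcases hy b with h | ⟨a, h | h⟩
      · exact h
      · rw [h, hx]; rfl
      · rw [h, hx]; simp
    rw [hy0, S17AH_h_zero]
    exact S17AH_h_nonneg x
  · let s : Bool → Ω := fun b => if b then (1 : Ω) else -1
    have hs : s ≠ 0 := fun h => by
      have := congrFun h true
      simp [s] at this
    let xt : α × Bool → Ω := fun p => x p.1 * s p.2
    have hxt : S17AH_h xt = S17AH_h x := by
      have := S17AH_h_fun_mul hx hs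
      rw [S17UI_h_sign, add_zero] at this
      exact this
    let xh : Option (α × Bool) → Ω := fun o => o.elim 0 xt
    have hxh : S17AH_h xh = S17AH_h xt := by
      have := S17HA_h_pad (fun p : α × Bool => some p) xh (fun j hj => by
        cases j with
        | none => rfl
        | some p => exact absurd ⟨p, rfl⟩ hj)
      rw [← this]
      rfl
    have hg : ∀ b, ∃ o : Option (α × Bool), y b = xh o := by
      intro b
      rcases hy b with h | ⟨a, h | h⟩
      · exact ⟨none, h⟩
      · exact ⟨some (a, true), by rw [h]; simp [xh, xt, s]⟩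
      · exact ⟨some (a, false), by rw [h]; simp [xh, xt, s]⟩
    choose g hg using hg
    have hyg : y = xh ∘ g := funext hg
    rw [hyg, ← hxt, ← hxh]
    exact S17AH_h_comp_le g xh

end signed

section circuits

variable {Ω : Type} [Field Ω] {ι : Type}

/-- Laplace expansion of `W(x, z)` along the last row. -/
theorem S17UI_laplace {d : ℕ} (x' : Fin (d + 1) → ι → Ω) (f : Fin (d + 1) → ι) :
    S17H_W x' f = ∑ j : Fin (d + 1), (-1) ^ (d + (j : ℕ)) * x' (Fin.last d) (f j) *
      S17H_W (fun i : Fin d => x' i.castSucc) (f ∘ j.succAbove) := by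
  unfold S17H_W
  rw [Matrix.det_succ_row _ (Fin.last d)]
  refine Finset.sum_congr rfl fun j _ => ?_
  simp only [Fin.val_last, Matrix.of_apply, Fin.succAbove_last]
  rfl

open Classical in
/-- the circuit vectors: the Laplace cofactors of `W(x, ·)(f)` along the last row. -/
noncomputable def S17UI_M {d : ℕ} (x : Fin d → ι → Ω) (f : Fin (d + 1) → ι) (a : ι) : Ω :=
  if Function.Injective f then
    ∑ j : Fin (d + 1), if f j = a then (-1) ^ (d + (j : ℕ)) * S17H_W x (f ∘ j.succAbove) else 0
  else 0

/-- a minor with a repeated column index vanishes. -/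
theorem S17UI_W_eq_zero_of_not_inj {d : ℕ} (x : Fin d → ι → Ω) (f : Fin d → ι)
    (hf : ¬ Function.Injective f) : S17H_W x f = 0 := by
  unfold Function.Injective at hf
  push Not at hf
  obtain ⟨j1, j2, h12, hne⟩ := hf
  unfold S17H_W
  refine Matrix.det_zero_of_column_eq hne fun i => ?_
  simp [Matrix.of_apply, h12]

/-- `⟨M_f, z⟩ = W(x, z)(f)` for all `z`. -/
theorem S17UI_dot_M [Fintype ι] {d : ℕ} (x' : Fin (d + 1) → ι → Ω) (f : Fin (d + 1) → ι) :
    S17H_dot (S17UI_M (fun i : Fin d => x' i.castSucc) f) (x' (Fin.last d)) = S17H_W x' f := by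
  classical
  by_cases hf : Function.Injective f
  · rw [S17UI_laplace]
    unfold S17H_dot S17UI_M
    simp only [if_pos hf, Finset.sum_mul]
    rw [Finset.sum_comm]
    refine Finset.sum_congr rfl fun j _ => ?_
    simp only [ite_mul, zero_mul]
    rw [Finset.sum_ite_eq]
    simp only [Finset.mem_univ, if_true]
    ring
  · rw [S17UI_W_eq_zero_of_not_inj _ _ hf]
    unfold S17H_dot S17UI_M
    simp [if_neg hf]

/-- every entry of `M` is `0` or `±` an entry of `W(x)`. -/
theorem S17UI_M_entry {d : ℕ} (x : Fin d → ι → Ω) (f : Fin (d + 1) → ι) (a : ι) :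
    S17UI_M x f a = 0 ∨ ∃ g, S17UI_M x f a = S17H_W x g ∨ S17UI_M x f a = -S17H_W x g := by
  classical
  unfold S17UI_M
  by_cases hf : Function.Injective f
  · rw [if_pos hf]
    by_cases ha : ∃ j, f j = a
    · obtain ⟨j, hj⟩ := ha
      right
      refine ⟨f ∘ j.succAbove, ?_⟩
      rw [Finset.sum_eq_single j]
      · rw [if_pos hj]
        rcases neg_one_pow_eq_or Ω (d + (j : ℕ)) with h | h
        · left; rw [h, one_mul]
        · right; rw [h, neg_one_mul]
      · intro j' _ hj'
        rw [if_neg]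
        intro h
        exact hj' (hf (h.trans hj.symm))
      · intro h
        exact absurd (Finset.mem_univ j) h
    · left
      push Not at ha
      exact Finset.sum_eq_zero fun j _ => if_neg (ha j)
  · left
    rw [if_neg hf]

/-- linearly dependent rows: if `x' i ∧ x' j = 0` (`i ≠ j`) then `W(x') = 0`. -/
theorem S17UI_W_eq_zero_of_wedge {d : ℕ} (x' : Fin d → ι → Ω) {i j : Fin d} (hij : i ≠ j)
    (hw : S17H_wedge (x' i) (x' j) = 0) : S17H_W x' = 0 := by
  classical
  funext f
  simp only [Pi.zero_apply]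
  unfold S17H_W
  by_cases hz : ∀ l, x' j (f l) = 0
  · exact Matrix.det_eq_zero_of_row_eq_zero j fun l => by simp [Matrix.of_apply, hz l]
  · push Not at hz
    obtain ⟨l0, hl0⟩ := hz
    set A : Matrix (Fin d) (Fin d) Ω := Matrix.of fun i j => x' i (f j) with hA
    set c : Ω := x' i (f l0) / x' j (f l0) with hc
    have hrow : ∀ l, A i l = c * A j l := by
      intro l
      have h1 := congrFun hw (f l, f l0)
      simp only [S17H_wedge, Pi.zero_apply] at h1
      simp only [hA, Matrix.of_apply, hc]
      field_simp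
      linear_combination h1
    rw [← Matrix.det_updateRow_add_smul_self A hij (-c)]
    refine Matrix.det_eq_zero_of_row_eq_zero i fun l => ?_
    rw [Matrix.updateRow_self]
    simp only [Pi.add_apply, Pi.smul_apply, smul_eq_mul]
    rw [hrow l]
    ring

end circuits

section main

variable {Ω : Type} [Field Ω] [CharZero Ω] [Algebra.IsAlgebraic ℚ Ω] {ι : Type} [Fintype ι]
  {k : ℕ}

/-- `h(M) ≤ h(W(x))`. -/
theorem S17UI_h_M_le {d : ℕ} (x : Fin d → ι → Ω) :
    S17AH_h (fun a : (Fin (d + 1) → ι) × ι => S17UI_M x a.1 a.2) ≤ S17AH_h (S17H_W x) :=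
  S17UI_h_le_of_signed _ _ fun a => S17UI_M_entry x a.1 a.2

/-- the splitting of the double sum over `i < j` in `Fin (d+1)`. -/
theorem S17UI_sum_split {d : ℕ} (F : Fin (d + 1) → Fin (d + 1) → ℝ) :
    ∑ i, ∑ j, (if i < j then F i j else 0)
      = ∑ i : Fin d, ∑ j : Fin d, (if i < j then F i.castSucc j.castSucc else 0)
        + ∑ i : Fin d, F i.castSucc (Fin.last d) := by
  rw [Fin.sum_univ_castSucc]
  have h1 : ∑ j, (if Fin.last d < j then F (Fin.last d) j else 0) = 0 :=
    Finset.sum_eq_zero fun j _ => if_neg (not_lt.mpr (Fin.le_last j))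
  rw [h1, add_zero, ← Finset.sum_add_distrib]
  refine Finset.sum_congr rfl fun i _ => ?_
  rw [Fin.sum_univ_castSucc]
  simp only [Fin.castSucc_lt_castSucc_iff, Fin.castSucc_lt_last, if_true]

/-- the induction step. -/
theorem S17UI_step (X : S17H_Curve Ω ι k) (d : ℕ) (hUU : S17H_StmtUU X d)
    (hU : S17H_StmtU X d (Fin (d + 1) → ι)) : S17H_StmtUU X (d + 1) := by
  classical
  obtain ⟨C1, h1⟩ := hUU
  obtain ⟨C2, h2⟩ := hU
  refine ⟨C1 + C2, fun x' hx' hW' => ?_⟩
  set x : Fin d → ι → Ω := fun i => x' i.castSucc with hxdef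
  set y : ι → Ω := x' (Fin.last d) with hydef
  -- `W x ≠ 0`
  have hWx : S17H_W x ≠ 0 := by
    intro h0
    apply hW'
    funext f
    rw [S17UI_laplace, ← hxdef, h0]
    simp
  have hIH := h1 x (fun i => hx' _) hWx
  have hdot : (fun J => S17H_dot (S17UI_M x J) y) = S17H_W x' := by
    funext f
    exact S17UI_dot_M x' f
  have hStep := h2 x y (S17UI_M x) (fun i => hx' _) (hx' _)
    (fun i j hij hw => hW' (S17UI_W_eq_zero_of_wedge x'
      (fun h => hij (Fin.castSucc_injective d h)) hw))
    (fun i hw => hW' (S17UI_W_eq_zero_of_wedge x' (Fin.castSucc_lt_last i).ne hw))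
    (fun J i => by
      have h := S17UI_dot_M (Function.update x' (Fin.last d) (x' i.castSucc)) J
      have e1 : (fun i' : Fin d => Function.update x' (Fin.last d) (x' i.castSucc) i'.castSucc)
          = x := by
        funext i'
        rw [Function.update_of_ne (Fin.castSucc_lt_last i').ne]
      rw [e1, Function.update_self] at h
      rw [h]
      unfold S17H_W
      refine Matrix.det_zero_of_row_eq (Fin.castSucc_lt_last i).ne ?_
      funext l
      simp only [Matrix.of_apply, Function.update_self]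
      rw [Function.update_of_ne (Fin.castSucc_lt_last i).ne])
    (by
      rw [← Function.ne_iff, hdot]
      exact hW')
  rw [hdot] at hStep
  have hM := S17UI_h_M_le (Ω := Ω) x
  rw [S17UI_sum_split (fun i j => S17H_lam (x' i) (x' j)), Fin.sum_univ_castSucc]
  have hlam : ∑ i : Fin d, S17H_lam (x' i.castSucc) (x' (Fin.last d))
      = ∑ i, S17AH_h (x i) + d * S17AH_h y - ∑ i, S17H_w (x i) y := by
    simp only [S17H_lam, Finset.sum_sub_distrib, Finset.sum_add_distrib, Finset.sum_const,
      Finset.card_univ, Fintype.card_fin, nsmul_eq_mul]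
    rfl
  rw [hlam]
  linarith

/-- **(UU)** the wedge bound, by induction on `d` from the abstract (U-step). -/
theorem S17UI_main (X : S17H_Curve Ω ι k) (d : ℕ)
    (hU : ∀ d' < d, S17H_StmtU X d' (Fin (d' + 1) → ι)) : S17H_StmtUU X d := by
  induction d with
  | zero =>
    refine ⟨S17AH_h (fun _ : Fin 0 → ι => (1 : Ω)), fun x _ _ => ?_⟩
    have hW : S17H_W x = fun _ => (1 : Ω) := by
      funext f
      unfold S17H_W
      exact Matrix.det_isEmpty
    rw [hW]
    simp
  | succ d ih =>
    exact S17UI_step X d (ih fun d' hd' => hU d' (Nat.lt_succ_of_lt hd')) (hU d (Nat.lt_succ_self d))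

end main

end Fermat.Agent.S17
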