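import Fermat.Agent.S17.UAbs2
import Fermat.Agent.S17.UAbsLow
import Fermat.Agent.S17.UAbsParam
import Fermat.Agent.S17.UAbsParam2
import Fermat.Agent.S17.UInd

/-!
# TRACK 8 (S17), heights pillar, package UABS: the abstract U-step, unconditional

* `S17UA_stmtU X d ν : S17H_StmtU X d ν` for every abstract curve datum `X : S17H_Curve Ω ι k`
  (`Ω` algebraically closed of characteristic `0`, algebraic over `ℚ`), every `d` and every finite
  index type `ν`:  assembly (`S17UA_main`, helper8) of (PARAM 1), (PARAM 2) (helper17) and (LOW)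
  (helper9).
* `S17UA_stmtUU X d : S17H_StmtUU X d`, the wedge bound (U), by helper24's induction `S17UI_main`.
-/

set_option autoImplicit false

namespace Fermat.Agent.S17

variable {Ω : Type} [Field Ω] [CharZero Ω] [Algebra.IsAlgebraic ℚ Ω] [IsAlgClosed Ω]
  {ι : Type} [Fintype ι] {k : ℕ}

/-- **(UABS)** the abstract U-step. -/
theorem S17UA_stmtU (X : S17H_Curve Ω ι k) (d : ℕ) (ν : Type) [Fintype ν] :
    S17H_StmtU X d ν :=
  S17UA_main X d (S17UP_P1 X.chow k k X.chow_bihom ν) (S17UP_P2 Ω ι ν (k - d) (k + k))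
    (S17UL_main X ν)

/-- **(U)** the wedge bound `Σ_{i<j} λ(x_i, x_j) ≤ Σ_i h(x_i) − h(W(x)) + C`. -/
theorem S17UA_stmtUU (X : S17H_Curve Ω ι k) (d : ℕ) : S17H_StmtUU X d :=
  S17UI_main X d fun d' _ => S17UA_stmtU X d' (Fin (d' + 1) → ι)

end Fermat.Agent.S17
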