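import Fermat.Agent.S17.HtDefs
import Fermat.Agent.S17.GMVar
import Fermat.Agent.S17.HtPad
import Fermat.Agent.S17.AbsAPI

/-!
# TRACK 8 (S17), heights pillar, package UABS (helper8), part 1: algebra and definitions

* `S17UA_dvd_of_vanish`, `S17UA_lin_prime`, `S17UA_prod_dvd` (DIVL): a polynomial vanishing on
  finitely many pairwise distinct hyperplanes is divisible by the product of the linear forms.
* `S17UA_wh_aeval`: weighted homogeneity under substitution; `S17UA_coeff_ext`: coefficients of an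
  external product; `S17UA_coeff_single`; `S17UA_eval_aeval`.
* the polynomials `S17UA_P chow M` (`= 𝒞(Σ_J s_J M_J, X)`) and `S17UA_G chow M y`
  (`= 𝒞(Σ_J s_J M_J, T̂ y)`) of the U-step, and the three analytic inputs `S17UA_StmtP1`,
  `S17UA_StmtP2`, `S17UA_StmtLow` as `Prop`s.
-/

set_option autoImplicit false
set_option linter.unusedSectionVars false
set_option linter.style.haveILetI false

open MvPolynomial

namespace Fermat.Agent.S17


section linform

variable {Ω : Type*} [Field Ω] [CharZero Ω] [Algebra.IsAlgebraic ℚ Ω] {σ : Type*} [Fintype σ]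

theorem S17UA_exists_ne {τ : Type*} {a : τ → Ω} (ha : a ≠ 0) : ∃ j, a j ≠ 0 := by
  by_contra h
  push Not at h
  exact ha (funext h)

/-- the substitution `X j₀ ↦ X j₀ − (a j₀)⁻¹ ℓ` (other variables fixed), `ℓ = Σ a_j X_j`. -/
noncomputable def S17UA_sub [DecidableEq σ] (a : σ → Ω) (j₀ : σ) :
    MvPolynomial σ Ω →ₐ[Ω] MvPolynomial σ Ω :=
  aeval (fun v => if v = j₀ then X j₀ - C (a j₀)⁻¹ * S17GP_lin a else X v)

theorem S17UA_sub_X [DecidableEq σ] (a : σ → Ω) (j₀ v : σ) :
    S17UA_sub a j₀ (X v) = if v = j₀ then X j₀ - C (a j₀)⁻¹ * S17GP_lin a else X v := by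
  simp [S17UA_sub]

theorem S17UA_sub_C [DecidableEq σ] (a : σ → Ω) (j₀ : σ) (r : Ω) :
    S17UA_sub a j₀ (C r) = C r := by
  simp [S17UA_sub]

theorem S17UA_sub_lin [DecidableEq σ] (a : σ → Ω) (j₀ : σ) (h0 : a j₀ ≠ 0) :
    S17UA_sub a j₀ (S17GP_lin a) = 0 := by
  have h1 : ∀ v, S17UA_sub a j₀ (X v) = X v - (if v = j₀ then C (a j₀)⁻¹ * S17GP_lin a else 0) := by
    intro v
    rw [S17UA_sub_X]
    split_ifs with h
    · rw [h]
    · rw [sub_zero]
  conv_lhs => rw [S17GP_lin]
  rw [map_sum]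
  simp only [map_mul, S17UA_sub_C, h1, mul_sub, Finset.sum_sub_distrib,
    mul_ite, mul_zero, Finset.sum_ite_eq', Finset.mem_univ, if_true]
  rw [← mul_assoc, ← C_mul, mul_inv_cancel₀ h0, C_1, one_mul]
  exact sub_self _

theorem S17UA_sub_mem [DecidableEq σ] (a : σ → Ω) (j₀ : σ) (P : MvPolynomial σ Ω) :
    P - S17UA_sub a j₀ P ∈ Ideal.span {S17GP_lin a} := by
  induction P using MvPolynomial.induction_on with
  | C r =>
    rw [S17UA_sub_C, sub_self]
    exact Ideal.zero_mem _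
  | add p q hp hq =>
    rw [map_add]
    have : p + q - (S17UA_sub a j₀ p + S17UA_sub a j₀ q) =
      (p - S17UA_sub a j₀ p) + (q - S17UA_sub a j₀ q) := by ring
    rw [this]
    exact Ideal.add_mem _ hp hq
  | mul_X p v hp =>
    rw [map_mul]
    have h1 : p * X v - S17UA_sub a j₀ p * S17UA_sub a j₀ (X v) =
        (p - S17UA_sub a j₀ p) * X v + S17UA_sub a j₀ p * (X v - S17UA_sub a j₀ (X v)) := by
      ring
    rw [h1]
    refine Ideal.add_mem _ (Ideal.mul_mem_right _ _ hp) (Ideal.mul_mem_left _ _ ?_)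
    rw [S17UA_sub_X]
    split_ifs with h
    · rw [h, sub_sub_cancel]
      exact Ideal.mul_mem_left _ _ (Ideal.subset_span rfl)
    · rw [sub_self]
      exact Ideal.zero_mem _

theorem S17UA_ker_sub [DecidableEq σ] (a : σ → Ω) (j₀ : σ) (h0 : a j₀ ≠ 0) :
    RingHom.ker (S17UA_sub a j₀ : MvPolynomial σ Ω →+* MvPolynomial σ Ω) =
      Ideal.span {S17GP_lin a} := by
  apply le_antisymm
  · intro P hP
    have h1 := S17UA_sub_mem a j₀ P
    rw [RingHom.mem_ker] at hP
    have h2 : S17UA_sub a j₀ P = 0 := hP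
    rwa [h2, sub_zero] at h1
  · rw [Ideal.span_le]
    intro P hP
    rw [Set.mem_singleton_iff] at hP
    rw [hP]
    exact S17UA_sub_lin a j₀ h0

/-- a nonzero linear form is a prime element. -/
theorem S17UA_lin_prime (a : σ → Ω) (ha : a ≠ 0) : Prime (S17GP_lin a) := by
  classical
  obtain ⟨j₀, h0⟩ := S17UA_exists_ne ha
  rw [← Ideal.span_singleton_prime (S17GP_lin_ne_zero ha), ← S17UA_ker_sub a j₀ h0]
  exact RingHom.ker_isPrime _

theorem S17UA_eval_sub [DecidableEq σ] (a : σ → Ω) (j₀ : σ) (z : σ → Ω) (P : MvPolynomial σ Ω) :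
    eval z (S17UA_sub a j₀ P) =
      eval (fun v => eval z (if v = j₀ then X j₀ - C (a j₀)⁻¹ * S17GP_lin a else X v)) P := by
  unfold S17UA_sub
  rw [aeval_def, eval₂_comp_left (eval z)]
  have : (eval z).comp (algebraMap Ω (MvPolynomial σ Ω)) = RingHom.id Ω := by
    ext r
    simp
  rw [this]
  rfl

/-- a polynomial vanishing on the hyperplane `ℓ = 0` is divisible by `ℓ`. -/
theorem S17UA_dvd_of_vanish (a : σ → Ω) (ha : a ≠ 0) (P : MvPolynomial σ Ω)
    (hP : ∀ z : σ → Ω, ∑ j, a j * z j = 0 → eval z P = 0) : S17GP_lin a ∣ P := by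
  classical
  obtain ⟨j₀, h0⟩ := S17UA_exists_ne ha
  have h1 : S17UA_sub a j₀ P = 0 := by
    apply MvPolynomial.funext
    intro z
    rw [S17UA_eval_sub, map_zero]
    apply hP
    have h2 := S17UA_eval_sub a j₀ z (S17GP_lin a)
    rw [S17UA_sub_lin a j₀ h0, map_zero, S17GP_eval_lin] at h2
    exact h2.symm
  have h3 := S17UA_sub_mem a j₀ P
  rw [h1, sub_zero] at h3
  exact Ideal.mem_span_singleton.1 h3

/-- non-proportional linear forms do not divide each other -/
theorem S17UA_not_dvd (a b : σ → Ω) (i j : σ) (hab : a i * b j - a j * b i ≠ 0) :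
    ¬ S17GP_lin a ∣ S17GP_lin b := by
  classical
  rintro ⟨q, hq⟩
  have h1 := congrArg (eval (fun v => a j * (if v = i then 1 else 0) - a i * (if v = j then 1 else 0))) hq
  rw [map_mul, S17GP_eval_lin, S17GP_eval_lin] at h1
  have h2 : ∀ c : σ → Ω, ∑ v, c v * (a j * (if v = i then 1 else 0) - a i * (if v = j then 1 else 0))
      = c i * a j - c j * a i := by
    intro c
    simp only [mul_sub, Finset.sum_sub_distrib, mul_ite, mul_one, mul_zero, Finset.sum_ite_eq',
      Finset.mem_univ, if_true]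
  rw [h2, h2] at h1
  apply hab
  have : a i * a j - a j * a i = 0 := by ring
  rw [this, zero_mul] at h1
  linear_combination -h1

/-- a polynomial vanishing on finitely many pairwise distinct hyperplanes is divisible by the
product of the linear forms. -/
theorem S17UA_prod_dvd {α : Type*} (s : Finset α) (a : α → σ → Ω)
    (ha : ∀ i ∈ s, ∀ j ∈ s, i ≠ j → ∃ u v, a i u * a j v - a i v * a j u ≠ 0)
    (ha0 : ∀ i ∈ s, a i ≠ 0)
    (P : MvPolynomial σ Ω)
    (hP : ∀ i ∈ s, ∀ z : σ → Ω, ∑ j, a i j * z j = 0 → eval z P = 0) :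
    (∏ i ∈ s, S17GP_lin (a i)) ∣ P := by
  classical
  induction s using Finset.induction_on with
  | empty => simp
  | insert i₀ s hi₀ ih =>
    rw [Finset.prod_insert hi₀]
    obtain ⟨Q, hQ⟩ := ih (fun i hi j hj => ha i (Finset.mem_insert_of_mem hi) j
      (Finset.mem_insert_of_mem hj)) (fun i hi => ha0 i (Finset.mem_insert_of_mem hi))
      (fun i hi => hP i (Finset.mem_insert_of_mem hi))
    have h1 : S17GP_lin (a i₀) ∣ P :=
      S17UA_dvd_of_vanish (a i₀) (ha0 i₀ (Finset.mem_insert_self _ _)) P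
        (hP i₀ (Finset.mem_insert_self _ _))
    have hpr := S17UA_lin_prime (a i₀) (ha0 i₀ (Finset.mem_insert_self _ _))
    rw [hQ] at h1
    rcases hpr.dvd_or_dvd h1 with h2 | h2
    · exfalso
      obtain ⟨i, hi, h3⟩ := (Prime.dvd_finsetProd_iff hpr _).1 h2
      have hne : i₀ ≠ i := fun h => hi₀ (h ▸ hi)
      obtain ⟨u, v, huv⟩ := ha i₀ (Finset.mem_insert_self _ _) i (Finset.mem_insert_of_mem hi) hne
      exact S17UA_not_dvd (a i₀) (a i) u v huv h3
    · obtain ⟨Q', hQ'⟩ := h2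
      refine ⟨Q', ?_⟩
      rw [hQ, hQ']
      ring

end linform



section alg

variable {Ω : Type*} [Field Ω]

/-- evaluation of a substituted polynomial -/
theorem S17UA_eval_aeval {σ τ : Type*} (g : σ → MvPolynomial τ Ω) (z : τ → Ω)
    (F : MvPolynomial σ Ω) : eval z (aeval g F) = eval (fun v => eval z (g v)) F := by
  rw [aeval_def, eval₂_comp_left (eval z)]
  have : (eval z).comp (algebraMap Ω (MvPolynomial τ Ω)) = RingHom.id Ω := by
    ext r
    simp
  rw [this]
  rfl

/-- weighted homogeneity is preserved by a substitution respecting the weights -/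
theorem S17UA_wh_aeval {σ τ M : Type*} [AddCommMonoid M] (w : σ → M) (w' : τ → M)
    (f : MvPolynomial σ Ω) (N : M) (hf : IsWeightedHomogeneous w f N)
    (g : σ → MvPolynomial τ Ω) (hg : ∀ v, IsWeightedHomogeneous w' (g v) (w v)) :
    IsWeightedHomogeneous w' (aeval g f) N := by
  classical
  rw [aeval_def, eval₂_eq]
  refine IsWeightedHomogeneous.sum _ _ _ fun e he => ?_
  have h1 : Finsupp.weight w e = N := hf (mem_support_iff.1 he)
  have h2 : IsWeightedHomogeneous w' (∏ v ∈ e.support, g v ^ e v)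
      (∑ v ∈ e.support, e v • w v) :=
    IsWeightedHomogeneous.prod _ _ _ fun v _ => (hg v).pow (e v)
  have h3 : ∑ v ∈ e.support, e v • w v = N := by
    rw [← h1, Finsupp.weight_apply, Finsupp.sum]
  rw [h3] at h2
  have h4 := (isWeightedHomogeneous_C w' (coeff e f)).mul h2
  rw [zero_add] at h4
  exact h4

/-- coefficients of an external product -/
theorem S17UA_coeff_ext {α β : Type*} (A : MvPolynomial α Ω) (B : MvPolynomial β Ω)
    (a : α →₀ ℕ) (b : β →₀ ℕ) :
    coeff (Finsupp.mapDomain Sum.inl a + Finsupp.mapDomain Sum.inr b)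
      (rename Sum.inl A * rename Sum.inr B : MvPolynomial (α ⊕ β) Ω) = coeff a A * coeff b B := by
  classical
  have key : ∀ (a' : α →₀ ℕ) (b' : β →₀ ℕ),
      (Finsupp.mapDomain Sum.inl a' + Finsupp.mapDomain Sum.inr b' : α ⊕ β →₀ ℕ) =
        Finsupp.mapDomain Sum.inl a + Finsupp.mapDomain Sum.inr b ↔ a' = a ∧ b' = b := by
    intro a' b'
    constructor
    · intro h
      constructor
      · ext v
        have := DFunLike.congr_fun h (Sum.inl v)
        simpa [Finsupp.mapDomain_apply Sum.inl_injective,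
          Finsupp.mapDomain_of_notMem_range] using this
      · ext v
        have := DFunLike.congr_fun h (Sum.inr v)
        simpa [Finsupp.mapDomain_apply Sum.inr_injective,
          Finsupp.mapDomain_of_notMem_range] using this
    · rintro ⟨rfl, rfl⟩
      rfl
  induction A using MvPolynomial.induction_on' with
  | add p q hp hq => rw [map_add, add_mul, coeff_add, hp, hq, coeff_add, add_mul]
  | monomial a' r =>
    induction B using MvPolynomial.induction_on' with
    | add p q hp hq => rw [map_add, mul_add, coeff_add, hp, hq, coeff_add, mul_add]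
    | monomial b' r' =>
      rw [rename_monomial, rename_monomial, monomial_mul, coeff_monomial, coeff_monomial,
        coeff_monomial]
      by_cases h : a' = a ∧ b' = b
      · rw [if_pos ((key a' b').2 h), if_pos h.1, if_pos h.2]
      · rw [if_neg (fun h' => h ((key a' b').1 h'))]
        by_cases ha : a' = a
        · have hb : ¬ b' = b := fun hb => h ⟨ha, hb⟩
          rw [if_neg hb, mul_zero]
        · rw [if_neg ha, zero_mul]

/-- for a homogeneous polynomial of degree `n`, the coefficient of `X_J ^ n` is the value at the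
`J`-th unit vector -/
theorem S17UA_coeff_single {ν : Type*} [Fintype ν] [DecidableEq ν] (f : MvPolynomial ν Ω)
    (n : ℕ) (hf : f.IsHomogeneous n) (J : ν) :
    coeff (Finsupp.single J n) f = eval (Pi.single J 1) f := by
  classical
  rw [eval_eq']
  rw [Finset.sum_eq_single (Finsupp.single J n)]
  · have : ∏ i, (Pi.single J (1 : Ω) : ν → Ω) i ^ (Finsupp.single J n) i = 1 := by
      refine Finset.prod_eq_one fun i _ => ?_
      by_cases h : i = J
      · subst h
        simp
      · rw [Finsupp.single_eq_of_ne h, pow_zero]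
    rw [this, mul_one]
  · intro m hm hne
    have hdeg : m.degree = n := by
      have := hf (mem_support_iff.1 hm)
      rw [Finsupp.degree_eq_weight_one]
      exact this
    -- some `i ≠ J` has `m i ≠ 0`
    have : ∃ i, i ≠ J ∧ m i ≠ 0 := by
      by_contra hcon
      push Not at hcon
      apply hne
      ext i
      by_cases h : i = J
      · subst h
        rw [Finsupp.single_eq_same, ← hdeg, Finsupp.degree_eq_sum]
        exact (Finset.sum_eq_single i (fun j _ hj => hcon j hj) (fun h => absurd (Finset.mem_univ _) h)).symm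
      · rw [Finsupp.single_eq_of_ne h]
        exact hcon i h
    obtain ⟨i, hi, hmi⟩ := this
    have : ∏ i, (Pi.single J (1 : Ω) : ν → Ω) i ^ m i = 0 := by
      refine Finset.prod_eq_zero (Finset.mem_univ i) ?_
      rw [Pi.single_eq_of_ne hi, zero_pow hmi]
    rw [this, mul_zero]
  · intro h
    rw [notMem_support_iff.1 h, zero_mul]

end alg


/-! ## The polynomials of the U-step -/

section defs

variable {Ω : Type} [Field Ω] {ι : Type} [Fintype ι] {ν : Type} [Fintype ν]

/-- `c(s) = Σ_J s_J M_J` -/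
def S17UA_c (M : ν → ι → Ω) (s : ν → Ω) : ι → Ω := fun j => ∑ J, M J j * s J

/-- the substitution `c_j ↦ Σ_J M_J(j) s_J`, `X_j ↦ X_j` -/
noncomputable def S17UA_gM (M : ν → ι → Ω) : ι ⊕ ι → MvPolynomial (ν ⊕ ι) Ω :=
  Sum.elim (fun j => ∑ J, C (M J j) * X (Sum.inl J)) (fun j => X (Sum.inr j))

/-- `P(s, X) = 𝒞(c(s), X)`, a polynomial in the variables `s` (`inl`) and `X` (`inr`) -/
noncomputable def S17UA_P (chow : MvPolynomial (ι ⊕ ι) Ω) (M : ν → ι → Ω) :
    MvPolynomial (ν ⊕ ι) Ω :=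
  aeval (S17UA_gM M) chow

/-- the substitution `s_J ↦ s_J`, `X_j ↦ (T̂ y)_j = Σ_i (T (i,j) − T (j,i)) y_i` -/
noncomputable def S17UA_theta (ν : Type) (y : ι → Ω) : ν ⊕ ι → MvPolynomial (ν ⊕ ι × ι) Ω :=
  Sum.elim (fun J => X (Sum.inl J))
    (fun j => ∑ i, (X (Sum.inr (i, j)) - X (Sum.inr (j, i))) * C (y i))

/-- `G(s, T) = P(s, T̂ y) = 𝒞(c(s), T̂ y)` -/
noncomputable def S17UA_G (chow : MvPolynomial (ι ⊕ ι) Ω) (M : ν → ι → Ω) (y : ι → Ω) :
    MvPolynomial (ν ⊕ ι × ι) Ω :=
  aeval (S17UA_theta ν y) (S17UA_P chow M)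

theorem S17UA_dot_c (M : ν → ι → Ω) (s : ν → Ω) (x : ι → Ω) :
    S17H_dot (S17UA_c M s) x = ∑ J, s J * S17H_dot (M J) x := by
  simp only [S17H_dot, S17UA_c, Finset.sum_mul, Finset.mul_sum]
  rw [Finset.sum_comm]
  exact Finset.sum_congr rfl fun J _ => Finset.sum_congr rfl fun j _ => by ring

theorem S17UA_eval_P (chow : MvPolynomial (ι ⊕ ι) Ω) (M : ν → ι → Ω) (z : ν ⊕ ι → Ω) :
    eval z (S17UA_P chow M) =
      eval (Sum.elim (S17UA_c M (z ∘ Sum.inl)) (z ∘ Sum.inr)) chow := by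
  unfold S17UA_P
  rw [S17UA_eval_aeval]
  have : (fun v => eval z (S17UA_gM M v)) =
      Sum.elim (S17UA_c M (z ∘ Sum.inl)) (z ∘ Sum.inr) := by
    funext v
    cases v with
    | inl j => simp [S17UA_gM, S17UA_c]
    | inr j => simp [S17UA_gM]
  rw [this]

theorem S17UA_eval_theta (y : ι → Ω) (z : ν ⊕ ι × ι → Ω) (F : MvPolynomial (ν ⊕ ι) Ω) :
    eval z (aeval (S17UA_theta ν y) F) =
      eval (Sum.elim (z ∘ Sum.inl) (S17H_hat (z ∘ Sum.inr) y)) F := by
  rw [S17UA_eval_aeval]
  have : (fun v => eval z (S17UA_theta ν y v)) =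
      Sum.elim (z ∘ Sum.inl) (S17H_hat (z ∘ Sum.inr) y) := by
    funext v
    cases v with
    | inl j => simp [S17UA_theta]
    | inr j => simp [S17UA_theta, S17H_hat]
  rw [this]

theorem S17UA_eval_G (chow : MvPolynomial (ι ⊕ ι) Ω) (M : ν → ι → Ω) (y : ι → Ω)
    (z : ν ⊕ ι × ι → Ω) :
    eval z (S17UA_G chow M y) =
      eval (Sum.elim (S17UA_c M (z ∘ Sum.inl)) (S17H_hat (z ∘ Sum.inr) y)) chow := by
  unfold S17UA_G
  rw [S17UA_eval_theta, S17UA_eval_P]
  rfl

end defs

/-! ## The three analytic inputs of the U-step, as `Prop`s -/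

section props

variable {Ω : Type} [Field Ω] [CharZero Ω] {ι : Type} [Fintype ι]

/-- **(PARAM 1)** `h(P) ≤ k · h(M) + C`. -/
def S17UA_StmtP1 (chow : MvPolynomial (ι ⊕ ι) Ω) (k : ℕ) (ν : Type) [Fintype ν] : Prop :=
  ∃ C : ℝ, ∀ M : ν → ι → Ω,
    S17AG_hpoly (S17UA_P chow M) ≤ k * S17AH_h (fun a : ν × ι => M a.1 a.2) + C

/-- **(PARAM 2)** `h(R(s, T̂ y)) ≤ h(R) + n · h(y) + C` for `R` homogeneous of degree `n` in `X`,
of total degree `≤ D`. -/
def S17UA_StmtP2 (Ω : Type) [Field Ω] [CharZero Ω] (ι : Type) [Fintype ι] (ν : Type)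
    [Fintype ν] (n D : ℕ) : Prop :=
  ∃ C : ℝ, ∀ (R : MvPolynomial (ν ⊕ ι) Ω) (y : ι → Ω),
    (∀ e ∈ R.support, ∑ j, e (Sum.inr j) = n) → R.totalDegree ≤ D →
    S17AG_hpoly (aeval (S17UA_theta ν y) R) ≤ S17AG_hpoly R + n * S17AH_h y + C

/-- **(LOW)** `h(⟨M_J, y⟩_J) + (k−1)(h(M) + h(y)) ≤ h(G) + C`, and `G ≠ 0`, `k ≥ 1`. -/
def S17UA_StmtLow {k : ℕ} (X : S17H_Curve Ω ι k) (ν : Type) [Fintype ν] : Prop :=
  ∃ C : ℝ, ∀ (M : ν → ι → Ω) (y : ι → Ω), y ∈ S17H_V X.I → (∃ J, S17H_dot (M J) y ≠ 0) →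
    1 ≤ k ∧ S17UA_G X.chow M y ≠ 0 ∧
    S17AH_h (fun J => S17H_dot (M J) y) +
        ((k : ℝ) - 1) * (S17AH_h (fun a : ν × ι => M a.1 a.2) + S17AH_h y)
      ≤ S17AG_hpoly (S17UA_G X.chow M y) + C

end props

end Fermat.Agent.S17
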