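import Fermat.Agent.S17.UAbs1

/-!
# TRACK 8 (S17), heights pillar, package UABS, sub-package PARAM, part P2 (helper28), prefix `S17UQ_`

The second "parameter" bound of the abstract U-step (`S17/UAbs1.lean`, helper8):

* `S17UQ_p2` : `S17UA_StmtP2 Ω ι ν n D` — `h(R(s, T̂ y)) ≤ h(R) + n · h(y) + C` for `R`
  homogeneous of degree `n` in `X`, of total degree `≤ D`.
  (`S17UA_StmtP1` is `S17UP_P1`, `S17/UAbsParam.lean`, helper17.)

Method (helper8's sketch): a UNIVERSAL polynomial `𝒰 ∈ MvPolynomial σ (MvPolynomial π Ω)` whose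
coefficients are (multi)homogeneous in the parameters `π`; the polynomial in question is the
specialisation `map (eval x) 𝒰`, and its coefficient vector is the value at `x` of the finite
family `(coeff β 𝒰)_β`; then `S17AH_eval_le'` resp. the height machine `S17C_machine_le`.

* `S17UQ_CWH w Q n` : all coefficients of `Q` are `w`-weighted homogeneous of degree `n`, with
  the closure properties `S17UQ_cwh_*`;
* `S17UQ_hpoly_le_hom`, `S17UQ_hpoly_le_bihom` : the two generic bounds.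
-/

set_option autoImplicit false
set_option linter.unusedSectionVars false
set_option linter.unusedVariables false
set_option linter.style.haveILetI false

open MvPolynomial

namespace Fermat.Agent.S17

/-! ## Polynomials with weighted-homogeneous coefficients -/

section cwh

variable {A : Type*} [CommSemiring A] {π σ : Type*} {W : Type*} [AddCommMonoid W] (w : π → W)

/-- all coefficients of `Q` are `w`-weighted homogeneous of weighted degree `n`. -/
def S17UQ_CWH (Q : MvPolynomial σ (MvPolynomial π A)) (n : W) : Prop :=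
  ∀ β, IsWeightedHomogeneous w (coeff β Q) n

theorem S17UQ_cwh_zero (n : W) : S17UQ_CWH w (0 : MvPolynomial σ (MvPolynomial π A)) n := by
  intro β
  rw [coeff_zero]
  exact isWeightedHomogeneous_zero A w n

theorem S17UQ_cwh_C {r : MvPolynomial π A} {n : W} (hr : IsWeightedHomogeneous w r n) :
    S17UQ_CWH w (C r : MvPolynomial σ (MvPolynomial π A)) n := by
  classical
  intro β
  rw [coeff_C]
  split_ifs
  · exact hr
  · exact isWeightedHomogeneous_zero A w n

theorem S17UQ_cwh_X (v : σ) : S17UQ_CWH w (X v : MvPolynomial σ (MvPolynomial π A)) 0 := by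
  classical
  intro β
  rw [coeff_X]
  split_ifs
  · exact isWeightedHomogeneous_one A w
  · exact isWeightedHomogeneous_zero A w 0

variable {w}

theorem S17UQ_cwh_add {P Q : MvPolynomial σ (MvPolynomial π A)} {n : W}
    (hP : S17UQ_CWH w P n) (hQ : S17UQ_CWH w Q n) : S17UQ_CWH w (P + Q) n := by
  intro β
  rw [coeff_add]
  exact (hP β).add (hQ β)

theorem S17UQ_cwh_mul {P Q : MvPolynomial σ (MvPolynomial π A)} {m n : W}
    (hP : S17UQ_CWH w P m) (hQ : S17UQ_CWH w Q n) : S17UQ_CWH w (P * Q) (m + n) := by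
  classical
  intro β
  rw [coeff_mul]
  exact IsWeightedHomogeneous.sum _ _ _ (fun x _ => (hP x.1).mul (hQ x.2))

theorem S17UQ_cwh_sum {α : Type*} (s : Finset α) (P : α → MvPolynomial σ (MvPolynomial π A))
    (n : W) (h : ∀ a ∈ s, S17UQ_CWH w (P a) n) : S17UQ_CWH w (∑ a ∈ s, P a) n := by
  intro β
  rw [coeff_sum]
  exact IsWeightedHomogeneous.sum _ _ _ (fun a ha => h a ha β)

theorem S17UQ_cwh_one : S17UQ_CWH w (1 : MvPolynomial σ (MvPolynomial π A)) 0 := by
  have h := S17UQ_cwh_C (σ := σ) w (isWeightedHomogeneous_one A w)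
  rwa [C_1] at h

theorem S17UQ_cwh_pow {P : MvPolynomial σ (MvPolynomial π A)} {m : W}
    (hP : S17UQ_CWH w P m) (e : ℕ) : S17UQ_CWH w (P ^ e) (e • m) := by
  induction e with
  | zero =>
    rw [pow_zero, zero_smul]
    exact S17UQ_cwh_one
  | succ e ih =>
    rw [pow_succ, succ_nsmul]
    exact S17UQ_cwh_mul ih hP

theorem S17UQ_cwh_prod {α : Type*} (s : Finset α) (P : α → MvPolynomial σ (MvPolynomial π A))
    (m : α → W) (h : ∀ a ∈ s, S17UQ_CWH w (P a) (m a)) :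
    S17UQ_CWH w (∏ a ∈ s, P a) (∑ a ∈ s, m a) := by
  classical
  induction s using Finset.induction_on with
  | empty =>
    rw [Finset.prod_empty, Finset.sum_empty]
    exact S17UQ_cwh_one
  | insert a s ha ih =>
    rw [Finset.prod_insert ha, Finset.sum_insert ha]
    exact S17UQ_cwh_mul (h a (Finset.mem_insert_self _ _))
      (ih fun b hb => h b (Finset.mem_insert_of_mem hb))

theorem S17UQ_cwh_congr {P : MvPolynomial σ (MvPolynomial π A)} {m n : W}
    (hP : S17UQ_CWH w P m) (h : m = n) : S17UQ_CWH w P n := h ▸ hP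

end cwh

section cwhring

variable {A : Type*} [CommRing A] {π σ : Type*} {W : Type*} [AddCommMonoid W] {w : π → W}

theorem S17UQ_cwh_sub {P Q : MvPolynomial σ (MvPolynomial π A)} {n : W}
    (hP : S17UQ_CWH w P n) (hQ : S17UQ_CWH w Q n) : S17UQ_CWH w (P - Q) n := by
  intro β
  rw [coeff_sub]
  exact (hP β).sub (hQ β)

end cwhring

/-! ## The two generic bounds -/

section bounds

variable {Ω : Type} [Field Ω] [CharZero Ω] [Algebra.IsAlgebraic ℚ Ω]

theorem S17UQ_support_map {π σ : Type} (U : MvPolynomial σ (MvPolynomial π Ω)) (x : π → Ω) :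
    (map (eval x) U).support ⊆ U.support := by
  intro β hβ
  rw [mem_support_iff, coeff_map] at hβ
  rw [mem_support_iff]
  intro h0
  rw [h0, map_zero] at hβ
  exact hβ rfl

/-- **generic bound, one block**: if all coefficients of `𝒰` are homogeneous of degree `N` in the
parameters, then `h(𝒰(x)) ≤ C + N · h(x)`. -/
theorem S17UQ_hpoly_le_hom {π σ : Type} [Finite π] (N : ℕ)
    (U : MvPolynomial σ (MvPolynomial π Ω)) (hU : ∀ β, (coeff β U).IsHomogeneous N) :
    ∃ C : ℝ, ∀ x : π → Ω, S17AG_hpoly (map (eval x) U) ≤ C + N * S17AH_h x := by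
  obtain ⟨C, hC⟩ := S17AH_eval_le' (Ω := Ω) (N := N)
    (p := fun β : ↥U.support => coeff β.1 U) (fun β => hU β.1)
  refine ⟨C, fun x => ?_⟩
  rw [S17HA_hpoly_eq (map (eval x) U) U.support (S17UQ_support_map U x)]
  have h1 : (fun β : ↥U.support => coeff β.1 (map (eval x) U)) =
      fun β : ↥U.support => eval x (coeff β.1 U) := by
    funext β
    rw [coeff_map]
  rw [h1]
  exact hC x

/-- **generic bound, two blocks**: if all coefficients of `𝒰` are bihomogeneous of bidegree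
`(N₁, N₂)` in the parameters `(ρ, y)`, then `h(𝒰(ρ, y)) ≤ C + N₁ · h(ρ) + N₂ · h(y)`. -/
theorem S17UQ_hpoly_le_bihom {E ι σ : Type} [Fintype E] [Fintype ι] (N₁ N₂ : ℕ)
    (U : MvPolynomial σ (MvPolynomial (E ⊕ ι) Ω))
    (hU : ∀ β, IsWeightedHomogeneous (S17C_bw (S17C_b2 E ι)) (coeff β U) (S17C_N2 N₁ N₂)) :
    ∃ C : ℝ, ∀ (ρ : E → Ω) (y : ι → Ω),
      S17AG_hpoly (map (eval (Sum.elim ρ y)) U) ≤ C + N₁ * S17AH_h ρ + N₂ * S17AH_h y := by
  classical
  obtain ⟨C, hC⟩ := S17C_machine_le (S17AH_api.{0} Ω) (S17C_b2 E ι) (S17C_N2 N₁ N₂)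
    (fun β : ↥U.support => coeff β.1 U) (fun β => hU β.1)
  refine ⟨C, fun ρ y => ?_⟩
  rw [S17HA_hpoly_eq (map (eval (Sum.elim ρ y)) U) U.support (S17UQ_support_map U _)]
  have h1 : (fun β : ↥U.support => coeff β.1 (map (eval (Sum.elim ρ y)) U)) =
      fun β : ↥U.support => eval (Sum.elim ρ y) (coeff β.1 U) := by
    funext β
    rw [coeff_map]
  rw [h1]
  have hmain := hC (Sum.elim ρ y)
  have h2 : (S17AH_api.{0} Ω).h
      (fun s : {s : E ⊕ ι // S17C_b2 E ι s = ⟨false⟩} => Sum.elim ρ y s.1) = S17AH_h ρ := by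
    have := S17C_h_comp_bij (S17AH_api.{0} Ω) (fun a : E => (⟨Sum.inl a, rfl⟩ :
      {s : E ⊕ ι // S17C_b2 E ι s = ⟨false⟩})) ⟨fun a a' h =>
        Sum.inl_injective (congrArg Subtype.val h), by
          rintro ⟨s | s, hs⟩
          · exact ⟨s, rfl⟩
          · simp [S17C_b2] at hs⟩ (fun s => Sum.elim ρ y s.1)
    rw [← this]
    rfl
  have h3 : (S17AH_api.{0} Ω).h
      (fun s : {s : E ⊕ ι // S17C_b2 E ι s = ⟨true⟩} => Sum.elim ρ y s.1) = S17AH_h y := by
    have := S17C_h_comp_bij (S17AH_api.{0} Ω) (fun j : ι => (⟨Sum.inr j, rfl⟩ :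
      {s : E ⊕ ι // S17C_b2 E ι s = ⟨true⟩})) ⟨fun a a' h =>
        Sum.inr_injective (congrArg Subtype.val h), by
          rintro ⟨s | s, hs⟩
          · simp [S17C_b2] at hs
          · exact ⟨s, rfl⟩⟩ (fun s => Sum.elim ρ y s.1)
    rw [← this]
    rfl
  rw [S17C_sum_ulift_bool, h2, h3] at hmain
  have e1 : (S17C_N2 N₁ N₂ (⟨false⟩ : ULift.{0} Bool) : ℝ) = N₁ := rfl
  have e2 : (S17C_N2 N₁ N₂ (⟨true⟩ : ULift.{0} Bool) : ℝ) = N₂ := rfl
  rw [e1, e2] at hmain
  have h4 : (S17AH_api.{0} Ω).h (fun β : ↥U.support => eval (Sum.elim ρ y) (coeff β.1 U)) =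
      S17AH_h (fun β : ↥U.support => eval (Sum.elim ρ y) (coeff β.1 U)) := rfl
  rw [h4] at hmain
  linarith

end bounds


/-! ## (PARAM 2) -/

section p2

variable {Ω : Type} [Field Ω] [CharZero Ω] [Algebra.IsAlgebraic ℚ Ω]
  {ι : Type} [Fintype ι] {ν : Type} [Fintype ν]

/-- the index set of the coefficients of `R`: exponents of total degree `≤ D` (entrywise
`≤ D`) and of degree `n` in the right variables. -/
abbrev S17UQ_E (ι ν : Type) [Fintype ι] (n D : ℕ) : Type :=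
  {e : ν ⊕ ι → Fin (D + 1) // ∑ j, ((e (Sum.inr j) : Fin (D + 1)) : ℕ) = n}

noncomputable instance S17UQ_E_fintype (n D : ℕ) : Fintype (S17UQ_E ι ν n D) := by
  classical
  exact inferInstance

/-- the exponent attached to an index. -/
noncomputable def S17UQ_m {n D : ℕ} (e : S17UQ_E ι ν n D) : ν ⊕ ι →₀ ℕ :=
  Finsupp.equivFunOnFinite.symm (fun s => ((e.1 s : Fin (D + 1)) : ℕ))

theorem S17UQ_m_apply {n D : ℕ} (e : S17UQ_E ι ν n D) (s : ν ⊕ ι) :
    S17UQ_m e s = ((e.1 s : Fin (D + 1)) : ℕ) := rfl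

theorem S17UQ_m_injective {n D : ℕ} :
    Function.Injective (S17UQ_m : S17UQ_E ι ν n D → (ν ⊕ ι →₀ ℕ)) := by
  intro e e' h
  apply Subtype.ext
  funext s
  apply Fin.ext
  have := DFunLike.congr_fun h s
  rwa [S17UQ_m_apply, S17UQ_m_apply] at this

/-- every exponent of `R` is attached to an index. -/
theorem S17UQ_m_surj {n D : ℕ} (R : MvPolynomial (ν ⊕ ι) Ω)
    (hR : ∀ e ∈ R.support, ∑ j, e (Sum.inr j) = n) (hD : R.totalDegree ≤ D) :
    ∀ s ∈ R.support, ∃ e : S17UQ_E ι ν n D, S17UQ_m e = s := by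
  intro s hs
  have hle : ∀ v, s v < D + 1 := by
    intro v
    have h1 : s v ≤ s.sum fun _ k => k := by
      rw [Finsupp.sum_fintype _ _ (fun _ => rfl)]
      exact Finset.single_le_sum (f := fun v => s v) (fun _ _ => Nat.zero_le _)
        (Finset.mem_univ v)
    have h2 := le_totalDegree hs
    omega
  refine ⟨⟨fun v => ⟨s v, hle v⟩, hR s hs⟩, ?_⟩
  ext v
  rfl

/-- `R` is the sum of its monomials over the index set. -/
theorem S17UQ_sum_monomial {n D : ℕ} (R : MvPolynomial (ν ⊕ ι) Ω)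
    (hR : ∀ e ∈ R.support, ∑ j, e (Sum.inr j) = n) (hD : R.totalDegree ≤ D) :
    ∑ e : S17UQ_E ι ν n D, monomial (S17UQ_m e) (coeff (S17UQ_m e) R) = R := by
  classical
  conv_rhs => rw [← support_sum_monomial_coeff R]
  rw [← Finset.sum_image (s := (Finset.univ : Finset (S17UQ_E ι ν n D)))
    (g := S17UQ_m) (f := fun s => monomial s (coeff s R))
    (fun a _ b _ h => S17UQ_m_injective h)]
  symm
  apply Finset.sum_subset
  · intro s hs
    obtain ⟨e, rfl⟩ := S17UQ_m_surj R hR hD s hs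
    exact Finset.mem_image_of_mem _ (Finset.mem_univ e)
  · intro s _ hs
    rw [notMem_support_iff.1 hs, monomial_zero]

variable (ι ν) in
/-- the universal substitution `s_J ↦ s_J`, `X_j ↦ (T̂ Y)_j` with `Y` the parameters. -/
noncomputable def S17UQ_Theta (n D : ℕ) :
    ν ⊕ ι → MvPolynomial (ν ⊕ ι × ι) (MvPolynomial (S17UQ_E ι ν n D ⊕ ι) Ω) :=
  Sum.elim (fun J => X (Sum.inl J))
    (fun j => ∑ i, (X (Sum.inr (i, j)) - X (Sum.inr (j, i))) * C (X (Sum.inr i)))

variable (Ω ι ν) in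
/-- the universal polynomial of (PARAM 2). -/
noncomputable def S17UQ_U (n D : ℕ) :
    MvPolynomial (ν ⊕ ι × ι) (MvPolynomial (S17UQ_E ι ν n D ⊕ ι) Ω) :=
  ∑ e : S17UQ_E ι ν n D, C (X (Sum.inl e)) * ∏ s, S17UQ_Theta (Ω := Ω) ι ν n D s ^ S17UQ_m e s

theorem S17UQ_map_Theta (n D : ℕ) (ρ : S17UQ_E ι ν n D → Ω) (y : ι → Ω) (s : ν ⊕ ι) :
    map (eval (Sum.elim ρ y)) (S17UQ_Theta (Ω := Ω) ι ν n D s) = S17UA_theta ν y s := by
  cases s with
  | inl J => simp [S17UQ_Theta, S17UA_theta]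
  | inr j => simp [S17UQ_Theta, S17UA_theta]

theorem S17UQ_map_U (n D : ℕ) (ρ : S17UQ_E ι ν n D → Ω) (y : ι → Ω) :
    map (eval (Sum.elim ρ y)) (S17UQ_U Ω ι ν n D) =
      aeval (S17UA_theta ν y) (∑ e : S17UQ_E ι ν n D, monomial (S17UQ_m e) (ρ e)) := by
  unfold S17UQ_U
  rw [map_sum, map_sum]
  refine Finset.sum_congr rfl fun e _ => ?_
  rw [map_mul, map_C, map_prod, aeval_monomial, eval_X, Sum.elim_inl,
    Finsupp.prod_fintype _ _ (fun _ => pow_zero _)]
  congr 1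
  refine Finset.prod_congr rfl fun s _ => ?_
  rw [map_pow, S17UQ_map_Theta]

/-- the weight of the `T̂ Y`-substitution. -/
theorem S17UQ_cwh_Theta (n D : ℕ) (s : ν ⊕ ι) :
    S17UQ_CWH (S17C_bw (S17C_b2 (S17UQ_E ι ν n D) ι)) (S17UQ_Theta (Ω := Ω) ι ν n D s)
      (Sum.elim (fun _ => 0) (fun _ => Pi.single (⟨true⟩ : ULift.{0} Bool) 1) s) := by
  classical
  cases s with
  | inl J => exact S17UQ_cwh_X _ _
  | inr j =>
    refine S17UQ_cwh_sum _ _ _ fun i _ => ?_
    have h1 := S17UQ_cwh_sub (S17UQ_cwh_X (A := Ω)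
      (S17C_bw (S17C_b2 (S17UQ_E ι ν n D) ι)) (Sum.inr (i, j) : ν ⊕ ι × ι))
      (S17UQ_cwh_X (A := Ω) (S17C_bw (S17C_b2 (S17UQ_E ι ν n D) ι))
        (Sum.inr (j, i) : ν ⊕ ι × ι))
    have h2 := S17UQ_cwh_C (σ := ν ⊕ ι × ι) (S17C_bw (S17C_b2 (S17UQ_E ι ν n D) ι))
      (isWeightedHomogeneous_X (R := Ω) (S17C_bw (S17C_b2 (S17UQ_E ι ν n D) ι))
        (Sum.inr i : S17UQ_E ι ν n D ⊕ ι))
    have h3 := S17UQ_cwh_mul h1 h2
    rw [zero_add] at h3
    exact h3

theorem S17UQ_cwh_U (n D : ℕ) :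
    S17UQ_CWH (S17C_bw (S17C_b2 (S17UQ_E ι ν n D) ι)) (S17UQ_U Ω ι ν n D)
      (S17C_N2 1 n) := by
  classical
  refine S17UQ_cwh_sum _ _ _ fun e _ => ?_
  have h1 := S17UQ_cwh_C (σ := ν ⊕ ι × ι) (S17C_bw (S17C_b2 (S17UQ_E ι ν n D) ι))
    (isWeightedHomogeneous_X (R := Ω) (S17C_bw (S17C_b2 (S17UQ_E ι ν n D) ι))
      (Sum.inl e : S17UQ_E ι ν n D ⊕ ι))
  have h2 := S17UQ_cwh_prod (Finset.univ : Finset (ν ⊕ ι))
    (fun s => S17UQ_Theta (Ω := Ω) ι ν n D s ^ S17UQ_m e s)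
    (fun s => S17UQ_m e s •
      (Sum.elim (fun _ => 0) (fun _ => Pi.single (⟨true⟩ : ULift.{0} Bool) 1) s :
        ULift.{0} Bool → ℕ))
    (fun s _ => S17UQ_cwh_pow (S17UQ_cwh_Theta n D s) _)
  refine S17UQ_cwh_congr (S17UQ_cwh_mul h1 h2) ?_
  funext a
  rw [Fintype.sum_sum_type]
  simp only [Sum.elim_inl, Sum.elim_inr, smul_zero, Finset.sum_const_zero, zero_add,
    Pi.add_apply, Finset.sum_apply, Pi.smul_apply, smul_eq_mul, S17C_bw, S17C_b2]
  have he := e.2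
  rcases a with ⟨_ | _⟩
  · simp [S17C_N2]
  · simp only [S17C_N2, Pi.single_apply]
    simp only [S17UQ_m_apply]
    simpa using he

/-- **(PARAM 2)** `h(R(s, T̂ y)) ≤ h(R) + n · h(y) + C` for `R` homogeneous of degree `n` in `X`,
of total degree `≤ D`. -/
theorem S17UQ_p2 (Ω : Type) [Field Ω] [CharZero Ω] [Algebra.IsAlgebraic ℚ Ω]
    (ι : Type) [Fintype ι] (ν : Type) [Fintype ν] (n D : ℕ) : S17UA_StmtP2 Ω ι ν n D := by
  obtain ⟨C, hC⟩ := S17UQ_hpoly_le_bihom (Ω := Ω) (E := S17UQ_E ι ν n D) (ι := ι) 1 n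
    (S17UQ_U Ω ι ν n D) (S17UQ_cwh_U n D)
  refine ⟨C, fun R y hR hD => ?_⟩
  have h1 := hC (fun e => coeff (S17UQ_m e) R) y
  rw [S17UQ_map_U, S17UQ_sum_monomial R hR hD,
    S17GP_hpoly_eq R S17UQ_m (S17UQ_m_surj R hR hD)] at h1
  push_cast at h1
  linarith

end p2

end Fermat.Agent.S17
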