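import Mathlib
import Fermat.Agent.S17.Iface
import Fermat.Agent.S17.KummerAbs
import Fermat.Agent.S17.Stab
import Fermat.Agent.S17.Kum2d

/-!
# TRACK 8 "MW" (S17), pillar WMW, package ASM-W (helper17): weak Mordell–Weil for `J₀(N)`

`J = JZero N`, `G = Gal(ℚ̄/ℚ)`, `J(ℚ) = J^G`.

* `S17W_UnrStmt N S` : the statement of package UNR:  for every prime `ℓ ∉ S`, every place `A` of
  `ℚ̄` over `ℓ` and every `τ` in the inertia group of `A`:  if `2 • y` is fixed by `τ` then `y` is
  fixed by `τ`  (`τ y - y ∈ J[2]` reduces to `0`, and reduction is injective on `J[2]`).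
* `S17W_main_of`     : (UNR for a finite `S`) + (DIV2) ⇒ (WMW), i.e. `J(ℚ)/2J(ℚ)` is finite.

Proof: `K'` := a finite normal extension of `ℚ` whose Galois group `H` fixes `J[2]` (STAB).  For
`y` with `2y ∈ J(ℚ)` the Kummer cocycle `σ ↦ σ y - y` restricted to `H` is a homomorphism
`H → J[2]`, continuous (STAB) and unramified outside `S` (UNR); these form a finite set (KUM,
Hermite–Minkowski), and the abstract Kummer descent (KA) concludes.
-/

set_option autoImplicit false
set_option linter.style.haveILetI false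

open ModularCurve AlgebraicCurve

namespace Fermat.Agent.S17

/-- the statement of package UNR (for a set `S` of exceptional primes). -/
def S17W_UnrStmt (N : ℕ) [NeZero N] (S : Set ℕ) : Prop :=
  ∀ ℓ : ℕ, ℓ.Prime → ℓ ∉ S → ∀ A : ValuationSubring (AlgebraicClosure ℚ), A.LiesOverPrime ℓ →
    ∀ τ ∈ A.inertiaSubgroupIn ℚ, ∀ y : JZero N, τ • (2 • y) = 2 • y → τ • y = y

/-- the fixing subgroup of a finite extension of `ℚ` inside `ℚ̄` has finite index in `G_ℚ`. -/
theorem S17W_finiteIndex (K' : IntermediateField ℚ (AlgebraicClosure ℚ))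
    [FiniteDimensional ℚ K'] : (K'.fixingSubgroup).FiniteIndex := by
  haveI : IsGalois ℚ (AlgebraicClosure ℚ) := S17K2_isGalois
  have hopen : IsOpen (K'.fixingSubgroup : Set S17_GQ) := K'.fixingSubgroup_isOpen
  haveI : Finite (S17_GQ ⧸ K'.fixingSubgroup) := Subgroup.quotient_finite_of_isOpen _ hopen
  exact Subgroup.finiteIndex_of_finite_quotient

/-- **ASM-W**: weak Mordell–Weil for `J₀(N)` from (UNR), (DIV2) and the landed packages
STAB, KUM, KA. -/
theorem S17W_main_of (N : ℕ) [NeZero N] {S : Set ℕ} (hS : S.Finite)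
    (hU : S17W_UnrStmt N S) (hDIV : S17_DIV2 N) : S17_WMW N := by
  obtain ⟨K', hK'fd, -, hK'⟩ := S17ST_tors2_stab N
  haveI := hK'fd
  haveI : (K'.fixingSubgroup).FiniteIndex := S17W_finiteIndex K'
  have hfix : ∀ σ : S17_GQ, σ ∈ K'.fixingSubgroup → ∀ a ∈ K', σ a = a := by
    intro σ hσ a ha
    exact (IntermediateField.mem_fixingSubgroup_iff K' σ).1 hσ a ha
  refine S17KA_finiteIndex (G := S17_GQ) (J := JZero N) 2 (fun x _ => hDIV x)
    (S17ST_tors2_finite N) K'.fixingSubgroup _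
    (S17K2_finite_cocycles K' hS (S17ST_tors2_finite N)) ?_
  intro y hy
  have hy' : ∀ σ : S17_GQ, σ • (2 • y) = 2 • y := fun σ => hy σ
  refine ⟨fun σ => S17KA_coc_nsmul 2 y (σ : S17_GQ) (hy' σ), fun σ τ => ?_, ?_, ?_⟩
  · have := S17KA_coc_add_on (G := S17_GQ) 2 y hy' (σ : S17_GQ) (τ : S17_GQ)
      (fun t ht => hK' (σ : S17_GQ) (hfix _ σ.2) t ht)
    simpa using this
  · obtain ⟨L, hL, hLσ⟩ := S17ST_open_stab N y
    refine ⟨L, hL, fun σ hσ => ?_⟩
    exact (S17KA_coc_eq_zero_iff y (σ : S17_GQ)).2 (hLσ _ hσ)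
  · intro ℓ hℓ hℓS A hA τ hτ hτK
    exact (S17KA_coc_eq_zero_iff y τ).2 (hU ℓ hℓ hℓS A hA τ hτ y (hy' τ))

end Fermat.Agent.S17
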