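import Fermat.Agent.S17.Unram
import Fermat.Agent.S17.WMW

/-!
# TRACK 8 (S17): UNR in the shape of ASM-W, and weak Mordell–Weil from (DIV2) alone

* `S17U_unrStmt N : S17W_UnrStmt N {ℓ | ℓ ∣ 2 * N}`;
* `S17U_WMW N : S17_DIV2 N → S17_WMW N`.
-/

set_option autoImplicit false

open ModularCurve

namespace Fermat.Agent.S17

/-- **UNR**: the statement `S17W_UnrStmt` for the finite set of primes dividing `2N`. -/
theorem S17U_unrStmt (N : ℕ) [NeZero N] : S17W_UnrStmt N {ℓ : ℕ | ℓ ∣ 2 * N} :=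
  S17U_stmt N

/-- **WMW from DIV2**: `J₀(N)(ℚ) / 2 J₀(N)(ℚ)` is finite as soon as `Pic⁰` is `2`-divisible. -/
theorem S17U_WMW (N : ℕ) [NeZero N] (hDIV : S17_DIV2 N) : S17_WMW N :=
  S17W_main_of N (S17U_finite N) (S17U_unrStmt N) hDIV

end Fermat.Agent.S17
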